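import Fermat.Agent.Pack.S43MC.G0E17L0
import Fermat.Agent.Pack.S43MC.G0E9L0
import Fermat.Agent.Pack.S44C.G0E9L2
import Fermat.Agent.Pack.S43MC.G0E16L0
import Fermat.Agent.Pack.S43MC.G0E17L1
import Fermat.Agent.Pack.S43MC.G0E3L2
import Fermat.Agent.Pack.S43MC.G0E18L1
import Fermat.Agent.Pack.S43MC.G0E18L0
import Fermat.Agent.Pack.S59C.E16L0

set_option linter.all false

-- ===== PACK-BEGIN S45/ModE/H263/AbsInsep.lean
section




/-!
# S45 / CAR3 / MOD-E, leaf ABS-I: the abstract INSEP step (helper263)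

Board `origin/helper928:coord/S45-MODE-helper928.md`, sec. 3, leaf ABS-I.  Mathlib + the
fundamental inequality of helper253 (`S36/H253`, on main) only; no modular curves.

`F / K` finite of prime degree `q`, `O ⊆ K` a discrete valuation ring with uniformiser `ϖ` and
residue characteristic `q`; `s ∈ F` a root of a monic polynomial `Ψ ∈ O[Y]` with
`Ψ ≡ Y ^ q - c` modulo `𝔪_O`, where `c ∈ O` is NOT a `q`-th power modulo `𝔪_O`.  Then

* there is EXACTLY ONE valuation subring `V` of `F` over `O`;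
* `ϖ` is a uniformiser of `V` (`e = 1`), `V` is a discrete valuation ring;
* the residue extension is purely inseparable of degree `q`, elementwise:
  `f ^ q ≡ N_{F/K} f` modulo `𝔪_V` for every `f ∈ V`;
* NOROOT propagates: `s` is not a `q`-th power modulo `𝔪_V`;
* NV: `v_O (N y) = v (ϖ) ^ (q a)` if `v_V (y) = v (ϖ) ^ a`.

Sections:
* `Abs`   : the statements for `[Algebra K F]`, valuation form
            (`exists_over263`, `witness_of_poly263`, `insep_of_witness263`, `absInsep263`);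
* `Along` : the same along a homomorphism `φ : F' →ₐ[E] F` in the vocabulary of
            `S36/Eng/Spec.lean`, UNFOLDED (`UnitAt V y` = `y ≠ 0 ∧ y ∈ V ∧ y⁻¹ ∈ V`,
            `UnifAt V t` = `t ≠ 0 ∧ t ∈ V.nonunits ∧ ∀ f ∈ V.nonunits, f * t⁻¹ ∈ V`), in the
            shapes of the fields of `ModE.PartOnlyE`, `PartValE`, `PartResE`, `PartWitE`
            (`insepStep_of_witness263`, `insepStep263`, `exists_insepStep263`).
-/

set_option autoImplicit false
set_option linter.unusedSectionVars false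
set_option linter.style.haveILetI false

namespace Fermat.Agent.S45.ModE.H263

open scoped BigOperators
open Polynomial
open Fermat.Agent.S35.H253 Fermat.Agent.S36.H253

section Abs

variable {K F : Type*} [Field K] [Field F] [Algebra K F]

/-- **Existence of an extension**: every valuation subring of `K` is the restriction of a
valuation subring of `F`. -/
theorem exists_over263 (O : ValuationSubring K) : ∃ V : ValuationSubring F, Over O V := by
  obtain ⟨A, hA, hloc⟩ := IsLocalRing.exists_factor_valuationRing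
    (R := O) (K := F) ((algebraMap K F).comp O.subtype)
  refine ⟨A, fun a => ⟨fun ha => ?_, fun ha => hA ⟨a, ha⟩⟩⟩
  by_contra hcon
  have hinv : a⁻¹ ∈ O := (O.mem_or_inv_mem a).resolve_left hcon
  have ha0 : a ≠ 0 := fun h0 => hcon (h0 ▸ O.zero_mem)
  have hF0 : algebraMap K F a ≠ 0 := (_root_.map_ne_zero _).2 ha0
  have hu : IsUnit (((algebraMap K F).comp O.subtype).codRestrict A.toSubring hA ⟨a⁻¹, hinv⟩) := by
    refine IsUnit.of_mul_eq_one (⟨algebraMap K F a, ha⟩ : A.toSubring) ?_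
    apply Subtype.ext
    show algebraMap K F a⁻¹ * algebraMap K F a = 1
    rw [map_inv₀, inv_mul_cancel₀ hF0]
  have hu' : IsUnit (⟨a⁻¹, hinv⟩ : O) := hloc.map_nonunit _ hu
  have h1 : O.valuation a⁻¹ = 1 := (ValuationSubring.valuation_eq_one_iff O ⟨a⁻¹, hinv⟩).1 hu'
  apply hcon
  rw [← O.valuation_le_one_iff]
  rw [map_inv₀] at h1
  have h2 : O.valuation a = 1 := by
    rw [← inv_inv (O.valuation a), h1, inv_one]
  exact h2.le

/-- An element of `F` which is a root of a monic polynomial with coefficients in `O` lies in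
every valuation subring over `O`. -/
theorem mem_of_root263 {O : ValuationSubring K} {V : ValuationSubring F} (h : Over O V)
    {Ψ : K[X]} (hm : Ψ.Monic) (hΨ : ∀ k, Ψ.coeff k ∈ O) {s : F} (hs : aeval s Ψ = 0) :
    s ∈ V := by
  refine A2.H48.mem_of_monic_root V (hm.map (algebraMap K F)) (fun i => ?_) ?_
  · rw [coeff_map]
    exact (h _).2 (hΨ i)
  · rw [eval_map_algebraMap]
    exact hs

/-- **The witness of inseparability from the polynomial congruence.**  If `s` is a root of the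
monic `Ψ ∈ O[Y]` and `Ψ ≡ Y ^ q - c` modulo `𝔪_O`, then `s ∈ V` and `s ^ q ≡ c` modulo `𝔪_V` for
every valuation subring `V` of `F` over `O`. -/
theorem witness_of_poly263 {O : ValuationSubring K} {V : ValuationSubring F} (h : Over O V)
    (q : ℕ) {Ψ : K[X]} (hm : Ψ.Monic) (hΨ : ∀ k, Ψ.coeff k ∈ O) {s : F} (hs : aeval s Ψ = 0)
    {c : K} (hcong : ∀ k, (Ψ - (X ^ q - C c)).coeff k ∈ O.nonunits) :
    s ∈ V ∧ s ^ q - algebraMap K F c ∈ V.nonunits := by
  have hsV : s ∈ V := mem_of_root263 h hm hΨ hs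
  refine ⟨hsV, ?_⟩
  set D : K[X] := Ψ - (X ^ q - C c) with hD
  have hΨD : Ψ = (X ^ q - C c) + D := by rw [hD]; ring
  have h0 : s ^ q - algebraMap K F c = - aeval s D := by
    have h1 : aeval s Ψ = (s ^ q - algebraMap K F c) + aeval s D := by
      rw [hΨD, map_add, map_sub, map_pow, aeval_X, aeval_C]
    rw [hs] at h1
    linear_combination -h1
  rw [h0]
  apply V.nonunits.neg_mem
  rw [aeval_eq_sum_range]
  rw [ValuationSubring.mem_nonunits_iff]
  refine val_sum_lt_one _ V _ (fun k _ => ?_)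
  rw [Algebra.smul_def]
  refine val_mul_lt_one_left V ?_ ((V.valuation_le_one_iff _).2 (pow_mem hsV k))
  rw [h.val_lt_one_iff, ← ValuationSubring.mem_nonunits_iff]
  exact hcong k

section Witness

variable {O : ValuationSubring K} {ϖ : K} {V : ValuationSubring F} (h : Over O V)
    (hϖ0 : ϖ ≠ 0) (hϖ : O.valuation ϖ < 1)
    (hdvr : ∀ a : K, a ≠ 0 → ∃ n : ℤ, O.valuation a = O.valuation ϖ ^ n)
    (q : ℕ) (hq : q.Prime) (hqO : O.valuation (q : K) < 1)
    (hdeg : Module.finrank K F = q)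
    {z₀ : F} {c₀ : K} (hz₀ : z₀ ∈ V) (hzc : z₀ ^ q - algebraMap K F c₀ ∈ V.nonunits)
    (hnp : ∀ a : K, a ∈ O → a ^ q - c₀ ∉ O.nonunits)

include h hϖ0 hϖ hdvr hq hqO hdeg hz₀ hzc hnp

/-- **Uniqueness** of the extension in the INSEP case. -/
theorem only_of_witness263 [Module.Finite K F] :
    ∀ W : ValuationSubring F, Over O W → W = V := by
  classical
  intro W hW
  letI alg := resAlgebra h
  obtain ⟨hfr, -, -⟩ := insep_finrank h hϖ0 hϖ hdvr q hq hqO hdeg hz₀ hzc hnp
  have hπ : Function.Surjective (IsLocalRing.residue O) := IsLocalRing.residue_surjective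
  have hρ : Function.Surjective (IsLocalRing.residue V) := IsLocalRing.residue_surjective
  have hc : ∀ (a : O), IsLocalRing.residue V ⟨algebraMap K F a, (h a).2 a.2⟩ =
      algebraMap (IsLocalRing.ResidueField O) (IsLocalRing.ResidueField V)
        (IsLocalRing.residue O a) := fun a => resAlgebra_residue h a
  have hτ : V.valuation (algebraMap K F ϖ) < 1 := (h.val_lt_one_iff ϖ).2 hϖ
  obtain ⟨_, hi⟩ := eq_of_fund_eq (ι := Unit) (V := fun _ => V)
    (τ := fun _ => algebraMap K F ϖ) (E := fun _ => 1)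
    (κ := fun _ => IsLocalRing.ResidueField V)
    (fun _ => h) (fun i i' hii' => absurd (Subsingleton.elim i i') hii') hϖ0 hϖ hdvr
    (fun _ => hτ) (fun _ => by simp)
    (IsLocalRing.residue O) (fun _ => IsLocalRing.residue V) hπ (fun _ => hρ) (fun _ => hc)
    (by simp [hfr, hdeg]) hW
  exact hi

/-- **Pure inseparability**, elementwise: `f ^ q ≡ N f` modulo `𝔪_V`, and `N f ∈ O`. -/
theorem insep_of_witness263 [Module.Finite K F] :
    ∀ f ∈ V, Algebra.norm K f ∈ O ∧ f ^ q - algebraMap K F (Algebra.norm K f) ∈ V.nonunits := by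
  intro f hf
  have h1 := normResInsep_all h hϖ0 hϖ hdvr q hq hqO hdeg hz₀ hzc hnp f hf
  have h2 : f ^ q - algebraMap K F (Algebra.norm K f) ∈ V.nonunits := by
    have := V.nonunits.neg_mem h1
    rwa [neg_sub] at this
  refine ⟨?_, h2⟩
  rw [← h (Algebra.norm K f)]
  have h3 : algebraMap K F (Algebra.norm K f) = f ^ q - (f ^ q - algebraMap K F (Algebra.norm K f)) := by
    ring
  rw [h3]
  exact V.toSubring.sub_mem (pow_mem hf q) (V.nonunits_le h2)

/-- **NOROOT propagates**: the witness `z₀` is not a `q`-th power modulo `𝔪_V`. -/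
theorem noroot_of_witness263 [Module.Finite K F] :
    ∀ u ∈ V, u ^ q - z₀ ∉ V.nonunits := by
  intro u hu hcon
  obtain ⟨hgO, hg⟩ := insep_of_witness263 h hϖ0 hϖ hdvr q hq hqO hdeg hz₀ hzc hnp u hu
  set g := Algebra.norm K u with hgdef
  have hgV : algebraMap K F g ∈ V := (h g).2 hgO
  -- `z₀ ≡ g` modulo `𝔪_V`
  have h1 : z₀ - algebraMap K F g ∈ V.nonunits := by
    have e : z₀ - algebraMap K F g = (u ^ q - algebraMap K F g) - (u ^ q - z₀) := by ring
    rw [e]
    exact V.nonunits.sub_mem hg hcon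
  -- `z₀ ^ q ≡ g ^ q`
  have h2 : z₀ ^ q - algebraMap K F g ^ q ∈ V.nonunits := by
    obtain ⟨r, hr⟩ : ∃ r ∈ V, z₀ ^ q - algebraMap K F g ^ q = (z₀ - algebraMap K F g) * r := by
      refine ⟨∑ i ∈ Finset.range q, z₀ ^ i * algebraMap K F g ^ (q - 1 - i), ?_, ?_⟩
      · exact V.toSubring.sum_mem
          (fun i _ => V.mul_mem _ _ (pow_mem hz₀ i) (pow_mem hgV (q - 1 - i)))
      · rw [mul_comm]
        exact (Commute.all z₀ (algebraMap K F g)).geom_sum₂_mul q |>.symm
    rw [hr.2, ValuationSubring.mem_nonunits_iff]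
    exact val_mul_lt_one_left V ((ValuationSubring.mem_nonunits_iff V).1 h1)
      ((V.valuation_le_one_iff _).2 hr.1)
  -- hence `g ^ q ≡ c₀` modulo `𝔪_O`
  have h3 : algebraMap K F (g ^ q - c₀) ∈ V.nonunits := by
    have e : algebraMap K F (g ^ q - c₀) =
        (z₀ ^ q - algebraMap K F c₀) - (z₀ ^ q - algebraMap K F g ^ q) := by
      rw [map_sub, map_pow]; ring
    rw [e]
    exact V.nonunits.sub_mem hzc h2
  apply hnp g hgO
  rw [ValuationSubring.mem_nonunits_iff, ← h.val_lt_one_iff, ← ValuationSubring.mem_nonunits_iff]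
  exact h3

end Witness

/-- **ABS-I, valuation form.**  `F / K` finite of prime degree `q`; `O ⊆ K` discrete with
uniformiser `ϖ`, residue characteristic `q`; `s` a root of the monic `Ψ ∈ O[Y]`,
`Ψ ≡ Y ^ q - c` modulo `𝔪_O`, `c` not a `q`-th power modulo `𝔪_O`.  Then there is exactly one
valuation subring `V` of `F` over `O`; `s ∈ V`, `s ^ q ≡ c`; the value group of `V` is generated
by `v (ϖ)` (with NV); `f ^ q ≡ N f` for `f ∈ V`; `s` is not a `q`-th power modulo `𝔪_V`. -/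
theorem absInsep263 [Module.Finite K F] {O : ValuationSubring K} {ϖ : K}
    (hϖ0 : ϖ ≠ 0) (hϖ : O.valuation ϖ < 1)
    (hdvr : ∀ a : K, a ≠ 0 → ∃ n : ℤ, O.valuation a = O.valuation ϖ ^ n)
    (q : ℕ) (hq : q.Prime) (hqO : O.valuation (q : K) < 1)
    (hdeg : Module.finrank K F = q)
    {Ψ : K[X]} (hm : Ψ.Monic) (hΨ : ∀ k, Ψ.coeff k ∈ O) {s : F} (hs : aeval s Ψ = 0)
    {c : K} (hcong : ∀ k, (Ψ - (X ^ q - C c)).coeff k ∈ O.nonunits)
    (hnp : ∀ a : K, a ∈ O → a ^ q - c ∉ O.nonunits) :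
    ∃ V : ValuationSubring F, Over O V ∧ (∀ W : ValuationSubring F, Over O W → W = V) ∧
      s ∈ V ∧ s ^ q - algebraMap K F c ∈ V.nonunits ∧
      (∀ y : F, y ≠ 0 → ∃ a : ℤ, V.valuation y = V.valuation (algebraMap K F ϖ) ^ a ∧
        O.valuation (Algebra.norm K y) = O.valuation ϖ ^ ((q : ℤ) * a)) ∧
      (∀ f ∈ V, Algebra.norm K f ∈ O ∧
        f ^ q - algebraMap K F (Algebra.norm K f) ∈ V.nonunits) ∧
      (∀ u ∈ V, u ^ q - s ∉ V.nonunits) := by
  obtain ⟨V, h⟩ := exists_over263 (F := F) O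
  obtain ⟨hsV, hsc⟩ := witness_of_poly263 h q hm hΨ hs hcong
  exact ⟨V, h, only_of_witness263 h hϖ0 hϖ hdvr q hq hqO hdeg hsV hsc hnp, hsV, hsc,
    fun y hy => valNorm_insep h hϖ0 hϖ hdvr q hq hqO hdeg hsV hsc hnp hy,
    insep_of_witness263 h hϖ0 hϖ hdvr q hq hqO hdeg hsV hsc hnp,
    noroot_of_witness263 h hϖ0 hϖ hdvr q hq hqO hdeg hsV hsc hnp⟩

end Abs


/-! ## Generalities on valuation subrings -/

section Gen

variable {F : Type*} [Field F]

/-- A valuation subring whose value group is generated by `v (τ)`, `τ ∈ 𝔪_V`, is a discrete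
valuation ring with uniformiser `τ`. -/
theorem dvr_of_gen263 (V : ValuationSubring F) {τ : F} (hτ0 : τ ≠ 0) (hτ : V.valuation τ < 1)
    (hgrp : ∀ y : F, y ≠ 0 → ∃ a : ℤ, V.valuation y = V.valuation τ ^ a) :
    IsDiscreteValuationRing V ∧
      (τ ≠ 0 ∧ τ ∈ V.nonunits ∧ ∀ f ∈ V.nonunits, f * τ⁻¹ ∈ V) := by
  have hvτ : V.valuation τ ≠ 0 := by rw [Ne, Valuation.zero_iff]; exact hτ0
  have hgen : ∀ f : F, V.valuation f < 1 → f * τ⁻¹ ∈ V := by
    intro f hf
    rw [← V.valuation_le_one_iff, map_mul, map_inv₀]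
    by_cases hf0 : f = 0
    · rw [hf0, map_zero, zero_mul]; exact zero_le_one
    obtain ⟨a, ha⟩ := hgrp f hf0
    have hle : V.valuation f ≤ V.valuation τ := by
      rw [ha] at hf ⊢
      exact zpow_le_self_of_lt_one hvτ hτ hf
    calc V.valuation f * (V.valuation τ)⁻¹ ≤ V.valuation τ * (V.valuation τ)⁻¹ := by gcongr
      _ = 1 := mul_inv_cancel₀ hvτ
  have hτn : τ ∈ V.nonunits := (ValuationSubring.mem_nonunits_iff V).2 hτ
  refine ⟨?_, hτ0, hτn, fun f hf => hgen f ((ValuationSubring.mem_nonunits_iff V).1 hf)⟩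
  have hU : A2.H48.IsUnif V τ := by
    refine ⟨V.nonunits_le hτn, ?_, ?_⟩
    · intro hinv
      have h1 := (V.valuation_le_one_iff _).2 hinv
      rw [map_inv₀] at h1
      have h2 : 1 ≤ V.valuation τ := (inv_le_one₀ (zero_lt_iff.2 hvτ)).1 h1
      exact absurd hτ (not_lt.2 h2)
    · intro f hf hfinv
      apply hgen
      rcases lt_or_eq_of_le ((V.valuation_le_one_iff f).2 hf) with h1 | h1
      · exact h1
      · exfalso
        apply hfinv
        rw [← V.valuation_le_one_iff, map_inv₀, h1, inv_one]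
  refine S36.H972.isDiscreteValuationRing_of_isUnif hU ?_
  intro a
  by_cases ha0 : a = 0
  · exact ⟨0, by rw [ha0, mul_zero]; exact V.zero_mem⟩
  obtain ⟨n, hn⟩ := hgrp a ha0
  refine ⟨(-n).toNat, ?_⟩
  rw [← V.valuation_le_one_iff, map_mul, map_pow, hn, ← zpow_natCast, ← zpow_add₀ hvτ]
  have hnn : (0 : ℤ) ≤ ((-n).toNat : ℤ) + n := by omega
  obtain ⟨m, hm⟩ : ∃ m : ℕ, ((-n).toNat : ℤ) + n = (m : ℤ) := ⟨_, (Int.toNat_of_nonneg hnn).symm⟩
  rw [hm, zpow_natCast]
  exact pow_le_one₀ zero_le hτ.le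

/-- `x ≡ y` modulo `𝔪_V`, `y` a unit of `V`  ⟹  `x / y ≡ 1` modulo `𝔪_V`. -/
theorem div_sub_one_mem263 (V : ValuationSubring F) {x y : F} (hy : V.valuation y = 1)
    (hxy : x - y ∈ V.nonunits) : x * y⁻¹ - 1 ∈ V.nonunits := by
  have hy0 : y ≠ 0 := by
    intro h0; rw [h0, map_zero] at hy; exact zero_ne_one hy
  have e : x * y⁻¹ - 1 = (x - y) * y⁻¹ := by
    field_simp
  rw [e, ValuationSubring.mem_nonunits_iff, map_mul, map_inv₀, hy, inv_one, mul_one]
  exact (ValuationSubring.mem_nonunits_iff V).1 hxy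

end Gen

/-! ## The INSEP step along a homomorphism of fields -/

section Along

open AlgebraicCurve
open Fermat.Agent.S29.H395 (normAlong)

variable {E F F' : Type*} [Field E] [Field F] [Algebra E F] [Field F'] [Algebra E F']

variable (q : ℕ) (φ : F' →ₐ[E] F)

/-- **ABS-I along `φ`, witness form** (type INSEP `(e, f) = (1, q)`).
`O` a discrete valuation ring of `F'` with uniformiser `t'`, `V` over `O` along `φ`,
`[F : φ F'] = q` prime, `q ∈ 𝔪_V`, and a witness of inseparability: `z₀ ∈ V`, `c₀ ∈ F'` with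
`z₀ ^ q ≡ φ c₀` at `V`, `c₀` not a `q`-th power modulo `𝔪_O`.  Then, in this order:

1. ONLY: `V` is the only valuation subring of `F` over `O` along `φ`;
2. `V` is a discrete valuation ring;
3. `φ t'` is a uniformiser of `V` (`e = 1`);
4. INSEP: every `f ∈ V` has `g ∈ O` with `f ^ q ≡ φ g`;
5. NOROOT: `z₀` is not a `q`-th power modulo `𝔪_V`;
6. NR: `φ (N y) ≡ y ^ q` for `y ∈ V`;
7. NV: `v (y) = a` (unit `φ t'`) gives `v' (N y) = q a` (unit `t'`);
8. GOOD: `y ^ q / φ (N y) ≡ 1` modulo `𝔪_V` for every `y ≠ 0` (`ModE.GoodAlong q φ V`). -/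
theorem insepStep_of_witness263 (hfin : FiniteAlong E φ) (hdeg : finrankAlong E φ = q)
    (hq : q.Prime) {O : ValuationSubring F'} {V : ValuationSubring F}
    (hc : V.comap (φ : F' →+* F) = O)
    (hO : IsDiscreteValuationRing O)
    {t' : F'} (ht' : t' ≠ 0 ∧ t' ∈ O.nonunits ∧ ∀ f ∈ O.nonunits, f * t'⁻¹ ∈ O)
    (hqV : (q : F) ∈ V.nonunits)
    {z₀ : F} {c₀ : F'} (hz₀ : z₀ ∈ V) (hzc : z₀ ^ q - φ c₀ ∈ V.nonunits)
    (hnp : ∀ a : F', a ∈ O → a ^ q - c₀ ∉ O.nonunits) :
    (∀ U : ValuationSubring F, U.comap (φ : F' →+* F) = O → U = V) ∧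
      IsDiscreteValuationRing V ∧
      (φ t' ≠ 0 ∧ φ t' ∈ V.nonunits ∧ ∀ f ∈ V.nonunits, f * (φ t')⁻¹ ∈ V) ∧
      (∀ f ∈ V, ∃ g ∈ O, f ^ q - φ g ∈ V.nonunits) ∧
      (∀ u ∈ V, u ^ q - z₀ ∉ V.nonunits) ∧
      (∀ y ∈ V, φ (normAlong φ y) - y ^ q ∈ V.nonunits) ∧
      (∀ (y : F) (a : ℤ), y ≠ 0 →
        (y * (φ t' ^ a)⁻¹ ≠ 0 ∧ y * (φ t' ^ a)⁻¹ ∈ V ∧ (y * (φ t' ^ a)⁻¹)⁻¹ ∈ V) →
        (normAlong φ y * (t' ^ ((q : ℤ) * a))⁻¹ ≠ 0 ∧
          normAlong φ y * (t' ^ ((q : ℤ) * a))⁻¹ ∈ O ∧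
          (normAlong φ y * (t' ^ ((q : ℤ) * a))⁻¹)⁻¹ ∈ O)) ∧
      (∀ y : F, y ≠ 0 → y ^ q * (φ (normAlong φ y))⁻¹ - 1 ∈ V.nonunits) := by
  letI := algebraAlong φ
  haveI : Module.Finite F' F := hfin
  have ho : Over O V := over_of_comap φ hc
  have hdvr := hdvr_of_dvr O hO ht'
  have hϖ : O.valuation t' < 1 := (ValuationSubring.mem_nonunits_iff O).1 ht'.2.1
  have hqO : O.valuation ((q : ℕ) : F') < 1 := by
    rw [← ho.val_lt_one_iff, map_natCast]; exact (ValuationSubring.mem_nonunits_iff V).1 hqV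
  have hdeg' : Module.finrank F' F = q := hdeg
  have hzc' : z₀ ^ q - algebraMap F' F c₀ ∈ V.nonunits := hzc
  have hφ0 : φ t' ≠ 0 := (_root_.map_ne_zero _).2 ht'.1
  have hϖV : V.valuation (φ t') < 1 := (ho.val_lt_one_iff t').2 hϖ
  have hvφ : V.valuation (φ t') ≠ 0 := by rw [Ne, Valuation.zero_iff]; exact hφ0
  have hNV := fun (y : F) (hy : y ≠ 0) =>
    valNorm_insep ho ht'.1 hϖ hdvr q hq hqO hdeg' hz₀ hzc' hnp hy
  have hgrp : ∀ y : F, y ≠ 0 → ∃ a : ℤ, V.valuation y = V.valuation (φ t') ^ a :=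
    fun y hy => by
      obtain ⟨a, ha, -⟩ := hNV y hy
      exact ⟨a, ha⟩
  obtain ⟨hD, hU⟩ := dvr_of_gen263 V hφ0 hϖV hgrp
  have hNR : ∀ y ∈ V, φ (normAlong φ y) - y ^ q ∈ V.nonunits :=
    normResInsep_all ho ht'.1 hϖ hdvr q hq hqO hdeg' hz₀ hzc' hnp
  have hnormφ : ∀ a : F', normAlong φ (φ a) = a ^ q := by
    intro a
    have h1 : Algebra.norm F' (algebraMap F' F a) = a ^ Module.finrank F' F :=
      Algebra.norm_algebraMap a
    rw [hdeg'] at h1
    exact h1
  have hnormmul : ∀ x y : F, normAlong φ (x * y) = normAlong φ x * normAlong φ y :=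
    fun x y => map_mul (Algebra.norm F') x y
  refine ⟨?_, hD, hU, ?_, ?_, hNR, ?_, ?_⟩
  · intro U hU'
    exact only_of_witness263 ho ht'.1 hϖ hdvr q hq hqO hdeg' hz₀ hzc' hnp U
      (over_of_comap φ hU')
  · intro f hf
    obtain ⟨h1, h2⟩ := insep_of_witness263 ho ht'.1 hϖ hdvr q hq hqO hdeg' hz₀ hzc' hnp f hf
    exact ⟨_, h1, h2⟩
  · exact noroot_of_witness263 ho ht'.1 hϖ hdvr q hq hqO hdeg' hz₀ hzc' hnp
  · intro y a hy0 hya
    obtain ⟨a', ha', hN⟩ := hNV y hy0
    have e2 := val_eq_zpow_of_unitAt V hφ0 a hya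
    have ha'' : V.valuation y = V.valuation (φ t') ^ a' := ha'
    rw [e2] at ha''
    have e3 : a' = a := (zpow_inj_of_val V hφ0 hϖV ha'').symm
    rw [e3] at hN
    exact unitAt_of_val_eq_zpow O ht'.1 ((q : ℤ) * a) hN
  · -- GOOD
    intro y hy0
    obtain ⟨a, ha⟩ := hgrp y hy0
    -- `y = u * (φ t') ^ a`, `u` a unit of `V`
    set u : F := y * (φ t' ^ a)⁻¹ with hu
    have hpow0 : φ t' ^ a ≠ 0 := zpow_ne_zero _ hφ0
    have hu0 : u ≠ 0 := mul_ne_zero hy0 (inv_ne_zero hpow0)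
    have huv : V.valuation u = 1 := by
      rw [hu, map_mul, map_inv₀, map_zpow₀, ha, mul_inv_cancel₀ (zpow_ne_zero _ hvφ)]
    have huV : u ∈ V := (V.valuation_le_one_iff _).1 huv.le
    have hyu : y = u * φ (t' ^ a) := by
      rw [hu, map_zpow₀, inv_mul_cancel_right₀ hpow0]
    have hNy : normAlong φ y = normAlong φ u * (t' ^ a) ^ q := by
      rw [hyu, hnormmul, hnormφ]
    have hNu0 : normAlong φ u ≠ 0 := Fermat.Agent.S29.H395.normAlong_ne_zero φ hfin hu0
    have hta0 : t' ^ a ≠ 0 := zpow_ne_zero _ ht'.1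
    have e : y ^ q * (φ (normAlong φ y))⁻¹ = u ^ q * (φ (normAlong φ u))⁻¹ := by
      rw [hNy, map_mul, map_pow]
      nth_rewrite 1 [hyu]
      have h1 : φ (normAlong φ u) ≠ 0 := (_root_.map_ne_zero _).2 hNu0
      have h2 : φ (t' ^ a) ≠ 0 := (_root_.map_ne_zero _).2 hta0
      field_simp
      ring
    rw [e]
    -- `φ (N u) ≡ u ^ q`, both units
    have h1 := hNR u huV
    have huq : V.valuation (u ^ q) = 1 := by rw [map_pow, huv, one_pow]
    have hNuv : V.valuation (φ (normAlong φ u)) = 1 := by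
      have h2 : V.valuation (φ (normAlong φ u) - u ^ q) < 1 :=
        (ValuationSubring.mem_nonunits_iff V).1 h1
      have h3 : φ (normAlong φ u) = u ^ q + (φ (normAlong φ u) - u ^ q) := by ring
      rw [h3]
      rw [Valuation.map_add_eq_of_lt_left _ (by rw [huq]; exact h2), huq]
    refine div_sub_one_mem263 V hNuv ?_
    have := V.nonunits.neg_mem h1
    rwa [neg_sub] at this

/-- **ABS-I along `φ`, polynomial form.**  As `insepStep_of_witness263`, with the witness given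
by a root `s` of a monic polynomial `Ψ` with coefficients in `O` and `Ψ ≡ Y ^ q - c` modulo
`𝔪_O` (board: `Ψ = Φ_q(J n, Y) / (Y - J (n - 1))`, `s = J (n + 1)`, `c = J n`).  In addition
`s ∈ V` and `s ^ q ≡ φ c` (the last VERSCHIEBUNG congruence of KRON-E). -/
theorem insepStep263 (hfin : FiniteAlong E φ) (hdeg : finrankAlong E φ = q)
    (hq : q.Prime) {O : ValuationSubring F'} {V : ValuationSubring F}
    (hc : V.comap (φ : F' →+* F) = O)
    (hO : IsDiscreteValuationRing O)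
    {t' : F'} (ht' : t' ≠ 0 ∧ t' ∈ O.nonunits ∧ ∀ f ∈ O.nonunits, f * t'⁻¹ ∈ O)
    (hqV : (q : F) ∈ V.nonunits)
    {Ψ : F'[X]} (hm : Ψ.Monic) (hΨ : ∀ k, Ψ.coeff k ∈ O) {s : F}
    (hs : (Ψ.map (φ : F' →+* F)).eval s = 0)
    {c : F'} (hcong : ∀ k, (Ψ - (X ^ q - C c)).coeff k ∈ O.nonunits)
    (hnp : ∀ a : F', a ∈ O → a ^ q - c ∉ O.nonunits) :
    (s ∈ V ∧ s ^ q - φ c ∈ V.nonunits) ∧
    (∀ U : ValuationSubring F, U.comap (φ : F' →+* F) = O → U = V) ∧
      IsDiscreteValuationRing V ∧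
      (φ t' ≠ 0 ∧ φ t' ∈ V.nonunits ∧ ∀ f ∈ V.nonunits, f * (φ t')⁻¹ ∈ V) ∧
      (∀ f ∈ V, ∃ g ∈ O, f ^ q - φ g ∈ V.nonunits) ∧
      (∀ u ∈ V, u ^ q - s ∉ V.nonunits) ∧
      (∀ y ∈ V, φ (normAlong φ y) - y ^ q ∈ V.nonunits) ∧
      (∀ (y : F) (a : ℤ), y ≠ 0 →
        (y * (φ t' ^ a)⁻¹ ≠ 0 ∧ y * (φ t' ^ a)⁻¹ ∈ V ∧ (y * (φ t' ^ a)⁻¹)⁻¹ ∈ V) →
        (normAlong φ y * (t' ^ ((q : ℤ) * a))⁻¹ ≠ 0 ∧
          normAlong φ y * (t' ^ ((q : ℤ) * a))⁻¹ ∈ O ∧
          (normAlong φ y * (t' ^ ((q : ℤ) * a))⁻¹)⁻¹ ∈ O)) ∧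
      (∀ y : F, y ≠ 0 → y ^ q * (φ (normAlong φ y))⁻¹ - 1 ∈ V.nonunits) := by
  have hw : s ∈ V ∧ s ^ q - φ c ∈ V.nonunits := by
    letI := algebraAlong φ
    have ho : Over O V := over_of_comap φ hc
    have hs' : aeval s Ψ = 0 := by
      rw [← eval_map_algebraMap]
      exact hs
    exact witness_of_poly263 ho q hm hΨ hs' hcong
  exact ⟨hw, insepStep_of_witness263 q φ hfin hdeg hq hc hO ht' hqV hw.1 hw.2 hnp⟩

/-- **Existence of an extension along `φ`.** -/
theorem exists_comap_eq263 (O : ValuationSubring F') :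
    ∃ V : ValuationSubring F, V.comap (φ : F' →+* F) = O := by
  letI := algebraAlong φ
  obtain ⟨V, hV⟩ := exists_over263 (F := F) O
  refine ⟨V, ?_⟩
  ext a
  rw [ValuationSubring.mem_comap]
  exact hV a

/-- **ABS-I along `φ`, existence form**: there is EXACTLY ONE valuation subring `V` of `F` over
`O` along `φ`, and it has the properties of `insepStep263`.  (`q ∈ 𝔪_O` is the residue
characteristic hypothesis.) -/
theorem exists_insepStep263 (hfin : FiniteAlong E φ) (hdeg : finrankAlong E φ = q)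
    (hq : q.Prime) {O : ValuationSubring F'}
    (hO : IsDiscreteValuationRing O)
    {t' : F'} (ht' : t' ≠ 0 ∧ t' ∈ O.nonunits ∧ ∀ f ∈ O.nonunits, f * t'⁻¹ ∈ O)
    (hqO : (q : F') ∈ O.nonunits)
    {Ψ : F'[X]} (hm : Ψ.Monic) (hΨ : ∀ k, Ψ.coeff k ∈ O) {s : F}
    (hs : (Ψ.map (φ : F' →+* F)).eval s = 0)
    {c : F'} (hcong : ∀ k, (Ψ - (X ^ q - C c)).coeff k ∈ O.nonunits)
    (hnp : ∀ a : F', a ∈ O → a ^ q - c ∉ O.nonunits) :
    ∃ V : ValuationSubring F, V.comap (φ : F' →+* F) = O ∧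
      (s ∈ V ∧ s ^ q - φ c ∈ V.nonunits) ∧
      (∀ U : ValuationSubring F, U.comap (φ : F' →+* F) = O → U = V) ∧
      IsDiscreteValuationRing V ∧
      (φ t' ≠ 0 ∧ φ t' ∈ V.nonunits ∧ ∀ f ∈ V.nonunits, f * (φ t')⁻¹ ∈ V) ∧
      (∀ f ∈ V, ∃ g ∈ O, f ^ q - φ g ∈ V.nonunits) ∧
      (∀ u ∈ V, u ^ q - s ∉ V.nonunits) ∧
      (∀ y ∈ V, φ (normAlong φ y) - y ^ q ∈ V.nonunits) ∧
      (∀ (y : F) (a : ℤ), y ≠ 0 →
        (y * (φ t' ^ a)⁻¹ ≠ 0 ∧ y * (φ t' ^ a)⁻¹ ∈ V ∧ (y * (φ t' ^ a)⁻¹)⁻¹ ∈ V) →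
        (normAlong φ y * (t' ^ ((q : ℤ) * a))⁻¹ ≠ 0 ∧
          normAlong φ y * (t' ^ ((q : ℤ) * a))⁻¹ ∈ O ∧
          (normAlong φ y * (t' ^ ((q : ℤ) * a))⁻¹)⁻¹ ∈ O)) ∧
      (∀ y : F, y ≠ 0 → y ^ q * (φ (normAlong φ y))⁻¹ - 1 ∈ V.nonunits) := by
  obtain ⟨V, hc⟩ := exists_comap_eq263 φ O
  have hqV : (q : F) ∈ V.nonunits := by
    have h1 : ((q : F') : F') ∈ (V.comap (φ : F' →+* F)).nonunits := by rw [hc]; exact hqO
    rw [ValuationSubring.mem_nonunits_iff] at h1 ⊢
    have h2 : (V.comap (φ : F' →+* F)).valuation ((q : ℕ) : F') < 1 := h1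
    rw [← ValuationSubring.mem_nonunits_iff, ValuationSubring.mem_nonunits_iff_or] at h2
    rw [← ValuationSubring.mem_nonunits_iff, ValuationSubring.mem_nonunits_iff_or]
    rcases h2 with h2 | h2
    · left
      have : (φ : F' →+* F) ((q : ℕ) : F') = 0 := by rw [h2, map_zero]
      simpa using this
    · right
      intro h3
      apply h2
      rw [ValuationSubring.mem_comap, map_inv₀]
      simpa using h3
  exact ⟨V, hc, insepStep263 q φ hfin hdeg hq hc hO ht' hqV hm hΨ hs hcong hnp⟩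

end Along

end Fermat.Agent.S45.ModE.H263

end
-- ===== PACK-END S45/ModE/H263/AbsInsep.lean

-- ===== PACK-BEGIN S45/VT/H835/OneStep.lean
section


/-!
# S45 / CAR3 engine, MOD-E/Val (helper835): ONE extension of a discrete valuation ring

Mathlib + helper253's fundamental inequality (`S36/H253/FundIneq.lean`, `NormAdapt.lean`, both on
main) only.
Abstract form of the two ONE-extension types of the `(e, f)` table of level `q ^ e`
(board `origin/helper48:coord/CAR3-S45.md` sec. 2, memo `origin/helper441` sec. 2):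

`F / K` finite, `O ⊆ K` discrete with uniformiser `ϖ`, `V` a valuation subring of `F` over `O`.

* `one_ext_ram835` (type WILD, `(e, f) = (q, 1)`):  `τ ∈ 𝔪_V` with `v (ϖ) = v (τ) ^ e` and
  `[F : K] ≤ e`.  Then `[F : K] = e`, `V` is the ONLY valuation subring of `F` over `O`, the
  residue degree is one (elementwise), `τ` generates `𝔪_V`, the value group of `V` is generated by
  `v (τ)`, and NV  `v_O (N y) = v (ϖ) ^ a` if `v (y) = v (τ) ^ a`,  NR  `N y ≡ c ^ e` if `y ≡ c`.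
* `one_ext_insep835` (type INSEP, `(e, f) = (1, q)`):  `q` prime `= ` residue characteristic,
  `[F : K] = q`, `z₀ ∈ V` with `z₀ ^ q ≡ c₀` and `c₀` not a `q`-th power modulo `𝔪_O`.  Then `V` is
  the ONLY valuation subring of `F` over `O`, `ϖ` generates `𝔪_V`, the residue extension is purely
  inseparable (elementwise: `f ^ q ≡ N f`), NV `v_O (N y) = v (ϖ) ^ (q a)`, NR `N y ≡ y ^ q`.
* `ram_of_unit835`, `val_lt_one_of_pow835` : the hypothesis `v (ϖ) = v (τ) ^ e` from
  `τ ^ e = ϖ · unit`.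
* `ram_of_eis835` : the hypothesis `v (ϖ) = v (τ) ^ e` from an Eisenstein relation
  `τ ^ e = ϖ u + τ m`, `u` a unit of `V`, `v (m) ≤ v (ϖ)`.
-/

set_option autoImplicit false
set_option linter.unusedSectionVars false
set_option linter.style.haveILetI false

namespace Fermat.Agent.S45.VT.H835

open scoped BigOperators
open Fermat.Agent.S35.H253 Fermat.Agent.S36.H253

/-! ## Counting lemmas (off helper253's fundamental inequality) -/

section Res

variable {K F : Type*} [Field K] [Field F] [Algebra K F]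
variable {ι : Type*} [Fintype ι]
    {O : ValuationSubring K} {ϖ : K} {V : ι → ValuationSubring F} {τ : ι → F} {E : ι → ℕ}
    (hover : ∀ i, Over O (V i)) (hinc : ∀ i i', i ≠ i' → ¬ V i ≤ V i')
    (hϖ0 : ϖ ≠ 0) (hϖ : O.valuation ϖ < 1)
    (hdvr : ∀ a : K, a ≠ 0 → ∃ n : ℤ, O.valuation a = O.valuation ϖ ^ n)
    (hτ : ∀ i, (V i).valuation (τ i) < 1)
    (hram : ∀ i, (V i).valuation (algebraMap K F ϖ) = (V i).valuation (τ i) ^ E i)

include hover hinc hϖ0 hϖ hdvr hτ hram

/-- The sum of the ramification lower bounds is at most the degree. -/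
theorem sum_le_finrank_vt835 [Module.Finite K F] : ∑ i, E i ≤ Module.finrank K F := by
  classical
  letI alg : ∀ i, Algebra (IsLocalRing.ResidueField O) (IsLocalRing.ResidueField (V i)) :=
    fun i => resAlgebra (hover i)
  have hπ : Function.Surjective (IsLocalRing.residue O) := IsLocalRing.residue_surjective
  have hρ : ∀ i, Function.Surjective (IsLocalRing.residue (V i)) :=
    fun i => IsLocalRing.residue_surjective
  have hc : ∀ i (a : O), IsLocalRing.residue (V i) ⟨algebraMap K F a, ((hover i) a).2 a.2⟩ =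
      algebraMap (IsLocalRing.ResidueField O) (IsLocalRing.ResidueField (V i))
        (IsLocalRing.residue O a) := fun i a => resAlgebra_residue (hover i) a
  have hfin : ∀ i, Module.Finite (IsLocalRing.ResidueField O)
      (IsLocalRing.ResidueField (V i)) := fun i =>
    finite_residue_dvr hover hϖ0 hϖ hdvr hτ hram (IsLocalRing.residue O)
      (fun i => IsLocalRing.residue (V i)) hπ hρ hc i
  have key := fund_ineq_dvr hover hinc hϖ0 hϖ hdvr hτ hram (IsLocalRing.residue O)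
    (fun i => IsLocalRing.residue (V i)) hπ hρ hc
  refine le_trans (Finset.sum_le_sum fun i _ => ?_) key
  exact Nat.le_mul_of_pos_right _ Module.finrank_pos

/-- **Residue degree one, elementwise** (split case): if `∑ i, E i = [F : K]`, every element of
`V i₀` is congruent modulo the maximal ideal to an element of `O`. -/
theorem res_split_vt835 [Module.Finite K F] (hdeg : ∑ i, E i = Module.finrank K F) (i₀ : ι)
    {f : F} (hf : f ∈ V i₀) :
    ∃ g ∈ O, f - algebraMap K F g ∈ (V i₀).nonunits := by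
  classical
  letI alg : ∀ i, Algebra (IsLocalRing.ResidueField O) (IsLocalRing.ResidueField (V i)) :=
    fun i => resAlgebra (hover i)
  have hπ : Function.Surjective (IsLocalRing.residue O) := IsLocalRing.residue_surjective
  have hρ : ∀ i, Function.Surjective (IsLocalRing.residue (V i)) :=
    fun i => IsLocalRing.residue_surjective
  have hc : ∀ i (a : O), IsLocalRing.residue (V i) ⟨algebraMap K F a, ((hover i) a).2 a.2⟩ =
      algebraMap (IsLocalRing.ResidueField O) (IsLocalRing.ResidueField (V i))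
        (IsLocalRing.residue O a) := fun i a => resAlgebra_residue (hover i) a
  have hfin : ∀ i, Module.Finite (IsLocalRing.ResidueField O)
      (IsLocalRing.ResidueField (V i)) := fun i =>
    finite_residue_dvr hover hϖ0 hϖ hdvr hτ hram (IsLocalRing.residue O)
      (fun i => IsLocalRing.residue (V i)) hπ hρ hc i
  have hf1 : ∀ i, (fun _ : ι => 1) i ≤
      Module.finrank (IsLocalRing.ResidueField O) (IsLocalRing.ResidueField (V i)) :=
    fun i => Module.finrank_pos
  have heq : ∑ i, E i * (fun _ : ι => 1) i = Module.finrank K F := by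
    rw [← hdeg]; exact Finset.sum_congr rfl fun i _ => mul_one _
  have hfr := finrank_eq_of_fund_eq hover hinc hϖ0 hϖ (genO_of_dvr hϖ0 hϖ hdvr) hτ
    (fun i _ hz => exists_pow_le_of_dvr (hover i) hϖ0 hϖ hdvr hz) hram (IsLocalRing.residue O)
    (fun i => IsLocalRing.residue (V i)) hπ hρ hc (fun _ => 1) hf1 heq i₀
  -- the residue field extension is trivial
  have hbot : (⊥ : Subalgebra (IsLocalRing.ResidueField O) (IsLocalRing.ResidueField (V i₀)))
      = ⊤ := Subalgebra.bot_eq_top_of_finrank_eq_one hfr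
  have hmem : IsLocalRing.residue (V i₀) ⟨f, hf⟩ ∈
      (⊥ : Subalgebra (IsLocalRing.ResidueField O) (IsLocalRing.ResidueField (V i₀))) := by
    rw [hbot]; exact Algebra.mem_top
  obtain ⟨c, hcf⟩ := Algebra.mem_bot.mp hmem
  obtain ⟨a, rfl⟩ := hπ c
  refine ⟨a, a.2, ?_⟩
  have h1 : IsLocalRing.residue (V i₀) ⟨f, hf⟩
      = IsLocalRing.residue (V i₀) ⟨algebraMap K F a, ((hover i₀) a).2 a.2⟩ := by
    rw [hc i₀ a]; exact hcf.symm
  have h2 : IsLocalRing.residue (V i₀)
      (⟨f, hf⟩ - ⟨algebraMap K F a, ((hover i₀) a).2 a.2⟩) = 0 := by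
    rw [map_sub, h1, sub_self]
  have h3 := (IsLocalRing.residue_eq_zero_iff _).mp h2
  rw [ValuationSubring.valuation_lt_one_iff, ← ValuationSubring.mem_nonunits_iff] at h3
  exact h3

end Res

section Wild

variable {K F : Type*} [Field K] [Field F] [Algebra K F]

/-- **One extension, totally ramified (type WILD `(e, f) = (e, 1)`), counting form.** -/
theorem one_ext_ram835 [Module.Finite K F] {O : ValuationSubring K} {ϖ : K}
    {V : ValuationSubring F} (h : Over O V)
    (hϖ0 : ϖ ≠ 0) (hϖ : O.valuation ϖ < 1)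
    (hdvr : ∀ a : K, a ≠ 0 → ∃ n : ℤ, O.valuation a = O.valuation ϖ ^ n)
    {τ : F} {e : ℕ} (hτ : V.valuation τ < 1)
    (hram : V.valuation (algebraMap K F ϖ) = V.valuation τ ^ e)
    (hle : Module.finrank K F ≤ e) :
    Module.finrank K F = e ∧
      (∀ W : ValuationSubring F, Over O W → W = V) ∧
      (∀ f ∈ V, ∃ g ∈ O, f - algebraMap K F g ∈ V.nonunits) ∧
      (∀ z : F, V.valuation z < 1 → V.valuation z ≤ V.valuation τ) ∧
      (∀ y : F, y ≠ 0 → ∃ a : ℤ, V.valuation y = V.valuation τ ^ a ∧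
          O.valuation (Algebra.norm K y) = O.valuation ϖ ^ a) ∧
      (∀ y ∈ V, ∀ c : K, y - algebraMap K F c ∈ V.nonunits →
          Algebra.norm K y - c ^ e ∈ O.nonunits) := by
  classical
  have hover : ∀ i : Unit, Over O ((fun _ : Unit => V) i) := fun _ => h
  have hinc : ∀ i i' : Unit, i ≠ i' → ¬ (fun _ : Unit => V) i ≤ (fun _ : Unit => V) i' :=
    fun i i' hii' => absurd (Subsingleton.elim i i') hii'
  have hτ' : ∀ i : Unit, ((fun _ : Unit => V) i).valuation ((fun _ : Unit => τ) i) < 1 :=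
    fun _ => hτ
  have hram' : ∀ i : Unit, ((fun _ : Unit => V) i).valuation (algebraMap K F ϖ) =
      ((fun _ : Unit => V) i).valuation ((fun _ : Unit => τ) i) ^ (fun _ : Unit => e) i :=
    fun _ => hram
  have hsum : ∑ i : Unit, (fun _ : Unit => e) i = e := by simp
  have hge := sum_le_finrank_vt835 hover hinc hϖ0 hϖ hdvr hτ' hram'
  rw [hsum] at hge
  have hdeg : ∑ i : Unit, (fun _ : Unit => e) i = Module.finrank K F := by
    rw [hsum]; exact le_antisymm hge hle
  refine ⟨le_antisymm hle hge, ?_, ?_, ?_, ?_, ?_⟩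
  · intro W hW
    obtain ⟨i, hi⟩ := eq_split hover hinc hϖ0 hϖ hdvr hτ' hram' hdeg hW
    exact hi
  · intro f hf
    exact res_split_vt835 hover hinc hϖ0 hϖ hdvr hτ' hram' hdeg () hf
  · intro z hz
    exact gen_split hover hinc hϖ0 hϖ hdvr hτ' hram' hdeg () z hz
  · intro y hy
    obtain ⟨a, ha, hN⟩ := valNorm_split hover hinc hϖ0 hϖ hdvr hτ' hram' hdeg hy
    refine ⟨a (), ha (), ?_⟩
    rw [hN]
    simp
  · intro y hy c hyc
    have key := normRes_split hover hinc hϖ0 hϖ hdvr hτ' hram' hdeg (y := y) (fun _ => hy)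
      (fun _ => c) (fun _ => hyc)
    simpa using key

end Wild

section Insep

variable {K F : Type*} [Field K] [Field F] [Algebra K F]

/-- **One extension, purely inseparable residue extension (type INSEP `(e, f) = (1, q)`).** -/
theorem one_ext_insep835 [Module.Finite K F] {O : ValuationSubring K} {ϖ : K}
    {V : ValuationSubring F} (h : Over O V)
    (hϖ0 : ϖ ≠ 0) (hϖ : O.valuation ϖ < 1)
    (hdvr : ∀ a : K, a ≠ 0 → ∃ n : ℤ, O.valuation a = O.valuation ϖ ^ n)
    (q : ℕ) (hq : q.Prime) (hqO : O.valuation (q : K) < 1)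
    (hdeg : Module.finrank K F = q)
    {z₀ : F} {c₀ : K} (hz₀ : z₀ ∈ V) (hzc : z₀ ^ q - algebraMap K F c₀ ∈ V.nonunits)
    (hnp : ∀ a : K, a ∈ O → a ^ q - c₀ ∉ O.nonunits) :
    (∀ W : ValuationSubring F, Over O W → W = V) ∧
      (∀ f ∈ V, ∃ g ∈ O, f ^ q - algebraMap K F g ∈ V.nonunits) ∧
      (∀ z : F, V.valuation z < 1 → V.valuation z ≤ V.valuation (algebraMap K F ϖ)) ∧
      (∀ y : F, y ≠ 0 → ∃ a : ℤ, V.valuation y = V.valuation (algebraMap K F ϖ) ^ a ∧
          O.valuation (Algebra.norm K y) = O.valuation ϖ ^ ((q : ℤ) * a)) ∧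
      (∀ y ∈ V, algebraMap K F (Algebra.norm K y) - y ^ q ∈ V.nonunits) := by
  classical
  letI alg := resAlgebra h
  obtain ⟨hfr, -, -⟩ := insep_finrank h hϖ0 hϖ hdvr q hq hqO hdeg hz₀ hzc hnp
  have hπ : Function.Surjective (IsLocalRing.residue O) := IsLocalRing.residue_surjective
  have hρ : Function.Surjective (IsLocalRing.residue V) := IsLocalRing.residue_surjective
  have hc : ∀ (a : O), IsLocalRing.residue V ⟨algebraMap K F a, (h a).2 a.2⟩ =
      algebraMap (IsLocalRing.ResidueField O) (IsLocalRing.ResidueField V)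
        (IsLocalRing.residue O a) := fun a => resAlgebra_residue h a
  have hτ : V.valuation (algebraMap K F ϖ) < 1 := (h.val_lt_one_iff ϖ).2 hϖ
  have hall := normResInsep_all h hϖ0 hϖ hdvr q hq hqO hdeg hz₀ hzc hnp
  have hfe : ∑ _i : Unit, (fun _ : Unit => 1) _i *
      Module.finrank (IsLocalRing.ResidueField O) (IsLocalRing.ResidueField V) =
      Module.finrank K F := by
    simp [hfr, hdeg]
  refine ⟨?_, ?_, ?_, ?_, hall⟩
  · intro W hW
    obtain ⟨i, hi⟩ := eq_of_fund_eq (ι := Unit) (V := fun _ => V)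
      (τ := fun _ => algebraMap K F ϖ) (E := fun _ => 1)
      (κ := fun _ => IsLocalRing.ResidueField V)
      (fun _ => h) (fun i i' hii' => absurd (Subsingleton.elim i i') hii') hϖ0 hϖ hdvr
      (fun _ => hτ) (fun _ => by simp)
      (IsLocalRing.residue O) (fun _ => IsLocalRing.residue V) hπ (fun _ => hρ) (fun _ => hc)
      hfe hW
    exact hi
  · intro f hf
    have h1 := hall f hf
    have hNV : algebraMap K F (Algebra.norm K f) ∈ V := by
      have h2 : f ^ q - algebraMap K F (Algebra.norm K f) ∈ V.nonunits := by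
        have : f ^ q - algebraMap K F (Algebra.norm K f) =
            -(algebraMap K F (Algebra.norm K f) - f ^ q) := by ring
        rw [this]; exact (V.nonunits).neg_mem h1
      exact mem_of_sub_mem_nonunits (pow_mem hf q) h2
    refine ⟨Algebra.norm K f, (h _).1 hNV, ?_⟩
    have : f ^ q - algebraMap K F (Algebra.norm K f) =
        -(algebraMap K F (Algebra.norm K f) - f ^ q) := by ring
    rw [this]; exact (V.nonunits).neg_mem h1
  · intro z hz
    exact gen_of_fund_eq (ι := Unit) (V := fun _ => V)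
      (τ := fun _ => algebraMap K F ϖ) (E := fun _ => 1)
      (κ := fun _ => IsLocalRing.ResidueField V)
      (fun _ => h) (fun i i' hii' => absurd (Subsingleton.elim i i') hii') hϖ0 hϖ hdvr
      (fun _ => hτ) (fun _ => by simp)
      (IsLocalRing.residue O) (fun _ => IsLocalRing.residue V) hπ (fun _ => hρ) (fun _ => hc)
      hfe () z hz
  · intro y hy
    exact valNorm_insep h hϖ0 hϖ hdvr q hq hqO hdeg hz₀ hzc hnp hy

end Insep

section Ram

variable {F : Type*} [Field F]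

/-- `τ ^ e = ϖ · unit`, `e ≥ 1`, `v (ϖ) < 1`  ⟹  `v (τ) < 1`. -/
theorem val_lt_one_of_pow835 (V : ValuationSubring F) {τ ϖ : F} {e : ℕ}
    (hϖ : V.valuation ϖ < 1) (hram : V.valuation ϖ = V.valuation τ ^ e) :
    V.valuation τ < 1 := by
  by_contra hcon
  rw [not_lt] at hcon
  have : (1 : ValuationSubring.ValueGroup V) ≤ V.valuation τ ^ e := one_le_pow₀ hcon
  rw [← hram] at this
  exact absurd hϖ (not_lt.2 this)

/-- `ϖ (τ ^ e)⁻¹` a unit of `V`  ⟹  `v (ϖ) = v (τ) ^ e`. -/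
theorem ram_of_unit835 (V : ValuationSubring F) {τ ϖ : F} {e : ℕ} (hτ0 : τ ≠ 0)
    (hu : V.valuation (ϖ * (τ ^ e)⁻¹) = 1) : V.valuation ϖ = V.valuation τ ^ e := by
  have hτv : V.valuation τ ^ e ≠ 0 := by
    apply pow_ne_zero
    rw [Ne, Valuation.zero_iff]; exact hτ0
  rw [map_mul, map_inv₀, map_pow] at hu
  calc V.valuation ϖ = V.valuation ϖ * (V.valuation τ ^ e)⁻¹ * V.valuation τ ^ e := by
        rw [inv_mul_cancel_right₀ hτv]
    _ = V.valuation τ ^ e := by rw [hu, one_mul]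

/-- **Eisenstein relation.**  `τ ^ e = ϖ u + τ m` with `e ≥ 1`, `v (ϖ) < 1`, `u` a unit of `V` and
`v (m) ≤ v (ϖ)`  ⟹  `v (τ) < 1` and `v (ϖ) = v (τ) ^ e`. -/
theorem ram_of_eis835 (V : ValuationSubring F) {τ ϖ u m : F} {e : ℕ} (he : 0 < e)
    (hϖ0 : ϖ ≠ 0) (hϖ : V.valuation ϖ < 1) (hu : V.valuation u = 1)
    (hm : V.valuation m ≤ V.valuation ϖ) (hrel : τ ^ e = ϖ * u + τ * m) :
    V.valuation τ < 1 ∧ V.valuation ϖ = V.valuation τ ^ e := by
  have hϖpos : 0 < V.valuation ϖ := by rw [Valuation.pos_iff]; exact hϖ0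
  have hm1 : V.valuation m < 1 := lt_of_le_of_lt hm hϖ
  -- `v τ < 1`
  have hτ : V.valuation τ < 1 := by
    by_contra hcon
    rw [not_lt] at hcon
    -- `v (τ ^ e) ≥ v τ > v (τ m)` and `v (τ ^ e) ≥ 1 > v (ϖ u)`
    have h1 : V.valuation τ ≤ V.valuation (τ ^ e) := by
      rw [map_pow]
      calc V.valuation τ = V.valuation τ ^ 1 := (pow_one _).symm
        _ ≤ V.valuation τ ^ e := pow_le_pow_right₀ hcon he
    have hτpos : 0 < V.valuation τ := lt_of_lt_of_le zero_lt_one hcon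
    have h2 : V.valuation (τ * m) < V.valuation (τ ^ e) := by
      refine lt_of_lt_of_le ?_ h1
      rw [map_mul]
      calc V.valuation τ * V.valuation m < V.valuation τ * 1 :=
            mul_lt_mul_of_pos_left hm1 hτpos
        _ = V.valuation τ := mul_one _
    have h3 : V.valuation (ϖ * u) < V.valuation (τ ^ e) := by
      rw [map_mul, hu, mul_one]
      exact lt_of_lt_of_le hϖ (le_trans hcon h1)
    have h4 : V.valuation (ϖ * u + τ * m) < V.valuation (τ ^ e) :=
      Valuation.map_add_lt _ h3 h2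
    rw [← hrel] at h4
    exact lt_irrefl _ h4
  refine ⟨hτ, ?_⟩
  -- `v (τ m) < v (ϖ u) = v ϖ`
  have h5 : V.valuation (τ * m) < V.valuation (ϖ * u) := by
    rw [map_mul, map_mul, hu, mul_one]
    calc V.valuation τ * V.valuation m ≤ V.valuation τ * V.valuation ϖ :=
          mul_le_mul_right hm _
      _ < 1 * V.valuation ϖ := mul_lt_mul_of_pos_right hτ hϖpos
      _ = V.valuation ϖ := one_mul _
  have h6 : V.valuation (ϖ * u + τ * m) = V.valuation (ϖ * u) :=
    Valuation.map_add_eq_of_lt_left _ h5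
  rw [← hrel, map_pow, map_mul, hu, mul_one] at h6
  exact h6.symm

end Ram

end Fermat.Agent.S45.VT.H835

end
-- ===== PACK-END S45/VT/H835/OneStep.lean

-- ===== PACK-BEGIN S45/VT/H835/OneStepAlong.lean
section




/-!
# S45 / CAR3 engine, MOD-E/Val (helper835): ONE extension along a degeneracy map

The two ONE-extension types of the `(e, f)` table of level `q ^ e` (board
`origin/helper48:coord/CAR3-S45.md` sec. 2) in the vocabulary of `S36.Eng.TripleCtx` /
`S36.Mod3.PartVT`, with GENERAL uniformisers (components of multiplicity `μ > 1`):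
`φ : F' →ₐ[E] F` a degeneracy map, `V` a valuation subring of `F` with `V.comap φ = V'`,
`V'` a discrete valuation ring with uniformiser `t'`.

Vocabulary of `S36/Eng/Spec.lean`, UNFOLDED (so that this file does not depend on the Spec):
`UnitAt V y` = `y ≠ 0 ∧ y ∈ V ∧ y⁻¹ ∈ V`,
`UnifAt V t` = `t ≠ 0 ∧ t ∈ V.nonunits ∧ ∀ f ∈ V.nonunits, f * t⁻¹ ∈ V`.

* `dvr_of_gen835` : a valuation subring whose value group is generated by `v (τ)`, `τ ∈ 𝔪_V`, is a
  discrete valuation ring with uniformiser `τ`.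
* `wild_along835` (type WILD `(q, 1)`): `τ ∈ F` with `φ t' = τ ^ q · unit` at `V`,
  `[F : φ F'] ≤ q`  ⟹  `[F : φ F'] = q`, `V` is the only valuation subring over `V'`,
  residue degree one, `τ` uniformiser, `V` discrete valuation ring, NV, NR.
* `insep_along835` (type INSEP `(1, q)`): `[F : φ F'] = q` prime, residue characteristic `q`,
  witness of inseparability  ⟹  `V` is the only valuation subring over `V'`, purely inseparable
  residue extension (elementwise), `φ t'` uniformiser, `V` discrete valuation ring, NV, NR.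
* `mult_wild835`, `mult_insep835` : the multiplicity `μ` (`w = t ^ μ · unit`) of the component:
  `μ = q μ'` (WILD), `μ = μ'` (INSEP).
-/

set_option autoImplicit false
set_option linter.unusedSectionVars false
set_option linter.style.haveILetI false

namespace Fermat.Agent.S45.VT.H835

open AlgebraicCurve
open Fermat.Agent.S35.H253 Fermat.Agent.S36.H253
open Fermat.Agent.S29.H395 (normAlong)

section Gen

variable {F : Type*} [Field F]

/-- A valuation subring whose value group is generated by `v (τ)`, `τ ∈ 𝔪_V`, is a discrete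
valuation ring with uniformiser `τ`. -/
theorem dvr_of_gen835 (V : ValuationSubring F) {τ : F} (hτ0 : τ ≠ 0) (hτ : V.valuation τ < 1)
    (hgrp : ∀ y : F, y ≠ 0 → ∃ a : ℤ, V.valuation y = V.valuation τ ^ a) :
    IsDiscreteValuationRing V ∧
      (τ ≠ 0 ∧ τ ∈ V.nonunits ∧ ∀ f ∈ V.nonunits, f * τ⁻¹ ∈ V) := by
  have hvτ : V.valuation τ ≠ 0 := by rw [Ne, Valuation.zero_iff]; exact hτ0
  have hgen : ∀ f : F, V.valuation f < 1 → f * τ⁻¹ ∈ V := by
    intro f hf
    rw [← V.valuation_le_one_iff, map_mul, map_inv₀]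
    by_cases hf0 : f = 0
    · rw [hf0, map_zero, zero_mul]; exact zero_le_one
    obtain ⟨a, ha⟩ := hgrp f hf0
    have hle : V.valuation f ≤ V.valuation τ := by
      rw [ha] at hf ⊢
      exact zpow_le_self_of_lt_one hvτ hτ hf
    calc V.valuation f * (V.valuation τ)⁻¹ ≤ V.valuation τ * (V.valuation τ)⁻¹ := by gcongr
      _ = 1 := mul_inv_cancel₀ hvτ
  have hτn : τ ∈ V.nonunits := (ValuationSubring.mem_nonunits_iff V).2 hτ
  refine ⟨?_, hτ0, hτn, fun f hf => hgen f ((ValuationSubring.mem_nonunits_iff V).1 hf)⟩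
  have hU : A2.H48.IsUnif V τ := by
    refine ⟨V.nonunits_le hτn, ?_, ?_⟩
    · intro hinv
      have h1 := (V.valuation_le_one_iff _).2 hinv
      rw [map_inv₀] at h1
      have h2 : 1 ≤ V.valuation τ := (inv_le_one₀ (zero_lt_iff.2 hvτ)).1 h1
      exact absurd hτ (not_lt.2 h2)
    · intro f hf hfinv
      apply hgen
      rcases lt_or_eq_of_le ((V.valuation_le_one_iff f).2 hf) with h1 | h1
      · exact h1
      · exfalso
        apply hfinv
        rw [← V.valuation_le_one_iff, map_inv₀, h1, inv_one]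
  refine S36.H972.isDiscreteValuationRing_of_isUnif hU ?_
  intro a
  by_cases ha0 : a = 0
  · exact ⟨0, by rw [ha0, mul_zero]; exact V.zero_mem⟩
  obtain ⟨n, hn⟩ := hgrp a ha0
  refine ⟨(-n).toNat, ?_⟩
  rw [← V.valuation_le_one_iff, map_mul, map_pow, hn, ← zpow_natCast, ← zpow_add₀ hvτ]
  have hnn : (0 : ℤ) ≤ ((-n).toNat : ℤ) + n := by omega
  obtain ⟨m, hm⟩ : ∃ m : ℕ, ((-n).toNat : ℤ) + n = (m : ℤ) := ⟨_, (Int.toNat_of_nonneg hnn).symm⟩
  rw [hm, zpow_natCast]
  exact pow_le_one₀ zero_le hτ.le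

end Gen

section Along

variable {R E F F' : Type*} [CommRing R] [Field E] [Algebra R E]
  [Field F] [Algebra E F] [Algebra R F]
  [Field F'] [Algebra E F'] [Algebra R F']

variable (q : ℕ) (φ : F' →ₐ[E] F)

/-- **Type WILD `(e, f) = (q, 1)` along `φ`.**  `V'` a discrete valuation ring with uniformiser
`t'`, `V` over `V'` along `φ`, `τ ∈ F` with `φ t' = τ ^ q · unit` at `V`, `[F : φ F'] ≤ q`.  Then
(in this order) `[F : φ F'] = q`; `V` is the only valuation subring of `F` over `V'` along `φ`;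
the residue degree is one; `τ` is a uniformiser of `V`; `V` is a discrete valuation ring;
NV: `v (y) = a` (unit `τ`) gives `v' (N y) = a` (unit `t'`); NR: `y ≡ φ x` gives `N y ≡ x ^ q`. -/
theorem wild_along835 (hfin : FiniteAlong E φ) (hdeg : finrankAlong E φ ≤ q) (hq : 0 < q)
    {V' : ValuationSubring F'} {V : ValuationSubring F}
    (hc : V.comap (φ : F' →+* F) = V')
    (hdvr' : IsDiscreteValuationRing V')
    {t' : F'} (ht' : t' ≠ 0 ∧ t' ∈ V'.nonunits ∧ ∀ f ∈ V'.nonunits, f * t'⁻¹ ∈ V')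
    {τ : F} (hram : φ t' * (τ ^ q)⁻¹ ≠ 0 ∧ φ t' * (τ ^ q)⁻¹ ∈ V ∧ (φ t' * (τ ^ q)⁻¹)⁻¹ ∈ V) :
    finrankAlong E φ = q ∧
      (∀ W : ValuationSubring F, W.comap (φ : F' →+* F) = V' → W = V) ∧
      (∀ f ∈ V, ∃ g ∈ V', f - φ g ∈ V.nonunits) ∧
      (τ ≠ 0 ∧ τ ∈ V.nonunits ∧ ∀ f ∈ V.nonunits, f * τ⁻¹ ∈ V) ∧
      IsDiscreteValuationRing V ∧
      (∀ (y : F) (a : ℤ), y ≠ 0 →
        (y * (τ ^ a)⁻¹ ≠ 0 ∧ y * (τ ^ a)⁻¹ ∈ V ∧ (y * (τ ^ a)⁻¹)⁻¹ ∈ V) →
        (normAlong φ y * (t' ^ a)⁻¹ ≠ 0 ∧ normAlong φ y * (t' ^ a)⁻¹ ∈ V' ∧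
          (normAlong φ y * (t' ^ a)⁻¹)⁻¹ ∈ V')) ∧
      (∀ y ∈ V, ∀ x : F', φ x - y ∈ V.nonunits → normAlong φ y - x ^ q ∈ V'.nonunits) := by
  letI := algebraAlong φ
  haveI : Module.Finite F' F := hfin
  have ho : Over V' V := over_of_comap φ hc
  have hdvr := hdvr_of_dvr V' hdvr' ht'
  have hϖ : V'.valuation t' < 1 := (ValuationSubring.mem_nonunits_iff V').1 ht'.2.1
  have hτ0 : τ ≠ 0 := by
    intro h0
    apply hram.1
    rw [h0, zero_pow hq.ne', inv_zero, mul_zero]
  have hram' : V.valuation (algebraMap F' F t') = V.valuation τ ^ q := by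
    have := val_eq_zpow_of_unitAt V hτ0 ((q : ℕ) : ℤ) (by rw [zpow_natCast]; exact hram)
    rw [zpow_natCast] at this
    exact this
  have hϖV : V.valuation (algebraMap F' F t') < 1 := (ho.val_lt_one_iff t').2 hϖ
  have hτ : V.valuation τ < 1 := val_lt_one_of_pow835 V hϖV hram'
  have hle : Module.finrank F' F ≤ q := hdeg
  obtain ⟨h1, h2, h3, h4, h5, h6⟩ := one_ext_ram835 ho ht'.1 hϖ hdvr hτ hram' hle
  have hgrp : ∀ y : F, y ≠ 0 → ∃ a : ℤ, V.valuation y = V.valuation τ ^ a :=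
    fun y hy => by
      obtain ⟨a, ha, -⟩ := h5 y hy
      exact ⟨a, ha⟩
  obtain ⟨hD, hU⟩ := dvr_of_gen835 V hτ0 hτ hgrp
  refine ⟨h1, ?_, ?_, hU, hD, ?_, ?_⟩
  · intro W hW
    exact h2 W (over_of_comap φ hW)
  · intro f hf
    obtain ⟨g, hg, hfg⟩ := h3 f hf
    exact ⟨g, hg, hfg⟩
  · intro y a hy0 hya
    obtain ⟨a', ha', hN⟩ := h5 y hy0
    have e2 := val_eq_zpow_of_unitAt V hτ0 a hya
    rw [e2] at ha'
    have e3 : a' = a := (zpow_inj_of_val V hτ0 hτ ha').symm
    rw [e3] at hN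
    exact unitAt_of_val_eq_zpow V' ht'.1 a hN
  · intro y hy x hxy
    refine h6 y hy x ?_
    have : y - algebraMap F' F x = -(φ x - y) := by
      show y - φ x = -(φ x - y); ring
    rw [this]; exact (V.nonunits).neg_mem hxy

/-- **Type INSEP `(e, f) = (1, q)` along `φ`.**  `V'` a discrete valuation ring with uniformiser
`t'`, `V` over `V'` along `φ`, `[F : φ F'] = q` prime, `q ∈ 𝔪_V`, and a witness of
inseparability: `z₀ ∈ V`, `c₀ ∈ F'` with `z₀ ^ q ≡ φ c₀` at `V` and `c₀` not a `q`-th power modulo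
`𝔪_{V'}`.  Then (in this order) `V` is the only valuation subring of `F` over `V'` along `φ`; the
residue extension is purely inseparable (elementwise); `φ t'` is a uniformiser of `V`; `V` is a
discrete valuation ring; NV: `v (y) = a` (unit `φ t'`) gives `v' (N y) = q a`; NR:
`φ (N y) ≡ y ^ q`. -/
theorem insep_along835 (hfin : FiniteAlong E φ) (hdeg : finrankAlong E φ = q) (hq : q.Prime)
    {V' : ValuationSubring F'} {V : ValuationSubring F}
    (hc : V.comap (φ : F' →+* F) = V')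
    (hdvr' : IsDiscreteValuationRing V')
    {t' : F'} (ht' : t' ≠ 0 ∧ t' ∈ V'.nonunits ∧ ∀ f ∈ V'.nonunits, f * t'⁻¹ ∈ V')
    (hqV : (q : F) ∈ V.nonunits)
    {z₀ : F} {c₀ : F'} (hz₀ : z₀ ∈ V) (hzc : z₀ ^ q - φ c₀ ∈ V.nonunits)
    (hnp : ∀ a : F', a ∈ V' → a ^ q - c₀ ∉ V'.nonunits) :
    (∀ W : ValuationSubring F, W.comap (φ : F' →+* F) = V' → W = V) ∧
      (∀ f ∈ V, ∃ g ∈ V', f ^ q - φ g ∈ V.nonunits) ∧
      (φ t' ≠ 0 ∧ φ t' ∈ V.nonunits ∧ ∀ f ∈ V.nonunits, f * (φ t')⁻¹ ∈ V) ∧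
      IsDiscreteValuationRing V ∧
      (∀ (y : F) (a : ℤ), y ≠ 0 →
        (y * (φ t' ^ a)⁻¹ ≠ 0 ∧ y * (φ t' ^ a)⁻¹ ∈ V ∧ (y * (φ t' ^ a)⁻¹)⁻¹ ∈ V) →
        (normAlong φ y * (t' ^ ((q : ℤ) * a))⁻¹ ≠ 0 ∧
          normAlong φ y * (t' ^ ((q : ℤ) * a))⁻¹ ∈ V' ∧
          (normAlong φ y * (t' ^ ((q : ℤ) * a))⁻¹)⁻¹ ∈ V')) ∧
      (∀ y ∈ V, φ (normAlong φ y) - y ^ q ∈ V.nonunits) := by
  letI := algebraAlong φ
  haveI : Module.Finite F' F := hfin
  have ho : Over V' V := over_of_comap φ hc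
  have hdvr := hdvr_of_dvr V' hdvr' ht'
  have hϖ : V'.valuation t' < 1 := (ValuationSubring.mem_nonunits_iff V').1 ht'.2.1
  have hqO : V'.valuation ((q : ℕ) : F') < 1 := by
    rw [← ho.val_lt_one_iff, map_natCast]; exact hqV
  have hdeg' : Module.finrank F' F = q := hdeg
  obtain ⟨h1, h2, h3, h4, h5⟩ :=
    one_ext_insep835 ho ht'.1 hϖ hdvr q hq hqO hdeg' hz₀ hzc hnp
  have hφ0 : φ t' ≠ 0 := (map_ne_zero _).2 ht'.1
  have hϖV : V.valuation (φ t') < 1 := (ho.val_lt_one_iff t').2 hϖ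
  have hgrp : ∀ y : F, y ≠ 0 → ∃ a : ℤ, V.valuation y = V.valuation (φ t') ^ a :=
    fun y hy => by
      obtain ⟨a, ha, -⟩ := h4 y hy
      exact ⟨a, ha⟩
  obtain ⟨hD, hU⟩ := dvr_of_gen835 V hφ0 hϖV hgrp
  refine ⟨?_, ?_, hU, hD, ?_, h5⟩
  · intro W hW
    exact h1 W (over_of_comap φ hW)
  · intro f hf
    obtain ⟨g, hg, hfg⟩ := h2 f hf
    exact ⟨g, hg, hfg⟩
  · intro y a hy0 hya
    obtain ⟨a', ha', hN⟩ := h4 y hy0
    have e2 := val_eq_zpow_of_unitAt V hφ0 a hya
    have ha'' : V.valuation y = V.valuation (φ t') ^ a' := ha'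
    rw [e2] at ha''
    have e3 : a' = a := (zpow_inj_of_val V hφ0 hϖV ha'').symm
    rw [e3] at hN
    exact unitAt_of_val_eq_zpow V' ht'.1 ((q : ℤ) * a) hN

end Along

section Mult

variable {F : Type*} [Field F]

/-- **Multiplicity, WILD type**: `w = t' ^ μ' · unit` and `t' = τ ^ q · unit` at `V` give
`w = τ ^ (q μ') · unit` at `V`. -/
theorem mult_wild835 (V : ValuationSubring F) {w t' τ : F} {q μ' : ℕ}
    (h1 : w * (t' ^ μ')⁻¹ ≠ 0 ∧ w * (t' ^ μ')⁻¹ ∈ V ∧ (w * (t' ^ μ')⁻¹)⁻¹ ∈ V)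
    (h2 : t' * (τ ^ q)⁻¹ ≠ 0 ∧ t' * (τ ^ q)⁻¹ ∈ V ∧ (t' * (τ ^ q)⁻¹)⁻¹ ∈ V) :
    w * (τ ^ (q * μ'))⁻¹ ≠ 0 ∧ w * (τ ^ (q * μ'))⁻¹ ∈ V ∧ (w * (τ ^ (q * μ'))⁻¹)⁻¹ ∈ V := by
  apply unitAt_of_val_eq_one
  have e1 := val_eq_one_of_unitAt V h1
  have e2 := val_eq_one_of_unitAt V h2
  have key : w * (τ ^ (q * μ'))⁻¹ = (w * (t' ^ μ')⁻¹) * (t' * (τ ^ q)⁻¹) ^ μ' := by
    have ht0 : t' ≠ 0 := fun h0 => h2.1 (by rw [h0, zero_mul])
    have hτq : τ ^ q ≠ 0 := fun h0 => h2.1 (by rw [h0, inv_zero, mul_zero])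
    rw [pow_mul, mul_pow, inv_pow]
    field_simp
  rw [key, map_mul, map_pow, e1, e2, one_pow, one_mul]

/-- **Multiplicity, INSEP type**: trivial transport `w = t' ^ μ' · unit` (stated for symmetry:
the uniformiser of `V` is the image of the uniformiser of `V'`). -/
theorem mult_insep835 {F' : Type*} [Field F'] (φ : F' →+* F) {V : ValuationSubring F}
    {V' : ValuationSubring F'} (hc : V.comap φ = V') {w' t' : F'} {μ' : ℕ}
    (h1 : w' * (t' ^ μ')⁻¹ ≠ 0 ∧ w' * (t' ^ μ')⁻¹ ∈ V' ∧ (w' * (t' ^ μ')⁻¹)⁻¹ ∈ V') :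
    φ w' * (φ t' ^ μ')⁻¹ ≠ 0 ∧ φ w' * (φ t' ^ μ')⁻¹ ∈ V ∧ (φ w' * (φ t' ^ μ')⁻¹)⁻¹ ∈ V := by
  have e : φ w' * (φ t' ^ μ')⁻¹ = φ (w' * (t' ^ μ')⁻¹) := by
    rw [map_mul, map_inv₀, map_pow]
  rw [e]
  refine ⟨(map_ne_zero _).2 h1.1, ?_, ?_⟩
  · have : w' * (t' ^ μ')⁻¹ ∈ V.comap φ := by rw [hc]; exact h1.2.1
    exact this
  · rw [← map_inv₀]
    have : (w' * (t' ^ μ')⁻¹)⁻¹ ∈ V.comap φ := by rw [hc]; exact h1.2.2
    exact this

end Mult

end Fermat.Agent.S45.VT.H835

end
-- ===== PACK-END S45/VT/H835/OneStepAlong.lean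

-- ===== PACK-BEGIN S45/Eng/Spec.lean
section


/-!
# S45 ENGINE-GE — frozen interfaces (row CAR3, acting architect helper48)

Target: the Carayol engine at levels `q ^ e ∥ M`, `e ≥ 3` (`e = 2` is S36, on main).
Board: `coord/CAR3-S45.md` on `origin/helper48`; arithmetic: memo of helper441
(`origin/helper441:coord/S45-ENGINE-helper441.md`).

Level pair: `N = M₀ q ^ (e - 1)` (below, `F' = F_E(N)`), `N q` (above, `F = F_E(N q)`), `q ∤ M₀`;
`α, β : F' → F` the two degeneracy maps.  The special fibre of the normal model of `F` has `e + 1`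
components `V 0, …, V e` (index `i` = number of Verschiebung steps, `(a, b) = (e - i, i)`), with
multiplicities `mult q e i = φ(q ^ min i (e - i))`; level `N` has `e` components `V' 0, …, V' (e-1)`.

Tables (`(e, f)` = ramification index, residue degree):

    via α :  V i | V' (i - 1)   (V 0 | V' 0):
             i = 0  (1, 1);   i = 1  (q - 1, 1);
             i ≥ 2, 2 i ≤ e   (q, 1)  WILD;       i ≥ 2, 2 i > e   (1, q)  purely inseparable
    via β :  V i | V' (min i (e - 1)):  mirror image under  i ↦ e - i.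

For `e = 2` this is `S36.Eng.TripleCtx` with `V 0 = V₁`, `V 1 = V₂`, `V 2 = V₃`.

* `CtxE`                  : EVERYTHING the abstract argument may use (a `Prop`; elementwise).
                            This is the ALG-E / MOD-E boundary.
* `AlgEStatement`         : ABSTRACT: `CtxE` with `3 ≤ e` ⟹ the norm route closes (`C = 1` expected).
* `ModelEStatement`       : the modular function fields carry a `CtxE` at neat levels.
* `LevelInertiaGEStatement`: the level engine `S36.Eng.LevelInertiaAt E M q` for `q ∣ M`.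
* `NewPartInertiaGE`      : the engine (N) with `2 ≤ M.factorization q` (= `EngineGE` of the top glue).

Definitions only (no `sorry`).
v0 (11:16Z): first draft.
v1-rc (11:50Z): + `good_α`, `good_β` (the LIGHT route of ALG-E: `GoodAlong`).  FREEZE at 12:30Z
(ruling of row-lead helper996 #14157: after the freeze fields may be TRIMMED by the ALG-E
sub-architect helper586 — declared unused — but not added).
-/

set_option autoImplicit false
set_option linter.style.haveILetI false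
set_option linter.unusedSectionVars false
set_option synthInstance.maxHeartbeats 400000
set_option maxHeartbeats 1600000

noncomputable section

namespace Fermat.Agent.S45.Eng

open ModularCurve AlgebraicCurve
open Fermat.Agent.S18.H138 (chart)
open Fermat.Agent.S36.Eng (UnitAt Through PrincipalAt NormalAlong UnifAt)

/-! ## Index combinatorics -/

/-- The multiplicity of the component `i` of level `q ^ e`:  `φ(q ^ min i (e - i))`. -/
def mult (q e i : ℕ) : ℕ := Nat.totient (q ^ min i (e - i))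

/-- The residue degree of `V i` over `V' (i - 1)` along `α`, `2 ≤ i ≤ e`:
`1` (wild, `e = q`) if `2 i ≤ e`, `q` (purely inseparable) otherwise. -/
def fα (q e i : ℕ) : ℕ := if 2 * i ≤ e then 1 else q

/-- The residue degree of `V i` over `V' i` along `β`, `i ≤ e - 2`:
`1` (wild, `e = q`) if `e ≤ 2 i`, `q` (purely inseparable) otherwise. -/
def fβ (q e i : ℕ) : ℕ := if e ≤ 2 * i then 1 else q

/-! ## Elementwise vocabulary for families -/

section Vocab

variable {R F : Type*} [CommRing R] [Field F] [Algebra R F]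

/-- `B ∩ w (⋂ i ≤ e, V i) = w B`: the valuation rings `V 0, …, V e` are ALL the components of the
special fibre of the chart `B`, with their multiplicities (`q`-expansion principle). -/
def QepE (w : R) (e : ℕ) (B : Subalgebra R F) (V : ℕ → ValuationSubring F) : Prop :=
  ∀ b : B, (∀ i ≤ e, (b : F) * (algebraMap R F w)⁻¹ ∈ V i) → ∃ c : B, b = algebraMap R B w * c

/-- `𝔪` is a MULTIPLE point of the chart `B`: all `e + 1` components pass through it. -/
def IsMulti (e : ℕ) (B : Subalgebra R F) (𝔪 : Ideal B) (V : ℕ → ValuationSubring F) : Prop :=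
  ∀ i ≤ e, Through B 𝔪 (V i)

end Vocab

/-! ## The context of ALG-E -/

section Ctx

variable {R E F F' : Type*} [CommRing R] [Field E] [Algebra R E]
  [Field F] [Algebra E F] [Algebra R F] [Field F'] [Algebra E F'] [Algebra R F']

/-- **The `(e + 1)`-component context** (level `q ^ e M₀` over level `q ^ (e - 1) M₀`),
elementwise.  Only the values `V i`, `i ≤ e`, and `V' j`, `j ≤ e - 1`, matter. -/
structure CtxE (w : R) (q e : ℕ) (α β : F' →ₐ[E] F) (x : F) (x' : F')
    (V : ℕ → ValuationSubring F) (V' : ℕ → ValuationSubring F') : Prop where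
  he : 2 ≤ e
  -- ### the function field
  hx : Transcendental E x
  hfin : FiniteDimensional (IntermediateField.adjoin E ({x} : Set F)) F
  hconst : ∀ f : F, IsAlgebraic E f → f ∈ (algebraMap E F).range
  -- ### the valuation rings above: DVRs, distinct, multiplicities `mult q e i`
  dvr : ∀ i ≤ e, IsDiscreteValuationRing (V i)
  inj : ∀ i ≤ e, ∀ j ≤ e, V i = V j → i = j
  /-- `w = unit · t ^ (mult q e i)` at `V i`, `t` a uniformiser -/
  ram : ∀ i ≤ e, ∃ t : F, UnifAt (V i) t ∧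
    UnitAt (V i) (algebraMap R F w * (t ^ mult q e i)⁻¹)
  -- ### the valuation rings below: DVRs, multiplicities `mult q (e - 1) j`
  dvr' : ∀ j ≤ e - 1, IsDiscreteValuationRing (V' j)
  base' : ∀ j ≤ e - 1, ∀ r : R, algebraMap R F' r ∈ V' j
  ram' : ∀ j ≤ e - 1, ∃ t : F', UnifAt (V' j) t ∧
    UnitAt (V' j) (algebraMap R F' w * (t ^ mult q (e - 1) j)⁻¹)
  -- ### the charts of level `q ^ e M₀`
  base : ∀ i ≤ e, ∀ r : R, algebraMap R F r ∈ V i
  /-- `x` is a unit of all the valuation rings (so both charts lie in `⋂ V i`) -/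
  x_unit : ∀ i ≤ e, UnitAt (V i) x
  /-- the `V i` are SHEETS of `x` (they induce the Gauss valuation on `R[x]`) -/
  gauss : ∀ i ≤ e, ∀ P : Polynomial R, (∃ k, ¬ w ∣ P.coeff k) →
    (Polynomial.aeval x P)⁻¹ ∈ V i
  qep_f : QepE w e (chart R ({x} : Set F)) V
  qep_i : QepE w e (chart R ({x⁻¹} : Set F)) V
  normal_f : ∀ i ≤ e, NormalAlong (chart R ({x} : Set F)) (V i)
  normal_i : ∀ i ≤ e, NormalAlong (chart R ({x⁻¹} : Set F)) (V i)
  /-- INCIDENCE (finite chart): a closed point on two components is a multiple point -/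
  incidence : ∀ 𝔪 : Ideal (chart R ({x} : Set F)), 𝔪.IsMaximal →
    (∃ i ≤ e, ∃ j ≤ e, i ≠ j ∧ Through _ 𝔪 (V i) ∧ Through _ 𝔪 (V j)) → IsMulti e _ 𝔪 V
  /-- REGULARITY (finite chart): at every closed point of a NON-REDUCED component
  (`1 ≤ i ≤ e - 1`; this contains the multiple points) some component through the point is
  locally principal.  (At the other closed points of the special fibre regularity is automatic:
  one component of multiplicity one, `QepE`.) -/
  regular_f : ∀ 𝔪 : Ideal (chart R ({x} : Set F)), 𝔪.IsMaximal →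
    (∃ i, 1 ≤ i ∧ i ≤ e - 1 ∧ Through _ 𝔪 (V i)) →
    ∃ k ≤ e, Through _ 𝔪 (V k) ∧ PrincipalAt _ 𝔪 (V k)
  /-- the points at infinity (`x⁻¹ = 0`, the cusps) lie on ONE component -/
  cusp_single : ∀ 𝔪 : Ideal (chart R ({x⁻¹} : Set F)), 𝔪.IsMaximal →
    algebraMap R (chart R ({x⁻¹} : Set F)) w ∈ 𝔪 →
    (⟨x⁻¹, Fermat.Agent.S18.H138.mem_chart_of_mem rfl⟩ : chart R ({x⁻¹} : Set F)) ∈ 𝔪 →
    ∀ i ≤ e, ∀ j ≤ e, Through _ 𝔪 (V i) → Through _ 𝔪 (V j) → i = j
  /-- REGULARITY at the points at infinity of the NON-REDUCED components -/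
  regular_i : ∀ 𝔪 : Ideal (chart R ({x⁻¹} : Set F)), 𝔪.IsMaximal →
    (⟨x⁻¹, Fermat.Agent.S18.H138.mem_chart_of_mem rfl⟩ : chart R ({x⁻¹} : Set F)) ∈ 𝔪 →
    ∀ i, 1 ≤ i → i ≤ e - 1 → Through _ 𝔪 (V i) → PrincipalAt _ 𝔪 (V i)
  -- ### the two degeneracy maps: the `(e, f)` table
  fin_α : FiniteAlong E α
  fin_β : FiniteAlong E β
  comap_α : ∀ i ≤ e, (V i).comap (α : F' →+* F) = V' (i - 1)
  comap_β : ∀ i ≤ e, (V i).comap (β : F' →+* F) = V' (min i (e - 1))
  /-- NV (valuations of norms), `α` over `V' 0` (TWO extensions `V 0`, `V 1`):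
  `v₀'(N y) = v₀ y + v₁ y` -/
  nv_α₀ : ∀ (t : F), UnifAt (V 1) t → ∀ (y : F) (a₀ a₁ : ℤ), y ≠ 0 →
    UnitAt (V 0) (y * (algebraMap R F w ^ a₀)⁻¹) → UnitAt (V 1) (y * (t ^ a₁)⁻¹) →
    UnitAt (V' 0) (S29.H395.normAlong α y * (algebraMap R F' w ^ (a₀ + a₁))⁻¹)
  /-- NV, `α` over `V' (i - 1)`, `2 ≤ i ≤ e` (ONE extension `V i`):
  `v'(N y) = f · v y`, `f = fα q e i` -/
  nv_α : ∀ i, 2 ≤ i → i ≤ e → ∀ (t : F) (t' : F'), UnifAt (V i) t → UnifAt (V' (i - 1)) t' →
    ∀ (y : F) (a : ℤ), y ≠ 0 → UnitAt (V i) (y * (t ^ a)⁻¹) →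
    UnitAt (V' (i - 1)) (S29.H395.normAlong α y * (t' ^ ((fα q e i : ℤ) * a))⁻¹)
  /-- NV, `β` over `V' (e - 1)` (TWO extensions `V e`, `V (e - 1)`) -/
  nv_β₀ : ∀ (t : F), UnifAt (V (e - 1)) t → ∀ (y : F) (a₀ a₁ : ℤ), y ≠ 0 →
    UnitAt (V e) (y * (algebraMap R F w ^ a₀)⁻¹) → UnitAt (V (e - 1)) (y * (t ^ a₁)⁻¹) →
    UnitAt (V' (e - 1)) (S29.H395.normAlong β y * (algebraMap R F' w ^ (a₀ + a₁))⁻¹)
  /-- NV, `β` over `V' i`, `i ≤ e - 2` (ONE extension `V i`):  `f = fβ q e i` -/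
  nv_β : ∀ i, i + 2 ≤ e → ∀ (t : F) (t' : F'), UnifAt (V i) t → UnifAt (V' i) t' →
    ∀ (y : F) (a : ℤ), y ≠ 0 → UnitAt (V i) (y * (t ^ a)⁻¹) →
    UnitAt (V' i) (S29.H395.normAlong β y * (t' ^ ((fβ q e i : ℤ) * a))⁻¹)
  /-- GOOD (v1; the primitive `GoodAlong` of the LIGHT route, helper247 / helper778 / helper403),
  `α` over `V' (i - 1)`, `2 ≤ i ≤ e` (ONE extension, wild or purely inseparable):
  `y ^ q ≡ α (N y)` MULTIPLICATIVELY on `V i`, for every `y ≠ 0` (units and non-units).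
  Contains `nv_α` up to `e (V i | V' (i - 1))` and `nr_α`. -/
  good_α : ∀ i, 2 ≤ i → i ≤ e → ∀ y : F, y ≠ 0 →
    y ^ q * (α (S29.H395.normAlong α y))⁻¹ - 1 ∈ (V i).nonunits
  /-- GOOD, `β` over `V' i`, `i ≤ e - 2` -/
  good_β : ∀ i, i + 2 ≤ e → ∀ y : F, y ≠ 0 →
    y ^ q * (β (S29.H395.normAlong β y))⁻¹ - 1 ∈ (V i).nonunits
  /-- NR (residues of norms), `α` over `V' 0`:  `res (N y) = res₀ y · (res₁ y) ^ (q - 1)` -/
  nr_α₀ : ∀ y : F, UnitAt (V 0) y → UnitAt (V 1) y → ∀ x₀ x₁ : F',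
    α x₀ - y ∈ (V 0).nonunits → α x₁ - y ∈ (V 1).nonunits →
    S29.H395.normAlong α y - x₀ * x₁ ^ (q - 1) ∈ (V' 0).nonunits
  /-- NR, `α` over `V' (i - 1)`, `2 ≤ i ≤ e` (wild or purely inseparable, `e f = q`):
  `res (N y) = (res y) ^ q` -/
  nr_α : ∀ i, 2 ≤ i → i ≤ e → ∀ y : F, UnitAt (V i) y →
    α (S29.H395.normAlong α y) - y ^ q ∈ (V i).nonunits
  /-- NR, `β` over `V' (e - 1)` -/
  nr_β₀ : ∀ y : F, UnitAt (V e) y → UnitAt (V (e - 1)) y → ∀ x₀ x₁ : F',
    β x₀ - y ∈ (V e).nonunits → β x₁ - y ∈ (V (e - 1)).nonunits →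
    S29.H395.normAlong β y - x₀ * x₁ ^ (q - 1) ∈ (V' (e - 1)).nonunits
  /-- NR, `β` over `V' i`, `i ≤ e - 2` -/
  nr_β : ∀ i, i + 2 ≤ e → ∀ y : F, UnitAt (V i) y →
    β (S29.H395.normAlong β y) - y ^ q ∈ (V i).nonunits
  -- ### the finite chart of level `q ^ (e - 1) M₀`
  /-- `α` and `β` map the finite chart below into the finite chart above -/
  chart_α : ∀ b ∈ chart R ({x'} : Set F'), α b ∈ chart R ({x} : Set F)
  chart_β : ∀ b ∈ chart R ({x'} : Set F'), β b ∈ chart R ({x} : Set F)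
  /-- the finite chart above is integral over the image of the one below -/
  int_α : ∀ b ∈ chart R ({x} : Set F), ∃ p : Polynomial F', p.Monic ∧
    (∀ k, p.coeff k ∈ chart R ({x'} : Set F')) ∧ (p.map (α : F' →+* F)).eval b = 0
  int_β : ∀ b ∈ chart R ({x} : Set F), ∃ p : Polynomial F', p.Monic ∧
    (∀ k, p.coeff k ∈ chart R ({x'} : Set F')) ∧ (p.map (β : F' →+* F)).eval b = 0
  /-- RES (residue degree one, in chart form):  `Bf = α (Bf') + (Bf ∩ 𝔪_V)` for `V = V i`,
  `i ≤ 1` or `V i` wild over `α` -/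
  res_α : ∀ i ≤ e, (i ≤ 1 ∨ 2 * i ≤ e) → ∀ b ∈ chart R ({x} : Set F),
    ∃ b' ∈ chart R ({x'} : Set F'), b - α b' ∈ (V i).nonunits
  /-- RES along `β`: `i ≥ e - 1` or `V i` wild over `β` -/
  res_β : ∀ i ≤ e, (e ≤ i + 1 ∨ e ≤ 2 * i) → ∀ b ∈ chart R ({x} : Set F),
    ∃ b' ∈ chart R ({x'} : Set F'), b - β b' ∈ (V i).nonunits
  /-- a multiple point is the ONLY closed point of the finite chart over its image under `α` -/
  unique_α : ∀ 𝔪 𝔪' : Ideal (chart R ({x} : Set F)), 𝔪.IsMaximal → 𝔪'.IsMaximal →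
    IsMulti e _ 𝔪 V →
    (∀ (b' : F') (h : b' ∈ chart R ({x'} : Set F')),
      (⟨α b', chart_α b' h⟩ : chart R ({x} : Set F)) ∈ 𝔪 →
        (⟨α b', chart_α b' h⟩ : chart R ({x} : Set F)) ∈ 𝔪') → 𝔪' = 𝔪
  /-- … and over its image under `β` -/
  unique_β : ∀ 𝔪 𝔪' : Ideal (chart R ({x} : Set F)), 𝔪.IsMaximal → 𝔪'.IsMaximal →
    IsMulti e _ 𝔪 V →
    (∀ (b' : F') (h : b' ∈ chart R ({x'} : Set F')),
      (⟨β b', chart_β b' h⟩ : chart R ({x} : Set F)) ∈ 𝔪 →
        (⟨β b', chart_β b' h⟩ : chart R ({x} : Set F)) ∈ 𝔪') → 𝔪' = 𝔪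

end Ctx

/-! ## ALG-E -/

/-- **ALG-E (interface statement).**  `R` a henselian DVR with algebraically closed residue field
of characteristic `q`, uniformiser `w`, `E = Frac R`; an `(e + 1)`-component context with
`3 ≤ e`.  Then there is `C > 0` (`C = 1` is expected, memo helper441 §3) such that for all `m`
prime to `q`: every `f ∈ Fˣ` with `m ∣ div f` whose norms along `α` and `β` are constants times
`m`-th powers satisfies `f ^ C ∈ Eˣ · (Fˣ) ^ m`. -/
def AlgEStatement : Prop :=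
  ∀ {R E F F' : Type} [CommRing R] [IsDomain R] [IsDiscreteValuationRing R]
    [HenselianLocalRing R] [IsAlgClosed (IsLocalRing.ResidueField R)]
    [Field E] [CharZero E] [Algebra R E] [IsFractionRing R E]
    [Field F] [Algebra E F] [Algebra R F] [IsScalarTower R E F]
    [Field F'] [Algebra E F'] [Algebra R F'] [IsScalarTower R E F']
    (w : R) (_ : Irreducible w) (q : ℕ) (_ : q.Prime)
    (_ : (q : R) ∈ IsLocalRing.maximalIdeal R) (e : ℕ) (_ : 3 ≤ e)
    (α β : F' →ₐ[E] F) (x : F) (x' : F')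
    (V : ℕ → ValuationSubring F) (V' : ℕ → ValuationSubring F')
    (_ : CtxE w q e α β x x' V V'),
    ∃ C : ℕ, 0 < C ∧ ∀ m : ℕ, 0 < m → ¬ q ∣ m →
      ∀ f : F, f ≠ 0 → A2.DivisibleDiv E m f →
        S35.G.NormPow α m f → S35.G.NormPow β m f →
        ∃ (c : E) (h : F), h ≠ 0 ∧ f ^ C = algebraMap E F c * h ^ m

/-! ## The level engine and MOD-E -/

section Level

open Fermat.Agent.S36.Eng (LevelInertiaAt NeatFor Unramified)

/-- **MOD-E (interface statement).**  At a neat level `M q` with `q ∣ M` (so `q ^ 2 ∣ M q`), over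
an unramified good level `E`, the function fields `F' = F_E(M q)`, `F = F_E(M q²)` with the two
degeneracy maps carry an `(e + 1)`-component context, `e = v_q(M) + 2`. -/
def ModelEStatement : Prop :=
  ∀ (P : ValuationSubring A2.Qb) (E : IntermediateField ℚ A2.Qb) (M q : ℕ)
    [NeZero M] [NeZero q] [NeZero (M * q)],
    q.Prime → q ∣ M → P.LiesOverPrime q → Unramified P E q → NeatFor M q →
    ∀ w : A2.RE P E, Irreducible w →
    ∃ (x : A2.Mod.FE E (M * q * q)) (x' : A2.Mod.FE E (M * q))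
      (V : ℕ → ValuationSubring (A2.Mod.FE E (M * q * q)))
      (V' : ℕ → ValuationSubring (A2.Mod.FE E (M * q))),
      CtxE (R := A2.RE P E) (E := E) w q (M.factorization q + 2)
        (A2.Mod.αE E (M * q) q) (A2.Mod.βE E (M * q) q) x x' V V'

/-- **The level engine at `q ^ e`, `e ≥ 3` (interface statement)**: `S36.Eng.LevelInertiaAt E M q`
(levels `M q` and `M q q`) for `q ∣ M`. -/
def LevelInertiaGEStatement : Prop :=
  ∀ (P : ValuationSubring A2.Qb) (E : IntermediateField ℚ A2.Qb) (M q : ℕ)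
    [NeZero M] [NeZero q] [NeZero (M * q)],
    q.Prime → q ∣ M → P.LiesOverPrime q → Unramified P E q → NeatFor M q →
    LevelInertiaAt E M q

end Level

/-! ## The engine (N) at all exponents `≥ 2` -/

/-- **(N-GE) The Carayol engine: bounded inertia invariants on the `q`-new torsion,
`q² ∣ M`.**  (`S36.H36.NewPartInertiaStatement` with `2 ≤ M.factorization q`.) -/
def NewPartInertiaGE : Prop :=
  ∀ (M q : ℕ) [NeZero M] [NeZero (M / q)], q.Prime → 2 ≤ M.factorization q →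
    ∃ a b : ModularCurve.JZero M →+ ModularCurve.JZero (M / q),
      (∀ ℓ : Nat.Primes, ¬ (ℓ : ℕ) ∣ M → ∀ x : ModularCurve.JZero M,
        a (ModularCurve.heckeOperatorBar M ℓ x) = ModularCurve.heckeOperatorBar (M / q) ℓ (a x)) ∧
      (∀ ℓ : Nat.Primes, ¬ (ℓ : ℕ) ∣ M → ∀ x : ModularCurve.JZero M,
        b (ModularCurve.heckeOperatorBar M ℓ x) = ModularCurve.heckeOperatorBar (M / q) ℓ (b x)) ∧
      ∀ p : ℕ, p.Prime → p ≠ q →
        ∀ A : ValuationSubring (AlgebraicClosure ℚ), A.LiesOverPrime q →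
          ∃ k : ℕ, ∀ x : ModularCurve.JZero M, (∃ n : ℕ, p ^ n • x = 0) →
            (∀ γ : AlgebraicClosure ℚ ≃ₐ[ℚ] AlgebraicClosure ℚ, a (γ • x) = 0 ∧ b (γ • x) = 0) →
            (∀ τ ∈ A.inertiaSubgroupIn ℚ, τ • x = x) → p ^ k • x = 0

end Fermat.Agent.S45.Eng

end

end
-- ===== PACK-END S45/Eng/Spec.lean

-- ===== PACK-BEGIN S36/Mod3/H544/NormalCore.lean
section


/-!
# S36 / MOD3, leaf NORMAL (helper544): the abstract transfer of normality

`φ : F' → F` a field homomorphism, `V` a valuation ring of `F` over `V'` (`V.comap φ = V'`),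
`B ⊆ V`, `B'` subalgebras with `φ B' ⊆ B`.  If

* the residue degree is one (`hres`: every element of `V` is congruent modulo `𝔪_V` to `φ g`,
  `g ∈ V'`),
* `B` is integral over `φ B'` MODULO `𝔪_V` (`hint`), and
* the component of `B'` cut out by `V'` is normal (`Eng.NormalAlong B' V'`),

then the component of `B` cut out by `V` is normal (`Eng.NormalAlong B V`).

Mathlib only (plus the definition `Eng.NormalAlong`).
-/

set_option autoImplicit false
set_option linter.style.haveILetI false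
set_option linter.unusedSectionVars false

namespace Fermat.Agent.S36.Mod3.H544

open Polynomial
open Fermat.Agent.S36.Eng

section Nonunits

variable {F : Type*} [Field F]

theorem nu_iff544 (V : ValuationSubring F) (a : F) :
    a ∈ V.nonunits ↔ V.valuation a < 1 := ValuationSubring.mem_nonunits_iff V

theorem nu_mem544 (V : ValuationSubring F) {a : F} (ha : a ∈ V.nonunits) : a ∈ V :=
  V.nonunits_subset ha

theorem nu_add544 (V : ValuationSubring F) {a b : F} (ha : a ∈ V.nonunits)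
    (hb : b ∈ V.nonunits) : a + b ∈ V.nonunits := by
  rw [nu_iff544] at ha hb ⊢
  exact lt_of_le_of_lt (V.valuation.map_add a b) (max_lt ha hb)

theorem nu_neg544 (V : ValuationSubring F) {a : F} (ha : a ∈ V.nonunits) : -a ∈ V.nonunits := by
  rw [nu_iff544] at ha ⊢
  rwa [Valuation.map_neg]

theorem nu_sub544 (V : ValuationSubring F) {a b : F} (ha : a ∈ V.nonunits)
    (hb : b ∈ V.nonunits) : a - b ∈ V.nonunits := by
  rw [sub_eq_add_neg]
  exact nu_add544 V ha (nu_neg544 V hb)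

theorem nu_mul544 (V : ValuationSubring F) {a c : F} (ha : a ∈ V.nonunits) (hc : c ∈ V) :
    a * c ∈ V.nonunits := by
  rw [nu_iff544] at ha ⊢
  rw [map_mul]
  exact mul_lt_one_of_nonneg_of_lt_one_left zero_le ha ((V.valuation_le_one_iff c).2 hc)

/-- Nonunits of a `comap`. -/
theorem nu_comap544 {F' : Type*} [Field F'] (V : ValuationSubring F) (φ : F' →+* F) (a : F') :
    a ∈ (V.comap φ).nonunits ↔ φ a ∈ V.nonunits := by
  by_cases ha : a = 0
  · subst ha
    rw [map_zero]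
    constructor
    · intro _
      rw [nu_iff544, map_zero]
      exact zero_lt_one
    · intro _
      rw [nu_iff544, map_zero]
      exact zero_lt_one
  · have hφa : φ a ≠ 0 := (map_ne_zero φ).2 ha
    -- `a ∈ nonunits ↔ a⁻¹ ∉ ring`
    have key : ∀ (W : ValuationSubring F') (b : F'), b ≠ 0 → (b ∈ W.nonunits ↔ b⁻¹ ∉ W) := by
      intro W b hb
      rw [nu_iff544, ← W.valuation_le_one_iff, map_inv₀, not_le]
      constructor
      · intro h
        exact (one_lt_inv₀ (zero_lt_iff.2 ((Valuation.ne_zero_iff _).2 hb))).2 h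
      · intro h
        exact (one_lt_inv₀ (zero_lt_iff.2 ((Valuation.ne_zero_iff _).2 hb))).1 h
    have key' : ∀ (W : ValuationSubring F) (b : F), b ≠ 0 → (b ∈ W.nonunits ↔ b⁻¹ ∉ W) := by
      intro W b hb
      rw [nu_iff544, ← W.valuation_le_one_iff, map_inv₀, not_le]
      constructor
      · intro h
        exact (one_lt_inv₀ (zero_lt_iff.2 ((Valuation.ne_zero_iff _).2 hb))).2 h
      · intro h
        exact (one_lt_inv₀ (zero_lt_iff.2 ((Valuation.ne_zero_iff _).2 hb))).1 h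
    rw [key _ a ha, key' _ (φ a) hφa, ValuationSubring.mem_comap, map_inv₀]

end Nonunits

section Transfer

variable {R F F' : Type*} [CommRing R] [Field F] [Algebra R F] [Field F'] [Algebra R F']

/-- An element of `F` which is a root of a monic polynomial over `B ⊆ V` modulo `𝔪_V` lies in
`V`. -/
theorem mem_of_monic_root_mod544 (B : Subalgebra R F) (V : ValuationSubring F)
    (hBV : ∀ b ∈ B, b ∈ V) (f : F) (p : Polynomial B) (hp : p.Monic)
    (hpf : Polynomial.aeval f p ∈ V.nonunits) : f ∈ V := by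
  classical
  -- the inclusion `B → V`
  let iB : B →+* V := RingHom.codRestrict (B.val : B →+* F) V (fun b => hBV b b.2)
  have hc : Polynomial.aeval f p ∈ V := nu_mem544 V hpf
  by_cases hdeg : p.natDegree = 0
  · have h1 : p = 1 := Polynomial.eq_one_of_monic_natDegree_zero hp hdeg
    rw [h1, map_one] at hpf
    exact absurd hpf (by
      rw [nu_iff544, map_one]
      exact lt_irrefl _)
  · -- `f` is a root of the monic polynomial `p - c` over `V`
    let c : V := ⟨Polynomial.aeval f p, hc⟩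
    let q : Polynomial V := p.map iB - Polynomial.C c
    have hpm : (p.map iB).Monic := hp.map iB
    have hqm : q.Monic := by
      apply Polynomial.Monic.sub_of_left hpm
      refine lt_of_le_of_lt Polynomial.degree_C_le ?_
      have : (p.map iB).natDegree = p.natDegree := hp.natDegree_map iB
      rw [Polynomial.degree_eq_natDegree hpm.ne_zero, this]
      exact_mod_cast Nat.pos_of_ne_zero hdeg
    have hroot : Polynomial.eval₂ (algebraMap V F) f q = 0 := by
      show Polynomial.eval₂ (algebraMap V F) f (p.map iB - Polynomial.C c) = 0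
      rw [Polynomial.eval₂_sub, Polynomial.eval₂_C, Polynomial.eval₂_map]
      have : (algebraMap V F).comp iB = algebraMap B F := by
        ext b
        rfl
      rw [this]
      show Polynomial.aeval f p - Polynomial.aeval f p = 0
      exact sub_self _
    have hint : IsIntegral V f := ⟨q, hqm, hroot⟩
    obtain ⟨y, hy⟩ := (IsIntegrallyClosed.isIntegral_iff (R := V) (K := F)).1 hint
    rw [← hy]
    exact y.2

/-- **Transfer, residue form**: an element of `F` which is integral over `B` modulo `𝔪_V` is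
congruent modulo `𝔪_V` to the image of an element of `B'`. -/
theorem res_of_transfer544 (φ : F' →+* F) (B : Subalgebra R F) (B' : Subalgebra R F')
    (V : ValuationSubring F) (V' : ValuationSubring F')
    (hcomap : V.comap φ = V')
    (hBV : ∀ b ∈ B, b ∈ V)
    (hB'V : ∀ b' ∈ B', φ b' ∈ V)
    (hres : ∀ f ∈ V, ∃ g ∈ V', f - φ g ∈ V.nonunits)
    (hint : ∀ b ∈ B, ∃ p : Polynomial F', p.Monic ∧ (∀ i, p.coeff i ∈ B') ∧
      (p.map φ).eval b ∈ V.nonunits)
    (hnorm : NormalAlong B' V') :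
    ∀ (f : F) (p : Polynomial B), p.Monic → Polynomial.aeval f p ∈ V.nonunits →
      ∃ b' ∈ B', f - φ b' ∈ V.nonunits := by
  classical
  intro f p hp hpf
  have hfV : f ∈ V := mem_of_monic_root_mod544 B V hBV f p hp hpf
  -- the residue field and the maps into it
  let K := IsLocalRing.ResidueField V
  let ρ : V →+* K := IsLocalRing.residue V
  have hρ : ∀ y : V, ρ y = 0 ↔ (y : F) ∈ V.nonunits := by
    intro y
    rw [IsLocalRing.residue_eq_zero_iff, ValuationSubring.mem_nonunits_iff_exists_mem_maximalIdeal]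
    constructor
    · intro h
      exact ⟨y.2, h⟩
    · rintro ⟨_, h⟩
      exact h
  let iB : B →+* V := RingHom.codRestrict (B.val : B →+* F) V (fun b => hBV b b.2)
  let iB' : B' →+* V := RingHom.codRestrict (φ.comp (B'.val : B' →+* F')) V
    (fun b' => hB'V b' b'.2)
  letI algB'K : Algebra B' K := (ρ.comp iB').toAlgebra
  let A : Subalgebra B' K := integralClosure B' K
  -- Claim A: the image of `B` is integral over `B'`
  have hA : ∀ b : B, ρ (iB b) ∈ A := by
    intro b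
    obtain ⟨p', hp', hcoef, hev⟩ := hint b b.2
    have hsub : (↑p'.coeffs : Set F') ⊆ ↑B'.toSubring := by
      intro c hc
      obtain ⟨i, -, rfl⟩ := Polynomial.mem_coeffs_iff.1 (Finset.mem_coe.1 hc)
      exact hcoef i
    let q : Polynomial B' := p'.toSubring B'.toSubring hsub
    have hq : q.Monic := (p'.monic_toSubring _ _).mpr hp'
    have hqmap : q.map (B'.val : B' →+* F') = p' := p'.map_toSubring B'.toSubring hsub
    refine ⟨q, hq, ?_⟩
    show Polynomial.eval₂ (ρ.comp iB') (ρ (iB b)) q = 0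
    rw [← Polynomial.hom_eval₂, hρ]
    have : ((Polynomial.eval₂ iB' (iB b) q : V) : F) = (p'.map φ).eval (b : F) := by
      have h1 := Polynomial.hom_eval₂ q iB' V.subtype (iB b)
      have h2 : V.subtype.comp iB' = φ.comp (B'.val : B' →+* F') := by
        ext b'
        rfl
      rw [h2] at h1
      show V.subtype (Polynomial.eval₂ iB' (iB b) q) = _
      rw [h1, Polynomial.eval_map, ← hqmap, Polynomial.eval₂_map]
      rfl
    rw [this]
    exact hev
  -- Claim B: the residue of `f` is integral over `A`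
  let fV : V := ⟨f, hfV⟩
  have hB : IsIntegral A (ρ fV) := by
    let jBA : B →+* A := RingHom.codRestrict (ρ.comp iB) A hA
    refine ⟨p.map jBA, hp.map jBA, ?_⟩
    rw [Polynomial.eval₂_map]
    have : (algebraMap A K).comp jBA = ρ.comp iB := by
      ext b
      rfl
    rw [this, ← Polynomial.hom_eval₂, hρ]
    have : ((Polynomial.eval₂ iB fV p : V) : F) = Polynomial.aeval f p := by
      have h1 := Polynomial.hom_eval₂ p iB V.subtype fV
      have h2 : V.subtype.comp iB = algebraMap B F := by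
        ext b
        rfl
      rw [h2] at h1
      exact h1
    rw [this]
    exact hpf
  have hC : IsIntegral B' (ρ fV) := isIntegral_trans (R := B') (A := A) (ρ fV) hB
  obtain ⟨q, hq, hq0⟩ := hC
  -- residue degree one
  obtain ⟨g, hg, hfg⟩ := hres f hfV
  have hφg : φ g ∈ V := by
    rw [← hcomap] at hg
    exact hg
  let gV : V := ⟨φ g, hφg⟩
  have hρg : ρ gV = ρ fV := by
    rw [← sub_eq_zero, ← map_sub, hρ]
    have : ((gV - fV : V) : F) = -(f - φ g) := by
      show φ g - f = -(f - φ g)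
      ring
    rw [this]
    exact nu_neg544 V hfg
  -- Claim C
  have hqg : Polynomial.aeval g q ∈ V'.nonunits := by
    rw [← hcomap, nu_comap544]
    have h0 : ρ (Polynomial.eval₂ iB' gV q) = 0 := by
      rw [Polynomial.hom_eval₂, hρg]
      exact hq0
    rw [hρ] at h0
    have : ((Polynomial.eval₂ iB' gV q : V) : F) = φ (Polynomial.aeval g q) := by
      have h1 := Polynomial.hom_eval₂ q iB' V.subtype gV
      have h2 : V.subtype.comp iB' = φ.comp (algebraMap B' F') := by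
        ext b'
        rfl
      rw [h2] at h1
      show V.subtype (Polynomial.eval₂ iB' gV q) = _
      rw [h1]
      show Polynomial.eval₂ (φ.comp (algebraMap B' F')) (φ g) q = φ (Polynomial.aeval g q)
      rw [← Polynomial.hom_eval₂]
      rfl
    rw [← this]
    exact h0
  obtain ⟨b', hb'⟩ := hnorm g q hq hqg
  refine ⟨(b' : F'), b'.2, ?_⟩
  have h1 : φ (g - (b' : F')) ∈ V.nonunits := by
    rw [← nu_comap544, hcomap]
    exact hb'
  have : f - φ (b' : F') = (f - φ g) + φ (g - (b' : F')) := by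
    rw [map_sub]
    ring
  rw [this]
  exact nu_add544 V hfg h1

/-- **Transfer of normality** along a residue-degree-one extension of valuation rings. -/
theorem normalAlong_of_transfer544 (φ : F' →+* F) (B : Subalgebra R F) (B' : Subalgebra R F')
    (V : ValuationSubring F) (V' : ValuationSubring F')
    (hcomap : V.comap φ = V')
    (hBV : ∀ b ∈ B, b ∈ V)
    (hres : ∀ f ∈ V, ∃ g ∈ V', f - φ g ∈ V.nonunits)
    (hint : ∀ b ∈ B, ∃ p : Polynomial F', p.Monic ∧ (∀ i, p.coeff i ∈ B') ∧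
      (p.map φ).eval b ∈ V.nonunits)
    (hchart : ∀ b' ∈ B', φ b' ∈ B)
    (hnorm : NormalAlong B' V') : NormalAlong B V := by
  intro f p hp hpf
  obtain ⟨b', hb', h⟩ := res_of_transfer544 φ B B' V V' hcomap hBV
    (fun b' hb' => hBV _ (hchart b' hb')) hres hint hnorm f p hp hpf
  exact ⟨⟨φ b', hchart b' hb'⟩, h⟩

/-- **Residue degree one in chart form**: every element of `B` is congruent modulo `𝔪_V` to the
image of an element of `B'`. -/
theorem chartRes_of_transfer544 (φ : F' →+* F) (B : Subalgebra R F) (B' : Subalgebra R F')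
    (V : ValuationSubring F) (V' : ValuationSubring F')
    (hcomap : V.comap φ = V')
    (hBV : ∀ b ∈ B, b ∈ V)
    (hB'V : ∀ b' ∈ B', φ b' ∈ V)
    (hres : ∀ f ∈ V, ∃ g ∈ V', f - φ g ∈ V.nonunits)
    (hint : ∀ b ∈ B, ∃ p : Polynomial F', p.Monic ∧ (∀ i, p.coeff i ∈ B') ∧
      (p.map φ).eval b ∈ V.nonunits)
    (hnorm : NormalAlong B' V') :
    ∀ b ∈ B, ∃ b' ∈ B', b - φ b' ∈ V.nonunits := by
  intro b hb
  refine res_of_transfer544 φ B B' V V' hcomap hBV hB'V hres hint hnorm b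
    (Polynomial.X - Polynomial.C ⟨b, hb⟩) (Polynomial.monic_X_sub_C _) ?_
  have : Polynomial.aeval b (Polynomial.X - Polynomial.C (⟨b, hb⟩ : B)) = 0 := by
    rw [map_sub, Polynomial.aeval_X, Polynomial.aeval_C]
    exact sub_self b
  rw [this, nu_iff544, map_zero]
  exact zero_lt_one

end Transfer

section Chart

open Fermat.Agent.S18.H138 (chart mem_chart)

variable {R F F' : Type*} [CommRing R] [Field F] [Algebra R F] [Field F'] [Algebra R F']

/-- `0` is a nonunit. -/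
theorem nu_zero544 (V : ValuationSubring F) : (0 : F) ∈ V.nonunits := by
  rw [nu_iff544, map_zero]
  exact zero_lt_one

/-- Exact integrality implies integrality modulo `𝔪_V`. -/
theorem hint_of_int544 (φ : F' →+* F) (B : Subalgebra R F) (B' : Subalgebra R F')
    (V : ValuationSubring F)
    (h : ∀ b ∈ B, ∃ p : Polynomial F', p.Monic ∧ (∀ i, p.coeff i ∈ B') ∧
      (p.map φ).eval b = 0) :
    ∀ b ∈ B, ∃ p : Polynomial F', p.Monic ∧ (∀ i, p.coeff i ∈ B') ∧
      (p.map φ).eval b ∈ V.nonunits := by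
  intro b hb
  obtain ⟨p, hp, hc, h0⟩ := h b hb
  exact ⟨p, hp, hc, by rw [h0]; exact nu_zero544 V⟩

/-- If the generators `S` are congruent modulo `𝔪_V` to images of elements of `B'`, so is every
element of `R[S]`. -/
theorem adjoin_res544 (φ : F' →+* F) (hφR : ∀ r : R, φ (algebraMap R F' r) = algebraMap R F r)
    (S : Set F) (B' : Subalgebra R F') (V : ValuationSubring F)
    (hB'V : ∀ b' ∈ B', φ b' ∈ V)
    (hgen : ∀ s ∈ S, ∃ y ∈ B', s - φ y ∈ V.nonunits) :
    ∀ c ∈ Algebra.adjoin R S, ∃ y ∈ B', c - φ y ∈ V.nonunits := by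
  intro c hc
  induction hc using Algebra.adjoin_induction with
  | mem s hs => exact hgen s hs
  | algebraMap r =>
    refine ⟨algebraMap R F' r, B'.algebraMap_mem r, ?_⟩
    rw [hφR, sub_self]
    exact nu_zero544 V
  | add a b _ _ ha hb =>
    obtain ⟨y₁, hy₁, h₁⟩ := ha
    obtain ⟨y₂, hy₂, h₂⟩ := hb
    refine ⟨y₁ + y₂, B'.add_mem hy₁ hy₂, ?_⟩
    have : a + b - φ (y₁ + y₂) = (a - φ y₁) + (b - φ y₂) := by
      rw [map_add]
      ring
    rw [this]
    exact nu_add544 V h₁ h₂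
  | mul a b _ _ ha hb =>
    obtain ⟨y₁, hy₁, h₁⟩ := ha
    obtain ⟨y₂, hy₂, h₂⟩ := hb
    refine ⟨y₁ * y₂, B'.mul_mem hy₁ hy₂, ?_⟩
    have hbV : b ∈ V := by
      have := V.add_mem _ _ (nu_mem544 V h₂) (hB'V y₂ hy₂)
      rwa [sub_add_cancel] at this
    have : a * b - φ (y₁ * y₂) = (a - φ y₁) * b + (b - φ y₂) * φ y₁ := by
      rw [map_mul]
      ring
    rw [this]
    exact nu_add544 V (nu_mul544 V h₁ hbV) (nu_mul544 V h₂ (hB'V y₁ hy₁))

/-- **Integrality modulo `𝔪_V` from generators**: if the generators `S` of the chart are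
congruent modulo `𝔪_V` to images of elements of `B'`, the chart `chart R S` is integral over
`φ B'` modulo `𝔪_V`. -/
theorem hint_of_gen544 (φ : F' →+* F) (hφR : ∀ r : R, φ (algebraMap R F' r) = algebraMap R F r)
    (S : Set F) (B' : Subalgebra R F') (V : ValuationSubring F)
    (hB'V : ∀ b' ∈ B', φ b' ∈ V)
    (hgen : ∀ s ∈ S, ∃ y ∈ B', s - φ y ∈ V.nonunits) :
    ∀ b ∈ chart R S, ∃ p : Polynomial F', p.Monic ∧ (∀ i, p.coeff i ∈ B') ∧
      (p.map φ).eval b ∈ V.nonunits := by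
  classical
  have hadj := adjoin_res544 φ hφR S B' V hB'V hgen
  have hCV : ∀ c ∈ Algebra.adjoin R S, c ∈ V := by
    intro c hc
    obtain ⟨y, hy, h⟩ := hadj c hc
    have := V.add_mem _ _ (nu_mem544 V h) (hB'V y hy)
    rwa [sub_add_cancel] at this
  intro b hb
  obtain ⟨P, hP, hPb⟩ := (mem_chart.1 hb : IsIntegral (Algebra.adjoin R S) b)
  have hbV : b ∈ V := by
    refine mem_of_monic_root_mod544 (Algebra.adjoin R S) V hCV b P hP ?_
    rw [Polynomial.aeval_def, hPb]
    exact nu_zero544 V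
  let K := IsLocalRing.ResidueField V
  let ρ : V →+* K := IsLocalRing.residue V
  have hρ : ∀ y : V, ρ y = 0 ↔ (y : F) ∈ V.nonunits := by
    intro y
    rw [IsLocalRing.residue_eq_zero_iff, ValuationSubring.mem_nonunits_iff_exists_mem_maximalIdeal]
    constructor
    · intro h
      exact ⟨y.2, h⟩
    · rintro ⟨_, h⟩
      exact h
  let iC : Algebra.adjoin R S →+* V :=
    RingHom.codRestrict ((Algebra.adjoin R S).val : Algebra.adjoin R S →+* F) V
      (fun c => hCV c c.2)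
  let iB' : B' →+* V := RingHom.codRestrict (φ.comp (B'.val : B' →+* F')) V
    (fun b' => hB'V b' b'.2)
  letI algB'K : Algebra B' K := (ρ.comp iB').toAlgebra
  let A : Subalgebra B' K := integralClosure B' K
  have hA : ∀ c : Algebra.adjoin R S, ρ (iC c) ∈ A := by
    intro c
    obtain ⟨y, hy, h⟩ := hadj c c.2
    have : ρ (iC c) = algebraMap B' K ⟨y, hy⟩ := by
      show ρ (iC c) = ρ (iB' ⟨y, hy⟩)
      rw [← sub_eq_zero, ← map_sub, hρ]
      exact h
    rw [this]
    exact A.algebraMap_mem _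
  let bV : V := ⟨b, hbV⟩
  have hB : IsIntegral A (ρ bV) := by
    let jCA : Algebra.adjoin R S →+* A := RingHom.codRestrict (ρ.comp iC) A hA
    refine ⟨P.map jCA, hP.map jCA, ?_⟩
    rw [Polynomial.eval₂_map]
    have : (algebraMap A K).comp jCA = ρ.comp iC := by
      ext c
      rfl
    rw [this, ← Polynomial.hom_eval₂, hρ]
    have : ((Polynomial.eval₂ iC bV P : V) : F) =
        Polynomial.eval₂ (algebraMap (Algebra.adjoin R S) F) b P := by
      have h1 := Polynomial.hom_eval₂ P iC V.subtype bV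
      have h2 : V.subtype.comp iC = algebraMap (Algebra.adjoin R S) F := by
        ext c
        rfl
      rw [h2] at h1
      exact h1
    rw [this, hPb]
    exact nu_zero544 V
  have hC : IsIntegral B' (ρ bV) := isIntegral_trans (R := B') (A := A) (ρ bV) hB
  obtain ⟨Q, hQ, hQ0⟩ := hC
  refine ⟨Q.map (B'.val : B' →+* F'), hQ.map _, ?_, ?_⟩
  · intro i
    rw [Polynomial.coeff_map]
    exact (Q.coeff i).2
  · have h0 : ρ (Polynomial.eval₂ iB' bV Q) = 0 := by
      rw [Polynomial.hom_eval₂]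
      exact hQ0
    rw [hρ] at h0
    have : ((Polynomial.eval₂ iB' bV Q : V) : F) =
        ((Q.map (B'.val : B' →+* F')).map φ).eval b := by
      have h1 := Polynomial.hom_eval₂ Q iB' V.subtype bV
      have h2 : V.subtype.comp iB' = φ.comp (B'.val : B' →+* F') := by
        ext b'
        rfl
      rw [h2] at h1
      show V.subtype (Polynomial.eval₂ iB' bV Q) = _
      rw [h1, Polynomial.map_map, Polynomial.eval_map]
      rfl
    rw [← this]
    exact h0

end Chart

end Fermat.Agent.S36.Mod3.H544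

end
-- ===== PACK-END S36/Mod3/H544/NormalCore.lean

-- ===== PACK-BEGIN S45/H838/KronAbs.lean
section


/-!
# S45 / CAR3, MOD-E — the Kronecker pattern modulo `𝔪_V`, abstract (helper838)

`V` a valuation subring of a field `F` with `(q : F) ∈ 𝔪_V`, `q` prime (residue characteristic
`q`), `J : ℕ → F` a chain with `J l ∈ V`.

* `sub_mem_nonunits_of_pow838` : Frobenius is injective on the residue field:
  `a ^ q ≡ b ^ q ⟹ a ≡ b (mod 𝔪_V)`;
* `kron_sym838` : if the chain has FROBENIUS steps `J (l + 1) ≡ (J l) ^ q` below the centre `c`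
  and VERSCHIEBUNG steps `J l ≡ (J (l + 1)) ^ q` from `c` to `c + i`, then it is SYMMETRIC about
  the centre modulo `𝔪_V`:  `J (c + m) ≡ J (c - m)` for `m ≤ i`, `m ≤ c`;
* `kron_top838` (`2 i ≤ e`: `J e ≡ J (e - 2 i)`), `kron_bot838` (`e ≤ 2 i`:
  `J 0 ≡ J (2 (e - i))`) : the two consequences in the indexing of `ModE.PartKronE`;
* `inv_sub_inv_mem_nonunits838`, `mul_inv_cong838` : congruences of inverses.

Mathlib only (plus the elementary `nu_*544` lemmas of `S36/Mod3/H544/NormalCore`, on main).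
-/

set_option autoImplicit false
set_option linter.style.haveILetI false
set_option linter.unusedSectionVars false

namespace Fermat.Agent.S45.H838

open Fermat.Agent.S36.Mod3.H544

section Abs

variable {F : Type*} [Field F]

/-- **Frobenius is injective modulo `𝔪_V`.** -/
theorem sub_mem_nonunits_of_pow838 (V : ValuationSubring F) {q : ℕ} (hq : q.Prime)
    (hqV : (q : F) ∈ V.nonunits) {a b : F} (ha : a ∈ V) (hb : b ∈ V)
    (h : a ^ q - b ^ q ∈ V.nonunits) : a - b ∈ V.nonunits := by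
  classical
  let K := IsLocalRing.ResidueField V
  let ρ : V →+* K := IsLocalRing.residue V
  have hρ : ∀ y : V, ρ y = 0 ↔ (y : F) ∈ V.nonunits := by
    intro y
    rw [IsLocalRing.residue_eq_zero_iff, ValuationSubring.mem_nonunits_iff_exists_mem_maximalIdeal]
    constructor
    · intro h
      exact ⟨y.2, h⟩
    · rintro ⟨_, h⟩
      exact h
  haveI : CharP K q := by
    refine (CharP.charP_iff_prime_eq_zero hq).mpr ?_
    have h0 : ρ ((q : ℕ) : V) = 0 := by
      rw [hρ]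
      have : (((q : ℕ) : V) : F) = (q : F) := by push_cast; rfl
      rw [this]
      exact hqV
    rwa [map_natCast] at h0
  haveI : Fact q.Prime := ⟨hq⟩
  let aV : V := ⟨a, ha⟩
  let bV : V := ⟨b, hb⟩
  have h1 : ρ (aV ^ q - bV ^ q) = 0 := by
    rw [hρ]
    exact h
  have h2 : (ρ aV - ρ bV) ^ q = 0 := by
    rw [sub_pow_char, ← map_pow, ← map_pow, ← map_sub]
    exact h1
  have h3 : ρ (aV - bV) = 0 := by
    rw [map_sub]
    exact pow_eq_zero_iff hq.ne_zero |>.1 h2
  exact (hρ _).1 h3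

/-- **The Kronecker chain is symmetric about its centre modulo `𝔪_V`.** -/
theorem kron_sym838 (V : ValuationSubring F) {q : ℕ} (hq : q.Prime)
    (hqV : (q : F) ∈ V.nonunits) (J : ℕ → F) (c i : ℕ) (hJ : ∀ l ≤ c + i, J l ∈ V)
    (frob : ∀ l, l < c → J (l + 1) - J l ^ q ∈ V.nonunits)
    (ver : ∀ l, c ≤ l → l < c + i → J l - J (l + 1) ^ q ∈ V.nonunits) :
    ∀ m, m ≤ i → m ≤ c → J (c + m) - J (c - m) ∈ V.nonunits := by
  intro m
  induction m with
  | zero =>
    intro _ _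
    rw [Nat.add_zero, Nat.sub_zero, sub_self]
    exact nu_zero544 V
  | succ m ih =>
    intro hmi hmc
    have hIH := ih (by omega) (by omega)
    have hv := ver (c + m) (by omega) (by omega)
    have hf := frob (c - (m + 1)) (by omega)
    have e1 : c - (m + 1) + 1 = c - m := by omega
    rw [e1] at hf
    have e2 : c + m + 1 = c + (m + 1) := by omega
    rw [e2] at hv
    refine sub_mem_nonunits_of_pow838 V hq hqV (hJ _ (by omega)) (hJ _ (by omega)) ?_
    have : J (c + (m + 1)) ^ q - J (c - (m + 1)) ^ q =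
        (J (c + m) - J (c - m)) + (J (c - m) - J (c - (m + 1)) ^ q) -
          (J (c + m) - J (c + (m + 1)) ^ q) := by ring
    rw [this]
    exact nu_sub544 V (nu_add544 V hIH hf) hv

/-- `2 i ≤ e`: `J e ≡ J (e - 2 i)` on the component `i` (indexing of `ModE.PartKronE`). -/
theorem kron_top838 (V : ValuationSubring F) {q : ℕ} (hq : q.Prime)
    (hqV : (q : F) ∈ V.nonunits) (J : ℕ → F) (e i : ℕ) (hi : 2 * i ≤ e)
    (hJ : ∀ l ≤ e, J l ∈ V)
    (frob : ∀ l, l < e - i → J (l + 1) - J l ^ q ∈ V.nonunits)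
    (ver : ∀ l, e - i ≤ l → l < e → J l - J (l + 1) ^ q ∈ V.nonunits) :
    J e - J (e - 2 * i) ∈ V.nonunits := by
  have h := kron_sym838 V hq hqV J (e - i) i (fun l hl => hJ l (by omega)) frob
    (fun l h1 h2 => ver l h1 (by omega)) i le_rfl (by omega)
  have e1 : e - i + i = e := by omega
  have e2 : e - i - i = e - 2 * i := by omega
  rwa [e1, e2] at h

/-- `e ≤ 2 i`, `i ≤ e`: `J 0 ≡ J (2 (e - i))` on the component `i`. -/
theorem kron_bot838 (V : ValuationSubring F) {q : ℕ} (hq : q.Prime)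
    (hqV : (q : F) ∈ V.nonunits) (J : ℕ → F) (e i : ℕ) (hie : i ≤ e) (hi : e ≤ 2 * i)
    (hJ : ∀ l ≤ e, J l ∈ V)
    (frob : ∀ l, l < e - i → J (l + 1) - J l ^ q ∈ V.nonunits)
    (ver : ∀ l, e - i ≤ l → l < e → J l - J (l + 1) ^ q ∈ V.nonunits) :
    J 0 - J (2 * (e - i)) ∈ V.nonunits := by
  have h := kron_sym838 V hq hqV J (e - i) i (fun l hl => hJ l (by omega)) frob
    (fun l h1 h2 => ver l h1 (by omega)) (e - i) (by omega) le_rfl
  have e1 : e - i + (e - i) = 2 * (e - i) := by omega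
  have e2 : e - i - (e - i) = 0 := by omega
  rw [e1, e2] at h
  have := nu_neg544 V h
  rwa [neg_sub] at this

/-- `a ≡ b` with `a⁻¹, b⁻¹ ∈ V` gives `a⁻¹ ≡ b⁻¹`. -/
theorem inv_sub_inv_mem_nonunits838 (V : ValuationSubring F) {a b : F} (ha0 : a ≠ 0)
    (hb0 : b ≠ 0) (ha : a⁻¹ ∈ V) (hb : b⁻¹ ∈ V) (h : a - b ∈ V.nonunits) :
    a⁻¹ - b⁻¹ ∈ V.nonunits := by
  have e : a⁻¹ - b⁻¹ = (-(a - b)) * (a⁻¹ * b⁻¹) := by
    field_simp
    ring
  rw [e]
  exact nu_mul544 V (nu_neg544 V h) (V.mul_mem _ _ ha hb)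

/-- `(c * a)⁻¹ ≡ c⁻¹ * b⁻¹` when `a ≡ b`. -/
theorem mul_inv_cong838 (V : ValuationSubring F) {a b c : F} (ha0 : a ≠ 0) (hb0 : b ≠ 0)
    (ha : a⁻¹ ∈ V) (hb : b⁻¹ ∈ V) (hc : c⁻¹ ∈ V) (h : a - b ∈ V.nonunits) :
    (c * a)⁻¹ - c⁻¹ * b⁻¹ ∈ V.nonunits := by
  have e : (c * a)⁻¹ - c⁻¹ * b⁻¹ = (a⁻¹ - b⁻¹) * c⁻¹ := by
    rw [mul_inv]
    ring
  rw [e]
  exact nu_mul544 V (inv_sub_inv_mem_nonunits838 V ha0 hb0 ha hb h) hc

end Abs

end Fermat.Agent.S45.H838

end
-- ===== PACK-END S45/H838/KronAbs.lean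

-- ===== PACK-BEGIN S45/H890/ChainT9.lean
section


/-!
# S45 / CAR3, MOD-E/Reg, leaf C7 (helper890): transfer of the CHAIN congruence from `j` to `t₉`

Mathlib + `S36.H934.Transfer9` (difference quotients of `J₉ = P₉³ / D₉`) only.

`V` a valuation ring of residue characteristic `q` (application: `q = 2`, `V = V 2`, the diagonal
sheet of level `q ^ 4`, where the precision of FrobW / VerW does not suffice: `μ = q`).
Four points of the `j`-chain and of the `t₉`-chain (`j · D₉(h) = P₉(h)³`):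

    (jA, hA) = (J e, τ e),  (jB, hB) = (J 0, τ 0),  (jA1, hA1) = (J (e-1), τ (e-1)),
    (jB1, hB1) = (J 1, τ 1),

with `hA ≡ hB`, `hA1 ≡ hA ^ q`, `hB1 ≡ hB ^ q` modulo `𝔪_V` and `hB`, `Q(hB)`, `jB`, `jB - 1728`
units of `V`.  Then

    (jA - jB) ^ q = (jA1 - jB1) (1 + 𝔪_V)   ⟹   (hA - hB) ^ q = (hA1 - hB1) (1 + 𝔪_V).

Proof: `jA - jB = (hA - hB) · dq9(hB, hA) / (D₉(hA) D₉(hB))`, the same for the second pair, and
`G(h ^ q) ≡ G(h) ^ q` for every polynomial expression `G` with integral coefficients (Frobenius of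
the residue field), applied to `G = dq9(X, X)` and `G = D₉`.
-/

set_option autoImplicit false
set_option linter.style.haveILetI false

namespace Fermat.Agent.S45.H890

open IsLocalRing Fermat.Agent.S36.H934

variable {L : Type*} [Field L]

/-- The residue field of a valuation ring `V` with `q ∈ 𝔪_V` has characteristic `q`. -/
theorem charP_residue890 (V : ValuationSubring L) {q : ℕ} (hq : q.Prime)
    (hqV : ((q : ℕ) : L) ∈ V.nonunits) : CharP (ResidueField V) q := by
  haveI : Fact q.Prime := ⟨hq⟩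
  rw [CharP.charP_iff_prime_eq_zero hq]
  have h1 : residue V ((q : ℕ) : V) = 0 := by
    rw [residue_eq_zero_iff, ← ValuationSubring.coe_mem_nonunits_iff]
    have : (((q : ℕ) : V) : L) = ((q : ℕ) : L) := by simp
    rw [this]
    exact hqV
  rw [map_natCast] at h1
  exact h1

/-- `𝔪_V` is stable under multiplication by `V`. -/
theorem mul_nonunits890 (V : ValuationSubring L) {x y : L} (hx : x ∈ V.nonunits) (hy : y ∈ V) :
    x * y ∈ V.nonunits := by
  rw [ValuationSubring.mem_nonunits_iff] at hx ⊢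
  rw [map_mul]
  exact mul_lt_one_of_lt_of_le hx ((ValuationSubring.valuation_le_one_iff V y).mpr hy)

theorem add_nonunits890 (V : ValuationSubring L) {x y : L} (hx : x ∈ V.nonunits)
    (hy : y ∈ V.nonunits) : x + y ∈ V.nonunits := by
  rw [ValuationSubring.mem_nonunits_iff] at hx hy ⊢
  exact lt_of_le_of_lt (V.valuation.map_add x y) (max_lt hx hy)

/-- `u ≡ 1` ⟹ `u ∈ V`. -/
theorem mem_of_sub_one890 (V : ValuationSubring L) {u : L} (hu : u - 1 ∈ V.nonunits) : u ∈ V := by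
  have : u = (u - 1) + 1 := by ring
  rw [this]
  exact V.add_mem _ _ (ValuationSubring.nonunits_subset hu) V.one_mem

/-- `u ≡ 1`, `u' ≡ 1` ⟹ `u u' ≡ 1`. -/
theorem mul_sub_one890 (V : ValuationSubring L) {u u' : L} (hu : u - 1 ∈ V.nonunits)
    (hu' : u' - 1 ∈ V.nonunits) : u * u' - 1 ∈ V.nonunits := by
  have e : u * u' - 1 = (u - 1) * u' + (u' - 1) := by ring
  rw [e]
  exact add_nonunits890 V (mul_nonunits890 V hu (mem_of_sub_one890 V hu')) hu'

/-- **Transfer of the chain congruence from `j` to `t₉`** (any residue characteristic `q`). -/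
theorem chain_transfer9 (V : ValuationSubring L) {q : ℕ} (hq : q.Prime)
    (hqV : ((q : ℕ) : L) ∈ V.nonunits)
    (jA jB jA1 jB1 hA hB hA1 hB1 : L)
    (rA : jA * d9 hA = p9 hA ^ 3) (rB : jB * d9 hB = p9 hB ^ 3)
    (rA1 : jA1 * d9 hA1 = p9 hA1 ^ 3) (rB1 : jB1 * d9 hB1 = p9 hB1 ^ 3)
    (hhB : V.valuation hB = 1) (hhB' : V.valuation (hB ^ 2 + 9 * hB + 27) = 1)
    (hjB : V.valuation jB = 1) (hjB' : V.valuation (jB - 1728) = 1)
    (hAV : hA ∈ V) (hA1V : hA1 ∈ V) (hB1V : hB1 ∈ V)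
    (hAB : hA - hB ∈ V.nonunits)
    (hFA : hA1 - hA ^ q ∈ V.nonunits) (hFB : hB1 - hB ^ q ∈ V.nonunits)
    (hne : hA1 - hB1 ≠ 0)
    (hJ : (jA - jB) ^ q * (jA1 - jB1)⁻¹ - 1 ∈ V.nonunits) :
    (hA - hB) ^ q * (hA1 - hB1)⁻¹ - 1 ∈ V.nonunits := by
  classical
  haveI : Fact q.Prime := ⟨hq⟩
  haveI hchar : CharP (ResidueField V) q := charP_residue890 V hq hqV
  have hBV : hB ∈ V := (V.valuation_le_one_iff _).1 hhB.le
  have jBV : jB ∈ V := (V.valuation_le_one_iff _).1 hjB.le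
  lift hA to V using hAV with a
  lift hB to V using hBV with b
  lift hA1 to V using hA1V with a1
  lift hB1 to V using hB1V with b1
  lift jB to V using jBV with c
  -- the residue map
  let r : V →+* ResidueField V := residue V
  have hr0 : ∀ z : V, r z = 0 ↔ (z : L) ∈ V.nonunits := fun z => by
    rw [ValuationSubring.coe_mem_nonunits_iff]
    exact residue_eq_zero_iff z
  have hrne : ∀ z : V, V.valuation (z : L) = 1 → r z ≠ 0 := fun z hz h0 => by
    have := (V.mem_nonunits_iff).1 ((hr0 z).1 h0)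
    rw [hz] at this
    exact lt_irrefl _ this
  have hunit : ∀ z : V, r z ≠ 0 → (z : L) ≠ 0 ∧ (z : L)⁻¹ ∈ V := fun z hz => by
    have hu : IsUnit z := by
      by_contra hnu
      exact hz ((residue_eq_zero_iff _).2 ((mem_maximalIdeal _).2 hnu))
    obtain ⟨u, hu⟩ := hu
    have h1 : (z : L) * ((u⁻¹ : Vˣ) : V) = 1 := by
      have : z * ((u⁻¹ : Vˣ) : V) = 1 := by rw [← hu]; exact u.mul_inv
      exact_mod_cast congrArg (fun t : V => (t : L)) this
    have hz0 : (z : L) ≠ 0 := left_ne_zero_of_mul_eq_one h1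
    refine ⟨hz0, ?_⟩
    have : (z : L)⁻¹ = (((u⁻¹ : Vˣ) : V) : L) := by
      have h2 : (z : L)⁻¹ * ((z : L) * (((u⁻¹ : Vˣ) : V) : L)) = (z : L)⁻¹ := by
        rw [h1, mul_one]
      rw [← mul_assoc, inv_mul_cancel₀ hz0, one_mul] at h2
      exact h2.symm
    rw [this]
    exact ((u⁻¹ : Vˣ) : V).2
  -- residues of the chain
  have hra : r a = r b := by
    have h0 : r (a - b) = 0 := (hr0 _).2 hAB
    rwa [map_sub, sub_eq_zero] at h0
  have hra1 : r a1 = r b ^ q := by
    have h0 : r (a1 - a ^ q) = 0 := (hr0 _).2 hFA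
    rw [map_sub, map_pow, sub_eq_zero] at h0
    rw [h0, hra]
  have hrb1 : r b1 = r b ^ q := by
    have h0 : r (b1 - b ^ q) = 0 := (hr0 _).2 hFB
    rwa [map_sub, map_pow, sub_eq_zero] at h0
  -- units
  have hrb : r b ≠ 0 := hrne b hhB
  have hrb' : r b ^ 2 + 9 * r b + 27 ≠ 0 := by
    have := hrne (b ^ 2 + 9 * b + 27) hhB'
    rwa [map_add, map_add, map_mul, map_pow, map_ofNat, map_ofNat] at this
  have hrc : r c ≠ 0 := hrne c hjB
  have hrc' : r c - 1728 ≠ 0 := by
    have := hrne (c - 1728) hjB'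
    rwa [map_sub, map_ofNat] at this
  have hrD : d9 (r b) ≠ 0 := mul_ne_zero (pow_ne_zero _ hrb) hrb'
  have hJr : r c * d9 (r b) = p9 (r b) ^ 3 := by
    have h : c * d9 b = p9 b ^ 3 := Subtype.ext rB
    have := congrArg r h
    rwa [map_mul, map_pow, map_d9, map_p9] at this
  have hJr' : (r c - 1728) * d9 (r b) = r9 (r b) ^ 2 := by
    linear_combination hJr + p9_cube_sub (r b)
  have hP : p9 (r b) ≠ 0 := by
    intro h
    rw [h] at hJr
    exact (mul_ne_zero hrc hrD) (by rw [hJr]; ring)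
  have hR : r9 (r b) ≠ 0 := by
    intro h
    rw [h] at hJr'
    exact (mul_ne_zero hrc' hrD) (by rw [hJr']; ring)
  have hδ : dq9 (r b) (r b) ≠ 0 := by
    rw [dq9_diag]
    exact mul_ne_zero (mul_ne_zero (pow_ne_zero _ hP) (pow_ne_zero _ hrb)) hR
  -- Frobenius
  have hfrD : d9 (r b ^ q) = d9 (r b) ^ q := by
    have h := map_d9 (frobenius (ResidueField V) q) (r b)
    rw [frobenius_def, frobenius_def] at h
    exact h.symm
  have hfrδ : dq9 (r b ^ q) (r b ^ q) = dq9 (r b) (r b) ^ q := by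
    have h := map_dq9 (frobenius (ResidueField V) q) (r b) (r b)
    rw [frobenius_def, frobenius_def] at h
    exact h.symm
  -- the two sides of the comparison
  set u : V := (d9 b * d9 a) ^ q * dq9 b1 a1 with hu
  set v : V := dq9 b a ^ q * (d9 b1 * d9 a1) with hv
  have hru : r u = (d9 (r b) * d9 (r b)) ^ q * dq9 (r b) (r b) ^ q := by
    rw [hu, map_mul, map_pow, map_mul, map_d9, map_d9, map_dq9, hra, hra1, hrb1, hfrδ]
  have hrv : r v = dq9 (r b) (r b) ^ q * (d9 (r b) ^ q * d9 (r b) ^ q) := by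
    rw [hv, map_mul, map_pow, map_dq9, map_mul, map_d9, map_d9, hra, hra1, hrb1, hfrD]
  have hruv : r u = r v := by rw [hru, hrv]; ring
  have hrv0 : r v ≠ 0 := by
    rw [hrv]
    exact mul_ne_zero (pow_ne_zero _ hδ) (mul_ne_zero (pow_ne_zero _ hrD) (pow_ne_zero _ hrD))
  obtain ⟨hv0, hvi⟩ := hunit v hrv0
  have huv : (u : L) - (v : L) ∈ V.nonunits := by
    have h0 : r (u - v) = 0 := by rw [map_sub, hruv, sub_self]
    exact (hr0 _).1 h0
  -- `C = u / v ≡ 1`
  have hC : (u : L) * (v : L)⁻¹ - 1 ∈ V.nonunits := by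
    have e : (u : L) * (v : L)⁻¹ - 1 = ((u : L) - (v : L)) * (v : L)⁻¹ := by
      field_simp
    rw [e]
    exact mul_nonunits890 V huv hvi
  -- the key identities in `L`
  have kA : (jA - (c : L)) * (d9 (b : L) * d9 (a : L)) = ((a : L) - b) * dq9 (b : L) (a : L) := by
    rw [← dq9_spec]
    linear_combination (d9 (b : L)) * rA - (d9 (a : L)) * rB
  have k1 : (jA1 - jB1) * (d9 (b1 : L) * d9 (a1 : L))
      = ((a1 : L) - b1) * dq9 (b1 : L) (a1 : L) := by
    rw [← dq9_spec]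
    linear_combination (d9 (b1 : L)) * rA1 - (d9 (a1 : L)) * rB1
  have huL : (u : L) = (d9 (b : L) * d9 (a : L)) ^ q * dq9 (b1 : L) (a1 : L) := rfl
  have hvL : (v : L) = dq9 (b : L) (a : L) ^ q * (d9 (b1 : L) * d9 (a1 : L)) := rfl
  have hv0' := hv0
  rw [hvL] at hv0'
  have hdB0 : dq9 (b : L) (a : L) ^ q ≠ 0 := left_ne_zero_of_mul hv0'
  have hA10 : d9 (b1 : L) * d9 (a1 : L) ≠ 0 := right_ne_zero_of_mul hv0'
  -- `u ≠ 0`
  have hru0 : r u ≠ 0 := by rw [hruv]; exact hrv0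
  obtain ⟨hu0, -⟩ := hunit u hru0
  have hu0' := hu0
  rw [huL] at hu0'
  have hd10 : dq9 (b1 : L) (a1 : L) ≠ 0 := right_ne_zero_of_mul hu0'
  have hj10 : jA1 - jB1 ≠ 0 := by
    intro h
    rw [h, zero_mul] at k1
    exact (mul_ne_zero hne hd10) k1.symm
  -- `X = Yj · (u / v)`
  have hX : ((a : L) - b) ^ q * ((a1 : L) - b1)⁻¹
      = ((jA - (c : L)) ^ q * (jA1 - jB1)⁻¹) * ((u : L) * (v : L)⁻¹) := by
    have hAq : (jA - (c : L)) ^ q * (d9 (b : L) * d9 (a : L)) ^ q
        = ((a : L) - b) ^ q * dq9 (b : L) (a : L) ^ q := by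
      rw [← mul_pow, ← mul_pow, kA]
    rw [huL, hvL]
    generalize (jA - (c : L)) ^ q = Jq at hAq ⊢
    generalize (d9 (b : L) * d9 (a : L)) ^ q = Aq at hAq ⊢
    generalize ((a : L) - b) ^ q = Xq at hAq ⊢
    generalize dq9 (b : L) (a : L) ^ q = Dq at hAq hdB0 ⊢
    generalize d9 (b1 : L) * d9 (a1 : L) = A1 at k1 hA10 ⊢
    generalize dq9 (b1 : L) (a1 : L) = D1 at k1 hd10 ⊢
    generalize (a1 : L) - b1 = X1 at k1 hne ⊢
    generalize jA1 - jB1 = J1 at k1 hj10 ⊢
    field_simp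
    linear_combination (Xq * Dq) * k1 - (D1 * X1) * hAq
  rw [hX]
  exact mul_sub_one890 V hJ hC

end Fermat.Agent.S45.H890
end
-- ===== PACK-END S45/H890/ChainT9.lean

-- ===== PACK-BEGIN S45/Eng/Skel.lean
section



/-!
# S45 ENGINE-GE — skeleton, part 1 (row CAR3, helper48): `ALG-E + MOD-E ⟹ level engine`

`levelInertiaGE_of_algE_modelE : AlgEStatement → ModelEStatement → LevelInertiaGEStatement`
(sorry-free).  The leaves are hypotheses.
-/

set_option autoImplicit false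
set_option linter.style.haveILetI false
set_option linter.unusedSectionVars false
set_option synthInstance.maxHeartbeats 400000
set_option maxHeartbeats 1600000

noncomputable section

namespace Fermat.Agent.S45.Eng

open ModularCurve AlgebraicCurve

/-- `3 ≤ v_q(M) + 2` for `q ∣ M`. -/
theorem three_le_factorization_add_two {M q : ℕ} (hM : M ≠ 0) (hq : q.Prime) (hqM : q ∣ M) :
    3 ≤ M.factorization q + 2 := by
  have : 1 ≤ M.factorization q := (hq.dvd_iff_one_le_factorization hM).1 hqM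
  omega

/-- **Skeleton, part 1.**  `ALG-E + MOD-E ⟹` the engine at every unramified good level, at neat
levels `M q`, `q ∣ M`. -/
theorem levelInertiaGE_of_algE_modelE (hALG : AlgEStatement) (hMOD : ModelEStatement) :
    LevelInertiaGEStatement := by
  intro P E M q _ _ _ hq hqM hP hE hneat
  haveI : IsDiscreteValuationRing ↥(A2.RE P E) := hE.1.dvr
  haveI : HenselianLocalRing ↥(A2.RE P E) := hE.1.henselian
  haveI : IsAlgClosed (IsLocalRing.ResidueField ↥(A2.RE P E)) := hE.1.algClosed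
  obtain ⟨w, hw⟩ := IsDiscreteValuationRing.exists_irreducible ↥(A2.RE P E)
  obtain ⟨x, x', V, V', hctx⟩ := hMOD P E M q hq hqM hP hE hneat w hw
  exact hALG (R := ↥(A2.RE P E)) (E := E) (F := ↥(A2.Mod.FE E (M * q * q)))
    (F' := ↥(A2.Mod.FE E (M * q))) w hw q hq
    (Fermat.Agent.S36.Eng.natCast_mem_maximalIdeal_RE E hP)
    (M.factorization q + 2) (three_le_factorization_add_two (NeZero.ne M) hq hqM)
    (A2.Mod.αE E (M * q) q) (A2.Mod.βE E (M * q) q) x x' V V' hctx

end Fermat.Agent.S45.Eng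

end

end
-- ===== PACK-END S45/Eng/Skel.lean

-- ===== PACK-BEGIN S45/H128/GEGlue.lean
section
/-
S45 top glue, part 1 (helper128): the GE form of helper36's S36 top glue.

Verbatim copy of the `Assembly` part of `Fermat/Agent/S36/H36/Glue.lean` with the exponent condition
`N.factorization q = 2` replaced by `2 ≤ N.factorization q` (the proofs never use the exponent).
-/


set_option autoImplicit false

namespace Fermat.Agent.S45.H128

open Polynomial Fermat.Agent.S30.H990 Fermat.Agent.S55.H414 Fermat.Agent.S36.H36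

section Assembly

variable {p N : ℕ} [Fact p.Prime] [NeZero N] {S : Finset ℕ}
  {𝒪 : Type} [CommRing 𝒪] [IsDomain 𝒪] [IsDiscreteValuationRing 𝒪]
  [IsAdicComplete (IsLocalRing.maximalIdeal 𝒪) 𝒪] [Finite (IsLocalRing.ResidueField 𝒪)]
  {χ : CuspForm.heckeAlgebra N 2 (↑S : Set ℕ) →+* 𝒪}

/-- No inertia invariants at the primes `q ≠ p` with `q² ∥ N`. -/
def NoInertiaInvariantsGE (E : AdicEigenModule p N S 𝒪 χ) : Prop :=
  ∀ q : ℕ, q.Prime → q ≠ p → 2 ≤ N.factorization q →
    ∀ A : ValuationSubring (AlgebraicClosure ℚ), A.LiesOverPrime q →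
      ∀ w : E.M, (∀ τ ∈ A.inertiaSubgroupIn ℚ, E.ρ τ w = w) → w = 0

/-- From an adic eigenmodule without inertia invariants to a two-dimensional adic Galois
representation with the Frobenius characteristic polynomials of S36, not unipotent on inertia
at the primes `q ≠ p`, `q² ∥ N`. -/
theorem exists_galoisRepAdic_not_unipotentGE [CharZero 𝒪] (hcheb : ChebWeak) (hpS : p ∈ S)
    (hNS : ∀ q : ℕ, q.Prime → q ∣ N → q ∈ S)
    (hp𝒪 : (p : 𝒪) ∈ IsLocalRing.maximalIdeal 𝒪) (E : AdicEigenModule p N S 𝒪 χ)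
    (hE : NoInertiaInvariantsGE E) :
    ∃ ρ : GaloisRepAdic 𝒪,
      (∀ (ℓ : ℕ) (hℓ : ℓ.Prime) (hℓN : ¬ ℓ ∣ N) (hℓS : ℓ ∉ (↑S : Set ℕ)),
        ∀ A : ValuationSubring (AlgebraicClosure ℚ), A.LiesOverPrime ℓ →
          ∀ σ : AlgebraicClosure ℚ ≃ₐ[ℚ] AlgebraicClosure ℚ, A.IsFrobeniusAt σ ℓ →
            LinearMap.charpoly (ρ.ρ σ) =
              X ^ 2 - C (χ (CuspForm.heckeAlgebra.T hℓ hℓN hℓS)) * X + C ((ℓ : 𝒪))) ∧
      (∀ q : ℕ, q.Prime → ¬ q ∣ N → q ≠ p → ρ.IsUnramifiedAt q) ∧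
      (∀ q : ℕ, q.Prime → q ≠ p → 2 ≤ N.factorization q → ¬ ρ.IsUnipotentOnInertiaAt q) := by
  obtain ⟨d, hdfrob, hdinert, hdc, hdcont⟩ := exists_cyclo p 𝒪 hp𝒪
  have hrel : ∀ g : GQ, ∃ a, S30.H990.Rel E.ρ d g a := fun g =>
    exists_rel_of_mod E.ρ d g (fun n => exists_rel_mod hcheb hpS hNS E d hdfrob hdcont g n)
  have h2 : (2 : 𝒪) ≠ 0 := two_ne_zero
  obtain ⟨T⟩ := exists_twoDim E.ρ d h2 hrel complexConjugation complexConjugation_mul_self hdc
  refine ⟨{ V := T.V
            finrank_eq := T.finrank_eq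
            ρ := T.ρ₂
            isAdicContinuous := ?_ }, ?_, ?_, ?_⟩
  · intro n
    obtain ⟨L₁, hL₁fin, hL₁⟩ := E.cont n
    have : FiniteDimensional ℚ L₁ := hL₁fin
    refine ⟨L₁ ⊔ cycloLevel (p ^ n),
      IntermediateField.finiteDimensional_sup L₁ (cycloLevel (p ^ n)), fun σ hσ v => ?_⟩
    refine T.cong (IsLocalRing.maximalIdeal 𝒪 ^ n) σ ?_ ?_ v
    · exact hL₁ σ (fun x hx => hσ x ((le_sup_left : L₁ ≤ L₁ ⊔ cycloLevel (p ^ n)) hx))
    · exact hdcont n σ (fun x hx =>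
        hσ x ((le_sup_right : cycloLevel (p ^ n) ≤ L₁ ⊔ cycloLevel (p ^ n)) hx))
  · intro ℓ hℓ hℓN hℓS A hA σ hσ
    have hℓp : ℓ ≠ p := fun h => hℓS (Finset.mem_coe.mpr (h ▸ hpS))
    have hr : S30.H990.Rel E.ρ d σ (χ (CuspForm.heckeAlgebra.T hℓ hℓN hℓS)) := by
      unfold S30.H990.Rel
      rw [hdfrob ℓ hℓ hℓp A hA σ hσ]
      exact E.frob ℓ hℓ hℓN hℓS A hA σ hσ
    have := T.charpoly_eq σ _ hr
    rw [hdfrob ℓ hℓ hℓp A hA σ hσ] at this
    exact this
  · intro q hq hqN hqp P hP σ hσ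
    have h1 : E.ρ σ = 1 := E.unram q hq hqN hqp P hP σ hσ
    have h2 : d σ = 1 := hdinert q hq hqp P hP σ hσ
    have h3 := T.cong ⊥ σ (fun v => by rw [h1]; simp) (by rw [h2]; simp)
    ext v
    have h4 := h3 v
    rw [Submodule.bot_smul, Submodule.mem_bot, sub_eq_zero] at h4
    simpa using h4
  · intro q hq hqp hfac hunip
    obtain ⟨A, hA⟩ := Fermat.Agent.S54.exists_valuationSubring_liesOver q hq
    have hsq : ∀ τ ∈ A.inertiaSubgroupIn ℚ, (E.ρ τ - 1) * (E.ρ τ - 1) = 0 := by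
      intro τ hτ
      obtain ⟨a, ha⟩ := hrel τ
      have hch := T.charpoly_eq τ a ha
      have hu : LinearMap.charpoly (T.ρ₂ τ) = (X - 1) ^ 2 := hunip A hA τ hτ
      have hd : d τ = 1 := hdinert q hq hqp A hA τ hτ
      rw [hu] at hch
      have ha2 : a = 2 := eq_two_of_charpoly_eq hch.symm
      unfold S30.H990.Rel at ha
      rw [ha2, hd, Units.val_one] at ha
      have e : (E.ρ τ - 1) * (E.ρ τ - 1)
          = E.ρ τ * E.ρ τ - (2 : 𝒪) • E.ρ τ + (1 : 𝒪) • (1 : Module.End 𝒪 E.M) := by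
        rw [one_smul, two_smul]
        noncomm_ring
      rw [e]
      exact ha
    obtain ⟨w, hw, hfix⟩ :=
      exists_fixed_of_sq_zero E.ρ (A.inertiaSubgroupIn ℚ) h2 hsq
    exact hw (hE q hq hqp hfac A hA w hfix)

end Assembly

/-- **The tower hypothesis of S36**: the eigencharacter of a newform has an adic eigenmodule
without inertia invariants at the primes `q ≠ λ` with `q² ∥ M`. -/
def HasNewformEigenModulesNoInvGE : Prop :=
  ∀ (M : ℕ) [NeZero M] (g : CuspForm (CongruenceSubgroup.Gamma0 M) 2), g.IsNewform →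
    ∀ (lam : ℕ) [Fact lam.Prime] (S : Finset ℕ)
      (O' : Type) [CommRing O'] [IsDomain O'] [IsDiscreteValuationRing O']
      [IsAdicComplete (IsLocalRing.maximalIdeal O') O'] [Finite (IsLocalRing.ResidueField O')]
      [CharZero O'] (_hlamO' : (lam : O') ∈ IsLocalRing.maximalIdeal O')
      (chig : CuspForm.heckeAlgebra M 2 (↑S : Set ℕ) →+* ℂ)
      (_hchig : ∀ (ℓ : ℕ) (hℓ : ℓ.Prime) (hℓM : ¬ ℓ ∣ M) (hℓS : ℓ ∉ (↑S : Set ℕ)),
        chig (CuspForm.heckeAlgebra.T hℓ hℓM hℓS) = ModularFormClass.qCoeff g ℓ)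
      (iota : chig.range →+* O')
      (_hlamS : lam ∈ S) (_hMS : ∀ q : ℕ, q.Prime → q ∣ M → q ∈ S),
      ∃ E : AdicEigenModule lam M S O' (iota.comp chig.rangeRestrict), NoInertiaInvariantsGE E

/-- **S36 from the Chebotarev hypothesis and the newform eigenmodules.** -/
theorem result_of_chebWeakGE (hcheb : ChebWeak) (hmod : HasNewformEigenModulesNoInvGE)
    {M : ℕ} [NeZero M] {g : CuspForm (CongruenceSubgroup.Gamma0 M) 2} (hg : g.IsNewform)
    (lam : ℕ) [Fact lam.Prime]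
    (S : Finset ℕ)
    (O' : Type) [CommRing O'] [IsDomain O'] [IsDiscreteValuationRing O']
    [IsAdicComplete (IsLocalRing.maximalIdeal O') O'] [Finite (IsLocalRing.ResidueField O')]
    [CharZero O'] (hlamO' : (lam : O') ∈ IsLocalRing.maximalIdeal O')
    (chig : CuspForm.heckeAlgebra M 2 (↑S : Set ℕ) →+* ℂ)
    (hchig : ∀ (ℓ : ℕ) (hℓ : ℓ.Prime) (hℓM : ¬ ℓ ∣ M) (hℓS : ℓ ∉ (↑S : Set ℕ)),
      chig (CuspForm.heckeAlgebra.T hℓ hℓM hℓS) = ModularFormClass.qCoeff g ℓ)
    (iota : chig.range →+* O')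
    (hlamS : lam ∈ S) (hMS : ∀ q : ℕ, q.Prime → q ∣ M → q ∈ S) :
    ∃ (O'' : Type) (_ : CommRing O'') (_ : IsDomain O'') (_ : IsDiscreteValuationRing O'')
      (_ : IsAdicComplete (IsLocalRing.maximalIdeal O'') O'') (_ : Finite (IsLocalRing.ResidueField O''))
      (_ : CharZero O'') (_ : Algebra O' O'') (_ : Module.Finite O' O'') (_ : IsLocalHom (algebraMap O' O'')),
      Function.Injective (algebraMap O' O'') ∧
      ∃ ρ : GaloisRepAdic O'',
        (∀ (ℓ : ℕ) (hℓ : ℓ.Prime) (hℓM : ¬ ℓ ∣ M) (hℓS : ℓ ∉ (↑S : Set ℕ)),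
          ∀ A : ValuationSubring (AlgebraicClosure ℚ), A.LiesOverPrime ℓ →
            ∀ σ : AlgebraicClosure ℚ ≃ₐ[ℚ] AlgebraicClosure ℚ, A.IsFrobeniusAt σ ℓ →
              LinearMap.charpoly (ρ.ρ σ) =
                X ^ 2 - C (algebraMap O' O'' ((iota.comp chig.rangeRestrict) (CuspForm.heckeAlgebra.T hℓ hℓM hℓS))) * X
                  + C ((ℓ : O''))) ∧
        (∀ q : ℕ, q.Prime → q ≠ lam → 2 ≤ M.factorization q → ¬ ρ.IsUnipotentOnInertiaAt q) := by
  obtain ⟨E, hE⟩ := hmod M g hg lam S O' hlamO' chig hchig iota hlamS hMS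
  obtain ⟨ρ, hρ1, -, hρ3⟩ := exists_galoisRepAdic_not_unipotentGE hcheb hlamS hMS hlamO' E hE
  exact ⟨O', inferInstance, inferInstance, inferInstance, inferInstance, inferInstance,
    inferInstance, Algebra.id O', Module.Finite.self O', isLocalHom_id O',
    Function.injective_id, ρ, hρ1, hρ3⟩

/-- **S36 from the newform eigenmodules without inertia invariants**
(Chebotarev = Tier 1 of the shared CHEB library). -/
theorem result_ofGE (hmod : HasNewformEigenModulesNoInvGE)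
    {M : ℕ} [NeZero M] {g : CuspForm (CongruenceSubgroup.Gamma0 M) 2} (hg : g.IsNewform)
    (lam : ℕ) [Fact lam.Prime]
    (S : Finset ℕ)
    (O' : Type) [CommRing O'] [IsDomain O'] [IsDiscreteValuationRing O']
    [IsAdicComplete (IsLocalRing.maximalIdeal O') O'] [Finite (IsLocalRing.ResidueField O')]
    [CharZero O'] (hlamO' : (lam : O') ∈ IsLocalRing.maximalIdeal O')
    (chig : CuspForm.heckeAlgebra M 2 (↑S : Set ℕ) →+* ℂ)
    (hchig : ∀ (ℓ : ℕ) (hℓ : ℓ.Prime) (hℓM : ¬ ℓ ∣ M) (hℓS : ℓ ∉ (↑S : Set ℕ)),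
      chig (CuspForm.heckeAlgebra.T hℓ hℓM hℓS) = ModularFormClass.qCoeff g ℓ)
    (iota : chig.range →+* O')
    (hlamS : lam ∈ S) (hMS : ∀ q : ℕ, q.Prime → q ∣ M → q ∈ S) :
    ∃ (O'' : Type) (_ : CommRing O'') (_ : IsDomain O'') (_ : IsDiscreteValuationRing O'')
      (_ : IsAdicComplete (IsLocalRing.maximalIdeal O'') O'') (_ : Finite (IsLocalRing.ResidueField O''))
      (_ : CharZero O'') (_ : Algebra O' O'') (_ : Module.Finite O' O'') (_ : IsLocalHom (algebraMap O' O'')),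
      Function.Injective (algebraMap O' O'') ∧
      ∃ ρ : GaloisRepAdic O'',
        (∀ (ℓ : ℕ) (hℓ : ℓ.Prime) (hℓM : ¬ ℓ ∣ M) (hℓS : ℓ ∉ (↑S : Set ℕ)),
          ∀ A : ValuationSubring (AlgebraicClosure ℚ), A.LiesOverPrime ℓ →
            ∀ σ : AlgebraicClosure ℚ ≃ₐ[ℚ] AlgebraicClosure ℚ, A.IsFrobeniusAt σ ℓ →
              LinearMap.charpoly (ρ.ρ σ) =
                X ^ 2 - C (algebraMap O' O'' ((iota.comp chig.rangeRestrict) (CuspForm.heckeAlgebra.T hℓ hℓM hℓS))) * X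
                  + C ((ℓ : O''))) ∧
        (∀ q : ℕ, q.Prime → q ≠ lam → 2 ≤ M.factorization q → ¬ ρ.IsUnipotentOnInertiaAt q) :=
  result_of_chebWeakGE (chebWeak_of_frobeniusDivision Fermat.Agent.Lib.Cheb.frobeniusDivision) hmod
    hg lam S O' hlamO' chig hchig iota hlamS hMS

end Fermat.Agent.S45.H128

end
-- ===== PACK-END S45/H128/GEGlue.lean

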