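import Fermat.Agent.Pack.S43MC.G0E20L0
import Fermat.Agent.Pack.S43MC.G0E21L3
import Fermat.Agent.Pack.S43MC.G0E21L2
import Fermat.Agent.Pack.S44C.G0E24L1
import Fermat.Agent.Pack.S45.E0L3
import Fermat.Agent.Pack.S43MC.G0E17L0
import Fermat.Agent.Pack.Fast891

set_option linter.all false

-- ===== PACK-BEGIN S45/ModE/Spec.lean
section



/-!
# S45 / CAR3 / MOD-E — frozen interfaces (sub-architect helper928)

Row CAR3 (board `origin/helper48:coord/CAR3-S45.md`): the engine at the levels `N`, `N q` with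
`q ^ 2 ∣ N`.  Arithmetic: memo `origin/helper441:coord/S45-ENGINE-helper441.md`, sec. 2 and 4.

## Conventions (board v1, sec. 2)

* lower level `N`, `n = v_q(N) ≥ 1`, function field `F' = F_E(N)`; upper level `N q`, exponent
  `e = n + 1`, `F = F_E(N q)`; `α = A2.Mod.αE E N q` (inclusion), `β = A2.Mod.βE E N q` (`t ↦ t^q`);
* `J l = jLev E N q l = j_{q^l}` (`l ≤ v_q(level)`), so `α (J' l) = J l`, `β (J' l) = J (l + 1)`;
* components of a level of exponent `e`: `V i`, `i ≤ e` (a function `ℕ → ValuationSubring _`, only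
  the values at `i ≤ e` matter); `i` = number of VERSCHIEBUNG steps: on `V i`

      J (l + 1) ≡ (J l) ^ q   for l < e - i        (Frobenius steps, first)
      J l ≡ (J (l + 1)) ^ q   for e - i ≤ l < e    (Verschiebung steps, last);

  `V 0 = V∞` (`A2.Mod.IsVinf`), `V e = V∞ ∘ W`, `V (e - i) = V i ∘ W` (`W` Fricke);
* multiplicity `mu q e i = φ(q ^ min i (e - i))`;
* tables: `α : i ↦ i - 1 (i ≥ 1), 0 ↦ 0`; `β : i ↦ i (i ≤ e - 1), e ↦ e - 1`;
  over `V' 0` along `α`: `V 0` `(1,1)` and `V 1` `(q-1,1)` (SPLIT, Eisenstein of degree `q - 1`);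
  over `V' j`, `j ≥ 1`, along `α`: ONLY `V (j + 1)`; `2 (j + 1) ≤ e`: WILD `(q, 1)`,
  `2 (j + 1) > e`: INSEP `(1, q)`.  `β` = mirror image under `i ↦ e - i`.
* uniformiser of `V i`, `1 ≤ i`, `2 i ≤ e`:  `T i = J e - J (e - 2 i)`; for `2 i > e`: Fricke.

## Architecture

* `LevelCtx`  : the ABSOLUTE context of ONE level (the induction invariant);
* `StepCtx`   : the RELATIVE context of two consecutive levels (tables, norms, charts);
* `ObjsE`     : the objects of the upper level over a lower level;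
* leaves      : `Leaf… : Prop`, each `LevelCtx (lower) → ObjsE → (one part of the upper level)`;
* `Extra`     : an EXTRA induction invariant `X` (a parameter of the skeleton, chosen by the REG
                architect: e.g. the residue of `T ^ μ / w` at the closed points); only the leaves
                `LeafRegE X`, `LeafExtraE X`, `LeafBaseX X` see it;
* `Skel.lean` : `modelE_of_leaves` by induction on `n`, base case `n = 2` from row S36 (`LeafBaseX`).

Definitions only (no `sorry`).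
-/

set_option autoImplicit false
set_option linter.style.haveILetI false
set_option linter.unusedSectionVars false
set_option synthInstance.maxHeartbeats 400000
set_option maxHeartbeats 1600000

noncomputable section

namespace Fermat.Agent.S45.ModE

open ModularCurve AlgebraicCurve
open Fermat.Agent.S18.H138 (chart)
open Fermat.Agent.S36 Fermat.Agent.S36.Eng

/-! ## Index arithmetic -/

/-- Multiplicity of the component `i` of a level of exponent `e`: `φ(q ^ min i (e - i))`. -/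
def mu (q e i : ℕ) : ℕ := Nat.totient (q ^ min i (e - i))

/-! ## Elementwise vocabulary -/

section Vocab

variable {R E F F' : Type*} [CommRing R] [Field E] [Algebra R E]
  [Field F] [Algebra E F] [Algebra R F] [Field F'] [Algebra E F'] [Algebra R F']

/-- `V` is GOOD along `φ` (helper247, helper403): `y ^ q / φ (N_φ y) ∈ 1 + 𝔪_V` for every
`y ≠ 0` (valuations included).  True for the types WILD `(q, 1)` and INSEP `(1, q)`. -/
def GoodAlong (q : ℕ) (φ : F' →ₐ[E] F) (V : ValuationSubring F) : Prop :=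
  ∀ y : F, y ≠ 0 → y ^ q * (φ (S29.H395.normAlong φ y))⁻¹ - 1 ∈ V.nonunits

/-- `B ∩ w (⋂_{i ≤ e} V i) = w B`: the `V i`, `i ≤ e`, are ALL the components of the special
fibre of the chart `B`, with their multiplicities. -/
def QepE (w : R) (B : Subalgebra R F) (e : ℕ) (V : ℕ → ValuationSubring F) : Prop :=
  ∀ b : B, (∀ i ≤ e, (b : F) * (algebraMap R F w)⁻¹ ∈ V i) → ∃ c : B, b = algebraMap R B w * c

/-- `𝔪` is a MULTIPLE point of the chart `B`: all the components pass through it. -/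
def IsMulti (B : Subalgebra R F) (𝔪 : Ideal B) (e : ℕ) (V : ℕ → ValuationSubring F) : Prop :=
  ∀ i ≤ e, Through B 𝔪 (V i)

end Vocab

/-! ## The parts of the ABSOLUTE context (generic, indexed) -/

section PartsAbs

variable {R E F : Type*} [CommRing R] [Field E] [Algebra R E]
  [Field F] [Algebra E F] [Algebra R F]

/-- VAL-E: the `V i` are DVRs, pairwise distinct, `w = unit · t ^ (mu q e i)` at `V i`,
`x` is a unit. -/
structure PartValE (w : R) (q e : ℕ) (x : F) (V : ℕ → ValuationSubring F) : Prop where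
  dvr : ∀ i ≤ e, IsDiscreteValuationRing (V i)
  ne : ∀ i ≤ e, ∀ k ≤ e, i ≠ k → V i ≠ V k
  ram : ∀ i ≤ e, ∃ t : F, UnifAt (V i) t ∧
    UnitAt (V i) (algebraMap R F w * (t ^ mu q e i)⁻¹)
  x_unit : ∀ i ≤ e, UnitAt (V i) x

/-- SHEET-E: the `V i` contain `R` and induce the Gauss valuation on `R[x]`. -/
structure PartSheetE (w : R) (e : ℕ) (x : F) (V : ℕ → ValuationSubring F) : Prop where
  base : ∀ i ≤ e, ∀ r : R, algebraMap R F r ∈ V i
  gauss : ∀ i ≤ e, ∀ P : Polynomial R, (∃ k, ¬ w ∣ P.coeff k) →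
    (Polynomial.aeval x P)⁻¹ ∈ V i

/-- COMPLETE-E: every sheet of `x` is one of the `V i`. -/
structure PartCompleteE (w : R) (e : ℕ) (x : F) (V : ℕ → ValuationSubring F) : Prop where
  complete : ∀ U : ValuationSubring F, (∀ r : R, algebraMap R F r ∈ U) → x ∈ U →
    algebraMap R F w ∈ U.nonunits →
    (∀ P : Polynomial R, (∃ k, ¬ w ∣ P.coeff k) → (Polynomial.aeval x P)⁻¹ ∈ U) →
    ∃ i ≤ e, U = V i

/-- QEP-E, both charts. -/
structure PartQepE (w : R) (e : ℕ) (x : F) (V : ℕ → ValuationSubring F) : Prop where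
  qep_f : QepE w (chart R ({x} : Set F)) e V
  qep_i : QepE w (chart R ({x⁻¹} : Set F)) e V

/-- NORMAL-E: the components of both charts are normal. -/
structure PartNormalE (R : Type*) [CommRing R] {F : Type*} [Field F] [Algebra R F]
    (e : ℕ) (x : F) (V : ℕ → ValuationSubring F) : Prop where
  normal_f : ∀ i ≤ e, NormalAlong (chart R ({x} : Set F)) (V i)
  normal_i : ∀ i ≤ e, NormalAlong (chart R ({x⁻¹} : Set F)) (V i)

/-- INC-E: a closed point of the finite chart on two components is on all of them; the cusps lie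
on ONE component. -/
structure PartIncE (w : R) (e : ℕ) (x : F) (V : ℕ → ValuationSubring F) : Prop where
  incidence : ∀ 𝔪 : Ideal (chart R ({x} : Set F)), 𝔪.IsMaximal →
    ∀ i ≤ e, ∀ k ≤ e, i ≠ k → Through _ 𝔪 (V i) → Through _ 𝔪 (V k) → IsMulti _ 𝔪 e V
  cusp_single : ∀ 𝔪 : Ideal (chart R ({x⁻¹} : Set F)), 𝔪.IsMaximal →
    algebraMap R (chart R ({x⁻¹} : Set F)) w ∈ 𝔪 →
    (⟨x⁻¹, Fermat.Agent.S18.H138.mem_chart_of_mem rfl⟩ : chart R ({x⁻¹} : Set F)) ∈ 𝔪 →
    ∀ i ≤ e, ∀ k ≤ e, i ≠ k → ¬ (Through _ 𝔪 (V i) ∧ Through _ 𝔪 (V k))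

/-- REG-E (v0.2): regularity at the closed points of the NON-REDUCED components.
`regular_m`: at a MULTIPLE point of the finite chart SOME component `V k`, `k ≤ e`, is locally
principal (induction: transport of `PrincipalAt` along a purely inseparable step, `β` to `V k` if
`2 k < e`, `α` to `V (k + 1)` otherwise; base `e = 2`: the middle component);
`regular_s`: at a closed point of the finite chart on the NON-REDUCED component `V i`
(`1 ≤ i`, `i + 1 ≤ e`) ONLY, `V i` is locally principal; `regular_i`: the same at the cusps.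
(At the closed points of the reduced components `V 0`, `V e` off the multiple points regularity is
formal from `QepE`; it is not part of the context.) -/
structure PartRegE (R : Type*) [CommRing R] {F : Type*} [Field F] [Algebra R F]
    (e : ℕ) (x : F) (V : ℕ → ValuationSubring F) : Prop where
  regular_m : ∀ 𝔪 : Ideal (chart R ({x} : Set F)), 𝔪.IsMaximal → IsMulti _ 𝔪 e V →
    ∃ k ≤ e, PrincipalAt _ 𝔪 (V k)
  regular_s : ∀ 𝔪 : Ideal (chart R ({x} : Set F)), 𝔪.IsMaximal → ∀ i, 1 ≤ i → i + 1 ≤ e →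
    Through _ 𝔪 (V i) → (∀ k ≤ e, k ≠ i → ¬ Through _ 𝔪 (V k)) → PrincipalAt _ 𝔪 (V i)
  regular_i : ∀ 𝔪 : Ideal (chart R ({x⁻¹} : Set F)), 𝔪.IsMaximal →
    (⟨x⁻¹, Fermat.Agent.S18.H138.mem_chart_of_mem rfl⟩ : chart R ({x⁻¹} : Set F)) ∈ 𝔪 →
    ∀ i, 1 ≤ i → i + 1 ≤ e → Through _ 𝔪 (V i) → PrincipalAt _ 𝔪 (V i)

/-- KRON-E: the Frobenius / Verschiebung pattern of the chain `J 0, …, J e` on `V i`. -/
structure PartKronE (q e : ℕ) (J : ℕ → F) (V : ℕ → ValuationSubring F) : Prop where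
  frob : ∀ i ≤ e, ∀ l, l < e - i → J (l + 1) - J l ^ q ∈ (V i).nonunits
  ver : ∀ i ≤ e, ∀ l, e - i ≤ l → l < e → J l - J (l + 1) ^ q ∈ (V i).nonunits
  unit : ∀ i ≤ e, ∀ l ≤ e, UnitAt (V i) (J l)

/-- UNIF-E: the explicit uniformiser `T i = J e - J (e - 2 i)` of `V i`, `1 ≤ i`, `2 i ≤ e`. -/
structure PartUnifE (e : ℕ) (J : ℕ → F) (V : ℕ → ValuationSubring F) : Prop where
  unif : ∀ i, 1 ≤ i → 2 * i ≤ e → UnifAt (V i) (J e - J (e - 2 * i))

/-- WIT-E: the ROOT coordinate is not a `q`-th power in the residue field: `J 0` if `2 i ≤ e`,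
`J e` if `e ≤ 2 i`. -/
structure PartWitE (q e : ℕ) (J : ℕ → F) (V : ℕ → ValuationSubring F) : Prop where
  wit_lo : ∀ i ≤ e, 2 * i ≤ e → ∀ y ∈ V i, y ^ q - J 0 ∉ (V i).nonunits
  wit_hi : ∀ i ≤ e, e ≤ 2 * i → ∀ y ∈ V i, y ^ q - J e ∉ (V i).nonunits

end PartsAbs

/-! ## The parts of the RELATIVE context (generic, indexed)

`n` = exponent of the lower level, `V'` its components (`j ≤ n`), `V` the components of the upper
level (`i ≤ n + 1`). -/

section PartsRel

variable {R E F F' : Type*} [CommRing R] [Field E] [Algebra R E]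
  [Field F] [Algebra E F] [Algebra R F] [Field F'] [Algebra E F'] [Algebra R F']

/-- TABLE-E: lying over. -/
structure PartTableE (n : ℕ) (α β : F' →ₐ[E] F) (V : ℕ → ValuationSubring F)
    (V' : ℕ → ValuationSubring F') : Prop where
  comap_α₀ : (V 0).comap (α : F' →+* F) = V' 0
  comap_α : ∀ i, 1 ≤ i → i ≤ n + 1 → (V i).comap (α : F' →+* F) = V' (i - 1)
  comap_β : ∀ i ≤ n, (V i).comap (β : F' →+* F) = V' i
  comap_βₑ : (V (n + 1)).comap (β : F' →+* F) = V' n

/-- ONLY-E: there is no other extension. -/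
structure PartOnlyE (n : ℕ) (α β : F' →ₐ[E] F) (V : ℕ → ValuationSubring F)
    (V' : ℕ → ValuationSubring F') : Prop where
  only_α₀ : ∀ U : ValuationSubring F, U.comap (α : F' →+* F) = V' 0 → U = V 0 ∨ U = V 1
  only_α : ∀ j, 1 ≤ j → j ≤ n → ∀ U : ValuationSubring F,
    U.comap (α : F' →+* F) = V' j → U = V (j + 1)
  only_βₑ : ∀ U : ValuationSubring F, U.comap (β : F' →+* F) = V' n →
    U = V (n + 1) ∨ U = V n
  only_β : ∀ j, j < n → ∀ U : ValuationSubring F,
    U.comap (β : F' →+* F) = V' j → U = V j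

/-- RES-E: residue degree one (types SPLIT and WILD), purely inseparable of degree `q` (INSEP).
Along `α`: `f = 1` iff `i ≤ 1` or `2 i ≤ n + 1`; along `β`: `f = 1` iff `n ≤ i` or `n + 1 ≤ 2 i`. -/
structure PartResE (q n : ℕ) (α β : F' →ₐ[E] F) (V : ℕ → ValuationSubring F)
    (V' : ℕ → ValuationSubring F') : Prop where
  res_α : ∀ i ≤ n + 1, i ≤ 1 ∨ 2 * i ≤ n + 1 → ∀ f ∈ V i, ∃ g ∈ V' (i - 1),
    f - α g ∈ (V i).nonunits
  insep_α : ∀ i ≤ n + 1, 2 ≤ i → n + 1 < 2 * i → ∀ f ∈ V i, ∃ g ∈ V' (i - 1),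
    f ^ q - α g ∈ (V i).nonunits
  res_β : ∀ i ≤ n + 1, n ≤ i ∨ n + 1 ≤ 2 * i → ∀ f ∈ V i, ∃ g ∈ V' (min i n),
    f - β g ∈ (V i).nonunits
  insep_β : ∀ i, i + 2 ≤ n + 1 → 2 * i < n + 1 → ∀ f ∈ V i, ∃ g ∈ V' i,
    f ^ q - β g ∈ (V i).nonunits

/-- GOOD-E: `V i` is `α`-good for `2 ≤ i` and `β`-good for `i + 2 ≤ n + 1` (ONE extension). -/
structure PartGoodE (q n : ℕ) (α β : F' →ₐ[E] F) (V : ℕ → ValuationSubring F) : Prop where
  good_α : ∀ i, 2 ≤ i → i ≤ n + 1 → GoodAlong q α (V i)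
  good_β : ∀ i, i + 2 ≤ n + 1 → GoodAlong q β (V i)

/-- NRS-E: residues and valuations of norms at the two SPLIT ends (verbatim the shapes
`nr_α₁`, `nr_β₁`, `nv_α`, `nv_β` of `S36.Eng.TripleCtx`, one end each). -/
structure PartNRSE (w : R) (q n : ℕ) (α β : F' →ₐ[E] F) (V : ℕ → ValuationSubring F)
    (V' : ℕ → ValuationSubring F') : Prop where
  nr_α : ∀ y : F, UnitAt (V 0) y → UnitAt (V 1) y → ∀ x₀ x₁ : F',
    α x₀ - y ∈ (V 0).nonunits → α x₁ - y ∈ (V 1).nonunits →
    S29.H395.normAlong α y - x₀ * x₁ ^ (q - 1) ∈ (V' 0).nonunits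
  nr_β : ∀ y : F, UnitAt (V (n + 1)) y → UnitAt (V n) y → ∀ x₀ x₁ : F',
    β x₀ - y ∈ (V (n + 1)).nonunits → β x₁ - y ∈ (V n).nonunits →
    S29.H395.normAlong β y - x₀ * x₁ ^ (q - 1) ∈ (V' n).nonunits
  nv_α : ∀ (t : F), UnifAt (V 1) t → ∀ (y : F) (a₀ a₁ : ℤ), y ≠ 0 →
    UnitAt (V 0) (y * (algebraMap R F w ^ a₀)⁻¹) → UnitAt (V 1) (y * (t ^ a₁)⁻¹) →
    UnitAt (V' 0) (S29.H395.normAlong α y * (algebraMap R F' w ^ (a₀ + a₁))⁻¹)
  nv_β : ∀ (t : F), UnifAt (V n) t → ∀ (y : F) (a₀ a₁ : ℤ), y ≠ 0 →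
    UnitAt (V (n + 1)) (y * (algebraMap R F w ^ a₀)⁻¹) → UnitAt (V n) (y * (t ^ a₁)⁻¹) →
    UnitAt (V' n) (S29.H395.normAlong β y * (algebraMap R F' w ^ (a₀ + a₁))⁻¹)

/-- CHART-E: the finite charts of the two levels, integrality, residue degree one in chart
form (same index sets as `PartResE`). -/
structure PartChartE (R : Type*) [CommRing R] {E F F' : Type*} [Field E] [Field F] [Algebra E F]
    [Algebra R F] [Field F'] [Algebra E F'] [Algebra R F']
    (n : ℕ) (α β : F' →ₐ[E] F) (x : F) (x' : F') (V : ℕ → ValuationSubring F) : Prop where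
  chart_α : ∀ b ∈ chart R ({x'} : Set F'), α b ∈ chart R ({x} : Set F)
  chart_β : ∀ b ∈ chart R ({x'} : Set F'), β b ∈ chart R ({x} : Set F)
  int_α : ∀ b ∈ chart R ({x} : Set F), ∃ p : Polynomial F', p.Monic ∧
    (∀ k, p.coeff k ∈ chart R ({x'} : Set F')) ∧ (p.map (α : F' →+* F)).eval b = 0
  int_β : ∀ b ∈ chart R ({x} : Set F), ∃ p : Polynomial F', p.Monic ∧
    (∀ k, p.coeff k ∈ chart R ({x'} : Set F')) ∧ (p.map (β : F' →+* F)).eval b = 0
  res_α : ∀ i ≤ n + 1, i ≤ 1 ∨ 2 * i ≤ n + 1 → ∀ b ∈ chart R ({x} : Set F),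
    ∃ b' ∈ chart R ({x'} : Set F'), b - α b' ∈ (V i).nonunits
  res_β : ∀ i ≤ n + 1, n ≤ i ∨ n + 1 ≤ 2 * i → ∀ b ∈ chart R ({x} : Set F),
    ∃ b' ∈ chart R ({x'} : Set F'), b - β b' ∈ (V i).nonunits

/-- UNIQ-E: a multiple point is the only closed point of the finite chart over its image under
`α`, and under `β` (the chart inclusions are hypotheses, as in `S36.Mod3.PartUniq`). -/
structure PartUniqE (R : Type*) [CommRing R] {E F F' : Type*} [Field E] [Field F] [Algebra E F]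
    [Algebra R F] [Field F'] [Algebra E F'] [Algebra R F']
    (n : ℕ) (α β : F' →ₐ[E] F) (x : F) (x' : F') (V : ℕ → ValuationSubring F) : Prop where
  unique_α : ∀ (hα : ∀ b ∈ chart R ({x'} : Set F'), α b ∈ chart R ({x} : Set F))
    (𝔪 𝔪' : Ideal (chart R ({x} : Set F))), 𝔪.IsMaximal → 𝔪'.IsMaximal →
    IsMulti _ 𝔪 (n + 1) V →
    (∀ (b' : F') (h : b' ∈ chart R ({x'} : Set F')),
      (⟨α b', hα b' h⟩ : chart R ({x} : Set F)) ∈ 𝔪 →
        (⟨α b', hα b' h⟩ : chart R ({x} : Set F)) ∈ 𝔪') → 𝔪' = 𝔪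
  unique_β : ∀ (hβ : ∀ b ∈ chart R ({x'} : Set F'), β b ∈ chart R ({x} : Set F))
    (𝔪 𝔪' : Ideal (chart R ({x} : Set F))), 𝔪.IsMaximal → 𝔪'.IsMaximal →
    IsMulti _ 𝔪 (n + 1) V →
    (∀ (b' : F') (h : b' ∈ chart R ({x'} : Set F')),
      (⟨β b', hβ b' h⟩ : chart R ({x} : Set F)) ∈ 𝔪 →
        (⟨β b', hβ b' h⟩ : chart R ({x} : Set F)) ∈ 𝔪') → 𝔪' = 𝔪

end PartsRel

/-! ## The concrete objects -/

section Concrete

variable (P : ValuationSubring A2.Qb) (E : IntermediateField ℚ A2.Qb) (N q : ℕ)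
  [NeZero N] [NeZero q]

/-- `J l = j_{q^l}` at level `N` (junk value `1` if `q ^ l ∤ N`). -/
def jLev (l : ℕ) : A2.Mod.FE E N :=
  if h : q ^ l ∣ N then A2.Mod.jE E N (q ^ l) h else 1

/-- **The coordinate** `x = J 0 · J 1 ⋯ J n` of a level of exponent `n`
(`n = 1`: `A2.Mod.xE`; `n = 2`: `S36.Mod3.x3E`). -/
def xLev (n : ℕ) : A2.Mod.FE E N := ∏ l ∈ Finset.range (n + 1), jLev E N q l

/-- `N` is NEAT for `q` (the condition `S36.Eng.NeatFor` stated on the level itself). -/
def Neat (N q : ℕ) : Prop :=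
  (∃ r : ℕ, r.Prime ∧ r % 12 = 11 ∧ r ≠ q ∧ r ∣ N) ∧ (q ≠ 2 → 4 ∣ N) ∧ (q = 2 → 9 ∣ N)

/-- The standing hypotheses at the level `N` of exponent `n = v_q(N)`. -/
structure StdE (n : ℕ) (w : A2.RE P E) : Prop where
  q_prime : q.Prime
  exp : N.factorization q = n
  lies_over : P.LiesOverPrime q
  unram : Unramified P E q
  neat : Neat N q
  unif : Irreducible w

/-- **The ABSOLUTE context of the level `N`** of exponent `n` (the induction invariant):
components `V i`, `i ≤ n`, Fricke involution `W`, coordinate `xLev E N q n`. -/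
structure LevelCtx (n : ℕ) (w : A2.RE P E) (V : ℕ → ValuationSubring (A2.Mod.FE E N))
    (W : A2.Mod.FE E N ≃ₐ[E] A2.Mod.FE E N) : Prop where
  vinf : A2.Mod.IsVinf P E N (V 0)
  fricke : A2.Mod.IsFricke E N W
  /-- `V (n - i) = V i ∘ W` -/
  sym : ∀ i ≤ n, V (n - i) = (V i).comap (W : A2.Mod.FE E N →+* A2.Mod.FE E N)
  ff : Mod3.PartFF E (xLev E N q n)
  val : PartValE (R := A2.RE P E) w q n (xLev E N q n) V
  sheet : PartSheetE (R := A2.RE P E) w n (xLev E N q n) V
  complete : PartCompleteE (R := A2.RE P E) w n (xLev E N q n) V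
  qep : PartQepE (R := A2.RE P E) w n (xLev E N q n) V
  normal : PartNormalE (A2.RE P E) n (xLev E N q n) V
  inc : PartIncE (R := A2.RE P E) w n (xLev E N q n) V
  reg : PartRegE (A2.RE P E) n (xLev E N q n) V
  kron : PartKronE q n (jLev E N q) V
  unif : PartUnifE n (jLev E N q) V
  wit : PartWitE q n (jLev E N q) V

variable [NeZero (N * q)]

/-- **The objects of the upper level** `N q` over the components `V'` of the level `N` of
exponent `n`: `V 0 = V∞`, `V i` lies over `V' (i - 1)` along `α` for `1 ≤ i ≤ n + 1`, and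
`V 1 ≠ V 0`.  (By `PartOnlyE` this determines the `V i`, `i ≤ n + 1`.) -/
structure ObjsE (n : ℕ) (V' : ℕ → ValuationSubring (A2.Mod.FE E N))
    (V : ℕ → ValuationSubring (A2.Mod.FE E (N * q)))
    (W : A2.Mod.FE E (N * q) ≃ₐ[E] A2.Mod.FE E (N * q)) : Prop where
  vinf : A2.Mod.IsVinf P E (N * q) (V 0)
  fricke : A2.Mod.IsFricke E (N * q) W
  lies : ∀ i, 1 ≤ i → i ≤ n + 1 →
    (V i).comap (A2.Mod.αE E N q : A2.Mod.FE E N →+* A2.Mod.FE E (N * q)) = V' (i - 1)
  one_ne : V 1 ≠ V 0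

/-- **The RELATIVE context** of the levels `N` (exponent `n`) and `N q`. -/
structure StepCtx (n : ℕ) (w : A2.RE P E) (V' : ℕ → ValuationSubring (A2.Mod.FE E N))
    (V : ℕ → ValuationSubring (A2.Mod.FE E (N * q))) : Prop where
  fin : Mod3.PartFin E (A2.Mod.αE E N q) (A2.Mod.βE E N q)
  table : PartTableE n (A2.Mod.αE E N q) (A2.Mod.βE E N q) V V'
  only : PartOnlyE n (A2.Mod.αE E N q) (A2.Mod.βE E N q) V V'
  res : PartResE q n (A2.Mod.αE E N q) (A2.Mod.βE E N q) V V'
  good : PartGoodE q n (A2.Mod.αE E N q) (A2.Mod.βE E N q) V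
  nrs : PartNRSE (R := A2.RE P E) w q n (A2.Mod.αE E N q) (A2.Mod.βE E N q) V V'
  chart : PartChartE (A2.RE P E) n (A2.Mod.αE E N q) (A2.Mod.βE E N q)
    (xLev E (N * q) q (n + 1)) (xLev E N q n) V
  uniq : PartUniqE (A2.RE P E) n (A2.Mod.αE E N q) (A2.Mod.βE E N q)
    (xLev E (N * q) q (n + 1)) (xLev E N q n) V

end Concrete

/-! ## The leaves -/

section Leaves

/-- Binder prefix of every leaf: standing hypotheses at the level `N` of exponent `n ≥ 2`, the
ABSOLUTE context of the level `N` (induction hypothesis), the objects of the level `N q`. -/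
def Leaf (body : ∀ (P : ValuationSubring A2.Qb) (E : IntermediateField ℚ A2.Qb) (N q : ℕ)
    [NeZero N] [NeZero q] [NeZero (N * q)] (_ : ℕ) (_ : A2.RE P E)
    (_ : ℕ → ValuationSubring (A2.Mod.FE E N))
    (_ : ℕ → ValuationSubring (A2.Mod.FE E (N * q)))
    (_ : A2.Mod.FE E N ≃ₐ[E] A2.Mod.FE E N)
    (_ : A2.Mod.FE E (N * q) ≃ₐ[E] A2.Mod.FE E (N * q)), Prop) : Prop :=
  ∀ (P : ValuationSubring A2.Qb) (E : IntermediateField ℚ A2.Qb) (N q : ℕ)
    [NeZero N] [NeZero q] [NeZero (N * q)] (n : ℕ) (w : A2.RE P E),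
    StdE P E N q n w → 2 ≤ n →
    ∀ (V' : ℕ → ValuationSubring (A2.Mod.FE E N))
      (V : ℕ → ValuationSubring (A2.Mod.FE E (N * q)))
      (W' : A2.Mod.FE E N ≃ₐ[E] A2.Mod.FE E N)
      (W : A2.Mod.FE E (N * q) ≃ₐ[E] A2.Mod.FE E (N * q)),
      LevelCtx P E N q n w V' W' → ObjsE P E N q n V' V W → body P E N q n w V' V W' W

/-- The type of an EXTRA induction invariant of one level (chosen by the REG architect). -/
abbrev Extra : Type :=
  ∀ (P : ValuationSubring A2.Qb) (E : IntermediateField ℚ A2.Qb) (N q : ℕ)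
    [NeZero N] [NeZero q] (_ : ℕ) (_ : A2.RE P E)
    (_ : ℕ → ValuationSubring (A2.Mod.FE E N)) (_ : A2.Mod.FE E N ≃ₐ[E] A2.Mod.FE E N), Prop

/-- The trivial extra invariant. -/
def Extra.triv : Extra := fun _ _ _ _ _ _ _ _ _ _ => True

/-- Binder prefix of a leaf which uses the extra invariant `X` of the lower level. -/
def LeafX (X : Extra)
    (body : ∀ (P : ValuationSubring A2.Qb) (E : IntermediateField ℚ A2.Qb) (N q : ℕ)
    [NeZero N] [NeZero q] [NeZero (N * q)] (_ : ℕ) (_ : A2.RE P E)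
    (_ : ℕ → ValuationSubring (A2.Mod.FE E N))
    (_ : ℕ → ValuationSubring (A2.Mod.FE E (N * q)))
    (_ : A2.Mod.FE E N ≃ₐ[E] A2.Mod.FE E N)
    (_ : A2.Mod.FE E (N * q) ≃ₐ[E] A2.Mod.FE E (N * q)), Prop) : Prop :=
  ∀ (P : ValuationSubring A2.Qb) (E : IntermediateField ℚ A2.Qb) (N q : ℕ)
    [NeZero N] [NeZero q] [NeZero (N * q)] (n : ℕ) (w : A2.RE P E),
    StdE P E N q n w → 2 ≤ n →
    ∀ (V' : ℕ → ValuationSubring (A2.Mod.FE E N))
      (V : ℕ → ValuationSubring (A2.Mod.FE E (N * q)))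
      (W' : A2.Mod.FE E N ≃ₐ[E] A2.Mod.FE E N)
      (W : A2.Mod.FE E (N * q) ≃ₐ[E] A2.Mod.FE E (N * q)),
      LevelCtx P E N q n w V' W' → X P E N q n w V' W' → ObjsE P E N q n V' V W →
      body P E N q n w V' V W' W

/-- **BASE (leaf).**  The absolute context of the level `M q q`, `q ∤ M` (exponent `2`), with the
extra invariant, from row S36 (`S36.Mod3` leaves on main, concrete objects `Mod3.Objs`,
`x3E = xLev _ _ _ 2`) and cell A2: `V 0 = V₁`, `V 1 = V₂` (`mid`), `V 2 = V₃`. -/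
def LeafBaseX (X : Extra) : Prop :=
  ∀ (P : ValuationSubring A2.Qb) (E : IntermediateField ℚ A2.Qb) (M q : ℕ)
    [NeZero M] [NeZero q] [NeZero (M * q)] [NeZero (M * q * q)] (w : A2.RE P E),
    Mod3.Std P E M q w →
    ∃ (V : ℕ → ValuationSubring (A2.Mod.FE E (M * q * q)))
      (W : A2.Mod.FE E (M * q * q) ≃ₐ[E] A2.Mod.FE E (M * q * q)),
      LevelCtx P E (M * q * q) q 2 w V W ∧ X P E (M * q * q) q 2 w V W

/-- **OBJ-E (leaf).**  The objects of the upper level exist. -/
def LeafObjE : Prop :=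
  ∀ (P : ValuationSubring A2.Qb) (E : IntermediateField ℚ A2.Qb) (N q : ℕ)
    [NeZero N] [NeZero q] [NeZero (N * q)] (n : ℕ) (w : A2.RE P E),
    StdE P E N q n w → 2 ≤ n →
    ∀ (V' : ℕ → ValuationSubring (A2.Mod.FE E N)) (W' : A2.Mod.FE E N ≃ₐ[E] A2.Mod.FE E N),
      LevelCtx P E N q n w V' W' →
      ∃ (V : ℕ → ValuationSubring (A2.Mod.FE E (N * q)))
        (W : A2.Mod.FE E (N * q) ≃ₐ[E] A2.Mod.FE E (N * q)), ObjsE P E N q n V' V W

/-! ### absolute parts of the upper level -/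

/-- **SYM-E (leaf).**  `V (n + 1 - i) = V i ∘ W` at the upper level. -/
def LeafSymE : Prop :=
  Leaf fun _ E N q _ _ _ n _ _ V _ W =>
    ∀ i ≤ n + 1, V (n + 1 - i) =
      (V i).comap (W : A2.Mod.FE E (N * q) →+* A2.Mod.FE E (N * q))

/-- **FF-E (leaf).** -/
def LeafFFE : Prop :=
  ∀ (E : IntermediateField ℚ A2.Qb) (N q : ℕ) [NeZero N] [NeZero q] (n : ℕ),
    q.Prime → N.factorization q = n → 1 ≤ n → Mod3.PartFF E (xLev E N q n)

/-- **VAL-E (leaf).** -/
def LeafValE : Prop :=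
  Leaf fun P E N q _ _ _ n w _ V _ _ =>
    PartValE (R := A2.RE P E) w q (n + 1) (xLev E (N * q) q (n + 1)) V

/-- **SHEET-E (leaf).** -/
def LeafSheetE : Prop :=
  Leaf fun P E N q _ _ _ n w _ V _ _ =>
    PartSheetE (R := A2.RE P E) w (n + 1) (xLev E (N * q) q (n + 1)) V

/-- **COMPLETE-E (leaf).** -/
def LeafCompleteE : Prop :=
  Leaf fun P E N q _ _ _ n w _ V _ _ =>
    PartCompleteE (R := A2.RE P E) w (n + 1) (xLev E (N * q) q (n + 1)) V

/-- **QEP-E (leaf).** -/
def LeafQepE : Prop :=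
  Leaf fun P E N q _ _ _ n w _ V _ _ =>
    PartQepE (R := A2.RE P E) w (n + 1) (xLev E (N * q) q (n + 1)) V

/-- **NORMAL-E (leaf).** -/
def LeafNormalE : Prop :=
  Leaf fun P E N q _ _ _ n _ _ V _ _ =>
    PartNormalE (A2.RE P E) (n + 1) (xLev E (N * q) q (n + 1)) V

/-- **INC-E (leaf).** -/
def LeafIncE : Prop :=
  Leaf fun P E N q _ _ _ n w _ V _ _ =>
    PartIncE (R := A2.RE P E) w (n + 1) (xLev E (N * q) q (n + 1)) V

/-- **REG-E (leaf)**, with the extra invariant `X` of the lower level. -/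
def LeafRegE (X : Extra) : Prop :=
  LeafX X fun P E N q _ _ _ n _ _ V _ _ =>
    PartRegE (A2.RE P E) (n + 1) (xLev E (N * q) q (n + 1)) V

/-- **KRON-E (leaf).** -/
def LeafKronE : Prop :=
  Leaf fun _ E N q _ _ _ n _ _ V _ _ => PartKronE q (n + 1) (jLev E (N * q) q) V

/-- **UNIF-E (leaf).** -/
def LeafUnifE : Prop :=
  Leaf fun _ E N q _ _ _ n _ _ V _ _ => PartUnifE (n + 1) (jLev E (N * q) q) V

/-- **WIT-E (leaf).** -/
def LeafWitE : Prop :=
  Leaf fun _ E N q _ _ _ n _ _ V _ _ => PartWitE q (n + 1) (jLev E (N * q) q) V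

/-! ### relative parts -/

/-- **FIN-E (leaf).** -/
def LeafFinE : Prop :=
  ∀ (E : IntermediateField ℚ A2.Qb) (N q : ℕ) [NeZero N] [NeZero q] [NeZero (N * q)],
    q.Prime → q ∣ N → Mod3.PartFin E (A2.Mod.αE E N q) (A2.Mod.βE E N q)

/-- **TABLE-E (leaf).** -/
def LeafTableE : Prop :=
  Leaf fun _ E N q _ _ _ n _ V' V _ _ =>
    PartTableE n (A2.Mod.αE E N q) (A2.Mod.βE E N q) V V'

/-- **ONLY-E (leaf).** -/
def LeafOnlyE : Prop :=
  Leaf fun _ E N q _ _ _ n _ V' V _ _ =>
    PartOnlyE n (A2.Mod.αE E N q) (A2.Mod.βE E N q) V V'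

/-- **RES-E (leaf).** -/
def LeafResE : Prop :=
  Leaf fun _ E N q _ _ _ n _ V' V _ _ =>
    PartResE q n (A2.Mod.αE E N q) (A2.Mod.βE E N q) V V'

/-- **GOOD-E (leaf).** -/
def LeafGoodE : Prop :=
  Leaf fun _ E N q _ _ _ n _ _ V _ _ =>
    PartGoodE q n (A2.Mod.αE E N q) (A2.Mod.βE E N q) V

/-- **NRS-E (leaf).** -/
def LeafNRSE : Prop :=
  Leaf fun P E N q _ _ _ n w V' V _ _ =>
    PartNRSE (R := A2.RE P E) w q n (A2.Mod.αE E N q) (A2.Mod.βE E N q) V V'

/-- **CHART-E (leaf).** -/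
def LeafChartE : Prop :=
  Leaf fun P E N q _ _ _ n _ _ V _ _ =>
    PartChartE (A2.RE P E) n (A2.Mod.αE E N q) (A2.Mod.βE E N q)
      (xLev E (N * q) q (n + 1)) (xLev E N q n) V

/-- **UNIQ-E (leaf).** -/
def LeafUniqE : Prop :=
  Leaf fun P E N q _ _ _ n _ _ V _ _ =>
    PartUniqE (A2.RE P E) n (A2.Mod.αE E N q) (A2.Mod.βE E N q)
      (xLev E (N * q) q (n + 1)) (xLev E N q n) V

end Leaves

/-! ## The statement of MOD-E -/

/-- **MOD-E (statement).**  At a neat level `N` with `q ^ 2 ∣ N`, over an unramified good level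
`E`: the absolute contexts of the levels `N` and `N q` and the relative context. -/
def ModelEStatement : Prop :=
  ∀ (P : ValuationSubring A2.Qb) (E : IntermediateField ℚ A2.Qb) (N q : ℕ)
    [NeZero N] [NeZero q] [NeZero (N * q)] (n : ℕ) (w : A2.RE P E),
    StdE P E N q n w → 2 ≤ n →
    ∃ (V' : ℕ → ValuationSubring (A2.Mod.FE E N))
      (V : ℕ → ValuationSubring (A2.Mod.FE E (N * q)))
      (W' : A2.Mod.FE E N ≃ₐ[E] A2.Mod.FE E N)
      (W : A2.Mod.FE E (N * q) ≃ₐ[E] A2.Mod.FE E (N * q)),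
      LevelCtx P E N q n w V' W' ∧ ObjsE P E N q n V' V W ∧
        LevelCtx P E (N * q) q (n + 1) w V W ∧ StepCtx P E N q n w V' V

/-- **EXTRA-E (leaf).**  The extra invariant `X` of the upper level, from everything else. -/
def LeafExtraE (X : Extra) : Prop :=
  LeafX X fun P E N q _ _ _ n w V' V _ W =>
    LevelCtx P E (N * q) q (n + 1) w V W → StepCtx P E N q n w V' V →
      X P E (N * q) q (n + 1) w V W

end Fermat.Agent.S45.ModE

end

end
-- ===== PACK-END S45/ModE/Spec.lean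

-- ===== PACK-BEGIN S45/ModE/Skel.lean
section


/-!
# S45 / CAR3 / MOD-E — skeleton (sub-architect helper928)

* `StepLeaves X`      : the leaves of ONE step (all `Leaf…` Props of `Spec.lean` except the base),
                        `X : Extra` the extra induction invariant (`Extra.triv` if none);
* `stdE_succ`, `stdE_pred`, `std_of_stdE` : the standing hypotheses move along the tower;
* `step_of_leaves`    : `LevelCtx` of the level `N` (exponent `n ≥ 2`) ⟹ objects, `LevelCtx` of the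
                        level `N q` and `StepCtx`;
* `levelCtx_of_leaves`: `LevelCtx` at every level of exponent `n ≥ 2` (induction on `n`);
* `modelE_of_leaves`  : `LeafBaseX X → StepLeaves X → ModelEStatement`.

Sorry-free; the leaves are hypotheses.
-/

set_option autoImplicit false
set_option linter.style.haveILetI false
set_option linter.unusedSectionVars false
set_option synthInstance.maxHeartbeats 400000
set_option maxHeartbeats 1600000

noncomputable section

namespace Fermat.Agent.S45.ModE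

open ModularCurve AlgebraicCurve
open Fermat.Agent.S36 Fermat.Agent.S36.Eng

/-- The leaves of one step. -/
structure StepLeaves (X : Extra) : Prop where
  obj : LeafObjE
  sym : LeafSymE
  ff : LeafFFE
  val : LeafValE
  sheet : LeafSheetE
  complete : LeafCompleteE
  qep : LeafQepE
  normal : LeafNormalE
  inc : LeafIncE
  reg : LeafRegE X
  extra : LeafExtraE X
  kron : LeafKronE
  unif : LeafUnifE
  wit : LeafWitE
  fin : LeafFinE
  table : LeafTableE
  only : LeafOnlyE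
  res : LeafResE
  good : LeafGoodE
  nrs : LeafNRSE
  chart : LeafChartE
  uniq : LeafUniqE

section Std

variable {P : ValuationSubring A2.Qb} {E : IntermediateField ℚ A2.Qb} {N q : ℕ}
  [NeZero N] [NeZero q]

theorem neat_mul {N q : ℕ} (h : Neat N q) : Neat (N * q) q :=
  ⟨by
    obtain ⟨r, hr, hr12, hrq, hrN⟩ := h.1
    exact ⟨r, hr, hr12, hrq, Dvd.dvd.mul_right hrN q⟩,
   fun h2 => Dvd.dvd.mul_right (h.2.1 h2) q, fun h2 => Dvd.dvd.mul_right (h.2.2 h2) q⟩

theorem neat_of_mul {N q : ℕ} (hq : q.Prime) (h : Neat (N * q) q) : Neat N q := by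
  refine ⟨?_, fun h2 => ?_, fun h2 => ?_⟩
  · obtain ⟨r, hr, hr12, hrq, hrN⟩ := h.1
    refine ⟨r, hr, hr12, hrq, ?_⟩
    rcases (Nat.Prime.dvd_mul hr).1 hrN with h1 | h1
    · exact h1
    · exact absurd ((Nat.prime_dvd_prime_iff_eq hr hq).1 h1) hrq
  · have h4 := h.2.1 h2
    have hodd : Nat.Coprime 4 q := by
      have : Nat.Coprime 2 q := by
        rw [Nat.coprime_primes Nat.prime_two hq]
        exact fun h => h2 h.symm
      have h22 : (4 : ℕ) = 2 ^ 2 := by norm_num
      rw [h22]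
      exact Nat.Coprime.pow_left 2 this
    exact hodd.dvd_of_dvd_mul_right h4
  · have h9 := h.2.2 h2
    subst h2
    have hc : Nat.Coprime 9 2 := by norm_num
    exact hc.dvd_of_dvd_mul_right h9

theorem stdE_succ [NeZero (N * q)] {n : ℕ} {w : A2.RE P E} (h : StdE P E N q n w) :
    StdE P E (N * q) q (n + 1) w where
  q_prime := h.q_prime
  exp := by
    rw [Nat.factorization_mul (NeZero.ne N) (NeZero.ne q), Finsupp.add_apply, h.exp,
      h.q_prime.factorization_self]
  lies_over := h.lies_over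
  unram := h.unram
  neat := neat_mul h.neat
  unif := h.unif

theorem stdE_pred [NeZero (N * q)] {n : ℕ} {w : A2.RE P E}
    (h : StdE P E (N * q) q (n + 1) w) : StdE P E N q n w where
  q_prime := h.q_prime
  exp := by
    have := h.exp
    rw [Nat.factorization_mul (NeZero.ne N) (NeZero.ne q), Finsupp.add_apply,
      h.q_prime.factorization_self] at this
    omega
  lies_over := h.lies_over
  unram := h.unram
  neat := neat_of_mul h.q_prime h.neat
  unif := h.unif

end Std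

/-- **One step.** -/
theorem step_of_leaves {X : Extra} (L : StepLeaves X) (P : ValuationSubring A2.Qb)
    (E : IntermediateField ℚ A2.Qb) (N q : ℕ) [NeZero N] [NeZero q] [NeZero (N * q)]
    (n : ℕ) (w : A2.RE P E) (hS : StdE P E N q n w) (hn : 2 ≤ n)
    (V' : ℕ → ValuationSubring (A2.Mod.FE E N)) (W' : A2.Mod.FE E N ≃ₐ[E] A2.Mod.FE E N)
    (h' : LevelCtx P E N q n w V' W') (hX : X P E N q n w V' W') :
    ∃ (V : ℕ → ValuationSubring (A2.Mod.FE E (N * q)))
      (W : A2.Mod.FE E (N * q) ≃ₐ[E] A2.Mod.FE E (N * q)),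
      ObjsE P E N q n V' V W ∧ LevelCtx P E (N * q) q (n + 1) w V W ∧
        StepCtx P E N q n w V' V ∧ X P E (N * q) q (n + 1) w V W := by
  obtain ⟨V, W, hO⟩ := L.obj P E N q n w hS hn V' W' h'
  have hS1 := stdE_succ hS
  have hqN : q ∣ N := by
    have h1 : 1 ≤ N.factorization q := by rw [hS.exp]; omega
    exact Nat.dvd_of_factorization_pos (by omega)
  have hLev : LevelCtx P E (N * q) q (n + 1) w V W :=
      { vinf := hO.vinf
        fricke := hO.fricke
        sym := L.sym P E N q n w hS hn V' V W' W h' hO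
        ff := L.ff E (N * q) q (n + 1) hS.q_prime hS1.exp (by omega)
        val := L.val P E N q n w hS hn V' V W' W h' hO
        sheet := L.sheet P E N q n w hS hn V' V W' W h' hO
        complete := L.complete P E N q n w hS hn V' V W' W h' hO
        qep := L.qep P E N q n w hS hn V' V W' W h' hO
        normal := L.normal P E N q n w hS hn V' V W' W h' hO
        inc := L.inc P E N q n w hS hn V' V W' W h' hO
        reg := L.reg P E N q n w hS hn V' V W' W h' hX hO
        kron := L.kron P E N q n w hS hn V' V W' W h' hO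
        unif := L.unif P E N q n w hS hn V' V W' W h' hO
        wit := L.wit P E N q n w hS hn V' V W' W h' hO }
  have hStep : StepCtx P E N q n w V' V :=
      { fin := L.fin E N q hS.q_prime hqN
        table := L.table P E N q n w hS hn V' V W' W h' hO
        only := L.only P E N q n w hS hn V' V W' W h' hO
        res := L.res P E N q n w hS hn V' V W' W h' hO
        good := L.good P E N q n w hS hn V' V W' W h' hO
        nrs := L.nrs P E N q n w hS hn V' V W' W h' hO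
        chart := L.chart P E N q n w hS hn V' V W' W h' hO
        uniq := L.uniq P E N q n w hS hn V' V W' W h' hO }
  exact ⟨V, W, hO, hLev, hStep, L.extra P E N q n w hS hn V' V W' W h' hX hO hLev hStep⟩

/-- The standing hypotheses of row S36 at the level `M q q` of exponent `2`. -/
theorem std_of_stdE {P : ValuationSubring A2.Qb} {E : IntermediateField ℚ A2.Qb} {M q : ℕ}
    [NeZero M] [NeZero q] [NeZero (M * q)] [NeZero (M * q * q)] {w : A2.RE P E}
    (h : StdE P E (M * q * q) q 2 w) : Mod3.Std P E M q w := by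
  have h1 : StdE P E (M * q) q 1 w := stdE_pred h
  have h0 : M.factorization q = 0 := by
    have := h1.exp
    rw [Nat.factorization_mul (NeZero.ne M) (NeZero.ne q), Finsupp.add_apply,
      h.q_prime.factorization_self] at this
    omega
  have hnd : ¬ q ∣ M := by
    intro hd
    have := (h.q_prime.factorization_pos_of_dvd (NeZero.ne M) hd)
    omega
  have hneat : Neat M q := neat_of_mul h.q_prime h1.neat
  exact
    { q_prime := h.q_prime
      q_not_dvd := hnd
      lies_over := h.lies_over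
      unram := h.unram
      neat := hneat
      unif := h.unif }

/-- **The absolute context at every level of exponent `n ≥ 2`.** -/
theorem levelCtx_of_leaves {X : Extra} (hB : LeafBaseX X) (L : StepLeaves X) :
    ∀ (n : ℕ), 2 ≤ n → ∀ (P : ValuationSubring A2.Qb) (E : IntermediateField ℚ A2.Qb)
      (N q : ℕ) [NeZero N] [NeZero q] (w : A2.RE P E), StdE P E N q n w →
      ∃ (V : ℕ → ValuationSubring (A2.Mod.FE E N)) (W : A2.Mod.FE E N ≃ₐ[E] A2.Mod.FE E N),
        LevelCtx P E N q n w V W ∧ X P E N q n w V W := by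
  intro n hn
  induction n, hn using Nat.le_induction with
  | base =>
    intro P E N q _ _ w hS
    have hqq : q ^ 2 ∣ N := by
      have := Nat.ordProj_dvd N q
      rwa [hS.exp] at this
    obtain ⟨M, hM⟩ := hqq
    have hN : N = M * q * q := by rw [hM]; ring
    subst hN
    haveI : NeZero M := ⟨fun h0 => by
      have := NeZero.ne (M * q * q); simp [h0] at this⟩
    haveI : NeZero (M * q) := ⟨Nat.mul_ne_zero (NeZero.ne M) (NeZero.ne q)⟩
    exact hB P E M q w (std_of_stdE hS)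
  | succ n hn ih =>
    intro P E N q _ _ w hS
    have hqN : q ∣ N := by
      have h1 : 1 ≤ N.factorization q := by rw [hS.exp]; omega
      exact Nat.dvd_of_factorization_pos (by omega)
    obtain ⟨N₁, hN₁⟩ := hqN
    have hN : N = N₁ * q := by rw [hN₁, mul_comm]
    subst hN
    haveI : NeZero N₁ := ⟨fun h0 => by
      have := NeZero.ne (N₁ * q); simp [h0] at this⟩
    have hS₁ : StdE P E N₁ q n w := stdE_pred hS
    obtain ⟨V', W', h', hX'⟩ := ih P E N₁ q w hS₁
    obtain ⟨V, W, -, hV, -, hX⟩ := step_of_leaves L P E N₁ q n w hS₁ hn V' W' h' hX'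
    exact ⟨V, W, hV, hX⟩

/-- **MOD-E from its leaves.** -/
theorem modelE_of_leaves {X : Extra} (hB : LeafBaseX X) (L : StepLeaves X) :
    ModelEStatement := by
  intro P E N q _ _ _ n w hS hn
  obtain ⟨V', W', h', hX'⟩ := levelCtx_of_leaves hB L n hn P E N q w hS
  obtain ⟨V, W, hO, hV, hStep, -⟩ := step_of_leaves L P E N q n w hS hn V' W' h' hX'
  exact ⟨V', V, W', W, h', hO, hV, hStep⟩

end Fermat.Agent.S45.ModE

end

end
-- ===== PACK-END S45/ModE/Skel.lean

-- ===== PACK-BEGIN S45/Reg/Spec.lean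
section





/-!
# S45 / CAR3 / MOD-E / block REG — frozen interfaces (1st owner helper878)

Frame: `S45/ModE/Spec.lean` of helper928 (v0.2, sha256 `039d998a…`), level-by-level induction
`n → e = n + 1`.  This file fixes the EXTRA induction invariant `X := RegInv` of the skeleton and
the leaf Props of the block REG.  Memo: `origin/helper878:coord/S45-REG.md`.

## Route: PACKAGE TRANSPORT (S36 route R4, one level at a time)

* `UnitPkg w B e V i x` (finite chart): the hypotheses of `S36.H878.principalAt_of_unit_self'`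
  for the sheet `V i` and the NAMED element `x`: a "unit" `U` (`U d = w ^ k`) whose only
  vertical zero is `V i`, of order `N`, and the congruence `x ^ N ≡ g U` (`g` a chart unit).
  It gives `PrincipalAt B 𝔪 (V i)` at EVERY closed point `𝔪` through `V i` (leaf A1).
* `LitePkg w B J e V i x` (chart at infinity): the hypotheses of `S36.H876.principalAt_lite`:
  `x ^ N g₂ ≡ w ^ k g₁`, `g₁ ∉ 𝔪` at the cusp ideals (`(J l)⁻¹ ∈ 𝔪`, `l ≤ e`) (leaf A2).
* a package moves along a step with `e = 1` by applying the ring homomorphism (`α` or `β`), and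
  along the WILD step (diagonal sheet `2 i = e`) by the CHAIN CONGRUENCE
  `x ^ q ≡ α x' mod (α x') 𝔪_V`, which follows from the precision `Prec` (Kronecker modulo `w`).
* named elements: `xT τ e i` for a chain `τ l = f (t ^ (q ^ l))` (`f = t₄`, resp. `t₉` if
  `q = 2`), `dC J e i` (the normal form of the cusp parameter, `J = jLev`).

Definitions only (no `sorry`).  v1.2 (helper878, 12:25Z 28 Sep): the Laurent series of the chain is
PINNED (`hauptF E q = t₄`, resp. `t₉` if `q = 2`), so that the diagonal step at `q = 2`, `e = 4`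
(`μ = q`, leaf C7) can use the modular relations of `t₉`.
v1.3 (12:35Z): the step leaves get the WHOLE upper context without `reg` (`UpperCtx`, incl. `unif`,
`wit`); new leaves `LeafDiag2`, `LeafDiag2I` (= C7 in bytes).
-/

set_option autoImplicit false
set_option linter.style.haveILetI false
set_option linter.unusedSectionVars false
set_option synthInstance.maxHeartbeats 400000
set_option maxHeartbeats 1600000

noncomputable section

namespace Fermat.Agent.S45.Reg

open ModularCurve AlgebraicCurve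
open Fermat.Agent.S18.H138 (chart)
open Fermat.Agent.S36 Fermat.Agent.S36.Eng

/-! ## The packages (generic) -/

section Pkg

variable {R F : Type*} [CommRing R] [Field F] [Algebra R F]

/-- **The unit package** of the sheet `V i` of the chart `B` with the named element `x`. -/
def UnitPkg (w : R) (B : Subalgebra R F) (e : ℕ) (V : ℕ → ValuationSubring F) (i : ℕ)
    (x : F) : Prop :=
  x ∈ B ∧ ∃ (U d g g' : B) (k N : ℕ), 0 < N ∧ U * d = algebraMap R B w ^ k ∧ g * g' = 1 ∧
    (∀ j ≤ e, j ≠ i → (U : F)⁻¹ ∈ V j) ∧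
    (∃ t : F, UnifAt (V i) t ∧ UnitAt (V i) ((U : F) * (t ^ N)⁻¹)) ∧
    (x ^ N - (g : F) * (U : F)) * (U : F)⁻¹ ∈ (V i).nonunits

/-- `𝔪` is a CUSP ideal of the chart `B` for the chain `J` up to `e`: all the `(J l)⁻¹`, `l ≤ e`,
lie in `𝔪`.  (For `B = chart R {x⁻¹}`, `x = J 0 ⋯ J e`, and `𝔪` maximal this is `x⁻¹ ∈ 𝔪`: pole
propagation along the modular equation, leaf `LeafCuspPoles`.) -/
def IsCuspIdeal (B : Subalgebra R F) (J : ℕ → F) (e : ℕ) (𝔪 : Ideal B) : Prop :=
  ∀ l ≤ e, ∀ y : B, (y : F) = (J l)⁻¹ → y ∈ 𝔪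

/-- **The lite package** of the sheet `V i` of the chart `B` at the cusp ideals of the chain `J`,
with the named element `x`. -/
def LitePkg (w : R) (B : Subalgebra R F) (J : ℕ → F) (e : ℕ) (V : ℕ → ValuationSubring F)
    (i : ℕ) (x : F) : Prop :=
  x ∈ B ∧ UnifAt (V i) x ∧ ∃ (g₁ g₂ : B) (k N : ℕ), 0 < N ∧
    (x ^ N * (g₂ : F) - algebraMap R F w ^ k * (g₁ : F)) * (algebraMap R F w ^ k)⁻¹
      ∈ (V i).nonunits ∧
    ∀ 𝔪 : Ideal B, 𝔪.IsPrime → IsCuspIdeal B J e 𝔪 → g₁ ∉ 𝔪

/-- The named element of the sheet `i` at exponent `e` for the chain `τ`: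
`τ e - τ (e - 2 i)` if `2 i ≤ e`, `τ (2 e - 2 i) - τ 0` if `e ≤ 2 i`. -/
def xT (τ : ℕ → F) (e i : ℕ) : F :=
  if 2 * i ≤ e then τ e - τ (e - 2 * i) else τ (2 * e - 2 * i) - τ 0

/-- The NORMAL FORM of the cusp parameter of the sheet `i` at exponent `e`:
`1 - J (e - 2 i) / J e` if `2 i ≤ e`, `1 - J 0 / J (2 e - 2 i)` if `e ≤ 2 i`
(a cusp parameter is an element of the chart at infinity congruent to it up to a `1`-unit). -/
def dC (J : ℕ → F) (e i : ℕ) : F :=
  if 2 * i ≤ e then 1 - J (e - 2 * i) * (J e)⁻¹ else 1 - J 0 * (J (2 * e - 2 * i))⁻¹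

/-- **Precision** of the chain `τ` at exponent `e`: the first step is Frobenius modulo `w` on the
sheets `i < e`, the last step is Verschiebung modulo `w` on the sheets `1 ≤ i`. -/
structure Prec (w : R) (q e : ℕ) (τ : ℕ → F) (V : ℕ → ValuationSubring F) : Prop where
  mem : ∀ i ≤ e, ∀ l ≤ e, τ l ∈ V i
  frob : ∀ i, i + 1 ≤ e → (τ 1 - τ 0 ^ q) * (algebraMap R F w)⁻¹ ∈ V i
  ver : ∀ i, 1 ≤ i → i ≤ e → (τ (e - 1) - τ e ^ q) * (algebraMap R F w)⁻¹ ∈ V i

end Pkg

/-! ## The invariant -/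

section Inv

variable (P : ValuationSubring A2.Qb) (E : IntermediateField ℚ A2.Qb) (N q : ℕ)
  [NeZero N] [NeZero q]

/-- The Hauptmodul of the neat structure: `t₄` (`q` odd, `4 ∣ N`), `t₉` (`q = 2`, `9 ∣ N`). -/
def hauptF (E : Type*) [Field E] (q : ℕ) : LaurentSeries E :=
  if q = 2 then Fermat.Agent.S36.H890.t9 E else Fermat.Agent.S36.H878.t4 E

/-- `τ` is the chain of the Laurent series `f` up to `n`: `τ l = f (t ^ (q ^ l))`. -/
def IsChain (f : LaurentSeries E) (n : ℕ) (τ : ℕ → A2.Mod.FE E N) : Prop :=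
  ∀ l ≤ n, ((τ l : A2.Mod.FE E N) : LaurentSeries E) = (qExpand E q)^[l] f

/-- The finite part of the invariant for the chain `τ`. -/
structure InvF (n : ℕ) (w : A2.RE P E) (V : ℕ → ValuationSubring (A2.Mod.FE E N))
    (τ : ℕ → A2.Mod.FE E N) : Prop where
  mem : ∀ l ≤ n, τ l ∈ chart (A2.RE P E) ({ModE.xLev E N q n} : Set (A2.Mod.FE E N))
  prec : Prec (R := A2.RE P E) w q n τ V
  pkg : ∀ i, 1 ≤ i → i + 1 ≤ n →
    UnitPkg (R := A2.RE P E) w (chart (A2.RE P E) ({ModE.xLev E N q n} : Set (A2.Mod.FE E N)))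
      n V i (xT τ n i)

/-- The part at infinity of the invariant (`J = jLev`). -/
structure InvI (n : ℕ) (w : A2.RE P E) (V : ℕ → ValuationSubring (A2.Mod.FE E N)) : Prop where
  prec : Prec (R := A2.RE P E) w q n (ModE.jLev E N q) V
  pkg : ∀ i, 1 ≤ i → i + 1 ≤ n → ∃ x : A2.Mod.FE E N,
    x * (dC (ModE.jLev E N q) n i)⁻¹ - 1 ∈ (V i).nonunits ∧
    LitePkg (R := A2.RE P E) w
      (chart (A2.RE P E) ({(ModE.xLev E N q n)⁻¹} : Set (A2.Mod.FE E N)))
      (ModE.jLev E N q) n V i x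

/-- **The extra induction invariant of the block REG.** -/
def RegInv : ModE.Extra := fun P E N q _ _ n w V _ =>
  (∃ τ : ℕ → A2.Mod.FE E N,
    IsChain E N q (hauptF E q) n τ ∧ InvF P E N q n w V τ) ∧ InvI P E N q n w V

end Inv

/-! ## The leaves -/

section Leaves

/-- **REG-BASE-F (leaf C2 + C3 + C5).**  The finite part of the invariant at the level `M q q`,
`q ∤ M` (exponent `2`), for the S36 objects: chain of `t₄` (`q` odd) resp. `t₉` (`q = 2`). -/
def LeafBaseF : Prop :=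
  ∀ (P : ValuationSubring A2.Qb) (E : IntermediateField ℚ A2.Qb) (M q : ℕ)
    [NeZero M] [NeZero q] [NeZero (M * q)] [NeZero (M * q * q)] (w : A2.RE P E),
    Mod3.Std P E M q w →
    ∀ (V₁' V₂' : ValuationSubring (A2.Mod.FE E (M * q)))
      (V₁ V₂ V₃ : ValuationSubring (A2.Mod.FE E (M * q * q)))
      (W' : A2.Mod.FE E (M * q) ≃ₐ[E] A2.Mod.FE E (M * q))
      (W : A2.Mod.FE E (M * q * q) ≃ₐ[E] A2.Mod.FE E (M * q * q)),
      Mod3.Objs P E M q V₁' V₂' V₁ V₂ V₃ W' W →
      ∀ V : ℕ → ValuationSubring (A2.Mod.FE E (M * q * q)), V 0 = V₁ → V 1 = V₂ → V 2 = V₃ →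
        ∃ τ : ℕ → A2.Mod.FE E (M * q * q),
          IsChain E (M * q * q) q (hauptF E q) 2 τ ∧ InvF P E (M * q * q) q 2 w V τ

/-- **REG-BASE-I (leaf C4 + C5).**  The part at infinity of the invariant at the level `M q q`. -/
def LeafBaseI : Prop :=
  ∀ (P : ValuationSubring A2.Qb) (E : IntermediateField ℚ A2.Qb) (M q : ℕ)
    [NeZero M] [NeZero q] [NeZero (M * q)] [NeZero (M * q * q)] (w : A2.RE P E),
    Mod3.Std P E M q w →
    ∀ (V₁' V₂' : ValuationSubring (A2.Mod.FE E (M * q)))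
      (V₁ V₂ V₃ : ValuationSubring (A2.Mod.FE E (M * q * q)))
      (W' : A2.Mod.FE E (M * q) ≃ₐ[E] A2.Mod.FE E (M * q))
      (W : A2.Mod.FE E (M * q * q) ≃ₐ[E] A2.Mod.FE E (M * q * q)),
      Mod3.Objs P E M q V₁' V₂' V₁ V₂ V₃ W' W →
      ∀ V : ℕ → ValuationSubring (A2.Mod.FE E (M * q * q)), V 0 = V₁ → V 1 = V₂ → V 2 = V₃ →
        InvI P E (M * q * q) q 2 w V

/-- **The absolute context of a level WITHOUT its part REG** (`ModE.LevelCtx` minus `reg`):
everything the step of REG may use at the upper level. -/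
structure UpperCtx (P : ValuationSubring A2.Qb) (E : IntermediateField ℚ A2.Qb) (N q : ℕ)
    [NeZero N] [NeZero q] (n : ℕ) (w : A2.RE P E)
    (V : ℕ → ValuationSubring (A2.Mod.FE E N))
    (W : A2.Mod.FE E N ≃ₐ[E] A2.Mod.FE E N) : Prop where
  vinf : A2.Mod.IsVinf P E N (V 0)
  fricke : A2.Mod.IsFricke E N W
  sym : ∀ i ≤ n, V (n - i) = (V i).comap (W : A2.Mod.FE E N →+* A2.Mod.FE E N)
  ff : Mod3.PartFF E (ModE.xLev E N q n)
  val : ModE.PartValE (R := A2.RE P E) w q n (ModE.xLev E N q n) V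
  sheet : ModE.PartSheetE (R := A2.RE P E) w n (ModE.xLev E N q n) V
  complete : ModE.PartCompleteE (R := A2.RE P E) w n (ModE.xLev E N q n) V
  qep : ModE.PartQepE (R := A2.RE P E) w n (ModE.xLev E N q n) V
  normal : ModE.PartNormalE (A2.RE P E) n (ModE.xLev E N q n) V
  inc : ModE.PartIncE (R := A2.RE P E) w n (ModE.xLev E N q n) V
  kron : ModE.PartKronE q n (ModE.jLev E N q) V
  unif : ModE.PartUnifE n (ModE.jLev E N q) V
  wit : ModE.PartWitE q n (ModE.jLev E N q) V

/-- Binder prefix of the STEP leaves of REG: the lower level with its context and its invariant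
part `Y`; the upper level with its absolute context WITHOUT `reg` (which is the output) and the
relative context. -/
def LeafStep (Y Z : ∀ (P : ValuationSubring A2.Qb) (E : IntermediateField ℚ A2.Qb) (N q : ℕ)
    [NeZero N] [NeZero q] (_ : ℕ) (_ : A2.RE P E)
    (_ : ℕ → ValuationSubring (A2.Mod.FE E N)), Prop) : Prop :=
  ∀ (P : ValuationSubring A2.Qb) (E : IntermediateField ℚ A2.Qb) (N q : ℕ)
    [NeZero N] [NeZero q] [NeZero (N * q)] (n : ℕ) (w : A2.RE P E),
    ModE.StdE P E N q n w → 2 ≤ n →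
    ∀ (V' : ℕ → ValuationSubring (A2.Mod.FE E N))
      (V : ℕ → ValuationSubring (A2.Mod.FE E (N * q)))
      (W' : A2.Mod.FE E N ≃ₐ[E] A2.Mod.FE E N)
      (W : A2.Mod.FE E (N * q) ≃ₐ[E] A2.Mod.FE E (N * q)),
      ModE.LevelCtx P E N q n w V' W' → ModE.ObjsE P E N q n V' V W →
      UpperCtx P E (N * q) q (n + 1) w V W →
      ModE.StepCtx P E N q n w V' V →
      Y P E N q n w V' → Z P E (N * q) q (n + 1) w V

/-- The finite part of the invariant, as a predicate of the level. -/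
def InvFP : ∀ (P : ValuationSubring A2.Qb) (E : IntermediateField ℚ A2.Qb) (N q : ℕ)
    [NeZero N] [NeZero q] (_ : ℕ) (_ : A2.RE P E)
    (_ : ℕ → ValuationSubring (A2.Mod.FE E N)), Prop :=
  fun P E N q _ _ n w V => ∃ τ : ℕ → A2.Mod.FE E N,
    IsChain E N q (hauptF E q) n τ ∧ InvF P E N q n w V τ

/-- The part at infinity of the invariant, as a predicate of the level. -/
def InvIP : ∀ (P : ValuationSubring A2.Qb) (E : IntermediateField ℚ A2.Qb) (N q : ℕ)
    [NeZero N] [NeZero q] (_ : ℕ) (_ : A2.RE P E)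
    (_ : ℕ → ValuationSubring (A2.Mod.FE E N)), Prop :=
  fun P E N q _ _ n w V => InvI P E N q n w V

/-- **REG-STEP-F (leaf).**  The finite part of the invariant moves up one level. -/
def LeafStepF : Prop := LeafStep InvFP InvFP

/-- **REG-STEP-I (leaf).**  The part at infinity of the invariant moves up one level. -/
def LeafStepI : Prop := LeafStep InvIP InvIP

/-- **DIAG-2 (leaf C7).**  `q = 2`, step `3 → 4`, the diagonal sheet `V 2` (`μ = q`): the chain
congruence of the `t₉`-chain, which does not follow from `Prec` by valuations.  (All the other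
diagonal steps are abstract: `μ > q`.) -/
def LeafDiag2 : Prop :=
  ∀ (P : ValuationSubring A2.Qb) (E : IntermediateField ℚ A2.Qb) (N : ℕ)
    [NeZero N] [NeZero (N * 2)] (w : A2.RE P E),
    ModE.StdE P E N 2 3 w →
    ∀ (V' : ℕ → ValuationSubring (A2.Mod.FE E N))
      (V : ℕ → ValuationSubring (A2.Mod.FE E (N * 2)))
      (W' : A2.Mod.FE E N ≃ₐ[E] A2.Mod.FE E N)
      (W : A2.Mod.FE E (N * 2) ≃ₐ[E] A2.Mod.FE E (N * 2)),
      ModE.LevelCtx P E N 2 3 w V' W' → ModE.ObjsE P E N 2 3 V' V W →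
      UpperCtx P E (N * 2) 2 4 w V W →
      ModE.StepCtx P E N 2 3 w V' V →
      ∀ τ' : ℕ → A2.Mod.FE E N, IsChain E N 2 (hauptF E 2) 3 τ' → InvF P E N 2 3 w V' τ' →
      ∀ τ : ℕ → A2.Mod.FE E (N * 2), IsChain E (N * 2) 2 (hauptF E 2) 4 τ →
        Prec (R := A2.RE P E) w 2 4 τ V →
        ((τ 4 - τ 0) ^ 2 - (τ 3 - τ 1)) * (τ 3 - τ 1)⁻¹ ∈ (V 2).nonunits

/-- **DIAG-2 at infinity (leaf C7').**  The same for the chain `J = jLev`. -/
def LeafDiag2I : Prop :=
  ∀ (P : ValuationSubring A2.Qb) (E : IntermediateField ℚ A2.Qb) (N : ℕ)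
    [NeZero N] [NeZero (N * 2)] (w : A2.RE P E),
    ModE.StdE P E N 2 3 w →
    ∀ (V' : ℕ → ValuationSubring (A2.Mod.FE E N))
      (V : ℕ → ValuationSubring (A2.Mod.FE E (N * 2)))
      (W' : A2.Mod.FE E N ≃ₐ[E] A2.Mod.FE E N)
      (W : A2.Mod.FE E (N * 2) ≃ₐ[E] A2.Mod.FE E (N * 2)),
      ModE.LevelCtx P E N 2 3 w V' W' → ModE.ObjsE P E N 2 3 V' V W →
      UpperCtx P E (N * 2) 2 4 w V W →
      ModE.StepCtx P E N 2 3 w V' V →
      InvI P E N 2 3 w V' →
      Prec (R := A2.RE P E) w 2 4 (ModE.jLev E (N * 2) 2) V →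
      ((ModE.jLev E (N * 2) 2 4 - ModE.jLev E (N * 2) 2 0) ^ 2
          - (ModE.jLev E (N * 2) 2 3 - ModE.jLev E (N * 2) 2 1))
        * (ModE.jLev E (N * 2) 2 3 - ModE.jLev E (N * 2) 2 1)⁻¹ ∈ (V 2).nonunits

/-- **CUSP-POLES (leaf C6').**  At a closed point of the chart at infinity with `x⁻¹ ∈ 𝔪` all the
`(J l)⁻¹`, `l ≤ n`, lie in `𝔪` (level-`n` copy of `S36.Mod3.H276.inv_mem_of_cusp`). -/
def LeafCuspPoles : Prop :=
  ∀ (P : ValuationSubring A2.Qb) (E : IntermediateField ℚ A2.Qb) (N q : ℕ)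
    [NeZero N] [NeZero q] (n : ℕ), q.Prime → N.factorization q = n →
    ∀ 𝔪 : Ideal (chart (A2.RE P E) ({(ModE.xLev E N q n)⁻¹} : Set (A2.Mod.FE E N))),
      𝔪.IsMaximal →
      (⟨(ModE.xLev E N q n)⁻¹, Fermat.Agent.S18.H138.mem_chart_of_mem rfl⟩ :
        chart (A2.RE P E) ({(ModE.xLev E N q n)⁻¹} : Set (A2.Mod.FE E N))) ∈ 𝔪 →
      IsCuspIdeal (chart (A2.RE P E) ({(ModE.xLev E N q n)⁻¹} : Set (A2.Mod.FE E N)))
        (ModE.jLev E N q) n 𝔪

/-- **CHART-J (leaf).**  `J l ∈ chart R {x}` and `(J l)⁻¹ ∈ chart R {x⁻¹}` for `l ≤ n`. -/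
def LeafChartJ : Prop :=
  ∀ (P : ValuationSubring A2.Qb) (E : IntermediateField ℚ A2.Qb) (N q : ℕ)
    [NeZero N] [NeZero q] (n : ℕ), q.Prime → N.factorization q = n → ∀ l ≤ n,
      ModE.jLev E N q l ∈ chart (A2.RE P E) ({ModE.xLev E N q n} : Set (A2.Mod.FE E N)) ∧
      (ModE.jLev E N q l)⁻¹ ∈
        chart (A2.RE P E) ({(ModE.xLev E N q n)⁻¹} : Set (A2.Mod.FE E N))

/-- **REG-OUT (leaf).**  The invariant gives the part REG of the absolute context; the other
parts of the level are hypotheses. -/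
def LeafOut : Prop :=
  ∀ (P : ValuationSubring A2.Qb) (E : IntermediateField ℚ A2.Qb) (N q : ℕ)
    [NeZero N] [NeZero q] (n : ℕ) (w : A2.RE P E)
    (V : ℕ → ValuationSubring (A2.Mod.FE E N)) (W : A2.Mod.FE E N ≃ₐ[E] A2.Mod.FE E N),
    ModE.StdE P E N q n w → 2 ≤ n →
    ModE.PartValE (R := A2.RE P E) w q n (ModE.xLev E N q n) V →
    ModE.PartSheetE (R := A2.RE P E) w n (ModE.xLev E N q n) V →
    ModE.PartQepE (R := A2.RE P E) w n (ModE.xLev E N q n) V →
    ModE.PartIncE (R := A2.RE P E) w n (ModE.xLev E N q n) V →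
    RegInv P E N q n w V W →
    ModE.PartRegE (A2.RE P E) n (ModE.xLev E N q n) V

end Leaves

end Fermat.Agent.S45.Reg

end

end
-- ===== PACK-END S45/Reg/Spec.lean

-- ===== PACK-BEGIN S45/Reg/H878/Glue.lean
section




/-!
# S45 / CAR3 / MOD-E / REG — glue of the block REG into the skeleton of MOD-E (helper878)

With `X := Reg.RegInv`:

* `leafExtraE_of : LeafStepF → LeafStepI → ModE.LeafExtraE RegInv`;
* `leafRegE_of   : RegInputs → LeafStepF → LeafStepI → LeafOut → ModE.LeafRegE RegInv`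
  (`RegInputs` = the leaves of the OTHER blocks which REG consumes at the upper level:
  VAL, SHEET, QEP, INC, KRON and the relative context);
* `leafBaseX_of  : (BASE of helper928 with the S36 objects exposed) → LeafBaseF → LeafBaseI →
  ModE.LeafBaseX RegInv`.

No mathematics here.
-/

set_option autoImplicit false
set_option linter.style.haveILetI false
set_option linter.unusedSectionVars false
set_option linter.unusedVariables false
set_option synthInstance.maxHeartbeats 400000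
set_option maxHeartbeats 1600000

noncomputable section

namespace Fermat.Agent.S45.Reg.H878

open ModularCurve AlgebraicCurve
open Fermat.Agent.S36 Fermat.Agent.S36.Eng
open Fermat.Agent.S45

/-- The leaves of the other blocks of MOD-E consumed by the step of REG (`ModE.StepLeaves`
without `reg`, `extra`, `obj`). -/
structure RegInputs : Prop where
  sym : ModE.LeafSymE
  ff : ModE.LeafFFE
  val : ModE.LeafValE
  sheet : ModE.LeafSheetE
  complete : ModE.LeafCompleteE
  qep : ModE.LeafQepE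
  normal : ModE.LeafNormalE
  inc : ModE.LeafIncE
  kron : ModE.LeafKronE
  unif : ModE.LeafUnifE
  wit : ModE.LeafWitE
  fin : ModE.LeafFinE
  table : ModE.LeafTableE
  only : ModE.LeafOnlyE
  res : ModE.LeafResE
  good : ModE.LeafGoodE
  nrs : ModE.LeafNRSE
  chart : ModE.LeafChartE
  uniq : ModE.LeafUniqE

/-- The leaves of one step of MOD-E contain the inputs of REG. -/
theorem regInputs_of_stepLeaves {X : ModE.Extra} (L : ModE.StepLeaves X) : RegInputs where
  sym := L.sym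
  ff := L.ff
  val := L.val
  sheet := L.sheet
  complete := L.complete
  qep := L.qep
  normal := L.normal
  inc := L.inc
  kron := L.kron
  unif := L.unif
  wit := L.wit
  fin := L.fin
  table := L.table
  only := L.only
  res := L.res
  good := L.good
  nrs := L.nrs
  chart := L.chart
  uniq := L.uniq

/-- The absolute context of a level without `reg`. -/
theorem upperCtx_of_levelCtx {P : ValuationSubring A2.Qb} {E : IntermediateField ℚ A2.Qb}
    {N q : ℕ} [NeZero N] [NeZero q] {n : ℕ} {w : A2.RE P E}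
    {V : ℕ → ValuationSubring (A2.Mod.FE E N)} {W : A2.Mod.FE E N ≃ₐ[E] A2.Mod.FE E N}
    (h : ModE.LevelCtx P E N q n w V W) : UpperCtx P E N q n w V W where
  vinf := h.vinf
  fricke := h.fricke
  sym := h.sym
  ff := h.ff
  val := h.val
  sheet := h.sheet
  complete := h.complete
  qep := h.qep
  normal := h.normal
  inc := h.inc
  kron := h.kron
  unif := h.unif
  wit := h.wit

/-- **EXTRA-E** for `X = RegInv`. -/
theorem leafExtraE_of (hSF : LeafStepF) (hSI : LeafStepI) : ModE.LeafExtraE RegInv := by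
  intro P E N q _ _ _ n w hS hn V' V W' W h' hX hO hLev hStep
  exact ⟨hSF P E N q n w hS hn V' V W' W h' hO (upperCtx_of_levelCtx hLev) hStep hX.1,
    hSI P E N q n w hS hn V' V W' W h' hO (upperCtx_of_levelCtx hLev) hStep hX.2⟩

/-- The upper context without `reg` and the relative context, from the inputs. -/
theorem upperCtx_of_inputs (L : RegInputs)
    (P : ValuationSubring A2.Qb) (E : IntermediateField ℚ A2.Qb) (N q : ℕ)
    [NeZero N] [NeZero q] [NeZero (N * q)] (n : ℕ) (w : A2.RE P E)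
    (hS : ModE.StdE P E N q n w) (hn : 2 ≤ n)
    (V' : ℕ → ValuationSubring (A2.Mod.FE E N))
    (V : ℕ → ValuationSubring (A2.Mod.FE E (N * q)))
    (W' : A2.Mod.FE E N ≃ₐ[E] A2.Mod.FE E N)
    (W : A2.Mod.FE E (N * q) ≃ₐ[E] A2.Mod.FE E (N * q))
    (h' : ModE.LevelCtx P E N q n w V' W') (hO : ModE.ObjsE P E N q n V' V W) :
    UpperCtx P E (N * q) q (n + 1) w V W ∧ ModE.StepCtx P E N q n w V' V := by
  have hqN : q ∣ N := by
    have h1 : 1 ≤ N.factorization q := by rw [hS.exp]; omega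
    exact Nat.dvd_of_factorization_pos (by omega)
  have hS1 := ModE.stdE_succ hS
  exact ⟨{ vinf := hO.vinf
           fricke := hO.fricke
           sym := L.sym P E N q n w hS hn V' V W' W h' hO
           ff := L.ff E (N * q) q (n + 1) hS.q_prime hS1.exp (by omega)
           val := L.val P E N q n w hS hn V' V W' W h' hO
           sheet := L.sheet P E N q n w hS hn V' V W' W h' hO
           complete := L.complete P E N q n w hS hn V' V W' W h' hO
           qep := L.qep P E N q n w hS hn V' V W' W h' hO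
           normal := L.normal P E N q n w hS hn V' V W' W h' hO
           inc := L.inc P E N q n w hS hn V' V W' W h' hO
           kron := L.kron P E N q n w hS hn V' V W' W h' hO
           unif := L.unif P E N q n w hS hn V' V W' W h' hO
           wit := L.wit P E N q n w hS hn V' V W' W h' hO },
         { fin := L.fin E N q hS.q_prime hqN
           table := L.table P E N q n w hS hn V' V W' W h' hO
           only := L.only P E N q n w hS hn V' V W' W h' hO
           res := L.res P E N q n w hS hn V' V W' W h' hO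
           good := L.good P E N q n w hS hn V' V W' W h' hO
           nrs := L.nrs P E N q n w hS hn V' V W' W h' hO
           chart := L.chart P E N q n w hS hn V' V W' W h' hO
           uniq := L.uniq P E N q n w hS hn V' V W' W h' hO }⟩

/-- The invariant of the upper level from the inputs. -/
theorem regInv_step (L : RegInputs) (hSF : LeafStepF) (hSI : LeafStepI)
    (P : ValuationSubring A2.Qb) (E : IntermediateField ℚ A2.Qb) (N q : ℕ)
    [NeZero N] [NeZero q] [NeZero (N * q)] (n : ℕ) (w : A2.RE P E)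
    (hS : ModE.StdE P E N q n w) (hn : 2 ≤ n)
    (V' : ℕ → ValuationSubring (A2.Mod.FE E N))
    (V : ℕ → ValuationSubring (A2.Mod.FE E (N * q)))
    (W' : A2.Mod.FE E N ≃ₐ[E] A2.Mod.FE E N)
    (W : A2.Mod.FE E (N * q) ≃ₐ[E] A2.Mod.FE E (N * q))
    (h' : ModE.LevelCtx P E N q n w V' W') (hX : RegInv P E N q n w V' W')
    (hO : ModE.ObjsE P E N q n V' V W) :
    RegInv P E (N * q) q (n + 1) w V W := by
  obtain ⟨hU, hStep⟩ := upperCtx_of_inputs L P E N q n w hS hn V' V W' W h' hO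
  exact ⟨hSF P E N q n w hS hn V' V W' W h' hO hU hStep hX.1,
    hSI P E N q n w hS hn V' V W' W h' hO hU hStep hX.2⟩

/-- **REG-E** for `X = RegInv`. -/
theorem leafRegE_of (L : RegInputs) (hSF : LeafStepF) (hSI : LeafStepI) (hOut : LeafOut) :
    ModE.LeafRegE RegInv := by
  intro P E N q _ _ _ n w hS hn V' V W' W h' hX hO
  have hX1 := regInv_step L hSF hSI P E N q n w hS hn V' V W' W h' hX hO
  exact hOut P E (N * q) q (n + 1) w V W (ModE.stdE_succ hS) (by omega)
    (L.val P E N q n w hS hn V' V W' W h' hO)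
    (L.sheet P E N q n w hS hn V' V W' W h' hO)
    (L.qep P E N q n w hS hn V' V W' W h' hO)
    (L.inc P E N q n w hS hn V' V W' W h' hO) hX1

/-- **BASE (interface with helper928).**  The absolute context of the level `M q q` built on the
S36 objects: `V 0 = V₁`, `V 1 = V₂`, `V 2 = V₃`. -/
def LeafBaseObjs : Prop :=
  ∀ (P : ValuationSubring A2.Qb) (E : IntermediateField ℚ A2.Qb) (M q : ℕ)
    [NeZero M] [NeZero q] [NeZero (M * q)] [NeZero (M * q * q)] (w : A2.RE P E),
    Mod3.Std P E M q w →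
    ∃ (V₁' V₂' : ValuationSubring (A2.Mod.FE E (M * q)))
      (V₁ V₂ V₃ : ValuationSubring (A2.Mod.FE E (M * q * q)))
      (W' : A2.Mod.FE E (M * q) ≃ₐ[E] A2.Mod.FE E (M * q))
      (V : ℕ → ValuationSubring (A2.Mod.FE E (M * q * q)))
      (W : A2.Mod.FE E (M * q * q) ≃ₐ[E] A2.Mod.FE E (M * q * q)),
      Mod3.Objs P E M q V₁' V₂' V₁ V₂ V₃ W' W ∧ V 0 = V₁ ∧ V 1 = V₂ ∧ V 2 = V₃ ∧
        ModE.LevelCtx P E (M * q * q) q 2 w V W

/-- **BASE** for `X = RegInv`. -/
theorem leafBaseX_of (hB : LeafBaseObjs) (hF : LeafBaseF) (hI : LeafBaseI) :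
    ModE.LeafBaseX RegInv := by
  intro P E M q _ _ _ _ w hStd
  obtain ⟨V₁', V₂', V₁, V₂, V₃, W', V, W, hO, h0, h1, h2, hLev⟩ := hB P E M q w hStd
  exact ⟨V, W, hLev, hF P E M q w hStd V₁' V₂' V₁ V₂ V₃ W' W hO V h0 h1 h2,
    hI P E M q w hStd V₁' V₂' V₁ V₂ V₃ W' W hO V h0 h1 h2⟩

end Fermat.Agent.S45.Reg.H878

end

end
-- ===== PACK-END S45/Reg/H878/Glue.lean

-- ===== PACK-BEGIN S45/ModE/H590/SymE.lean
section




/-!
# S45 / CAR3 / MOD-E — the leaf SYM-E is FORMAL (helper590)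

Against `S45/ModE/Spec.lean` (sub-architect helper928).

`V (n + 1 - i) = V i ∘ W` at the upper level follows from the tables (TABLE-E), the uniqueness of
the extensions (ONLY-E), the symmetry of the lower level and the compatibility of the FULL Fricke
involutions with the degeneracy maps (`W ∘ α = β ∘ W'`, `W ∘ β = α ∘ W'`,
`A2.Mod.H751.frickeCompat`).  The chain `J l` is NOT used (so the trap `W (J l) ≠ J (e - l)` for
the full Fricke involution is avoided).

* `partSymE_of590` : abstract form;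
* `leafSymE_of590 : LeafTableE → LeafOnlyE → LeafSymE`.
-/

set_option autoImplicit false
set_option linter.style.haveILetI false
set_option linter.unusedSectionVars false
set_option synthInstance.maxHeartbeats 400000
set_option maxHeartbeats 1600000

noncomputable section

namespace Fermat.Agent.S45.ModE.H590

open ModularCurve AlgebraicCurve
open Fermat.Agent.S36 Fermat.Agent.S36.Eng

section Abs

variable {E F F' : Type*} [Field E] [Field F] [Algebra E F] [Field F'] [Algebra E F']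

/-- `(U ∘ W) ∘ φ = (U ∘ ψ) ∘ W'` if `W ∘ φ = ψ ∘ W'`. -/
theorem comap_comap_swap590 {φ ψ : F' →ₐ[E] F} {W' : F' ≃ₐ[E] F'} {W : F ≃ₐ[E] F}
    (hc : ∀ f, W (φ f) = ψ (W' f)) (U : ValuationSubring F) :
    ((U.comap (W : F →+* F)).comap (φ : F' →+* F)) =
      ((U.comap (ψ : F' →+* F)).comap (W' : F' →+* F')) := by
  ext f
  show W (φ f) ∈ U ↔ ψ (W' f) ∈ U
  rw [hc f]

/-- **SYM-E, abstract.** -/
theorem partSymE_of590 {n : ℕ} (hn : 1 ≤ n) {α β : F' →ₐ[E] F} {W' : F' ≃ₐ[E] F'}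
    {W : F ≃ₐ[E] F} {V' : ℕ → ValuationSubring F'} {V : ℕ → ValuationSubring F}
    (hc1 : ∀ f, W (α f) = β (W' f)) (hc2 : ∀ f, W (β f) = α (W' f))
    (hT : PartTableE n α β V V') (hO : PartOnlyE n α β V V')
    (hsym : ∀ i ≤ n, V' (n - i) = (V' i).comap (W' : F' →+* F'))
    (hne : V' (n - 1) ≠ V' n) :
    ∀ i ≤ n + 1, V (n + 1 - i) = (V i).comap (W : F →+* F) := by
  intro i hi
  rcases Nat.eq_zero_or_pos i with h0 | h0
  · -- `i = 0`
    subst h0
    have hβ : ((V 0).comap (W : F →+* F)).comap (β : F' →+* F) = V' n := by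
      rw [comap_comap_swap590 hc2, hT.comap_α₀, ← hsym 0 (Nat.zero_le _), Nat.sub_zero]
    have hα : ((V 0).comap (W : F →+* F)).comap (α : F' →+* F) = V' n := by
      rw [comap_comap_swap590 hc1, hT.comap_β 0 (Nat.zero_le _), ← hsym 0 (Nat.zero_le _),
        Nat.sub_zero]
    rcases hO.only_βₑ _ hβ with h | h
    · rw [Nat.sub_zero]; exact h.symm
    · exfalso
      rw [h, hT.comap_α n hn (by omega)] at hα
      exact hne hα
  · -- `1 ≤ i`
    have hβ : ((V i).comap (W : F →+* F)).comap (β : F' →+* F) = V' (n + 1 - i) := by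
      rw [comap_comap_swap590 hc2, hT.comap_α i h0 hi, ← hsym (i - 1) (by omega)]
      congr 1
      omega
    rcases Nat.lt_or_ge 1 i with h1 | h1
    · -- `2 ≤ i`: `n + 1 - i < n`
      exact (hO.only_β (n + 1 - i) (by omega) _ hβ).symm
    · -- `i = 1`
      have hi1 : i = 1 := by omega
      subst hi1
      have hα : ((V 1).comap (W : F →+* F)).comap (α : F' →+* F) = V' (n - 1) := by
        rw [comap_comap_swap590 hc1, hT.comap_β 1 hn, ← hsym 1 hn]
      have e : n + 1 - 1 = n := by omega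
      rw [e] at hβ ⊢
      rcases hO.only_βₑ _ hβ with h | h
      · exfalso
        rw [h, hT.comap_α (n + 1) (by omega) le_rfl] at hα
        have e2 : n + 1 - 1 = n := by omega
        rw [e2] at hα
        exact hne hα.symm
      · exact h.symm

end Abs

/-- **SYM-E** is formal from TABLE-E and ONLY-E. -/
theorem leafSymE_of590 (hT : LeafTableE) (hO : LeafOnlyE) : LeafSymE := by
  intro P E N q _ _ _ n w hStd hn V' V W' W hL hObj
  have hc := A2.Mod.H751.frickeCompat E N q W' W hL.fricke hObj.fricke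
  exact partSymE_of590 (by omega) (fun f => (hc f).1) (fun f => (hc f).2)
    (hT P E N q n w hStd hn V' V W' W hL hObj) (hO P E N q n w hStd hn V' V W' W hL hObj)
    hL.sym (hL.val.ne (n - 1) (by omega) n le_rfl (by omega))

end Fermat.Agent.S45.ModE.H590

end

end
-- ===== PACK-END S45/ModE/H590/SymE.lean

-- ===== PACK-BEGIN S45/ModE/H250/UniqE.lean
section


/-!
# S45 / CAR3 / MOD-E — the leaf UNIQ-E is FORMAL (helper250)

`B = chart R {x}`, `B' = chart R {x'}`, components `V i`, `i ≤ e`.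

* `through_of_qepE250` : `QepE` + `ram` (any multiplicities) ⟹ every prime of `B` containing `w`
  lies on some component `V i`, `i ≤ e`.
* `uniqueE_of_res250`  : let `𝔪` be a MULTIPLE point of `B` and `𝔪'` a maximal ideal of `B` with
  `φ B' ∩ 𝔪 ⊆ 𝔪'`.  Then `𝔪' = 𝔪`, as soon as every component `V i` has residue degree one in
  chart form along `φ` (`B = φ B' + (B ∩ 𝔪_{V i})`) OR is good along `φ` (`GoodAlong q φ (V i)`).
* `partUniqE_of_parts250` : `PartValE`, `PartSheetE`, `PartQepE`, `PartChartE`, `PartGoodE`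
  ⟹ `PartUniqE` (generic).
* `leafUniqE_of250 : LeafValE → LeafSheetE → LeafQepE → LeafChartE → LeafGoodE → LeafUniqE`.

So UNIQ-E needs NO modular input of its own.  Imports `ModE/Spec.lean` only; sorry-free.
-/

set_option autoImplicit false
set_option linter.style.haveILetI false
set_option linter.unusedSectionVars false
set_option synthInstance.maxHeartbeats 400000
set_option maxHeartbeats 1600000

noncomputable section

namespace Fermat.Agent.S45.ModE.H250

open Fermat.Agent.S18.H138 (chart)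

section Basic250

variable {R F : Type*} [CommRing R] [Field F] [Algebra R F]

/-- An element integral over `R[S]` lies in every valuation subring containing `R` and `S`. -/
theorem mem_valSub_of_mem_chart250 (V : ValuationSubring F) {S : Set F}
    (hbase : ∀ r : R, algebraMap R F r ∈ V) (hS : ∀ s ∈ S, s ∈ V) {b : F}
    (hb : b ∈ chart R S) : b ∈ V := by
  have hle : ∀ a ∈ Algebra.adjoin R S, a ∈ V := by
    intro a ha
    induction ha using Algebra.adjoin_induction with
    | mem y hy => exact hS y hy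
    | algebraMap r => exact hbase r
    | add y z _ _ hy hz => exact V.add_mem _ _ hy hz
    | mul y z _ _ hy hz => exact V.mul_mem _ _ hy hz
  obtain ⟨p, hp, hpb⟩ := (Fermat.Agent.S18.H138.mem_chart.mp hb)
  let φ : Algebra.adjoin R S →+* V :=
    { toFun := fun a => ⟨(a : F), hle a a.2⟩
      map_one' := rfl
      map_mul' := fun _ _ => rfl
      map_zero' := rfl
      map_add' := fun _ _ => rfl }
  have hint : IsIntegral V b := by
    refine ⟨p.map φ, hp.map _, ?_⟩
    rw [Polynomial.eval₂_map]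
    exact hpb
  obtain ⟨y, hy⟩ := (IsIntegrallyClosed.isIntegral_iff (R := V) (K := F)).mp hint
  rw [← hy]
  exact y.2

/-- A nonzero element of `V` which is not in `𝔪_V` is a unit of `V`. -/
theorem unitAt_of_not_nonunits250 (V : ValuationSubring F) {b : F} (hbV : b ∈ V)
    (hbn : b ∉ V.nonunits) : Fermat.Agent.S36.Eng.UnitAt V b := by
  have hb0 : b ≠ 0 := by
    intro h0
    apply hbn
    rw [h0, ValuationSubring.mem_nonunits_iff, map_zero]
    exact zero_lt_one
  refine ⟨hb0, hbV, ?_⟩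
  by_contra hcon
  apply hbn
  rw [ValuationSubring.mem_nonunits_iff_exists_mem_maximalIdeal]
  refine ⟨hbV, ?_⟩
  rw [IsLocalRing.mem_maximalIdeal, mem_nonunits_iff]
  intro hu
  apply hcon
  obtain ⟨v, hv⟩ := hu.exists_right_inv
  have h1 : b * (v : F) = 1 := by
    have := congrArg (fun z : V => (z : F)) hv
    simpa using this
  rw [inv_eq_of_mul_eq_one_right h1]
  exact v.2

/-- `𝔪_V` is stable under multiplication by `V`. -/
theorem mul_mem_nonunits250 (V : ValuationSubring F) {a b : F} (ha : a ∈ V)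
    (hb : b ∈ V.nonunits) : a * b ∈ V.nonunits := by
  rw [ValuationSubring.mem_nonunits_iff_exists_mem_maximalIdeal] at hb ⊢
  obtain ⟨hbV, hbm⟩ := hb
  refine ⟨V.mul_mem _ _ ha hbV, ?_⟩
  have := (IsLocalRing.maximalIdeal V).mul_mem_left (⟨a, ha⟩ : V) hbm
  exact this

end Basic250

section Norm250

variable {R E F F' : Type*} [CommRing R] [Field E]
  [Field F] [Algebra E F] [Field F'] [Algebra E F'] [Algebra R F']

/-- The norm along `φ` of an element which is integral over `φ (chart)` lies in the chart. -/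
theorem normAlong_mem_chart250 (φ : F' →ₐ[E] F) {S : Set F'} {b : F}
    (hint : ∃ p : Polynomial F', p.Monic ∧ (∀ i, p.coeff i ∈ chart R S) ∧
      (p.map (φ : F' →+* F)).eval b = 0) :
    Fermat.Agent.S29.H395.normAlong φ b ∈ chart R S := by
  obtain ⟨p, hpm, hpc, hp0⟩ := hint
  letI : Algebra F' F := AlgebraicCurve.algebraAlong φ
  have hlift : p ∈ Polynomial.lifts
      (algebraMap (integralClosure (Algebra.adjoin R S) F') F') := by
    rw [Polynomial.lifts_iff_coeff_lifts]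
    intro n
    exact ⟨⟨p.coeff n, hpc n⟩, rfl⟩
  obtain ⟨P, hP, -, hPm⟩ := Polynomial.lifts_and_degree_eq_and_monic hlift hpm
  have hb : IsIntegral (integralClosure (Algebra.adjoin R S) F') b := by
    refine ⟨P, hPm, ?_⟩
    have h1 : Polynomial.eval₂ (algebraMap (integralClosure (Algebra.adjoin R S) F') F) b P
        = ((P.map (algebraMap (integralClosure (Algebra.adjoin R S) F') F')).map
            (algebraMap F' F)).eval b := by
      rw [Polynomial.map_map, Polynomial.eval_map]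
      rfl
    rw [h1, hP]
    exact hp0
  have hN : IsIntegral (integralClosure (Algebra.adjoin R S) F') (Algebra.norm F' b) :=
    Algebra.isIntegral_norm F' hb
  have hN' : IsIntegral (Algebra.adjoin R S) (Algebra.norm F' b) := isIntegral_trans _ hN
  exact hN'

/-- The norm residue congruence `φ (N y) ≡ y ^ q` on the units of a GOOD component. -/
theorem nr_of_goodAlong250 {q : ℕ} {φ : F' →ₐ[E] F} {V : ValuationSubring F}
    (hgood : GoodAlong q φ V) (y : F) (hy : Fermat.Agent.S36.Eng.UnitAt V y) :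
    φ (Fermat.Agent.S29.H395.normAlong φ y) - y ^ q ∈ V.nonunits := by
  obtain ⟨hy0, hyV, -⟩ := hy
  have hg := hgood y hy0
  set n : F := φ (Fermat.Agent.S29.H395.normAlong φ y) with hn
  set u : F := y ^ q * n⁻¹ with hu
  -- `u - 1 ∈ 𝔪_V`, so `n ≠ 0` and `u` is a unit
  have hn0 : n ≠ 0 := by
    intro h0
    rw [hu, h0, inv_zero, mul_zero, zero_sub] at hg
    have h1 : (1 : F) ∈ V.nonunits := by
      have := mul_mem_nonunits250 V (V.neg_mem _ V.one_mem) hg
      simpa using this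
    rw [ValuationSubring.mem_nonunits_iff, map_one] at h1
    exact lt_irrefl _ h1
  have huV : u ∈ V := by
    have : u = (u - 1) + 1 := by ring
    rw [this]
    exact V.add_mem _ _ (ValuationSubring.nonunits_le hg) V.one_mem
  have hun : u ∉ V.nonunits := by
    intro hcon
    have h1 : (1 : F) ∈ V.nonunits := by
      have h2 : (1 : F) = u - (u - 1) := by ring
      rw [h2]
      rw [ValuationSubring.mem_nonunits_iff_exists_mem_maximalIdeal] at hcon hg ⊢
      obtain ⟨ha, ha'⟩ := hcon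
      obtain ⟨hb, hb'⟩ := hg
      refine ⟨sub_mem ha hb, ?_⟩
      have := (IsLocalRing.maximalIdeal V).sub_mem ha' hb'
      exact this
    rw [ValuationSubring.mem_nonunits_iff, map_one] at h1
    exact lt_irrefl _ h1
  obtain ⟨hu0, -, huinv⟩ := unitAt_of_not_nonunits250 V huV hun
  have hyq0 : y ^ q ≠ 0 := pow_ne_zero _ hy0
  -- `n - y ^ q = (y ^ q * u⁻¹) * (-(u - 1))`
  have key : n - y ^ q = (y ^ q * u⁻¹) * (-1 * (u - 1)) := by
    rw [hu]
    field_simp
    ring
  rw [key]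
  exact mul_mem_nonunits250 V (V.mul_mem _ _ (pow_mem hyV q) huinv)
    (mul_mem_nonunits250 V (V.neg_mem _ V.one_mem) hg)

end Norm250

section Main250

variable {R E F F' : Type*} [CommRing R] [Field E] [Algebra R E]
  [Field F] [Algebra E F] [Algebra R F] [Field F'] [Algebra E F'] [Algebra R F']

open Fermat.Agent.S36.Eng in
/-- Every prime of the chart `B` which contains `w` lies on one of the components `V i`, `i ≤ e`
(`QepE`; any multiplicities `μ i`). -/
theorem through_of_qepE250 {w : R} {μ : ℕ → ℕ} {e : ℕ} {B : Subalgebra R F}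
    {V : ℕ → ValuationSubring F}
    (hB : ∀ i ≤ e, ∀ b ∈ B, b ∈ V i)
    (ram : ∀ i ≤ e, ∃ t : F, UnifAt (V i) t ∧ UnitAt (V i) (algebraMap R F w * (t ^ μ i)⁻¹))
    (qep : QepE w B e V)
    (𝔪 : Ideal B) (h𝔪 : 𝔪.IsPrime) (hw : algebraMap R B w ∈ 𝔪) :
    ∃ i ≤ e, Through B 𝔪 (V i) := by
  by_contra hcon
  simp only [not_exists, not_and] at hcon
  have hex : ∀ i : ℕ, ∃ b : B, i ≤ e → ((b : F) ∈ (V i).nonunits ∧ b ∉ 𝔪) := by
    intro i
    by_cases hi : i ≤ e
    · have h := hcon i hi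
      simp only [Through, not_forall] at h
      obtain ⟨b, hb, hb'⟩ := h
      exact ⟨b, fun _ => ⟨hb, hb'⟩⟩
    · exact ⟨1, fun h => absurd h hi⟩
  choose b hb using hex
  set W : F := algebraMap R F w with hW
  set Pr : B := ∏ i ∈ Finset.range (e + 1), b i ^ μ i with hPr
  have hmemV : ∀ k ≤ e, (Pr : F) * W⁻¹ ∈ V k := by
    intro k hk
    have hkr : k ∈ Finset.range (e + 1) := Finset.mem_range.mpr (Nat.lt_succ_of_le hk)
    have hsplit : Pr = b k ^ μ k * ∏ i ∈ (Finset.range (e + 1)).erase k, b i ^ μ i := by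
      rw [hPr]
      exact (Finset.mul_prod_erase (Finset.range (e + 1)) (fun i => b i ^ μ i) hkr).symm
    obtain ⟨t, ht, hwt⟩ := ram k hk
    have ht0 : t ≠ 0 := ht.1
    have hu : (W * (t ^ μ k)⁻¹)⁻¹ ∈ V k := hwt.2.2
    have hbk : (b k : F) * t⁻¹ ∈ V k := ht.2.2 _ (hb k hk).1
    have hrest : ((∏ i ∈ (Finset.range (e + 1)).erase k, b i ^ μ i : B) : F) ∈ V k :=
      hB k hk _ (Subtype.mem _)
    have e1 : (Pr : F) * W⁻¹ = (((b k : F) * t⁻¹) ^ μ k * (W * (t ^ μ k)⁻¹)⁻¹) *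
        ((∏ i ∈ (Finset.range (e + 1)).erase k, b i ^ μ i : B) : F) := by
      rw [hsplit]
      push_cast
      have htq : t ^ μ k ≠ 0 := pow_ne_zero _ ht0
      rw [mul_pow, inv_pow, mul_inv, inv_inv]
      field_simp
    rw [e1]
    exact (V k).mul_mem _ _ ((V k).mul_mem _ _ (pow_mem hbk _) hu) hrest
  obtain ⟨c, hc⟩ := qep Pr hmemV
  have hmem : Pr ∈ 𝔪 := by
    rw [hc]
    exact 𝔪.mul_mem_right _ hw
  rw [hPr] at hmem
  obtain ⟨i, hi, hmi⟩ := (Ideal.IsPrime.prod_mem_iff (hp := h𝔪)).mp hmem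
  have hie : i ≤ e := Nat.lt_succ_iff.mp (Finset.mem_range.mp hi)
  exact (hb i hie).2 (h𝔪.mem_of_pow_mem _ hmi)

variable [IsScalarTower R E F] [IsScalarTower R E F']

open Fermat.Agent.S36.Eng in
/-- **`unique_α` at level `e` from the other parts** (abstract; `φ = α` or `β`). -/
theorem uniqueE_of_res250 {w : R} {q : ℕ} (hq : q ≠ 0) {μ : ℕ → ℕ} {e : ℕ} {φ : F' →ₐ[E] F}
    {x : F} {x' : F'} {V : ℕ → ValuationSubring F}
    (hB : ∀ i ≤ e, ∀ b ∈ chart R ({x} : Set F), b ∈ V i)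
    (hwn : ∃ i ≤ e, algebraMap R F w ∈ (V i).nonunits)
    (ram : ∀ i ≤ e, ∃ t : F, UnifAt (V i) t ∧ UnitAt (V i) (algebraMap R F w * (t ^ μ i)⁻¹))
    (qep : QepE w (chart R ({x} : Set F)) e V)
    (hφ : ∀ b ∈ chart R ({x'} : Set F'), φ b ∈ chart R ({x} : Set F))
    (hint : ∀ b ∈ chart R ({x} : Set F), ∃ p : Polynomial F', p.Monic ∧
      (∀ i, p.coeff i ∈ chart R ({x'} : Set F')) ∧ (p.map (φ : F' →+* F)).eval b = 0)
    (hcase : ∀ i ≤ e,
      (∀ b ∈ chart R ({x} : Set F), ∃ b' ∈ chart R ({x'} : Set F'),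
        b - φ b' ∈ (V i).nonunits) ∨ GoodAlong q φ (V i))
    (𝔪 𝔪' : Ideal (chart R ({x} : Set F))) (h𝔪 : 𝔪.IsMaximal) (h𝔪' : 𝔪'.IsMaximal)
    (hmul : IsMulti _ 𝔪 e V)
    (hover : ∀ (b' : F') (h : b' ∈ chart R ({x'} : Set F')),
      (⟨φ b', hφ b' h⟩ : chart R ({x} : Set F)) ∈ 𝔪 →
        (⟨φ b', hφ b' h⟩ : chart R ({x} : Set F)) ∈ 𝔪') :
    𝔪' = 𝔪 := by
  -- `w ∈ 𝔪'`
  have hwF : φ (algebraMap R F' w) = algebraMap R F w := by
    rw [IsScalarTower.algebraMap_apply R E F', AlgHom.commutes,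
      ← IsScalarTower.algebraMap_apply R E F]
  have hwB' : algebraMap R F' w ∈ chart R ({x'} : Set F') := Subalgebra.algebraMap_mem _ w
  have hweq : (⟨φ (algebraMap R F' w), hφ _ hwB'⟩ : chart R ({x} : Set F))
      = algebraMap R (chart R ({x} : Set F)) w := Subtype.ext hwF
  have hw𝔪 : algebraMap R (chart R ({x} : Set F)) w ∈ 𝔪 := by
    obtain ⟨i, hi, hwi⟩ := hwn
    exact hmul i hi _ hwi
  have hw𝔪' : algebraMap R (chart R ({x} : Set F)) w ∈ 𝔪' := by
    rw [← hweq]
    exact hover _ hwB' (hweq ▸ hw𝔪)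
  -- it suffices to prove `𝔪 ≤ 𝔪'`
  suffices hle : 𝔪 ≤ 𝔪' from (h𝔪.eq_of_le h𝔪'.ne_top hle).symm
  obtain ⟨i, hi, hT'⟩ := through_of_qepE250 hB ram qep 𝔪' h𝔪'.isPrime hw𝔪'
  have hT : Through _ 𝔪 (V i) := hmul i hi
  rcases hcase i hi with hres | hgood
  · -- residue degree one
    intro b hb
    obtain ⟨b', hb', hd⟩ := hres b b.2
    set c : chart R ({x} : Set F) := b - ⟨φ b', hφ b' hb'⟩ with hc
    have hcV : (c : F) ∈ (V i).nonunits := hd
    have h1 : (⟨φ b', hφ b' hb'⟩ : chart R ({x} : Set F)) ∈ 𝔪 := by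
      have : (⟨φ b', hφ b' hb'⟩ : chart R ({x} : Set F)) = b - c := by rw [hc]; ring
      rw [this]
      exact 𝔪.sub_mem hb (hT c hcV)
    have h2 := hover b' hb' h1
    have : b = ⟨φ b', hφ b' hb'⟩ + c := by rw [hc]; ring
    rw [this]
    exact 𝔪'.add_mem h2 (hT' c hcV)
  · -- a good component (types INSEP and WILD)
    intro b hb
    by_cases hbn : (b : F) ∈ (V i).nonunits
    · exact hT' b hbn
    · have hbV : (b : F) ∈ V i := hB i hi _ b.2
      have hN := nr_of_goodAlong250 hgood (b : F) (unitAt_of_not_nonunits250 (V i) hbV hbn)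
      have hNB' : Fermat.Agent.S29.H395.normAlong φ (b : F) ∈ chart R ({x'} : Set F') :=
        normAlong_mem_chart250 φ (hint _ b.2)
      set n : chart R ({x} : Set F) :=
        ⟨φ (Fermat.Agent.S29.H395.normAlong φ (b : F)), hφ _ hNB'⟩ with hn
      have hcV : ((n - b ^ q : chart R ({x} : Set F)) : F) ∈ (V i).nonunits := hN
      have h1 : n ∈ 𝔪 := by
        have : n = (n - b ^ q) + b ^ q := by ring
        rw [this]
        exact 𝔪.add_mem (hT _ hcV) (𝔪.pow_mem_of_mem hb q (Nat.pos_of_ne_zero hq))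
      have h2 : n ∈ 𝔪' := hover _ hNB' h1
      have h3 : b ^ q ∈ 𝔪' := by
        have : b ^ q = n - (n - b ^ q) := by ring
        rw [this]
        exact 𝔪'.sub_mem h2 (hT' _ hcV)
      exact h𝔪'.isPrime.mem_of_pow_mem _ h3

open Fermat.Agent.S36.Eng in
/-- **UNIQ-E from VAL-E, SHEET-E, QEP-E, CHART-E, GOOD-E** (generic). -/
theorem partUniqE_of_parts250 {w : R} {q n : ℕ} (hq : q ≠ 0) {α β : F' →ₐ[E] F}
    {x : F} {x' : F'} {V : ℕ → ValuationSubring F}
    (hVal : PartValE w q (n + 1) x V) (hSh : PartSheetE w (n + 1) x V)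
    (hQep : PartQepE w (n + 1) x V) (hCh : PartChartE R n α β x x' V)
    (hGood : PartGoodE q n α β V) :
    PartUniqE R n α β x x' V := by
  have hB : ∀ i ≤ n + 1, ∀ b ∈ chart R ({x} : Set F), b ∈ V i := fun i hi b hb =>
    mem_valSub_of_mem_chart250 (V i) (hSh.base i hi)
      (fun s hs => by rw [Set.mem_singleton_iff.mp hs]; exact (hVal.x_unit i hi).2.1) hb
  have hwn : ∃ i ≤ n + 1, algebraMap R F w ∈ (V i).nonunits := by
    refine ⟨0, Nat.zero_le _, ?_⟩
    obtain ⟨t, ht, hu⟩ := hVal.ram 0 (Nat.zero_le _)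
    have hmu : mu q (n + 1) 0 = 1 := by
      simp [mu]
    rw [hmu, pow_one] at hu
    have ht0 : t ≠ 0 := ht.1
    have e1 : algebraMap R F w = (algebraMap R F w * t⁻¹) * t := by
      field_simp
    rw [e1]
    exact mul_mem_nonunits250 (V 0) hu.2.1 ht.2.1
  refine ⟨?_, ?_⟩
  · intro hα 𝔪 𝔪' h𝔪 h𝔪' hmul hover
    refine uniqueE_of_res250 hq hB hwn hVal.ram hQep.qep_f hα hCh.int_α ?_ 𝔪 𝔪' h𝔪 h𝔪' hmul hover
    intro i hi
    by_cases h1 : i ≤ 1
    · exact Or.inl (hCh.res_α i hi (Or.inl h1))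
    · exact Or.inr (hGood.good_α i (by omega) hi)
  · intro hβ 𝔪 𝔪' h𝔪 h𝔪' hmul hover
    refine uniqueE_of_res250 hq hB hwn hVal.ram hQep.qep_f hβ hCh.int_β ?_ 𝔪 𝔪' h𝔪 h𝔪' hmul hover
    intro i hi
    by_cases h1 : n ≤ i
    · exact Or.inl (hCh.res_β i hi (Or.inl h1))
    · exact Or.inr (hGood.good_β i (by omega))

end Main250

section Concrete250

/-- **LeafUniqE from LeafValE, LeafSheetE, LeafQepE, LeafChartE, LeafGoodE.** -/
theorem leafUniqE_of250 (hVal : LeafValE) (hSh : LeafSheetE) (hQep : LeafQepE)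
    (hCh : LeafChartE) (hGood : LeafGoodE) : LeafUniqE := by
  intro P E N q _ _ _ n w hS hn V' V W' W hL hO
  exact partUniqE_of_parts250 hS.q_prime.ne_zero
    (hVal P E N q n w hS hn V' V W' W hL hO) (hSh P E N q n w hS hn V' V W' W hL hO)
    (hQep P E N q n w hS hn V' V W' W hL hO) (hCh P E N q n w hS hn V' V W' W hL hO)
    (hGood P E N q n w hS hn V' V W' W hL hO)

end Concrete250

end Fermat.Agent.S45.ModE.H250

end

end
-- ===== PACK-END S45/ModE/H250/UniqE.lean

-- ===== PACK-BEGIN S45/ModE/H163/MuArith.lean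
section


/-!
# S45 / CAR3 / MOD-E (helper163): index arithmetic of the multiplicities `mu q e i`

`ModE.mu q e i = φ(q ^ min i (e - i))` (multiplicity of the component `i` of a level of exponent
`e`).  Mathlib-only facts used by VAL-E (`ram`), by the three step types and by the REG units
`T ^ mu / w`:

* ends: `mu q e 0 = 1`, `mu q e e = 1`;  symmetry `mu q e (e - i) = mu q e i`;
* first non-reduced component: `mu q e 1 = q - 1` (`2 ≤ e`);
* along `α` (lower exponent `n`, upper `n + 1`, `V i` over `V' (i - 1)`, `2 ≤ i`):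
  WILD `2 i ≤ n + 1`: `mu q (n + 1) i = q * mu q n (i - 1)`;
  INSEP `n + 1 < 2 i`: `mu q (n + 1) i = mu q n (i - 1)`;
* along `β` (`V i` over `V' i`, `i + 2 ≤ n + 1`):
  WILD `n + 1 ≤ 2 i`: `mu q (n + 1) i = q * mu q n i`;
  INSEP `2 i < n + 1`: `mu q (n + 1) i = mu q n i`;
* closed forms and positivity.
-/

set_option autoImplicit false

namespace Fermat.Agent.S45.ModE.H163

open Fermat.Agent.S45.ModE

theorem mu_zero163 (q e : ℕ) : mu q e 0 = 1 := by
  simp [mu]

theorem mu_self163 (q e : ℕ) : mu q e e = 1 := by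
  simp [mu]

theorem mu_symm163 (q e i : ℕ) (hi : i ≤ e) : mu q e (e - i) = mu q e i := by
  unfold mu
  have h : min (e - i) (e - (e - i)) = min i (e - i) := by
    rw [Nat.sub_sub_self hi, min_comm]
  rw [h]

theorem mu_pos163 {q : ℕ} (hq : q.Prime) (e i : ℕ) : 0 < mu q e i := by
  unfold mu
  exact Nat.totient_pos.2 (pow_pos hq.pos _)

/-- Closed form on the `∞` side: `mu q e i = q ^ (i - 1) * (q - 1)` for `1 ≤ i`, `2 i ≤ e`. -/
theorem mu_eq_lo163 {q : ℕ} (hq : q.Prime) {e i : ℕ} (hi : 1 ≤ i) (h2 : 2 * i ≤ e) :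
    mu q e i = q ^ (i - 1) * (q - 1) := by
  unfold mu
  have h : min i (e - i) = i := by omega
  rw [h, Nat.totient_prime_pow hq (by omega)]

/-- Closed form on the `0` side: `mu q e i = q ^ (e - i - 1) * (q - 1)` for `i < e`, `e ≤ 2 i`. -/
theorem mu_eq_hi163 {q : ℕ} (hq : q.Prime) {e i : ℕ} (hi : i < e) (h2 : e ≤ 2 * i) :
    mu q e i = q ^ (e - i - 1) * (q - 1) := by
  unfold mu
  have h : min i (e - i) = e - i := by omega
  rw [h, Nat.totient_prime_pow hq (by omega)]

theorem mu_one163 {q : ℕ} (hq : q.Prime) {e : ℕ} (he : 2 ≤ e) : mu q e 1 = q - 1 := by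
  rw [mu_eq_lo163 hq le_rfl (by omega)]
  simp

theorem mu_pred163 {q : ℕ} (hq : q.Prime) {e : ℕ} (he : 2 ≤ e) : mu q e (e - 1) = q - 1 := by
  rw [mu_symm163 q e 1 (by omega), mu_one163 hq he]

/-- WILD step along `α`: `V i` over `V' (i - 1)`, `2 ≤ i`, `2 i ≤ n + 1`. -/
theorem mu_wild_α163 {q : ℕ} (hq : q.Prime) {n i : ℕ} (hi : 2 ≤ i) (h2 : 2 * i ≤ n + 1) :
    mu q (n + 1) i = q * mu q n (i - 1) := by
  rw [mu_eq_lo163 hq (by omega) h2, mu_eq_lo163 hq (by omega : 1 ≤ i - 1) (by omega)]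
  have h : i - 1 = (i - 1 - 1) + 1 := by omega
  conv_lhs => rw [h, pow_succ]
  ring

/-- INSEP step along `α`: `V i` over `V' (i - 1)`, `2 ≤ i ≤ n + 1`, `n + 1 < 2 i`. -/
theorem mu_insep_α163 (q : ℕ) {n i : ℕ} (hi : 2 ≤ i) (hin : i ≤ n + 1) (h2 : n + 1 < 2 * i) :
    mu q (n + 1) i = mu q n (i - 1) := by
  unfold mu
  have h1 : min i (n + 1 - i) = n + 1 - i := by omega
  have h3 : min (i - 1) (n - (i - 1)) = n + 1 - i := by omega
  rw [h1, h3]

/-- SPLIT end along `α`: `V 1` over `V' 0`: `mu q (n + 1) 1 = (q - 1) * mu q n 0`. -/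
theorem mu_split_α163 {q : ℕ} (hq : q.Prime) {n : ℕ} (hn : 1 ≤ n) :
    mu q (n + 1) 1 = (q - 1) * mu q n 0 := by
  rw [mu_one163 hq (by omega), mu_zero163, mul_one]

/-- WILD step along `β`: `V i` over `V' i`, `i + 2 ≤ n + 1`, `n + 1 ≤ 2 i`. -/
theorem mu_wild_β163 {q : ℕ} (hq : q.Prime) {n i : ℕ} (hi : i + 2 ≤ n + 1) (h2 : n + 1 ≤ 2 * i) :
    mu q (n + 1) i = q * mu q n i := by
  rw [mu_eq_hi163 hq (by omega) h2, mu_eq_hi163 hq (by omega : i < n) (by omega)]
  have h : n + 1 - i - 1 = (n - i - 1) + 1 := by omega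
  conv_lhs => rw [h, pow_succ]
  ring

/-- INSEP step along `β`: `V i` over `V' i`, `2 i < n + 1`. -/
theorem mu_insep_β163 (q : ℕ) {n i : ℕ} (h2 : 2 * i < n + 1) :
    mu q (n + 1) i = mu q n i := by
  unfold mu
  have h1 : min i (n + 1 - i) = i := by omega
  have h3 : min i (n - i) = i := by omega
  rw [h1, h3]

/-- SPLIT end along `β`: `V n` over `V' n`: `mu q (n + 1) n = (q - 1) * mu q n n`. -/
theorem mu_split_β163 {q : ℕ} (hq : q.Prime) {n : ℕ} (hn : 1 ≤ n) :
    mu q (n + 1) n = (q - 1) * mu q n n := by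
  have h := mu_pred163 hq (e := n + 1) (by omega)
  rw [Nat.add_sub_cancel] at h
  rw [h, mu_self163, mul_one]

/-- The ramification index of `V i` over `V' (i - 1)` along `α`, uniform statement:
`mu q (n + 1) i * fα = q * mu q n (i - 1)` with `fα = 1` (WILD) or `q` (INSEP). -/
theorem mu_mul_fα163 {q : ℕ} (hq : q.Prime) {n i : ℕ} (hi : 2 ≤ i) (hin : i ≤ n + 1) :
    mu q (n + 1) i * (if 2 * i ≤ n + 1 then 1 else q) = q * mu q n (i - 1) := by
  split_ifs with h
  · rw [mul_one, mu_wild_α163 hq hi h]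
  · rw [mu_insep_α163 q hi hin (by omega), mul_comm]

/-- The same along `β`: `mu q (n + 1) i * fβ = q * mu q n i`, `fβ = 1` (WILD) or `q` (INSEP). -/
theorem mu_mul_fβ163 {q : ℕ} (hq : q.Prime) {n i : ℕ} (hi : i + 2 ≤ n + 1) :
    mu q (n + 1) i * (if n + 1 ≤ 2 * i then 1 else q) = q * mu q n i := by
  split_ifs with h
  · rw [mul_one, mu_wild_β163 hq hi h]
  · rw [mu_insep_β163 q (by omega), mul_comm]

end Fermat.Agent.S45.ModE.H163

end
-- ===== PACK-END S45/ModE/H163/MuArith.lean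

-- ===== PACK-BEGIN S45/ModE/H562/Adapter.lean
section





/-!
# S45 / CAR3 / MOD-E — the adapter `ModE.ModelEStatement → Eng.ModelEStatement` (helper562)

`Fermat.Agent.S45.Eng.ModelEStatement` (frozen `CtxE` of `S45/Eng/Spec.lean` v0, helper48) from
`Fermat.Agent.S45.ModE.ModelEStatement` (`LevelCtx` below and above, `StepCtx`; helper928,
`ModE/Spec.lean` v0.2: `regular_m` existential, `regular_s`, `regular_i` on the non-reduced
components).

Every field of `CtxE` is a field of `LevelCtx` (lower / upper) or of `StepCtx`, except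

* `regular_f`   : from `inc.incidence`, `reg.regular_m`, `reg.regular_s`;
* `nr_α`, `nr_β`: from `good` (`GoodAlong`) on units;
* `nv_α`, `nv_β`: from `good`, the tables and the multiplicities (`val.ram` below and above).

The assembly (`constructor <;> first | exact …`) does not depend on the list or the order of the
fields of `CtxE`: THE SAME BYTES compile against `Eng/Spec.lean` v0 (sha256 4b43abdc…), v1-rc
(sha256 9ae48d6a…, with `good_α`, `good_β`) and against any TRIMMED `CtxE` (same field shapes).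
-/

set_option autoImplicit false
set_option linter.style.haveILetI false
set_option linter.unusedSectionVars false
set_option linter.unusedVariables false
set_option synthInstance.maxHeartbeats 400000
set_option maxHeartbeats 1600000

noncomputable section

namespace Fermat.Agent.S45.ModE.H562

open ModularCurve AlgebraicCurve
open Fermat.Agent.S18.H138 (chart)
open Fermat.Agent.S36 Fermat.Agent.S36.Eng

/-! ## Index arithmetic -/

theorem mult_eq_mu562 (q e i : ℕ) : S45.Eng.mult q e i = ModE.mu q e i := rfl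

theorem mu_pos562 {q : ℕ} (hq : q.Prime) (e i : ℕ) : 0 < ModE.mu q e i := by
  unfold ModE.mu
  exact Nat.totient_pos.2 (pow_pos hq.pos _)

/-- `φ(q ^ (k + 1)) = q · φ(q ^ k)` for `1 ≤ k`. -/
theorem totient_pow_succ562 {q : ℕ} (hq : q.Prime) {k : ℕ} (hk : 1 ≤ k) :
    Nat.totient (q ^ (k + 1)) = q * Nat.totient (q ^ k) := by
  obtain ⟨j, rfl⟩ : ∃ j, k = j + 1 := ⟨k - 1, by omega⟩
  rw [Nat.totient_prime_pow_succ hq, Nat.totient_prime_pow_succ hq]
  ring

/-- WILD along `α`: `2 ≤ i`, `2 i ≤ e`: `μ(e, i) = q · μ(e - 1, i - 1)`. -/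
theorem mu_wild_α562 {q : ℕ} (hq : q.Prime) {e i : ℕ} (hi : 2 ≤ i) (h : 2 * i ≤ e) :
    ModE.mu q e i = q * ModE.mu q (e - 1) (i - 1) := by
  unfold ModE.mu
  have h1 : min i (e - i) = (i - 1) + 1 := by omega
  have h2 : min (i - 1) (e - 1 - (i - 1)) = i - 1 := by omega
  rw [h1, h2]
  exact totient_pow_succ562 hq (by omega)

/-- INSEP along `α`: `2 ≤ i ≤ e`, `e < 2 i`: `μ(e, i) = μ(e - 1, i - 1)`. -/
theorem mu_insep_α562 (q : ℕ) {e i : ℕ} (hi : 2 ≤ i) (hie : i ≤ e) (h : e < 2 * i) :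
    ModE.mu q e i = ModE.mu q (e - 1) (i - 1) := by
  unfold ModE.mu
  have h1 : min i (e - i) = e - i := by omega
  have h2 : min (i - 1) (e - 1 - (i - 1)) = e - i := by omega
  rw [h1, h2]

/-- WILD along `β`: `i + 2 ≤ e`, `e ≤ 2 i`: `μ(e, i) = q · μ(e - 1, i)`. -/
theorem mu_wild_β562 {q : ℕ} (hq : q.Prime) {e i : ℕ} (hi : i + 2 ≤ e) (h : e ≤ 2 * i) :
    ModE.mu q e i = q * ModE.mu q (e - 1) i := by
  unfold ModE.mu
  have h1 : min i (e - i) = (e - i - 1) + 1 := by omega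
  have h2 : min i (e - 1 - i) = e - i - 1 := by omega
  rw [h1, h2]
  exact totient_pow_succ562 hq (by omega)

/-- INSEP along `β`: `i + 2 ≤ e`, `2 i < e`: `μ(e, i) = μ(e - 1, i)`. -/
theorem mu_insep_β562 (q : ℕ) {e i : ℕ} (hi : i + 2 ≤ e) (h : 2 * i < e) :
    ModE.mu q e i = ModE.mu q (e - 1) i := by
  unfold ModE.mu
  have h1 : min i (e - i) = i := by omega
  have h2 : min i (e - 1 - i) = i := by omega
  rw [h1, h2]

/-! ## Generic valuation lemmas -/

section Generic

variable {F F' : Type*} [Field F] [Field F']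

/-- Units correspond along a lying-over. -/
theorem unitAt_comap562 (φ : F' →+* F) {V : ValuationSubring F} {V' : ValuationSubring F'}
    (hc : V.comap φ = V') (z : F') : UnitAt V' z ↔ UnitAt V (φ z) := by
  subst hc
  unfold UnitAt
  rw [ValuationSubring.mem_comap, ValuationSubring.mem_comap, map_inv₀]
  constructor
  · rintro ⟨h0, h1, h2⟩
    exact ⟨(map_ne_zero φ).2 h0, h1, h2⟩
  · rintro ⟨h0, h1, h2⟩
    exact ⟨(map_ne_zero φ).1 h0, h1, h2⟩

/-- `z - 1 ∈ 𝔪_V` forces `v z = 1`. -/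
theorem val_eq_one_of_sub_one562 (V : ValuationSubring F) {z : F}
    (h : z - 1 ∈ V.nonunits) : V.valuation z = 1 := by
  rw [ValuationSubring.mem_nonunits_iff] at h
  have : z = 1 + (z - 1) := by ring
  rw [this]
  exact Valuation.map_one_add_of_lt _ h

/-- GOOD ⟹ the value of the norm: `v (φ (N y)) = (v y) ^ q`, and `φ (N y) ≠ 0`. -/
theorem val_norm_of_good562 (φ : F' →+* F) (Nm : F → F') (V : ValuationSubring F) (q : ℕ)
    {y : F} (hg : y ^ q * (φ (Nm y))⁻¹ - 1 ∈ V.nonunits) :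
    φ (Nm y) ≠ 0 ∧ V.valuation (φ (Nm y)) = V.valuation y ^ q := by
  have h1 := val_eq_one_of_sub_one562 V hg
  have hne : φ (Nm y) ≠ 0 := by
    intro h0
    rw [h0, inv_zero, mul_zero, map_zero] at h1
    exact zero_ne_one h1
  refine ⟨hne, ?_⟩
  have hv : V.valuation (φ (Nm y)) ≠ 0 := by rw [Ne, Valuation.zero_iff]; exact hne
  rw [map_mul, map_inv₀, map_pow] at h1
  calc V.valuation (φ (Nm y))
      = V.valuation y ^ q * (V.valuation (φ (Nm y)))⁻¹ * V.valuation (φ (Nm y)) := by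
        rw [h1, one_mul]
    _ = V.valuation y ^ q := by rw [inv_mul_cancel_right₀ hv]

/-- **NR from GOOD**: `φ (N y) ≡ y ^ q` at `V` for the units `y` of `V`. -/
theorem nr_of_good562 (φ : F' →+* F) (Nm : F → F') (V : ValuationSubring F) (q : ℕ)
    (hgood : ∀ y : F, y ≠ 0 → y ^ q * (φ (Nm y))⁻¹ - 1 ∈ V.nonunits)
    (y : F) (hy : UnitAt V y) : φ (Nm y) - y ^ q ∈ V.nonunits := by
  have hg := hgood y hy.1
  obtain ⟨hne, hval⟩ := val_norm_of_good562 φ Nm V q hg
  have hy1 : V.valuation y = 1 := Fermat.Agent.S36.H253.val_eq_one_of_unitAt V hy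
  rw [hy1, one_pow] at hval
  have key : φ (Nm y) - y ^ q = - (φ (Nm y) * (y ^ q * (φ (Nm y))⁻¹ - 1)) := by
    field_simp
    ring
  rw [key, ValuationSubring.mem_nonunits_iff, Valuation.map_neg, map_mul, hval, one_mul]
  exact (ValuationSubring.mem_nonunits_iff V).1 hg

/-- **NV from GOOD**, ONE extension `V | V'` with ramification index `c` and `c f = q`
(`c = q`, `f = 1`: WILD; `c = 1`, `f = q`: INSEP); multiplicities `m = c m'`. -/
theorem nv_of_good562 (φ : F' →+* F) (Nm : F → F') (V : ValuationSubring F)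
    (V' : ValuationSubring F') (hV : IsDiscreteValuationRing V) (hc : V.comap φ = V')
    (q c f m m' : ℕ) (hcf : c * f = q) (hm' : 0 < m') (hmm : m = c * m')
    (ω : F) (ω' : F') (hω : φ ω' = ω)
    (hram : ∃ t₀ : F, UnifAt V t₀ ∧ UnitAt V (ω * (t₀ ^ m)⁻¹))
    (hram' : ∃ t₀' : F', UnifAt V' t₀' ∧ UnitAt V' (ω' * (t₀' ^ m')⁻¹))
    (hgood : ∀ y : F, y ≠ 0 → y ^ q * (φ (Nm y))⁻¹ - 1 ∈ V.nonunits) :
    ∀ (t : F) (t' : F'), UnifAt V t → UnifAt V' t' → ∀ (y : F) (a : ℤ), y ≠ 0 →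
      UnitAt V (y * (t ^ a)⁻¹) → UnitAt V' (Nm y * (t' ^ ((f : ℤ) * a))⁻¹) := by
  intro t t' ht ht' y a hy hya
  have ht0 : t ≠ 0 := ht.1
  have htlt : V.valuation t < 1 := (ValuationSubring.mem_nonunits_iff V).1 ht.2.1
  have ht'0 : t' ≠ 0 := ht'.1
  have hφt'0 : φ t' ≠ 0 := (map_ne_zero φ).2 ht'0
  -- the value of `y`
  have e1 : V.valuation y = V.valuation t ^ a :=
    Fermat.Agent.S36.H253.val_eq_zpow_of_unitAt V ht0 a hya
  -- the value of the norm
  obtain ⟨hne, hval⟩ := val_norm_of_good562 φ Nm V q (hgood y hy)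
  -- the value of `ω` above
  obtain ⟨t₀, ht₀, hu₀⟩ := hram
  have hvt₀ : V.valuation t₀ = V.valuation t := Fermat.Agent.S36.H253.val_eq_of_unifAt V ht₀ ht
  have e2 : V.valuation ω = V.valuation t ^ (m : ℤ) := by
    have := Fermat.Agent.S36.H253.val_eq_zpow_of_unitAt V ht₀.1 (m : ℤ)
      (by rw [zpow_natCast]; exact hu₀)
    rw [this, hvt₀]
  -- the value of `ω'` below, transported
  obtain ⟨t₀', ht₀', hu₀'⟩ := hram'
  have hvt₀' : V'.valuation t₀' = V'.valuation t' :=
    Fermat.Agent.S36.H253.val_eq_of_unifAt V' ht₀' ht'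
  have e3' : V'.valuation ω' = V'.valuation t' ^ (m' : ℤ) := by
    have := Fermat.Agent.S36.H253.val_eq_zpow_of_unitAt V' ht₀'.1 (m' : ℤ)
      (by rw [zpow_natCast]; exact hu₀')
    rw [this, hvt₀']
  have hu' : UnitAt V' (ω' * (t' ^ (m' : ℤ))⁻¹) :=
    Fermat.Agent.S36.H253.unitAt_of_val_eq_zpow V' ht'0 (m' : ℤ) e3'
  have hu : UnitAt V (φ (ω' * (t' ^ (m' : ℤ))⁻¹)) := (unitAt_comap562 φ hc _).1 hu'
  rw [map_mul, map_inv₀, map_zpow₀, hω] at hu
  have e3 : V.valuation ω = V.valuation (φ t') ^ (m' : ℤ) :=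
    Fermat.Agent.S36.H253.val_eq_zpow_of_unitAt V hφt'0 (m' : ℤ) hu
  -- the ramification index
  obtain ⟨k, hk⟩ := Fermat.Agent.S36.H253.hdvr_of_dvr V hV ht (φ t') hφt'0
  have hkc : k = (c : ℤ) := by
    have h4 : V.valuation t ^ (k * (m' : ℤ)) = V.valuation t ^ (m : ℤ) := by
      rw [zpow_mul, ← hk, ← e3, e2]
    have h5 := Fermat.Agent.S36.H253.zpow_inj_of_val V ht0 htlt h4
    have hm'0 : (m' : ℤ) ≠ 0 := by exact_mod_cast hm'.ne'
    have h6 : k * (m' : ℤ) = (c : ℤ) * (m' : ℤ) := by rw [h5, hmm]; push_cast; ring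
    exact mul_right_cancel₀ hm'0 h6
  -- conclusion
  rw [unitAt_comap562 φ hc, map_mul, map_inv₀, map_zpow₀]
  apply Fermat.Agent.S36.H253.unitAt_of_val_eq_zpow V hφt'0
  rw [hval, e1, hk, hkc, ← zpow_natCast, ← zpow_mul, ← zpow_mul]
  congr 1
  have : (q : ℤ) = (c : ℤ) * (f : ℤ) := by rw [← hcf]; push_cast; ring
  rw [this]
  ring

end Generic


/-! ## The context `CtxE` from the parts of `ModE/Spec.lean` -/

section Core

variable {R E F F' : Type*} [CommRing R] [Field E] [Algebra R E]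
  [Field F] [Algebra E F] [Algebra R F] [Field F'] [Algebra E F'] [Algebra R F']

/-- **The abstract adapter**: the parts of `LevelCtx` (below: `val'`, `sheet'`; above: the
rest) and of `StepCtx` give `S45.Eng.CtxE` with `e = n + 1`. -/
theorem ctxE_of_parts562 (w : R) (q n : ℕ) (hq : q.Prime) (hn : 1 ≤ n)
    (α β : F' →ₐ[E] F) (x : F) (x' : F')
    (V : ℕ → ValuationSubring F) (V' : ℕ → ValuationSubring F')
    (hαw : α (algebraMap R F' w) = algebraMap R F w)
    (hβw : β (algebraMap R F' w) = algebraMap R F w)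
    (ff : Mod3.PartFF E x)
    (val : ModE.PartValE w q (n + 1) x V) (val' : ModE.PartValE w q n x' V')
    (sheet : ModE.PartSheetE w (n + 1) x V) (sheet' : ModE.PartSheetE w n x' V')
    (qep : ModE.PartQepE w (n + 1) x V) (normal : ModE.PartNormalE R (n + 1) x V)
    (inc : ModE.PartIncE w (n + 1) x V) (reg : ModE.PartRegE R (n + 1) x V)
    (fin : Mod3.PartFin E α β) (table : ModE.PartTableE n α β V V')
    (good : ModE.PartGoodE q n α β V) (nrs : ModE.PartNRSE w q n α β V V')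
    (chartp : ModE.PartChartE R n α β x x' V) (uniq : ModE.PartUniqE R n α β x x' V) :
    S45.Eng.CtxE w q (n + 1) α β x x' V V' := by
  have hsub : n + 1 - 1 = n := by omega
  -- the lying-over table in the shape of `CtxE`
  have hcα : ∀ i ≤ n + 1, (V i).comap (α : F' →+* F) = V' (i - 1) := by
    intro i hi
    rcases Nat.eq_zero_or_pos i with h0 | hpos
    · subst h0
      simpa using table.comap_α₀
    · exact table.comap_α i hpos hi
  have hcβ : ∀ i ≤ n + 1, (V i).comap (β : F' →+* F) = V' (min i (n + 1 - 1)) := by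
    intro i hi
    rw [hsub]
    rcases Nat.lt_or_ge n i with h | h
    · have hi' : i = n + 1 := by omega
      subst hi'
      rw [Nat.min_eq_right (by omega)]
      exact table.comap_βₑ
    · rw [Nat.min_eq_left h]
      exact table.comap_β i h
  -- GOOD in the generic shape
  have hgα : ∀ i, 2 ≤ i → i ≤ n + 1 → ∀ y : F, y ≠ 0 →
      y ^ q * ((α : F' →+* F) (S29.H395.normAlong α y))⁻¹ - 1 ∈ (V i).nonunits :=
    fun i h2 hi y hy => good.good_α i h2 hi y hy
  have hgβ : ∀ i, i + 2 ≤ n + 1 → ∀ y : F, y ≠ 0 →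
      y ^ q * ((β : F' →+* F) (S29.H395.normAlong β y))⁻¹ - 1 ∈ (V i).nonunits :=
    fun i hi y hy => good.good_β i hi y hy
  -- ### the fields, one by one (shapes of `S45.Eng.CtxE`; `n + 1 - 1` reduces to `n`)
  have f_he : 2 ≤ n + 1 := by omega
  have f_inj : ∀ i ≤ n + 1, ∀ j ≤ n + 1, V i = V j → i = j := by
    intro i hi j hj hij
    by_contra hne
    exact val.ne i hi j hj hne hij
  have f_dvr' : ∀ j ≤ n + 1 - 1, IsDiscreteValuationRing (V' j) := by
    intro j hj
    rw [hsub] at hj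
    exact val'.dvr j hj
  have f_base' : ∀ j ≤ n + 1 - 1, ∀ r : R, algebraMap R F' r ∈ V' j := by
    intro j hj
    rw [hsub] at hj
    exact sheet'.base j hj
  have f_ram' : ∀ j ≤ n + 1 - 1, ∃ t : F', UnifAt (V' j) t ∧
      UnitAt (V' j) (algebraMap R F' w * (t ^ S45.Eng.mult q (n + 1 - 1) j)⁻¹) := by
    intro j hj
    rw [hsub] at hj ⊢
    exact val'.ram j hj
  have f_ram : ∀ i ≤ n + 1, ∃ t : F, UnifAt (V i) t ∧
      UnitAt (V i) (algebraMap R F w * (t ^ S45.Eng.mult q (n + 1) i)⁻¹) := val.ram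
  have f_qep_f : S45.Eng.QepE w (n + 1) (chart R ({x} : Set F)) V := fun b hb => qep.qep_f b hb
  have f_qep_i : S45.Eng.QepE w (n + 1) (chart R ({x⁻¹} : Set F)) V :=
    fun b hb => qep.qep_i b hb
  have f_incidence : ∀ 𝔪 : Ideal (chart R ({x} : Set F)), 𝔪.IsMaximal →
      (∃ i ≤ n + 1, ∃ j ≤ n + 1, i ≠ j ∧ Through _ 𝔪 (V i) ∧ Through _ 𝔪 (V j)) →
      S45.Eng.IsMulti (n + 1) _ 𝔪 V := by
    rintro 𝔪 hmax ⟨i, hi, j, hj, hij, hti, htj⟩
    exact fun k hk => inc.incidence 𝔪 hmax i hi j hj hij hti htj k hk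
  have f_regular_f : ∀ 𝔪 : Ideal (chart R ({x} : Set F)), 𝔪.IsMaximal →
      (∃ i, 1 ≤ i ∧ i ≤ n + 1 - 1 ∧ Through _ 𝔪 (V i)) →
      ∃ k ≤ n + 1, Through _ 𝔪 (V k) ∧ PrincipalAt _ 𝔪 (V k) := by
    rintro 𝔪 hmax ⟨i, hi1, hie, hthr⟩
    rw [hsub] at hie
    by_cases hex : ∃ k ≤ n + 1, k ≠ i ∧ Through _ 𝔪 (V k)
    · obtain ⟨k, hk, hki, hthk⟩ := hex
      have hmulti : ModE.IsMulti _ 𝔪 (n + 1) V :=
        inc.incidence 𝔪 hmax i (by omega) k hk (Ne.symm hki) hthr hthk
      obtain ⟨k', hk', hp⟩ := reg.regular_m 𝔪 hmax hmulti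
      exact ⟨k', hk', hmulti k' hk', hp⟩
    · push Not at hex
      exact ⟨i, by omega, hthr,
        reg.regular_s 𝔪 hmax i hi1 (by omega) hthr (fun k hk hki => hex k hk hki)⟩
  have f_cusp_single : ∀ 𝔪 : Ideal (chart R ({x⁻¹} : Set F)), 𝔪.IsMaximal →
      algebraMap R (chart R ({x⁻¹} : Set F)) w ∈ 𝔪 →
      (⟨x⁻¹, Fermat.Agent.S18.H138.mem_chart_of_mem rfl⟩ : chart R ({x⁻¹} : Set F)) ∈ 𝔪 →
      ∀ i ≤ n + 1, ∀ j ≤ n + 1, Through _ 𝔪 (V i) → Through _ 𝔪 (V j) → i = j := by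
    intro 𝔪 hmax hw hx i hi j hj hti htj
    by_contra hij
    exact inc.cusp_single 𝔪 hmax hw hx i hi j hj hij ⟨hti, htj⟩
  have f_regular_i : ∀ 𝔪 : Ideal (chart R ({x⁻¹} : Set F)), 𝔪.IsMaximal →
      (⟨x⁻¹, Fermat.Agent.S18.H138.mem_chart_of_mem rfl⟩ : chart R ({x⁻¹} : Set F)) ∈ 𝔪 →
      ∀ i, 1 ≤ i → i ≤ n + 1 - 1 → Through _ 𝔪 (V i) → PrincipalAt _ 𝔪 (V i) := by
    intro 𝔪 hmax hx i hi1 hie hthr
    rw [hsub] at hie
    exact reg.regular_i 𝔪 hmax hx i hi1 (by omega) hthr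
  have f_nv_α : ∀ i, 2 ≤ i → i ≤ n + 1 → ∀ (t : F) (t' : F'), UnifAt (V i) t →
      UnifAt (V' (i - 1)) t' → ∀ (y : F) (a : ℤ), y ≠ 0 → UnitAt (V i) (y * (t ^ a)⁻¹) →
      UnitAt (V' (i - 1))
        (S29.H395.normAlong α y * (t' ^ ((S45.Eng.fα q (n + 1) i : ℤ) * a))⁻¹) := by
    intro i h2 hi t t' ht ht' y a hy hya
    have hram' := val'.ram (i - 1) (by omega)
    unfold S45.Eng.fα
    by_cases hw2 : 2 * i ≤ n + 1
    · rw [if_pos hw2]
      exact nv_of_good562 (α : F' →+* F) (S29.H395.normAlong α) (V i) (V' (i - 1))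
        (val.dvr i hi) (hcα i hi) q q 1 (ModE.mu q (n + 1) i) (ModE.mu q n (i - 1))
        (by ring) (mu_pos562 hq _ _)
        (by have := mu_wild_α562 hq h2 hw2; rwa [hsub] at this)
        _ _ hαw (val.ram i hi) hram' (hgα i h2 hi) t t' ht ht' y a hy hya
    · rw [if_neg hw2]
      exact nv_of_good562 (α : F' →+* F) (S29.H395.normAlong α) (V i) (V' (i - 1))
        (val.dvr i hi) (hcα i hi) q 1 q (ModE.mu q (n + 1) i) (ModE.mu q n (i - 1))
        (by ring) (mu_pos562 hq _ _)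
        (by have := mu_insep_α562 q h2 hi (by omega : n + 1 < 2 * i); rw [hsub] at this
            rw [this, one_mul])
        _ _ hαw (val.ram i hi) hram' (hgα i h2 hi) t t' ht ht' y a hy hya
  have f_nv_β₀ : ∀ (t : F), UnifAt (V (n + 1 - 1)) t → ∀ (y : F) (a₀ a₁ : ℤ), y ≠ 0 →
      UnitAt (V (n + 1)) (y * (algebraMap R F w ^ a₀)⁻¹) →
      UnitAt (V (n + 1 - 1)) (y * (t ^ a₁)⁻¹) →
      UnitAt (V' (n + 1 - 1))
        (S29.H395.normAlong β y * (algebraMap R F' w ^ (a₀ + a₁))⁻¹) := by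
    intro t ht y a₀ a₁ hy h0 h1
    rw [hsub] at ht h1 ⊢
    exact nrs.nv_β t ht y a₀ a₁ hy h0 h1
  have f_nv_β : ∀ i, i + 2 ≤ n + 1 → ∀ (t : F) (t' : F'), UnifAt (V i) t →
      UnifAt (V' i) t' → ∀ (y : F) (a : ℤ), y ≠ 0 → UnitAt (V i) (y * (t ^ a)⁻¹) →
      UnitAt (V' i)
        (S29.H395.normAlong β y * (t' ^ ((S45.Eng.fβ q (n + 1) i : ℤ) * a))⁻¹) := by
    intro i hi t t' ht ht' y a hy hya
    have hram' := val'.ram i (by omega)
    have hc := hcβ i (by omega)
    rw [hsub, Nat.min_eq_left (by omega)] at hc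
    unfold S45.Eng.fβ
    by_cases hw2 : n + 1 ≤ 2 * i
    · rw [if_pos hw2]
      exact nv_of_good562 (β : F' →+* F) (S29.H395.normAlong β) (V i) (V' i)
        (val.dvr i (by omega)) hc q q 1 (ModE.mu q (n + 1) i) (ModE.mu q n i)
        (by ring) (mu_pos562 hq _ _)
        (by have := mu_wild_β562 hq hi hw2; rwa [hsub] at this)
        _ _ hβw (val.ram i (by omega)) hram' (hgβ i hi) t t' ht ht' y a hy hya
    · rw [if_neg hw2]
      exact nv_of_good562 (β : F' →+* F) (S29.H395.normAlong β) (V i) (V' i)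
        (val.dvr i (by omega)) hc q 1 q (ModE.mu q (n + 1) i) (ModE.mu q n i)
        (by ring) (mu_pos562 hq _ _)
        (by have := mu_insep_β562 q hi (by omega : 2 * i < n + 1); rw [hsub] at this
            rw [this, one_mul])
        _ _ hβw (val.ram i (by omega)) hram' (hgβ i hi) t t' ht ht' y a hy hya
  have f_nr_α : ∀ i, 2 ≤ i → i ≤ n + 1 → ∀ y : F, UnitAt (V i) y →
      α (S29.H395.normAlong α y) - y ^ q ∈ (V i).nonunits := by
    intro i h2 hi y hy
    exact nr_of_good562 (α : F' →+* F) (S29.H395.normAlong α) (V i) q (hgα i h2 hi) y hy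
  have f_nr_β₀ : ∀ y : F, UnitAt (V (n + 1)) y → UnitAt (V (n + 1 - 1)) y → ∀ x₀ x₁ : F',
      β x₀ - y ∈ (V (n + 1)).nonunits → β x₁ - y ∈ (V (n + 1 - 1)).nonunits →
      S29.H395.normAlong β y - x₀ * x₁ ^ (q - 1) ∈ (V' (n + 1 - 1)).nonunits := by
    intro y h0 h1 x₀ x₁ hx₀ hx₁
    rw [hsub] at h1 hx₁ ⊢
    exact nrs.nr_β y h0 h1 x₀ x₁ hx₀ hx₁
  have f_nr_β : ∀ i, i + 2 ≤ n + 1 → ∀ y : F, UnitAt (V i) y →
      β (S29.H395.normAlong β y) - y ^ q ∈ (V i).nonunits := by
    intro i hi y hy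
    exact nr_of_good562 (β : F' →+* F) (S29.H395.normAlong β) (V i) q (hgβ i hi) y hy
  have f_good_α : ∀ i, 2 ≤ i → i ≤ n + 1 → ∀ y : F, y ≠ 0 →
      y ^ q * (α (S29.H395.normAlong α y))⁻¹ - 1 ∈ (V i).nonunits := hgα
  have f_good_β : ∀ i, i + 2 ≤ n + 1 → ∀ y : F, y ≠ 0 →
      y ^ q * (β (S29.H395.normAlong β y))⁻¹ - 1 ∈ (V i).nonunits := hgβ
  have f_res_β : ∀ i ≤ n + 1, (n + 1 ≤ i + 1 ∨ n + 1 ≤ 2 * i) →
      ∀ b ∈ chart R ({x} : Set F), ∃ b' ∈ chart R ({x'} : Set F'),
        b - β b' ∈ (V i).nonunits := by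
    intro i hi hcase b hb
    exact chartp.res_β i hi (by omega) b hb
  have f_unique_α : ∀ (hα : ∀ b ∈ chart R ({x'} : Set F'), α b ∈ chart R ({x} : Set F))
      (𝔪 𝔪' : Ideal (chart R ({x} : Set F))), 𝔪.IsMaximal → 𝔪'.IsMaximal →
      S45.Eng.IsMulti (n + 1) _ 𝔪 V →
      (∀ (b' : F') (h : b' ∈ chart R ({x'} : Set F')),
        (⟨α b', hα b' h⟩ : chart R ({x} : Set F)) ∈ 𝔪 →
          (⟨α b', hα b' h⟩ : chart R ({x} : Set F)) ∈ 𝔪') → 𝔪' = 𝔪 :=
    fun hα 𝔪 𝔪' h1 h2 hm hc => uniq.unique_α hα 𝔪 𝔪' h1 h2 (fun i hi => hm i hi) hc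
  have f_unique_β : ∀ (hβ : ∀ b ∈ chart R ({x'} : Set F'), β b ∈ chart R ({x} : Set F))
      (𝔪 𝔪' : Ideal (chart R ({x} : Set F))), 𝔪.IsMaximal → 𝔪'.IsMaximal →
      S45.Eng.IsMulti (n + 1) _ 𝔪 V →
      (∀ (b' : F') (h : b' ∈ chart R ({x'} : Set F')),
        (⟨β b', hβ b' h⟩ : chart R ({x} : Set F)) ∈ 𝔪 →
          (⟨β b', hβ b' h⟩ : chart R ({x} : Set F)) ∈ 𝔪') → 𝔪' = 𝔪 :=
    fun hβ 𝔪 𝔪' h1 h2 hm hc => uniq.unique_β hβ 𝔪 𝔪' h1 h2 (fun i hi => hm i hi) hc
  -- ### assembly, insensitive to the list and the order of the fields of `CtxE`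
  -- (works verbatim for `Eng/Spec.lean` v0, v1-rc (`good_α`, `good_β`) and any TRIMMED version)
  constructor <;>
  first
  | exact f_he | exact ff.hx | exact ff.hfin | exact ff.hconst
  | exact val.dvr | exact f_inj | exact f_ram
  | exact f_dvr' | exact f_base' | exact f_ram'
  | exact sheet.base | exact val.x_unit | exact sheet.gauss
  | exact f_qep_f | exact f_qep_i | exact normal.normal_f | exact normal.normal_i
  | exact f_incidence | exact f_regular_f | exact f_cusp_single | exact f_regular_i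
  | exact fin.fin_α | exact fin.fin_β | exact hcα | exact hcβ
  | exact nrs.nv_α | exact f_nv_α | exact f_nv_β₀ | exact f_nv_β
  | exact f_good_α | exact f_good_β
  | exact nrs.nr_α | exact f_nr_α | exact f_nr_β₀ | exact f_nr_β
  | exact chartp.chart_α | exact chartp.chart_β | exact chartp.int_α | exact chartp.int_β
  | exact chartp.res_α | exact f_res_β
  | exact f_unique_α chartp.chart_α | exact f_unique_β chartp.chart_β

end Core


/-! ## The adapter -/

section Top

/-- `NeatFor M q` gives `Neat (M q) q`. -/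
theorem neat_of_neatFor562 {M q : ℕ} (h : NeatFor M q) : ModE.Neat (M * q) q := by
  obtain ⟨⟨r, hr, hr12, hrq, hrM⟩, h4, h9⟩ := h
  exact ⟨⟨r, hr, hr12, hrq, Dvd.dvd.mul_right hrM q⟩,
    fun h2 => Dvd.dvd.mul_right (h4 h2) q, fun h2 => Dvd.dvd.mul_right (h9 h2) q⟩

/-- **The adapter**: `S45.Eng.ModelEStatement` (frozen `CtxE`, helper48) from
`ModE.ModelEStatement` (helper928), with `N = M q`, `n = v_q(M) + 1`, `e = n + 1`. -/
theorem engModelE_of_modelE562 (h : ModE.ModelEStatement) : S45.Eng.ModelEStatement := by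
  intro P E M q _ _ _ hq hqM hP hun hneat w hw
  have hM0 : M ≠ 0 := NeZero.ne M
  have hexp : (M * q).factorization q = M.factorization q + 1 := by
    rw [Nat.factorization_mul hM0 hq.ne_zero, Finsupp.add_apply, hq.factorization_self]
  have hpos : 1 ≤ M.factorization q := hq.factorization_pos_of_dvd hM0 hqM
  have hstd : ModE.StdE P E (M * q) q (M.factorization q + 1) w :=
    ⟨hq, hexp, hP, hun, neat_of_neatFor562 hneat, hw⟩
  obtain ⟨V', V, W', W, hlow, hobj, hup, hstep⟩ :=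
    h P E (M * q) q (M.factorization q + 1) w hstd (by omega)
  refine ⟨ModE.xLev E (M * q * q) q (M.factorization q + 1 + 1),
    ModE.xLev E (M * q) q (M.factorization q + 1), V, V', ?_⟩
  exact ctxE_of_parts562 (R := A2.RE P E) (E := E) w q (M.factorization q + 1) hq (by omega)
    (A2.Mod.αE E (M * q) q) (A2.Mod.βE E (M * q) q) _ _ V V'
    (Fermat.Agent.S36.H253.along_algebraMap _ w) (Fermat.Agent.S36.H253.along_algebraMap _ w)
    hup.ff hup.val hlow.val hup.sheet hlow.sheet hup.qep hup.normal hup.inc hup.reg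
    hstep.fin hstep.table hstep.good hstep.nrs hstep.chart hstep.uniq

end Top

end Fermat.Agent.S45.ModE.H562

end

end
-- ===== PACK-END S45/ModE/H562/Adapter.lean

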