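import Fermat.Agent.Pack.S44C.G0E23L1
import Fermat.Agent.Pack.S44C.G0E19L0
import Fermat.Agent.Pack.S44C.G0E6L2
import Fermat.Agent.Pack.S43MC.G0E21L0
import Fermat.Agent.Pack.S59C.E16L0

set_option linter.all false

-- ===== PACK-BEGIN S45/H128/Model.lean
section
/-
S45 top glue, part 4 (helper128): change of the integral model in characteristic `0`.

`apOfModel_eq_of_models` : two integral models `W₀`, `W` of the same elliptic curve `E / ℚ` have the
same `a_ℓ` at every prime `ℓ` of good reduction of both.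

Proof: a Frobenius `σ` at `ℓ` satisfies `σ² − a_ℓ(W₀) σ + ℓ = 0` and `σ² − a_ℓ(W) σ + ℓ = 0` on `E[n]`
for every `n` prime to `ℓ` (`Lib.Frob.Small.frobRelationAll`, transported to `E` by
`Ribet.H52.relation_of_model_h52`), hence `a_ℓ(W₀) − a_ℓ(W)` kills `E[n] ≠ 0` for every prime
`n ≠ ℓ`, hence is divisible by all of them.
-/




set_option autoImplicit false

open WeierstrassCurve WeierstrassCurve.Affine WeierstrassCurve.Affine.Point

namespace Fermat.Agent.S45.H128

open Fermat.Agent.Lib.Frob (Qb Pts)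

/-- Two integral models of an elliptic curve over `ℚ` have the same `a_ℓ` at every prime of
good reduction of both. -/
theorem apOfModel_eq_of_models (E : WeierstrassCurve ℚ) [E.IsElliptic]
    (W₀ W : WeierstrassCurve ℤ) (h₀ : W₀.IsIntegralModelOf E) (h : W.IsIntegralModelOf E)
    (ℓ : ℕ) (hℓ : ℓ.Prime) (hg₀ : W₀.IsGoodPrimeFor ℓ) (hg : W.IsGoodPrimeFor ℓ) :
    W₀.apOfModel ℓ = W.apOfModel ℓ := by
  by_contra hne
  obtain ⟨A, σ, hA, hσ⟩ := Fermat.Agent.S54.exists_frobenius ℓ hℓ
  set d : ℤ := W₀.apOfModel ℓ - W.apOfModel ℓ with hd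
  have hd0 : d ≠ 0 := sub_ne_zero.mpr hne
  -- a prime `n` larger than `|d|` and `ℓ`
  obtain ⟨n, hnge, hn⟩ := Nat.exists_infinite_primes (max d.natAbs ℓ + 1)
  have hnd : d.natAbs < n := by
    have := le_max_left d.natAbs ℓ
    omega
  have hnℓ : ℓ < n := by
    have := le_max_right d.natAbs ℓ
    omega
  have hℓn : ¬ ℓ ∣ n := fun hdiv => by
    have := (Nat.prime_dvd_prime_iff_eq hℓ hn).mp hdiv
    omega
  have : Fact n.Prime := ⟨hn⟩
  -- a nonzero `n`-torsion point
  have hnt : Nontrivial (Submodule.torsionBy ℤ (E⁄Qb).Point n) := by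
    apply Module.nontrivial_of_finrank_pos (R := ZMod n)
    rw [Fermat.Agent.Ribet.H52.finrank_torsion_h52 E n]; norm_num
  obtain ⟨x, hx⟩ := exists_ne (0 : Submodule.torsionBy ℤ (E⁄Qb).Point n)
  have hxn : n • (x : (E⁄Qb).Point) = 0 := by
    have := x.2
    rw [Submodule.mem_torsionBy_iff] at this
    rw [← this]
    exact (natCast_zsmul (x : (E⁄Qb).Point) n).symm
  set Q : (E⁄Qb).Point := σ⁻¹ • (x : (E⁄Qb).Point) with hQ
  have hσQ : σ • Q = (x : (E⁄Qb).Point) := by
    rw [hQ, smul_inv_smul]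
  have hQn : n • Q = 0 := by
    rw [hQ, smul_comm n σ⁻¹ (x : (E⁄Qb).Point), hxn, smul_zero]
  have r₀ := Fermat.Agent.Ribet.H52.relation_of_model_h52 E W₀ h₀ σ (W₀.apOfModel ℓ) (ℓ : ℤ) n
    (fun P hP => Fermat.Agent.Lib.Frob.Small.frobRelationAll W₀ ℓ hℓ hg₀ A σ hA hσ n hn.pos hℓn P hP)
    Q hQn
  have r := Fermat.Agent.Ribet.H52.relation_of_model_h52 E W h σ (W.apOfModel ℓ) (ℓ : ℤ) n
    (fun P hP => Fermat.Agent.Lib.Frob.Small.frobRelationAll W ℓ hℓ hg A σ hA hσ n hn.pos hℓn P hP)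
    Q hQn
  -- `d • x = 0`
  have hdx : d • (x : (E⁄Qb).Point) = 0 := by
    rw [← hσQ, hd, sub_smul]
    have e' : σ • σ • Q - W₀.apOfModel ℓ • σ • Q + (ℓ : ℤ) • Q
        = σ • σ • Q - W.apOfModel ℓ • σ • Q + (ℓ : ℤ) • Q := by rw [r₀, r]
    have e'' := add_right_cancel e'
    have e3 := sub_right_injective e''
    rw [e3, sub_self]
  -- Bezout
  have hcop : IsCoprime d (n : ℤ) := by
    rw [Int.isCoprime_iff_gcd_eq_one]
    have hg1 : Int.gcd d n = Nat.gcd d.natAbs n := by
      simp [Int.gcd]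
    rw [hg1]
    rcases (Nat.coprime_or_dvd_of_prime hn d.natAbs) with hc | hdv
    · exact Nat.Coprime.symm hc
    · exfalso
      have := Nat.le_of_dvd (Int.natAbs_pos.mpr hd0) hdv
      omega
  obtain ⟨u, v, huv⟩ := hcop
  have hx0 : (x : (E⁄Qb).Point) = 0 := by
    have h1 : (1 : ℤ) • (x : (E⁄Qb).Point) = 0 := by
      rw [← huv, add_zsmul, mul_zsmul, mul_zsmul, hdx, natCast_zsmul, hxn, zsmul_zero,
        zsmul_zero, add_zero]
    simpa using h1
  exact hx (Subtype.ext hx0)

end Fermat.Agent.S45.H128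

end
-- ===== PACK-END S45/H128/Model.lean

-- ===== PACK-BEGIN S45/H630/SideE.lean
section


/-!
# S45 / CAR3, block ALG-E/Pure (helper630), part 1: the label equation along one degeneracy map,
for two ARBITRARY sides

Setting of `S36/H630/Side.lean`: `F'` (level below) inside `F` (level above) via
`algebraMap F' F` (`= α` or `β`); charts `A = chart R {x'}`, `B = chart R {x}`; `n` a closed point
of `B`, alone in its fibre over `A`; `N₁ = n ∩ A`.

* `label_eq_of_valAt630`  : abstract form: if `N d` has the values `ν₁`, `ν₂` at `N₁` along two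
  sheets `V₁'`, `V₂'` through `N₁` and `k ≡ ξ₁` on `V₁'`, `k ≡ ξ₂` on `V₂'` (`k ^ m = N u`), then
  `ξ₁ ν₁ ≡ ξ₂ ν₂` modulo `N₁`;
* `valAt_norm_insep_chart630`, `valAt_norm_split_chart630` : the value of `N d` at `N₁` along the
  sheet below, for a one-extension side (wild or purely inseparable: `res (N y) = (res y) ^ q`)
  and for the split side (`res (N y) = res₀ y · (res₁ y) ^ (q - 1)`);
* `label_eq_chart630`     : chart form of the label equation, result modulo the maximal ideal
  of `R`.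
-/

set_option autoImplicit false
set_option linter.unusedSectionVars false
set_option linter.style.haveILetI false
set_option synthInstance.maxHeartbeats 400000
set_option maxHeartbeats 1600000

namespace Fermat.Agent.S45.H630

open Polynomial
open Fermat.Agent.S18.H138 (chart mem_chart)
open Fermat.Agent.S36.H630

section Abstract

variable {R : Type*} [CommRing R] {F' : Type*} [Field F'] [Algebra R F']
variable {F : Type*} [Field F] [Algebra R F] [Algebra F' F] [IsScalarTower R F' F]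

/-- **The label equation, abstract form, two arbitrary sides.** -/
theorem label_eq_of_valAt630 {A : Subalgebra R F'} {B : Subalgebra R F}
    {N₁ : Ideal A} [N₁.IsPrime]
    (hnormA : ∀ b : B, Algebra.norm F' (b : F) ∈ A)
    {m : ℕ} (hrootA : ∀ z : F', z ^ m ∈ A → z ∈ A)
    {V₁' V₂' : ValuationSubring F'}
    (hAV₁' : ChartLe A V₁') (hth₁' : PassThrough A N₁ V₁')
    (hAV₂' : ChartLe A V₂') (hth₂' : PassThrough A N₁ V₂')
    {u d : F} {t : A} (ht : t ∉ N₁) {b' : B}
    (hpure : u * d ^ m * algebraMap F' F (t : F') = b')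
    {k : F'} (hk : Algebra.norm F' u = k ^ m) {ξ₁ ξ₂ : R}
    (hξ₁ : k - algebraMap R F' ξ₁ ∈ V₁'.nonunits) (hξ₂ : k - algebraMap R F' ξ₂ ∈ V₂'.nonunits)
    {ν₁ ν₂ : R}
    (hν₁ : ValAt A N₁ V₁' (Algebra.norm F' d) ν₁)
    (hν₂ : ValAt A N₁ V₂' (Algebra.norm F' d) ν₂) :
    algebraMap R A (ξ₁ * ν₁ - ξ₂ * ν₂) ∈ N₁ := by
  have hN₁top : N₁ ≠ ⊤ := Ideal.IsPrime.ne_top ‹N₁.IsPrime›
  set D : ℕ := Module.finrank F' F with hD
  set δ : F' := k * Algebra.norm F' d with hδ
  -- `δ ^ m t ^ D = N b'`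
  have h1 : δ ^ m * (t : F') ^ D = Algebra.norm F' (b' : F) := by
    rw [← hpure, map_mul, map_mul, map_pow, hk, Algebra.norm_algebraMap, hδ, mul_pow]
  -- `δ t ^ D ∈ A`
  have h2 : (δ * (t : F') ^ D) ^ m ∈ A := by
    rcases Nat.eq_zero_or_pos m with hm0 | hm0
    · rw [hm0, pow_zero]
      exact A.one_mem
    · obtain ⟨j, hj⟩ : ∃ j, m = j + 1 := ⟨m - 1, (Nat.sub_add_cancel hm0).symm⟩
      have h3 : (δ * (t : F') ^ D) ^ m
          = Algebra.norm F' (b' : F) * ((t : F') ^ D) ^ j := by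
        rw [← h1, mul_pow]
        have h33 : ((t : F') ^ D) ^ m = ((t : F') ^ D) ^ j * (t : F') ^ D := by
          rw [hj, pow_succ]
        rw [h33]
        ring
      rw [h3]
      exact A.mul_mem (hnormA b') (A.pow_mem (A.pow_mem t.2 D) j)
  have h4 : δ * (t : F') ^ D ∈ A := hrootA _ h2
  set c' : A := ⟨_, h4⟩ with hc'
  have htD : t ^ D ∉ N₁ := fun h => ht (Ideal.IsPrime.mem_of_pow_mem ‹N₁.IsPrime› D h)
  have hsc : ((t ^ D : A) : F') * δ = c' := by
    show ((t ^ D : A) : F') * δ = δ * (t : F') ^ D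
    push_cast
    ring
  -- the two values of `δ`
  have hv₁ : ValAt A N₁ V₁' δ (ξ₁ * ν₁) := (ValAt.const hN₁top hξ₁).mul hAV₁' hth₁' hν₁
  have hv₂ : ValAt A N₁ V₂' δ (ξ₂ * ν₂) := (ValAt.const hN₁top hξ₂).mul hAV₂' hth₂' hν₂
  have e₁ := hv₁.frac_mem hAV₁' hth₁' hsc
  have e₂ := hv₂.frac_mem hAV₂' hth₂' hsc
  have h5 : algebraMap R A (ξ₁ * ν₁ - ξ₂ * ν₂) * t ^ D ∈ N₁ := by
    have : algebraMap R A (ξ₁ * ν₁ - ξ₂ * ν₂) * t ^ D
        = (c' - algebraMap R A (ξ₂ * ν₂) * t ^ D)
          - (c' - algebraMap R A (ξ₁ * ν₁) * t ^ D) := by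
      rw [map_sub]
      ring
    rw [this]
    exact N₁.sub_mem e₂ e₁
  rcases (Ideal.IsPrime.mem_or_mem ‹N₁.IsPrime› h5) with h6 | h6
  · exact h6
  · exact absurd h6 htD

end Abstract

section Chart

variable {R : Type*} [CommRing R] [IsLocalRing R]
variable {F' : Type*} [Field F'] [Algebra R F']
variable {F : Type*} [Field F] [Algebra R F] [Algebra F' F] [IsScalarTower R F' F]
variable {x : F} {x' : F'}

/-- The point below a closed point is a closed point. -/
theorem comap_chartIncl_isMaximal630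
    (hchart : ∀ b ∈ chart R ({x'} : Set F'), algebraMap F' F b ∈ chart R ({x} : Set F))
    (hint : ∀ b ∈ chart R ({x} : Set F), ∃ p : Polynomial F', p.Monic ∧
      (∀ i, p.coeff i ∈ chart R ({x'} : Set F')) ∧ (p.map (algebraMap F' F)).eval b = 0)
    (n : Ideal (chart R ({x} : Set F))) [hn : n.IsMaximal] :
    (n.comap (chartIncl hchart)).IsMaximal :=
  Ideal.isMaximal_comap_of_isIntegral_of_isMaximal' (chartIncl hchart)
    (chartIncl_isIntegral hchart hint) n

/-- The sheet below passes through the point below. -/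
theorem passThrough_comap_chartIncl630
    (hchart : ∀ b ∈ chart R ({x'} : Set F'), algebraMap F' F b ∈ chart R ({x} : Set F))
    (n : Ideal (chart R ({x} : Set F)))
    {V : ValuationSubring F} {V' : ValuationSubring F'}
    (hcomap : V.comap (algebraMap F' F) = V')
    (hth : PassThrough (chart R ({x} : Set F)) n V) :
    PassThrough (chart R ({x'} : Set F')) (n.comap (chartIncl hchart)) V' := by
  intro c hc
  rw [← hcomap, mem_nonunits_comap_iff] at hc
  exact hth ⟨_, hchart c c.2⟩ hc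

/-- The chart below lies in the sheet below. -/
theorem chartLe_comap630
    (hchart : ∀ b ∈ chart R ({x'} : Set F'), algebraMap F' F b ∈ chart R ({x} : Set F))
    {V : ValuationSubring F} {V' : ValuationSubring F'}
    (hcomap : V.comap (algebraMap F' F) = V')
    (hB : ChartLe (chart R ({x} : Set F)) V) : ChartLe (chart R ({x'} : Set F')) V' := by
  intro a
  rw [← hcomap, ValuationSubring.mem_comap]
  exact hB ⟨_, hchart a a.2⟩

/-- **The value of `N d` below a one-extension side** (wild or purely inseparable). -/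
theorem valAt_norm_insep_chart630
    (hchart : ∀ b ∈ chart R ({x'} : Set F'), algebraMap F' F b ∈ chart R ({x} : Set F))
    (hint : ∀ b ∈ chart R ({x} : Set F), ∃ p : Polynomial F', p.Monic ∧
      (∀ i, p.coeff i ∈ chart R ({x'} : Set F')) ∧ (p.map (algebraMap F' F)).eval b = 0)
    (n : Ideal (chart R ({x} : Set F))) [hn : n.IsMaximal]
    {V : ValuationSubring F} {V' : ValuationSubring F'}
    (hB : ChartLe (chart R ({x} : Set F)) V) (hth : PassThrough (chart R ({x} : Set F)) n V)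
    (hcomap : V.comap (algebraMap F' F) = V')
    {q : ℕ} (hq : q ≠ 0) (hnr : NormResInsepU (F' := F') V q)
    {d : F} {η : R} (hη : algebraMap R (chart R ({x} : Set F)) η ∉ n)
    (hv : ValAt (chart R ({x} : Set F)) n V d η) :
    ValAt (chart R ({x'} : Set F')) (n.comap (chartIncl hchart)) V' (Algebra.norm F' d)
      (η ^ q) := by
  have hnp : n.IsPrime := hn.isPrime
  haveI : (n.comap (chartIncl hchart)).IsPrime := Ideal.comap_isPrime _ n
  have hAB : ∀ a : chart R ({x'} : Set F'), algebraMap F' F (a : F') ∈ chart R ({x} : Set F) :=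
    fun a => hchart a a.2
  have hNn : ∀ a : chart R ({x'} : Set F'),
      a ∈ n.comap (chartIncl hchart) ↔
        (⟨algebraMap F' F (a : F'), hAB a⟩ : chart R ({x} : Set F)) ∈ n :=
    fun a => Iff.rfl
  have hnormA : ∀ b : chart R ({x} : Set F), Algebra.norm F' (b : F) ∈ chart R ({x'} : Set F') :=
    fun b => norm_mem_chart (hint b b.2)
  have hc : ∀ y' : F', algebraMap F' F y' ∈ V.nonunits → y' ∈ V'.nonunits := by
    intro y' hy'
    rw [← hcomap, mem_nonunits_comap_iff]
    exact hy'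
  exact valAt_norm_insepU hAB hNn hnormA (chartLe_comap630 hchart hcomap hB) hB hth hc hq hnr
    hη hv

/-- **The value of `N d` below the split side.** -/
theorem valAt_norm_split_chart630
    (hchart : ∀ b ∈ chart R ({x'} : Set F'), algebraMap F' F b ∈ chart R ({x} : Set F))
    (n : Ideal (chart R ({x} : Set F))) [hn : n.IsMaximal]
    {Va Vb : ValuationSubring F} {V' : ValuationSubring F'}
    (hBa : ChartLe (chart R ({x} : Set F)) Va) (htha : PassThrough (chart R ({x} : Set F)) n Va)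
    (hBb : ChartLe (chart R ({x} : Set F)) Vb) (hthb : PassThrough (chart R ({x} : Set F)) n Vb)
    (hcomap_a : Va.comap (algebraMap F' F) = V')
    (hres_a : ∀ b ∈ chart R ({x} : Set F), ∃ b' ∈ chart R ({x'} : Set F'),
      b - algebraMap F' F b' ∈ Va.nonunits)
    (hres_b : ∀ b ∈ chart R ({x} : Set F), ∃ b' ∈ chart R ({x'} : Set F'),
      b - algebraMap F' F b' ∈ Vb.nonunits)
    {r : ℕ} (hnr : NormResSplitU V' Va Vb r)
    {d : F} {ηa ηb : R}
    (hηa : algebraMap R (chart R ({x} : Set F)) ηa ∉ n)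
    (hηb : algebraMap R (chart R ({x} : Set F)) ηb ∉ n)
    (hva : ValAt (chart R ({x} : Set F)) n Va d ηa)
    (hvb : ValAt (chart R ({x} : Set F)) n Vb d ηb) :
    ValAt (chart R ({x'} : Set F')) (n.comap (chartIncl hchart)) V' (Algebra.norm F' d)
      (ηa * ηb ^ r) := by
  have hnp : n.IsPrime := hn.isPrime
  haveI : (n.comap (chartIncl hchart)).IsPrime := Ideal.comap_isPrime _ n
  have hAB : ∀ a : chart R ({x'} : Set F'), algebraMap F' F (a : F') ∈ chart R ({x} : Set F) :=
    fun a => hchart a a.2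
  have hNn : ∀ a : chart R ({x'} : Set F'),
      a ∈ n.comap (chartIncl hchart) ↔
        (⟨algebraMap F' F (a : F'), hAB a⟩ : chart R ({x} : Set F)) ∈ n :=
    fun a => Iff.rfl
  have hlifta : ResLift (chart R ({x'} : Set F')) (chart R ({x} : Set F)) Va := by
    intro b
    obtain ⟨b', hb', h⟩ := hres_a b b.2
    exact ⟨⟨b', hb'⟩, h⟩
  have hliftb : ResLift (chart R ({x'} : Set F')) (chart R ({x} : Set F)) Vb := by
    intro b
    obtain ⟨b', hb', h⟩ := hres_b b b.2
    exact ⟨⟨b', hb'⟩, h⟩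
  exact valAt_norm_splitU hAB hNn (chartLe_comap630 hchart hcomap_a hBa)
    (passThrough_comap_chartIncl630 hchart n hcomap_a htha) hBa htha hBb hthb hlifta hliftb hnr
    hηa hηb hva hvb

/-- **The label equation along one degeneracy map, chart form, two arbitrary sides.** -/
theorem label_eq_chart630
    (hchart : ∀ b ∈ chart R ({x'} : Set F'), algebraMap F' F b ∈ chart R ({x} : Set F))
    (hint : ∀ b ∈ chart R ({x} : Set F), ∃ p : Polynomial F', p.Monic ∧
      (∀ i, p.coeff i ∈ chart R ({x'} : Set F')) ∧ (p.map (algebraMap F' F)).eval b = 0)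
    (n : Ideal (chart R ({x} : Set F))) [hn : n.IsMaximal]
    (huniq : ∀ Q : Ideal (chart R ({x} : Set F)), Q.IsMaximal →
      (∀ (b' : F') (h : b' ∈ chart R ({x'} : Set F')),
        (⟨algebraMap F' F b', hchart b' h⟩ : chart R ({x} : Set F)) ∈ n →
        (⟨algebraMap F' F b', hchart b' h⟩ : chart R ({x} : Set F)) ∈ Q) → Q = n)
    {V₁' V₂' : ValuationSubring F'}
    (hAV₁' : ChartLe (chart R ({x'} : Set F')) V₁')
    (hth₁' : PassThrough (chart R ({x'} : Set F')) (n.comap (chartIncl hchart)) V₁')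
    (hAV₂' : ChartLe (chart R ({x'} : Set F')) V₂')
    (hth₂' : PassThrough (chart R ({x'} : Set F')) (n.comap (chartIncl hchart)) V₂')
    {m : ℕ} (hm : 0 < m) {u d : F} {a₀ s₀ : chart R ({x} : Set F)} (hs₀ : s₀ ∉ n)
    (hpure : u * d ^ m * (s₀ : F) = a₀)
    {k : F'} (hk : Algebra.norm F' u = k ^ m) {ξ₁ ξ₂ : R}
    (hξ₁ : k - algebraMap R F' ξ₁ ∈ V₁'.nonunits) (hξ₂ : k - algebraMap R F' ξ₂ ∈ V₂'.nonunits)
    {ν₁ ν₂ : R}
    (hν₁ : ValAt (chart R ({x'} : Set F')) (n.comap (chartIncl hchart)) V₁'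
      (Algebra.norm F' d) ν₁)
    (hν₂ : ValAt (chart R ({x'} : Set F')) (n.comap (chartIncl hchart)) V₂'
      (Algebra.norm F' d) ν₂) :
    ξ₁ * ν₁ - ξ₂ * ν₂ ∈ IsLocalRing.maximalIdeal R := by
  have hnp : n.IsPrime := hn.isPrime
  set ι := chartIncl hchart with hι
  have hιint : ι.IsIntegral := chartIncl_isIntegral hchart hint
  set N₁ : Ideal (chart R ({x'} : Set F')) := n.comap ι with hN₁
  haveI hN₁p : N₁.IsPrime := Ideal.comap_isPrime ι n
  haveI hN₁m : N₁.IsMaximal := Ideal.isMaximal_comap_of_isIntegral_of_isMaximal' ι hιint n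
  have hnormA : ∀ b : chart R ({x} : Set F), Algebra.norm F' (b : F) ∈ chart R ({x'} : Set F') :=
    fun b => norm_mem_chart (hint b b.2)
  have hrootA : ∀ z : F', z ^ m ∈ chart R ({x'} : Set F') → z ∈ chart R ({x'} : Set F') := by
    intro z hz
    rw [mem_chart] at hz ⊢
    exact IsIntegral.of_pow hm hz
  -- local denominators
  have huniq' : ∀ Q : Ideal (chart R ({x} : Set F)), Q.IsPrime →
      Q.comap ι = n.comap ι → Q = n := by
    intro Q hQ hQc
    haveI := hQ
    have hQm : Q.IsMaximal := by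
      refine Ideal.isMaximal_of_isIntegral_of_isMaximal_comap' ι hιint Q ?_
      rw [hQc]
      exact hN₁m
    refine huniq Q hQm (fun b' h hb => ?_)
    have h1 : (⟨b', h⟩ : chart R ({x'} : Set F')) ∈ n.comap ι := hb
    rw [← hQc] at h1
    exact h1
  obtain ⟨s', t, ht, hst⟩ := exists_local_denominator ι hιint n huniq' s₀ hs₀
  have hst' : (s₀ : F) * (s' : F) = algebraMap F' F (t : F') := by
    have := congrArg (fun z : chart R ({x} : Set F) => (z : F)) hst
    exact this
  have hp : u * d ^ m * algebraMap F' F (t : F') = ((a₀ * s' : chart R ({x} : Set F)) : F) := by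
    rw [← hst', Subalgebra.coe_mul, ← hpure]
    ring
  have key := label_eq_of_valAt630 (A := chart R ({x'} : Set F')) (B := chart R ({x} : Set F))
    (N₁ := N₁) hnormA hrootA hAV₁' hth₁' hAV₂' hth₂' ht hp hk hξ₁ hξ₂ hν₁ hν₂
  -- back to `R`
  by_contra hcon
  have hu : IsUnit (ξ₁ * ν₁ - ξ₂ * ν₂) := by
    by_contra hnu
    exact hcon ((IsLocalRing.mem_maximalIdeal _).2 hnu)
  have hu' : IsUnit (algebraMap R (chart R ({x'} : Set F')) (ξ₁ * ν₁ - ξ₂ * ν₂)) := hu.map _
  exact hN₁p.ne_top (Ideal.eq_top_of_isUnit_mem _ key hu')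

end Chart

end Fermat.Agent.S45.H630

end
-- ===== PACK-END S45/H630/SideE.lean

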