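import Mathlib
import Fermat.Agent.Pack.S44C.G0E17L1
import Fermat.Agent.Pack.S43MC.G0E18L0
import Fermat.Agent.Pack.S43MC.G0E18L1
import Fermat.Agent.Pack.S43MC.G0E3L0
import Fermat.Agent.Pack.S59C.E16L0

set_option linter.all false

-- ===== PACK-BEGIN S45/ModE/H717/ResTrE.lean
section


/-!
# S45 / CAR3 / MOD-E (helper717): residual transcendence and power-commensurability (abstract)

`R` a local ring, `L` a field, `V` a valuation subring of `L` lying over `R` (`A2.H489.IsOver`).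

* `ResTr R V x : forall P : R[X], P(x) in m_V -> P = 0 mod m_R` : the residue of `x` is transcendental
  over the residue field of `R` (the primitivity clause of `A2.H489.IsGaussOver`);
* `resTr_of_pow_sub_pow` : `x ^ n = y ^ m mod m_V`, `m > 0`, `ResTr y` ==> `ResTr x`;
* `resTr_map`, `resTr_comap`, `isOver_of_comap`, `isOver_comap` : transport along a homomorphism;
* `PowComm V x y` : `x ^ a = y ^ b mod m_V` for some `a, b > 0`; an equivalence relation on `V`
  compatible with products; `ResTr` is invariant under it;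
* `resTr_sub_pow_not_mem` : `ResTr x` ==> `x - x ^ k` is a unit (`k >= 2`).

Mathlib + `A2.H489` (main) only.  (Copy of the abstract part of my unlanded S36 file
`S36/Mod3/H717/ResTr.lean`, in a new namespace.)
-/

set_option autoImplicit false
set_option linter.unusedSectionVars false
set_option linter.style.haveILetI false

noncomputable section

namespace Fermat.Agent.S45.ModE.H717

open Polynomial IsLocalRing Fermat.Agent.A2

/-! ### Nonunits -/

section Nonunits

variable {F F' : Type*} [Field F] [Field F']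

/-- nonunits of the pull-back of a valuation subring along a field homomorphism -/
theorem mem_nonunits_comap_hom (V : ValuationSubring F) (φ : F' →+* F) (f : F') :
    f ∈ (V.comap φ).nonunits ↔ φ f ∈ V.nonunits := by
  rw [ValuationSubring.mem_nonunits_iff_or, ValuationSubring.mem_nonunits_iff_or,
    ValuationSubring.mem_comap]
  constructor
  · rintro (h | h)
    · left
      rw [h, map_zero]
    · right
      intro h'
      apply h
      show φ f⁻¹ ∈ V
      rw [map_inv₀]
      exact h'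
  · rintro (h | h)
    · left
      exact (map_eq_zero φ).mp h
    · right
      intro h'
      apply h
      have h'' : φ f⁻¹ ∈ V := h'
      rwa [map_inv₀] at h''

/-- the nonunits of a valuation subring form a prime ideal -/
theorem mul_mem_nonunits_cases (V : ValuationSubring F) {a b : F} (ha : a ∈ V) (hb : b ∈ V)
    (hab : a * b ∈ V.nonunits) : a ∈ V.nonunits ∨ b ∈ V.nonunits := by
  rw [ValuationSubring.mem_nonunits_iff] at hab ⊢
  rw [ValuationSubring.mem_nonunits_iff]
  rw [map_mul] at hab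
  by_contra hcon
  have hc1 : ¬ V.valuation a < 1 := fun h => hcon (Or.inl h)
  have hc2 : ¬ V.valuation b < 1 := fun h => hcon (Or.inr h)
  have h1 : V.valuation a = 1 :=
    le_antisymm ((ValuationSubring.valuation_le_one_iff V a).mpr ha) (not_lt.mp hc1)
  have h2 : V.valuation b = 1 :=
    le_antisymm ((ValuationSubring.valuation_le_one_iff V b).mpr hb) (not_lt.mp hc2)
  rw [h1, h2, one_mul] at hab
  exact lt_irrefl _ hab

theorem mem_of_mem_nonunits' (V : ValuationSubring F) {a : F} (ha : a ∈ V.nonunits) : a ∈ V :=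
  ValuationSubring.nonunits_subset ha

end Nonunits

/-! ### The residue field of `V` as an algebra over the residue field of `R` -/

section Residue

variable {R L : Type*} [CommRing R] [IsLocalRing R] [Field L] [Algebra R L]
  {V : ValuationSubring L}

/-- the primitivity clause of `IsGaussOver` -/
def ResTr (R : Type*) {L : Type*} [CommRing R] [IsLocalRing R] [Field L] [Algebra R L]
    (V : ValuationSubring L) (x : L) : Prop :=
  ∀ P : R[X], aeval x P ∈ V.nonunits → P.map (residue R) = 0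

theorem isLocalHom_toValSub (hV : H489.IsOver R V) :
    IsLocalHom (H489.toValSub V hV.mem) := by
  refine ⟨fun a ha => ?_⟩
  by_contra hna
  have h1 : a ∈ maximalIdeal R := (mem_maximalIdeal a).mpr hna
  have h2 := hV.nonunit a h1
  have h3 : ((H489.toValSub V hV.mem a : V) : L) ∈ V.nonunits := h2
  rw [ValuationSubring.coe_mem_nonunits_iff] at h3
  exact (mem_maximalIdeal _).mp h3 ha

/-- the residue map `k_R → k_V` -/
def resMap (hV : H489.IsOver R V) : ResidueField R →+* ResidueField V :=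
  haveI := isLocalHom_toValSub hV
  ResidueField.map (H489.toValSub V hV.mem)

theorem resMap_residue (hV : H489.IsOver R V) (r : R) :
    resMap hV (residue R r) = residue V (H489.toValSub V hV.mem r) := by
  haveI := isLocalHom_toValSub hV
  exact ResidueField.map_residue _ r

theorem resMap_comp_residue (hV : H489.IsOver R V) :
    (resMap hV).comp (residue R) = (residue V).comp (H489.toValSub V hV.mem) :=
  RingHom.ext fun r => resMap_residue hV r

/-- `P(x)` as an element of `V` -/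
theorem coe_eval₂_toValSub (hV : H489.IsOver R V) {x : L} (hx : x ∈ V) (P : R[X]) :
    ((P.eval₂ (H489.toValSub V hV.mem) (⟨x, hx⟩ : V) : V) : L) = aeval x P := by
  have h := Polynomial.hom_eval₂ P (H489.toValSub V hV.mem) V.subtype (⟨x, hx⟩ : V)
  have e : V.subtype.comp (H489.toValSub V hV.mem) = algebraMap R L := RingHom.ext fun _ => rfl
  rw [e] at h
  exact h

/-- **Dictionary**: `P(x) ∈ 𝔪_V` iff the reduction of `P` kills the residue of `x`. -/
theorem aeval_mem_nonunits_iff (hV : H489.IsOver R V) {x : L} (hx : x ∈ V) (P : R[X]) :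
    aeval x P ∈ V.nonunits ↔
      (P.map (residue R)).eval₂ (resMap hV) (residue V (⟨x, hx⟩ : V)) = 0 := by
  rw [← coe_eval₂_toValSub hV hx P, ValuationSubring.coe_mem_nonunits_iff,
    ← residue_eq_zero_iff, Polynomial.eval₂_map, resMap_comp_residue, Polynomial.hom_eval₂]

theorem resTr_iff_transcendental (hV : H489.IsOver R V) {x : L} (hx : x ∈ V) :
    ResTr R V x ↔
      (letI := (resMap hV).toAlgebra
       Transcendental (ResidueField R) (residue V (⟨x, hx⟩ : V))) := by
  letI := (resMap hV).toAlgebra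
  constructor
  · intro h hal
    obtain ⟨p, hp0, hp⟩ := hal
    obtain ⟨P, rfl⟩ := Polynomial.map_surjective (residue R) residue_surjective p
    apply hp0
    apply h P
    rw [aeval_mem_nonunits_iff hV hx]
    exact hp
  · intro h P hP
    rw [aeval_mem_nonunits_iff hV hx] at hP
    by_contra hne
    exact h ⟨_, hne, hP⟩

/-- **Powers.**  If `x ^ n ≡ y ^ m mod 𝔪_V` with `m > 0` and the residue of `y` is
transcendental, then so is the residue of `x`. -/
theorem resTr_of_pow_sub_pow (hV : H489.IsOver R V) {x y : L} (hx : x ∈ V) (hy : y ∈ V)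
    {n m : ℕ} (hm : 0 < m) (hxy : x ^ n - y ^ m ∈ V.nonunits)
    (h : ResTr R V y) : ResTr R V x := by
  rw [resTr_iff_transcendental hV hx]
  rw [resTr_iff_transcendental hV hy] at h
  letI := (resMap hV).toAlgebra
  intro hal
  apply h
  have e : residue V (⟨x, hx⟩ : V) ^ n = residue V (⟨y, hy⟩ : V) ^ m := by
    rw [← map_pow, ← map_pow, ← sub_eq_zero, ← map_sub, residue_eq_zero_iff,
      ← ValuationSubring.coe_mem_nonunits_iff]
    exact hxy
  have h1 : IsAlgebraic (ResidueField R) (residue V (⟨x, hx⟩ : V) ^ n) := hal.pow n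
  rw [e] at h1
  exact h1.of_pow hm

end Residue

/-! ### Transport along a homomorphism -/

section Transport

variable {R L₀ L : Type*} [CommRing R] [IsLocalRing R] [Field L₀] [Field L]
  [Algebra R L₀] [Algebra R L]

/-- `IsOver` along a homomorphism `φ` with `V.comap φ = V₀`. -/
theorem isOver_of_comap {V₀ : ValuationSubring L₀} {V : ValuationSubring L} (φ : L₀ →+* L)
    (hc : ∀ r : R, φ (algebraMap R L₀ r) = algebraMap R L r)
    (hφ : V.comap φ = V₀) (h : H489.IsOver R V₀) : H489.IsOver R V where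
  mem := fun r => by
    have h1 : algebraMap R L₀ r ∈ V.comap φ := by
      rw [hφ]
      exact h.mem r
    rw [ValuationSubring.mem_comap, hc] at h1
    exact h1
  nonunit := fun r hr => by
    have h1 : algebraMap R L₀ r ∈ (V.comap φ).nonunits := by
      rw [hφ]
      exact h.nonunit r hr
    rw [mem_nonunits_comap_hom, hc] at h1
    exact h1

theorem map_aeval_of_commutes (φ : L₀ →+* L)
    (hc : ∀ r : R, φ (algebraMap R L₀ r) = algebraMap R L r) (y : L₀) (P : R[X]) :
    φ (aeval y P) = aeval (φ y) P := by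
  rw [aeval_def, aeval_def, Polynomial.hom_eval₂]
  congr 1
  exact RingHom.ext hc

/-- residual transcendence along a homomorphism `φ` with `V.comap φ = V₀`. -/
theorem resTr_map {V₀ : ValuationSubring L₀} {V : ValuationSubring L} (φ : L₀ →+* L)
    (hc : ∀ r : R, φ (algebraMap R L₀ r) = algebraMap R L r)
    (hφ : V.comap φ = V₀) {y : L₀} (h : ResTr R V₀ y) : ResTr R V (φ y) := by
  intro P hP
  apply h P
  rw [← hφ, mem_nonunits_comap_hom, map_aeval_of_commutes φ hc]
  exact hP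

end Transport


/-! ### More transport -/

section Transport2

variable {R L₀ L : Type*} [CommRing R] [IsLocalRing R] [Field L₀] [Field L]
  [Algebra R L₀] [Algebra R L]

/-- `IsOver` for the pull-back along a homomorphism compatible with the structure maps. -/
theorem isOver_comap {V : ValuationSubring L} (φ : L₀ →+* L)
    (hc : ∀ r : R, φ (algebraMap R L₀ r) = algebraMap R L r) (h : H489.IsOver R V) :
    H489.IsOver R (V.comap φ) where
  mem := fun r => by
    rw [ValuationSubring.mem_comap, hc]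
    exact h.mem r
  nonunit := fun r hr => by
    rw [mem_nonunits_comap_hom, hc]
    exact h.nonunit r hr

/-- residual transcendence for the pull-back. -/
theorem resTr_comap {V : ValuationSubring L} (φ : L₀ →+* L)
    (hc : ∀ r : R, φ (algebraMap R L₀ r) = algebraMap R L r) {y : L₀}
    (h : ResTr R V (φ y)) : ResTr R (V.comap φ) y := by
  intro P hP
  apply h P
  rw [mem_nonunits_comap_hom, map_aeval_of_commutes φ hc] at hP
  exact hP

end Transport2

/-! ### Arithmetic of nonunits -/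

section Arith

variable {F : Type*} [Field F] (V : ValuationSubring F)

theorem zero_mem_nu : (0 : F) ∈ V.nonunits := by
  rw [ValuationSubring.mem_nonunits_iff]
  simp

theorem add_mem_nu {x y : F} (hx : x ∈ V.nonunits) (hy : y ∈ V.nonunits) :
    x + y ∈ V.nonunits := by
  rw [ValuationSubring.mem_nonunits_iff] at hx hy ⊢
  exact lt_of_le_of_lt (V.valuation.map_add x y) (max_lt hx hy)

theorem neg_mem_nu {x : F} (hx : x ∈ V.nonunits) : -x ∈ V.nonunits := by
  rw [ValuationSubring.mem_nonunits_iff] at hx ⊢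
  rwa [Valuation.map_neg]

theorem sub_mem_nu {x y : F} (hx : x ∈ V.nonunits) (hy : y ∈ V.nonunits) :
    x - y ∈ V.nonunits := by
  rw [sub_eq_add_neg]
  exact add_mem_nu V hx (neg_mem_nu V hy)

theorem mul_mem_nu_left {x y : F} (hx : x ∈ V.nonunits) (hy : y ∈ V) :
    x * y ∈ V.nonunits := by
  rw [ValuationSubring.mem_nonunits_iff] at hx ⊢
  rw [map_mul]
  exact mul_lt_one_of_lt_of_le hx ((ValuationSubring.valuation_le_one_iff V y).mpr hy)

theorem mul_mem_nu_right {x y : F} (hx : x ∈ V) (hy : y ∈ V.nonunits) :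
    x * y ∈ V.nonunits := by
  rw [mul_comm]
  exact mul_mem_nu_left V hy hx

/-- congruence is symmetric -/
theorem cong_symm {x y : F} (h : x - y ∈ V.nonunits) : y - x ∈ V.nonunits := by
  have e : y - x = -(x - y) := by ring
  rw [e]
  exact neg_mem_nu V h

/-- congruence is transitive -/
theorem cong_trans {x y z : F} (h₁ : x - y ∈ V.nonunits) (h₂ : y - z ∈ V.nonunits) :
    x - z ∈ V.nonunits := by
  have e : x - z = (x - y) + (y - z) := by ring
  rw [e]
  exact add_mem_nu V h₁ h₂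

/-- `a ≡ b` ⟹ `a ^ n ≡ b ^ n`. -/
theorem pow_cong {a b : F} (ha : a ∈ V) (hb : b ∈ V)
    (hab : a - b ∈ V.nonunits) (n : ℕ) : a ^ n - b ^ n ∈ V.nonunits := by
  induction n with
  | zero => simp only [pow_zero, sub_self]; exact zero_mem_nu V
  | succ n ih =>
      have e : a ^ (n + 1) - b ^ (n + 1) = (a ^ n - b ^ n) * a + b ^ n * (a - b) := by ring
      rw [e]
      exact add_mem_nu V (mul_mem_nu_left V ih ha) (mul_mem_nu_right V (pow_mem hb n) hab)

/-- `a ≡ b`, `c ≡ d` ⟹ `a c ≡ b d`. -/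
theorem mul_cong {a b c d : F} (ha : a ∈ V) (hd : d ∈ V)
    (hab : a - b ∈ V.nonunits) (hcd : c - d ∈ V.nonunits) : a * c - b * d ∈ V.nonunits := by
  have e : a * c - b * d = a * (c - d) + (a - b) * d := by ring
  rw [e]
  exact add_mem_nu V (mul_mem_nu_right V ha hcd) (mul_mem_nu_left V hab hd)

/-- an element of `V` which is not in `𝔪_V` is a unit -/
theorem inv_mem_of_not_mem_nu {a : F} (ha : a ∈ V) (hna : a ∉ V.nonunits) : a⁻¹ ∈ V := by
  by_contra h
  exact hna ((ValuationSubring.mem_nonunits_iff_or V).mpr (Or.inr h))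

end Arith

/-! ### Power-commensurability -/

section PowComm

variable {F : Type*} [Field F]

/-- `x ^ a ≡ y ^ b` modulo `𝔪_V` for some `a, b > 0`. -/
def PowComm (V : ValuationSubring F) (x y : F) : Prop :=
  ∃ a b : ℕ, 0 < a ∧ 0 < b ∧ x ^ a - y ^ b ∈ V.nonunits

variable {V : ValuationSubring F}

theorem PowComm.refl (x : F) : PowComm V x x :=
  ⟨1, 1, one_pos, one_pos, by rw [sub_self]; exact zero_mem_nu V⟩

theorem PowComm.symm {x y : F} (h : PowComm V x y) : PowComm V y x := by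
  obtain ⟨a, b, ha, hb, hab⟩ := h
  exact ⟨b, a, hb, ha, cong_symm V hab⟩

theorem PowComm.trans {x y z : F} (hx : x ∈ V) (hy : y ∈ V) (hz : z ∈ V)
    (h₁ : PowComm V x y) (h₂ : PowComm V y z) : PowComm V x z := by
  obtain ⟨a, b, ha, hb, hab⟩ := h₁
  obtain ⟨c, d, hc, hd, hcd⟩ := h₂
  refine ⟨a * c, d * b, Nat.mul_pos ha hc, Nat.mul_pos hd hb, ?_⟩
  have h1 : (x ^ a) ^ c - (y ^ b) ^ c ∈ V.nonunits :=
    pow_cong V (pow_mem hx a) (pow_mem hy b) hab c
  have h2 : (y ^ c) ^ b - (z ^ d) ^ b ∈ V.nonunits :=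
    pow_cong V (pow_mem hy c) (pow_mem hz d) hcd b
  have e1 : x ^ (a * c) = (x ^ a) ^ c := pow_mul x a c
  have e2 : z ^ (d * b) = (z ^ d) ^ b := pow_mul z d b
  have e3 : (y ^ b) ^ c = (y ^ c) ^ b := by rw [← pow_mul, ← pow_mul, mul_comm]
  rw [e1, e2]
  rw [e3] at h1
  exact cong_trans V h1 h2

theorem PowComm.mul {x y z : F} (hx : x ∈ V) (hy : y ∈ V) (hz : z ∈ V)
    (h₁ : PowComm V x z) (h₂ : PowComm V y z) : PowComm V (x * y) z := by
  obtain ⟨a, b, ha, hb, hab⟩ := h₁
  obtain ⟨c, d, hc, hd, hcd⟩ := h₂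
  refine ⟨a * c, b * c + d * a, Nat.mul_pos ha hc,
    Nat.add_pos_left (Nat.mul_pos hb hc) _, ?_⟩
  have h1 : (x ^ a) ^ c - (z ^ b) ^ c ∈ V.nonunits :=
    pow_cong V (pow_mem hx a) (pow_mem hz b) hab c
  have h2 : (y ^ c) ^ a - (z ^ d) ^ a ∈ V.nonunits :=
    pow_cong V (pow_mem hy c) (pow_mem hz d) hcd a
  have e1 : (x * y) ^ (a * c) = (x ^ a) ^ c * (y ^ c) ^ a := by
    rw [mul_pow, pow_mul, mul_comm a c, pow_mul]
  have e2 : z ^ (b * c + d * a) = (z ^ b) ^ c * (z ^ d) ^ a := by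
    rw [pow_add, pow_mul, pow_mul]
  rw [e1, e2]
  exact mul_cong V (pow_mem (pow_mem hx a) c) (pow_mem (pow_mem hz d) a) h1 h2

/-- a finite product of elements commensurable with `z` is commensurable with `z`
(nonempty index range `0, …, m`). -/
theorem PowComm.prod_range {s : ℕ → F} {z : F} (hz : z ∈ V) (m : ℕ)
    (hs : ∀ l ≤ m, s l ∈ V) (h : ∀ l ≤ m, PowComm V (s l) z) :
    PowComm V (∏ l ∈ Finset.range (m + 1), s l) z := by
  induction m with
  | zero =>
      rw [Finset.prod_range_one]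
      exact h 0 le_rfl
  | succ m ih =>
      rw [Finset.prod_range_succ]
      refine PowComm.mul ?_ (hs _ le_rfl) hz
        (ih (fun l hl => hs l (Nat.le_succ_of_le hl)) (fun l hl => h l (Nat.le_succ_of_le hl)))
        (h _ le_rfl)
      exact prod_mem fun l hl => hs l (by have := Finset.mem_range.mp hl; omega)

end PowComm

section ResTrPow

variable {R L : Type*} [CommRing R] [IsLocalRing R] [Field L] [Algebra R L]
  {V : ValuationSubring L}

/-- `ResTr` is invariant under power-commensurability. -/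
theorem resTr_of_powComm (hV : H489.IsOver R V) {x y : L} (hx : x ∈ V) (hy : y ∈ V)
    (hxy : PowComm V x y) (h : ResTr R V y) : ResTr R V x := by
  obtain ⟨a, b, _, hb, hab⟩ := hxy
  exact resTr_of_pow_sub_pow hV hx hy hb hab h

/-- `ResTr x` ⟹ `x - x ^ k ∉ 𝔪_V` for `k ≥ 2`. -/
theorem resTr_sub_pow_not_mem [Nontrivial (ResidueField R)] {x : L} (h : ResTr R V x) {k : ℕ}
    (hk : 2 ≤ k) : x - x ^ k ∉ V.nonunits := by
  intro hmem
  have h1 := h (X - X ^ k) (by
    rw [map_sub, map_pow, aeval_X]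
    exact hmem)
  have h2 : ((X - X ^ k : R[X]).map (residue R)).coeff 1 = 1 := by
    rw [Polynomial.map_sub, Polynomial.map_pow, Polynomial.map_X, Polynomial.coeff_sub,
      Polynomial.coeff_X_one, Polynomial.coeff_X_pow, if_neg (by omega), sub_zero]
  rw [h1, Polynomial.coeff_zero] at h2
  exact zero_ne_one h2

end ResTrPow

end Fermat.Agent.S45.ModE.H717

end

end
-- ===== PACK-END S45/ModE/H717/ResTrE.lean

-- ===== PACK-BEGIN S45/H838/ChainAbs.lean
section


/-!
# S45 / CAR3, MOD-E / CHART — abstract part: CHAINS (helper838)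

Mathlib only.  `K` a field, `V` a valuation subring, `a : ℕ → K` a chain of elements such that
consecutive members are integral over each other (`a i ∈ V ↔ a (i + 1) ∈ V`; for the modular
chain `a i = j_{q^i}` this is the monicity of `Φ_q` in both variables).

* `chain_mem_iff838`     : `a i ∈ V ↔ a 0 ∈ V` for `i ≤ e`;
* `chain_mem_of_prod838` : `∏ i ≤ e, a i ∈ V ⟹ a i ∈ V` for all `i ≤ e`
                           (valuative criterion for the finite chart of `x = ∏ a i`);
* `chain_inv_mem_of_prod_inv838` : `(∏ i ≤ e, a i)⁻¹ ∈ V ⟹ (a i)⁻¹ ∈ V` for all `i ≤ e`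
                           (the chart at infinity).
-/

set_option autoImplicit false

namespace Fermat.Agent.S45.H838

open Finset

variable {K : Type*} [Field K]

/-- Along a chain of mutually integral elements membership in `V` is constant. -/
theorem chain_mem_iff838 (V : ValuationSubring K) (a : ℕ → K) (e : ℕ)
    (h : ∀ i, i < e → (a i ∈ V ↔ a (i + 1) ∈ V)) :
    ∀ i, i ≤ e → (a i ∈ V ↔ a 0 ∈ V) := by
  intro i
  induction i with
  | zero => intro _; exact Iff.rfl
  | succ n ih =>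
    intro hn
    rw [← h n (by omega)]
    exact ih (by omega)

/-- A product of elements outside `V` is outside `V` (non-empty product). -/
theorem prod_not_mem838 (V : ValuationSubring K) (a : ℕ → K) (e : ℕ)
    (h : ∀ i, i ≤ e → a i ∉ V) : ∏ i ∈ range (e + 1), a i ∉ V := by
  have key : ∀ n, n ≤ e → 1 < V.valuation (∏ i ∈ range (n + 1), a i) := by
    intro n
    induction n with
    | zero =>
      intro _
      rw [Finset.prod_range_one]
      have := h 0 (Nat.zero_le _)
      rw [← V.valuation_le_one_iff, not_le] at this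
      exact this
    | succ n ih =>
      intro hn
      rw [Finset.prod_range_succ, map_mul]
      have h1 := ih (by omega)
      have h2 := h (n + 1) hn
      rw [← V.valuation_le_one_iff, not_le] at h2
      exact one_lt_mul_of_lt_of_le' h1 h2.le
  rw [← V.valuation_le_one_iff, not_le]
  exact key e le_rfl

/-- **Valuative criterion along a chain** (finite chart): a valuation subring containing the
product `∏ i ≤ e, a i` contains every `a i`. -/
theorem chain_mem_of_prod838 (V : ValuationSubring K) (a : ℕ → K) (e : ℕ)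
    (h : ∀ i, i < e → (a i ∈ V ↔ a (i + 1) ∈ V))
    (hx : ∏ i ∈ range (e + 1), a i ∈ V) : ∀ i, i ≤ e → a i ∈ V := by
  have hiff := chain_mem_iff838 V a e h
  by_cases h0 : a 0 ∈ V
  · exact fun i hi => (hiff i hi).2 h0
  · exact absurd hx (prod_not_mem838 V a e fun i hi hmem => h0 ((hiff i hi).1 hmem))

/-- **Valuative criterion along a chain** (chart at infinity): a valuation subring containing
the inverse of the product contains the inverse of every `a i` (the `a i` non-zero). -/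
theorem chain_inv_mem_of_prod_inv838 (V : ValuationSubring K) (a : ℕ → K) (e : ℕ)
    (hne : ∀ i, i ≤ e → a i ≠ 0)
    (h : ∀ i, i < e → (a i ∈ V ↔ a (i + 1) ∈ V))
    (hx : (∏ i ∈ range (e + 1), a i)⁻¹ ∈ V) : ∀ i, i ≤ e → (a i)⁻¹ ∈ V := by
  have hiff := chain_mem_iff838 V a e h
  intro i hi
  by_cases h0 : a 0 ∈ V
  · -- all `a i ∈ V`, the product is a unit of `V`
    have hall : ∀ k, k ≤ e → a k ∈ V := fun k hk => (hiff k hk).2 h0
    have hmem : i ∈ range (e + 1) := Finset.mem_range.2 (by omega)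
    have hsplit : ∏ k ∈ range (e + 1), a k = a i * ∏ k ∈ (range (e + 1)).erase i, a k :=
      (Finset.mul_prod_erase _ _ hmem).symm
    have hrest : ∏ k ∈ (range (e + 1)).erase i, a k ∈ V :=
      Subring.prod_mem V.toSubring fun k hk =>
        hall k (by have := Finset.mem_range.1 (Finset.mem_of_mem_erase hk); omega)
    have hr : ∏ k ∈ (range (e + 1)).erase i, a k ≠ 0 :=
      Finset.prod_ne_zero_iff.2 fun k hk =>
        hne k (by have := Finset.mem_range.1 (Finset.mem_of_mem_erase hk); omega)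
    have hinv : (a i)⁻¹ = (∏ k ∈ (range (e + 1)).erase i, a k) *
        (∏ k ∈ range (e + 1), a k)⁻¹ := by
      rw [hsplit, mul_inv, mul_comm (a i)⁻¹, ← mul_assoc, mul_inv_cancel₀ hr, one_mul]
    rw [hinv]
    exact V.mul_mem _ _ hrest hx
  · -- no `a i` lies in `V`, so every inverse does
    have hni : a i ∉ V := fun hmem => h0 ((hiff i hi).1 hmem)
    rcases V.mem_or_inv_mem (a i) with h1 | h1
    · exact absurd h1 hni
    · exact h1

end Fermat.Agent.S45.H838

end
-- ===== PACK-END S45/H838/ChainAbs.lean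

-- ===== PACK-BEGIN S45/H860/SheetEAbs.lean
section


/-!
# S45 / CAR3 / MOD-E — leaf SHEET, abstract part (helper860; Mathlib only)

`V` a valuation ring of a field `F`, residue characteristic `q`.  A KRONECKER CHAIN in `V` is a
sequence `a 0, …, a e` of elements of `V` such that consecutive members satisfy Kronecker's
congruence

    (a (i+1) ^ q - a i) * (a (i+1) - a i ^ q) ∈ 𝔪_V          (i < e)

(`Φ_q(X, Y) ≡ (Y ^ q - X) (Y - X ^ q) mod q`; application: `a i = j(q^i z)` at ANY valuation ring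
of the function field of level `q^e M` over `q`).  Every step is a Frobenius step
(`a (i+1) ≡ a i ^ q`) or a Verschiebung step (`a (i+1) ^ q ≡ a i`); NO assumption on the pattern.

* `chain_root`          : (residue field) there is a ROOT `r ≤ e` and exponents `k i` with
                           `s i = s r ^ (q ^ k i)` for all `i ≤ e`, `k r = 0`;
* `chain_prod`          : `∏_{i ≤ e} s i = s r ^ K`, `K = ∑ q ^ k i > 0`;
* `exists_root_congr`   : the same in `V`, modulo `𝔪_V`;
* `gaussAt_root_of_chain` : the Gauss property of `a 0` gives the Gauss property of the root;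
* `gaussAt_member_of_chain` : ... and of every member `a i`;
* `gaussAt_prod_of_chain` : **the Gauss property of `a 0` gives the Gauss property of
                           `x = ∏_{i ≤ e} a i`** (so every sheet of `j` is a sheet of `x`);
* `chain_mem`, `kron_of_modEq`, `gaussAt_prod_of_modEq` : the same for a chain of roots of a
                           monic `Φ ∈ ℤ[X][Y]` of Kronecker's shape, `Φ(a i, a (i+1)) = 0`
                           (membership `a i ∈ V` is then automatic);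
* `gaussAt_comap`, `base_comap` : transport along a homomorphism of fields `α : F' → F` with
                           `V.comap α = V'`;
* `gaussAt_of_weak`, `GaussAt.weak`, `GaussAt.unit` : adapters to the field shapes `gauss`,
                           `x_unit` of `S45.Eng.CtxE`.

`GaussAt V w a` is the elementwise Gauss property used in `S36.Eng.TripleCtx` (`gauss_i`), in its
strong form (`P(a) ≠ 0`, `P(a) ∈ V`, `P(a)⁻¹ ∈ V` for every `P ∈ R[X]` not divisible by `w`).
-/

set_option autoImplicit false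
set_option linter.style.haveILetI false
set_option linter.unusedSectionVars false
set_option linter.unusedVariables false

noncomputable section

namespace Fermat.Agent.S45.H860

open Polynomial

/-! ## The residue field -/

section Core

variable {κ : Type*} [Field κ]

/-- **The root of a Kronecker chain** (residue field, characteristic `q`). -/
theorem chain_root (q : ℕ) [Fact q.Prime] [CharP κ q] (s : ℕ → κ) :
    ∀ e : ℕ, (∀ i < e, (s (i + 1) ^ q - s i) * (s (i + 1) - s i ^ q) = 0) →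
      ∃ r, r ≤ e ∧ ∃ k : ℕ → ℕ, k r = 0 ∧ ∀ i ≤ e, s i = s r ^ q ^ k i := by
  haveI : ExpChar κ q := ExpChar.prime (Fact.out)
  intro e
  induction e with
  | zero =>
    intro _
    refine ⟨0, le_rfl, fun _ => 0, rfl, ?_⟩
    intro i hi
    have h0 : i = 0 := by omega
    subst h0
    simp
  | succ e ih =>
    intro h
    obtain ⟨r, hr, k, hkr, hk⟩ := ih (fun i hi => h i (by omega))
    have hstep := h e (by omega)
    rcases mul_eq_zero.mp hstep with hV | hF
    · -- Verschiebung step: `s (e+1) ^ q = s e`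
      have hV' : s (e + 1) ^ q = s e := sub_eq_zero.mp hV
      by_cases hke : k e = 0
      · -- the new member is the new root
        refine ⟨e + 1, le_rfl, fun i => if i = e + 1 then 0 else k i + 1, by simp, ?_⟩
        intro i hi
        by_cases hie : i = e + 1
        · subst hie
          simp
        · have hi' : i ≤ e := by omega
          have h1 : s e = s r := by
            rw [hk e le_rfl, hke]
            simp
          simp only [hie, if_false]
          rw [hk i hi', ← h1, ← hV', ← pow_mul, pow_succ']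
      · -- the root stays, the exponent goes down
        have hr' : r ≠ e + 1 := by omega
        refine ⟨r, by omega, fun i => if i = e + 1 then k e - 1 else k i, by simp [hr', hkr], ?_⟩
        intro i hi
        by_cases hie : i = e + 1
        · subst hie
          simp only [if_true]
          have h2 : s (e + 1) ^ q = (s r ^ q ^ (k e - 1)) ^ q := by
            rw [hV', hk e le_rfl, ← pow_mul, ← pow_succ]
            congr 2
            omega
          exact frobenius_inj κ q h2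
        · simp only [hie, if_false]
          exact hk i (by omega)
    · -- Frobenius step: `s (e+1) = s e ^ q`
      have hF' : s (e + 1) = s e ^ q := sub_eq_zero.mp hF
      have hr' : r ≠ e + 1 := by omega
      refine ⟨r, by omega, fun i => if i = e + 1 then k e + 1 else k i, by simp [hr', hkr], ?_⟩
      intro i hi
      by_cases hie : i = e + 1
      · subst hie
        simp only [if_true]
        rw [hF', hk e le_rfl, ← pow_mul, ← pow_succ]
      · simp only [hie, if_false]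
        exact hk i (by omega)

/-- **The product of a Kronecker chain is a positive power of its root**, and the first member
is a `q`-power power of the root. -/
theorem chain_prod (q : ℕ) [Fact q.Prime] [CharP κ q] (s : ℕ → κ) (e : ℕ)
    (h : ∀ i < e, (s (i + 1) ^ q - s i) * (s (i + 1) - s i ^ q) = 0) :
    ∃ r, r ≤ e ∧ ∃ (K : ℕ) (k : ℕ → ℕ), 0 < K ∧ k r = 0 ∧
      (∀ i ≤ e, s i = s r ^ q ^ k i) ∧ ∏ i ∈ Finset.range (e + 1), s i = s r ^ K := by
  obtain ⟨r, hr, k, hkr, hk⟩ := chain_root q s e h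
  refine ⟨r, hr, ∑ i ∈ Finset.range (e + 1), q ^ k i, k, ?_, hkr, hk, ?_⟩
  · have hq : 0 < q := (Fact.out : q.Prime).pos
    refine Finset.sum_pos (fun i _ => pow_pos hq _) ⟨0, by simp⟩
  · rw [← Finset.prod_pow_eq_pow_sum]
    refine Finset.prod_congr rfl (fun i hi => hk i ?_)
    have := Finset.mem_range.mp hi
    omega

end Core

/-! ## The Gauss property -/

section Gauss

variable {R F : Type*} [CommRing R] [Field F] [Algebra R F]

/-- The (strong, elementwise) Gauss property of `a` at `V` with respect to `w ∈ R`: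
every `P ∈ R[X]` not divisible by `w` gives a unit `P(a)` of `V`. -/
def GaussAt (V : ValuationSubring F) (w : R) (a : F) : Prop :=
  ∀ p : Polynomial R, ¬ Polynomial.C w ∣ p →
    aeval a p ≠ 0 ∧ aeval a p ∈ V ∧ (aeval a p)⁻¹ ∈ V

/-- `R → V`. -/
def baseHom (V : ValuationSubring F) (hbase : ∀ r : R, algebraMap R F r ∈ V) : R →+* V :=
  (algebraMap R F).codRestrict V.toSubring hbase

/-- `R → κ(V)`. -/
def resHom (V : ValuationSubring F) (hbase : ∀ r : R, algebraMap R F r ∈ V) :
    R →+* IsLocalRing.ResidueField V :=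
  (IsLocalRing.residue V).comp (baseHom V hbase)

theorem aeval_mem (V : ValuationSubring F) (hbase : ∀ r : R, algebraMap R F r ∈ V) {a : F}
    (ha : a ∈ V) (p : Polynomial R) : aeval a p ∈ V := by
  rw [Polynomial.aeval_def, Polynomial.eval₂_eq_sum_range]
  refine V.toSubring.sum_mem (fun i _ => ?_)
  exact V.mul_mem _ _ (hbase _) (pow_mem ha i)

theorem coe_eval₂_baseHom (V : ValuationSubring F) (hbase : ∀ r : R, algebraMap R F r ∈ V)
    (z : V) (p : Polynomial R) : ((p.eval₂ (baseHom V hbase) z : V) : F) = aeval (z : F) p := by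
  have hsub : (V.subtype : V →+* F).comp (baseHom V hbase) = algebraMap R F := by
    ext r
    rfl
  have h := Polynomial.hom_eval₂ p (baseHom V hbase) (V.subtype : V →+* F) z
  rw [hsub] at h
  rw [Polynomial.aeval_def]
  exact h

/-- the residue of `P(a)` -/
theorem residue_aeval (V : ValuationSubring F) (hbase : ∀ r : R, algebraMap R F r ∈ V) {a : F}
    (ha : a ∈ V) (p : Polynomial R) :
    IsLocalRing.residue V ⟨aeval a p, aeval_mem V hbase ha p⟩ =
      (p.map (resHom V hbase)).eval (IsLocalRing.residue V ⟨a, ha⟩) := by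
  have h1 : (⟨aeval a p, aeval_mem V hbase ha p⟩ : V) = p.eval₂ (baseHom V hbase) ⟨a, ha⟩ := by
    apply Subtype.ext
    rw [coe_eval₂_baseHom]
  rw [h1, Polynomial.hom_eval₂, Polynomial.eval_map]
  rfl

/-- an element of `V` with nonzero residue is a unit -/
theorem unit_of_residue_ne_zero (V : ValuationSubring F) {y : F} (hy : y ∈ V)
    (h : IsLocalRing.residue V ⟨y, hy⟩ ≠ 0) : y ≠ 0 ∧ y ∈ V ∧ y⁻¹ ∈ V := by
  have hnon : y ∉ V.nonunits := by
    intro hn
    apply h
    rw [IsLocalRing.residue_eq_zero_iff]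
    have : ((⟨y, hy⟩ : V) : F) ∈ V.nonunits := hn
    rwa [ValuationSubring.coe_mem_nonunits_iff] at this
  have hy0 : y ≠ 0 := by
    rintro rfl
    exact hnon (V.mem_nonunits_iff.mpr (by simp))
  refine ⟨hy0, hy, ?_⟩
  have hv : V.valuation y = 1 := by
    apply le_antisymm ((V.valuation_le_one_iff _).mpr hy)
    by_contra hlt
    exact hnon (V.mem_nonunits_iff.mpr (lt_of_not_ge hlt))
  rw [← V.valuation_le_one_iff, map_inv₀, hv, inv_one]

/-- a unit of `V` has nonzero residue -/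
theorem residue_ne_zero_of_unit (V : ValuationSubring F) {y : F} (hy : y ∈ V) (hy0 : y ≠ 0)
    (hyi : y⁻¹ ∈ V) : IsLocalRing.residue V ⟨y, hy⟩ ≠ 0 := by
  intro h
  rw [IsLocalRing.residue_eq_zero_iff] at h
  have hn : ((⟨y, hy⟩ : V) : F) ∈ V.nonunits := by
    rwa [ValuationSubring.coe_mem_nonunits_iff]
  have h1 : V.valuation y < 1 := V.mem_nonunits_iff.mp hn
  have h2 : V.valuation y⁻¹ ≤ 1 := (V.valuation_le_one_iff _).mpr hyi
  rw [map_inv₀] at h2
  have hv0 : 0 < V.valuation y := zero_lt_iff.mpr ((Valuation.ne_zero_iff _).mpr hy0)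
  have h3 : 1 ≤ V.valuation y := (inv_le_one₀ hv0).mp h2
  exact absurd h1 (not_lt.mpr h3)

/-- **The Gauss property in terms of residues.** -/
theorem gaussAt_iff_residue (V : ValuationSubring F) (hbase : ∀ r : R, algebraMap R F r ∈ V)
    (w : R) {a : F} (ha : a ∈ V) :
    GaussAt V w a ↔ ∀ p : Polynomial R, ¬ Polynomial.C w ∣ p →
      (p.map (resHom V hbase)).eval (IsLocalRing.residue V ⟨a, ha⟩) ≠ 0 := by
  constructor
  · intro h p hp
    obtain ⟨h0, h1, h2⟩ := h p hp
    rw [← residue_aeval V hbase ha p]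
    exact residue_ne_zero_of_unit V _ h0 h2
  · intro h p hp
    have := h p hp
    rw [← residue_aeval V hbase ha p] at this
    exact unit_of_residue_ne_zero V _ this

/-- The coefficientwise `n`-th power of a polynomial. -/
def coeffPow (n : ℕ) (p : Polynomial R) : Polynomial R :=
  ∑ i ∈ Finset.range (p.natDegree + 1), Polynomial.monomial i (p.coeff i ^ n)

theorem coeff_coeffPow {n : ℕ} (hn : 0 < n) (p : Polynomial R) (i : ℕ) :
    (coeffPow n p).coeff i = p.coeff i ^ n := by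
  unfold coeffPow
  rw [Polynomial.finsetSum_coeff]
  simp only [Polynomial.coeff_monomial]
  by_cases hi : i ∈ Finset.range (p.natDegree + 1)
  · rw [Finset.sum_eq_single i]
    · simp
    · intro b _ hb
      simp [hb]
    · intro h
      exact absurd hi h
  · rw [Finset.sum_eq_zero]
    · have hdeg : p.natDegree < i := by
        rw [Finset.mem_range] at hi
        omega
      rw [Polynomial.coeff_eq_zero_of_natDegree_lt hdeg, zero_pow hn.ne']
    · intro b hb
      have : b ≠ i := by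
        rintro rfl
        exact hi hb
      simp [this]

theorem not_C_dvd_coeffPow {w : R} (hw : Prime w) {n : ℕ} (hn : 0 < n) {p : Polynomial R}
    (hp : ¬ Polynomial.C w ∣ p) : ¬ Polynomial.C w ∣ coeffPow n p := by
  intro h
  apply hp
  rw [Polynomial.C_dvd_iff_dvd_coeff] at h ⊢
  intro i
  have := h i
  rw [coeff_coeffPow hn] at this
  exact hw.dvd_of_dvd_pow this

theorem not_C_dvd_expand' {w : R} {k : ℕ} (hk : 0 < k) {p : Polynomial R}
    (hp : ¬ Polynomial.C w ∣ p) : ¬ Polynomial.C w ∣ Polynomial.expand R k p := by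
  intro h
  apply hp
  rw [Polynomial.C_dvd_iff_dvd_coeff] at h ⊢
  intro i
  have := h (i * k)
  rwa [Polynomial.coeff_expand_mul hk] at this

theorem not_C_dvd_X {w : R} (hw : ¬ IsUnit w) : ¬ Polynomial.C w ∣ (Polynomial.X : Polynomial R) := by
  intro h
  apply hw
  have h1 := (Polynomial.C_dvd_iff_dvd_coeff _ _).mp h 1
  rw [Polynomial.coeff_X_one] at h1
  exact isUnit_of_dvd_one h1

theorem mem_of_gaussAt {V : ValuationSubring F} {w : R} (hw : ¬ IsUnit w) {a : F}
    (h : GaussAt V w a) : a ≠ 0 ∧ a ∈ V ∧ a⁻¹ ∈ V := by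
  have h' := h Polynomial.X (not_C_dvd_X hw)
  rw [Polynomial.aeval_X] at h'
  exact h'

end Gauss

/-! ## Transfer along powers (residue field) -/

section Transfer

variable {R κ : Type*} [CommRing R] [Field κ]

/-- evaluation at a power -/
theorem eval_pow_eq_eval_expand (ι : R →+* κ) (p : Polynomial R) (ρ : κ) (K : ℕ) :
    (p.map ι).eval (ρ ^ K) = ((Polynomial.expand R K p).map ι).eval ρ := by
  rw [Polynomial.map_expand, Polynomial.expand_eval]

/-- evaluation of the coefficientwise `q^k`-th power at a `q^k`-th power (characteristic `q`) -/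
theorem eval_coeffPow (q : ℕ) [Fact q.Prime] [CharP κ q] (ι : R →+* κ) (p : Polynomial R)
    (ρ : κ) (k : ℕ) :
    ((coeffPow (q ^ k) p).map ι).eval (ρ ^ q ^ k) = ((p.map ι).eval ρ) ^ q ^ k := by
  haveI : ExpChar κ q := ExpChar.prime (Fact.out)
  have hqk : 0 < q ^ k := pow_pos (Fact.out : q.Prime).pos k
  rw [Polynomial.eval_map, Polynomial.eval_map, Polynomial.eval₂_eq_sum_range' ι
    (n := p.natDegree + 1) (by
      have h1 : (coeffPow (q ^ k) p).natDegree ≤ p.natDegree := by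
        rw [Polynomial.natDegree_le_iff_coeff_eq_zero]
        intro i hi
        rw [coeff_coeffPow hqk, Polynomial.coeff_eq_zero_of_natDegree_lt hi, zero_pow hqk.ne']
      omega),
    Polynomial.eval₂_eq_sum_range, sum_pow_char_pow]
  refine Finset.sum_congr rfl (fun i _ => ?_)
  rw [coeff_coeffPow hqk, map_pow, mul_pow, ← pow_mul, ← pow_mul, mul_comm (q ^ k) i]

end Transfer

/-! ## Kronecker chains in a valuation ring -/

section Chain

variable {R F : Type*} [CommRing R] [Field F] [Algebra R F]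

/-- the residue characteristic -/
theorem charP_residue (V : ValuationSubring F) {q : ℕ} (hq : q.Prime)
    (hqV : (q : F) ∈ V.nonunits) : CharP (IsLocalRing.ResidueField V) q := by
  have hq0 : ((q : ℕ) : IsLocalRing.ResidueField V) = 0 := by
    have h3 : (((q : ℕ) : V) : F) ∈ V.nonunits := by
      simpa using hqV
    rw [ValuationSubring.coe_mem_nonunits_iff, ← IsLocalRing.residue_eq_zero_iff,
      map_natCast] at h3
    exact h3
  exact (CharP.charP_iff_prime_eq_zero hq).mpr hq0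

/-- congruence modulo `𝔪_V` in terms of residues -/
theorem sub_mem_nonunits_iff (V : ValuationSubring F) {x y : F} (hx : x ∈ V) (hy : y ∈ V) :
    x - y ∈ V.nonunits ↔ IsLocalRing.residue V ⟨x, hx⟩ = IsLocalRing.residue V ⟨y, hy⟩ := by
  have h : ((⟨x, hx⟩ - ⟨y, hy⟩ : V) : F) = x - y := rfl
  rw [← h, ValuationSubring.coe_mem_nonunits_iff, ← IsLocalRing.residue_eq_zero_iff, map_sub,
    sub_eq_zero]

/-- **The root of a Kronecker chain in `V`.** -/
theorem exists_root_congr (V : ValuationSubring F) {q : ℕ} (hq : q.Prime)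
    (hqV : (q : F) ∈ V.nonunits) (a : ℕ → F) (e : ℕ) (ha : ∀ i ≤ e, a i ∈ V)
    (hkron : ∀ i < e, (a (i + 1) ^ q - a i) * (a (i + 1) - a i ^ q) ∈ V.nonunits) :
    ∃ r, r ≤ e ∧ ∃ (K : ℕ) (k : ℕ → ℕ), 0 < K ∧ k r = 0 ∧
      (∀ i ≤ e, a i - a r ^ q ^ k i ∈ V.nonunits) ∧
      (∏ i ∈ Finset.range (e + 1), a i) - a r ^ K ∈ V.nonunits := by
  haveI : Fact q.Prime := ⟨hq⟩
  haveI := charP_residue V hq hqV
  set π := IsLocalRing.residue V with hπ
  set A : ℕ → V := fun i => if h : i ≤ e then ⟨a i, ha i h⟩ else 0 with hA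
  have hAa : ∀ i ≤ e, ((A i : V) : F) = a i := by
    intro i hi
    simp only [hA, dif_pos hi]
  have h : ∀ i < e, (π (A (i + 1)) ^ q - π (A i)) * (π (A (i + 1)) - π (A i) ^ q) = 0 := by
    intro i hi
    have h1 : (((A (i + 1) ^ q - A i) * (A (i + 1) - A i ^ q) : V) : F) ∈ V.nonunits := by
      have e1 : (((A (i + 1) ^ q - A i) * (A (i + 1) - A i ^ q) : V) : F) =
          (a (i + 1) ^ q - a i) * (a (i + 1) - a i ^ q) := by
        push_cast
        rw [hAa (i + 1) (by omega), hAa i (by omega)]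
      rw [e1]
      exact hkron i hi
    rw [ValuationSubring.coe_mem_nonunits_iff, ← IsLocalRing.residue_eq_zero_iff] at h1
    simpa using h1
  obtain ⟨r, hr, K, k, hK, hkr, hk, hprod⟩ := chain_prod q (fun i => π (A i)) e h
  refine ⟨r, hr, K, k, hK, hkr, ?_, ?_⟩
  · intro i hi
    have h1 : ((A i - A r ^ q ^ k i : V) : F) ∈ V.nonunits := by
      rw [ValuationSubring.coe_mem_nonunits_iff, ← IsLocalRing.residue_eq_zero_iff, map_sub,
        map_pow, sub_eq_zero]
      exact hk i hi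
    have e1 : ((A i - A r ^ q ^ k i : V) : F) = a i - a r ^ q ^ k i := by
      push_cast
      rw [hAa i hi, hAa r hr]
    rw [← e1]
    exact h1
  · have h1 : (((∏ i ∈ Finset.range (e + 1), A i) - A r ^ K : V) : F) ∈ V.nonunits := by
      rw [ValuationSubring.coe_mem_nonunits_iff, ← IsLocalRing.residue_eq_zero_iff, map_sub,
        map_pow, map_prod, sub_eq_zero]
      exact hprod
    have h2 : (((∏ i ∈ Finset.range (e + 1), A i) - A r ^ K : V) : F) =
        (∏ i ∈ Finset.range (e + 1), a i) - a r ^ K := by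
      push_cast
      rw [hAa r hr]
      congr 1
      refine Finset.prod_congr rfl (fun i hi => hAa i ?_)
      have := Finset.mem_range.mp hi
      omega
    rw [← h2]
    exact h1

/-- transfer of the Gauss property from `b ≡ ρ ^ (q ^ k)` to `ρ` -/
theorem gaussAt_of_frob_pow (V : ValuationSubring F) (hbase : ∀ r : R, algebraMap R F r ∈ V)
    {w : R} (hw : Prime w) {q : ℕ} (hq : q.Prime) (hqV : (q : F) ∈ V.nonunits) {b ρ : F}
    (hb : b ∈ V) (hρ : ρ ∈ V) (k : ℕ) (hcong : b - ρ ^ q ^ k ∈ V.nonunits)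
    (hg : GaussAt V w b) : GaussAt V w ρ := by
  haveI : Fact q.Prime := ⟨hq⟩
  haveI := charP_residue V hq hqV
  rw [gaussAt_iff_residue V hbase w hρ]
  rw [gaussAt_iff_residue V hbase w hb] at hg
  intro p hp h0
  have hqk : 0 < q ^ k := pow_pos hq.pos k
  have h1 := hg (coeffPow (q ^ k) p) (not_C_dvd_coeffPow hw hqk hp)
  have h2 : IsLocalRing.residue V ⟨b, hb⟩ = (IsLocalRing.residue V ⟨ρ, hρ⟩) ^ q ^ k := by
    have := (sub_mem_nonunits_iff V hb (pow_mem hρ (q ^ k))).mp hcong
    rw [this]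
    rfl
  rw [h2, eval_coeffPow q, h0, zero_pow hqk.ne'] at h1
  exact h1 rfl

/-- transfer of the Gauss property from `ρ` to `x ≡ ρ ^ K`, `K > 0` -/
theorem gaussAt_of_congr_pow (V : ValuationSubring F) (hbase : ∀ r : R, algebraMap R F r ∈ V)
    {w : R} {x ρ : F} (hx : x ∈ V) (hρ : ρ ∈ V) {K : ℕ} (hK : 0 < K)
    (hcong : x - ρ ^ K ∈ V.nonunits) (hg : GaussAt V w ρ) : GaussAt V w x := by
  rw [gaussAt_iff_residue V hbase w hx]
  rw [gaussAt_iff_residue V hbase w hρ] at hg
  intro p hp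
  have h2 : IsLocalRing.residue V ⟨x, hx⟩ = (IsLocalRing.residue V ⟨ρ, hρ⟩) ^ K := by
    have := (sub_mem_nonunits_iff V hx (pow_mem hρ K)).mp hcong
    rw [this]
    rfl
  rw [h2, eval_pow_eq_eval_expand]
  exact hg _ (not_C_dvd_expand' hK hp)

/-- **The Gauss property of the root of a Kronecker chain.** -/
theorem gaussAt_root_of_chain (V : ValuationSubring F) (hbase : ∀ r : R, algebraMap R F r ∈ V)
    {w : R} (hw : Prime w) {q : ℕ} (hq : q.Prime) (hqV : (q : F) ∈ V.nonunits)
    (a : ℕ → F) (e : ℕ) (ha : ∀ i ≤ e, a i ∈ V)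
    (hkron : ∀ i < e, (a (i + 1) ^ q - a i) * (a (i + 1) - a i ^ q) ∈ V.nonunits)
    (hg : GaussAt V w (a 0)) :
    ∃ r, r ≤ e ∧ GaussAt V w (a r) ∧ ∃ (K : ℕ) (k : ℕ → ℕ), 0 < K ∧ k r = 0 ∧
      (∀ i ≤ e, a i - a r ^ q ^ k i ∈ V.nonunits) ∧
      (∏ i ∈ Finset.range (e + 1), a i) - a r ^ K ∈ V.nonunits := by
  obtain ⟨r, hr, K, k, hK, hkr, hk, hprod⟩ := exists_root_congr V hq hqV a e ha hkron
  refine ⟨r, hr, ?_, K, k, hK, hkr, hk, hprod⟩
  exact gaussAt_of_frob_pow V hbase hw hq hqV (ha 0 (Nat.zero_le e)) (ha r hr) (k 0)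
    (hk 0 (Nat.zero_le e)) hg

/-- **Every member of a Kronecker chain has the Gauss property.** -/
theorem gaussAt_member_of_chain (V : ValuationSubring F)
    (hbase : ∀ r : R, algebraMap R F r ∈ V)
    {w : R} (hw : Prime w) {q : ℕ} (hq : q.Prime) (hqV : (q : F) ∈ V.nonunits)
    (a : ℕ → F) (e : ℕ) (ha : ∀ i ≤ e, a i ∈ V)
    (hkron : ∀ i < e, (a (i + 1) ^ q - a i) * (a (i + 1) - a i ^ q) ∈ V.nonunits)
    (hg : GaussAt V w (a 0)) : ∀ i ≤ e, GaussAt V w (a i) := by
  obtain ⟨r, hr, hgr, K, k, hK, hkr, hk, hprod⟩ :=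
    gaussAt_root_of_chain V hbase hw hq hqV a e ha hkron hg
  intro i hi
  exact gaussAt_of_congr_pow V hbase (ha i hi) (ha r hr) (pow_pos hq.pos (k i)) (hk i hi) hgr

/-- **The product of a Kronecker chain has the Gauss property.** -/
theorem gaussAt_prod_of_chain (V : ValuationSubring F) (hbase : ∀ r : R, algebraMap R F r ∈ V)
    {w : R} (hw : Prime w) {q : ℕ} (hq : q.Prime) (hqV : (q : F) ∈ V.nonunits)
    (a : ℕ → F) (e : ℕ) (ha : ∀ i ≤ e, a i ∈ V)
    (hkron : ∀ i < e, (a (i + 1) ^ q - a i) * (a (i + 1) - a i ^ q) ∈ V.nonunits)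
    (hg : GaussAt V w (a 0)) : GaussAt V w (∏ i ∈ Finset.range (e + 1), a i) := by
  obtain ⟨r, hr, hgr, K, k, hK, hkr, hk, hprod⟩ :=
    gaussAt_root_of_chain V hbase hw hq hqV a e ha hkron hg
  have hx : (∏ i ∈ Finset.range (e + 1), a i) ∈ V := by
    refine V.toSubring.prod_mem (fun i hi => ha i ?_)
    have := Finset.mem_range.mp hi
    omega
  exact gaussAt_of_congr_pow V hbase hx (ha r hr) hK hprod hgr

end Chain

/-! ## Chains of roots of a modular equation -/

section ModEq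

variable {R F : Type*} [CommRing R] [Field F] [Algebra R F]

/-- a root of a monic two-variable integral polynomial over an element of `V` lies in `V` -/
theorem mem_of_modEq (V : ValuationSubring F) (Φ : Polynomial (Polynomial ℤ)) (hΦ : Φ.Monic)
    {b c : F} (hb : b ∈ V)
    (hmod : Φ.eval₂ (Polynomial.aeval (R := ℤ) b).toRingHom c = 0) : c ∈ V := by
  have hint : IsIntegral V c := by
    refine ⟨Φ.map (Polynomial.aeval (R := ℤ) (⟨b, hb⟩ : V)).toRingHom, hΦ.map _, ?_⟩
    rw [Polynomial.eval₂_map]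
    rw [← hmod]
    congr 1
    apply Polynomial.ringHom_ext
    · intro n
      simp
    · simp
  obtain ⟨y, hy⟩ := IsIntegrallyClosed.isIntegral_iff (R := V) (K := F) |>.mp hint
  rw [← hy]
  exact y.2

/-- **the members of a modular chain lie in `V`** -/
theorem chain_mem (V : ValuationSubring F) (Φ : Polynomial (Polynomial ℤ)) (hΦ : Φ.Monic)
    (a : ℕ → F) (e : ℕ) (ha0 : a 0 ∈ V)
    (hmod : ∀ i < e, Φ.eval₂ (Polynomial.aeval (R := ℤ) (a i)).toRingHom (a (i + 1)) = 0) :
    ∀ i ≤ e, a i ∈ V := by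
  intro i
  induction i with
  | zero => exact fun _ => ha0
  | succ i ih =>
    intro hi
    exact mem_of_modEq V Φ hΦ (ih (by omega)) (hmod i (by omega))

/-- evaluation of a two-variable integral polynomial at elements of a valuation ring -/
theorem eval₂_aeval_mem' (V : ValuationSubring F) {b c : F} (hb : b ∈ V) (hc : c ∈ V)
    (Θ : Polynomial (Polynomial ℤ)) :
    Θ.eval₂ (Polynomial.aeval (R := ℤ) b).toRingHom c ∈ V := by
  have h := Polynomial.hom_eval₂ Θ (Polynomial.aeval (R := ℤ) (⟨b, hb⟩ : V)).toRingHom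
    (V.subtype : V →+* F) ⟨c, hc⟩
  have hcomp : (V.subtype : V →+* F).comp (Polynomial.aeval (R := ℤ) (⟨b, hb⟩ : V)).toRingHom =
      (Polynomial.aeval (R := ℤ) b).toRingHom := by
    apply Polynomial.ringHom_ext
    · intro n
      simp
    · simp
  rw [hcomp] at h
  have h' : Θ.eval₂ (Polynomial.aeval (R := ℤ) b).toRingHom c =
      ((Θ.eval₂ (Polynomial.aeval (R := ℤ) (⟨b, hb⟩ : V)).toRingHom ⟨c, hc⟩ : V) : F) := h.symm
  rw [h']
  exact Subtype.property _

/-- Kronecker's shape, evaluated -/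
theorem eval₂_kron' {S : Type*} [CommRing S] (q : ℕ) (Θ : Polynomial (Polynomial ℤ)) (b c : S) :
    (((Polynomial.X : Polynomial (Polynomial ℤ)) ^ q -
          Polynomial.C (Polynomial.X : Polynomial ℤ)) *
        (Polynomial.X - Polynomial.C ((Polynomial.X : Polynomial ℤ) ^ q)) +
      Polynomial.C (Polynomial.C (q : ℤ)) * Θ).eval₂ (Polynomial.aeval (R := ℤ) b).toRingHom c =
    (c ^ q - b) * (c - b ^ q) + (q : S) * Θ.eval₂ (Polynomial.aeval (R := ℤ) b).toRingHom c := by
  simp [Polynomial.eval₂_add, Polynomial.eval₂_mul, Polynomial.eval₂_sub, Polynomial.eval₂_pow]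

/-- **Kronecker's congruence for a root of the modular equation.** -/
theorem kron_of_modEq (V : ValuationSubring F) {q : ℕ} (hqV : (q : F) ∈ V.nonunits)
    (Φ Θ : Polynomial (Polynomial ℤ))
    (hΘ : Φ = ((Polynomial.X : Polynomial (Polynomial ℤ)) ^ q -
          Polynomial.C (Polynomial.X : Polynomial ℤ)) *
        (Polynomial.X - Polynomial.C ((Polynomial.X : Polynomial ℤ) ^ q)) +
      Polynomial.C (Polynomial.C (q : ℤ)) * Θ)
    {b c : F} (hb : b ∈ V) (hc : c ∈ V)
    (hmod : Φ.eval₂ (Polynomial.aeval (R := ℤ) b).toRingHom c = 0) :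
    (c ^ q - b) * (c - b ^ q) ∈ V.nonunits := by
  have h1 : (c ^ q - b) * (c - b ^ q) +
      (q : F) * Θ.eval₂ (Polynomial.aeval (R := ℤ) b).toRingHom c = 0 := by
    rw [← eval₂_kron', ← hΘ]
    exact hmod
  have h2 : (c ^ q - b) * (c - b ^ q) =
      (q : F) * (-(Θ.eval₂ (Polynomial.aeval (R := ℤ) b).toRingHom c)) := by
    linear_combination h1
  rw [h2, V.mem_nonunits_iff, map_mul]
  have hT : V.valuation (-(Θ.eval₂ (Polynomial.aeval (R := ℤ) b).toRingHom c)) ≤ 1 :=
    (V.valuation_le_one_iff _).mpr (V.neg_mem _ (eval₂_aeval_mem' V hb hc Θ))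
  calc V.valuation (q : F) * V.valuation (-(Θ.eval₂ (Polynomial.aeval (R := ℤ) b).toRingHom c))
      ≤ V.valuation (q : F) * 1 := mul_le_mul' le_rfl hT
    _ = V.valuation (q : F) := mul_one _
    _ < 1 := (V.mem_nonunits_iff).mp hqV

/-- **MOD-E / SHEET, abstract form.**  `V` a valuation ring of `F` containing the image of `R`,
of residue characteristic `q`; `a 0, …, a e` a chain of roots of a monic `Φ ∈ ℤ[X][Y]` of
Kronecker's shape (`Φ(a i, a (i+1)) = 0`); `a 0` has the Gauss property at `V`.  Then all the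
`a i` lie in `V` and have the Gauss property, and so has their product. -/
theorem gaussAt_prod_of_modEq (V : ValuationSubring F) (hbase : ∀ r : R, algebraMap R F r ∈ V)
    {w : R} (hw : Prime w) {q : ℕ} (hq : q.Prime) (hqV : (q : F) ∈ V.nonunits)
    (Φ Θ : Polynomial (Polynomial ℤ)) (hΦ : Φ.Monic)
    (hΘ : Φ = ((Polynomial.X : Polynomial (Polynomial ℤ)) ^ q -
          Polynomial.C (Polynomial.X : Polynomial ℤ)) *
        (Polynomial.X - Polynomial.C ((Polynomial.X : Polynomial ℤ) ^ q)) +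
      Polynomial.C (Polynomial.C (q : ℤ)) * Θ)
    (a : ℕ → F) (e : ℕ)
    (hmod : ∀ i < e, Φ.eval₂ (Polynomial.aeval (R := ℤ) (a i)).toRingHom (a (i + 1)) = 0)
    (hg : GaussAt V w (a 0)) :
    (∀ i ≤ e, GaussAt V w (a i)) ∧ GaussAt V w (∏ i ∈ Finset.range (e + 1), a i) := by
  have ha0 : a 0 ∈ V := (mem_of_gaussAt hw.not_isUnit hg).2.1
  have ha := chain_mem V Φ hΦ a e ha0 hmod
  have hkron : ∀ i < e, (a (i + 1) ^ q - a i) * (a (i + 1) - a i ^ q) ∈ V.nonunits :=
    fun i hi => kron_of_modEq V hqV Φ Θ hΘ (ha i (by omega)) (ha (i + 1) (by omega)) (hmod i hi)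
  exact ⟨gaussAt_member_of_chain V hbase hw hq hqV a e ha hkron hg,
    gaussAt_prod_of_chain V hbase hw hq hqV a e ha hkron hg⟩

end ModEq

/-! ## Adapters -/

section Adapters

variable {R F F' : Type*} [CommRing R] [Field F] [Algebra R F] [Field F'] [Algebra R F']

theorem not_C_dvd_of_exists_coeff' {w : R} {p : Polynomial R}
    (hp : ∃ i, ¬ w ∣ p.coeff i) : ¬ Polynomial.C w ∣ p := by
  obtain ⟨i, hi⟩ := hp
  intro h
  exact hi ((Polynomial.C_dvd_iff_dvd_coeff _ _).mp h i)

/-- the field shape `gauss` of `S45.Eng.CtxE` -/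
theorem GaussAt.weak {V : ValuationSubring F} {w : R} {a : F} (h : GaussAt V w a)
    (P : Polynomial R) (hP : ∃ k, ¬ w ∣ P.coeff k) : (Polynomial.aeval a P)⁻¹ ∈ V :=
  (h P (not_C_dvd_of_exists_coeff' hP)).2.2

/-- the field shape `x_unit` of `S45.Eng.CtxE` (`UnitAt V a` unfolded) -/
theorem GaussAt.unit {V : ValuationSubring F} {w : R} {a : F} (h : GaussAt V w a)
    (hw : ¬ IsUnit w) : a ≠ 0 ∧ a ∈ V ∧ a⁻¹ ∈ V :=
  mem_of_gaussAt hw h

/-- from the weak (inverse only) form to the strong form -/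
theorem gaussAt_of_weak (V : ValuationSubring F) (hbase : ∀ r : R, algebraMap R F r ∈ V)
    {w : R} (hwV : algebraMap R F w ∈ V.nonunits) (hw0 : algebraMap R F w ≠ 0) {a : F}
    (ha : a ∈ V)
    (h : ∀ P : Polynomial R, (∃ k, ¬ w ∣ P.coeff k) → (Polynomial.aeval a P)⁻¹ ∈ V) :
    GaussAt V w a := by
  intro p hp
  have hex : ∀ p' : Polynomial R, ¬ Polynomial.C w ∣ p' → ∃ k, ¬ w ∣ p'.coeff k := by
    intro p' hp'
    by_contra hcon
    apply hp'
    rw [Polynomial.C_dvd_iff_dvd_coeff]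
    intro k
    by_contra hk
    exact hcon ⟨k, hk⟩
  refine ⟨?_, aeval_mem V hbase ha p, h p (hex p hp)⟩
  intro h0
  have hpw : ¬ Polynomial.C w ∣ p + Polynomial.C w := by
    intro hd
    exact hp ((dvd_add_left (dvd_refl _)).mp hd)
  have h1 := h (p + Polynomial.C w) (hex _ hpw)
  rw [map_add, h0, zero_add, Polynomial.aeval_C] at h1
  have h2 : V.valuation (algebraMap R F w) < 1 := (V.mem_nonunits_iff).mp hwV
  have h3 : V.valuation (algebraMap R F w)⁻¹ ≤ 1 := (V.valuation_le_one_iff _).mpr h1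
  rw [map_inv₀] at h3
  have hv0 : 0 < V.valuation (algebraMap R F w) :=
    zero_lt_iff.mpr ((Valuation.ne_zero_iff _).mpr hw0)
  have h4 : 1 ≤ V.valuation (algebraMap R F w) := (inv_le_one₀ hv0).mp h3
  exact absurd h2 (not_lt.mpr h4)

/-- transport of the base along `α : F' → F` with `V.comap α = V'` -/
theorem base_comap (α : F' →+* F) (hα : ∀ r : R, α (algebraMap R F' r) = algebraMap R F r)
    (V' : ValuationSubring F') (V : ValuationSubring F) (hmid : V.comap α = V')
    (hbase' : ∀ r : R, algebraMap R F' r ∈ V') (r : R) : algebraMap R F r ∈ V := by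
  have h := hbase' r
  rw [← hmid, ValuationSubring.mem_comap, hα] at h
  exact h

/-- transport of the Gauss property along `α : F' → F` with `V.comap α = V'` -/
theorem gaussAt_comap (α : F' →+* F) (hα : ∀ r : R, α (algebraMap R F' r) = algebraMap R F r)
    (V' : ValuationSubring F') (V : ValuationSubring F) (hmid : V.comap α = V')
    {w : R} {a : F'} (hg : GaussAt V' w a) : GaussAt V w (α a) := by
  intro p hp
  obtain ⟨h0, h1, h2⟩ := hg p hp
  have e : Polynomial.aeval (α a) p = α (Polynomial.aeval a p) := by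
    rw [Polynomial.aeval_def, Polynomial.aeval_def, Polynomial.hom_eval₂]
    congr 1
    ext r
    exact (hα r).symm
  rw [e]
  refine ⟨(_root_.map_ne_zero α).mpr h0, ?_, ?_⟩
  · rw [← hmid] at h1
    exact h1
  · rw [← hmid, ValuationSubring.mem_comap, map_inv₀] at h2
    exact h2

/-- ... and back -/
theorem gaussAt_of_comap (α : F' →+* F) (hα : ∀ r : R, α (algebraMap R F' r) = algebraMap R F r)
    (V' : ValuationSubring F') (V : ValuationSubring F) (hmid : V.comap α = V')
    {w : R} {a : F'} (hg : GaussAt V w (α a)) : GaussAt V' w a := by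
  intro p hp
  obtain ⟨h0, h1, h2⟩ := hg p hp
  have e : Polynomial.aeval (α a) p = α (Polynomial.aeval a p) := by
    rw [Polynomial.aeval_def, Polynomial.aeval_def, Polynomial.hom_eval₂]
    congr 1
    ext r
    exact (hα r).symm
  rw [e] at h0 h1 h2
  refine ⟨fun h => h0 (by rw [h, map_zero]), ?_, ?_⟩
  · rw [← hmid]
    exact h1
  · rw [← hmid, ValuationSubring.mem_comap, map_inv₀]
    exact h2

end Adapters



end Fermat.Agent.S45.H860

end

end
-- ===== PACK-END S45/H860/SheetEAbs.lean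

-- ===== PACK-BEGIN S45/H860/SheetEConv.lean
section


/-!
# S45 / CAR3 / MOD-E — leaf SHEET, abstract part II: the converse (helper860; Mathlib only)

`R` a commutative ring, `w ∈ R` generating a MAXIMAL ideal (a uniformiser of a DVR), `V` a
valuation ring of `F` containing the image of `R`, `w ∈ 𝔪_V`.

* `exists_poly_pow`, `exists_poly_of_integral` : algebraicity over `k = R / w` in terms of
                                  polynomials over `R` not divisible by `w`;
* `gaussAt_of_pow_congr`       : `x ≡ ρ ^ K` (`K > 0`), Gauss(`x`) ⟹ Gauss(`ρ`);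
* `gaussAt_of_integral`        : Gauss(`b`), `b` a root of a monic polynomial with coefficients
                                  in `R[a]`, `a ∈ V` ⟹ Gauss(`a`);
* `gaussAt_member_of_prod`     : for a Kronecker chain `a 0, …, a e` in `V`:
                                  Gauss(`∏ a i`) ⟹ Gauss(`a i`) for all `i ≤ e`.
-/

set_option autoImplicit false
set_option linter.style.haveILetI false
set_option linter.unusedSectionVars false
set_option linter.unusedVariables false

noncomputable section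

namespace Fermat.Agent.S45.H860

open Polynomial

section ResidueField

variable {R κ k : Type*} [CommRing R] [Field κ] [Field k]

/-- `ρ` is a root of some `p ∈ R[X]` with `π p ≠ 0` iff `ρ` is algebraic over `k = π(R)`. -/
theorem isAlgebraic_iff_exists_poly_aux [Algebra k κ] (π : R →+* k)
    (hπ : Function.Surjective π) (ρ : κ) :
    IsAlgebraic k ρ ↔
      ∃ p : Polynomial R, p.map π ≠ 0 ∧ (p.map ((algebraMap k κ).comp π)).eval ρ = 0 := by
  have hmap : ∀ p : Polynomial R,
      (p.map π).map (algebraMap k κ) = p.map ((algebraMap k κ).comp π) := by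
    intro p
    rw [Polynomial.map_map]
  constructor
  · rintro ⟨P, hP0, hP⟩
    obtain ⟨p, rfl⟩ := Polynomial.map_surjective π hπ P
    refine ⟨p, hP0, ?_⟩
    rw [Polynomial.aeval_def, Polynomial.eval₂_eq_eval_map, hmap] at hP
    exact hP
  · rintro ⟨p, hp, h0⟩
    refine ⟨p.map π, hp, ?_⟩
    rw [Polynomial.aeval_def, Polynomial.eval₂_eq_eval_map, hmap]
    exact h0

/-- roots of powers -/
theorem exists_poly_pow_aux [Algebra k κ] (π : R →+* k) (hπ : Function.Surjective π)
    (ρ : κ) (K : ℕ)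
    (h : ∃ p : Polynomial R, p.map π ≠ 0 ∧ (p.map ((algebraMap k κ).comp π)).eval ρ = 0) :
    ∃ p : Polynomial R, p.map π ≠ 0 ∧
      (p.map ((algebraMap k κ).comp π)).eval (ρ ^ K) = 0 := by
  rw [← isAlgebraic_iff_exists_poly_aux π hπ] at h ⊢
  exact h.pow K

/-- roots of elements integral over `k[ρ]` -/
theorem exists_poly_of_integral_aux [Algebra k κ] (π : R →+* k) (hπ : Function.Surjective π)
    (ρ σ : κ) (Ψ : Polynomial (Polynomial R)) (hΨ : Ψ.Monic)
    (hσ : Ψ.eval₂ ((Polynomial.eval₂RingHom ((algebraMap k κ).comp π) ρ)) σ = 0)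
    (h : ∃ p : Polynomial R, p.map π ≠ 0 ∧ (p.map ((algebraMap k κ).comp π)).eval ρ = 0) :
    ∃ p : Polynomial R, p.map π ≠ 0 ∧ (p.map ((algebraMap k κ).comp π)).eval σ = 0 := by
  rw [← isAlgebraic_iff_exists_poly_aux π hπ] at h ⊢
  have hρ : IsIntegral k ρ := h.isIntegral
  have hint : IsIntegral (Algebra.adjoin k ({ρ} : Set κ)) σ := by
    let ρS : Algebra.adjoin k ({ρ} : Set κ) := ⟨ρ, Algebra.subset_adjoin rfl⟩
    let f : Polynomial R →+* Algebra.adjoin k ({ρ} : Set κ) :=
      (Polynomial.aeval (R := k) ρS).toRingHom.comp (Polynomial.mapRingHom π)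
    refine ⟨Ψ.map f, hΨ.map f, ?_⟩
    rw [Polynomial.eval₂_map]
    have hcomp : (algebraMap (Algebra.adjoin k ({ρ} : Set κ)) κ).comp f =
        Polynomial.eval₂RingHom ((algebraMap k κ).comp π) ρ := by
      apply Polynomial.ringHom_ext
      · intro r
        simp [f]
      · simp [f, ρS]
    rw [hcomp]
    exact hσ
  have hρ' : Algebra.IsIntegral k (Algebra.adjoin k ({ρ} : Set κ)) := by
    rw [← le_integralClosure_iff_isIntegral]
    exact Algebra.adjoin_le (by
      intro x hx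
      rw [Set.mem_singleton_iff] at hx
      rw [hx]
      exact hρ)
  exact (isIntegral_trans (R := k) σ hint).isAlgebraic

end ResidueField

section Quot

variable {R κ : Type*} [CommRing R] [Field κ]

/-- the quotient map `R / w → κ` -/
def quotHom (ι : R →+* κ) {w : R} (hw : ι w = 0) : R ⧸ Ideal.span ({w} : Set R) →+* κ :=
  Ideal.Quotient.lift (Ideal.span ({w} : Set R)) ι (fun a ha => by
    obtain ⟨c, rfl⟩ := Ideal.mem_span_singleton.mp ha
    rw [map_mul, hw, zero_mul])

theorem map_mk_eq_zero_iff {w : R} (p : Polynomial R) :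
    p.map (Ideal.Quotient.mk (Ideal.span ({w} : Set R))) = 0 ↔ Polynomial.C w ∣ p := by
  rw [Polynomial.C_dvd_iff_dvd_coeff, Polynomial.ext_iff]
  refine forall_congr' (fun i => ?_)
  rw [Polynomial.coeff_map, Polynomial.coeff_zero, Ideal.Quotient.eq_zero_iff_mem,
    Ideal.mem_span_singleton]

/-- roots of powers -/
theorem exists_poly_pow (ι : R →+* κ) {w : R} (hw : ι w = 0)
    [hmax : (Ideal.span ({w} : Set R)).IsMaximal] (ρ : κ) (K : ℕ)
    (h : ∃ p : Polynomial R, ¬ Polynomial.C w ∣ p ∧ (p.map ι).eval ρ = 0) :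
    ∃ p : Polynomial R, ¬ Polynomial.C w ∣ p ∧ (p.map ι).eval (ρ ^ K) = 0 := by
  letI iF : Field (R ⧸ Ideal.span ({w} : Set R)) := Ideal.Quotient.field _
  letI iA : Algebra (R ⧸ Ideal.span ({w} : Set R)) κ :=
    @RingHom.toAlgebra _ _ iF.toCommRing.toCommSemiring _ (quotHom ι hw)
  obtain ⟨p, hp, h0⟩ := h
  have key := @exists_poly_pow_aux R κ (R ⧸ Ideal.span ({w} : Set R)) _ _ iF iA
    (Ideal.Quotient.mk (Ideal.span ({w} : Set R))) Ideal.Quotient.mk_surjective ρ K
    ⟨p, fun h => hp ((map_mk_eq_zero_iff p).mp h), h0⟩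
  obtain ⟨Q, hQ, hQ0⟩ := key
  exact ⟨Q, fun h => hQ ((map_mk_eq_zero_iff Q).mpr h), hQ0⟩

/-- roots of elements integral over `k[ρ]` -/
theorem exists_poly_of_integral (ι : R →+* κ) {w : R} (hw : ι w = 0)
    [hmax : (Ideal.span ({w} : Set R)).IsMaximal] (ρ σ : κ)
    (Ψ : Polynomial (Polynomial R)) (hΨ : Ψ.Monic)
    (hσ : Ψ.eval₂ ((Polynomial.eval₂RingHom ι ρ)) σ = 0)
    (h : ∃ p : Polynomial R, ¬ Polynomial.C w ∣ p ∧ (p.map ι).eval ρ = 0) :
    ∃ p : Polynomial R, ¬ Polynomial.C w ∣ p ∧ (p.map ι).eval σ = 0 := by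
  letI iF : Field (R ⧸ Ideal.span ({w} : Set R)) := Ideal.Quotient.field _
  letI iA : Algebra (R ⧸ Ideal.span ({w} : Set R)) κ :=
    @RingHom.toAlgebra _ _ iF.toCommRing.toCommSemiring _ (quotHom ι hw)
  obtain ⟨p, hp, h0⟩ := h
  have key := @exists_poly_of_integral_aux R κ (R ⧸ Ideal.span ({w} : Set R)) _ _ iF iA
    (Ideal.Quotient.mk (Ideal.span ({w} : Set R))) Ideal.Quotient.mk_surjective ρ σ Ψ hΨ hσ
    ⟨p, fun h => hp ((map_mk_eq_zero_iff p).mp h), h0⟩
  obtain ⟨Q, hQ, hQ0⟩ := key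
  exact ⟨Q, fun h => hQ ((map_mk_eq_zero_iff Q).mpr h), hQ0⟩

end Quot



section Conv

variable {R F : Type*} [CommRing R] [Field F] [Algebra R F]

theorem resHom_w (V : ValuationSubring F) (hbase : ∀ r : R, algebraMap R F r ∈ V) {w : R}
    (hwV : algebraMap R F w ∈ V.nonunits) : resHom V hbase w = 0 := by
  show IsLocalRing.residue V (baseHom V hbase w) = 0
  rw [IsLocalRing.residue_eq_zero_iff]
  have h : ((baseHom V hbase w : V) : F) ∈ V.nonunits := hwV
  rwa [ValuationSubring.coe_mem_nonunits_iff] at h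

/-- **transfer of the Gauss property from `x ≡ ρ ^ K` to `ρ`** -/
theorem gaussAt_of_pow_congr (V : ValuationSubring F) (hbase : ∀ r : R, algebraMap R F r ∈ V)
    {w : R} [hmax : (Ideal.span ({w} : Set R)).IsMaximal]
    (hwV : algebraMap R F w ∈ V.nonunits)
    {x ρ : F} (hx : x ∈ V) (hρ : ρ ∈ V) (K : ℕ)
    (hcong : x - ρ ^ K ∈ V.nonunits) (hg : GaussAt V w x) : GaussAt V w ρ := by
  rw [gaussAt_iff_residue V hbase w hρ]
  rw [gaussAt_iff_residue V hbase w hx] at hg
  intro p hp h0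
  have h2 : IsLocalRing.residue V ⟨x, hx⟩ = (IsLocalRing.residue V ⟨ρ, hρ⟩) ^ K := by
    have := (sub_mem_nonunits_iff V hx (pow_mem hρ K)).mp hcong
    rw [this]
    rfl
  obtain ⟨Q, hQ, hQ0⟩ := exists_poly_pow (resHom V hbase) (resHom_w V hbase hwV)
    (IsLocalRing.residue V ⟨ρ, hρ⟩) K ⟨p, hp, h0⟩
  rw [← h2] at hQ0
  exact hg Q hQ hQ0

/-- **Kronecker chains: the Gauss property of the product gives the one of every member.** -/
theorem gaussAt_member_of_prod (V : ValuationSubring F)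
    (hbase : ∀ r : R, algebraMap R F r ∈ V)
    {w : R} [hmax : (Ideal.span ({w} : Set R)).IsMaximal]
    (hwV : algebraMap R F w ∈ V.nonunits) {q : ℕ} (hq : q.Prime) (hqV : (q : F) ∈ V.nonunits)
    (a : ℕ → F) (e : ℕ) (ha : ∀ i ≤ e, a i ∈ V)
    (hkron : ∀ i < e, (a (i + 1) ^ q - a i) * (a (i + 1) - a i ^ q) ∈ V.nonunits)
    (hg : GaussAt V w (∏ i ∈ Finset.range (e + 1), a i)) : ∀ i ≤ e, GaussAt V w (a i) := by
  obtain ⟨r, hr, K, k, hK, hkr, hk, hprod⟩ := exists_root_congr V hq hqV a e ha hkron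
  have hx : (∏ i ∈ Finset.range (e + 1), a i) ∈ V := by
    refine V.toSubring.prod_mem (fun i hi => ha i ?_)
    have := Finset.mem_range.mp hi
    omega
  have hgr : GaussAt V w (a r) := gaussAt_of_pow_congr V hbase hwV hx (ha r hr) K hprod hg
  intro i hi
  exact gaussAt_of_congr_pow V hbase (ha i hi) (ha r hr) (pow_pos hq.pos (k i)) (hk i hi) hgr

/-- **transfer of the Gauss property along an integral relation**: `b` a root of a monic
polynomial with coefficients in `R[a]`, `a ∈ V`, Gauss(`b`) ⟹ Gauss(`a`). -/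
theorem gaussAt_of_integral (V : ValuationSubring F) (hbase : ∀ r : R, algebraMap R F r ∈ V)
    {w : R} [hmax : (Ideal.span ({w} : Set R)).IsMaximal]
    (hwV : algebraMap R F w ∈ V.nonunits)
    {a b : F} (ha : a ∈ V) (hb : b ∈ V)
    (Ψ : Polynomial (Polynomial R)) (hΨ : Ψ.Monic)
    (hrel : Ψ.eval₂ (Polynomial.aeval (R := R) a).toRingHom b = 0)
    (hg : GaussAt V w b) : GaussAt V w a := by
  rw [gaussAt_iff_residue V hbase w ha]
  rw [gaussAt_iff_residue V hbase w hb] at hg
  intro p hp h0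
  have hσ : Ψ.eval₂ (Polynomial.eval₂RingHom (resHom V hbase) (IsLocalRing.residue V ⟨a, ha⟩))
      (IsLocalRing.residue V ⟨b, hb⟩) = 0 := by
    -- the relation in `V`
    have hV : Ψ.eval₂ (Polynomial.eval₂RingHom (baseHom V hbase) ⟨a, ha⟩) (⟨b, hb⟩ : V) = 0 := by
      apply Subtype.ext
      have h := Polynomial.hom_eval₂ Ψ (Polynomial.eval₂RingHom (baseHom V hbase) ⟨a, ha⟩)
        (V.subtype : V →+* F) ⟨b, hb⟩
      have hcomp : (V.subtype : V →+* F).comp
          (Polynomial.eval₂RingHom (baseHom V hbase) ⟨a, ha⟩) =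
          (Polynomial.aeval (R := R) a).toRingHom := by
        apply Polynomial.ringHom_ext
        · intro r
          simp [baseHom]
        · simp
      rw [hcomp] at h
      have h' : ((Ψ.eval₂ (Polynomial.eval₂RingHom (baseHom V hbase) ⟨a, ha⟩) (⟨b, hb⟩ : V) : V) :
          F) = Ψ.eval₂ (Polynomial.aeval (R := R) a).toRingHom b := h
      rw [h', hrel]
      rfl
    have h := congrArg (IsLocalRing.residue V) hV
    rw [Polynomial.hom_eval₂, map_zero] at h
    have hcomp : (IsLocalRing.residue V).comp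
        (Polynomial.eval₂RingHom (baseHom V hbase) ⟨a, ha⟩) =
        Polynomial.eval₂RingHom (resHom V hbase) (IsLocalRing.residue V ⟨a, ha⟩) := by
      apply Polynomial.ringHom_ext
      · intro r
        simp [resHom]
      · simp
    rw [hcomp] at h
    exact h
  obtain ⟨Q, hQ, hQ0⟩ := exists_poly_of_integral (resHom V hbase) (resHom_w V hbase hwV)
    (IsLocalRing.residue V ⟨a, ha⟩) (IsLocalRing.residue V ⟨b, hb⟩) Ψ hΨ hσ ⟨p, hp, h0⟩
  exact hg Q hQ hQ0

end Conv

end Fermat.Agent.S45.H860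

end

end
-- ===== PACK-END S45/H860/SheetEConv.lean

-- ===== PACK-BEGIN S45/H922/PrincFam.lean
section


/-!
# S45 / CAR3, MOD-E/Reg (helper922): `PrincipalAt` from a unit quotient, FAMILY form

Family version of helper878's `S36.H878.principalAt_of_unit_self'` (route R4 of S36/REG): the
three valuation rings `V₁, V₂, V₃` are replaced by an arbitrary family `V : ι → ValuationSubring F`
and `Eng.Qep3` by the hypothesis

  `hqep : ∀ b : B, (∀ j, b / w ∈ V j) → ∃ c : B, b = w c`     (`q`-expansion principle).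

`B ⊆ ⋂ V j` a chart, `𝔪` a closed point on the component `V i`,

* `U ∈ B` a unit of `B[1/w]` (`U d = w ^ k`) and a unit of every `V j`, `j ≠ i`;
* `v_i(U) = N` (`U / t ^ N` a unit of `V i`, `t` a uniformiser of `V i`);
* `x, g ∈ B`, `g ∉ 𝔪`, `x ^ N / U ≡ g` modulo `𝔪_{V i}`.

Then `x` is a uniformiser of `V i` and `Eng.PrincipalAt B 𝔪 (V i)` holds with generator `x`.
No noetherianity, no Hartogs lemma, no localisation.

* `qepFam_pow922`                 : the `q`-expansion principle, iterated;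
* `principalAt_of_unit_fam922`    : `x` a uniformiser of `V i`;
* `principalAt_of_unit_fam922'`   : divisor form (`v_i(U) = N`).
-/

set_option autoImplicit false

namespace Fermat.Agent.S45.H922

open Fermat.Agent.S36.Eng

variable {R F : Type*} [CommRing R] [Field F] [Algebra R F] {ι : Type*}

/-- The `q`-expansion principle for a family, iterated: an element `b / w ^ k` (`b ∈ B`) of
`⋂ V j` lies in `B`. -/
theorem qepFam_pow922 (w : R) (B : Subalgebra R F) (V : ι → ValuationSubring F)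
    (hw0 : algebraMap R F w ≠ 0) (hw : ∀ j, algebraMap R F w ∈ V j)
    (hqep : ∀ b : B, (∀ j, (b : F) * (algebraMap R F w)⁻¹ ∈ V j) →
      ∃ c : B, b = algebraMap R B w * c)
    (k : ℕ) (b : B) (h : ∀ j, (b : F) * (algebraMap R F w ^ k)⁻¹ ∈ V j) :
    ∃ c : B, (c : F) = (b : F) * (algebraMap R F w ^ k)⁻¹ := by
  induction k generalizing b with
  | zero => exact ⟨b, by simp⟩
  | succ k ih =>
    have e : (b : F) * (algebraMap R F w)⁻¹
        = (b : F) * (algebraMap R F w ^ (k + 1))⁻¹ * algebraMap R F w ^ k := by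
      rw [pow_succ, mul_inv, mul_assoc, mul_assoc, mul_comm (algebraMap R F w)⁻¹,
        inv_mul_cancel_left₀ (pow_ne_zero k hw0)]
    obtain ⟨c, hc⟩ := hqep b
      (fun j => by rw [e]; exact (V j).mul_mem _ _ (h j) (pow_mem (hw j) k))
    have hcF : (b : F) = algebraMap R F w * (c : F) := by
      have := congrArg (fun t : B => (t : F)) hc
      simpa using this
    have e' : (c : F) * (algebraMap R F w ^ k)⁻¹
        = (b : F) * (algebraMap R F w ^ (k + 1))⁻¹ := by
      rw [hcF, pow_succ, mul_inv]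
      field_simp
    obtain ⟨c', hc'⟩ := ih c (fun j => by rw [e']; exact h j)
    exact ⟨c', by rw [hc', e']⟩

/-- **PU-self for a family, elementwise.** -/
theorem principalAt_of_unit_fam922 (w : R) (B : Subalgebra R F) (V : ι → ValuationSubring F)
    (i : ι) (hw0 : algebraMap R F w ≠ 0)
    (hB : ∀ j, ∀ b : B, (b : F) ∈ V j)
    (hqep : ∀ b : B, (∀ j, (b : F) * (algebraMap R F w)⁻¹ ∈ V j) →
      ∃ c : B, b = algebraMap R B w * c)
    (𝔪 : Ideal B) (hthr : Through B 𝔪 (V i))
    (x U d g : B) (k N : ℕ) (hN : 0 < N)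
    (hUd : U * d = algebraMap R B w ^ k)
    (hU : ∀ j, j ≠ i → (U : F)⁻¹ ∈ V j)
    (hx : UnifAt (V i) (x : F)) (hg : g ∉ 𝔪)
    (hres : ((x : F) ^ N - (g : F) * (U : F)) * (U : F)⁻¹ ∈ (V i).nonunits) :
    PrincipalAt B 𝔪 (V i) := by
  classical
  have hwV : ∀ j, algebraMap R F w ∈ V j := fun j => by
    simpa using hB j (algebraMap R B w)
  have hwk0 : algebraMap R F w ^ k ≠ 0 := pow_ne_zero k hw0
  have hUdF : (U : F) * (d : F) = algebraMap R F w ^ k := by
    have := congrArg (fun t : B => (t : F)) hUd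
    simpa using this
  have hU0 : (U : F) ≠ 0 := by
    intro h
    rw [h, zero_mul] at hUdF
    exact hwk0 hUdF.symm
  have hd0 : (d : F) ≠ 0 := by
    intro h
    rw [h, mul_zero] at hUdF
    exact hwk0 hUdF.symm
  have hUinv : (U : F)⁻¹ = (d : F) * (algebraMap R F w ^ k)⁻¹ := by
    rw [← hUdF]
    field_simp
  -- `ω = x ^ N / U`
  have hωsplit : (x : F) ^ N * (U : F)⁻¹
      = ((x : F) ^ N - (g : F) * (U : F)) * (U : F)⁻¹ + (g : F) := by
    rw [sub_mul, mul_assoc (g : F), mul_inv_cancel₀ hU0, mul_one, sub_add_cancel]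
  have hres' : ((x : F) ^ N - (g : F) * (U : F)) * (U : F)⁻¹ ∈ V i :=
    ((V i).valuation_le_one_iff _).1 (((V i).mem_nonunits_iff).1 hres).le
  have hωi : (x : F) ^ N * (U : F)⁻¹ ∈ V i := by
    rw [hωsplit]
    exact (V i).add_mem _ _ hres' (hB i g)
  have hωall : ∀ j, (x : F) ^ N * (U : F)⁻¹ ∈ V j := fun j => by
    by_cases hj : j = i
    · subst hj; exact hωi
    · exact (V j).mul_mem _ _ (pow_mem (hB j x) N) (hU j hj)
  obtain ⟨ω, hω⟩ := qepFam_pow922 w B V hw0 hwV hqep k (x ^ N * d) (fun j => by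
    have : ((x ^ N * d : B) : F) * (algebraMap R F w ^ k)⁻¹ = (x : F) ^ N * (U : F)⁻¹ := by
      rw [hUinv]; push_cast; ring
    rw [this]
    exact hωall j)
  have hωF : (ω : F) = (x : F) ^ N * (U : F)⁻¹ := by
    rw [hω, hUinv]; push_cast; ring
  -- `ω ∉ 𝔪`
  have hω𝔪 : ω ∉ 𝔪 := by
    intro hmem
    have h1 : ω - g ∈ 𝔪 := by
      apply hthr
      have : ((ω - g : B) : F) = ((x : F) ^ N - (g : F) * (U : F)) * (U : F)⁻¹ := by
        push_cast
        rw [hωF, hωsplit]
        ring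
      rw [this]
      exact hres
    apply hg
    have := 𝔪.sub_mem hmem h1
    simpa using this
  obtain ⟨hx0, hxnu, hxunif⟩ := hx
  refine ⟨x, hxnu, fun a ha => ?_⟩
  -- `z = a x ^ (N - 1) / U`
  obtain ⟨N', rfl⟩ : ∃ N', N = N' + 1 := ⟨N - 1, by omega⟩
  have hzi : (a : F) * (x : F) ^ N' * (U : F)⁻¹ ∈ V i := by
    have : (a : F) * (x : F) ^ N' * (U : F)⁻¹
        = ((a : F) * (x : F)⁻¹) * ((x : F) ^ (N' + 1) * (U : F)⁻¹) := by
      rw [pow_succ]
      field_simp
    rw [this]
    exact (V i).mul_mem _ _ (hxunif _ ha) hωi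
  have hzall : ∀ j, (a : F) * (x : F) ^ N' * (U : F)⁻¹ ∈ V j := fun j => by
    by_cases hj : j = i
    · subst hj; exact hzi
    · exact (V j).mul_mem _ _ ((V j).mul_mem _ _ (hB j a) (pow_mem (hB j x) N')) (hU j hj)
  obtain ⟨z, hz⟩ := qepFam_pow922 w B V hw0 hwV hqep k (a * x ^ N' * d) (fun j => by
    have : ((a * x ^ N' * d : B) : F) * (algebraMap R F w ^ k)⁻¹
        = (a : F) * (x : F) ^ N' * (U : F)⁻¹ := by
      rw [hUinv]; push_cast; ring
    rw [this]
    exact hzall j)
  have hzF : (z : F) = (a : F) * (x : F) ^ N' * (U : F)⁻¹ := by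
    rw [hz, hUinv]; push_cast; ring
  refine ⟨ω, z, hω𝔪, ?_⟩
  apply Subtype.ext
  push_cast
  rw [hωF, hzF, pow_succ]
  ring

/-- **PU-self for a family, divisor form**: `v_i(U) = N` (`U / t ^ N` a unit of `V i` for a
uniformiser `t`) instead of "`x` is a uniformiser of `V i`"; `x` IS then a uniformiser. -/
theorem principalAt_of_unit_fam922' (w : R) (B : Subalgebra R F) (V : ι → ValuationSubring F)
    (i : ι) (hw0 : algebraMap R F w ≠ 0)
    (hB : ∀ j, ∀ b : B, (b : F) ∈ V j)
    (hqep : ∀ b : B, (∀ j, (b : F) * (algebraMap R F w)⁻¹ ∈ V j) →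
      ∃ c : B, b = algebraMap R B w * c)
    (𝔪 : Ideal B) (hthr : Through B 𝔪 (V i))
    (x U d g : B) (k N : ℕ) (hN : 0 < N)
    (hUd : U * d = algebraMap R B w ^ k)
    (hU : ∀ j, j ≠ i → (U : F)⁻¹ ∈ V j)
    (t : F) (ht : UnifAt (V i) t) (hUi : UnitAt (V i) ((U : F) * (t ^ N)⁻¹))
    (hg : g ∉ 𝔪)
    (hres : ((x : F) ^ N - (g : F) * (U : F)) * (U : F)⁻¹ ∈ (V i).nonunits) :
    UnifAt (V i) (x : F) ∧ PrincipalAt B 𝔪 (V i) := by
  have hwk0 : algebraMap R F w ^ k ≠ 0 := pow_ne_zero k hw0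
  have hUdF : (U : F) * (d : F) = algebraMap R F w ^ k := by
    have := congrArg (fun t : B => (t : F)) hUd
    simpa using this
  have hU0 : (U : F) ≠ 0 := by
    intro h
    rw [h, zero_mul] at hUdF
    exact hwk0 hUdF.symm
  -- `g` is a unit of `V i`
  have hvg : (V i).valuation (g : F) = 1 := by
    have h1 : (V i).valuation (g : F) ≤ 1 := ((V i).valuation_le_one_iff _).2 (hB i g)
    rcases lt_or_eq_of_le h1 with h | h
    · exact absurd (hthr g (((V i).mem_nonunits_iff).2 h)) hg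
    · exact h
  -- `x ^ N / U` is a unit of `V i`
  have hsplit : (x : F) ^ N * (U : F)⁻¹
      = ((x : F) ^ N - (g : F) * (U : F)) * (U : F)⁻¹ + (g : F) := by
    rw [sub_mul, mul_assoc (g : F), mul_inv_cancel₀ hU0, mul_one, sub_add_cancel]
  have hone : (V i).valuation ((x : F) ^ N * (U : F)⁻¹) = 1 := by
    rw [hsplit, ← hvg]
    apply Valuation.map_add_eq_of_lt_right
    rw [hvg]
    exact ((V i).mem_nonunits_iff).1 hres
  have hvU : (V i).valuation (U : F) = (V i).valuation t ^ N := by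
    have h := Fermat.Agent.S36.H878.valuation_eq_one_of_unitAt (V i) hUi
    rw [map_mul, map_inv₀, map_pow] at h
    have hne : (V i).valuation t ^ N ≠ 0 := by
      apply pow_ne_zero
      rw [Ne, map_eq_zero]; exact ht.1
    calc (V i).valuation (U : F)
        = (V i).valuation (U : F) * ((V i).valuation t ^ N)⁻¹ * (V i).valuation t ^ N := by
          rw [mul_assoc, inv_mul_cancel₀ hne, mul_one]
      _ = (V i).valuation t ^ N := by rw [h, one_mul]
  have hvx : (V i).valuation (x : F) ^ N = (V i).valuation t ^ N := by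
    rw [map_mul, map_inv₀, map_pow] at hone
    have hne : (V i).valuation (U : F) ≠ 0 := by rw [Ne, map_eq_zero]; exact hU0
    calc (V i).valuation (x : F) ^ N
        = (V i).valuation (x : F) ^ N * ((V i).valuation (U : F))⁻¹ * (V i).valuation (U : F) := by
          rw [mul_assoc, inv_mul_cancel₀ hne, mul_one]
      _ = (V i).valuation t ^ N := by rw [hone, one_mul, hvU]
  have hxu : UnifAt (V i) (x : F) :=
    Fermat.Agent.S36.H878.unifAt_of_pow (V i) t (x : F) N hN ht hvx
  exact ⟨hxu, principalAt_of_unit_fam922 w B V i hw0 hB hqep 𝔪 hthr x U d g k N hN hUd hU hxu hg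
    hres⟩

end Fermat.Agent.S45.H922

end
-- ===== PACK-END S45/H922/PrincFam.lean

-- ===== PACK-BEGIN S45/ModE/H843/LiteFam.lean
section


/-!
# S45 / CAR3 / MOD-E / REG, leaf A2: REG-lite in FAMILY form (helper843)

Family form of `S36.H876.principalAt_lite` (= `S36.H843.principalAt_lite`), in the vocabulary of
`S36.Eng.Spec` (`Through`, `UnifAt`, `UnitAt`, `PrincipalAt`), for a chart `B` whose special fibre
has the components `V j`, `j ≤ e`, with ARBITRARY multiplicities.

`B ⊆ ⋂_{j ≤ e} V j` with the `q`-expansion principle in family form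

    `qep : ∀ b : B, (∀ j ≤ e, b / w ∈ V j) → ∃ c : B, b = w c`        (= `ModE.QepE w B e V`),

`ram : ∀ j ≤ e, ∃ t, UnifAt (V j) t ∧ UnitAt (V j) (w / t ^ μ j)`, and a prime `𝔪` of `B` lying on
the component `V i` ONLY.  If `x ∈ B` is a uniformiser of `V i`, `g₁ ∈ B ∖ 𝔪`, `g₂ ∈ B` and

    `x ^ N · g₂ ≡ w ^ k · g₁`   modulo `w ^ k · 𝔪_{V i}`,

then `x` generates `B ∩ 𝔪_{V i}` locally at `𝔪`: `Eng.PrincipalAt B 𝔪 (V i)`.

NO noetherianity, NO Hartogs lemma, NO normality, NO modular unit, NO DVR instance: the only use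
of `ram` is `h ∈ 𝔪_{V j} ⟹ h ^ (μ j · k) / w ^ k ∈ V j`.

* `liteFam_qep_pow`          : the `q`-expansion principle, iterated;
* `liteFam_pow_div_mem`      : `h ∈ 𝔪_V`, `w = unit · t ^ μ` ⟹ `h ^ (μ k) / w ^ k ∈ V`;
* `liteFam_exists_aux`       : `H ∈ B ∖ 𝔪` with `H / w ^ k ∈ V j` for all `j ≤ e`, `j ≠ i`;
* `principalAt_lite_fam`     : the statement above;
* `principalAt_lite_fam'`    : the same with `w ^ k = unit · t ^ N` (`t` a uniformiser of `V i`) and
                               `g₂ ∉ 𝔪` instead of "`x` is a uniformiser";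
* `principalAt_lite_fam_ram` : the same with `N = μ i · k` read off from `ram`.
-/

set_option autoImplicit false

namespace Fermat.Agent.S45.ModE.H843

open Fermat.Agent.S36.Eng

variable {R F : Type*} [CommRing R] [Field F] [Algebra R F]

/-- The `q`-expansion principle in family form, iterated: an element `b / w ^ k` (`b ∈ B`) of
`⋂_{j ≤ e} V j` lies in `B`. -/
theorem liteFam_qep_pow (w : R) (e : ℕ) (B : Subalgebra R F) (V : ℕ → ValuationSubring F)
    (hw0 : algebraMap R F w ≠ 0) (hw : ∀ j ≤ e, algebraMap R F w ∈ V j)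
    (hqep : ∀ b : B, (∀ j ≤ e, (b : F) * (algebraMap R F w)⁻¹ ∈ V j) →
      ∃ c : B, b = algebraMap R B w * c)
    (k : ℕ) (b : B) (h : ∀ j ≤ e, (b : F) * (algebraMap R F w ^ k)⁻¹ ∈ V j) :
    ∃ c : B, (c : F) = (b : F) * (algebraMap R F w ^ k)⁻¹ := by
  induction k generalizing b with
  | zero => exact ⟨b, by simp⟩
  | succ k ih =>
    have e1 : (b : F) * (algebraMap R F w)⁻¹
        = (b : F) * (algebraMap R F w ^ (k + 1))⁻¹ * algebraMap R F w ^ k := by
      rw [pow_succ, mul_inv, mul_assoc, mul_assoc, mul_comm (algebraMap R F w)⁻¹,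
        inv_mul_cancel_left₀ (pow_ne_zero k hw0)]
    obtain ⟨c, hc⟩ := hqep b
      (fun j hj => by rw [e1]; exact (V j).mul_mem _ _ (h j hj) (pow_mem (hw j hj) k))
    have hcF : (b : F) = algebraMap R F w * (c : F) := by
      have := congrArg (fun t : B => (t : F)) hc
      simpa using this
    have e' : (c : F) * (algebraMap R F w ^ k)⁻¹
        = (b : F) * (algebraMap R F w ^ (k + 1))⁻¹ := by
      rw [hcF, pow_succ, mul_inv]
      field_simp
    obtain ⟨c', hc'⟩ := ih c (fun j hj => by rw [e']; exact h j hj)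
    exact ⟨c', by rw [hc', e']⟩

/-- `h ∈ 𝔪_V`, `w = unit · t ^ μ` with `t` a uniformiser of `V`: `h ^ (μ k) / w ^ k ∈ V`. -/
theorem liteFam_pow_div_mem (V : ValuationSubring F) {w₀ t h : F} (μ k : ℕ)
    (ht : UnifAt V t) (hwt : UnitAt V (w₀ * (t ^ μ)⁻¹)) (hh : h ∈ V.nonunits) :
    h ^ (μ * k) * (w₀ ^ k)⁻¹ ∈ V := by
  obtain ⟨hu0, -, huinv⟩ := hwt
  have ht0 : t ≠ 0 := ht.1
  have hw0 : w₀ ≠ 0 := fun h0 => hu0 (by rw [h0, zero_mul])
  have e1 : h ^ (μ * k) * (w₀ ^ k)⁻¹ = ((h * t⁻¹) ^ μ * (w₀ * (t ^ μ)⁻¹)⁻¹) ^ k := by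
    have htp : t ^ μ ≠ 0 := pow_ne_zero _ ht0
    have e2 : (h * t⁻¹) ^ μ * (w₀ * (t ^ μ)⁻¹)⁻¹ = h ^ μ * w₀⁻¹ := by
      rw [mul_pow, inv_pow, mul_inv, inv_inv]
      field_simp
    rw [e2, mul_pow, ← pow_mul, inv_pow]
  rw [e1]
  exact pow_mem ((V.mul_mem _ _ (pow_mem (ht.2.2 h hh) μ) huinv)) k

/-- The auxiliary element: `H ∈ B ∖ 𝔪` with `H / w ^ k ∈ V j` for every `j ≤ e`, `j ≠ i`, when no
`V j`, `j ≠ i`, passes through the prime `𝔪`. -/
theorem liteFam_exists_aux (w : R) (e : ℕ) (B : Subalgebra R F) (V : ℕ → ValuationSubring F)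
    (μ : ℕ → ℕ)
    (hB : ∀ j ≤ e, ∀ b : B, (b : F) ∈ V j)
    (hram : ∀ j ≤ e, ∃ t : F, UnifAt (V j) t ∧ UnitAt (V j) (algebraMap R F w * (t ^ μ j)⁻¹))
    (𝔪 : Ideal B) (h𝔪 : 𝔪.IsPrime) (i : ℕ)
    (hsingle : ∀ j ≤ e, j ≠ i → ¬ Through B 𝔪 (V j)) (k : ℕ) :
    ∃ H : B, H ∉ 𝔪 ∧ ∀ j ≤ e, j ≠ i → (H : F) * (algebraMap R F w ^ k)⁻¹ ∈ V j := by
  have h1 : (1 : B) ∉ 𝔪 := (Ideal.ne_top_iff_one 𝔪).1 h𝔪.ne_top
  -- one index
  have hone : ∀ j ≤ e, j ≠ i → ∃ h : B, h ∉ 𝔪 ∧ (h : F) * (algebraMap R F w ^ k)⁻¹ ∈ V j := by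
    intro j hj hji
    obtain ⟨h, hhV, hh𝔪⟩ : ∃ h : B, (h : F) ∈ (V j).nonunits ∧ h ∉ 𝔪 := by
      by_contra hcon
      apply hsingle j hj hji
      intro b hb
      by_contra hb𝔪
      exact hcon ⟨b, hb, hb𝔪⟩
    obtain ⟨t, ht, hwt⟩ := hram j hj
    refine ⟨h ^ (μ j * k), fun hmem => hh𝔪 (h𝔪.mem_of_pow_mem _ hmem), ?_⟩
    have := liteFam_pow_div_mem (V j) (μ j) k ht hwt hhV
    simpa using this
  -- all indices `< m`, by induction on `m`
  have hall : ∀ m, m ≤ e + 1 →
      ∃ H : B, H ∉ 𝔪 ∧ ∀ j < m, j ≠ i → (H : F) * (algebraMap R F w ^ k)⁻¹ ∈ V j := by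
    intro m
    induction m with
    | zero => exact fun _ => ⟨1, h1, fun j hj => absurd hj (Nat.not_lt_zero j)⟩
    | succ m ih =>
      intro hm
      obtain ⟨H, hH, hHj⟩ := ih (by omega)
      by_cases hmi : m = i
      · refine ⟨H, hH, fun j hj hji => hHj j ?_ hji⟩
        rcases Nat.lt_succ_iff_lt_or_eq.1 hj with hlt | heq
        · exact hlt
        · exact absurd (heq.trans hmi) hji
      · obtain ⟨h, hh, hhm⟩ := hone m (by omega) hmi
        refine ⟨H * h, fun hmem => ?_, fun j hj hji => ?_⟩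
        · rcases h𝔪.mem_or_mem hmem with h' | h'
          · exact hH h'
          · exact hh h'
        · rcases Nat.lt_succ_iff_lt_or_eq.1 hj with hlt | heq
          · have e1 : ((H * h : B) : F) * (algebraMap R F w ^ k)⁻¹
                = ((H : F) * (algebraMap R F w ^ k)⁻¹) * (h : F) := by
              push_cast; ring
            rw [e1]
            exact (V j).mul_mem _ _ (hHj j hlt hji) (hB j (by omega) h)
          · subst heq
            have e1 : ((H * h : B) : F) * (algebraMap R F w ^ k)⁻¹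
                = (H : F) * ((h : F) * (algebraMap R F w ^ k)⁻¹) := by
              push_cast; ring
            rw [e1]
            exact (V j).mul_mem _ _ (hB j (by omega) H) hhm
  obtain ⟨H, hH, hHj⟩ := hall (e + 1) le_rfl
  exact ⟨H, hH, fun j hj hji => hHj j (by omega) hji⟩

/-- **REG-lite, family form (leaf A2).**  See the header. -/
theorem principalAt_lite_fam (w : R) (e : ℕ) (B : Subalgebra R F) (V : ℕ → ValuationSubring F)
    (μ : ℕ → ℕ) (hw0 : algebraMap R F w ≠ 0)
    (hB : ∀ j ≤ e, ∀ b : B, (b : F) ∈ V j)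
    (hqep : ∀ b : B, (∀ j ≤ e, (b : F) * (algebraMap R F w)⁻¹ ∈ V j) →
      ∃ c : B, b = algebraMap R B w * c)
    (hram : ∀ j ≤ e, ∃ t : F, UnifAt (V j) t ∧ UnitAt (V j) (algebraMap R F w * (t ^ μ j)⁻¹))
    (𝔪 : Ideal B) (h𝔪 : 𝔪.IsPrime) (i : ℕ) (hi : i ≤ e) (hthr : Through B 𝔪 (V i))
    (hsingle : ∀ j ≤ e, j ≠ i → ¬ Through B 𝔪 (V j))
    (x g₁ g₂ : B) (k N : ℕ) (hN : 0 < N)
    (hx : UnifAt (V i) (x : F)) (hg₁ : g₁ ∉ 𝔪)
    (hcong : ((x : F) ^ N * (g₂ : F) - algebraMap R F w ^ k * (g₁ : F))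
        * (algebraMap R F w ^ k)⁻¹ ∈ (V i).nonunits) :
    PrincipalAt B 𝔪 (V i) := by
  have hwk0 : algebraMap R F w ^ k ≠ 0 := pow_ne_zero k hw0
  have hwV : ∀ j ≤ e, algebraMap R F w ∈ V j := fun j hj => by
    simpa using hB j hj (algebraMap R B w)
  obtain ⟨H, hH𝔪, hHj⟩ := liteFam_exists_aux w e B V μ hB hram 𝔪 h𝔪 i hsingle k
  -- `y = x ^ N g₂ / w ^ k ∈ V i`, `y ≡ g₁`
  have hsplit : (x : F) ^ N * (g₂ : F) * (algebraMap R F w ^ k)⁻¹
      = ((x : F) ^ N * (g₂ : F) - algebraMap R F w ^ k * (g₁ : F)) * (algebraMap R F w ^ k)⁻¹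
        + (g₁ : F) := by
    rw [sub_mul, mul_comm (algebraMap R F w ^ k) (g₁ : F), mul_assoc (g₁ : F),
      mul_inv_cancel₀ hwk0, mul_one, sub_add_cancel]
  have hy : (x : F) ^ N * (g₂ : F) * (algebraMap R F w ^ k)⁻¹ ∈ V i := by
    rw [hsplit]
    exact (V i).add_mem _ _ ((V i).nonunits_le hcong) (hB i hi g₁)
  -- `ω = H g₂ x ^ N / w ^ k ∈ B`
  obtain ⟨ω, hω⟩ := liteFam_qep_pow w e B V hw0 hwV hqep k (H * g₂ * x ^ N) (fun j hj => by
    by_cases hji : j = i
    · subst hji
      have e1 : ((H * g₂ * x ^ N : B) : F) * (algebraMap R F w ^ k)⁻¹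
          = (H : F) * ((x : F) ^ N * (g₂ : F) * (algebraMap R F w ^ k)⁻¹) := by
        push_cast; ring
      rw [e1]
      exact (V j).mul_mem _ _ (hB j hj H) hy
    · have e1 : ((H * g₂ * x ^ N : B) : F) * (algebraMap R F w ^ k)⁻¹
          = (H : F) * (algebraMap R F w ^ k)⁻¹ * ((g₂ : F) * (x : F) ^ N) := by
        push_cast; ring
      rw [e1]
      exact (V j).mul_mem _ _ (hHj j hj hji)
        ((V j).mul_mem _ _ (hB j hj g₂) (pow_mem (hB j hj x) N)))
  have hωF : (ω : F) = (H : F) * ((x : F) ^ N * (g₂ : F) * (algebraMap R F w ^ k)⁻¹) := by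
    rw [hω]; push_cast; ring
  -- `ω ∉ 𝔪`
  have hω𝔪 : ω ∉ 𝔪 := by
    intro hmem
    have h1 : ω - H * g₁ ∈ 𝔪 := by
      apply hthr
      have e1 : ((ω - H * g₁ : B) : F) = (H : F) *
          (((x : F) ^ N * (g₂ : F) - algebraMap R F w ^ k * (g₁ : F))
            * (algebraMap R F w ^ k)⁻¹) := by
        push_cast
        rw [hωF, hsplit]
        ring
      rw [e1, mul_comm]
      exact Fermat.Agent.S36.H876.lite_nonunits_mul (V i) hcong (hB i hi H)
    have h2 : H * g₁ ∈ 𝔪 := by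
      have := 𝔪.sub_mem hmem h1
      simpa using this
    exact (h𝔪.mem_or_mem h2).elim hH𝔪 hg₁
  obtain ⟨hx0, hxnu, hxunif⟩ := hx
  refine ⟨x, hxnu, fun a ha => ?_⟩
  -- `z = H g₂ a x ^ (N - 1) / w ^ k ∈ B`
  obtain ⟨N', rfl⟩ : ∃ N', N = N' + 1 := ⟨N - 1, by omega⟩
  have hz : (a : F) * (x : F)⁻¹ * ((x : F) ^ (N' + 1) * (g₂ : F) * (algebraMap R F w ^ k)⁻¹)
      ∈ V i := (V i).mul_mem _ _ (hxunif _ ha) hy
  obtain ⟨z, hz'⟩ := liteFam_qep_pow w e B V hw0 hwV hqep k (H * g₂ * a * x ^ N') (fun j hj => by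
    by_cases hji : j = i
    · subst hji
      have e1 : ((H * g₂ * a * x ^ N' : B) : F) * (algebraMap R F w ^ k)⁻¹
          = (H : F) * ((a : F) * (x : F)⁻¹
            * ((x : F) ^ (N' + 1) * (g₂ : F) * (algebraMap R F w ^ k)⁻¹)) := by
        push_cast
        rw [pow_succ]
        field_simp
      rw [e1]
      exact (V j).mul_mem _ _ (hB j hj H) hz
    · have e1 : ((H * g₂ * a * x ^ N' : B) : F) * (algebraMap R F w ^ k)⁻¹
          = (H : F) * (algebraMap R F w ^ k)⁻¹ * ((g₂ : F) * (a : F) * (x : F) ^ N') := by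
        push_cast; ring
      rw [e1]
      exact (V j).mul_mem _ _ (hHj j hj hji)
        ((V j).mul_mem _ _ ((V j).mul_mem _ _ (hB j hj g₂) (hB j hj a))
          (pow_mem (hB j hj x) N')))
  refine ⟨ω, z, hω𝔪, ?_⟩
  apply Subtype.ext
  push_cast
  rw [hω, hz']
  push_cast
  rw [pow_succ]
  ring

/-- **REG-lite, family form, with `w ^ k = unit · t ^ N`** (`t` a uniformiser of `V i`) and
`g₂ ∉ 𝔪` instead of "`x` is a uniformiser of `V i`". -/
theorem principalAt_lite_fam' (w : R) (e : ℕ) (B : Subalgebra R F) (V : ℕ → ValuationSubring F)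
    (μ : ℕ → ℕ) (hw0 : algebraMap R F w ≠ 0)
    (hB : ∀ j ≤ e, ∀ b : B, (b : F) ∈ V j)
    (hqep : ∀ b : B, (∀ j ≤ e, (b : F) * (algebraMap R F w)⁻¹ ∈ V j) →
      ∃ c : B, b = algebraMap R B w * c)
    (hram : ∀ j ≤ e, ∃ t : F, UnifAt (V j) t ∧ UnitAt (V j) (algebraMap R F w * (t ^ μ j)⁻¹))
    (𝔪 : Ideal B) (h𝔪 : 𝔪.IsPrime) (i : ℕ) (hi : i ≤ e) (hthr : Through B 𝔪 (V i))
    (hsingle : ∀ j ≤ e, j ≠ i → ¬ Through B 𝔪 (V j))
    (x g₁ g₂ : B) (k N : ℕ) (hN : 0 < N)
    (t : F) (ht : UnifAt (V i) t) (hwt : UnitAt (V i) (algebraMap R F w ^ k * (t ^ N)⁻¹))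
    (hg₁ : g₁ ∉ 𝔪) (hg₂ : g₂ ∉ 𝔪)
    (hcong : ((x : F) ^ N * (g₂ : F) - algebraMap R F w ^ k * (g₁ : F))
        * (algebraMap R F w ^ k)⁻¹ ∈ (V i).nonunits) :
    PrincipalAt B 𝔪 (V i) :=
  principalAt_lite_fam w e B V μ hw0 hB hqep hram 𝔪 h𝔪 i hi hthr hsingle x g₁ g₂ k N hN
    (Fermat.Agent.S36.H876.lite_unifAt_of_cong w B (V i) hw0 (hB i hi) 𝔪 hthr x g₁ g₂ k N hN
      t ht hwt hg₁ hg₂ hcong)
    hg₁ hcong

/-- **REG-lite, family form, exponent read off from `ram`**: `N = k · μ i`, `0 < k`, `0 < μ i`,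
`g₁, g₂ ∉ 𝔪`; no uniformiser hypothesis on `x`. -/
theorem principalAt_lite_fam_ram (w : R) (e : ℕ) (B : Subalgebra R F)
    (V : ℕ → ValuationSubring F)
    (μ : ℕ → ℕ) (hw0 : algebraMap R F w ≠ 0)
    (hB : ∀ j ≤ e, ∀ b : B, (b : F) ∈ V j)
    (hqep : ∀ b : B, (∀ j ≤ e, (b : F) * (algebraMap R F w)⁻¹ ∈ V j) →
      ∃ c : B, b = algebraMap R B w * c)
    (hram : ∀ j ≤ e, ∃ t : F, UnifAt (V j) t ∧ UnitAt (V j) (algebraMap R F w * (t ^ μ j)⁻¹))
    (𝔪 : Ideal B) (h𝔪 : 𝔪.IsPrime) (i : ℕ) (hi : i ≤ e) (hthr : Through B 𝔪 (V i))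
    (hsingle : ∀ j ≤ e, j ≠ i → ¬ Through B 𝔪 (V j))
    (x g₁ g₂ : B) (k : ℕ) (hk : 0 < k) (hμ : 0 < μ i)
    (hg₁ : g₁ ∉ 𝔪) (hg₂ : g₂ ∉ 𝔪)
    (hcong : ((x : F) ^ (k * μ i) * (g₂ : F) - algebraMap R F w ^ k * (g₁ : F))
        * (algebraMap R F w ^ k)⁻¹ ∈ (V i).nonunits) :
    PrincipalAt B 𝔪 (V i) := by
  obtain ⟨t, ht, hwt⟩ := hram i hi
  exact principalAt_lite_fam' w e B V μ hw0 hB hqep hram 𝔪 h𝔪 i hi hthr hsingle x g₁ g₂ k
    (k * μ i) (Nat.mul_pos hk hμ) t ht (Fermat.Agent.S36.H876.lite_unitAt_pow (V i) (μ i) k hwt)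
    hg₁ hg₂ hcong

end Fermat.Agent.S45.ModE.H843

end
-- ===== PACK-END S45/ModE/H843/LiteFam.lean

-- ===== PACK-BEGIN S45/H403/StepLight.lean
section


/-!
# S45 / CAR3 — ALG-E, STEP A in the LIGHT form (helper403)

Mathlib + the vocabulary `PU`, `IsOrd` of `S36/H586/StepAB.lean` (itself Mathlib only).

Abstract setting: two embeddings `α, β : F' → F` of degree `q` with multiplicative "norm"
functions `Nα, Nβ : F → F'` (`N (φ a) = a ^ q`), a set `𝒮` of valuation rings of `F` (the sheets).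
Idea of helper778 (#13809) and helper247 (memo `coord/S45-ALG-GE-helper247.md`, sec. 1-2):
NORMALISE THE NORMS FIRST.

* `GoodAlong403 φ N q V` : `y ^ q ≡ φ (N y)` multiplicatively on `V`, for EVERY `y ≠ 0`
  (true when `V` is the only valuation ring over `V.comap φ` and the residue extension has
  separable degree one: types "purely inseparable `(1, q)`" and "wild `(q, 1)`");
* `stepA_light403` : if every sheet is `β`-good, or `α`-good with the principal-unit norm
  property along `β`, then for every `f ≠ 0`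

      u₁ := f ^ q / α (Nα f),      u := u₁ ^ q / β (Nβ u₁)

  satisfy `u ≡ 1` on ALL sheets, `Nβ u = 1`, and if `Nα f = w' ^ s * g ^ m`,
  `Nβ f = w' ^ s' * g' ^ m` then `f ^ (q ^ 2) = w ^ k * G ^ m * u` and `Nα u` is an `m`-th
  power.  No slopes, no approximation theorem, no coprimality of `q` and `m`.
* suppliers: `goodAlong_of_table403` (from the elementwise table of ONE extension),
  `goodAlong_of_insep403` (uniformiser `φ t'`), `puNorm_of_split403` (principal-unit norm property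
  from the split norm-residue formula, shape `TripleCtx.nr_α₁`), `unitNorm_of_split403`.
-/

set_option autoImplicit false

namespace Fermat.Agent.S45.H403

open Fermat.Agent.S36.H586

/-! ## Multiplicative functions -/

section NormFn

variable {F' F : Type*} [Field F'] [Field F] {N : F → F'}

theorem nfn_div403 (h1 : N 1 = 1) (hmul : ∀ x y, N (x * y) = N x * N y) (x : F) {y : F}
    (hy : y ≠ 0) : N (x / y) = N x / N y := by
  rw [div_eq_mul_inv, hmul, nfn_inv h1 hmul hy, div_eq_mul_inv]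

end NormFn

/-! ## The primitive `GoodAlong` -/

section Good

variable {F' F : Type*} [Field F'] [Field F]

/-- `V` is GOOD along `φ` (with norm `N`, degree `q`): `y ^ q / φ (N y) ∈ 1 + 𝔪_V` for every
`y ≠ 0`. -/
def GoodAlong403 (φ : F' →+* F) (N : F → F') (q : ℕ) (V : ValuationSubring F) : Prop :=
  ∀ y : F, y ≠ 0 → PU V (y ^ q / φ (N y))

variable {φ : F' →+* F} {N : F → F'} {q : ℕ} {V : ValuationSubring F}

/-- On a good valuation ring, a principal unit has a norm which is a principal unit. -/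
theorem GoodAlong403.pu_norm (h : GoodAlong403 φ N q V) {y : F} (hy : PU V y) :
    PU V (φ (N y)) := by
  have h1 := h y hy.ne_zero
  have h2 : φ (N y) ≠ 0 := by
    intro h0
    rw [h0, div_zero] at h1
    exact h1.ne_zero rfl
  have e : φ (N y) = y ^ q / (y ^ q / φ (N y)) := by
    have hyq : y ^ q ≠ 0 := pow_ne_zero _ hy.ne_zero
    field_simp
  rw [e]
  exact (hy.pow q).div h1

/-- **GoodAlong from the elementwise table of ONE extension.**  `t` is any element with respect to
which every `y ≠ 0` has an order at `V` (a uniformiser), with `t ^ q ≡ φ (N t)`; on units: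
`y ^ q ≡ φ c` for some `c`, and then `N y ≡ c` (types `(1, q)` purely inseparable and `(q, 1)`
wild, unified). -/
theorem goodAlong_of_table403 (h1 : N 1 = 1) (hmul : ∀ x y, N (x * y) = N x * N y)
    {O : ValuationSubring F'} (hover : ∀ a : F', φ a ∈ V ↔ a ∈ O)
    (hres : ∀ y : F, V.valuation y = 1 → ∃ c : F', V.valuation (y ^ q - φ c) < 1)
    (hnorm : ∀ (y : F) (c : F'), V.valuation y = 1 → V.valuation (y ^ q - φ c) < 1 →
      O.valuation (N y - c) < 1)
    {t : F} (ht0 : t ≠ 0) (hord : ∀ y : F, y ≠ 0 → ∃ a : ℤ, IsOrd V t y a)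
    (htN : PU V (t ^ q / φ (N t))) : GoodAlong403 φ N q V := by
  intro y hy
  obtain ⟨a, ha⟩ := hord y hy
  -- the unit part
  set y₀ : F := y * (t ^ a)⁻¹ with hy₀
  have hta0 : t ^ a ≠ 0 := zpow_ne_zero _ ht0
  have hy₀0 : y₀ ≠ 0 := mul_ne_zero hy (inv_ne_zero hta0)
  have hy₀1 : V.valuation y₀ = 1 := by
    rw [hy₀, map_mul, map_inv₀, map_zpow₀]
    unfold IsOrd at ha
    rw [ha]
    exact mul_inv_cancel₀ (zpow_ne_zero _ (val_ne_zero_of_ne_zero ht0))
  obtain ⟨c, hc⟩ := hres y₀ hy₀1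
  have hNc := hnorm y₀ c hy₀1 hc
  have hy₀q : V.valuation (y₀ ^ q) = 1 := by rw [map_pow, hy₀1, one_pow]
  have hφc : V.valuation (φ c) = 1 := val_eq_one_of_sub_lt hy₀q hc
  have hc1 : O.valuation c = 1 := (over_val_eq_one hover c).1 hφc
  have hNy₀1 : O.valuation (N y₀) = 1 := by
    have h2 : O.valuation (c - N y₀) < 1 := by
      rw [← Valuation.map_neg, neg_sub]
      exact hNc
    exact val_eq_one_of_sub_lt hc1 h2
  have hφN1 : V.valuation (φ (N y₀)) = 1 := (over_val_eq_one hover _).2 hNy₀1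
  have hsmall : V.valuation (y₀ ^ q - φ (N y₀)) < 1 := by
    have e : y₀ ^ q - φ (N y₀) = (y₀ ^ q - φ c) + -(φ (N y₀ - c)) := by
      rw [map_sub]
      ring
    rw [e]
    refine Valuation.map_add_lt _ hc ?_
    rw [Valuation.map_neg]
    exact (over_val_lt_one hover _).2 hNc
  have p₀ : PU V (y₀ ^ q / φ (N y₀)) := pu_div_of_sub hφN1 hsmall
  -- reassemble
  have hNt0 : N t ≠ 0 := nfn_ne_zero h1 hmul ht0
  have hNy₀0 : N y₀ ≠ 0 := nfn_ne_zero h1 hmul hy₀0
  have hyeq : y = t ^ a * y₀ := by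
    rw [hy₀]
    field_simp
  have hNy : N y = N t ^ a * N y₀ := by
    conv_lhs => rw [hyeq]
    rw [hmul, nfn_zpow h1 hmul ht0]
  have e : y ^ q / φ (N y) = (t ^ q / φ (N t)) ^ a * (y₀ ^ q / φ (N y₀)) := by
    rw [hNy, map_mul, map_zpow₀, div_zpow]
    conv_lhs => rw [hyeq]
    rw [mul_pow, ← zpow_natCast (t ^ a) q, ← zpow_mul, mul_comm a (q : ℤ), zpow_mul,
      zpow_natCast]
    have h3 : φ (N t) ^ a ≠ 0 := zpow_ne_zero _ ((map_ne_zero φ).2 hNt0)
    have h4 : φ (N y₀) ≠ 0 := (map_ne_zero φ).2 hNy₀0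
    field_simp
  rw [e]
  exact (htN.zpow a).mul p₀

/-- **GoodAlong, purely inseparable type** (`e = 1`): the uniformiser is `φ t'`. -/
theorem goodAlong_of_insep403 (h1 : N 1 = 1) (hmul : ∀ x y, N (x * y) = N x * N y)
    (hφ : ∀ a : F', N (φ a) = a ^ q)
    {O : ValuationSubring F'} (hover : ∀ a : F', φ a ∈ V ↔ a ∈ O)
    (hres : ∀ y : F, V.valuation y = 1 → ∃ c : F', V.valuation (y ^ q - φ c) < 1)
    (hnorm : ∀ (y : F) (c : F'), V.valuation y = 1 → V.valuation (y ^ q - φ c) < 1 →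
      O.valuation (N y - c) < 1)
    {t' : F'} (ht0 : t' ≠ 0) (hord : ∀ y : F, y ≠ 0 → ∃ a : ℤ, IsOrd V (φ t') y a) :
    GoodAlong403 φ N q V := by
  refine goodAlong_of_table403 h1 hmul hover hres hnorm ((map_ne_zero φ).2 ht0) hord ?_
  rw [hφ, map_pow, div_self (pow_ne_zero _ ((map_ne_zero φ).2 ht0))]
  exact PU.one

end Good

/-! ## The principal-unit norm property at a split end -/

section Split

variable {F' F : Type*} [Field F'] [Field F] {φ : F' →+* F} {N : F → F'} {q : ℕ}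
  {Os : ValuationSubring F'} {Vu Vr : ValuationSubring F}

/-- At a split end (`Vu` with `e = f = 1` and `Vr` with `e = q - 1`, `f = 1` over `Os`): the norm
of an element which is `≡ 1` on `Vu` and on `Vr` is `≡ 1` on `Os`. -/
theorem pu_norm_of_split403
    (hnorm : ∀ (y : F) (a b : F'), Vu.valuation y = 1 → Vr.valuation y = 1 →
      Vu.valuation (y - φ a) < 1 → Vr.valuation (y - φ b) < 1 →
      Os.valuation (N y - a * b ^ (q - 1)) < 1)
    {y : F} (hu : PU Vu y) (hr : PU Vr y) : PU Os (N y) := by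
  have h := hnorm y 1 1 hu.val_eq_one hr.val_eq_one (by rw [map_one]; exact hu)
    (by rw [map_one]; exact hr)
  rw [one_pow, mul_one] at h
  exact h

/-- The same, pulled back to the two valuation rings above. -/
theorem puNorm_of_split403 (hover_u : ∀ a : F', φ a ∈ Vu ↔ a ∈ Os)
    (hover_r : ∀ a : F', φ a ∈ Vr ↔ a ∈ Os)
    (hnorm : ∀ (y : F) (a b : F'), Vu.valuation y = 1 → Vr.valuation y = 1 →
      Vu.valuation (y - φ a) < 1 → Vr.valuation (y - φ b) < 1 →
      Os.valuation (N y - a * b ^ (q - 1)) < 1)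
    {y : F} (hu : PU Vu y) (hr : PU Vr y) : PU Vu (φ (N y)) ∧ PU Vr (φ (N y)) :=
  ⟨(over_pu hover_u _).2 (pu_norm_of_split403 hnorm hu hr),
    (over_pu hover_r _).2 (pu_norm_of_split403 hnorm hu hr)⟩

/-- The unit form: the norm of an element `≡ 1` on `Vu` and `Vr` is a unit of `Os`. -/
theorem unitNorm_of_split403
    (hnorm : ∀ (y : F) (a b : F'), Vu.valuation y = 1 → Vr.valuation y = 1 →
      Vu.valuation (y - φ a) < 1 → Vr.valuation (y - φ b) < 1 →
      Os.valuation (N y - a * b ^ (q - 1)) < 1)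
    {y : F} (hu : PU Vu y) (hr : PU Vr y) : Os.valuation (N y) = 1 :=
  (pu_norm_of_split403 hnorm hu hr).val_eq_one

end Split

/-! ## STEP A, light form -/

section Main

variable {F' F : Type*} [Field F'] [Field F]

/-- The first normalisation `u₁ = f ^ q / α (Nα f)`. -/
def normalise403 (φ : F' →+* F) (N : F → F') (q : ℕ) (f : F) : F := f ^ q / φ (N f)

theorem normalise403_ne_zero {φ : F' →+* F} {N : F → F'} (h1 : N 1 = 1)
    (hmul : ∀ x y, N (x * y) = N x * N y) (q : ℕ) {f : F} (hf : f ≠ 0) :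
    normalise403 φ N q f ≠ 0 :=
  div_ne_zero (pow_ne_zero _ hf) ((map_ne_zero φ).2 (nfn_ne_zero h1 hmul hf))

/-- The norm of the normalisation is `1`. -/
theorem norm_normalise403 {φ : F' →+* F} {N : F → F'} (h1 : N 1 = 1)
    (hmul : ∀ x y, N (x * y) = N x * N y) {q : ℕ} (hφ : ∀ a : F', N (φ a) = a ^ q)
    {f : F} (hf : f ≠ 0) : N (normalise403 φ N q f) = 1 := by
  unfold normalise403
  have hNf : N f ≠ 0 := nfn_ne_zero h1 hmul hf
  rw [nfn_div403 h1 hmul _ ((map_ne_zero φ).2 hNf), nfn_pow h1 hmul, hφ,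
    div_self (pow_ne_zero _ hNf)]

/-- `GoodAlong` in terms of the normalisation. -/
theorem GoodAlong403.pu_normalise {φ : F' →+* F} {N : F → F'} {q : ℕ} {V : ValuationSubring F}
    (h : GoodAlong403 φ N q V) {f : F} (hf : f ≠ 0) : PU V (normalise403 φ N q f) :=
  h f hf

/-- **STEP A, light form: the principal-unit part.**  `u = normalise β (normalise α f)` is `≡ 1`
on every sheet, as soon as every sheet is `β`-good, or `α`-good with the principal-unit norm
property along `β`. -/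
theorem pu_normalise_normalise403 (α β : F' →+* F) (Nα Nβ : F → F') (q : ℕ)
    (hα1 : Nα 1 = 1) (hαmul : ∀ x y, Nα (x * y) = Nα x * Nα y)
    (𝒮 : Set (ValuationSubring F))
    (hgood : ∀ V ∈ 𝒮, GoodAlong403 β Nβ q V ∨
      (GoodAlong403 α Nα q V ∧ ∀ y : F, y ≠ 0 →
        (∀ V' ∈ 𝒮, GoodAlong403 α Nα q V' → PU V' y) → PU V (β (Nβ y))))
    {f : F} (hf : f ≠ 0) :
    ∀ V ∈ 𝒮, PU V (normalise403 β Nβ q (normalise403 α Nα q f)) := by
  intro V hV
  have hu₁0 : normalise403 α Nα q f ≠ 0 := normalise403_ne_zero hα1 hαmul q hf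
  rcases hgood V hV with hβ | ⟨hα, hpu⟩
  · exact hβ _ hu₁0
  · have h1 : PU V (normalise403 α Nα q f) := hα f hf
    have h2 : PU V (β (Nβ (normalise403 α Nα q f))) :=
      hpu _ hu₁0 fun V' _ hV' => hV' f hf
    exact (h1.pow q).div h2

/-- **STEP A, light form.**  See the header.  `O₀` is a valuation ring of `F'` with uniformiser
`w'` such that the norm along `α` of an element `≡ 1` on all sheets is a unit of `O₀`
(e.g. `O₀ = V∞'`, the sheets above it being `V∞` and its neighbour: `unitNorm_of_split403`). -/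
theorem stepA_light403 (α β : F' →+* F) (Nα Nβ : F → F') (q m : ℕ)
    (hα1 : Nα 1 = 1) (hαmul : ∀ x y, Nα (x * y) = Nα x * Nα y)
    (hαφ : ∀ a : F', Nα (α a) = a ^ q)
    (hβ1 : Nβ 1 = 1) (hβmul : ∀ x y, Nβ (x * y) = Nβ x * Nβ y)
    (hβφ : ∀ a : F', Nβ (β a) = a ^ q)
    (w' : F') (w : F) (hαw : α w' = w) (hβw : β w' = w)
    (𝒮 : Set (ValuationSubring F))
    (hgood : ∀ V ∈ 𝒮, GoodAlong403 β Nβ q V ∨
      (GoodAlong403 α Nα q V ∧ ∀ y : F, y ≠ 0 →
        (∀ V' ∈ 𝒮, GoodAlong403 α Nα q V' → PU V' y) → PU V (β (Nβ y))))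
    (O₀ : ValuationSubring F') (hw'0 : w' ≠ 0) (hw'lt : O₀.valuation w' < 1)
    (hord : ∀ y : F', y ≠ 0 → ∃ a : ℤ, IsOrd O₀ w' y a)
    (hunit₀ : ∀ y : F, y ≠ 0 → (∀ V ∈ 𝒮, PU V y) → O₀.valuation (Nα y) = 1)
    (f : F) (hf : f ≠ 0)
    (hNα : ∃ (s : ℤ) (g : F'), g ≠ 0 ∧ Nα f = w' ^ s * g ^ m)
    (hNβ : ∃ (s : ℤ) (g : F'), g ≠ 0 ∧ Nβ f = w' ^ s * g ^ m) :
    ∃ (s : ℤ) (G u : F) (k₁ : F'), G ≠ 0 ∧ f ^ (q ^ 2) = w ^ s * G ^ m * u ∧
      (∀ V ∈ 𝒮, PU V u) ∧ Nα u = k₁ ^ m ∧ Nβ u = 1 := by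
  obtain ⟨sα, gα, hgα0, hNα⟩ := hNα
  obtain ⟨sβ, gβ, hgβ0, hNβ⟩ := hNβ
  have hw0 : w ≠ 0 := by
    rw [← hαw]
    exact (map_ne_zero α).2 hw'0
  set u₁ : F := normalise403 α Nα q f with hu₁
  set u : F := normalise403 β Nβ q u₁ with hu
  have hu₁0 : u₁ ≠ 0 := normalise403_ne_zero hα1 hαmul q hf
  have hu0 : u ≠ 0 := normalise403_ne_zero hβ1 hβmul q hu₁0
  have hNαf0 : Nα f ≠ 0 := nfn_ne_zero hα1 hαmul hf
  have hNβf0 : Nβ f ≠ 0 := nfn_ne_zero hβ1 hβmul hf
  have hNβu₁0 : Nβ u₁ ≠ 0 := nfn_ne_zero hβ1 hβmul hu₁0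
  have hαg0 : α gα ≠ 0 := (map_ne_zero α).2 hgα0
  have hNβαg0 : Nβ (α gα) ≠ 0 := nfn_ne_zero hβ1 hβmul hαg0
  -- principal units
  have hpu : ∀ V ∈ 𝒮, PU V u := pu_normalise_normalise403 α β Nα Nβ q hα1 hαmul 𝒮 hgood hf
  -- the norm along `β`
  have hNβu : Nβ u = 1 := norm_normalise403 hβ1 hβmul hβφ hu₁0
  -- `α (Nα f)`
  have hαN : α (Nα f) = w ^ sα * α gα ^ m := by
    rw [hNα, map_mul, map_zpow₀, map_pow, hαw]
  -- `Nβ u₁`
  set k : F' := gβ ^ q / Nβ (α gα) with hk
  have hk0 : k ≠ 0 := div_ne_zero (pow_ne_zero _ hgβ0) hNβαg0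
  have hNβw : Nβ w = w' ^ q := by rw [← hβw, hβφ]
  have hNβu₁ : Nβ u₁ = w' ^ ((q : ℤ) * (sβ - sα)) * k ^ m := by
    have e1 : Nβ u₁ = Nβ f ^ q / Nβ (α (Nα f)) := by
      rw [hu₁]
      unfold normalise403
      rw [nfn_div403 hβ1 hβmul _ ((map_ne_zero α).2 hNαf0), nfn_pow hβ1 hβmul]
    have e2 : Nβ (α (Nα f)) = w' ^ ((q : ℤ) * sα) * Nβ (α gα) ^ m := by
      rw [hαN, hβmul, nfn_zpow hβ1 hβmul hw0, nfn_pow hβ1 hβmul, hNβw, ← zpow_natCast w' q,
        ← zpow_mul]
    have e3 : Nβ f ^ q = w' ^ ((q : ℤ) * sβ) * (gβ ^ q) ^ m := by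
      rw [hNβ, mul_pow, ← zpow_natCast (w' ^ sβ) q, ← zpow_mul, mul_comm sβ (q : ℤ),
        ← pow_mul, ← pow_mul, mul_comm m q]
    rw [e1, e2, e3, hk, div_pow, mul_sub, zpow_sub₀ hw'0]
    have h1 : w' ^ ((q : ℤ) * sα) ≠ 0 := zpow_ne_zero _ hw'0
    have h2 : Nβ (α gα) ^ m ≠ 0 := pow_ne_zero _ hNβαg0
    field_simp
  -- the identity
  have hid : f ^ (q ^ 2) = α (Nα f) ^ q * β (Nβ u₁) * u := by
    have h1 : α (Nα f) ≠ 0 := (map_ne_zero α).2 hNαf0
    have h2 : β (Nβ u₁) ≠ 0 := (map_ne_zero β).2 hNβu₁0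
    have e1 : u = u₁ ^ q / β (Nβ u₁) := rfl
    have e2 : u₁ = f ^ q / α (Nα f) := rfl
    rw [e1]
    have e3 : u₁ ^ q = f ^ (q ^ 2) / α (Nα f) ^ q := by
      rw [e2, div_pow, ← pow_mul, pow_two]
    rw [e3]
    field_simp
  set G : F := α gα ^ q * β k with hG
  have hG0 : G ≠ 0 := mul_ne_zero (pow_ne_zero _ hαg0) ((map_ne_zero β).2 hk0)
  have hfinal : f ^ (q ^ 2) = w ^ ((q : ℤ) * sβ) * G ^ m * u := by
    rw [hid, hαN, hNβu₁, map_mul, map_zpow₀, map_pow, hβw, hG, mul_pow, mul_pow, ← pow_mul,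
      ← pow_mul, mul_comm q m, ← zpow_natCast (w ^ sα) q, ← zpow_mul, mul_comm sα (q : ℤ)]
    have e : w ^ ((q : ℤ) * sβ) = w ^ ((q : ℤ) * sα) * w ^ ((q : ℤ) * (sβ - sα)) := by
      rw [← zpow_add₀ hw0]
      congr 1
      ring
    rw [e]
    ring
  -- the norm along `α`
  have hNαG0 : Nα G ≠ 0 := nfn_ne_zero hα1 hαmul hG0
  set k₀ : F' := gα ^ (q ^ 2) / Nα G with hk₀
  have hk₀0 : k₀ ≠ 0 := div_ne_zero (pow_ne_zero _ hgα0) hNαG0
  have hNαw : Nα w = w' ^ q := by rw [← hαw, hαφ]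
  have hNαu : Nα u = w' ^ ((q : ℤ) ^ 2 * (sα - sβ)) * k₀ ^ m := by
    have hwG0 : w ^ ((q : ℤ) * sβ) * G ^ m ≠ 0 :=
      mul_ne_zero (zpow_ne_zero _ hw0) (pow_ne_zero _ hG0)
    have e0 : u = f ^ (q ^ 2) / (w ^ ((q : ℤ) * sβ) * G ^ m) := by
      rw [hfinal]
      field_simp
    have e1 : Nα u = Nα f ^ (q ^ 2) / (Nα w ^ ((q : ℤ) * sβ) * Nα G ^ m) := by
      conv_lhs => rw [e0]
      rw [nfn_div403 hα1 hαmul _ hwG0, nfn_pow hα1 hαmul, hαmul, nfn_zpow hα1 hαmul hw0,
        nfn_pow hα1 hαmul]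
    have e2 : Nα w ^ ((q : ℤ) * sβ) = w' ^ ((q : ℤ) ^ 2 * sβ) := by
      rw [hNαw, ← zpow_natCast w' q, ← zpow_mul]
      congr 1
      ring
    have e3 : Nα f ^ (q ^ 2) = w' ^ ((q : ℤ) ^ 2 * sα) * (gα ^ (q ^ 2)) ^ m := by
      rw [hNα, mul_pow, ← zpow_natCast (w' ^ sα) (q ^ 2), ← zpow_mul, ← pow_mul, ← pow_mul,
        mul_comm m (q ^ 2)]
      congr 2
      push_cast
      ring
    rw [e1, e2, e3, hk₀, div_pow, mul_sub, zpow_sub₀ hw'0]
    have h1 : w' ^ ((q : ℤ) ^ 2 * sβ) ≠ 0 := zpow_ne_zero _ hw'0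
    have h2 : Nα G ^ m ≠ 0 := pow_ne_zero _ hNαG0
    field_simp
  have hunit : O₀.valuation (Nα u) = 1 := hunit₀ u hu0 hpu
  obtain ⟨a, ha⟩ := hord k₀ hk₀0
  have hord1 : IsOrd O₀ w' (Nα u) (((q : ℤ) ^ 2 * (sα - sβ)) * 1 + m * a) := by
    rw [hNαu]
    exact ((IsOrd.self).zpow _).mul hw'0 (ha.pow m)
  have hord0 : IsOrd O₀ w' (Nα u) 0 := isOrd_zero_of_val hunit
  have hz : (0 : ℤ) = ((q : ℤ) ^ 2 * (sα - sβ)) * 1 + m * a :=
    IsOrd.unique hw'0 hw'lt hord0 hord1
  have hz' : (q : ℤ) ^ 2 * (sα - sβ) = (-a) * (m : ℤ) := by linear_combination -hz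
  refine ⟨(q : ℤ) * sβ, G, u, w' ^ (-a) * k₀, hG0, hfinal, hpu, ?_, hNβu⟩
  rw [hNαu, hz', mul_pow, zpow_mul, zpow_natCast]

end Main

end Fermat.Agent.S45.H403

end
-- ===== PACK-END S45/H403/StepLight.lean

-- ===== PACK-BEGIN S45/H403/GoodNR.lean
section


/-!
# S45 / CAR3 — `GoodAlong403` from the norm–residue formula on UNITS (helper403)

Mathlib + `S36/H586/StepAB.lean` (vocabulary `PU`, `IsOrd`).  Bridge between the "table" form of
the context (fields `nr_α`, `nr_β`, `ram`, `ram'` of `S45.Eng.CtxE` v0, or the output of the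
norm–residue theorems of `S36/H253`) and the primitive `GoodAlong403` of `StepLight.lean`.

ONE extension `V` over `V' = V.comap φ` of degree `q` = residue characteristic, type purely
inseparable `(e, f) = (1, q)` or wild `(q, 1)`:

* `pu_of_pu_pow_prime403` : Frobenius is injective on the residue field, elementwise:
  `ε ^ q ≡ 1` and `q ∈ 𝔪_V` ⟹ `ε ≡ 1`;
* `goodAlong_of_units403` : `GoodAlong403` from its restriction to units and to ONE uniformiser;
* `goodAlong_of_nr403`    : `GoodAlong403` from the norm–residue formula `φ (N y) ≡ y ^ q` on the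
  UNITS of `V` alone, if `v (φ t') = n · v (t)` with `n = 1` or `n = q` for uniformisers `t` of `V`
  and `t'` of `V'`.  No Eisenstein polynomial, no norm–valuation formula:
  `ε = t ^ q / φ (N t)` satisfies `ε ^ n = y₁ ^ q / φ (N y₁)` for the unit `y₁ = t ^ n / φ t'`.
-/

set_option autoImplicit false

namespace Fermat.Agent.S45.H403

open Fermat.Agent.S36.H586

section Frob

variable {F : Type*} [Field F] {V : ValuationSubring F}

/-- **Frobenius is injective on the residue field** (elementwise): if `q ∈ 𝔪_V` is a prime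
number and `ε ^ q ≡ 1 mod 𝔪_V` then `ε ≡ 1 mod 𝔪_V`. -/
theorem pu_of_pu_pow_prime403 {q : ℕ} (hq : q.Prime) (hqV : V.valuation (q : F) < 1) {ε : F}
    (h : PU V (ε ^ q)) : PU V ε := by
  have hε1 : V.valuation ε = 1 := val_eq_one_of_pow hq.pos h.val_eq_one
  have hεV : ε ∈ V := (V.valuation_le_one_iff _).1 hε1.le
  have hdV : ε - 1 ∈ V := sub_mem hεV (one_mem _)
  by_contra hne
  unfold PU at hne
  have hd1 : V.valuation (ε - 1) = 1 :=
    le_antisymm ((V.valuation_le_one_iff _).2 hdV) (not_lt.1 hne)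
  have hexp := add_pow_prime_eq hq (ε - 1) (1 : F)
  set S : F := ∑ k ∈ Finset.Ioo 0 q,
    (ε - 1) ^ (k - 1) * (1 : F) ^ (q - k - 1) * ((q.choose k / q : ℕ) : F) with hS
  have hSV : S ∈ V := by
    rw [hS]
    refine sum_mem fun k _ => ?_
    exact mul_mem (mul_mem (pow_mem hdV _) (pow_mem (one_mem _) _)) (natCast_mem V _)
  have hSle : V.valuation S ≤ 1 := (V.valuation_le_one_iff _).2 hSV
  have e1 : ε ^ q - 1 = (ε - 1) ^ q + (q : F) * (ε - 1) * 1 * S := by
    have : ε - 1 + 1 = ε := by ring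
    rw [this, one_pow] at hexp
    rw [hexp]
    ring
  have hsmall : V.valuation ((q : F) * (ε - 1) * 1 * S) < 1 := by
    rw [map_mul, map_mul, map_mul, map_one, mul_one, hd1, mul_one]
    calc V.valuation (q : F) * V.valuation S ≤ V.valuation (q : F) * 1 := by gcongr
      _ = V.valuation (q : F) := mul_one _
      _ < 1 := hqV
  have hbig : V.valuation ((ε - 1) ^ q) = 1 := by rw [map_pow, hd1, one_pow]
  have hval : V.valuation (ε ^ q - 1) = 1 := by
    rw [e1, Valuation.map_add_eq_of_lt_left _ (by rw [hbig]; exact hsmall), hbig]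
  unfold PU at h
  rw [hval] at h
  exact lt_irrefl _ h

end Frob

section Good

variable {F' F : Type*} [Field F'] [Field F] {φ : F' →+* F} {N : F → F'} {q : ℕ}
  {V : ValuationSubring F}

/-- `GoodAlong403` from its restriction to the units of `V` and to ONE element `t` with respect
to which every `y ≠ 0` has an order (a uniformiser). -/
theorem goodAlong_of_units403 (h1 : N 1 = 1) (hmul : ∀ x y, N (x * y) = N x * N y)
    (hunit : ∀ y : F, V.valuation y = 1 → PU V (y ^ q / φ (N y)))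
    {t : F} (ht0 : t ≠ 0) (hord : ∀ y : F, y ≠ 0 → ∃ a : ℤ, IsOrd V t y a)
    (htN : PU V (t ^ q / φ (N t))) : GoodAlong403 φ N q V := by
  intro y hy
  obtain ⟨a, ha⟩ := hord y hy
  set y₀ : F := y * (t ^ a)⁻¹ with hy₀
  have hta0 : t ^ a ≠ 0 := zpow_ne_zero _ ht0
  have hy₀0 : y₀ ≠ 0 := mul_ne_zero hy (inv_ne_zero hta0)
  have hy₀1 : V.valuation y₀ = 1 := by
    rw [hy₀, map_mul, map_inv₀, map_zpow₀]
    unfold IsOrd at ha
    rw [ha]
    exact mul_inv_cancel₀ (zpow_ne_zero _ (val_ne_zero_of_ne_zero ht0))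
  have p₀ : PU V (y₀ ^ q / φ (N y₀)) := hunit y₀ hy₀1
  have hNt0 : N t ≠ 0 := nfn_ne_zero h1 hmul ht0
  have hNy₀0 : N y₀ ≠ 0 := nfn_ne_zero h1 hmul hy₀0
  have hyeq : y = t ^ a * y₀ := by
    rw [hy₀]
    field_simp
  have hNy : N y = N t ^ a * N y₀ := by
    conv_lhs => rw [hyeq]
    rw [hmul, nfn_zpow h1 hmul ht0]
  have e : y ^ q / φ (N y) = (t ^ q / φ (N t)) ^ a * (y₀ ^ q / φ (N y₀)) := by
    rw [hNy, map_mul, map_zpow₀, div_zpow]
    conv_lhs => rw [hyeq]
    rw [mul_pow, ← zpow_natCast (t ^ a) q, ← zpow_mul, mul_comm a (q : ℤ), zpow_mul,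
      zpow_natCast]
    have h3 : φ (N t) ^ a ≠ 0 := zpow_ne_zero _ ((map_ne_zero φ).2 hNt0)
    have h4 : φ (N y₀) ≠ 0 := (map_ne_zero φ).2 hNy₀0
    field_simp
  rw [e]
  exact (htN.zpow a).mul p₀

/-- The norm–residue formula on units, in multiplicative form. -/
theorem pu_of_nr403 (hnr : ∀ y : F, V.valuation y = 1 → V.valuation (φ (N y) - y ^ q) < 1)
    {y : F} (hy : V.valuation y = 1) : PU V (y ^ q / φ (N y)) := by
  have hyq : V.valuation (y ^ q) = 1 := by rw [map_pow, hy, one_pow]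
  have hs : V.valuation (y ^ q - φ (N y)) < 1 := by
    rw [← Valuation.map_neg, neg_sub]
    exact hnr y hy
  exact pu_div_of_sub (val_eq_one_of_sub_lt hyq hs) hs

/-- **`GoodAlong403` from the norm–residue formula on units.**  `t` a uniformiser of `V`
(orders), `t'` any element of `F'` with `v (φ t') = n · v (t)`, `n = 1` (purely inseparable type)
or `n = q` (wild type); `q` a prime number in `𝔪_V`. -/
theorem goodAlong_of_nr403 (h1 : N 1 = 1) (hmul : ∀ x y, N (x * y) = N x * N y)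
    (hφ : ∀ a : F', N (φ a) = a ^ q) (hq : q.Prime) (hqV : V.valuation (q : F) < 1)
    (hnr : ∀ y : F, V.valuation y = 1 → V.valuation (φ (N y) - y ^ q) < 1)
    {t : F} (ht0 : t ≠ 0) (hord : ∀ y : F, y ≠ 0 → ∃ a : ℤ, IsOrd V t y a)
    {t' : F'} (ht'0 : t' ≠ 0) {n : ℕ} (hn : n = 1 ∨ n = q) (hrel : IsOrd V t (φ t') n) :
    GoodAlong403 φ N q V := by
  refine goodAlong_of_units403 h1 hmul (fun y hy => pu_of_nr403 hnr hy) ht0 hord ?_
  -- the unit `y₁ = t ^ n / φ t'`
  have hφt'0 : φ t' ≠ 0 := (map_ne_zero φ).2 ht'0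
  have hNt0 : N t ≠ 0 := nfn_ne_zero h1 hmul ht0
  have hφNt0 : φ (N t) ≠ 0 := (map_ne_zero φ).2 hNt0
  set y₁ : F := t ^ n / φ t' with hy₁
  have hy₁1 : V.valuation y₁ = 1 := by
    rw [hy₁, map_div₀, map_pow]
    unfold IsOrd at hrel
    rw [hrel, zpow_natCast]
    exact div_self (pow_ne_zero _ (val_ne_zero_of_ne_zero ht0))
  have p₁ : PU V (y₁ ^ q / φ (N y₁)) := pu_of_nr403 hnr hy₁1
  have hNy₁ : N y₁ = N t ^ n / t' ^ q := by
    rw [hy₁, nfn_div403 h1 hmul _ hφt'0, nfn_pow h1 hmul, hφ]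
  have e : y₁ ^ q / φ (N y₁) = (t ^ q / φ (N t)) ^ n := by
    rw [hNy₁, map_div₀, map_pow, map_pow, hy₁, div_pow, div_pow, ← pow_mul, ← pow_mul,
      mul_comm n q]
    have h3 : φ t' ^ q ≠ 0 := pow_ne_zero _ hφt'0
    have h4 : φ (N t) ^ n ≠ 0 := pow_ne_zero _ hφNt0
    field_simp
  rw [e] at p₁
  rcases hn with rfl | rfl
  · rwa [pow_one] at p₁
  · exact pu_of_pu_pow_prime403 hq hqV p₁

end Good

end Fermat.Agent.S45.H403

end
-- ===== PACK-END S45/H403/GoodNR.lean

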