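import Mathlib
import Mathlib.RingTheory.Valuation.LocalSubring
import Mathlib.RingTheory.IntegralClosure.IsIntegralClosure.Basic
import Mathlib.RingTheory.Adjoin.Basic
import Mathlib.RingTheory.Valuation.ValuationSubring
import Mathlib.Tactic.FieldSimp
import Mathlib.Tactic.Ring
import Mathlib.Tactic.LinearCombination
import Fermat.Agent.Pack.S43MC.G0E17L0
import Fermat.Agent.Pack.S43MC.G0E10L1
import Fermat.Agent.Pack.S43MC.G0E7L2
import Fermat.Agent.Pack.S59C.E16L0

set_option linter.all false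

-- ===== PACK-BEGIN S45/H816/Pattern.lean
section


/-!
# S45 / CAR3 (helper816): residue PATTERNS of a modular chain at a valuation ring

Mathlib only.  `F` a field, `V` a valuation subring of `F` with `q ∈ 𝔪_V` (`q` prime),
`Φ ∈ ℤ[Y][X]` a polynomial satisfying the Kronecker congruence

    Φ = (X ^ q - Y) (X - Y ^ q) + q Θ.

A CHAIN is a family `s 0, …, s e` of elements of `F` with `Φ(s (k+1), s k) = 0 = Φ(s k, s (k+1))`
and `s (k+2) ≠ s k` (in the application `s k = j(q ^ k z)` at level `M q ^ e`).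

* `ev816 Φ x y`         : `Φ(x, y)` (outer variable `↦ x`, inner variable `↦ y`);
* `kron_dichotomy816`   : every step is of type `F` (`s (k+1) ≡ s k ^ q`) or of type `V`
                          (`s (k+1) ^ q ≡ s k`);
* `no_VF816`            : after a step of type `V` the next step is of type `V`;
* `IsPat816 V q s e a`  : `a` steps of type `F`, then `e - a` steps of type `V`;
* `exists_isPat816`     : every chain in `V` has a pattern;
* `IsPat816.unique`     : the pattern is unique if `s 0 ^ (q²) - s 0` is a unit of `V`;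
* `IsPat816.window`     : the pattern of `V.comap φ` for a window `φ (s' k) = s (c + k)`;
* `IsComp816 V q s e i` : board convention, `i` = number of steps of type `V`;
* `IsComp816.comap_alpha` (`i ↦ i - 1`), `IsComp816.comap_beta` (`i ↦ min i (e - 1)`):
                          the TABLE of the components along the two degeneracy maps;
* `IsPat816.mirror`     : `s (a + t) ≡ s (a - t)`  (the congruences of the components).
-/

set_option autoImplicit false
set_option linter.style.haveILetI false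
set_option linter.unusedSectionVars false

noncomputable section

namespace Fermat.Agent.S45.H816

/-! ## Valuation rings, elementwise -/

section Val

variable {F : Type*} [Field F] (V : ValuationSubring F)

theorem zero_mem_nu816 : (0 : F) ∈ V.nonunits := by
  rw [ValuationSubring.mem_nonunits_iff]
  simp

theorem add_mem_nu816 {x y : F} (hx : x ∈ V.nonunits) (hy : y ∈ V.nonunits) :
    x + y ∈ V.nonunits := by
  rw [ValuationSubring.mem_nonunits_iff] at hx hy ⊢
  exact lt_of_le_of_lt (V.valuation.map_add x y) (max_lt hx hy)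

theorem neg_mem_nu816 {x : F} (hx : x ∈ V.nonunits) : -x ∈ V.nonunits := by
  rw [ValuationSubring.mem_nonunits_iff] at hx ⊢
  rwa [Valuation.map_neg]

theorem sub_mem_nu816 {x y : F} (hx : x ∈ V.nonunits) (hy : y ∈ V.nonunits) :
    x - y ∈ V.nonunits := by
  rw [sub_eq_add_neg]
  exact add_mem_nu816 V hx (neg_mem_nu816 V hy)

theorem mul_mem_nu_left816 {x y : F} (hx : x ∈ V.nonunits) (hy : y ∈ V) :
    x * y ∈ V.nonunits := by
  rw [ValuationSubring.mem_nonunits_iff] at hx ⊢
  rw [map_mul]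
  exact mul_lt_one_of_lt_of_le hx ((ValuationSubring.valuation_le_one_iff V y).mpr hy)

theorem mul_mem_nu_right816 {x y : F} (hx : x ∈ V) (hy : y ∈ V.nonunits) :
    x * y ∈ V.nonunits := by
  rw [mul_comm]
  exact mul_mem_nu_left816 V hy hx

theorem mul_mem_nu_or816 {x y : F} (h : x * y ∈ V.nonunits) :
    x ∈ V.nonunits ∨ y ∈ V.nonunits := by
  rw [ValuationSubring.mem_nonunits_iff] at h ⊢
  rw [ValuationSubring.mem_nonunits_iff]
  by_contra hcon
  rw [not_or, not_lt, not_lt] at hcon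
  rw [map_mul] at h
  exact absurd h (not_lt.mpr (one_le_mul_of_one_le_of_one_le hcon.1 hcon.2))

/-- congruence is transitive -/
theorem cong_trans816 {x y z : F} (h₁ : x - y ∈ V.nonunits) (h₂ : y - z ∈ V.nonunits) :
    x - z ∈ V.nonunits := by
  have e : x - z = (x - y) + (y - z) := by ring
  rw [e]
  exact add_mem_nu816 V h₁ h₂

/-- congruence is symmetric -/
theorem cong_symm816 {x y : F} (h : x - y ∈ V.nonunits) : y - x ∈ V.nonunits := by
  have e : y - x = -(x - y) := by ring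
  rw [e]
  exact neg_mem_nu816 V h

/-- `a ≡ b` ⟹ `a ^ n ≡ b ^ n`. -/
theorem pow_cong816 {a b : F} (ha : a ∈ V) (hb : b ∈ V)
    (hab : a - b ∈ V.nonunits) (n : ℕ) : a ^ n - b ^ n ∈ V.nonunits := by
  induction n with
  | zero => simp only [pow_zero, sub_self]; exact zero_mem_nu816 V
  | succ n ih =>
      have e : a ^ (n + 1) - b ^ (n + 1) = (a ^ n - b ^ n) * a + b ^ n * (a - b) := by ring
      rw [e]
      exact add_mem_nu816 V (mul_mem_nu_left816 V ih ha)
        (mul_mem_nu_right816 V (pow_mem hb n) hab)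

/-- `x ∈ 𝔪_V` iff its residue vanishes. -/
theorem mem_nu_iff_residue816 {x : F} (hx : x ∈ V) :
    x ∈ V.nonunits ↔ IsLocalRing.residue V ⟨x, hx⟩ = 0 := by
  rw [IsLocalRing.residue_eq_zero_iff, ← ValuationSubring.coe_mem_nonunits_iff]

/-- the residue field has characteristic `q` as soon as `q ∈ 𝔪_V`. -/
theorem charP_residue816 {q : ℕ} (hq : q.Prime) (hqV : ((q : ℕ) : F) ∈ V.nonunits) :
    CharP (IsLocalRing.ResidueField V) q := by
  rw [CharP.charP_iff_prime_eq_zero hq]
  have h1 : IsLocalRing.residue V ((q : ℕ) : V) = 0 := by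
    rw [IsLocalRing.residue_eq_zero_iff, ← ValuationSubring.coe_mem_nonunits_iff]
    have : (((q : ℕ) : V) : F) = ((q : ℕ) : F) := by simp
    rw [this]
    exact hqV
  rw [map_natCast] at h1
  exact h1

/-- In a valuation ring with `q ∈ 𝔪` (`q` prime): `x ^ q - y ^ q ∈ 𝔪 ⟹ x - y ∈ 𝔪`. -/
theorem cong_of_pow816 {q : ℕ} (hq : q.Prime) (hqV : ((q : ℕ) : F) ∈ V.nonunits)
    {x y : F} (hx : x ∈ V) (hy : y ∈ V) (h : x ^ q - y ^ q ∈ V.nonunits) :
    x - y ∈ V.nonunits := by
  haveI : Fact q.Prime := ⟨hq⟩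
  haveI hchar : CharP (IsLocalRing.ResidueField V) q := charP_residue816 V hq hqV
  set X : V := ⟨x, hx⟩
  set Y : V := ⟨y, hy⟩
  have h2 : IsLocalRing.residue V (X ^ q - Y ^ q) = 0 := by
    rw [IsLocalRing.residue_eq_zero_iff, ← ValuationSubring.coe_mem_nonunits_iff]
    exact h
  have h3 : (IsLocalRing.residue V (X - Y)) ^ q = 0 := by
    rw [map_sub, sub_pow_char, ← map_pow, ← map_pow, ← map_sub]
    exact h2
  have h4 : IsLocalRing.residue V (X - Y) = 0 := pow_eq_zero_iff (hq.ne_zero) |>.mp h3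
  rw [IsLocalRing.residue_eq_zero_iff, ← ValuationSubring.coe_mem_nonunits_iff] at h4
  exact h4

/-- Frobenius is additive modulo `𝔪`: `(x - y) ^ q ≡ x ^ q - y ^ q`. -/
theorem sub_pow_cong816 {q : ℕ} (hq : q.Prime) (hqV : ((q : ℕ) : F) ∈ V.nonunits)
    {x y : F} (hx : x ∈ V) (hy : y ∈ V) :
    (x - y) ^ q - (x ^ q - y ^ q) ∈ V.nonunits := by
  haveI : Fact q.Prime := ⟨hq⟩
  haveI hchar : CharP (IsLocalRing.ResidueField V) q := charP_residue816 V hq hqV
  set X : V := ⟨x, hx⟩
  set Y : V := ⟨y, hy⟩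
  have h3 : IsLocalRing.residue V ((X - Y) ^ q - (X ^ q - Y ^ q)) = 0 := by
    rw [map_sub, map_pow, map_sub, sub_pow_char, map_sub, map_pow, map_pow, sub_self]
  rw [IsLocalRing.residue_eq_zero_iff, ← ValuationSubring.coe_mem_nonunits_iff] at h3
  exact h3

/-- membership in the maximal ideal of a comap -/
theorem mem_nu_comap816 {F' : Type*} [Field F'] (φ : F' →+* F) (x : F') :
    x ∈ (V.comap φ).nonunits ↔ φ x ∈ V.nonunits := by
  rw [ValuationSubring.mem_nonunits_iff_or, ValuationSubring.mem_nonunits_iff_or,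
    ValuationSubring.mem_comap, map_inv₀, map_eq_zero]

end Val

/-! ## Evaluation of two-variable polynomials -/

section Ev

variable {A B : Type*} [CommRing A] [CommRing B]

/-- `Φ(x, y)`: the outer variable goes to `x`, the inner variable to `y`. -/
def ev816 (Φ : Polynomial (Polynomial ℤ)) (x y : A) : A :=
  Φ.eval₂ (Polynomial.aeval (R := ℤ) y).toRingHom x

theorem map_ev816 (f : A →+* B) (Φ : Polynomial (Polynomial ℤ)) (x y : A) :
    f (ev816 Φ x y) = ev816 Φ (f x) (f y) := by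
  unfold ev816
  rw [Polynomial.hom_eval₂]
  congr 1
  apply Polynomial.ringHom_ext
  · intro a
    simp
  · simp

/-- the Kronecker congruence `Φ = (X ^ q - Y) (X - Y ^ q) + q Θ`. -/
def IsKron816 (q : ℕ) (Φ Θ : Polynomial (Polynomial ℤ)) : Prop :=
  Φ = ((Polynomial.X : Polynomial (Polynomial ℤ)) ^ q
        - Polynomial.C (Polynomial.X : Polynomial ℤ))
      * (Polynomial.X - Polynomial.C ((Polynomial.X : Polynomial ℤ) ^ q))
      + Polynomial.C (Polynomial.C (q : ℤ)) * Θ

theorem ev_kron816 {q : ℕ} {Φ Θ : Polynomial (Polynomial ℤ)} (h : IsKron816 q Φ Θ) (x y : A) :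
    ev816 Φ x y = (x ^ q - y) * (x - y ^ q) + (q : A) * ev816 Θ x y := by
  unfold ev816
  rw [h, Polynomial.eval₂_add, Polynomial.eval₂_mul, Polynomial.eval₂_mul,
    Polynomial.eval₂_sub, Polynomial.eval₂_sub, Polynomial.eval₂_pow, Polynomial.eval₂_X,
    Polynomial.eval₂_C, Polynomial.eval₂_C, Polynomial.eval₂_C]
  simp

/-- difference quotient in the outer variable -/
theorem ev_sub816 (Θ : Polynomial (Polynomial ℤ)) (x₂ x₀ y : A) :
    ∃ c : A, ev816 Θ x₂ y - ev816 Θ x₀ y = (x₂ - x₀) * c := by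
  unfold ev816
  rw [← Polynomial.eval_map, ← Polynomial.eval_map]
  exact Polynomial.sub_dvd_eval_sub x₂ x₀ _

/-- **The key identity**: for a Kronecker polynomial,
`Φ(x₂, x₁) - Φ(x₀, x₁) = (x₂ - x₀) (x₂ ^ q - x₁ - (x₁ ^ q - x₀) G + q c)`. -/
theorem kron_diff816 {q : ℕ} {Φ Θ : Polynomial (Polynomial ℤ)} (h : IsKron816 q Φ Θ)
    (x₀ x₁ x₂ : A) :
    ∃ G c : A, ev816 Φ x₂ x₁ - ev816 Φ x₀ x₁
      = (x₂ - x₀) * (x₂ ^ q - x₁ - (x₁ ^ q - x₀) * G + (q : A) * c) := by
  obtain ⟨c, hc⟩ := ev_sub816 Θ x₂ x₀ x₁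
  refine ⟨∑ i ∈ Finset.range q, x₂ ^ i * x₀ ^ (q - 1 - i), c, ?_⟩
  have hG : (∑ i ∈ Finset.range q, x₂ ^ i * x₀ ^ (q - 1 - i)) * (x₂ - x₀) = x₂ ^ q - x₀ ^ q :=
    (Commute.all x₂ x₀).geom_sum₂_mul q
  rw [ev_kron816 h, ev_kron816 h]
  linear_combination (x₁ ^ q - x₀) * hG + (q : A) * hc

end Ev

/-! ## The dichotomy and the absence of `V`-then-`F` -/

section Dich

variable {F : Type*} [Field F] (V : ValuationSubring F)

theorem ev_mem816 (Θ : Polynomial (Polynomial ℤ)) {x y : F} (hx : x ∈ V) (hy : y ∈ V) :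
    ev816 Θ x y ∈ V := by
  have h := map_ev816 V.subtype Θ ⟨x, hx⟩ ⟨y, hy⟩
  have e : ev816 Θ x y = V.subtype (ev816 Θ (⟨x, hx⟩ : V) ⟨y, hy⟩) := h.symm
  rw [e]
  exact (ev816 Θ (⟨x, hx⟩ : V) ⟨y, hy⟩).2

/-- **Kronecker dichotomy**: `Φ(x, y) = 0` ⟹ `x ≡ y ^ q` (type `F`) or `x ^ q ≡ y` (type `V`). -/
theorem kron_dichotomy816 {q : ℕ} (hqV : ((q : ℕ) : F) ∈ V.nonunits)
    {Φ Θ : Polynomial (Polynomial ℤ)} (hΦ : IsKron816 q Φ Θ) {x y : F} (hx : x ∈ V) (hy : y ∈ V)
    (h0 : ev816 Φ x y = 0) :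
    x - y ^ q ∈ V.nonunits ∨ x ^ q - y ∈ V.nonunits := by
  rw [ev_kron816 hΦ] at h0
  have hprod : (x ^ q - y) * (x - y ^ q) ∈ V.nonunits := by
    have e : (x ^ q - y) * (x - y ^ q) = -(((q : ℕ) : F) * ev816 Θ x y) := by
      linear_combination h0
    rw [e]
    exact neg_mem_nu816 V (mul_mem_nu_left816 V hqV (ev_mem816 V Θ hx hy))
  exact (mul_mem_nu_or816 V hprod).symm

/-- **No `V`-then-`F`**: if `x₀, x₂` are two DISTINCT roots of `Φ(·, x₁)` and the step
`x₀ → x₁` is of type `V` (`x₁ ^ q ≡ x₀`), then the step `x₁ → x₂` is of type `V`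
(`x₂ ^ q ≡ x₁`). -/
theorem no_VF816 {q : ℕ} (hqV : ((q : ℕ) : F) ∈ V.nonunits)
    {Φ Θ : Polynomial (Polynomial ℤ)} (hΦ : IsKron816 q Φ Θ) {x₀ x₁ x₂ : F}
    (h₀ : x₀ ∈ V) (h₁ : x₁ ∈ V) (h₂ : x₂ ∈ V)
    (e₀ : ev816 Φ x₀ x₁ = 0) (e₂ : ev816 Φ x₂ x₁ = 0) (hne : x₂ ≠ x₀)
    (hV : x₁ ^ q - x₀ ∈ V.nonunits) : x₂ ^ q - x₁ ∈ V.nonunits := by
  obtain ⟨G, c, hGc⟩ := kron_diff816 hΦ (⟨x₀, h₀⟩ : V) ⟨x₁, h₁⟩ ⟨x₂, h₂⟩
  have h := congrArg V.subtype hGc
  simp only [map_sub, map_ev816, map_mul, map_add, map_pow, map_natCast] at h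
  have hs₀ : V.subtype (⟨x₀, h₀⟩ : V) = x₀ := rfl
  have hs₁ : V.subtype (⟨x₁, h₁⟩ : V) = x₁ := rfl
  have hs₂ : V.subtype (⟨x₂, h₂⟩ : V) = x₂ := rfl
  rw [hs₀, hs₁, hs₂, e₀, e₂, sub_zero] at h
  have hne' : x₂ - x₀ ≠ 0 := sub_ne_zero.mpr hne
  have h3 : x₂ ^ q - x₁ - (x₁ ^ q - x₀) * V.subtype G + (q : F) * V.subtype c = 0 := by
    rcases mul_eq_zero.mp h.symm with h4 | h4
    · exact absurd h4 hne'
    · exact h4
  have e : x₂ ^ q - x₁ = (x₁ ^ q - x₀) * V.subtype G - (q : F) * V.subtype c := by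
    linear_combination h3
  rw [e]
  exact sub_mem_nu816 V (mul_mem_nu_left816 V hV G.2) (mul_mem_nu_left816 V hqV c.2)

end Dich

/-! ## Chains and patterns -/

section Pattern

variable {F : Type*} [Field F]

/-- A CHAIN of length `e` for `Φ`: `Φ(s (k+1), s k) = 0 = Φ(s k, s (k+1))`, non-backtracking. -/
structure IsChain816 (Φ : Polynomial (Polynomial ℤ)) (s : ℕ → F) (e : ℕ) : Prop where
  up : ∀ k, k < e → ev816 Φ (s (k + 1)) (s k) = 0
  down : ∀ k, k < e → ev816 Φ (s k) (s (k + 1)) = 0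
  ne : ∀ k, k + 2 ≤ e → s (k + 2) ≠ s k

theorem IsChain816.mono {Φ : Polynomial (Polynomial ℤ)} {s : ℕ → F} {e e' : ℕ}
    (h : IsChain816 Φ s e) (hee : e' ≤ e) : IsChain816 Φ s e' :=
  ⟨fun k hk => h.up k (lt_of_lt_of_le hk hee), fun k hk => h.down k (lt_of_lt_of_le hk hee),
    fun k hk => h.ne k (le_trans hk hee)⟩

/-- **The residue pattern `F^a V^(e-a)`** of `s 0, …, s e` at `V`: the first `a` steps are of type
`F` (`s (k+1) ≡ s k ^ q`), the last `e - a` steps of type `V` (`s (k+1) ^ q ≡ s k`). -/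
structure IsPat816 (V : ValuationSubring F) (q : ℕ) (s : ℕ → F) (e a : ℕ) : Prop where
  le : a ≤ e
  mem : ∀ k, k ≤ e → s k ∈ V
  stepF : ∀ k, k < a → s (k + 1) - s k ^ q ∈ V.nonunits
  stepV : ∀ k, a ≤ k → k < e → s (k + 1) ^ q - s k ∈ V.nonunits

/-- **Every chain in `V` has a pattern.** -/
theorem exists_isPat816 (V : ValuationSubring F) {q : ℕ} (hqV : ((q : ℕ) : F) ∈ V.nonunits)
    {Φ Θ : Polynomial (Polynomial ℤ)} (hΦ : IsKron816 q Φ Θ) {s : ℕ → F} :
    ∀ e : ℕ, IsChain816 Φ s e → (∀ k, k ≤ e → s k ∈ V) → ∃ a, IsPat816 V q s e a := by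
  intro e
  induction e with
  | zero =>
      intro _ hmem
      exact ⟨0, le_refl 0, hmem, fun k hk => absurd hk (Nat.not_lt_zero k),
        fun k _ hk => absurd hk (Nat.not_lt_zero k)⟩
  | succ e ih =>
      intro hc hmem
      obtain ⟨a, ha⟩ := ih (hc.mono (Nat.le_succ e)) (fun k hk => hmem k (Nat.le_succ_of_le hk))
      have hme : s e ∈ V := hmem e (Nat.le_succ e)
      have hme1 : s (e + 1) ∈ V := hmem (e + 1) le_rfl
      by_cases hae : a = e
      · -- all steps so far are of type `F`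
        subst hae
        rcases kron_dichotomy816 V hqV hΦ hme1 hme (hc.up a (Nat.lt_succ_self a)) with h | h
        · refine ⟨a + 1, le_rfl, hmem, fun k hk => ?_, fun k hk hk' => ?_⟩
          · rcases Nat.lt_succ_iff_lt_or_eq.mp hk with h1 | h1
            · exact ha.stepF k h1
            · rw [h1]; exact h
          · exact absurd hk' (not_lt.mpr hk)
        · refine ⟨a, Nat.le_succ a, hmem, ha.stepF, fun k hk hk' => ?_⟩
          have : k = a := le_antisymm (Nat.lt_succ_iff.mp hk') hk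
          rw [this]; exact h
      · -- the last step so far is of type `V`
        have hlt : a < e := lt_of_le_of_ne ha.le hae
        obtain ⟨e', rfl⟩ : ∃ e', e = e' + 1 := ⟨e - 1, by omega⟩
        have hV : s (e' + 1) ^ q - s e' ∈ V.nonunits :=
          ha.stepV e' (Nat.lt_succ_iff.mp hlt) (Nat.lt_succ_self e')
        have hnew : s (e' + 1 + 1) ^ q - s (e' + 1) ∈ V.nonunits :=
          no_VF816 V hqV hΦ (ha.mem e' (Nat.le_succ e')) hme hme1
            (hc.down e' (by omega)) (hc.up (e' + 1) (by omega)) (hc.ne e' (by omega)) hV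
        refine ⟨a, by omega, hmem, ha.stepF, fun k hk hk' => ?_⟩
        rcases Nat.lt_succ_iff_lt_or_eq.mp hk' with h1 | h1
        · exact ha.stepV k hk h1
        · rw [h1]; exact hnew

/-- `x ^ (q²) - x` stays a unit along a step of type `F`. -/
theorem unitQ_stepF816 (V : ValuationSubring F) {q : ℕ} (hq : q.Prime)
    (hqV : ((q : ℕ) : F) ∈ V.nonunits) {x y : F} (hx : x ∈ V) (hy : y ∈ V)
    (hF : y - x ^ q ∈ V.nonunits) (hu : x ^ (q ^ 2) - x ∉ V.nonunits) :
    y ^ (q ^ 2) - y ∉ V.nonunits := by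
  intro hcon
  apply hu
  -- `(x ^ (q²) - x) ^ q ≡ (x ^ q) ^ (q²) - x ^ q ≡ y ^ (q²) - y`
  have h1 : (x ^ q) ^ (q ^ 2) - y ^ (q ^ 2) ∈ V.nonunits :=
    cong_symm816 V (pow_cong816 V hy (pow_mem hx q) hF (q ^ 2))
  have h2 : (x ^ q) ^ (q ^ 2) - x ^ q ∈ V.nonunits := by
    have e : (x ^ q) ^ (q ^ 2) - x ^ q
        = ((x ^ q) ^ (q ^ 2) - y ^ (q ^ 2)) + (y ^ (q ^ 2) - y) + (y - x ^ q) := by ring
    rw [e]
    exact add_mem_nu816 V (add_mem_nu816 V h1 hcon) hF
  have h3 := sub_pow_cong816 V hq hqV (pow_mem hx (q ^ 2)) hx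
  have h4 : (x ^ (q ^ 2) - x) ^ q ∈ V.nonunits := by
    have e : (x ^ (q ^ 2) - x) ^ q
        = ((x ^ (q ^ 2) - x) ^ q - ((x ^ (q ^ 2)) ^ q - x ^ q)) + ((x ^ q) ^ (q ^ 2) - x ^ q) := by
      ring
    rw [e]
    exact add_mem_nu816 V h3 h2
  rw [ValuationSubring.mem_nonunits_iff, map_pow] at h4
  rw [ValuationSubring.mem_nonunits_iff]
  exact (pow_lt_one_iff hq.ne_zero).mp h4

/-- `x ^ (q²) - x` stays a unit along a step of type `V`. -/
theorem unitQ_stepV816 (V : ValuationSubring F) {q : ℕ} (hq : q.Prime)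
    (hqV : ((q : ℕ) : F) ∈ V.nonunits) {x y : F} (hx : x ∈ V) (hy : y ∈ V)
    (hV : y ^ q - x ∈ V.nonunits) (hu : x ^ (q ^ 2) - x ∉ V.nonunits) :
    y ^ (q ^ 2) - y ∉ V.nonunits := by
  intro hcon
  apply hu
  -- `x ^ (q²) - x ≡ (y ^ q) ^ (q²) - y ^ q ≡ (y ^ (q²) - y) ^ q`
  have h1 : x ^ (q ^ 2) - (y ^ q) ^ (q ^ 2) ∈ V.nonunits :=
    cong_symm816 V (pow_cong816 V (pow_mem hy q) hx hV (q ^ 2))
  have h3 := sub_pow_cong816 V hq hqV (pow_mem hy (q ^ 2)) hy
  have h4 : (y ^ (q ^ 2) - y) ^ q ∈ V.nonunits := by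
    rw [ValuationSubring.mem_nonunits_iff, map_pow]
    rw [ValuationSubring.mem_nonunits_iff] at hcon
    exact pow_lt_one' hcon hq.ne_zero
  have e : x ^ (q ^ 2) - x
      = (x ^ (q ^ 2) - (y ^ q) ^ (q ^ 2))
        - ((y ^ (q ^ 2) - y) ^ q - ((y ^ (q ^ 2)) ^ q - y ^ q))
        + (y ^ (q ^ 2) - y) ^ q + (y ^ q - x) := by
    ring
  rw [e]
  exact add_mem_nu816 V (add_mem_nu816 V (sub_mem_nu816 V h1 h3) h4) hV

namespace IsPat816

variable {V : ValuationSubring F} {q : ℕ} {s : ℕ → F} {e a : ℕ}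

/-- `s k ^ (q²) - s k` is a unit for all `k ≤ e` as soon as it is one for `k = 0`. -/
theorem unitQ (h : IsPat816 V q s e a) (hq : q.Prime) (hqV : ((q : ℕ) : F) ∈ V.nonunits)
    (hu : s 0 ^ (q ^ 2) - s 0 ∉ V.nonunits) :
    ∀ k, k ≤ e → s k ^ (q ^ 2) - s k ∉ V.nonunits := by
  intro k
  induction k with
  | zero => intro _; exact hu
  | succ k ih =>
      intro hk
      have hk' : k ≤ e := Nat.le_of_succ_le hk
      by_cases hka : k < a
      · exact unitQ_stepF816 V hq hqV (h.mem k hk') (h.mem (k + 1) hk) (h.stepF k hka) (ih hk')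
      · exact unitQ_stepV816 V hq hqV (h.mem k hk') (h.mem (k + 1) hk)
          (h.stepV k (not_lt.mp hka) hk) (ih hk')

/-- a step cannot be of both types if `s k ^ (q²) - s k` is a unit -/
theorem not_both816 (V : ValuationSubring F) {q : ℕ} {x y : F} (hx : x ∈ V) (hy : y ∈ V)
    (hF : y - x ^ q ∈ V.nonunits) (hV : y ^ q - x ∈ V.nonunits) :
    x ^ (q ^ 2) - x ∈ V.nonunits := by
  have h1 : (x ^ q) ^ q - y ^ q ∈ V.nonunits :=
    cong_symm816 V (pow_cong816 V hy (pow_mem hx q) hF q)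
  have e : x ^ (q ^ 2) - x = ((x ^ q) ^ q - y ^ q) + (y ^ q - x) := by ring
  rw [e]
  exact add_mem_nu816 V h1 hV

theorem le_of_pat {a' : ℕ} (h : IsPat816 V q s e a) (h' : IsPat816 V q s e a') (hq : q.Prime)
    (hqV : ((q : ℕ) : F) ∈ V.nonunits) (hu : s 0 ^ (q ^ 2) - s 0 ∉ V.nonunits) : a' ≤ a := by
  by_contra hlt
  rw [not_le] at hlt
  have hae : a < e := lt_of_lt_of_le hlt h'.le
  exact h.unitQ hq hqV hu a h.le
    (not_both816 V (h.mem a h.le) (h.mem (a + 1) hae) (h'.stepF a hlt) (h.stepV a le_rfl hae))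

/-- **The pattern is unique.** -/
theorem unique {a' : ℕ} (h : IsPat816 V q s e a) (h' : IsPat816 V q s e a') (hq : q.Prime)
    (hqV : ((q : ℕ) : F) ∈ V.nonunits) (hu : s 0 ^ (q ^ 2) - s 0 ∉ V.nonunits) : a = a' :=
  le_antisymm (h'.le_of_pat h hq hqV hu) (h.le_of_pat h' hq hqV hu)

/-- **Windows**: if `φ (s' k) = s (c + k)` for `k ≤ e'` (`c + e' ≤ e`), then `V.comap φ` has the
pattern `min (a - c) e'` on `s' 0, …, s' e'`. -/
theorem window {F' : Type*} [Field F'] (h : IsPat816 V q s e a) (φ : F' →+* F) (s' : ℕ → F')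
    (c e' : ℕ) (hce : c + e' ≤ e) (hs : ∀ k, k ≤ e' → φ (s' k) = s (c + k)) :
    IsPat816 (V.comap φ) q s' e' (min (a - c) e') where
  le := min_le_right _ _
  mem := fun k hk => by
    rw [ValuationSubring.mem_comap, hs k hk]
    exact h.mem _ (by omega)
  stepF := fun k hk => by
    have hk1 : k < a - c := lt_of_lt_of_le hk (min_le_left _ _)
    have hk2 : k < e' := lt_of_lt_of_le hk (min_le_right _ _)
    rw [mem_nu_comap816, map_sub, map_pow, hs k hk2.le, hs (k + 1) hk2]
    have := h.stepF (c + k) (by omega)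
    rwa [Nat.add_assoc] at this
  stepV := fun k hk hk' => by
    have hk1 : a - c ≤ k := by
      rcases min_le_iff.mp hk with h1 | h1
      · exact h1
      · exact absurd hk' (not_lt.mpr h1)
    rw [mem_nu_comap816, map_sub, map_pow, hs k hk'.le, hs (k + 1) hk']
    have := h.stepV (c + k) (by omega) (by omega)
    rwa [Nat.add_assoc] at this

/-- **Mirror congruences**: `s (a + t) ≡ s (a - t)` modulo `𝔪_V`. -/
theorem mirror (h : IsPat816 V q s e a) (hq : q.Prime) (hqV : ((q : ℕ) : F) ∈ V.nonunits) :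
    ∀ t, t ≤ a → a + t ≤ e → s (a + t) - s (a - t) ∈ V.nonunits := by
  intro t
  induction t with
  | zero =>
      intro _ _
      simp only [Nat.add_zero, Nat.sub_zero, sub_self]
      exact zero_mem_nu816 V
  | succ t ih =>
      intro hta hte
      have h0 := ih (by omega) (by omega)
      have hV := h.stepV (a + t) (by omega) (by omega)
      have hF := h.stepF (a - (t + 1)) (by omega)
      have e1 : a - (t + 1) + 1 = a - t := by omega
      rw [e1] at hF
      have e2 : a + t + 1 = a + (t + 1) := by omega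
      rw [e2] at hV
      refine cong_of_pow816 V hq hqV (h.mem _ hte) (h.mem _ (by omega)) ?_
      exact cong_trans816 V (cong_trans816 V hV h0) hF

end IsPat816

/-! ## Board convention: `i` = number of steps of type `V` -/

/-- **The component `i`** (board convention of `S45.Eng.CtxE`): `e - i` steps of type `F`, then
`i` steps of type `V`.  `i = 0` is `V∞`, `i = e` its Fricke image. -/
def IsComp816 (V : ValuationSubring F) (q : ℕ) (s : ℕ → F) (e i : ℕ) : Prop :=
  i ≤ e ∧ IsPat816 V q s e (e - i)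

namespace IsComp816

variable {V : ValuationSubring F} {q : ℕ} {s : ℕ → F} {e i : ℕ}

theorem exists_of_chain (V : ValuationSubring F) {q : ℕ} (hqV : ((q : ℕ) : F) ∈ V.nonunits)
    {Φ Θ : Polynomial (Polynomial ℤ)} (hΦ : IsKron816 q Φ Θ) {s : ℕ → F} {e : ℕ}
    (hc : IsChain816 Φ s e) (hmem : ∀ k, k ≤ e → s k ∈ V) : ∃ i, IsComp816 V q s e i := by
  obtain ⟨a, ha⟩ := exists_isPat816 V hqV hΦ e hc hmem
  refine ⟨e - a, Nat.sub_le e a, ?_⟩
  have : e - (e - a) = a := Nat.sub_sub_self ha.le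
  rw [this]
  exact ha

theorem unique {i' : ℕ} (h : IsComp816 V q s e i) (h' : IsComp816 V q s e i') (hq : q.Prime)
    (hqV : ((q : ℕ) : F) ∈ V.nonunits) (hu : s 0 ^ (q ^ 2) - s 0 ∉ V.nonunits) : i = i' := by
  have := h.2.unique h'.2 hq hqV hu
  have h1 := h.1
  have h2 := h'.1
  omega

/-- **TABLE, `α`**: if `α (s' k) = s k`, the component `i` of level `e` lies over the component
`i - 1` of level `e - 1` (`0 ↦ 0`). -/
theorem comap_alpha {F' : Type*} [Field F'] (h : IsComp816 V q s e i) (φ : F' →+* F)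
    (s' : ℕ → F') (hs : ∀ k, k ≤ e - 1 → φ (s' k) = s k) :
    IsComp816 (V.comap φ) q s' (e - 1) (i - 1) := by
  have hw := h.2.window φ s' 0 (e - 1) (by omega) (fun k hk => by rw [Nat.zero_add]; exact hs k hk)
  refine ⟨by have := h.1; omega, ?_⟩
  have e1 : min (e - i - 0) (e - 1) = e - 1 - (i - 1) := by
    have := h.1
    omega
  rw [e1] at hw
  exact hw

/-- **TABLE, `β`**: if `β (s' k) = s (k + 1)`, the component `i` of level `e` lies over the
component `min i (e - 1)` of level `e - 1`. -/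
theorem comap_beta {F' : Type*} [Field F'] (h : IsComp816 V q s e i) (he : 1 ≤ e) (φ : F' →+* F)
    (s' : ℕ → F') (hs : ∀ k, k ≤ e - 1 → φ (s' k) = s (k + 1)) :
    IsComp816 (V.comap φ) q s' (e - 1) (min i (e - 1)) := by
  have hw := h.2.window φ s' 1 (e - 1) (by omega)
    (fun k hk => by rw [Nat.add_comm 1 k]; exact hs k hk)
  refine ⟨min_le_right _ _, ?_⟩
  have e1 : min (e - i - 1) (e - 1) = e - 1 - min i (e - 1) := by
    have := h.1
    omega
  rw [e1] at hw
  exact hw

end IsComp816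

end Pattern

end Fermat.Agent.S45.H816

end

end
-- ===== PACK-END S45/H816/Pattern.lean

-- ===== PACK-BEGIN S45/H253/TableAux.lean
section


/-!
# Auxiliary valuation lemmas for `NormOne.lean` (helper253; row CAR3, block MOD-E/Val)

Mathlib + `S36/H253` (ON MAIN) only.

* `isDVR_of_zpow` : a valuation subring whose value group is generated by the value of an element
  of its maximal ideal is a discrete valuation ring;
* `res_split`     : residue degree one, elementwise, in the equality case `∑ E i = [F : K]`;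
* `eq_insep`      : completeness in the purely inseparable case.
-/

set_option autoImplicit false
set_option linter.unusedSectionVars false
set_option linter.style.haveILetI false

namespace Fermat.Agent.S45.H253

open scoped BigOperators
open Fermat.Agent.S35.H253
open Fermat.Agent.S36.H253

section DVR

variable {F : Type*} [Field F]

/-- A valuation subring whose value group is generated by the value of an element of its maximal
ideal is a discrete valuation ring. -/
theorem isDVR_of_zpow (V : ValuationSubring F) {τ : F} (hτ0 : τ ≠ 0) (hτ : V.valuation τ < 1)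
    (hz : ∀ y : F, y ≠ 0 → ∃ n : ℤ, V.valuation y = V.valuation τ ^ n) :
    IsDiscreteValuationRing V := by
  have hτV : τ ∈ V := (V.valuation_le_one_iff τ).1 hτ.le
  have hτpos : 0 < V.valuation τ := by rw [Valuation.pos_iff]; exact hτ0
  -- elements of valuation one are units
  have hunit : ∀ u : V, V.valuation (u : F) = 1 → IsUnit u := fun u hu =>
    (V.valuation_eq_one_iff u).2 hu
  -- nonunits have valuation at most `v τ`
  have hgen : ∀ y : V, ¬ IsUnit y → V.valuation (y : F) ≤ V.valuation τ := by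
    intro y hy
    by_cases hy0 : (y : F) = 0
    · rw [hy0, map_zero]; exact zero_le
    obtain ⟨n, hn⟩ := hz (y : F) hy0
    have hlt : V.valuation (y : F) < 1 := by
      refine lt_of_le_of_ne ((V.valuation_le_one_iff _).2 y.2) ?_
      intro h1
      exact hy (hunit y h1)
    rw [hn] at hlt ⊢
    exact zpow_le_self_of_lt_one hτpos.ne' hτ hlt
  refine IsDiscreteValuationRing.ofHasUnitMulPowIrreducibleFactorization
    ⟨⟨τ, hτV⟩, ?_, ?_⟩
  · -- `τ` is irreducible
    refine ⟨?_, ?_⟩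
    · intro hu
      have := (V.valuation_eq_one_iff ⟨τ, hτV⟩).1 hu
      exact hτ.ne this
    · intro a b hab
      by_contra hcon
      rw [not_or] at hcon
      have ha := hgen a hcon.1
      have hb := hgen b hcon.2
      have h1 : V.valuation τ = V.valuation (a : F) * V.valuation (b : F) := by
        rw [← map_mul]
        exact congrArg (fun t : V => V.valuation (t : F)) hab
      have h2 : V.valuation τ ≤ V.valuation τ * V.valuation τ := by
        calc V.valuation τ = V.valuation (a : F) * V.valuation (b : F) := h1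
          _ ≤ V.valuation τ * V.valuation τ := mul_le_mul' ha hb
      have h3 : V.valuation τ * V.valuation τ < V.valuation τ * 1 :=
        mul_lt_mul_of_pos_left hτ hτpos
      rw [mul_one] at h3
      exact absurd h2 (not_le.2 h3)
  · -- factorisation
    intro x hx
    have hx0 : (x : F) ≠ 0 := fun h => hx (Subtype.ext h)
    obtain ⟨n, hn⟩ := hz (x : F) hx0
    have hle : V.valuation (x : F) ≤ 1 := (V.valuation_le_one_iff _).2 x.2
    -- `n ≥ 0`
    have hn0 : 0 ≤ n := by
      by_contra hneg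
      rw [not_le] at hneg
      have : 1 < V.valuation τ ^ n := by
        have h1 : V.valuation τ ^ n = (V.valuation τ ^ (-n))⁻¹ := by rw [zpow_neg, inv_inv]
        rw [h1]
        have hpos : 0 < -n := by omega
        obtain ⟨k, hk⟩ : ∃ k : ℕ, -n = (k : ℤ) := ⟨(-n).toNat, by omega⟩
        rw [hk, zpow_natCast]
        have hk0 : k ≠ 0 := by omega
        have hlt : V.valuation τ ^ k < 1 := pow_lt_one₀ hτpos.le hτ hk0
        exact (one_lt_inv₀ (pow_pos hτpos k)).2 hlt
      rw [← hn] at this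
      exact absurd hle (not_le.2 this)
    obtain ⟨k, rfl⟩ : ∃ k : ℕ, n = (k : ℤ) := ⟨n.toNat, by omega⟩
    rw [zpow_natCast] at hn
    refine ⟨k, ?_⟩
    -- `x = u τ ^ k`
    have hτk0 : τ ^ k ≠ 0 := pow_ne_zero k hτ0
    have huv : V.valuation ((x : F) * (τ ^ k)⁻¹) = 1 := by
      rw [map_mul, map_inv₀, map_pow, hn, mul_inv_cancel₀ (pow_ne_zero k hτpos.ne')]
    have huV : (x : F) * (τ ^ k)⁻¹ ∈ V := (V.valuation_le_one_iff _).1 huv.le
    obtain ⟨u, hu⟩ := hunit ⟨_, huV⟩ huv
    refine ⟨u, Subtype.ext ?_⟩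
    show ((⟨τ, hτV⟩ : V) ^ k * (u : V) : V) = (x : F)
    rw [hu]
    show τ ^ k * ((x : F) * (τ ^ k)⁻¹) = (x : F)
    rw [mul_comm, inv_mul_cancel_right₀ hτk0]

end DVR

section SplitAbs

variable {K F : Type*} [Field K] [Field F] [Algebra K F]
variable {ι : Type*} [Fintype ι]
    {O : ValuationSubring K} {ϖ : K} {V : ι → ValuationSubring F} {τ : ι → F} {E : ι → ℕ}
    (hover : ∀ i, Over O (V i)) (hinc : ∀ i i', i ≠ i' → ¬ V i ≤ V i')
    (hϖ0 : ϖ ≠ 0) (hϖ : O.valuation ϖ < 1)
    (hdvr : ∀ a : K, a ≠ 0 → ∃ n : ℤ, O.valuation a = O.valuation ϖ ^ n)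
    (hτ : ∀ i, (V i).valuation (τ i) < 1)
    (hram : ∀ i, (V i).valuation (algebraMap K F ϖ) = (V i).valuation (τ i) ^ E i)

include hover hinc hϖ0 hϖ hdvr hτ hram

/-- **Residue degree one, elementwise** (split case): if `∑ i, E i = [F : K]`, every element of
`V i` is congruent modulo `𝔪_{V i}` to an element of `O`. -/
theorem res_split [Module.Finite K F] (hdeg : ∑ i, E i = Module.finrank K F) (i₀ : ι)
    {y : F} (hy : y ∈ V i₀) : ∃ c : K, c ∈ O ∧ y - algebraMap K F c ∈ (V i₀).nonunits := by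
  classical
  letI alg : ∀ i, Algebra (IsLocalRing.ResidueField O) (IsLocalRing.ResidueField (V i)) :=
    fun i => resAlgebra (hover i)
  have hπ : Function.Surjective (IsLocalRing.residue O) := IsLocalRing.residue_surjective
  have hρ : ∀ i, Function.Surjective (IsLocalRing.residue (V i)) :=
    fun i => IsLocalRing.residue_surjective
  have hc : ∀ i (a : O), IsLocalRing.residue (V i) ⟨algebraMap K F a, ((hover i) a).2 a.2⟩ =
      algebraMap (IsLocalRing.ResidueField O) (IsLocalRing.ResidueField (V i))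
        (IsLocalRing.residue O a) := fun i a => resAlgebra_residue (hover i) a
  have hfin : ∀ i, Module.Finite (IsLocalRing.ResidueField O)
      (IsLocalRing.ResidueField (V i)) := fun i =>
    finite_residue_dvr hover hϖ0 hϖ hdvr hτ hram (IsLocalRing.residue O)
      (fun i => IsLocalRing.residue (V i)) hπ hρ hc i
  have hf : ∀ i, (fun _ : ι => 1) i ≤
      Module.finrank (IsLocalRing.ResidueField O) (IsLocalRing.ResidueField (V i)) :=
    fun i => Module.finrank_pos
  have heq : ∑ i, E i * (fun _ : ι => 1) i = Module.finrank K F := by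
    rw [← hdeg]; exact Finset.sum_congr rfl fun i _ => mul_one _
  have hfr := finrank_eq_of_fund_eq hover hinc hϖ0 hϖ (genO_of_dvr hϖ0 hϖ hdvr) hτ
    (fun i _ hz => exists_pow_le_of_dvr (hover i) hϖ0 hϖ hdvr hz) hram (IsLocalRing.residue O)
    (fun i => IsLocalRing.residue (V i)) hπ hρ hc (fun _ => 1) hf heq i₀
  have hbot := Subalgebra.bot_eq_top_of_finrank_eq_one hfr
  have hmem : IsLocalRing.residue (V i₀) ⟨y, hy⟩ ∈
      (⊥ : Subalgebra (IsLocalRing.ResidueField O) (IsLocalRing.ResidueField (V i₀))) := by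
    rw [hbot]; exact Algebra.mem_top
  obtain ⟨cb, hcb⟩ := Algebra.mem_bot.1 hmem
  obtain ⟨c, rfl⟩ := hπ cb
  refine ⟨c, c.2, ?_⟩
  have h1 : IsLocalRing.residue (V i₀) ⟨y, hy⟩ =
      IsLocalRing.residue (V i₀) ⟨algebraMap K F c, ((hover i₀) c).2 c.2⟩ := by
    rw [hc i₀ c]; exact hcb.symm
  rw [← sub_eq_zero, ← map_sub, IsLocalRing.residue_eq_zero_iff,
    ValuationSubring.valuation_lt_one_iff] at h1
  exact h1

end SplitAbs

section InsepAbs

variable {K F : Type*} [Field K] [Field F] [Algebra K F]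
variable {O : ValuationSubring K} {ϖ : K} {V : ValuationSubring F} (h : Over O V)
    (hϖ0 : ϖ ≠ 0) (hϖ : O.valuation ϖ < 1)
    (hdvr : ∀ a : K, a ≠ 0 → ∃ n : ℤ, O.valuation a = O.valuation ϖ ^ n)
    (q : ℕ) (hq : q.Prime) (hqO : O.valuation (q : K) < 1)
    (hdeg : Module.finrank K F = q)
    {z₀ : F} {c₀ : K} (hz₀ : z₀ ∈ V) (hzc : z₀ ^ q - algebraMap K F c₀ ∈ V.nonunits)
    (hnp : ∀ a : K, a ∈ O → a ^ q - c₀ ∉ O.nonunits)

include h hϖ0 hϖ hdvr hq hqO hdeg hz₀ hzc hnp

/-- **Completeness, purely inseparable case**: `V` is the only valuation subring over `O`. -/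
theorem eq_insep [Module.Finite K F] {W : ValuationSubring F} (hW : Over O W) : W = V := by
  classical
  letI alg := resAlgebra h
  obtain ⟨hfr, -, -⟩ := insep_finrank h hϖ0 hϖ hdvr q hq hqO hdeg hz₀ hzc hnp
  have hπ : Function.Surjective (IsLocalRing.residue O) := IsLocalRing.residue_surjective
  have hρ : Function.Surjective (IsLocalRing.residue V) := IsLocalRing.residue_surjective
  have hc : ∀ (a : O), IsLocalRing.residue V ⟨algebraMap K F a, (h a).2 a.2⟩ =
      algebraMap (IsLocalRing.ResidueField O) (IsLocalRing.ResidueField V)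
        (IsLocalRing.residue O a) := fun a => resAlgebra_residue h a
  have hτ : V.valuation (algebraMap K F ϖ) < 1 := (h.val_lt_one_iff ϖ).2 hϖ
  obtain ⟨_, hi⟩ := eq_of_fund_eq (ι := Unit) (V := fun _ => V)
    (τ := fun _ => algebraMap K F ϖ) (E := fun _ => 1)
    (κ := fun _ => IsLocalRing.ResidueField V)
    (fun _ => h) (fun i i' hii' => absurd (Subsingleton.elim i i') hii') hϖ0 hϖ hdvr
    (fun _ => hτ) (fun _ => by simp)
    (IsLocalRing.residue O) (fun _ => IsLocalRing.residue V) hπ (fun _ => hρ) (fun _ => hc)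
    (by simp [hdeg, hfr]) hW
  exact hi

end InsepAbs

end Fermat.Agent.S45.H253

end
-- ===== PACK-END S45/H253/TableAux.lean

-- ===== PACK-BEGIN S45/H253/NormOne.lean
section


/-!
# ONE-extension norm tables with GENERAL uniformisers (helper253; row CAR3, block MOD-E/Val)

Supplier for the engine "Carayol at `q ^ e`, `e ≥ 3`" (board `origin/helper48:coord/CAR3-S45.md`,
memo `origin/helper441:coord/S45-ENGINE-helper441.md` §2).  Mathlib + `S36/H253` (general NV / NR /
fundamental equality) + `normAlong` only.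

`φ : F' →ₐ[E] F` a degeneracy map of degree `q` (prime, the residue characteristic), `V` a
valuation subring of `F`, `V' = V.comap φ` a DISCRETE valuation ring with an ARBITRARY uniformiser
`t'` (at level `q ^ e`, `e ≥ 3`, the lower sheet is in general non-reduced, so `t'` is not the
uniformiser `w` of the base).  Two types in which `V` is the ONLY extension of `V'`:

* WILD `(e, f) = (q, 1)`: some `T ∈ 𝔪_V` with `v (φ t') = v (T) ^ q`;
* INSEP `(e, f) = (1, q)`: some `z₀ ∈ V`, `c₀ ∈ F'` with `z₀ ^ q ≡ φ c₀` at `V` and `c₀` not a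
  `q`-th power modulo `𝔪_{V'}`.

In both types (`N = normAlong φ = N_{F / φ F'}`):

* `dvr`, `unif` : `V` is a discrete valuation ring with uniformiser `T` (wild), `φ t'` (insep);
* `only`        : `V` is the only valuation subring of `F` over `V'`;
* `res` (wild)  : every `y ∈ V` is `≡ φ c` at `V` with `c ∈ V'` (residue degree one);
  `insep`       : every `y ∈ V` has `y ^ q ≡ φ c` at `V` with `c ∈ V'`;
* NR            : `φ (N y) ≡ y ^ q` at `V` for every `y ∈ V`;
* NV            : `v (y) = v (T) ^ a ⟹ v' (N y) = v' (t') ^ a` (wild),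
                  `v (y) = v (φ t') ^ a ⟹ v' (N y) = v' (t') ^ (q a)` (insep);
* GOOD          : `y ^ q / φ (N y) ≡ 1` at `V` for EVERY `y ≠ 0` (the primitive `GoodAlong` of
  memo `origin/helper247:coord/S45-ALG-GE-helper247.md` §1, `GoodAlong403` of helper403);
  in particular `T ^ q / φ (N T) ≡ 1`.

Bundled: `eng_wild_table`, `eng_insep_table1`.  Abstract forms (`K ⊆ F`, `Algebra.norm K`):
sections `WildAbs`, `InsepAbs`.
-/

set_option autoImplicit false
set_option linter.unusedSectionVars false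
set_option linter.style.haveILetI false

namespace Fermat.Agent.S45.H253

open AlgebraicCurve
open scoped BigOperators
open Fermat.Agent.S35.H253
open Fermat.Agent.S36.H253
open Fermat.Agent.S29.H395 (normAlong)

/-! ## Principal units, elementwise -/

section PU

variable {F : Type*} [Field F] (V : ValuationSubring F)

theorem pu_val_eq_one {x : F} (hx : V.valuation (x - 1) < 1) : V.valuation x = 1 := by
  have h1 : x = 1 + (x - 1) := by ring
  rw [h1]
  exact V.valuation.map_one_add_of_lt hx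

theorem pu_mul {x y : F} (hx : V.valuation (x - 1) < 1) (hy : V.valuation (y - 1) < 1) :
    V.valuation (x * y - 1) < 1 := by
  have h1 : x * y - 1 = (x - 1) * y + (y - 1) := by ring
  rw [h1]
  refine lt_of_le_of_lt (V.valuation.map_add _ _) (max_lt ?_ hy)
  rw [map_mul, pu_val_eq_one V hy, mul_one]
  exact hx

theorem pu_inv {x : F} (hx : V.valuation (x - 1) < 1) : V.valuation (x⁻¹ - 1) < 1 := by
  have hx1 := pu_val_eq_one V hx
  have hx0 : x ≠ 0 := by
    rintro rfl
    rw [map_zero] at hx1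
    exact zero_ne_one hx1
  have h1 : x⁻¹ - 1 = -(x - 1) * x⁻¹ := by
    field_simp
    ring
  rw [h1, map_mul, Valuation.map_neg, map_inv₀, hx1, inv_one, mul_one]
  exact hx

theorem pu_pow {x : F} (hx : V.valuation (x - 1) < 1) (n : ℕ) : V.valuation (x ^ n - 1) < 1 := by
  induction n with
  | zero => simp
  | succ n ih =>
    rw [pow_succ]
    exact pu_mul V ih hx

theorem pu_zpow {x : F} (hx : V.valuation (x - 1) < 1) (n : ℤ) : V.valuation (x ^ n - 1) < 1 := by
  cases n with
  | ofNat n =>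
    rw [Int.ofNat_eq_natCast, zpow_natCast]
    exact pu_pow V hx n
  | negSucc n =>
    rw [zpow_negSucc]
    exact pu_inv V (pu_pow V hx (n + 1))

/-- The quotient of two congruent units is a principal unit. -/
theorem pu_div_of_sub {a b : F} (hb : V.valuation b = 1) (hab : V.valuation (a - b) < 1) :
    V.valuation (a / b - 1) < 1 := by
  have hb0 : b ≠ 0 := by
    rintro rfl
    rw [map_zero] at hb
    exact zero_ne_one hb
  have h1 : a / b - 1 = (a - b) / b := by
    field_simp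
  rw [h1, map_div₀, hb, div_one]
  exact hab

/-- **Frobenius is injective on the residue field**, elementwise: residue characteristic `q`,
`a, b ∈ V`, `a ^ q ≡ b ^ q` at `V` ⟹ `a ≡ b` at `V`. -/
theorem sub_lt_one_of_pow_sub_pow (q : ℕ) (hq : q.Prime) (hqV : V.valuation (q : F) < 1)
    {a b : F} (ha : a ∈ V) (hb : b ∈ V) (hab : V.valuation (a ^ q - b ^ q) < 1) :
    V.valuation (a - b) < 1 := by
  haveI : Fact q.Prime := ⟨hq⟩
  haveI hchar : CharP (IsLocalRing.ResidueField V) q := by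
    rw [CharP.charP_iff_prime_eq_zero hq]
    have e1 : ((q : V) : F) = (q : F) := by simp
    have e2 : IsLocalRing.residue V (q : V) = 0 := by
      rw [IsLocalRing.residue_eq_zero_iff, ValuationSubring.valuation_lt_one_iff, e1]
      exact hqV
    rw [← e2, map_natCast]
  have h1 : IsLocalRing.residue V ⟨a, ha⟩ ^ q = IsLocalRing.residue V ⟨b, hb⟩ ^ q := by
    rw [← map_pow, ← map_pow, ← sub_eq_zero, ← map_sub, IsLocalRing.residue_eq_zero_iff,
      ValuationSubring.valuation_lt_one_iff]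
    exact hab
  have h2 := frobenius_inj (IsLocalRing.ResidueField V) q h1
  rw [← sub_eq_zero, ← map_sub, IsLocalRing.residue_eq_zero_iff,
    ValuationSubring.valuation_lt_one_iff] at h2
  exact h2

end PU

/-! ## GOOD from NR, abstractly -/

section GoodAbs

variable {K F : Type*} [Field K] [Field F] [Algebra K F]

/-- **GOOD from NR.**  If the value group of `V` is generated by `v τ`, `N y ≡ y ^ q` at `V` for
all `y ∈ V`, and `τ ^ q / N τ ≡ 1` at `V`, then `y ^ q / N y ≡ 1` at `V` for every `y ≠ 0`. -/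
theorem good_of_nr (V : ValuationSubring F) (q : ℕ) {τ : F} (hτ0 : τ ≠ 0)
    (hz : ∀ y : F, y ≠ 0 → ∃ a : ℤ, V.valuation y = V.valuation τ ^ a)
    (hnr : ∀ y : F, y ∈ V → algebraMap K F (Algebra.norm K y) - y ^ q ∈ V.nonunits)
    (hτ : V.valuation (τ ^ q / algebraMap K F (Algebra.norm K τ) - 1) < 1)
    {y : F} (hy : y ≠ 0) :
    V.valuation (y ^ q / algebraMap K F (Algebra.norm K y) - 1) < 1 := by
  obtain ⟨a, ha⟩ := hz y hy
  have hτv : V.valuation τ ≠ 0 := by rw [Ne, Valuation.zero_iff]; exact hτ0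
  obtain ⟨u, hu⟩ : ∃ u : F, u = y * (τ ^ a)⁻¹ := ⟨_, rfl⟩
  have huv : V.valuation u = 1 := by
    rw [hu, map_mul, map_inv₀, map_zpow₀, ha, mul_inv_cancel₀ (zpow_ne_zero _ hτv)]
  have huV : u ∈ V := (V.valuation_le_one_iff _).1 huv.le
  have hyu : y = u * τ ^ a := by
    rw [hu, inv_mul_cancel_right₀ (zpow_ne_zero _ hτ0)]
  -- the unit part
  have h1 : V.valuation (u ^ q / algebraMap K F (Algebra.norm K u) - 1) < 1 := by
    have hN := hnr u huV
    rw [ValuationSubring.mem_nonunits_iff] at hN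
    have huq : V.valuation (u ^ q) = 1 := by rw [map_pow, huv, one_pow]
    have hNv : V.valuation (algebraMap K F (Algebra.norm K u)) = 1 := by
      have e : algebraMap K F (Algebra.norm K u) =
          u ^ q + (algebraMap K F (Algebra.norm K u) - u ^ q) := by ring
      rw [e]
      exact (Valuation.map_add_eq_of_lt_left _ (by rw [huq]; exact hN)).trans huq
    refine pu_div_of_sub V hNv ?_
    rw [← Valuation.map_neg, neg_sub]
    exact hN
  -- assemble
  have hNy : Algebra.norm K y = Algebra.norm K u * Algebra.norm K τ ^ a := by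
    rw [hyu, map_mul, norm_zpow_of_ne_zero hτ0]
  have e1 : y ^ q = u ^ q * (τ ^ q) ^ a := by
    rw [hyu, mul_pow]
    congr 1
    rw [← zpow_natCast (τ ^ a) q, ← zpow_mul, ← zpow_natCast τ q, ← zpow_mul, mul_comm]
  have h2 : y ^ q / algebraMap K F (Algebra.norm K y) =
      (u ^ q / algebraMap K F (Algebra.norm K u)) *
        (τ ^ q / algebraMap K F (Algebra.norm K τ)) ^ a := by
    rw [hNy, map_mul, map_zpow₀, e1, div_zpow, mul_div_mul_comm]
  rw [h2]
  exact pu_mul V h1 (pu_zpow V hτ a)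

end GoodAbs

/-! ## The WILD type `(e, f) = (q, 1)`, abstractly -/

section WildAbs

variable {K F : Type*} [Field K] [Field F] [Algebra K F]
variable {O : ValuationSubring K} {ϖ : K} {V : ValuationSubring F} (h : Over O V)
    (hϖ0 : ϖ ≠ 0) (hϖ : O.valuation ϖ < 1)
    (hdvr : ∀ a : K, a ≠ 0 → ∃ n : ℤ, O.valuation a = O.valuation ϖ ^ n)
    (q : ℕ) (hdeg : Module.finrank K F = q)
    {T : F} (hT : V.valuation T < 1)
    (hram : V.valuation (algebraMap K F ϖ) = V.valuation T ^ q)

include h hϖ0 hϖ hdvr hdeg hT hram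

/-- Wild type: residue degree one, elementwise. -/
theorem wild_res [Module.Finite K F] {y : F} (hy : y ∈ V) :
    ∃ c : K, c ∈ O ∧ y - algebraMap K F c ∈ V.nonunits :=
  res_split (ι := Unit) (V := fun _ => V) (τ := fun _ => T) (E := fun _ => q)
    (fun _ => h) (fun i i' hii' => absurd (Subsingleton.elim i i') hii') hϖ0 hϖ hdvr
    (fun _ => hT) (fun _ => hram) (by simp [hdeg]) () hy

/-- Wild type: `T` generates the maximal ideal of `V`. -/
theorem wild_gen [Module.Finite K F] (z : F) (hz : V.valuation z < 1) :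
    V.valuation z ≤ V.valuation T :=
  gen_split (ι := Unit) (V := fun _ => V) (τ := fun _ => T) (E := fun _ => q)
    (fun _ => h) (fun i i' hii' => absurd (Subsingleton.elim i i') hii') hϖ0 hϖ hdvr
    (fun _ => hT) (fun _ => hram) (by simp [hdeg]) () z hz

/-- Wild type: `V` is the only valuation subring of `F` over `O`. -/
theorem wild_only [Module.Finite K F] {W : ValuationSubring F} (hW : Over O W) : W = V := by
  obtain ⟨_, hi⟩ := eq_split (ι := Unit) (V := fun _ => V) (τ := fun _ => T) (E := fun _ => q)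
    (fun _ => h) (fun i i' hii' => absurd (Subsingleton.elim i i') hii') hϖ0 hϖ hdvr
    (fun _ => hT) (fun _ => hram) (by simp [hdeg]) hW
  exact hi

/-- Wild type, NV: every `y ≠ 0` has `v (y) = v (T) ^ a` and `v (N y) = v (ϖ) ^ a`. -/
theorem wild_nv [Module.Finite K F] {y : F} (hy : y ≠ 0) :
    ∃ a : ℤ, V.valuation y = V.valuation T ^ a ∧
      O.valuation (Algebra.norm K y) = O.valuation ϖ ^ a := by
  obtain ⟨a, ha, hN⟩ := valNorm_split (ι := Unit) (V := fun _ => V) (τ := fun _ => T)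
    (E := fun _ => q)
    (fun _ => h) (fun i i' hii' => absurd (Subsingleton.elim i i') hii') hϖ0 hϖ hdvr
    (fun _ => hT) (fun _ => hram) (by simp [hdeg]) hy
  refine ⟨a (), ha (), ?_⟩
  rw [hN]
  simp

/-- Wild type, NR in the split shape: `y ≡ c` at `V` ⟹ `N y ≡ c ^ q` at `O`. -/
theorem wild_nr_of_congr [Module.Finite K F] {y : F} (hy : y ∈ V) (c : K)
    (hyc : y - algebraMap K F c ∈ V.nonunits) :
    Algebra.norm K y - c ^ q ∈ O.nonunits := by
  have key := normRes_split (ι := Unit) (V := fun _ => V) (τ := fun _ => T) (E := fun _ => q)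
    (fun _ => h) (fun i i' hii' => absurd (Subsingleton.elim i i') hii') hϖ0 hϖ hdvr
    (fun _ => hT) (fun _ => hram) (by simp [hdeg]) (y := y) (fun _ => hy) (fun _ => c)
    (fun _ => hyc)
  simpa using key

/-- **Wild type, NR**: `N y ≡ y ^ q` at `V` for every `y ∈ V`. -/
theorem wild_nr [Module.Finite K F] :
    ∀ y : F, y ∈ V → algebraMap K F (Algebra.norm K y) - y ^ q ∈ V.nonunits := by
  intro y hy
  obtain ⟨c, hcO, hyc⟩ := wild_res h hϖ0 hϖ hdvr q hdeg hT hram hy
  have hN := wild_nr_of_congr h hϖ0 hϖ hdvr q hdeg hT hram hy c hyc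
  have hcV : algebraMap K F c ∈ V := (h c).2 hcO
  -- `N y ≡ c ^ q` at `V`
  have h1 : V.valuation (algebraMap K F (Algebra.norm K y) - algebraMap K F c ^ q) < 1 := by
    rw [← map_pow, ← map_sub, h.val_lt_one_iff, ← ValuationSubring.mem_nonunits_iff]
    exact hN
  -- `y ^ q ≡ c ^ q` at `V`
  have h2 : V.valuation (y ^ q - algebraMap K F c ^ q) < 1 := by
    have e := residue_eq_of_sub_mem hy hcV hyc
    have e2 : IsLocalRing.residue V ⟨y ^ q, pow_mem hy q⟩ =
        IsLocalRing.residue V ⟨algebraMap K F c ^ q, pow_mem hcV q⟩ := by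
      have a1 : (⟨y ^ q, pow_mem hy q⟩ : V) = ⟨y, hy⟩ ^ q := rfl
      have a2 : (⟨algebraMap K F c ^ q, pow_mem hcV q⟩ : V) = ⟨algebraMap K F c, hcV⟩ ^ q := rfl
      rw [a1, a2, map_pow, map_pow, e]
    rw [← sub_eq_zero, ← map_sub, IsLocalRing.residue_eq_zero_iff,
      ValuationSubring.valuation_lt_one_iff] at e2
    exact e2
  rw [ValuationSubring.mem_nonunits_iff]
  have e3 : algebraMap K F (Algebra.norm K y) - y ^ q =
      (algebraMap K F (Algebra.norm K y) - algebraMap K F c ^ q) -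
        (y ^ q - algebraMap K F c ^ q) := by ring
  rw [e3]
  exact lt_of_le_of_lt (Valuation.map_sub _ _ _) (max_lt h1 h2)

/-- **Wild type, the uniformiser is GOOD**: `T ^ q / N T ≡ 1` at `V` (residue characteristic
`q`). -/
theorem wild_good_unif [Module.Finite K F] (hq : q.Prime) (hqO : O.valuation (q : K) < 1) :
    V.valuation (T ^ q / algebraMap K F (Algebra.norm K T) - 1) < 1 := by
  have hqV : V.valuation (q : F) < 1 := by
    have := (h.val_lt_one_iff (q : K)).2 hqO
    rwa [map_natCast] at this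
  have hT0 : T ≠ 0 := by
    rintro rfl
    rw [map_zero, zero_pow hq.ne_zero] at hram
    exact hϖ0 ((algebraMap K F).injective (by rw [map_zero]; exact (Valuation.zero_iff _).1 hram))
  have hϖF0 : algebraMap K F ϖ ≠ 0 := fun h0 =>
    hϖ0 ((algebraMap K F).injective (by rw [map_zero]; exact h0))
  have hϖv : V.valuation (algebraMap K F ϖ) ≠ 0 := by rw [Ne, Valuation.zero_iff]; exact hϖF0
  set u : F := T ^ q * (algebraMap K F ϖ)⁻¹ with hu
  have huv : V.valuation u = 1 := by
    rw [hu, map_mul, map_inv₀, map_pow, ← hram, mul_inv_cancel₀ hϖv]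
  have huV : u ∈ V := (V.valuation_le_one_iff _).1 huv.le
  set n : K := Algebra.norm K T * ϖ⁻¹ with hn
  have hNu : Algebra.norm K u = n ^ q := by
    rw [hu, map_mul, ← zpow_neg_one (algebraMap K F ϖ), norm_zpow_of_ne_zero hϖF0, zpow_neg_one,
      map_pow, Algebra.norm_algebraMap, hdeg, hn, mul_pow, inv_pow]
  have hnr := wild_nr h hϖ0 hϖ hdvr q hdeg hT hram u huV
  rw [ValuationSubring.mem_nonunits_iff, hNu, map_pow] at hnr
  -- `algebraMap n ∈ V`
  have huq : V.valuation (u ^ q) = 1 := by rw [map_pow, huv, one_pow]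
  have hnq : V.valuation (algebraMap K F n ^ q) = 1 := by
    have e : algebraMap K F n ^ q = u ^ q + (algebraMap K F n ^ q - u ^ q) := by ring
    rw [e]
    exact (Valuation.map_add_eq_of_lt_left _ (by rw [huq]; exact hnr)).trans huq
  have hnv : V.valuation (algebraMap K F n) = 1 := by
    rw [map_pow] at hnq
    exact (pow_eq_one_iff_of_nonneg zero_le hq.ne_zero).1 hnq
  have hnV : algebraMap K F n ∈ V := (V.valuation_le_one_iff _).1 hnv.le
  have hsub := sub_lt_one_of_pow_sub_pow V q hq hqV hnV huV hnr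
  -- `T ^ q / N T = u / n`
  have hNT0 : Algebra.norm K T ≠ 0 := Algebra.norm_ne_zero_iff.mpr hT0
  have e1 : T ^ q / algebraMap K F (Algebra.norm K T) = u / algebraMap K F n := by
    rw [hu, hn, map_mul, map_inv₀]
    have hNF0 : algebraMap K F (Algebra.norm K T) ≠ 0 := fun h0 =>
      hNT0 ((algebraMap K F).injective (by rw [map_zero]; exact h0))
    field_simp
  rw [e1]
  refine pu_div_of_sub V hnv ?_
  rw [← Valuation.map_neg, neg_sub]
  exact hsub

/-- **Wild type, GOOD**: `y ^ q / N y ≡ 1` at `V` for every `y ≠ 0`. -/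
theorem wild_good [Module.Finite K F] (hq : q.Prime) (hqO : O.valuation (q : K) < 1)
    {y : F} (hy : y ≠ 0) :
    V.valuation (y ^ q / algebraMap K F (Algebra.norm K y) - 1) < 1 := by
  have hT0 : T ≠ 0 := by
    rintro rfl
    rw [map_zero, zero_pow hq.ne_zero] at hram
    exact hϖ0 ((algebraMap K F).injective (by rw [map_zero]; exact (Valuation.zero_iff _).1 hram))
  refine good_of_nr V q hT0 ?_ (wild_nr h hϖ0 hϖ hdvr q hdeg hT hram)
    (wild_good_unif h hϖ0 hϖ hdvr q hdeg hT hram hq hqO) hy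
  intro z hz
  obtain ⟨a, ha, -⟩ := wild_nv h hϖ0 hϖ hdvr q hdeg hT hram hz
  exact ⟨a, ha⟩

end WildAbs

/-! ## The INSEP type `(e, f) = (1, q)`, abstractly -/

section InsepAbs

variable {K F : Type*} [Field K] [Field F] [Algebra K F]
variable {O : ValuationSubring K} {ϖ : K} {V : ValuationSubring F} (h : Over O V)
    (hϖ0 : ϖ ≠ 0) (hϖ : O.valuation ϖ < 1)
    (hdvr : ∀ a : K, a ≠ 0 → ∃ n : ℤ, O.valuation a = O.valuation ϖ ^ n)
    (q : ℕ) (hq : q.Prime) (hqO : O.valuation (q : K) < 1)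
    (hdeg : Module.finrank K F = q)
    {z₀ : F} {c₀ : K} (hz₀ : z₀ ∈ V) (hzc : z₀ ^ q - algebraMap K F c₀ ∈ V.nonunits)
    (hnp : ∀ a : K, a ∈ O → a ^ q - c₀ ∉ O.nonunits)

include h hϖ0 hϖ hdvr hq hqO hdeg hz₀ hzc hnp

/-- **Insep type, GOOD**: `y ^ q / N y ≡ 1` at `V` for every `y ≠ 0`. -/
theorem insep_good [Module.Finite K F] {y : F} (hy : y ≠ 0) :
    V.valuation (y ^ q / algebraMap K F (Algebra.norm K y) - 1) < 1 := by
  have hϖF0 : algebraMap K F ϖ ≠ 0 := fun h0 =>
    hϖ0 ((algebraMap K F).injective (by rw [map_zero]; exact h0))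
  refine good_of_nr V q hϖF0 ?_
    (normResInsep_all h hϖ0 hϖ hdvr q hq hqO hdeg hz₀ hzc hnp) ?_ hy
  · intro z hz
    obtain ⟨a, ha, -⟩ := valNorm_insep h hϖ0 hϖ hdvr q hq hqO hdeg hz₀ hzc hnp hz
    exact ⟨a, ha⟩
  · rw [Algebra.norm_algebraMap, hdeg, map_pow, div_self (pow_ne_zero _ hϖF0), sub_self,
      map_zero]
    exact zero_lt_one

/-- Insep type: the value group of `V` is generated by `v (ϖ)`. -/
theorem insep_zpow [Module.Finite K F] {y : F} (hy : y ≠ 0) :
    ∃ a : ℤ, V.valuation y = V.valuation (algebraMap K F ϖ) ^ a := by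
  obtain ⟨a, ha, -⟩ := valNorm_insep h hϖ0 hϖ hdvr q hq hqO hdeg hz₀ hzc hnp hy
  exact ⟨a, ha⟩

end InsepAbs

/-! ## The table of a ONE-extension sheet, along a degeneracy map -/

section Along

variable {E F F' : Type*} [Field E] [Field F] [Algebra E F] [Field F'] [Algebra E F']

/-- **The table of a sheet `V` of `F` which is the ONLY extension of `V'` along `φ`**
(`[F : φ F'] = q`), with uniformisers `t` of `V`, `t'` of `V'` and NV-exponent `k`
(`k = 1`: wild, `(e, f) = (q, 1)`;  `k = q`: insep, `(e, f) = (1, q)`). -/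
structure OneTable (q : ℕ) (φ : F' →ₐ[E] F) (V : ValuationSubring F)
    (V' : ValuationSubring F') (t : F) (t' : F') (k : ℕ) : Prop where
  /-- `V` lies over `V'` -/
  comap : V.comap (φ : F' →+* F) = V'
  /-- `V` is a discrete valuation ring -/
  dvr : IsDiscreteValuationRing V
  /-- `t` is a uniformiser of `V` (`UnifAt V t` of `S36/Eng/Spec.lean`) -/
  unif : t ≠ 0 ∧ t ∈ V.nonunits ∧ ∀ f ∈ V.nonunits, f * t⁻¹ ∈ V
  /-- the value group of `V` is generated by `v (t)` -/
  zpow : ∀ y : F, y ≠ 0 → ∃ a : ℤ, V.valuation y = V.valuation t ^ a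
  /-- completeness: `V` is the only valuation subring of `F` over `V'` -/
  only : ∀ W : ValuationSubring F, W.comap (φ : F' →+* F) = V' → W = V
  /-- NR: `φ (N y) ≡ y ^ q` at `V` -/
  nr : ∀ y : F, y ∈ V → φ (normAlong φ y) - y ^ q ∈ V.nonunits
  /-- NV: `v (y) = v (t) ^ a ⟹ v' (N y) = v' (t') ^ (k a)` -/
  nv : ∀ (y : F) (a : ℤ), y ≠ 0 → V.valuation y = V.valuation t ^ a →
    V'.valuation (normAlong φ y) = V'.valuation t' ^ ((k : ℤ) * a)
  /-- GOOD: `y ^ q / φ (N y) ≡ 1` at `V` for every `y ≠ 0` -/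
  good : ∀ y : F, y ≠ 0 → V.valuation (y ^ q / φ (normAlong φ y) - 1) < 1

variable {q : ℕ} {φ : F' →ₐ[E] F} {V : ValuationSubring F} {V' : ValuationSubring F'}
  {t : F} {t' : F'} {k : ℕ}

/-- NV in the `UnitAt` vocabulary of `S36/Eng/Spec.lean` (shape of `TripleCtx.nv_α`). -/
theorem OneTable.nv_unitAt (H : OneTable q φ V V' t t' k) (ht'0 : t' ≠ 0)
    (y : F) (a : ℤ) (hy : y ≠ 0)
    (hya : y * (t ^ a)⁻¹ ≠ 0 ∧ y * (t ^ a)⁻¹ ∈ V ∧ (y * (t ^ a)⁻¹)⁻¹ ∈ V) :
    normAlong φ y * (t' ^ ((k : ℤ) * a))⁻¹ ≠ 0 ∧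
      normAlong φ y * (t' ^ ((k : ℤ) * a))⁻¹ ∈ V' ∧
      (normAlong φ y * (t' ^ ((k : ℤ) * a))⁻¹)⁻¹ ∈ V' :=
  unitAt_of_val_eq_zpow V' ht'0 _ (H.nv y a hy (val_eq_zpow_of_unitAt V H.unif.1 a hya))

/-- NR for units, EXACT shape of `TripleCtx.nr_α₂`. -/
theorem OneTable.nr_unitAt (H : OneTable q φ V V' t t' k) (y : F)
    (hy : y ≠ 0 ∧ y ∈ V ∧ y⁻¹ ∈ V) : φ (normAlong φ y) - y ^ q ∈ V.nonunits :=
  H.nr y hy.2.1

/-- The `q`-th power of every element of `V` is congruent to an element of `φ V'`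
(shape of `insep_α₃` of `S36.Mod3.PartVT`). -/
theorem OneTable.pow_congr (H : OneTable q φ V V' t t' k) (y : F) (hy : y ∈ V) :
    ∃ c : F', c ∈ V' ∧ y ^ q - φ c ∈ V.nonunits := by
  have h1 := H.nr y hy
  have h2 : φ (normAlong φ y) ∈ V := by
    have e : φ (normAlong φ y) = y ^ q + (φ (normAlong φ y) - y ^ q) := by ring
    rw [e]
    exact add_mem (pow_mem hy q) (V.nonunits_le h1)
  refine ⟨normAlong φ y, ?_, ?_⟩
  · rw [← H.comap]
    exact h2
  · rw [ValuationSubring.mem_nonunits_iff] at h1 ⊢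
    rw [← Valuation.map_neg, neg_sub]
    exact h1

variable (q) (φ)

/-- The valuation subring-level hypotheses in abstract form. -/
theorem along_setup {V' : ValuationSubring F'} {V : ValuationSubring F}
    (hc : V.comap (φ : F' →+* F) = V')
    (hdvr' : IsDiscreteValuationRing V')
    {t' : F'} (ht' : t' ≠ 0 ∧ t' ∈ V'.nonunits ∧ ∀ f ∈ V'.nonunits, f * t'⁻¹ ∈ V') :
    letI := algebraAlong φ
    Over V' V ∧ t' ≠ 0 ∧ V'.valuation t' < 1 ∧
      ∀ a : F', a ≠ 0 → ∃ n : ℤ, V'.valuation a = V'.valuation t' ^ n := by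
  letI := algebraAlong φ
  exact ⟨over_of_comap φ hc, ht'.1, (ValuationSubring.mem_nonunits_iff _).1 ht'.2.1,
    hdvr_of_dvr V' hdvr' ht'⟩

/-- A generator of the maximal ideal, in the `UnifAt` vocabulary. -/
theorem unifAt_of_gen (V : ValuationSubring F) {τ : F} (hτ0 : τ ≠ 0) (hτ : V.valuation τ < 1)
    (hgen : ∀ z : F, V.valuation z < 1 → V.valuation z ≤ V.valuation τ) :
    τ ≠ 0 ∧ τ ∈ V.nonunits ∧ ∀ f ∈ V.nonunits, f * τ⁻¹ ∈ V := by
  refine ⟨hτ0, (ValuationSubring.mem_nonunits_iff _).2 hτ, fun f hf => ?_⟩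
  have hτv : V.valuation τ ≠ 0 := by rw [Ne, Valuation.zero_iff]; exact hτ0
  rw [← V.valuation_le_one_iff, map_mul, map_inv₀]
  have h1 := hgen f ((ValuationSubring.mem_nonunits_iff _).1 hf)
  calc V.valuation f * (V.valuation τ)⁻¹ ≤ V.valuation τ * (V.valuation τ)⁻¹ := by gcongr
    _ = 1 := mul_inv_cancel₀ hτv

/-- **The WILD table** `(e, f) = (q, 1)`.  `V' = V.comap φ` a discrete valuation ring with
uniformiser `t'`, `[F : φ F'] = q` prime, residue characteristic `q`, and `T ∈ 𝔪_V` with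
`v (φ t') = v (T) ^ q`. -/
theorem eng_wild_table (hfin : FiniteAlong E φ) (hdeg : finrankAlong E φ = q) (hq : q.Prime)
    {V' : ValuationSubring F'} {V : ValuationSubring F}
    (hc : V.comap (φ : F' →+* F) = V')
    (hdvr' : IsDiscreteValuationRing V')
    {t' : F'} (ht' : t' ≠ 0 ∧ t' ∈ V'.nonunits ∧ ∀ f ∈ V'.nonunits, f * t'⁻¹ ∈ V')
    (hqV : (q : F) ∈ V.nonunits)
    {T : F} (hT : T ∈ V.nonunits) (hram : V.valuation (φ t') = V.valuation T ^ q) :
    OneTable q φ V V' T t' 1 ∧
      ∀ y : F, y ∈ V → ∃ c : F', c ∈ V' ∧ y - φ c ∈ V.nonunits := by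
  letI := algebraAlong φ
  haveI : Module.Finite F' F := hfin
  obtain ⟨ho, hϖ0, hϖ, hdvr⟩ := along_setup φ hc hdvr' ht'
  have hTv : V.valuation T < 1 := (ValuationSubring.mem_nonunits_iff _).1 hT
  have hramv : V.valuation (algebraMap F' F t') = V.valuation T ^ q := hram
  have hdegv : Module.finrank F' F = q := hdeg
  have hqO : V'.valuation ((q : ℕ) : F') < 1 := by
    rw [← ho.val_lt_one_iff, map_natCast]
    exact (ValuationSubring.mem_nonunits_iff _).1 hqV
  have hT0 : T ≠ 0 := by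
    rintro rfl
    rw [map_zero, zero_pow hq.ne_zero] at hramv
    exact hϖ0 ((algebraMap F' F).injective
      (by rw [map_zero]; exact (Valuation.zero_iff _).1 hramv))
  have hz : ∀ y : F, y ≠ 0 → ∃ a : ℤ, V.valuation y = V.valuation T ^ a := fun y hy => by
    obtain ⟨a, ha, -⟩ := wild_nv ho hϖ0 hϖ hdvr q hdegv hTv hramv hy
    exact ⟨a, ha⟩
  refine ⟨⟨hc, isDVR_of_zpow V hT0 hTv hz,
    unifAt_of_gen V hT0 hTv (wild_gen ho hϖ0 hϖ hdvr q hdegv hTv hramv), hz, ?_,
    wild_nr ho hϖ0 hϖ hdvr q hdegv hTv hramv, ?_,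
    fun y hy => wild_good ho hϖ0 hϖ hdvr q hdegv hTv hramv hq hqO hy⟩, ?_⟩
  · intro W hW
    exact wild_only ho hϖ0 hϖ hdvr q hdegv hTv hramv (over_of_comap φ hW)
  · intro y a hy hya
    obtain ⟨a', ha', hN⟩ := wild_nv ho hϖ0 hϖ hdvr q hdegv hTv hramv hy
    rw [ha'] at hya
    have e : a' = a := zpow_inj_of_val V hT0 hTv hya
    rw [Nat.cast_one, one_mul, ← e]
    exact hN
  · intro y hy
    obtain ⟨c, hcO, hyc⟩ := wild_res ho hϖ0 hϖ hdvr q hdegv hTv hramv hy
    exact ⟨c, hcO, hyc⟩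

/-- **The INSEP table** `(e, f) = (1, q)`.  `V' = V.comap φ` a discrete valuation ring with
uniformiser `t'`, `[F : φ F'] = q` prime, residue characteristic `q`, and a witness of
inseparability: `z₀ ∈ V`, `c₀ ∈ F'` with `z₀ ^ q ≡ φ c₀` at `V`, `c₀` not a `q`-th power modulo
`𝔪_{V'}`. -/
theorem eng_insep_table1 (hfin : FiniteAlong E φ) (hdeg : finrankAlong E φ = q) (hq : q.Prime)
    {V' : ValuationSubring F'} {V : ValuationSubring F}
    (hc : V.comap (φ : F' →+* F) = V')
    (hdvr' : IsDiscreteValuationRing V')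
    {t' : F'} (ht' : t' ≠ 0 ∧ t' ∈ V'.nonunits ∧ ∀ f ∈ V'.nonunits, f * t'⁻¹ ∈ V')
    (hqV : (q : F) ∈ V.nonunits)
    {z₀ : F} {c₀ : F'} (hz₀ : z₀ ∈ V) (hzc : z₀ ^ q - φ c₀ ∈ V.nonunits)
    (hnp : ∀ a : F', a ∈ V' → a ^ q - c₀ ∉ V'.nonunits) :
    OneTable q φ V V' (φ t') t' q := by
  letI := algebraAlong φ
  haveI : Module.Finite F' F := hfin
  obtain ⟨ho, hϖ0, hϖ, hdvr⟩ := along_setup φ hc hdvr' ht'
  have hdegv : Module.finrank F' F = q := hdeg
  have hqO : V'.valuation ((q : ℕ) : F') < 1 := by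
    rw [← ho.val_lt_one_iff, map_natCast]
    exact (ValuationSubring.mem_nonunits_iff _).1 hqV
  have hzcv : z₀ ^ q - algebraMap F' F c₀ ∈ V.nonunits := hzc
  have hτ0 : algebraMap F' F t' ≠ 0 := fun h0 =>
    hϖ0 ((algebraMap F' F).injective (by rw [map_zero]; exact h0))
  have hτ : V.valuation (algebraMap F' F t') < 1 := (ho.val_lt_one_iff t').2 hϖ
  have hz : ∀ y : F, y ≠ 0 → ∃ a : ℤ, V.valuation y = V.valuation (algebraMap F' F t') ^ a :=
    fun y hy => insep_zpow ho hϖ0 hϖ hdvr q hq hqO hdegv hz₀ hzcv hnp hy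
  have hdvrV : IsDiscreteValuationRing V := isDVR_of_zpow V hτ0 hτ hz
  have hgen : ∀ z : F, V.valuation z < 1 → V.valuation z ≤ V.valuation (algebraMap F' F t') := by
    intro z hzlt
    by_cases hz0 : z = 0
    · rw [hz0, map_zero]; exact zero_le
    obtain ⟨a, ha⟩ := hz z hz0
    rw [ha] at hzlt ⊢
    have hτpos : 0 < V.valuation (algebraMap F' F t') := by rw [Valuation.pos_iff]; exact hτ0
    exact zpow_le_self_of_lt_one hτpos.ne' hτ hzlt
  refine ⟨hc, hdvrV, unifAt_of_gen V hτ0 hτ hgen, hz, ?_,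
    normResInsep_all ho hϖ0 hϖ hdvr q hq hqO hdegv hz₀ hzcv hnp, ?_,
    fun y hy => insep_good ho hϖ0 hϖ hdvr q hq hqO hdegv hz₀ hzcv hnp hy⟩
  · intro W hW
    exact eq_insep ho hϖ0 hϖ hdvr q hq hqO hdegv hz₀ hzcv hnp (over_of_comap φ hW)
  · intro y a hy hya
    obtain ⟨a', ha', hN⟩ := valNorm_insep ho hϖ0 hϖ hdvr q hq hqO hdegv hz₀ hzcv hnp hy
    rw [ha'] at hya
    have e : a' = a := zpow_inj_of_val V hτ0 hτ hya
    rw [← e]
    exact hN

end Along

end Fermat.Agent.S45.H253

end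
-- ===== PACK-END S45/H253/NormOne.lean

-- ===== PACK-BEGIN A2/H408/Coord.lean
section




/-!
# A2 / MOD (d5), piece COORD (helper408): the coordinate `x = j * j'`

Mathlib-only.  `K` a field, `A → K` a base ring, `j, j' ∈ K` with `j` integral over `A[j']` and
`j'` integral over `A[j]` (application: `j' = j_q = j(t^q)`, both integralities come from the
modular polynomial `Φ_q`, monic in both variables: `S28.ModPolyData.eval_j / eval_jp`).

* `isIntegral_iff_forall_valuationSubring` : valuation criterion for integrality over a subring.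
* `isIntegral_adjoin_iff_forall_valuationSubring` : the same for `Algebra.adjoin A s`.
* `isIntegral_adjoin_mul_self` : `j` is integral over `A[j * j']`
  (if `j ∉ V ⊇ A[j j']` then `j' = (j j') j⁻¹ ∈ V`, hence `j ∈ V`).  No information on the shape of
  `Φ_q` is needed (contrary to the coordinate `j + j'`).
* `isIntegral_adjoin_mul_iff` : `IC(A[j j']) = IC(A[j])`  (finite chart).
* `isIntegral_adjoin_inv_mul_iff` : `IC(A[(j j')⁻¹]) = IC(A[j⁻¹, j'⁻¹])`  (chart at infinity).
-/

set_option autoImplicit false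

namespace Fermat.Agent.A2.H408

open Algebra

section Criterion

variable {K : Type*} [Field K]

/-- **Valuation criterion**: `f` is integral over the subring `S` of the field `K` iff `f` lies
in every valuation subring of `K` containing `S`. -/
theorem isIntegral_iff_forall_valuationSubring (S : Subring K) (f : K) :
    IsIntegral S f ↔ ∀ V : ValuationSubring K, S ≤ V.toSubring → f ∈ V := by
  constructor
  · intro hf V hSV
    have hfV : IsIntegral V.toSubring f := by
      obtain ⟨p, hp, hpf⟩ := hf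
      refine ⟨p.map (Subring.inclusion hSV), hp.map _, ?_⟩
      rw [Polynomial.eval₂_map]
      exact hpf
    have : IsIntegrallyClosedIn V.toSubring K := inferInstanceAs (IsIntegrallyClosedIn V K)
    obtain ⟨y, hy⟩ := IsIntegrallyClosedIn.isIntegral_iff.mp hfV
    rw [← hy]
    exact y.2
  · intro h
    have key := iInf_valuationSubring_superset (K := K) (s := (S : Set K))
    have hmem : f ∈ (⨅ V : {V : ValuationSubring K // (S : Set K) ⊆ V.toSubring},
        V.1.toSubring) := by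
      rw [Subring.mem_iInf]
      rintro ⟨V, hV⟩
      exact h V hV
    rw [key] at hmem
    have hcl : Subring.closure (S : Set K) = S := Subring.closure_eq S
    have hf : IsIntegral (Subring.closure (S : Set K)) f := hmem
    rw [hcl] at hf
    exact hf

end Criterion

section Adjoin

variable {A K : Type*} [CommRing A] [Field K] [Algebra A K]

/-- **Valuation criterion** for `Algebra.adjoin A s`. -/
theorem isIntegral_adjoin_iff_forall_valuationSubring (s : Set K) (f : K) :
    IsIntegral (Algebra.adjoin A s) f ↔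
      ∀ V : ValuationSubring K, (∀ a : A, algebraMap A K a ∈ V) → (∀ y ∈ s, y ∈ V) → f ∈ V := by
  have h1 : IsIntegral (Algebra.adjoin A s) f ↔ IsIntegral (Algebra.adjoin A s).toSubring f :=
    Iff.rfl
  rw [h1, isIntegral_iff_forall_valuationSubring, Algebra.adjoin_eq_ring_closure]
  constructor
  · intro h V hA hs
    refine h V ?_
    rw [Subring.closure_le]
    rintro y (⟨a, rfl⟩ | hy)
    · exact hA a
    · exact hs y hy
  · intro h V hV
    rw [Subring.closure_le] at hV
    exact h V (fun a => hV (Or.inl ⟨a, rfl⟩)) (fun y hy => hV (Or.inr hy))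

/-- If `j` is integral over `A[j']`, then `j` is integral over `A[j * j']`. -/
theorem isIntegral_adjoin_mul_self {j j' : K} (hj : IsIntegral (Algebra.adjoin A {j'}) j) :
    IsIntegral (Algebra.adjoin A {j * j'}) j := by
  rw [isIntegral_adjoin_iff_forall_valuationSubring] at hj ⊢
  intro V hA hs
  have hx : j * j' ∈ V := hs _ rfl
  by_contra hjV
  have hj0 : j ≠ 0 := by rintro rfl; exact hjV (zero_mem _)
  have hinv : j⁻¹ ∈ V := (V.mem_or_inv_mem j).resolve_left hjV
  have hj' : j' ∈ V := by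
    have : j' = j⁻¹ * (j * j') := by field_simp
    rw [this]
    exact mul_mem hinv hx
  refine hjV (hj V hA ?_)
  intro y hy
  rw [Set.mem_singleton_iff] at hy
  subst hy
  exact hj'

/-- If `j'` is integral over `A[j]`, then `j'` is integral over `A[j * j']`. -/
theorem isIntegral_adjoin_mul_self' {j j' : K} (hj' : IsIntegral (Algebra.adjoin A {j}) j') :
    IsIntegral (Algebra.adjoin A {j * j'}) j' := by
  rw [mul_comm]
  exact isIntegral_adjoin_mul_self hj'

/-- A valuation ring containing `A` contains `j * j'` iff it contains `j`. -/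
theorem mul_mem_valuationSubring_iff {j j' : K} (hj : IsIntegral (Algebra.adjoin A {j'}) j)
    (hj' : IsIntegral (Algebra.adjoin A {j}) j') (V : ValuationSubring K)
    (hA : ∀ a : A, algebraMap A K a ∈ V) : j * j' ∈ V ↔ j ∈ V := by
  constructor
  · intro hx
    have := (isIntegral_adjoin_iff_forall_valuationSubring (A := A) {j * j'} j).mp
      (isIntegral_adjoin_mul_self hj) V hA
    refine this ?_
    intro y hy
    rw [Set.mem_singleton_iff] at hy
    subst hy
    exact hx
  · intro hjV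
    have := (isIntegral_adjoin_iff_forall_valuationSubring (A := A) {j} j').mp hj' V hA
    refine mul_mem hjV (this ?_)
    intro y hy
    rw [Set.mem_singleton_iff] at hy
    subst hy
    exact hjV

/-- **Finite chart**: the integral closures of `A[j * j']` and of `A[j]` in `K` coincide. -/
theorem isIntegral_adjoin_mul_iff {j j' : K} (hj : IsIntegral (Algebra.adjoin A {j'}) j)
    (hj' : IsIntegral (Algebra.adjoin A {j}) j') (f : K) :
    IsIntegral (Algebra.adjoin A {j * j'}) f ↔ IsIntegral (Algebra.adjoin A {j}) f := by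
  rw [isIntegral_adjoin_iff_forall_valuationSubring, isIntegral_adjoin_iff_forall_valuationSubring]
  constructor
  · intro h V hA hs
    refine h V hA ?_
    intro y hy
    rw [Set.mem_singleton_iff] at hy
    subst hy
    exact (mul_mem_valuationSubring_iff hj hj' V hA).mpr (hs _ rfl)
  · intro h V hA hs
    refine h V hA ?_
    intro y hy
    rw [Set.mem_singleton_iff] at hy
    subst hy
    exact (mul_mem_valuationSubring_iff hj hj' V hA).mp (hs _ rfl)

/-- The same with the roles of `j` and `j'` exchanged. -/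
theorem isIntegral_adjoin_mul_iff' {j j' : K} (hj : IsIntegral (Algebra.adjoin A {j'}) j)
    (hj' : IsIntegral (Algebra.adjoin A {j}) j') (f : K) :
    IsIntegral (Algebra.adjoin A {j * j'}) f ↔ IsIntegral (Algebra.adjoin A {j'}) f := by
  rw [mul_comm]
  exact isIntegral_adjoin_mul_iff hj' hj f

/-- A valuation ring containing `A` contains `(j * j')⁻¹` iff it contains `j⁻¹` and `j'⁻¹`. -/
theorem inv_mul_mem_valuationSubring_iff {j j' : K} (hj : IsIntegral (Algebra.adjoin A {j'}) j)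
    (hj' : IsIntegral (Algebra.adjoin A {j}) j') (hj0 : j ≠ 0) (hj'0 : j' ≠ 0)
    (V : ValuationSubring K) (hA : ∀ a : A, algebraMap A K a ∈ V) :
    (j * j')⁻¹ ∈ V ↔ j⁻¹ ∈ V ∧ j'⁻¹ ∈ V := by
  have hjj' : j ∈ V → j' ∈ V := fun hjV =>
    (isIntegral_adjoin_iff_forall_valuationSubring (A := A) {j} j').mp hj' V hA
      (fun y hy => by rw [Set.mem_singleton_iff] at hy; subst hy; exact hjV)
  have hj'j : j' ∈ V → j ∈ V := fun hjV =>
    (isIntegral_adjoin_iff_forall_valuationSubring (A := A) {j'} j).mp hj V hA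
      (fun y hy => by rw [Set.mem_singleton_iff] at hy; subst hy; exact hjV)
  constructor
  · intro hx
    by_cases hjV : j ∈ V
    · have hj'V : j' ∈ V := hjj' hjV
      refine ⟨?_, ?_⟩
      · have : j⁻¹ = j' * (j * j')⁻¹ := by field_simp
        rw [this]
        exact mul_mem hj'V hx
      · have : j'⁻¹ = j * (j * j')⁻¹ := by field_simp
        rw [this]
        exact mul_mem hjV hx
    · have hj'V : j' ∉ V := fun h => hjV (hj'j h)
      exact ⟨(V.mem_or_inv_mem j).resolve_left hjV, (V.mem_or_inv_mem j').resolve_left hj'V⟩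
  · rintro ⟨h1, h2⟩
    rw [mul_inv]
    exact mul_mem h1 h2

/-- **Chart at infinity**: the integral closures of `A[(j * j')⁻¹]` and of `A[j⁻¹, j'⁻¹]` in `K`
coincide. -/
theorem isIntegral_adjoin_inv_mul_iff {j j' : K} (hj : IsIntegral (Algebra.adjoin A {j'}) j)
    (hj' : IsIntegral (Algebra.adjoin A {j}) j') (hj0 : j ≠ 0) (hj'0 : j' ≠ 0) (f : K) :
    IsIntegral (Algebra.adjoin A {(j * j')⁻¹}) f ↔
      IsIntegral (Algebra.adjoin A ({j⁻¹, j'⁻¹} : Set K)) f := by
  rw [isIntegral_adjoin_iff_forall_valuationSubring, isIntegral_adjoin_iff_forall_valuationSubring]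
  constructor
  · intro h V hA hs
    refine h V hA ?_
    intro y hy
    rw [Set.mem_singleton_iff] at hy
    subst hy
    exact (inv_mul_mem_valuationSubring_iff hj hj' hj0 hj'0 V hA).mpr
      ⟨hs _ (Set.mem_insert _ _), hs _ (Set.mem_insert_of_mem _ rfl)⟩
  · intro h V hA hs
    have := (inv_mul_mem_valuationSubring_iff hj hj' hj0 hj'0 V hA).mp (hs _ rfl)
    refine h V hA ?_
    rintro y (rfl | hy)
    · exact this.1
    · rw [Set.mem_singleton_iff] at hy
      subst hy
      exact this.2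

/-- Transport of integrality: everything integral over `A[j]` is integral over `A[j * j']`
(application: all `j_d`, `d ∣ N`). -/
theorem isIntegral_adjoin_mul_of_isIntegral {j j' : K} (hj : IsIntegral (Algebra.adjoin A {j'}) j)
    (hj' : IsIntegral (Algebra.adjoin A {j}) j') {f : K}
    (hf : IsIntegral (Algebra.adjoin A {j}) f) : IsIntegral (Algebra.adjoin A {j * j'}) f :=
  (isIntegral_adjoin_mul_iff hj hj' f).mpr hf

end Adjoin

end Fermat.Agent.A2.H408

end
-- ===== PACK-END A2/H408/Coord.lean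

-- ===== PACK-BEGIN S45/H818/CuspElem.lean
section


/-!
# S45 / CAR3 / MOD-E / REG (leaf C6, spare): the cusp element of a window of the chain
(helper818, abstract part)

`Φ ∈ ℤ[X][Y]` of modular shape of level `q ≥ 2`, `J a, J (a + 1), …, J (a + 2 i)` a chain in a
field `K` with `Φ(J l, J (l + 1)) = 0`.  The **cusp element** of the window is

    cuspElem818 q J a i = (1 - J a / J (a + 2 i)) * ∏_{l < i} J (a + l + 1) / J (a + l) ^ q

(`i = 1`: the element `tcusp = (c - a) b / (a ^ q c)` of `S36.Mod3.H276`).  On the sheet on which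
the first `i` steps of the window are Frobenius and the last `i` steps Verschiebung, the factors
of the product are `1`-units and `J (a + 2 i) - J a` is the uniformiser.

* `cuspElem_mem818` : the cusp element lies in EVERY valuation subring `V` of `K` which contains
  the inverses of the `J l` — for every pattern of the pole orders along the chain (no
  classification of the cusps, no "no-backtracking" input).  So it lies in the chart at infinity.

Proof.  If `J a ∈ V` everything is a unit of `V`.  Otherwise all `v (J l) > 1`, every step is "up"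
(`v (J (l+1)) = v (J l) ^ q`) or "down" (`v (J (l+1)) ^ q = v (J l)`), every factor of the product
has `v ≤ 1`, and: if the first `i` steps are up, then `v (J a) ≤ v (J (a + 2 i))`; if `l₀ < i` is
the first down step, then `v (J a) · v (J (l₀+1)) ≤ v (J l₀) ^ 2 ≤ v (J l₀) ^ q`.

Mathlib + `S15.H962.NewtonVal` + `S36.Mod3.H276.CuspVal`.
-/

set_option autoImplicit false

namespace Fermat.Agent.S45.H818

open Polynomial
open Fermat.Agent.S15.H962 (IsModularShape eval2 val_root_of_isModularShape)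
open Fermat.Agent.S36.Mod3.H276 (val_pair mem_of_eval2 one_lt_val_iff mul_inv_mem_of_val_le
  ne_zero_of_not_mem)

variable {K : Type*} [Field K]

/-- The cusp element of the window `J a, …, J (a + 2 i)`. -/
noncomputable def cuspElem818 (q : ℕ) (J : ℕ → K) (a i : ℕ) : K :=
  (1 - J a * (J (a + 2 * i))⁻¹) * ∏ l ∈ Finset.range i, J (a + l + 1) * (J (a + l) ^ q)⁻¹

/-- `i = 1`: the element `tcusp` of S36. -/
theorem cuspElem818_one (q : ℕ) (J : ℕ → K) (a : ℕ) (h0 : J (a + 2) ≠ 0) :
    cuspElem818 q J a 1 = (J (a + 2) - J a) * J (a + 1) * (J a ^ q * J (a + 2))⁻¹ := by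
  unfold cuspElem818
  simp only [Finset.range_one, Finset.prod_singleton, add_zero, mul_one]
  rw [mul_inv]
  field_simp

section Mem

variable {q : ℕ} {Φ : ℤ[X][X]}

/-- **The cusp element lies in every valuation ring at infinity.** -/
theorem cuspElem_mem818 (hq : 2 ≤ q) (hΦ : IsModularShape q Φ) (J : ℕ → K) (a i : ℕ)
    (hchain : ∀ l, l < 2 * i → eval2 Φ (J (a + l)) (J (a + l + 1)) = 0)
    (V : ValuationSubring K) (hinv : ∀ l, l ≤ 2 * i → (J (a + l))⁻¹ ∈ V) :
    cuspElem818 q J a i ∈ V := by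
  have hq0 : 0 < q := by omega
  unfold cuspElem818
  by_cases ha : J a ∈ V
  · -- everything is integral
    have hall : ∀ l, l ≤ 2 * i → J (a + l) ∈ V := by
      intro l
      induction l with
      | zero => intro _; simpa using ha
      | succ l ih =>
        intro hl
        exact mem_of_eval2 hΦ.monic (hchain l (by omega)) V (ih (by omega))
    refine V.mul_mem _ _ (sub_mem V.one_mem
      (V.mul_mem _ _ ha (by simpa using hinv (2 * i) le_rfl))) ?_
    refine Subring.prod_mem V.toSubring fun l hl => ?_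
    have hl' : l < i := Finset.mem_range.1 hl
    refine V.mul_mem _ _ (by simpa [add_assoc] using hall (l + 1) (by omega)) ?_
    rw [← inv_pow]
    exact V.pow_mem (hinv l (by omega)) q
  · -- a cusp: all valuations are `> 1`
    set v := V.valuation with hv
    have hB : ∀ l, l ≤ 2 * i → 1 < v (J (a + l)) := by
      intro l
      induction l with
      | zero => intro _; simpa using (one_lt_val_iff V).mpr ha
      | succ l ih =>
        intro hl
        exact (val_pair v hq0 hΦ (ih (by omega)) (hchain l (by omega))).1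
    have hstep : ∀ l, l < 2 * i →
        v (J (a + l + 1)) ≤ v (J (a + l)) ^ q ∧ v (J (a + l)) ≤ v (J (a + l + 1)) ^ q := by
      intro l hl
      exact (val_pair v hq0 hΦ (hB l (by omega)) (hchain l hl)).2
    have hne : ∀ l, l ≤ 2 * i → J (a + l) ≠ 0 := by
      intro l hl h0
      have := hB l hl
      rw [h0, map_zero] at this
      exact not_lt_zero this
    -- the factors of the product
    have hE : ∀ l, l < 2 * i → v (J (a + l + 1) * (J (a + l) ^ q)⁻¹) ≤ 1 := by
      intro l hl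
      rw [V.valuation_le_one_iff]
      refine mul_inv_mem_of_val_le V (pow_ne_zero q (hne l (by omega))) ?_
      rw [map_pow]
      exact (hstep l hl).1
    have hP : ∀ k, k ≤ i →
        v (∏ l ∈ Finset.range k, J (a + l + 1) * (J (a + l) ^ q)⁻¹) ≤ 1 := by
      intro k
      induction k with
      | zero => intro _; simp
      | succ k ih =>
        intro hk
        rw [Finset.prod_range_succ, map_mul]
        exact mul_le_one' (ih (by omega)) (hE k (by omega))
    -- the alternative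
    have key : ∀ k, k ≤ i →
        v (J (a + k)) = v (J a) ^ (q ^ k) ∨
          v (J a) * v (∏ l ∈ Finset.range k, J (a + l + 1) * (J (a + l) ^ q)⁻¹) ≤ 1 := by
      intro k
      induction k with
      | zero => intro _; left; simp
      | succ k ih =>
        intro hk
        rcases ih (by omega) with hup | hdown
        · rcases val_root_of_isModularShape v hq0 hΦ (hB k (by omega)) (hchain k (by omega))
            with h1 | h1
          · left
            rw [show a + (k + 1) = a + k + 1 from rfl, h1, hup, ← pow_mul, pow_succ]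
          · right
            rw [Finset.prod_range_succ, map_mul, ← mul_assoc, mul_right_comm]
            have hBk : 1 < v (J (a + k)) := hB k (by omega)
            have hBk1 : 1 < v (J (a + k + 1)) := hB (k + 1) (by omega)
            have h0k : v (J a) ≤ v (J (a + k)) := by
              rw [hup]
              exact le_self_pow₀ (by simpa using (hB 0 (by omega)).le)
                (pow_ne_zero k (by omega))
            have h1k : v (J (a + k + 1)) ≤ v (J (a + k)) := by
              rw [← h1]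
              exact le_self_pow₀ hBk1.le (by omega)
            have hprod : v (J a) * v (J (a + k + 1) * (J (a + k) ^ q)⁻¹) ≤ 1 := by
              rw [← map_mul, V.valuation_le_one_iff, ← mul_assoc]
              refine mul_inv_mem_of_val_le V (pow_ne_zero q (hne k (by omega))) ?_
              rw [map_mul, map_pow]
              calc v (J a) * v (J (a + k + 1))
                  ≤ v (J (a + k)) * v (J (a + k)) := mul_le_mul' h0k h1k
                _ = v (J (a + k)) ^ 2 := (sq _).symm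
                _ ≤ v (J (a + k)) ^ q := pow_le_pow_right₀ hBk.le hq
            exact mul_le_one' hprod (hP k (by omega))
        · right
          rw [Finset.prod_range_succ, map_mul, ← mul_assoc]
          exact mul_le_one' hdown (hE k (by omega))
    -- the lower bound along the second half
    have hlow : ∀ m, m ≤ i → v (J (a + i)) ≤ v (J (a + i + m)) ^ (q ^ m) := by
      intro m
      induction m with
      | zero => intro _; simp
      | succ m ih =>
        intro hm
        have h2 := (hstep (i + m) (by omega)).2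
        calc v (J (a + i)) ≤ v (J (a + i + m)) ^ (q ^ m) := ih (by omega)
          _ ≤ (v (J (a + (i + m) + 1)) ^ q) ^ (q ^ m) := by
              rw [show a + i + m = a + (i + m) by omega]
              exact pow_le_pow_left₀ zero_le h2 _
          _ = v (J (a + i + (m + 1))) ^ (q ^ (m + 1)) := by
              rw [← pow_mul, show a + (i + m) + 1 = a + i + (m + 1) by omega, pow_succ,
                mul_comm]
    have hPi := hP i le_rfl
    have hPV : (∏ l ∈ Finset.range i, J (a + l + 1) * (J (a + l) ^ q)⁻¹) ∈ V :=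
      (V.valuation_le_one_iff _).1 hPi
    rcases key i le_rfl with hup | hdown
    · -- the first half is up: `v (J a) ≤ v (J (a + 2 i))`
      have h1 := hlow i le_rfl
      rw [hup, show a + i + i = a + 2 * i by omega] at h1
      have h2 : v (J a) ≤ v (J (a + 2 * i)) :=
        (pow_le_pow_iff_left₀ zero_le zero_le (pow_ne_zero i (by omega))).1 h1
      exact V.mul_mem _ _ (sub_mem V.one_mem
        (mul_inv_mem_of_val_le V (by simpa using hne (2 * i) le_rfl) h2)) hPV
    · -- a down step in the first half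
      rw [sub_mul, one_mul]
      refine sub_mem hPV ?_
      rw [← V.valuation_le_one_iff, mul_right_comm, map_mul, map_mul, map_inv₀]
      have hBe : 1 < v (J (a + 2 * i)) := hB (2 * i) le_rfl
      have : (v (J (a + 2 * i)))⁻¹ ≤ 1 := inv_le_one_of_one_le₀ hBe.le
      exact mul_le_one' hdown this

end Mem

end Fermat.Agent.S45.H818

end
-- ===== PACK-END S45/H818/CuspElem.lean

-- ===== PACK-BEGIN S45/H576/CuspChain.lean
section





/-!
# S45 / CAR3 / MOD-E/Reg — the cusps of the balanced sheets: abstract chain lemmas (helper576)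

Mathlib only.  `V` a valuation subring of a field `F`, `J : ℕ → F` a chain (application:
`J l = j_{q^l}` in the function field of `X₀(q^e M)`, `ModE.jLev`), `q > 0`.

The local parameter of the balanced sheet `(c,c)` of level `2c` at its cusps, shifted by `k`
(`k = 0`: the sheet `(c,c)`; `k > 0`: its `β^k`-transport to the sheet `(c + k, c)`):

  `tc q J k c = (J (k + 2c) - J k) * J (k + c) / ((J k) ^ (q ^ c) * J (k + 2c))`.

`c = 1`, `k = 0` is `S36.Mod3.H276.tcusp`.  Only the indices `k ≤ l ≤ k + 2c` are used.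

* `chain_fwd_mem576`, `chain_bwd_mem576` : products of the pair elements `J (l+1) / (J l)^q`,
  `J l / (J (l+1))^q` (modular shape, `S36.Mod3.H276.pair_mem`, `pair_mem'`);
* `tc_mem576`      : `tc q J k c ∈ V` for EVERY valuation ring containing the pair elements —
                     with the valuation criterion for charts
                     (`S36.Mod3.H189.mem_chart_of_forall_valuationSubring`) this is
                     `tc ∈ chart R {x⁻¹}`;
* `chain_fwd_congr576`, `chain_bwd_congr576` : Kronecker residues along the chain;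
* `tc_eq_mul576`, `tc_factor_unit576` : `tc = (J (k+2c) - J k) * unit` on the sheet;
* `wild_core576`, `tc_pow_congr576` : the wild step: from `(J e - J 0)^q = ε (J (e-1) - J 1) u`,
                     `u ≡ 1`:  `tc(0,c)^q = ε * tc(1,c-1) * u'` with `u' ≡ 1`  (`e = 2c`);
* `tc_pow_congr_add576` : the same with the Kronecker residues in the ADDITIVE form of
                     `ModE.PartKronE` (`frob`, `ver`, `unit`).
-/

set_option autoImplicit false

namespace Fermat.Agent.S45.H576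

variable {F : Type*} [Field F]

/-- The cusp parameter of the balanced sheet, shifted by `k`. -/
noncomputable def tc (q : ℕ) (J : ℕ → F) (k c : ℕ) : F :=
  (J (k + 2 * c) - J k) * J (k + c) * ((J k) ^ (q ^ c) * J (k + 2 * c))⁻¹

/-! ## Two identities -/

theorem chain_fwd_eq576 (q : ℕ) (J : ℕ → F) (k c : ℕ) (h0 : J k ≠ 0) (hc : J (k + c) ≠ 0) :
    J (k + (c + 1)) * ((J k) ^ (q ^ (c + 1)))⁻¹ =
      (J (k + c + 1) * ((J (k + c)) ^ q)⁻¹) * (J (k + c) * ((J k) ^ (q ^ c))⁻¹) ^ q := by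
  have h1 : J (k + c) ^ q ≠ 0 := pow_ne_zero _ hc
  have h2 : (J k ^ q ^ c) ^ q ≠ 0 := pow_ne_zero _ (pow_ne_zero _ h0)
  rw [show k + (c + 1) = k + c + 1 from rfl, pow_succ, pow_mul, mul_pow, inv_pow]
  field_simp

theorem chain_bwd_eq576 (q : ℕ) (J : ℕ → F) (k c : ℕ) (hc : J (k + c) ≠ 0)
    (hc1 : J (k + c + 1) ≠ 0) :
    J k * ((J (k + (c + 1))) ^ (q ^ (c + 1)))⁻¹ =
      (J k * ((J (k + c)) ^ (q ^ c))⁻¹) *
        (J (k + c) * ((J (k + c + 1)) ^ q)⁻¹) ^ (q ^ c) := by
  have h1 : J (k + c) ^ q ^ c ≠ 0 := pow_ne_zero _ hc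
  have h2 : (J (k + c + 1) ^ q) ^ q ^ c ≠ 0 := pow_ne_zero _ (pow_ne_zero _ hc1)
  rw [show k + (c + 1) = k + c + 1 from rfl, pow_succ, mul_comm (q ^ c) q, pow_mul, mul_pow,
    inv_pow]
  field_simp

/-! ## Membership -/

/-- `J (k + c) / (J k)^(q^c) ∈ V` from the forward pair elements. -/
theorem chain_fwd_mem576 (V : ValuationSubring F) (q : ℕ) (J : ℕ → F) (k c : ℕ)
    (hJ : ∀ l, k ≤ l → l ≤ k + c → J l ≠ 0)
    (hpair : ∀ l, k ≤ l → l < k + c → J (l + 1) * ((J l) ^ q)⁻¹ ∈ V) :
    J (k + c) * ((J k) ^ (q ^ c))⁻¹ ∈ V := by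
  induction c with
  | zero =>
    have : J (k + 0) * ((J k) ^ (q ^ 0))⁻¹ = 1 := by
      simp [hJ k le_rfl (by omega)]
    rw [this]; exact V.one_mem
  | succ c ih =>
    rw [chain_fwd_eq576 q J k c (hJ k le_rfl (by omega)) (hJ (k + c) (by omega) (by omega))]
    exact V.mul_mem _ _ (hpair (k + c) (by omega) (by omega))
      (V.pow_mem (ih (fun l h1 h2 => hJ l h1 (by omega))
        (fun l h1 h2 => hpair l h1 (by omega))) q)

/-- `J k / (J (k + c))^(q^c) ∈ V` from the backward pair elements. -/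
theorem chain_bwd_mem576 (V : ValuationSubring F) (q : ℕ) (J : ℕ → F) (k c : ℕ)
    (hJ : ∀ l, k ≤ l → l ≤ k + c → J l ≠ 0)
    (hpair' : ∀ l, k ≤ l → l < k + c → J l * ((J (l + 1)) ^ q)⁻¹ ∈ V) :
    J k * ((J (k + c)) ^ (q ^ c))⁻¹ ∈ V := by
  induction c with
  | zero =>
    have : J k * ((J (k + 0)) ^ (q ^ 0))⁻¹ = 1 := by
      simp [hJ k le_rfl (by omega)]
    rw [this]; exact V.one_mem
  | succ c ih =>
    rw [chain_bwd_eq576 q J k c (hJ (k + c) (by omega) (by omega))
      (hJ (k + c + 1) (by omega) (by omega))]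
    exact V.mul_mem _ _ (ih (fun l h1 h2 => hJ l h1 (by omega))
        (fun l h1 h2 => hpair' l h1 (by omega)))
      (V.pow_mem (hpair' (k + c) (by omega) (by omega)) (q ^ c))

/-- **`tc ∈ V`** for every valuation ring containing the pair elements of the chain:
forward pairs on `[k, k + c)`, backward pairs on `[k + c, k + 2c)`. -/
theorem tc_mem576 (V : ValuationSubring F) (q : ℕ) (hq : 0 < q) (J : ℕ → F) (k c : ℕ)
    (hJ : ∀ l, k ≤ l → l ≤ k + 2 * c → J l ≠ 0)
    (hpair : ∀ l, k ≤ l → l < k + c → J (l + 1) * ((J l) ^ q)⁻¹ ∈ V)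
    (hpair' : ∀ l, k + c ≤ l → l < k + 2 * c → J l * ((J (l + 1)) ^ q)⁻¹ ∈ V) :
    tc q J k c ∈ V := by
  have hA := chain_fwd_mem576 V q J k c (fun l h1 h2 => hJ l h1 (by omega)) hpair
  have h0 := hJ k le_rfl (by omega)
  have hc := hJ (k + c) (by omega) (by omega)
  have he := hJ (k + 2 * c) (by omega) le_rfl
  rcases V.mem_or_inv_mem (J k * (J (k + 2 * c))⁻¹) with h | h
  · -- `J k / J e ∈ V`
    have e : tc q J k c =
        (J (k + c) * ((J k) ^ (q ^ c))⁻¹) * (1 - J k * (J (k + 2 * c))⁻¹) := by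
      unfold tc
      field_simp
    rw [e]
    exact V.mul_mem _ _ hA (sub_mem V.one_mem h)
  · -- `J e / J k ∈ V`
    have hw : J (k + 2 * c) * (J k)⁻¹ ∈ V := by
      have : (J k * (J (k + 2 * c))⁻¹)⁻¹ = J (k + 2 * c) * (J k)⁻¹ := by
        rw [mul_inv, inv_inv, mul_comm]
      rwa [this] at h
    have hkc : k + c + c = k + 2 * c := by ring
    have hC := chain_bwd_mem576 V q J (k + c) c (fun l h1 h2 => hJ l (by omega) (by omega))
      (fun l h1 h2 => hpair' l h1 (by omega))
    rw [hkc] at hC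
    obtain ⟨n, hn⟩ : ∃ n, q ^ c = n + 1 :=
      ⟨q ^ c - 1, (Nat.sub_add_cancel (Nat.one_le_pow c q hq)).symm⟩
    have e : tc q J k c =
        (J (k + c) * ((J k) ^ (q ^ c))⁻¹) -
          (J (k + c) * ((J (k + 2 * c)) ^ (q ^ c))⁻¹) * (J (k + 2 * c) * (J k)⁻¹) ^ n := by
      unfold tc
      rw [hn, mul_pow, inv_pow]
      have h0n : J k ^ n ≠ 0 := pow_ne_zero _ h0
      have hen : J (k + 2 * c) ^ n ≠ 0 := pow_ne_zero _ he
      field_simp
      ring
    rw [e]
    exact sub_mem hA (V.mul_mem _ _ hC (V.pow_mem hw n))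

/-! ## Congruences modulo `𝔪_V` -/

theorem nonunits_add576' (V : ValuationSubring F) {x y : F}
    (hx : x ∈ V.nonunits) (hy : y ∈ V.nonunits) : x + y ∈ V.nonunits := by
  rw [ValuationSubring.mem_nonunits_iff]
  exact lt_of_le_of_lt (V.valuation.map_add x y)
    (max_lt ((V.mem_nonunits_iff).1 hx) ((V.mem_nonunits_iff).1 hy))

theorem nonunits_mul_mem576' (V : ValuationSubring F) {x y : F}
    (hx : x ∈ V.nonunits) (hy : y ∈ V) : x * y ∈ V.nonunits := by
  rw [ValuationSubring.mem_nonunits_iff, map_mul]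
  exact mul_lt_one_of_lt_of_le ((V.mem_nonunits_iff).1 hx) ((V.valuation_le_one_iff y).2 hy)

theorem mem_of_nonunits576' (V : ValuationSubring F) {x : F} (hx : x ∈ V.nonunits) : x ∈ V :=
  (V.valuation_le_one_iff x).1 (le_of_lt ((V.mem_nonunits_iff).1 hx))

/-- additive to multiplicative: `a ≡ b`, `b⁻¹ ∈ V ⟹ a / b ≡ 1`. -/
theorem div_sub_one_mem576 (V : ValuationSubring F) {a b : F} (hb0 : b ≠ 0)
    (hab : a - b ∈ V.nonunits) (hb : b⁻¹ ∈ V) : a * b⁻¹ - 1 ∈ V.nonunits := by
  have e : a * b⁻¹ - 1 = (a - b) * b⁻¹ := by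
    field_simp
  rw [e]
  exact nonunits_mul_mem576' V hab hb

/-- `a ≡ 1`, `b ≡ 1 ⟹ a b ≡ 1`. -/
theorem mul_sub_one_mem576 (V : ValuationSubring F) {a b : F}
    (ha : a - 1 ∈ V.nonunits) (hb : b - 1 ∈ V.nonunits) : a * b - 1 ∈ V.nonunits := by
  have hbV : b ∈ V := by
    have : b = (b - 1) + 1 := by ring
    rw [this]; exact V.add_mem _ _ (mem_of_nonunits576' V hb) V.one_mem
  have e : a * b - 1 = (a - 1) * b + (b - 1) := by ring
  rw [e]
  exact nonunits_add576' V (nonunits_mul_mem576' V ha hbV) hb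

/-- `a ≡ 1 ⟹ a ^ n ≡ 1`. -/
theorem pow_sub_one_mem576' (V : ValuationSubring F) {a : F} (ha : a - 1 ∈ V.nonunits) (n : ℕ) :
    a ^ n - 1 ∈ V.nonunits := by
  induction n with
  | zero =>
    simp only [pow_zero, sub_self]
    rw [ValuationSubring.mem_nonunits_iff, map_zero]; exact zero_lt_one
  | succ n ih =>
    rw [pow_succ]
    exact mul_sub_one_mem576 V ih ha

/-- `a ≡ 1 ⟹ a⁻¹ ≡ 1`. -/
theorem inv_sub_one_mem576 (V : ValuationSubring F) {a : F} (ha : a - 1 ∈ V.nonunits) :
    a⁻¹ - 1 ∈ V.nonunits := by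
  have hva : V.valuation a = 1 := by
    have h1 : V.valuation (a - 1) < 1 := (V.mem_nonunits_iff).1 ha
    have h2 := V.valuation.map_one_add_of_lt h1
    rwa [show (1 : F) + (a - 1) = a by ring] at h2
  have ha0 : a ≠ 0 := by
    rintro rfl
    rw [map_zero] at hva
    exact zero_ne_one hva
  have e : a⁻¹ - 1 = -(a - 1) * a⁻¹ := by
    field_simp
    ring
  rw [e, ValuationSubring.mem_nonunits_iff, map_mul, Valuation.map_neg, map_inv₀, hva, inv_one,
    mul_one]
  exact (V.mem_nonunits_iff).1 ha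

/-- Kronecker residues forward along the chain: `J (k + c) / (J k)^(q^c) ≡ 1`. -/
theorem chain_fwd_congr576 (V : ValuationSubring F) (q : ℕ) (J : ℕ → F) (k c : ℕ)
    (hJ : ∀ l, k ≤ l → l ≤ k + c → J l ≠ 0)
    (hkron : ∀ l, k ≤ l → l < k + c → J (l + 1) * ((J l) ^ q)⁻¹ - 1 ∈ V.nonunits) :
    J (k + c) * ((J k) ^ (q ^ c))⁻¹ - 1 ∈ V.nonunits := by
  induction c with
  | zero =>
    have : J (k + 0) * ((J k) ^ (q ^ 0))⁻¹ - 1 = 0 := by
      simp [hJ k le_rfl (by omega)]
    rw [this, ValuationSubring.mem_nonunits_iff, map_zero]; exact zero_lt_one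
  | succ c ih =>
    rw [chain_fwd_eq576 q J k c (hJ k le_rfl (by omega)) (hJ (k + c) (by omega) (by omega))]
    exact mul_sub_one_mem576 V (hkron (k + c) (Nat.le_add_right k c) (by omega))
      (pow_sub_one_mem576' V (ih (fun l h1 h2 => hJ l h1 (by omega))
        (fun l h1 h2 => hkron l h1 (by omega))) q)

/-- Kronecker residues backward along the chain: `J k / (J (k + c))^(q^c) ≡ 1`. -/
theorem chain_bwd_congr576 (V : ValuationSubring F) (q : ℕ) (J : ℕ → F) (k c : ℕ)
    (hJ : ∀ l, k ≤ l → l ≤ k + c → J l ≠ 0)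
    (hkron' : ∀ l, k ≤ l → l < k + c → J l * ((J (l + 1)) ^ q)⁻¹ - 1 ∈ V.nonunits) :
    J k * ((J (k + c)) ^ (q ^ c))⁻¹ - 1 ∈ V.nonunits := by
  induction c with
  | zero =>
    have : J k * ((J (k + 0)) ^ (q ^ 0))⁻¹ - 1 = 0 := by
      simp [hJ k le_rfl (by omega)]
    rw [this, ValuationSubring.mem_nonunits_iff, map_zero]; exact zero_lt_one
  | succ c ih =>
    rw [chain_bwd_eq576 q J k c (hJ (k + c) (by omega) (by omega))
      (hJ (k + c + 1) (by omega) (by omega))]
    exact mul_sub_one_mem576 V (ih (fun l h1 h2 => hJ l h1 (by omega))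
        (fun l h1 h2 => hkron' l h1 (by omega)))
      (pow_sub_one_mem576' V (hkron' (k + c) (Nat.le_add_right k c) (by omega)) (q ^ c))

/-! ## The wild step at the cusps of the balanced sheet -/

/-- `tc = (J e - J k) * ε`, `ε = J (k+c) / ((J k)^(q^c) J e)`. -/
theorem tc_eq_mul576 (q : ℕ) (J : ℕ → F) (k c : ℕ) :
    tc q J k c =
      (J (k + 2 * c) - J k) * (J (k + c) * ((J k) ^ (q ^ c) * J (k + 2 * c))⁻¹) := by
  unfold tc
  ring

/-- the factor `ε` of `tc_eq_mul576` is a unit of every valuation ring at which `J k`,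
`J (k + c)`, `J (k + 2c)` are units (shape of `S36.Eng.UnitAt`). -/
theorem tc_factor_unit576 (V : ValuationSubring F) (q : ℕ) (J : ℕ → F) (k c : ℕ)
    (h0 : J k ≠ 0 ∧ J k ∈ V ∧ (J k)⁻¹ ∈ V)
    (hc : J (k + c) ≠ 0 ∧ J (k + c) ∈ V ∧ (J (k + c))⁻¹ ∈ V)
    (he : J (k + 2 * c) ≠ 0 ∧ J (k + 2 * c) ∈ V ∧ (J (k + 2 * c))⁻¹ ∈ V) :
    J (k + c) * ((J k) ^ (q ^ c) * J (k + 2 * c))⁻¹ ≠ 0 ∧
      J (k + c) * ((J k) ^ (q ^ c) * J (k + 2 * c))⁻¹ ∈ V ∧
      (J (k + c) * ((J k) ^ (q ^ c) * J (k + 2 * c))⁻¹)⁻¹ ∈ V := by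
  obtain ⟨a0, a1, a2⟩ := h0
  obtain ⟨c0, c1, c2⟩ := hc
  obtain ⟨e0, e1, e2⟩ := he
  refine ⟨mul_ne_zero c0 (inv_ne_zero (mul_ne_zero (pow_ne_zero _ a0) e0)), ?_, ?_⟩
  · rw [mul_inv, ← inv_pow]
    exact V.mul_mem _ _ c1 (V.mul_mem _ _ (V.pow_mem a2 _) e2)
  · rw [mul_inv, inv_inv]
    exact V.mul_mem _ _ c2 (V.mul_mem _ _ (V.pow_mem a1 _) e1)

/-- The core of the wild step, for plain field elements (`n = q^c`, `m = q^(c-1)`):
from `(ae - a0)^q = ε (ae1 - a1) u`, `u ≡ 1`, and the three Kronecker residues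
`ac ≡ a0^n`, `ac ≡ a1^m`, `ae1 ≡ ae^q`:  `T^q = ε T' u'` with `u' ≡ 1`. -/
theorem wild_core576 (V : ValuationSubring F) (q n m : ℕ) {a0 a1 ac ae1 ae ε u : F}
    (h0 : a0 ≠ 0) (h1 : a1 ≠ 0) (hc : ac ≠ 0) (he1 : ae1 ≠ 0) (he : ae ≠ 0)
    (k1 : ac * (a0 ^ n)⁻¹ - 1 ∈ V.nonunits)
    (k2 : ac * (a1 ^ m)⁻¹ - 1 ∈ V.nonunits)
    (k3 : ae1 * (ae ^ q)⁻¹ - 1 ∈ V.nonunits)
    (hu : u - 1 ∈ V.nonunits)
    (hV3 : (ae - a0) ^ q = ε * (ae1 - a1) * u) :
    ∃ u' : F, u' - 1 ∈ V.nonunits ∧
      ((ae - a0) * ac * (a0 ^ n * ae)⁻¹) ^ q = ε * ((ae1 - a1) * ac * (a1 ^ m * ae1)⁻¹) * u' := by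
  refine ⟨u * (ac * (a0 ^ n)⁻¹) ^ q * (ac * (a1 ^ m)⁻¹)⁻¹ * (ae1 * (ae ^ q)⁻¹), ?_, ?_⟩
  · exact mul_sub_one_mem576 V
      (mul_sub_one_mem576 V (mul_sub_one_mem576 V hu (pow_sub_one_mem576' V k1 q))
        (inv_sub_one_mem576 V k2)) k3
  · have h0n : a0 ^ n ≠ 0 := pow_ne_zero _ h0
    have h1m : a1 ^ m ≠ 0 := pow_ne_zero _ h1
    have heq : ae ^ q ≠ 0 := pow_ne_zero _ he
    have h0nq : (a0 ^ n) ^ q ≠ 0 := pow_ne_zero _ h0n
    rw [mul_pow, mul_pow, inv_pow, mul_pow, hV3, mul_pow, inv_pow]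
    field_simp

/-- **The wild step at the cusps of the balanced sheet `(c,c)`, `c = d + 1`, level `e = 2c`.**
`T = tc q J 0 (d+1)` is the cusp parameter of the sheet, `T' = tc q J 1 d` the image in level `e`
of the (`β`-transported) cusp parameter of the sheet `(c, c-1)` of level `e - 1`.  From the
valuation-level congruence for the `j`-differences and the Kronecker residues of the sheet
(`J (l+1) ≡ (J l)^q` for `l < c`, `J l ≡ (J (l+1))^q` for `c ≤ l < 2c`, multiplicative form):
`T ^ q = ε T' u'` with `u' ≡ 1` modulo `𝔪_V`. -/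
theorem tc_pow_congr576 (V : ValuationSubring F) (q : ℕ) (J : ℕ → F) (d : ℕ)
    (hJ : ∀ l, l ≤ 2 * (d + 1) → J l ≠ 0)
    (hkron : ∀ l, l < d + 1 → J (l + 1) * ((J l) ^ q)⁻¹ - 1 ∈ V.nonunits)
    (hkron' : ∀ l, d + 1 ≤ l → l < 2 * (d + 1) → J l * ((J (l + 1)) ^ q)⁻¹ - 1 ∈ V.nonunits)
    {ε u : F} (hu : u - 1 ∈ V.nonunits)
    (hV3 : (J (2 * (d + 1)) - J 0) ^ q = ε * (J (2 * d + 1) - J 1) * u) :
    ∃ u' : F, u' - 1 ∈ V.nonunits ∧ (tc q J 0 (d + 1)) ^ q = ε * tc q J 1 d * u' := by
  have k1 := chain_fwd_congr576 V q J 0 (d + 1) (fun l _ h2 => hJ l (by omega))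
    (fun l _ h2 => hkron l (by omega))
  have k2 := chain_fwd_congr576 V q J 1 d (fun l _ h2 => hJ l (by omega))
    (fun l _ h2 => hkron l (by omega))
  have k3 := hkron' (2 * d + 1) (by omega) (by omega)
  have i1 : 0 + (d + 1) = d + 1 := by omega
  have i2 : 1 + d = d + 1 := by omega
  have i3 : 0 + 2 * (d + 1) = 2 * (d + 1) := by omega
  have i4 : 1 + 2 * d = 2 * d + 1 := by omega
  have i5 : 2 * d + 1 + 1 = 2 * (d + 1) := by omega
  rw [i1] at k1
  rw [i2] at k2
  rw [i5] at k3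
  unfold tc
  rw [i1, i2, i3, i4]
  exact wild_core576 V q (q ^ (d + 1)) (q ^ d) (hJ 0 (by omega)) (hJ 1 (by omega))
    (hJ (d + 1) (by omega)) (hJ (2 * d + 1) (by omega)) (hJ (2 * (d + 1)) le_rfl) k1 k2 k3 hu hV3

/-- **The wild step, Kronecker residues in the ADDITIVE form of `ModE.PartKronE`**
(`frob`, `ver` at the sheet `i = c` of level `e = 2c`, `c = d + 1`; `unit`). -/
theorem tc_pow_congr_add576 (V : ValuationSubring F) (q : ℕ) (J : ℕ → F) (d : ℕ)
    (hunit : ∀ l, l ≤ 2 * (d + 1) → J l ≠ 0 ∧ J l ∈ V ∧ (J l)⁻¹ ∈ V)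
    (hfrob : ∀ l, l < d + 1 → J (l + 1) - (J l) ^ q ∈ V.nonunits)
    (hver : ∀ l, d + 1 ≤ l → l < 2 * (d + 1) → J l - (J (l + 1)) ^ q ∈ V.nonunits)
    {ε u : F} (hu : u - 1 ∈ V.nonunits)
    (hV3 : (J (2 * (d + 1)) - J 0) ^ q = ε * (J (2 * d + 1) - J 1) * u) :
    ∃ u' : F, u' - 1 ∈ V.nonunits ∧ (tc q J 0 (d + 1)) ^ q = ε * tc q J 1 d * u' := by
  refine tc_pow_congr576 V q J d (fun l hl => (hunit l hl).1) (fun l hl => ?_)
    (fun l h1 h2 => ?_) hu hV3
  · obtain ⟨a0, -, a2⟩ := hunit l (by omega)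
    refine div_sub_one_mem576 V (pow_ne_zero _ a0) (hfrob l hl) ?_
    rw [← inv_pow]
    exact V.pow_mem a2 q
  · obtain ⟨a0, -, a2⟩ := hunit (l + 1) (by omega)
    refine div_sub_one_mem576 V (pow_ne_zero _ a0) (hver l h1 h2) ?_
    rw [← inv_pow]
    exact V.pow_mem a2 q

end Fermat.Agent.S45.H576

end
-- ===== PACK-END S45/H576/CuspChain.lean

-- ===== PACK-BEGIN S45/H576/CuspWild.lean
section


/-!
# S45 / CAR3 / MOD-E/Reg — the cusps of the balanced sheets: the wild step in package form and the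
uniformiser (helper576; Mathlib + `CuspChain` only)

`tc q J k c = (J (k + 2c) - J k) * J (k + c) / ((J k)^(q^c) * J (k + 2c))` (`CuspChain.lean`).

* `tc_wild576` : the WILD step at the cusps of the balanced sheet `(c,c)`, `c = d + 1`, of level
  `e = 2c`, in the shape consumed by a `litePkg_wild` (REG list of helper878, leaf A4):
  `(x ^ q - φ x') * (φ x')⁻¹ ∈ 𝔪_V` with `x = tc q J 0 (d+1)`, `φ x' = tc q J 1 d`
  (`= α (β (tc'' 0 d))`, two levels below).  Hypotheses: the Kronecker pattern of the sheet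
  (`ModE.PartKronE` at `i = c`) and the chain congruence of the `j`-differences (leaf A5 with
  `a = J e`, `a₁ = J (e-1)`, `b = J 0`, `b₁ = J 1`).
* `unifAt_mul_unit576` : uniformiser times unit is a uniformiser (shape of `S36.Eng.UnifAt`,
  `UnitAt`, unfolded);
* `tc_unifAt576` : `tc q J k c` is a uniformiser of `V` as soon as `J (k + 2c) - J k` is one and
  `J k`, `J (k+c)`, `J (k+2c)` are units (`ModE.PartUnifE` + `PartKronE.unit`).
-/

set_option autoImplicit false

namespace Fermat.Agent.S45.H576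

variable {F : Type*} [Field F]

/-- **The wild step at the cusps, package form** (`ε = 1`). -/
theorem tc_wild576 (V : ValuationSubring F) (q : ℕ) (J : ℕ → F) (d : ℕ)
    (hunit : ∀ l, l ≤ 2 * (d + 1) → J l ≠ 0 ∧ J l ∈ V ∧ (J l)⁻¹ ∈ V)
    (hfrob : ∀ l, l < d + 1 → J (l + 1) - (J l) ^ q ∈ V.nonunits)
    (hver : ∀ l, d + 1 ≤ l → l < 2 * (d + 1) → J l - (J (l + 1)) ^ q ∈ V.nonunits)
    (hchain : ((J (2 * (d + 1)) - J 0) ^ q - (J (2 * d + 1) - J 1)) *
        (J (2 * d + 1) - J 1)⁻¹ ∈ V.nonunits) :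
    ((tc q J 0 (d + 1)) ^ q - tc q J 1 d) * (tc q J 1 d)⁻¹ ∈ V.nonunits := by
  by_cases hne : J (2 * d + 1) - J 1 = 0
  · have h0 : tc q J 1 d = 0 := by
      unfold tc
      rw [show 1 + 2 * d = 2 * d + 1 by omega, hne, zero_mul, zero_mul]
    rw [h0, inv_zero, mul_zero]
    exact (V.mem_nonunits_iff).2 (by rw [map_zero]; exact zero_lt_one)
  · have hu : (J (2 * (d + 1)) - J 0) ^ q * (J (2 * d + 1) - J 1)⁻¹ - 1 ∈ V.nonunits := by
      have e : (J (2 * (d + 1)) - J 0) ^ q * (J (2 * d + 1) - J 1)⁻¹ - 1 =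
          ((J (2 * (d + 1)) - J 0) ^ q - (J (2 * d + 1) - J 1)) * (J (2 * d + 1) - J 1)⁻¹ := by
        field_simp
      rw [e]; exact hchain
    have hV3 : (J (2 * (d + 1)) - J 0) ^ q =
        1 * (J (2 * d + 1) - J 1) *
          ((J (2 * (d + 1)) - J 0) ^ q * (J (2 * d + 1) - J 1)⁻¹) := by
      field_simp
    obtain ⟨u', hu', hT⟩ := tc_pow_congr_add576 V q J d hunit hfrob hver hu hV3
    have h1 : tc q J 1 d ≠ 0 := by
      unfold tc
      rw [show 1 + 2 * d = 2 * d + 1 by omega]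
      refine mul_ne_zero (mul_ne_zero hne (hunit (1 + d) (by omega)).1) (inv_ne_zero ?_)
      exact mul_ne_zero (pow_ne_zero _ (hunit 1 (by omega)).1) (hunit (2 * d + 1) (by omega)).1
    have e : ((tc q J 0 (d + 1)) ^ q - tc q J 1 d) * (tc q J 1 d)⁻¹ = u' - 1 := by
      rw [hT, one_mul]
      field_simp
    rw [e]; exact hu'

/-- uniformiser times unit = uniformiser (shapes of `S36.Eng.UnifAt` / `UnitAt`, unfolded) -/
theorem unifAt_mul_unit576 (V : ValuationSubring F) {t u : F}
    (ht : t ≠ 0 ∧ t ∈ V.nonunits ∧ ∀ f ∈ V.nonunits, f * t⁻¹ ∈ V)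
    (hu : u ≠ 0 ∧ u ∈ V ∧ u⁻¹ ∈ V) :
    t * u ≠ 0 ∧ t * u ∈ V.nonunits ∧ ∀ f ∈ V.nonunits, f * (t * u)⁻¹ ∈ V := by
  obtain ⟨t0, t1, t2⟩ := ht
  obtain ⟨u0, u1, u2⟩ := hu
  refine ⟨mul_ne_zero t0 u0, ?_, fun f hf => ?_⟩
  · exact nonunits_mul_mem576' V t1 u1
  · rw [mul_inv, ← mul_assoc]
    exact V.mul_mem _ _ (t2 f hf) u2

/-- **`tc` is a uniformiser** of the sheet: `J (k + 2c) - J k` is one and the three `J`'s are
units. -/
theorem tc_unifAt576 (V : ValuationSubring F) (q : ℕ) (J : ℕ → F) (k c : ℕ)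
    (hT : J (k + 2 * c) - J k ≠ 0 ∧ J (k + 2 * c) - J k ∈ V.nonunits ∧
      ∀ f ∈ V.nonunits, f * (J (k + 2 * c) - J k)⁻¹ ∈ V)
    (h0 : J k ≠ 0 ∧ J k ∈ V ∧ (J k)⁻¹ ∈ V)
    (hc : J (k + c) ≠ 0 ∧ J (k + c) ∈ V ∧ (J (k + c))⁻¹ ∈ V)
    (he : J (k + 2 * c) ≠ 0 ∧ J (k + 2 * c) ∈ V ∧ (J (k + 2 * c))⁻¹ ∈ V) :
    tc q J k c ≠ 0 ∧ tc q J k c ∈ V.nonunits ∧ ∀ f ∈ V.nonunits, f * (tc q J k c)⁻¹ ∈ V := by
  rw [tc_eq_mul576]
  exact unifAt_mul_unit576 V hT (tc_factor_unit576 V q J k c h0 hc he)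

end Fermat.Agent.S45.H576

end
-- ===== PACK-END S45/H576/CuspWild.lean

-- ===== PACK-BEGIN S45/H715/ChainAbs.lean
section


/-!
# S45 / MOD-E, cell CHART-E (helper715) — abstract part (Mathlib + S36 CHART3 abstract file)

A CHAIN `s 0 — s 1 — … — s e` of elements of a field `K`, consecutive members mutually integral
(`Φ(s k; s (k+1)) = 0 = Φ(s (k+1); s k)`, `Φ ∈ ℤ[Y][X]` monic in `X`), and the COORDINATE

    `chainProd s e = ∏_{k ≤ e} s k`          (`e = 1`: A2 `x = j j_q`;  `e = 2`: S36 `x = j j_q j_{q²}`).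

* `mem_of_chainProd_mem`, `inv_mem_of_chainProd_inv_mem` : the valuative criterion for a chain of
  ANY length (S36 `mem_triple`, `inv_mem_triple` are the case `e = 2`);
* `ChainEq.mem_chart`, `ChainEq.inv_mem_chart` : `s k ∈ chart R {x}`, `(s k)⁻¹ ∈ chart R {x⁻¹}`;
* `chart_α_chain`, `chart_β_chain`, `int_α_chain`, `int_β_chain` : the four fields `chart_α`,
  `chart_β`, `int_α`, `int_β` of `S45.Eng.CtxE` for `x' = chainProd s' n`, `x = chainProd s (n + 1)`,
  `α (s' k) = s k`, `β (s' k) = s (k + 1)`.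

No valuation theory beyond `iInf_valuationSubring_superset`; no hypothesis on the characteristic.
-/

set_option autoImplicit false
set_option linter.unusedSectionVars false

noncomputable section

namespace Fermat.Agent.S45.H715

open Polynomial
open Fermat.Agent.S18.H138 (chart mem_chart mem_chart_of_mem)

/-! ## The valuative criterion for a chain -/

section Valuative

variable {K : Type*} [Field K]

/-- The chain `s 0 — … — s e` is LINKED at `V`: consecutive members lie in `V` together. -/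
def LinkedAt (V : ValuationSubring K) (s : ℕ → K) (e : ℕ) : Prop :=
  ∀ k < e, (s k ∈ V ↔ s (k + 1) ∈ V)

theorem LinkedAt.mem_iff_zero {V : ValuationSubring K} {s : ℕ → K} {e : ℕ}
    (h : LinkedAt V s e) : ∀ k ≤ e, (s k ∈ V ↔ s 0 ∈ V) := by
  intro k
  induction k with
  | zero => intro _; exact Iff.rfl
  | succ n ih =>
    intro hn
    exact (h n (Nat.lt_of_succ_le hn)).symm.trans (ih (Nat.le_of_succ_le hn))

theorem LinkedAt.mem_iff {V : ValuationSubring K} {s : ℕ → K} {e : ℕ}
    (h : LinkedAt V s e) {k l : ℕ} (hk : k ≤ e) (hl : l ≤ e) : s k ∈ V ↔ s l ∈ V :=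
  (h.mem_iff_zero k hk).trans (h.mem_iff_zero l hl).symm

/-- **The coordinate of a chain**: `∏_{k ≤ e} s k`. -/
def chainProd (s : ℕ → K) (e : ℕ) : K := ∏ k ∈ Finset.range (e + 1), s k

theorem chainProd_succ (s : ℕ → K) (e : ℕ) : chainProd s (e + 1) = chainProd s e * s (e + 1) :=
  Finset.prod_range_succ s (e + 1)

theorem chainProd_succ' (s : ℕ → K) (e : ℕ) :
    chainProd s (e + 1) = s 0 * chainProd (fun k => s (k + 1)) e := by
  unfold chainProd
  rw [Finset.prod_range_succ' s (e + 1), mul_comm]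

theorem chainProd_zero (s : ℕ → K) : chainProd s 0 = s 0 := by
  simp [chainProd]

theorem chainProd_congr {s t : ℕ → K} {e : ℕ} (h : ∀ k ≤ e, s k = t k) :
    chainProd s e = chainProd t e :=
  Finset.prod_congr rfl fun k hk => h k (Nat.lt_succ_iff.mp (Finset.mem_range.mp hk))

theorem chainProd_ne_zero {s : ℕ → K} {e : ℕ} (h : ∀ k ≤ e, s k ≠ 0) : chainProd s e ≠ 0 :=
  Finset.prod_ne_zero_iff.mpr fun k hk => h k (Nat.lt_succ_iff.mp (Finset.mem_range.mp hk))

theorem map_chainProd {L : Type*} [Field L] (φ : K →+* L) (s : ℕ → K) (e : ℕ) :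
    φ (chainProd s e) = chainProd (fun k => φ (s k)) e := by
  unfold chainProd
  rw [map_prod]

/-- **Valuative criterion for a chain.**  A valuation subring containing `∏_{k ≤ e} s k`, at which
the chain is linked, contains every `s k`. -/
theorem mem_of_chainProd_mem (V : ValuationSubring K) {s : ℕ → K} {e : ℕ} (h : LinkedAt V s e)
    (hx : chainProd s e ∈ V) : ∀ k ≤ e, s k ∈ V := by
  intro k hk
  by_contra hkV
  have hnot : ∀ l ∈ Finset.range (e + 1), s l ∉ V := fun l hl hlV =>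
    hkV ((h.mem_iff hk (Nat.lt_succ_iff.mp (Finset.mem_range.mp hl))).mpr hlV)
  have hinv : ∀ l ∈ Finset.range (e + 1), (s l)⁻¹ ∈ V := fun l hl =>
    (V.mem_or_inv_mem (s l)).resolve_left (hnot l hl)
  have hne : ∀ l ∈ Finset.range (e + 1), s l ≠ 0 := fun l hl h0 =>
    hnot l hl (h0 ▸ V.zero_mem)
  have hmem : k ∈ Finset.range (e + 1) := Finset.mem_range.mpr (Nat.lt_succ_of_le hk)
  have e1 : chainProd s e = s k * ∏ l ∈ (Finset.range (e + 1)).erase k, s l :=
    (Finset.mul_prod_erase _ _ hmem).symm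
  have hne' : ∏ l ∈ (Finset.range (e + 1)).erase k, s l ≠ 0 :=
    Finset.prod_ne_zero_iff.mpr fun l hl => hne l (Finset.mem_of_mem_erase hl)
  have e2 : s k = chainProd s e * ∏ l ∈ (Finset.range (e + 1)).erase k, (s l)⁻¹ := by
    rw [e1, Finset.prod_inv_distrib, mul_assoc, mul_inv_cancel₀ hne', mul_one]
  apply hkV
  rw [e2]
  exact V.mul_mem _ _ hx (prod_mem fun l hl => hinv l (Finset.mem_of_mem_erase hl))

/-- **The same at infinity.**  A valuation subring containing `(∏_{k ≤ e} s k)⁻¹`, at which the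
chain is linked, contains every `(s k)⁻¹`. -/
theorem inv_mem_of_chainProd_inv_mem (V : ValuationSubring K) {s : ℕ → K} {e : ℕ}
    (h : LinkedAt V s e) (h0 : ∀ k ≤ e, s k ≠ 0) (hx : (chainProd s e)⁻¹ ∈ V) :
    ∀ k ≤ e, (s k)⁻¹ ∈ V := by
  intro k hk
  by_contra hkV
  have hkV' : s k ∈ V := (V.mem_or_inv_mem (s k)).resolve_right hkV
  have hall : ∀ l ∈ Finset.range (e + 1), s l ∈ V := fun l hl =>
    (h.mem_iff hk (Nat.lt_succ_iff.mp (Finset.mem_range.mp hl))).mp hkV'
  have hmem : k ∈ Finset.range (e + 1) := Finset.mem_range.mpr (Nat.lt_succ_of_le hk)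
  have e1 : chainProd s e = s k * ∏ l ∈ (Finset.range (e + 1)).erase k, s l :=
    (Finset.mul_prod_erase _ _ hmem).symm
  have hne' : ∏ l ∈ (Finset.range (e + 1)).erase k, s l ≠ 0 :=
    Finset.prod_ne_zero_iff.mpr fun l hl =>
      h0 l (Nat.lt_succ_iff.mp (Finset.mem_range.mp (Finset.mem_of_mem_erase hl)))
  have e2 : (s k)⁻¹ = (chainProd s e)⁻¹ * ∏ l ∈ (Finset.range (e + 1)).erase k, s l := by
    rw [e1, mul_inv, mul_assoc, inv_mul_cancel₀ hne', mul_one]
  apply hkV
  rw [e2]
  exact V.mul_mem _ _ hx (prod_mem fun l hl => hall l (Finset.mem_of_mem_erase hl))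

end Valuative

/-! ## Chains of roots of a monic two-variable polynomial -/

section ChainEq

variable {K : Type*} [Field K]

/-- The chain `s 0, …, s e` satisfies the "modular equation" `Φ` in both directions:
`Φ(X = s k; Y = s (k+1)) = 0` and `Φ(X = s (k+1); Y = s k) = 0`, `Φ` monic in `X`;
all members are non-zero. -/
structure ChainEq (Φ : Polynomial (Polynomial ℤ)) (s : ℕ → K) (e : ℕ) : Prop where
  monic : Φ.Monic
  up : ∀ k < e, Φ.eval₂ (Polynomial.aeval (R := ℤ) (s (k + 1))).toRingHom (s k) = 0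
  down : ∀ k < e, Φ.eval₂ (Polynomial.aeval (R := ℤ) (s k)).toRingHom (s (k + 1)) = 0
  ne_zero : ∀ k ≤ e, s k ≠ 0

variable {Φ : Polynomial (Polynomial ℤ)} {s : ℕ → K} {e : ℕ}

theorem ChainEq.linkedAt (h : ChainEq Φ s e) (V : ValuationSubring K) : LinkedAt V s e :=
  fun k hk =>
    ⟨fun hV => S36.Mod3.H189.mem_valuationSubring_of_monic Φ h.monic (h.down k hk) V hV,
      fun hV => S36.Mod3.H189.mem_valuationSubring_of_monic Φ h.monic (h.up k hk) V hV⟩

/-- A shorter chain. -/
theorem ChainEq.mono (h : ChainEq Φ s e) {e' : ℕ} (he : e' ≤ e) : ChainEq Φ s e' where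
  monic := h.monic
  up := fun k hk => h.up k (lt_of_lt_of_le hk he)
  down := fun k hk => h.down k (lt_of_lt_of_le hk he)
  ne_zero := fun k hk => h.ne_zero k (le_trans hk he)

/-- The shifted chain `s 1, …, s (e + 1)`. -/
theorem ChainEq.shift (h : ChainEq Φ s (e + 1)) : ChainEq Φ (fun k => s (k + 1)) e where
  monic := h.monic
  up := fun k hk => h.up (k + 1) (Nat.succ_lt_succ hk)
  down := fun k hk => h.down (k + 1) (Nat.succ_lt_succ hk)
  ne_zero := fun k hk => h.ne_zero (k + 1) (Nat.succ_le_succ hk)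

/-- Transport of a chain along a field homomorphism. -/
theorem ChainEq.map {L : Type*} [Field L] (φ : K →+* L) (h : ChainEq Φ s e) :
    ChainEq Φ (fun k => φ (s k)) e where
  monic := h.monic
  up := fun k hk => by
    have h1 := Polynomial.hom_eval₂ Φ (Polynomial.aeval (R := ℤ) (s (k + 1))).toRingHom φ (s k)
    have hcomp : φ.comp (Polynomial.aeval (R := ℤ) (s (k + 1))).toRingHom =
        (Polynomial.aeval (R := ℤ) (φ (s (k + 1)))).toRingHom := by
      apply Polynomial.ringHom_ext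
      · intro n
        simp
      · simp
    rw [hcomp, h.up k hk, map_zero] at h1
    exact h1.symm
  down := fun k hk => by
    have h1 := Polynomial.hom_eval₂ Φ (Polynomial.aeval (R := ℤ) (s k)).toRingHom φ (s (k + 1))
    have hcomp : φ.comp (Polynomial.aeval (R := ℤ) (s k)).toRingHom =
        (Polynomial.aeval (R := ℤ) (φ (s k))).toRingHom := by
      apply Polynomial.ringHom_ext
      · intro n
        simp
      · simp
    rw [hcomp, h.down k hk, map_zero] at h1
    exact h1.symm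
  ne_zero := fun k hk => (map_ne_zero φ).mpr (h.ne_zero k hk)

/-- Every member of the chain lies in every valuation subring containing the coordinate. -/
theorem ChainEq.mem_of_mem (h : ChainEq Φ s e) (V : ValuationSubring K)
    (hx : chainProd s e ∈ V) : ∀ k ≤ e, s k ∈ V :=
  mem_of_chainProd_mem V (h.linkedAt V) hx

theorem ChainEq.inv_mem_of_inv_mem (h : ChainEq Φ s e) (V : ValuationSubring K)
    (hx : (chainProd s e)⁻¹ ∈ V) : ∀ k ≤ e, (s k)⁻¹ ∈ V :=
  inv_mem_of_chainProd_inv_mem V (h.linkedAt V) h.ne_zero hx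

variable {R : Type*} [CommRing R] [Algebra R K]

/-- **The members of the chain lie in the finite chart.** -/
theorem ChainEq.mem_chart (h : ChainEq Φ s e) :
    ∀ k ≤ e, s k ∈ chart R ({chainProd s e} : Set K) := fun k hk =>
  S36.Mod3.H189.mem_chart_of_forall_valuationSubring fun V hx => h.mem_of_mem V hx k hk

/-- **Their inverses lie in the chart at infinity.** -/
theorem ChainEq.inv_mem_chart (h : ChainEq Φ s e) :
    ∀ k ≤ e, (s k)⁻¹ ∈ chart R ({(chainProd s e)⁻¹} : Set K) := fun k hk =>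
  S36.Mod3.H189.mem_chart_of_forall_valuationSubring fun V hx => h.inv_mem_of_inv_mem V hx k hk

/-- Sub-products of the chain lie in the finite chart. -/
theorem ChainEq.prod_mem_chart (h : ChainEq Φ s e) (T : Finset ℕ) (hT : ∀ k ∈ T, k ≤ e) :
    ∏ k ∈ T, s k ∈ chart R ({chainProd s e} : Set K) :=
  prod_mem fun k hk => h.mem_chart k (hT k hk)

end ChainEq

/-! ## The chart fields of `CtxE` -/

section Maps

variable {R E F F' : Type*} [CommRing R] [Field E] [Algebra R E]
  [Field F] [Algebra E F] [Algebra R F] [IsScalarTower R E F]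
  [Field F'] [Algebra E F'] [Algebra R F'] [IsScalarTower R E F']
  {Φ : Polynomial (Polynomial ℤ)} {s : ℕ → F} {s' : ℕ → F'} {n : ℕ}

/-- **`chart_α`** for chains: `α (s' k) = s k` (`k ≤ n`), `x' = ∏_{k ≤ n} s' k`,
`x = ∏_{k ≤ n + 1} s k`. -/
theorem chart_α_chain (h : ChainEq Φ s (n + 1)) (α : F' →ₐ[E] F)
    (hα : ∀ k ≤ n, α (s' k) = s k) :
    ∀ b ∈ chart R ({chainProd s' n} : Set F'),
      α b ∈ chart R ({chainProd s (n + 1)} : Set F) := by
  apply S36.Mod3.H189.chart_map
  have e1 : α (chainProd s' n) = ∏ k ∈ Finset.range (n + 1), s k := by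
    unfold chainProd
    rw [map_prod]
    exact Finset.prod_congr rfl fun k hk =>
      hα k (Nat.lt_succ_iff.mp (Finset.mem_range.mp hk))
  rw [e1]
  exact h.prod_mem_chart (R := R) _ fun k hk =>
    Nat.le_succ_of_le (Nat.lt_succ_iff.mp (Finset.mem_range.mp hk))

/-- **`chart_β`** for chains: `β (s' k) = s (k + 1)` (`k ≤ n`). -/
theorem chart_β_chain (h : ChainEq Φ s (n + 1)) (β : F' →ₐ[E] F)
    (hβ : ∀ k ≤ n, β (s' k) = s (k + 1)) :
    ∀ b ∈ chart R ({chainProd s' n} : Set F'),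
      β b ∈ chart R ({chainProd s (n + 1)} : Set F) := by
  apply S36.Mod3.H189.chart_map
  have e1 : β (chainProd s' n) = ∏ k ∈ Finset.range (n + 1), s (k + 1) := by
    unfold chainProd
    rw [map_prod]
    exact Finset.prod_congr rfl fun k hk =>
      hβ k (Nat.lt_succ_iff.mp (Finset.mem_range.mp hk))
  rw [e1]
  exact prod_mem fun k hk =>
    h.mem_chart (R := R) (k + 1) (Nat.succ_le_succ (Nat.lt_succ_iff.mp (Finset.mem_range.mp hk)))

/-- **`int_α`** for chains: `x = α x' · s (n + 1)` and `s (n + 1)` is integral over `α (s' n)`. -/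
theorem int_α_chain (h : ChainEq Φ s (n + 1)) (h' : ChainEq Φ s' n) (α : F' →ₐ[E] F)
    (hα : ∀ k ≤ n, α (s' k) = s k) :
    ∀ b ∈ chart R ({chainProd s (n + 1)} : Set F), ∃ p : Polynomial F', p.Monic ∧
      (∀ i, p.coeff i ∈ chart R ({chainProd s' n} : Set F')) ∧
      (p.map (α : F' →+* F)).eval b = 0 := by
  apply S36.Mod3.H189.int_map
  have hx : chainProd s (n + 1) = α (chainProd s' n) * s (n + 1) := by
    rw [chainProd_succ]
    congr 1
    unfold chainProd
    rw [map_prod]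
    exact Finset.prod_congr rfl fun k hk =>
      (hα k (Nat.lt_succ_iff.mp (Finset.mem_range.mp hk))).symm
  rw [hx]
  have h1 : α (chainProd s' n) ∈ S36.Mod3.H189.imgChart (R := R) α (chainProd s' n) :=
    S36.Mod3.H189.mem_imgChart.mpr ⟨chainProd s' n, mem_chart_of_mem rfl, rfl⟩
  have h2 : s n ∈ S36.Mod3.H189.imgChart (R := R) α (chainProd s' n) :=
    S36.Mod3.H189.mem_imgChart.mpr ⟨s' n, h'.mem_chart (R := R) n le_rfl, hα n le_rfl⟩
  exact (isIntegral_algebraMap
    (R := S36.Mod3.H189.imgChart (R := R) α (chainProd s' n)) (x := ⟨_, h1⟩)).mul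
    (S36.Mod3.H189.isIntegral_of_monic_eval₂ Φ h.monic (h.down n (Nat.lt_succ_self n)) h2)

/-- **`int_β`** for chains: `x = s 0 · β x'` and `s 0` is integral over `s 1 = β (s' 0)`. -/
theorem int_β_chain (h : ChainEq Φ s (n + 1)) (h' : ChainEq Φ s' n) (β : F' →ₐ[E] F)
    (hβ : ∀ k ≤ n, β (s' k) = s (k + 1)) :
    ∀ b ∈ chart R ({chainProd s (n + 1)} : Set F), ∃ p : Polynomial F', p.Monic ∧
      (∀ i, p.coeff i ∈ chart R ({chainProd s' n} : Set F')) ∧
      (p.map (β : F' →+* F)).eval b = 0 := by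
  apply S36.Mod3.H189.int_map
  have hx : chainProd s (n + 1) = s 0 * β (chainProd s' n) := by
    rw [chainProd_succ']
    congr 1
    unfold chainProd
    rw [map_prod]
    exact Finset.prod_congr rfl fun k hk =>
      (hβ k (Nat.lt_succ_iff.mp (Finset.mem_range.mp hk))).symm
  rw [hx]
  have h1 : β (chainProd s' n) ∈ S36.Mod3.H189.imgChart (R := R) β (chainProd s' n) :=
    S36.Mod3.H189.mem_imgChart.mpr ⟨chainProd s' n, mem_chart_of_mem rfl, rfl⟩
  have h2 : s 1 ∈ S36.Mod3.H189.imgChart (R := R) β (chainProd s' n) :=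
    S36.Mod3.H189.mem_imgChart.mpr ⟨s' 0, h'.mem_chart (R := R) 0 (Nat.zero_le n),
      hβ 0 (Nat.zero_le n)⟩
  exact (S36.Mod3.H189.isIntegral_of_monic_eval₂ Φ h.monic (h.up 0 (Nat.succ_pos n)) h2).mul
    (isIntegral_algebraMap
      (R := S36.Mod3.H189.imgChart (R := R) β (chainProd s' n)) (x := ⟨_, h1⟩))

end Maps

end Fermat.Agent.S45.H715

end

end
-- ===== PACK-END S45/H715/ChainAbs.lean

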