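import Mathlib
import Fermat.Agent.Pack.S43MC.G0E9L0
import Fermat.Agent.Pack.S43MC.G0E18L2
import Fermat.Agent.Pack.S44C.G0E3L3
import Fermat.Agent.Pack.S43MC.G0E17L1
import Fermat.Agent.Pack.S59C.E16L0

set_option linter.all false

-- ===== PACK-BEGIN S45/H693/EisPure.lean
section



/-!
# S45 / CAR3 (helper693): the UNIQUE extension of a discrete valuation in a purely Eisenstein
simple extension (the WILD step `e = n`, `f = 1` of the model of level `q ^ e`)

Mathlib-only (+ `H48.IsUnif` and the generic lemmas of `S36/H972/{LocVal, EisSplit}`).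
`O ⊆ K` a discrete valuation ring with uniformiser `ϖ` (elementwise: `IsUnif O ϖ` + `arch`),
`L = K(y)` finite over `K`, `Ψ ∈ O[X]` the minimal polynomial of `y`, and

  `Ψ = (X - c) ^ n + ϖ G`,  `G(c) ∈ Oˣ`,  `n ≥ 1`.

Then `L` has EXACTLY ONE valuation subring `V` over `O`:

* `π := y - c` is a uniformiser of `V`, `π ^ n = ϖ · unit` (ramification index `n`);
* residue degree `1`: every `f ∈ V` is congruent modulo `π V` to an element of `O`.

Application (memo helper441, sec. 2): level `q ^ e M'` over level `q ^ (e - 1) M'`, component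
`(a, b)` over `(a, b - 1)` with `a ≥ b ≥ 2`: `y = s_e`, `c = s_(a - b)`, `n = q`,
`Ψ = Φ_q(s_(e-1), Y) / (Y - s_(e-2))`, `ϖ = s_(e-1) - s_(a-b+1)`.

This is the companion of `S36.H972.exists_two_extensions` (split + Eisenstein `q - 1`).
-/

set_option autoImplicit false
set_option linter.style.haveILetI false
set_option linter.unusedSectionVars false

noncomputable section

namespace Fermat.Agent.S45.H693

open Fermat.Agent.A2.H48 Fermat.Agent.S36.H972 Polynomial

variable {K L : Type*} [Field K] [Field L] [Algebra K L]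
variable {O : ValuationSubring K} {y : L} {ϖ : K}

/-- Hypotheses of the pure Eisenstein theorem. -/
structure EisPureData (O : ValuationSubring K) (ϖ : K) (y : L) (Ψ G : O[X]) (c : O) (n : ℕ) :
    Prop where
  unif : IsUnif O ϖ
  arch : ∀ a : K, ∃ k : ℕ, ϖ ^ k * a ∈ O
  monic : Ψ.Monic
  minpoly_eq : minpoly K y = Ψ.map O.subtype
  gen : ∀ f : L, ∃ P : K[X], Polynomial.aeval y P = f
  pos : 1 ≤ n
  dec : Ψ = (Polynomial.X - Polynomial.C c) ^ n + Polynomial.C ⟨ϖ, unif.mem⟩ * G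
  unit_G : IsUnit (G.eval c)

namespace EisPureData

variable {Ψ G : O[X]} {c : O} {n : ℕ} (h : EisPureData O ϖ y Ψ G c n)

/-- The uniformiser of `O` as an element of `O`. -/
abbrev pi₀ : O := ⟨ϖ, h.unif.mem⟩

include h

theorem isNoetherianRing : IsNoetherianRing (adjoinRing O y) := by
  haveI := isDiscreteValuationRing_of_isUnif h.unif h.arch
  exact isNoetherianRing_of_surjective O[X] _ (evS O y) (evS_surjective O y)

theorem eval_c : Ψ.eval c = h.pi₀ * G.eval c := by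
  conv_lhs => rw [h.dec]
  have hn : n ≠ 0 := by have := h.pos; omega
  simp [hn]

theorem eval_c_mem : ((Ψ.eval c : O) : K) * ϖ⁻¹ ∈ O := by
  rw [h.eval_c]
  push_cast
  have : ϖ * ((G.eval c : O) : K) * ϖ⁻¹ = ((G.eval c : O) : K) := by
    have := h.unif.ne_zero
    field_simp
  rw [this]
  exact (G.eval c).2

theorem isMaximal_c : (maxAt O y ϖ c).IsMaximal :=
  isMaximal_maxAt h.unif h.monic h.minpoly_eq h.eval_c_mem

theorem notMem_of_isUnit {P : O[X]} (hP : IsUnit (P.eval c)) :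
    evS O y P ∉ maxAt O y ϖ c := by
  rw [evS_mem_maxAt_iff h.monic h.minpoly_eq h.eval_c_mem]
  intro hmem
  apply h.unif.inv_not_mem
  have hu := inv_mem_of_isUnit hP
  have hu0 : ((P.eval c : O) : K) ≠ 0 := by
    intro h0
    exact hP.ne_zero (Subtype.ext h0)
  have : ϖ⁻¹ = (((P.eval c : O) : K) * ϖ⁻¹) * ((P.eval c : O) : K)⁻¹ := by field_simp
  rw [this]
  exact mul_mem hmem hu

theorem rel : evS O y (Polynomial.X - Polynomial.C c) ^ n +
    evS O y (Polynomial.C h.pi₀) * evS O y G = 0 := by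
  have h0 : evS O y Ψ = 0 := by
    apply Subtype.ext
    rw [coe_evS, eval₂_phi_eq_aeval, ← h.minpoly_eq, minpoly.aeval]
    rfl
  have h1 := h0
  rw [h.dec, map_add, map_mul, map_pow] at h1
  exact h1

theorem G_notMem : evS O y G ∉ maxAt O y ϖ c :=
  h.notMem_of_isUnit h.unit_G

theorem evS_pi₀_ne_zero : evS O y (Polynomial.C h.pi₀) ≠ 0 := by
  intro h0
  have h1 := congrArg (fun s : adjoinRing O y => (s : L)) h0
  simp only [coe_evS_C] at h1
  exact (map_ne_zero (algebraMap K L)).2 h.unif.ne_zero (by simpa using h1)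

theorem evS_pi₀_mem : evS O y (Polynomial.C h.pi₀) ∈ maxAt O y ϖ c := by
  have := evS_C_mem_maxAt (y := y) h.unif c 1
  rwa [mul_one] at this

theorem evS_pi_ne_zero : evS O y (Polynomial.X - Polynomial.C c) ≠ 0 := by
  intro h0
  have hrel := h.rel
  rw [h0, zero_pow (by have := h.pos; omega), zero_add] at hrel
  rcases mul_eq_zero.1 hrel with h1 | h1
  · exact h.evS_pi₀_ne_zero h1
  · apply h.G_notMem
    rw [h1]
    exact (maxAt O y ϖ c).zero_mem

/-- `𝔪_c O[y]_{𝔪_c} = (y - c) O[y]_{𝔪_c}`. -/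
theorem locGen_c :
    LocGen (adjoinRing O y) (maxAt O y ϖ c) (evS O y (Polynomial.X - Polynomial.C c)) where
  mem := evS_X_sub_C_mem_maxAt c
  ne_zero := h.evS_pi_ne_zero
  gen := by
    intro s hs
    obtain ⟨s₁, s₂, rfl⟩ := exists_decomp_of_mem_maxAt h.unif hs
    obtain ⟨m, hm⟩ : ∃ m, n = m + 1 := ⟨n - 1, by have := h.pos; omega⟩
    refine ⟨evS O y G, evS O y G * s₂ - evS O y (Polynomial.X - Polynomial.C c) ^ m * s₁,
      h.G_notMem, ?_⟩
    have hrel := h.rel
    have h2 : evS O y (Polynomial.C h.pi₀) * evS O y G =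
        - (evS O y (Polynomial.X - Polynomial.C c) ^ n) := eq_neg_of_add_eq_zero_right hrel
    calc (evS O y (Polynomial.C h.pi₀) * s₁ + evS O y (Polynomial.X - Polynomial.C c) * s₂) *
          evS O y G
        = (evS O y (Polynomial.C h.pi₀) * evS O y G) * s₁ +
          evS O y (Polynomial.X - Polynomial.C c) * s₂ * evS O y G := by ring
      _ = evS O y (Polynomial.X - Polynomial.C c) *
          (evS O y G * s₂ - evS O y (Polynomial.X - Polynomial.C c) ^ m * s₁) := by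
        rw [h2, hm, pow_succ]; ring

theorem isFracOf : IsFracOf (adjoinRing O y) := isFracOf_adjoinRing h.unif h.arch h.gen

/-- The totally ramified extension `V` (`y ≡ c`, uniformiser `y - c`). -/
def Vc : ValuationSubring L :=
  @locVal L _ (adjoinRing O y) (maxAt O y ϖ c) (evS O y (Polynomial.X - Polynomial.C c))
    h.isNoetherianRing h.isMaximal_c h.locGen_c h.isFracOf

/-! ### Properties of `V` -/

theorem coe_pi₀ : ((evS O y (Polynomial.C h.pi₀) : adjoinRing O y) : L) = algebraMap K L ϖ :=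
  coe_evS_C _

theorem mem_Vc_iff {f : L} :
    f ∈ h.Vc ↔ ∃ s t : adjoinRing O y, t ∉ maxAt O y ϖ c ∧ f * (t : L) = (s : L) :=
  @mem_locVal_iff L _ _ _ _ h.isNoetherianRing h.isMaximal_c h.locGen_c h.isFracOf f

theorem isUnif_Vc : IsUnif h.Vc (y - algebraMap K L (c : K)) := by
  have := @isUnif_locVal L _ _ _ _ h.isNoetherianRing h.isMaximal_c h.locGen_c h.isFracOf
  rwa [coe_evS_X_sub_C] at this

theorem coe_mem_Vc (s : adjoinRing O y) : (s : L) ∈ h.Vc :=
  @coe_mem_locVal L _ _ _ _ h.isNoetherianRing h.isMaximal_c h.locGen_c h.isFracOf s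

theorem y_mem_Vc : y ∈ h.Vc := by
  have := h.coe_mem_Vc (evS O y Polynomial.X)
  rwa [coe_evS, Polynomial.eval₂_X] at this

/-- `(y - c) ^ n = ϖ · unit` in `V`. -/
theorem exists_unit_Vc :
    ∃ u : L, u ∈ h.Vc ∧ u⁻¹ ∈ h.Vc ∧ (y - algebraMap K L (c : K)) ^ n = algebraMap K L ϖ * u := by
  have hG := @inv_mem_locVal_of_notMem L _ _ _ _ h.isNoetherianRing h.isMaximal_c h.locGen_c
    h.isFracOf _ h.G_notMem
  have hG0 : ((evS O y G : adjoinRing O y) : L) ≠ 0 :=
    @coe_ne_zero_of_notMem L _ _ _ h.isNoetherianRing h.isMaximal_c _ h.G_notMem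
  have hrel := congrArg (fun s : adjoinRing O y => (s : L)) h.rel
  simp only [Subring.coe_add, Subring.coe_mul, Subring.coe_pow, Subring.coe_zero] at hrel
  rw [h.coe_pi₀, coe_evS_X_sub_C c] at hrel
  refine ⟨-((evS O y G : adjoinRing O y) : L), neg_mem (h.coe_mem_Vc _), ?_, ?_⟩
  · rw [inv_neg]
    exact neg_mem hG
  · rw [eq_neg_of_add_eq_zero_left hrel]
    ring

theorem algebraMap_mem_Vc_iff (k : K) : algebraMap K L k ∈ h.Vc ↔ k ∈ O := by
  constructor
  · intro hk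
    by_contra hkO
    have hk0 : k ≠ 0 := by
      rintro rfl
      exact hkO (zero_mem _)
    have h1 : k⁻¹ ∈ O := (O.mem_or_inv_mem k).resolve_left hkO
    have h2 : k⁻¹ * ϖ⁻¹ ∈ O := h.unif.gen _ h1 (by rwa [inv_inv])
    have h3 : evS O y (Polynomial.C (h.pi₀ * ⟨k⁻¹ * ϖ⁻¹, h2⟩)) ∈ maxAt O y ϖ c :=
      evS_C_mem_maxAt h.unif c _
    have h4 : ((evS O y (Polynomial.C (h.pi₀ * ⟨k⁻¹ * ϖ⁻¹, h2⟩)) : adjoinRing O y) : L) =
        (algebraMap K L k)⁻¹ := by
      rw [coe_evS_C, ← map_inv₀]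
      congr 1
      push_cast
      have := h.unif.ne_zero
      field_simp
    have h5 : evS O y (Polynomial.C (h.pi₀ * ⟨k⁻¹ * ϖ⁻¹, h2⟩)) ≠ 0 := by
      intro h0
      rw [h0] at h4
      have : (algebraMap K L k)⁻¹ = 0 := by rw [← h4]; rfl
      rw [inv_eq_zero] at this
      exact (map_ne_zero (algebraMap K L)).2 hk0 this
    have h6 := @inv_notMem_locVal_of_mem L _ _ _ _ h.isNoetherianRing h.isMaximal_c h.locGen_c
      h.isFracOf _ h3 h5
    rw [h4, inv_inv] at h6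
    exact h6 hk
  · intro hk
    have := h.coe_mem_Vc (evS O y (Polynomial.C ⟨k, hk⟩))
    rwa [coe_evS_C] at this

/-- Residue degree one at `V`. -/
theorem residue_Vc {f : L} (hf : f ∈ h.Vc) :
    ∃ g ∈ O, (f - algebraMap K L g) * (y - algebraMap K L (c : K))⁻¹ ∈ h.Vc := by
  obtain ⟨s, hs⟩ := @exists_sub_mem_locVal L _ _ _ _ h.isNoetherianRing h.isMaximal_c h.locGen_c
    h.isFracOf f hf
  obtain ⟨P, rfl⟩ := evS_surjective O y s
  refine ⟨(P.eval c : O), (P.eval c).2, ?_⟩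
  have h1 : evS O y (P - Polynomial.C (P.eval c)) ∈ maxAt O y ϖ c := by
    apply evS_mem_maxAt_of
    simp
  have h2 := @mul_inv_mem_locVal_of_mem L _ _ _ _ h.isNoetherianRing h.isMaximal_c h.locGen_c
    h.isFracOf _ h1
  have h3 : ((evS O y (P - Polynomial.C (P.eval c)) : adjoinRing O y) : L) =
      ((evS O y P : adjoinRing O y) : L) - algebraMap K L ((P.eval c : O) : K) := by
    rw [map_sub, AddSubgroupClass.coe_sub, coe_evS_C]
  rw [h3, coe_evS_X_sub_C] at h2
  rw [coe_evS_X_sub_C] at hs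
  have h4 : (f - algebraMap K L ((P.eval c : O) : K)) * (y - algebraMap K L (c : K))⁻¹ =
      (f - ((evS O y P : adjoinRing O y) : L)) * (y - algebraMap K L (c : K))⁻¹ +
        (((evS O y P : adjoinRing O y) : L) - algebraMap K L ((P.eval c : O) : K)) *
          (y - algebraMap K L (c : K))⁻¹ := by
    ring
  rw [h4]
  exact add_mem hs h2

theorem y_mem_of_le (V' : ValuationSubring L)
    (hV' : ∀ k : K, algebraMap K L k ∈ V' ↔ k ∈ O) : y ∈ V' := by
  let ψ : O →+* V' := (phi O).codRestrict V' (fun a => (hV' _).2 a.2)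
  have hint : IsIntegral V' y := by
    refine ⟨Ψ.map ψ, h.monic.map ψ, ?_⟩
    rw [Polynomial.eval₂_map]
    have hcomp : (algebraMap V' L).comp ψ = phi O := by
      ext a
      rfl
    rw [hcomp, eval₂_phi_eq_aeval, ← h.minpoly_eq, minpoly.aeval]
  obtain ⟨z, hz⟩ := IsIntegrallyClosed.isIntegral_iff.1 hint
  rw [← hz]
  exact z.2

theorem coe_mem_of_le (V' : ValuationSubring L)
    (hV' : ∀ k : K, algebraMap K L k ∈ V' ↔ k ∈ O) (s : adjoinRing O y) : (s : L) ∈ V' := by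
  have hy := h.y_mem_of_le V' hV'
  obtain ⟨P, rfl⟩ := evS_surjective O y s
  rw [coe_evS]
  induction P using Polynomial.induction_on' with
  | add p q hp hq =>
    rw [Polynomial.eval₂_add]
    exact add_mem hp hq
  | monomial n a =>
    rw [Polynomial.eval₂_monomial]
    exact mul_mem ((hV' _).2 a.2) (pow_mem hy n)

/-- **Uniqueness**: `V` is the only valuation subring of `L` over `O`. -/
theorem eq_Vc (V' : ValuationSubring L)
    (hV' : ∀ k : K, algebraMap K L k ∈ V' ↔ k ∈ O) : V' = h.Vc := by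
  have hS := h.coe_mem_of_le V' hV'
  have hϖ : V'.valuation (algebraMap K L ϖ) < 1 := by
    apply EisData.val_lt_one_of_inv_notMem ((hV' _).2 h.unif.mem)
    rw [← map_inv₀, hV']
    exact h.unif.inv_not_mem
  have hrel := congrArg (fun s : adjoinRing O y => (s : L)) h.rel
  simp only [Subring.coe_add, Subring.coe_mul, Subring.coe_pow, Subring.coe_zero] at hrel
  rw [h.coe_pi₀] at hrel
  set π : L := ((evS O y (Polynomial.X - Polynomial.C c) : adjoinRing O y) : L) with hπ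
  set g : L := ((evS O y G : adjoinRing O y) : L) with hg
  have hπV : V'.valuation π ≤ 1 := (V'.valuation_le_one_iff _).2 (hS _)
  have hgV : V'.valuation g ≤ 1 := (V'.valuation_le_one_iff _).2 (hS _)
  have hprod : V'.valuation π ^ n < 1 := by
    have h1 : π ^ n = -(algebraMap K L ϖ * g) := eq_neg_of_add_eq_zero_left hrel
    have h2 : V'.valuation (π ^ n) = V'.valuation (algebraMap K L ϖ) * V'.valuation g := by
      rw [h1, Valuation.map_neg, map_mul]
    rw [map_pow] at h2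
    rw [h2]
    calc V'.valuation (algebraMap K L ϖ) * V'.valuation g
        ≤ V'.valuation (algebraMap K L ϖ) * 1 := mul_le_mul_right hgV _
      _ < 1 := by rw [mul_one]; exact hϖ
  have hπ1 : V'.valuation π < 1 := by
    by_contra hcon
    rw [not_lt] at hcon
    have h2 : V'.valuation π = 1 := le_antisymm hπV hcon
    rw [h2, one_pow] at hprod
    exact lt_irrefl _ hprod
  refine @eq_locVal_of_le L _ _ _ _ h.isNoetherianRing h.isMaximal_c h.locGen_c h.isFracOf V' hS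
    ?_
  intro s hs hs0
  obtain ⟨s₁, s₂, rfl⟩ := exists_decomp_of_mem_maxAt h.unif hs
  apply EisData.inv_notMem_of_val_lt_one (fun h0 => hs0 (Subtype.ext h0))
  push_cast
  rw [h.coe_pi₀, ← hπ]
  apply Valuation.map_add_lt
  · rw [map_mul]
    calc V'.valuation (algebraMap K L ϖ) * V'.valuation (s₁ : L)
        ≤ V'.valuation (algebraMap K L ϖ) * 1 :=
          mul_le_mul_right ((V'.valuation_le_one_iff _).2 (hS _)) _
      _ < 1 := by rw [mul_one]; exact hϖ
  · rw [map_mul]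
    calc V'.valuation π * V'.valuation (s₂ : L)
        ≤ V'.valuation π * 1 :=
          mul_le_mul_right ((V'.valuation_le_one_iff _).2 (hS _)) _
      _ < 1 := by rw [mul_one]; exact hπ1

end EisPureData

/-- **Pure Eisenstein theorem** (packaged form): the wild step `e = n`, `f = 1`. -/
theorem exists_unique_extension {Ψ G : O[X]} {c : O} {n : ℕ}
    (h : EisPureData O ϖ y Ψ G c n) :
    ∃ V : ValuationSubring L,
      (∀ k : K, algebraMap K L k ∈ V ↔ k ∈ O) ∧
      y ∈ V ∧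
      IsUnif V (y - algebraMap K L (c : K)) ∧
      (∃ u : L, u ∈ V ∧ u⁻¹ ∈ V ∧
        (y - algebraMap K L (c : K)) ^ n = algebraMap K L ϖ * u) ∧
      (∀ f ∈ V, ∃ g ∈ O, (f - algebraMap K L g) * (y - algebraMap K L (c : K))⁻¹ ∈ V) ∧
      (∀ V' : ValuationSubring L, (∀ k : K, algebraMap K L k ∈ V' ↔ k ∈ O) → V' = V) :=
  ⟨h.Vc, h.algebraMap_mem_Vc_iff, h.y_mem_Vc, h.isUnif_Vc, h.exists_unit_Vc,
    fun _ hf => h.residue_Vc hf, h.eq_Vc⟩

/-! ### Producing the hypotheses from a congruence `Ψ ≡ (X - c) ^ n mod ϖ` -/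

/-- If all coefficients of `D` are divisible by `ϖ`, then `D = ϖ G`. -/
theorem exists_eq_C_mul_of_coeff (hO : IsUnif O ϖ) (D : O[X])
    (hD : ∀ i, ((D.coeff i : O) : K) * ϖ⁻¹ ∈ O) :
    ∃ G : O[X], D = Polynomial.C ⟨ϖ, hO.mem⟩ * G := by
  classical
  refine ⟨∑ i ∈ D.support, Polynomial.monomial i (⟨((D.coeff i : O) : K) * ϖ⁻¹, hD i⟩ : O), ?_⟩
  ext j
  rw [Polynomial.coeff_C_mul, Polynomial.finset_sum_coeff]
  simp only [Polynomial.coeff_monomial]
  rw [Finset.sum_ite_eq' D.support j]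
  have hϖ0 : ϖ ≠ 0 := hO.ne_zero
  by_cases hj : j ∈ D.support
  · rw [if_pos hj]
    push_cast
    field_simp
  · rw [if_neg hj, Polynomial.notMem_support_iff.1 hj]
    simp

/-- **Eisenstein at `c`**, from a coefficientwise congruence `Ψ ≡ (X - c) ^ n mod ϖ` and
`Ψ(c) = ϖ · unit`. -/
theorem exists_eisPureData_of_congr (hO : IsUnif O ϖ) (harch : ∀ a : K, ∃ k : ℕ, ϖ ^ k * a ∈ O)
    {Ψ : O[X]} {c : O} {n : ℕ} (hΨ : Ψ.Monic) (hmin : minpoly K y = Ψ.map O.subtype)
    (hgen : ∀ f : L, ∃ P : K[X], Polynomial.aeval y P = f) (hn : 1 ≤ n)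
    (hcong : ∀ i, (((Ψ - (Polynomial.X - Polynomial.C c) ^ n).coeff i : O) : K) * ϖ⁻¹ ∈ O)
    (hc0 : ((Ψ.eval c : O) : K) ≠ 0) (hc : ϖ * ((Ψ.eval c : O) : K)⁻¹ ∈ O) :
    ∃ G : O[X], EisPureData O ϖ y Ψ G c n := by
  obtain ⟨G, hG⟩ := exists_eq_C_mul_of_coeff hO _ hcong
  have hdec : Ψ = (Polynomial.X - Polynomial.C c) ^ n + Polynomial.C ⟨ϖ, hO.mem⟩ * G := by
    rw [← hG]; ring
  have hn0 : n ≠ 0 := by omega
  have heval : Ψ.eval c = ⟨ϖ, hO.mem⟩ * G.eval c := by
    conv_lhs => rw [hdec]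
    simp [hn0]
  have hϖ0 : ϖ ≠ 0 := hO.ne_zero
  have hevalK : ((Ψ.eval c : O) : K) = ϖ * ((G.eval c : O) : K) := by
    rw [heval]; rfl
  have hG0 : ((G.eval c : O) : K) ≠ 0 := by
    intro h0
    rw [h0, mul_zero] at hevalK
    exact hc0 hevalK
  have hGinv : ((G.eval c : O) : K)⁻¹ ∈ O := by
    have : ((G.eval c : O) : K)⁻¹ = ϖ * ((Ψ.eval c : O) : K)⁻¹ := by
      rw [hevalK]
      field_simp
    rw [this]
    exact hc
  exact ⟨G, ⟨hO, harch, hΨ, hmin, hgen, hn, hdec, isUnit_of_inv_mem hG0 hGinv⟩⟩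

end Fermat.Agent.S45.H693

end

end
-- ===== PACK-END S45/H693/EisPure.lean

-- ===== PACK-BEGIN S45/H693/KronWild.lean
section



/-!
# S45 / CAR3 (helper693): the WILD step is Eisenstein — abstract Kronecker + Taylor computation

Mathlib-only (+ `H48.IsUnif`).  `O ⊆ K` a valuation ring with uniformiser `ϖ`, residue
characteristic `p`.  `Φ ∈ ℤ[Y][X]` with the Kronecker congruence
`Φ = (X ^ p - Y) (X - Y ^ p) + p Θ` (`S28.h88_kronecker_int`).  Elements `x, x', d, z ∈ O` with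

* `x - x' = ϖ`,
* `Φ(X := d, Y := x') = 0`                       (`d`, `x'` are `p`-isogenous),
* `Φ(X, Y := x) = (X - z) Ψ`                     (`z` is the "old" root),
* `z ≡ x ^ p`, `x' ≡ d ^ p` modulo `ϖ`, and `d ^ (p ^ 2) - d` a unit.

Then `Ψ ≡ (X - d) ^ p` modulo `ϖ` (coefficientwise) and `Ψ(d) = ϖ · unit`: the inputs of
`exists_eisPureData_of_congr` (file `EisPure.lean`).

Application (memo helper441 sec. 2, board CAR3 sec. 2): level `q ^ l` below, component `(a, b - 1)`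
with `a ≥ b ≥ 2`, `l = a + b - 1`: `x = s_l`, `x' = s_(a-b+1)`, `d = s_(a-b)`, `z = s_(l-1)`,
`ϖ = s_l - s_(a-b+1)` (the uniformiser produced by the previous step), `Ψ` = minimal polynomial of
`s_(l+1)`.
-/

set_option autoImplicit false
set_option linter.style.haveILetI false
set_option linter.unusedSectionVars false

noncomputable section

namespace Fermat.Agent.S45.H693

open Fermat.Agent.A2.H48 Polynomial

section Residue

variable {K : Type*} [Field K] {O : ValuationSubring K} {ϖ : K}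

/-- The residue of `a ∈ O` vanishes iff `ϖ` divides `a`. -/
theorem residue_eq_zero_iff_mul_inv_mem (hO : IsUnif O ϖ) (a : O) :
    IsLocalRing.residue O a = 0 ↔ (a : K) * ϖ⁻¹ ∈ O := by
  rw [IsLocalRing.residue_eq_zero_iff, hO.mul_inv_mem_iff]
  exact ValuationSubring.valuation_lt_one_iff O a

/-- An element with nonzero residue is a unit. -/
theorem inv_mem_of_residue_ne_zero {a : O} (ha : IsLocalRing.residue O a ≠ 0) :
    (a : K) ≠ 0 ∧ (a : K)⁻¹ ∈ O := by
  have hu : IsUnit a := by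
    by_contra hu
    exact ha ((IsLocalRing.residue_eq_zero_iff a).2 ((IsLocalRing.mem_maximalIdeal a).2 hu))
  refine ⟨fun h0 => hu.ne_zero (Subtype.ext h0), Fermat.Agent.S36.H972.inv_mem_of_isUnit hu⟩

/-- A unit has nonzero residue. -/
theorem residue_ne_zero_of_inv_mem {a : O} (ha0 : (a : K) ≠ 0) (ha : (a : K)⁻¹ ∈ O) :
    IsLocalRing.residue O a ≠ 0 := by
  intro h0
  have hu : IsUnit a := Fermat.Agent.S36.H972.isUnit_of_inv_mem ha0 ha
  exact ((IsLocalRing.mem_maximalIdeal a).1 ((IsLocalRing.residue_eq_zero_iff a).1 h0)) hu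

end Residue

section Spec

variable {A : Type*} [CommRing A]

/-- `ℤ[Y] → A`, `Y ↦ b`. -/
abbrev evY (b : A) : Polynomial ℤ →+* A := Polynomial.eval₂RingHom (Int.castRingHom A) b

/-- `ℤ[Y][X] → A[Y]`, `X ↦ d` (constant), `Y ↦ Y`. -/
abbrev spX (d : A) : Polynomial (Polynomial ℤ) →+* Polynomial A :=
  Polynomial.eval₂RingHom (Polynomial.mapRingHom (Int.castRingHom A)) (Polynomial.C d)

theorem eval_spX (d b : A) (Φ : Polynomial (Polynomial ℤ)) :
    (spX d Φ).eval b = Φ.eval₂ (evY b) d := by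
  have h : (Polynomial.evalRingHom b).comp (spX d) = Polynomial.eval₂RingHom (evY b) d := by
    apply Polynomial.ringHom_ext
    · intro c
      simp [Polynomial.eval_map]
    · simp
  exact congrArg (fun f : Polynomial (Polynomial ℤ) →+* A => f Φ) h

theorem map_spX {B : Type*} [CommRing B] (f : A →+* B) (d : A) (Φ : Polynomial (Polynomial ℤ)) :
    (spX d Φ).map f = spX (f d) Φ := by
  have h : (Polynomial.mapRingHom f).comp (spX d) = spX (f d) := by
    apply Polynomial.ringHom_ext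
    · intro c
      simp [Polynomial.map_map, RingHom.ext_int (f.comp (Int.castRingHom A)) (Int.castRingHom B)]
    · simp
  exact congrArg (fun g : Polynomial (Polynomial ℤ) →+* Polynomial B => g Φ) h

theorem comp_evY {B : Type*} [CommRing B] (f : A →+* B) (b : A) :
    f.comp (evY b) = evY (f b) := by
  apply Polynomial.ringHom_ext
  · intro c
    simp
  · simp

end Spec

section Kron

variable {κ : Type*} [Field κ] (p : ℕ) [hp : Fact p.Prime] [CharP κ p]
variable {Φ Θ : Polynomial (Polynomial ℤ)}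

/-- Kronecker, specialised in `Y`. -/
theorem kron_map_evY
    (hKron : Φ = ((Polynomial.X : Polynomial (Polynomial ℤ)) ^ p
        - Polynomial.C (Polynomial.X : Polynomial ℤ))
      * (Polynomial.X - Polynomial.C ((Polynomial.X : Polynomial ℤ) ^ p))
      + Polynomial.C (Polynomial.C (p : ℤ)) * Θ) (b : κ) :
    Φ.map (evY b) = (Polynomial.X ^ p - Polynomial.C b) * (Polynomial.X - Polynomial.C (b ^ p)) := by
  rw [hKron]
  simp [CharP.cast_eq_zero]

/-- Kronecker, specialised in `X`. -/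
theorem kron_spX
    (hKron : Φ = ((Polynomial.X : Polynomial (Polynomial ℤ)) ^ p
        - Polynomial.C (Polynomial.X : Polynomial ℤ))
      * (Polynomial.X - Polynomial.C ((Polynomial.X : Polynomial ℤ) ^ p))
      + Polynomial.C (Polynomial.C (p : ℤ)) * Θ) (d : κ) :
    spX d Φ = (Polynomial.C (d ^ p) - Polynomial.X) * (Polynomial.C d - Polynomial.X ^ p) := by
  rw [hKron]
  simp [CharP.cast_eq_zero, Polynomial.eval₂_pow]

end Kron

section Main

variable {K : Type*} [Field K] {O : ValuationSubring K} {ϖ : K}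

/-- **The wild step is Eisenstein** (abstract form). -/
theorem kronWild (p : ℕ) (hp : p.Prime) (hO : IsUnif O ϖ) (hpO : ((p : ℕ) : K) * ϖ⁻¹ ∈ O)
    {Φ Θ : Polynomial (Polynomial ℤ)}
    (hKron : Φ = ((Polynomial.X : Polynomial (Polynomial ℤ)) ^ p
        - Polynomial.C (Polynomial.X : Polynomial ℤ))
      * (Polynomial.X - Polynomial.C ((Polynomial.X : Polynomial ℤ) ^ p))
      + Polynomial.C (Polynomial.C (p : ℤ)) * Θ)
    {x x' d z : O} {Ψ : Polynomial O}
    (hfac : Φ.map (evY x) = (Polynomial.X - Polynomial.C z) * Ψ)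
    (hrel : Φ.eval₂ (evY x') d = 0)
    (hx : (x : K) - (x' : K) = ϖ)
    (hz : ((z : K) - (x : K) ^ p) * ϖ⁻¹ ∈ O)
    (hx' : ((x' : K) - (d : K) ^ p) * ϖ⁻¹ ∈ O)
    (hd0 : (d : K) ^ (p ^ 2) - (d : K) ≠ 0)
    (hd : ((d : K) ^ (p ^ 2) - (d : K))⁻¹ ∈ O) :
    (∀ i, (((Ψ - (Polynomial.X - Polynomial.C d) ^ p).coeff i : O) : K) * ϖ⁻¹ ∈ O) ∧
      ((Ψ.eval d : O) : K) ≠ 0 ∧ ϖ * ((Ψ.eval d : O) : K)⁻¹ ∈ O := by
  classical
  haveI : Fact p.Prime := ⟨hp⟩
  have hϖ0 : ϖ ≠ 0 := hO.ne_zero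
  set res : O →+* IsLocalRing.ResidueField O := IsLocalRing.residue O with hres
  have hres0 : ∀ a : O, res a = 0 ↔ (a : K) * ϖ⁻¹ ∈ O :=
    fun a => residue_eq_zero_iff_mul_inv_mem hO a
  have hpκ : ((p : ℕ) : IsLocalRing.ResidueField O) = 0 := by
    have h1 : res ((p : ℕ) : O) = 0 := (hres0 _).2 (by push_cast; exact hpO)
    rwa [map_natCast] at h1
  haveI : CharP (IsLocalRing.ResidueField O) p := (CharP.charP_iff_prime_eq_zero hp).2 hpκ
  -- the congruences in the residue field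
  have hxx' : res x = res x' := by
    have h1 : res (x - x') = 0 := by
      rw [hres0]
      push_cast
      rw [hx, mul_inv_cancel₀ hϖ0]
      exact O.one_mem
    rw [map_sub, sub_eq_zero] at h1
    exact h1
  have hzb : res z = res x ^ p := by
    have h1 : res (z - x ^ p) = 0 := by
      rw [hres0]
      push_cast
      exact hz
    rw [map_sub, map_pow, sub_eq_zero] at h1
    exact h1
  have hx'b : res x' = res d ^ p := by
    have h1 : res (x' - d ^ p) = 0 := by
      rw [hres0]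
      push_cast
      exact hx'
    rw [map_sub, map_pow, sub_eq_zero] at h1
    exact h1
  have hδ : res d ^ (p ^ 2) - res d ≠ 0 := by
    have h1 : res (d ^ (p ^ 2) - d) ≠ 0 :=
      residue_ne_zero_of_inv_mem (a := d ^ (p ^ 2) - d) (by push_cast; exact hd0)
        (by push_cast; exact hd)
    rwa [map_sub, map_pow] at h1
  -- `Ψ ≡ X ^ p - x`
  have hΨb : Ψ.map res = Polynomial.X ^ p - Polynomial.C (res x) := by
    have h1 : (Φ.map (evY x)).map res =
        (Polynomial.X - Polynomial.C (res z)) * Ψ.map res := by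
      rw [hfac]
      simp
    rw [Polynomial.map_map, comp_evY, kron_map_evY p hKron, hzb] at h1
    have hne : (Polynomial.X - Polynomial.C (res x ^ p) :
        Polynomial (IsLocalRing.ResidueField O)) ≠ 0 := Polynomial.X_sub_C_ne_zero _
    refine (mul_left_cancel₀ hne ?_).symm
    rw [← h1]
    ring
  have hΨb' : Ψ.map res = (Polynomial.X - Polynomial.C (res d)) ^ p := by
    rw [hΨb, hxx', hx'b, sub_pow_char, ← Polynomial.C_pow]
  refine ⟨?_, ?_⟩
  · intro i
    rw [← hres0]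
    have h1 : (Ψ - (Polynomial.X - Polynomial.C d) ^ p).map res = 0 := by
      rw [Polynomial.map_sub, hΨb']
      simp
    have h2 : ((Ψ - (Polynomial.X - Polynomial.C d) ^ p).map res).coeff i = 0 := by
      rw [h1, Polynomial.coeff_zero]
    rwa [Polynomial.coeff_map] at h2
  · -- Taylor expansion of `g(Y) = Φ(d, Y)` at `x'`
    set g : Polynomial O := spX d Φ with hg
    have hgx' : g.eval x' = 0 := by rw [hg, eval_spX]; exact hrel
    have hgx : g.eval x = (d - z) * Ψ.eval d := by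
      rw [hg, eval_spX, ← Polynomial.eval_map]
      show (Φ.map (evY x)).eval d = _
      rw [hfac]
      simp
    set ϖ₀ : O := ⟨ϖ, hO.mem⟩ with hϖ₀
    have hxO : x = x' + ϖ₀ := by
      apply Subtype.ext
      show (x : K) = (x' : K) + ϖ
      rw [← hx]
      ring
    obtain ⟨k, hk⟩ := Polynomial.binomExpansion g x' ϖ₀
    rw [← hxO, hgx', hgx, zero_add] at hk
    set U : O := g.derivative.eval x' + k * ϖ₀ with hU
    have hkU : (d - z) * Ψ.eval d = ϖ₀ * U := by rw [hk, hU]; ring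
    have hϖ₀res : res ϖ₀ = 0 := by
      rw [hres0]
      show ϖ * ϖ⁻¹ ∈ O
      rw [mul_inv_cancel₀ hϖ0]
      exact O.one_mem
    -- the residue of `U`
    have hgb : g.map res = (Polynomial.C (res d ^ p) - Polynomial.X) *
        (Polynomial.C (res d) - Polynomial.X ^ p) := by
      rw [hg, map_spX, kron_spX p hKron]
    have hUres : res U = res d ^ (p ^ 2) - res d := by
      rw [hU, map_add, map_mul, hϖ₀res, mul_zero, add_zero]
      have h1 : res (g.derivative.eval x') = (g.map res).derivative.eval (res x') := by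
        rw [Polynomial.derivative_map, Polynomial.eval_map, Polynomial.eval₂_hom]
      rw [h1, hgb, hx'b]
      simp only [Polynomial.derivative_mul, Polynomial.derivative_sub, Polynomial.derivative_C,
        Polynomial.derivative_X, Polynomial.derivative_X_pow, CharP.cast_eq_zero,
        zero_mul, sub_zero, zero_sub, Polynomial.eval_add, Polynomial.eval_mul,
        Polynomial.eval_sub, Polynomial.eval_neg, Polynomial.eval_one, Polynomial.eval_C,
        Polynomial.eval_X, Polynomial.eval_pow, Polynomial.eval_zero, map_zero]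
      ring
    have hdz : res (d - z) = -(res d ^ (p ^ 2) - res d) := by
      rw [map_sub, hzb, hxx', hx'b]
      ring
    obtain ⟨hU0, hUinv⟩ := inv_mem_of_residue_ne_zero (a := U) (by rw [hUres]; exact hδ)
    obtain ⟨hdz0, hdzinv⟩ := inv_mem_of_residue_ne_zero (a := d - z)
      (by rw [hdz]; exact neg_ne_zero.2 hδ)
    have hK : ((d - z : O) : K) * ((Ψ.eval d : O) : K) = ϖ * (U : K) := by
      have := congrArg (fun a : O => (a : K)) hkU
      simpa using this
    have hΨd : ((Ψ.eval d : O) : K) = ϖ * (U : K) * ((d - z : O) : K)⁻¹ := by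
      rw [← hK]
      field_simp
    refine ⟨?_, ?_⟩
    · rw [hΨd]
      exact mul_ne_zero (mul_ne_zero hϖ0 hU0) (inv_ne_zero hdz0)
    · have h2 : ϖ * ((Ψ.eval d : O) : K)⁻¹ = ((d - z : O) : K) * (U : K)⁻¹ := by
        rw [hΨd]
        field_simp
      rw [h2]
      exact mul_mem (d - z).2 hUinv

/-- **The wild step** (abstract, packaged): under the hypotheses of `kronWild`, if `L = K(y)`
with `Ψ` the minimal polynomial of `y`, then `L` has exactly one valuation subring `V` over `O`;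
`y - d` is a uniformiser of `V`, `(y - d) ^ p = ϖ · unit`, and the residue degree is `1`. -/
theorem wild_step {L : Type*} [Field L] [Algebra K L] (p : ℕ) (hp : p.Prime)
    (hO : IsUnif O ϖ) (harch : ∀ a : K, ∃ k : ℕ, ϖ ^ k * a ∈ O)
    (hpO : ((p : ℕ) : K) * ϖ⁻¹ ∈ O)
    {Φ Θ : Polynomial (Polynomial ℤ)}
    (hKron : Φ = ((Polynomial.X : Polynomial (Polynomial ℤ)) ^ p
        - Polynomial.C (Polynomial.X : Polynomial ℤ))
      * (Polynomial.X - Polynomial.C ((Polynomial.X : Polynomial ℤ) ^ p))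
      + Polynomial.C (Polynomial.C (p : ℤ)) * Θ)
    {x x' d z : O} {Ψ : Polynomial O}
    (hfac : Φ.map (evY x) = (Polynomial.X - Polynomial.C z) * Ψ)
    (hrel : Φ.eval₂ (evY x') d = 0)
    (hx : (x : K) - (x' : K) = ϖ)
    (hz : ((z : K) - (x : K) ^ p) * ϖ⁻¹ ∈ O)
    (hx' : ((x' : K) - (d : K) ^ p) * ϖ⁻¹ ∈ O)
    (hd0 : (d : K) ^ (p ^ 2) - (d : K) ≠ 0)
    (hd : ((d : K) ^ (p ^ 2) - (d : K))⁻¹ ∈ O)
    {y : L} (hΨ : Ψ.Monic) (hmin : minpoly K y = Ψ.map O.subtype)
    (hgen : ∀ f : L, ∃ P : Polynomial K, Polynomial.aeval y P = f) :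
    ∃ V : ValuationSubring L,
      (∀ k : K, algebraMap K L k ∈ V ↔ k ∈ O) ∧
      y ∈ V ∧
      IsUnif V (y - algebraMap K L (d : K)) ∧
      (∃ u : L, u ∈ V ∧ u⁻¹ ∈ V ∧
        (y - algebraMap K L (d : K)) ^ p = algebraMap K L ϖ * u) ∧
      (∀ f ∈ V, ∃ g ∈ O, (f - algebraMap K L g) * (y - algebraMap K L (d : K))⁻¹ ∈ V) ∧
      (∀ V' : ValuationSubring L, (∀ k : K, algebraMap K L k ∈ V' ↔ k ∈ O) → V' = V) := by
  obtain ⟨hcong, hc0, hc⟩ := kronWild p hp hO hpO hKron hfac hrel hx hz hx' hd0 hd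
  obtain ⟨G, hG⟩ := exists_eisPureData_of_congr (y := y) hO harch hΨ hmin hgen hp.one_le hcong
    hc0 hc
  exact exists_unique_extension hG

end Main

end Fermat.Agent.S45.H693

end

end
-- ===== PACK-END S45/H693/KronWild.lean

-- ===== PACK-BEGIN S45/H972/EisSeriesD.lean
section


/-!
# S45 / CAR3, MOD-E (helper972): the formal split-Eisenstein input at EVERY level

`S36/H972/EisSeries.lean` records the split-Eisenstein shape of
`Ψ(Y) = Φ_q(J_q, Y) / (Y - J)` over `ℤ[J, J_q] ⊆ ℤ((t))`, `J = j(t)`.  Substituting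
`t ↦ t ^ d` (`qExpand ℤ d`, an injective ring endomorphism of `ℤ((t))` which commutes with the
reduction of the coefficients) gives the same shape for

  `Ψ_d(Y) = Φ_q(J_{dq}, Y) / (Y - J_d)`,   root `J_{dqq}`,   `J_n = j(t ^ n)`,

over `ℤ[J_d, J_{dq}]`.  For `d = q ^ (k - 1)` this is the minimal polynomial of `j_{q^(k+1)}` over
the function field of level `M q ^ k` (the step `e - 1 = k → e = k + 1`, component `(e - 1, 1)`).

* `jjRingD q d`            : the subring `ℤ[J_d, J_{dq}]`;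
* `EisSeriesD q d A Ψ G`   : the shape (fields as `EisSeries`);
* `EisSeries.expandD`      : `EisSeries q A Ψ G → EisSeriesD q d (A(t^d)) (Ψ(t^d)) (G(t^d))`;
* `exists_eisSeriesD`      : existence for every prime `q` and every `d ≥ 1`, with
                             `A = J_d ^ (q ^ 2)`.
-/

set_option autoImplicit false
set_option linter.unusedSectionVars false

noncomputable section

namespace Fermat.Agent.S45.H972

open Polynomial ModularCurve Fermat.Agent.S28 Fermat.Agent.S36.H972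

/-- The subring `ℤ[J_d, J_{dq}] ⊆ ℤ((t))`. -/
def jjRingD (q d : ℕ) [NeZero q] [NeZero d] : Subring (LaurentSeries ℤ) :=
  Subring.closure ({qExpand ℤ d (jqModC ℤ), qExpand ℤ (d * q) (jqModC ℤ)} :
    Set (LaurentSeries ℤ))

/-- The split-Eisenstein shape of `Ψ_d(Y) = Φ_q(J_{dq}, Y) / (Y - J_d)` over `ℤ((t))`. -/
structure EisSeriesD (q d : ℕ) [NeZero q] [NeZero d] (A : LaurentSeries ℤ)
    (Ψ G : (LaurentSeries ℤ)[X]) : Prop where
  monic : Ψ.Monic
  natDegree_eq : Ψ.natDegree = q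
  coeff_mem : ∀ i, Ψ.coeff i ∈ jjRingD q d
  root : Ψ.eval (qExpand ℤ (d * (q * q)) (jqModC ℤ)) = 0
  A_mem : A ∈ jjRingD q d
  A_cong : ∃ H : LaurentSeries ℤ,
    qExpand ℤ (d * (q * q)) (jqModC ℤ) - A = (q : LaurentSeries ℤ) * H
  A_unit : ∃ n : ℤ, ¬ (q : ℤ) ∣ (A - qExpand ℤ d (jqModC ℤ)).coeff n
  dec : Ψ = (X - C A) * (X - C (qExpand ℤ d (jqModC ℤ))) ^ (q - 1) +
    C (q : LaurentSeries ℤ) * G
  unit : ∃ n : ℤ, ¬ (q : ℤ) ∣ (G.eval (qExpand ℤ d (jqModC ℤ))).coeff n

section Expand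

variable (q d : ℕ) [NeZero q] [NeZero d]

/-- `t ↦ t ^ d` maps `ℤ[J, J_q]` into `ℤ[J_d, J_{dq}]`. -/
theorem qExpand_mem_jjRingD {g : LaurentSeries ℤ} (hg : g ∈ jjRing q) :
    qExpand ℤ d g ∈ jjRingD q d := by
  have hle : jjRing q ≤ (jjRingD q d).comap (qExpand ℤ d) := by
    rw [jjRing, Subring.closure_le]
    rintro x (rfl | rfl)
    · exact Subring.subset_closure (by simp)
    · show qExpand ℤ d (qExpand ℤ q (jqModC ℤ)) ∈ jjRingD q d
      rw [qExpand_qExpand q d (jqModC ℤ)]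
      exact Subring.subset_closure (by simp)
  exact hle hg

theorem qExpand_natCast (n : ℕ) : qExpand ℤ d (n : LaurentSeries ℤ) = (n : LaurentSeries ℤ) :=
  map_natCast _ n

/-- Primitivity is preserved by `t ↦ t ^ d`. -/
theorem exists_not_dvd_qExpand {g : LaurentSeries ℤ} (hg : ∃ n : ℤ, ¬ (q : ℤ) ∣ g.coeff n) :
    ∃ n : ℤ, ¬ (q : ℤ) ∣ (qExpand ℤ d g).coeff n := by
  obtain ⟨n, hn⟩ := hg
  exact ⟨(d : ℤ) * n, by rwa [qExpand_coeff_mul]⟩

end Expand

/-- **Substitution `t ↦ t ^ d` in the split-Eisenstein shape.** -/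
theorem expandD_of_eisSeries {q : ℕ} [NeZero q] {A : LaurentSeries ℤ}
    {Ψ G : (LaurentSeries ℤ)[X]} (h : EisSeries q A Ψ G) (d : ℕ) [NeZero d] :
    EisSeriesD q d (qExpand ℤ d A) (Ψ.map (qExpand ℤ d)) (G.map (qExpand ℤ d)) := by
  have hqq : qExpand ℤ (d * (q * q)) (jqModC ℤ) =
      qExpand ℤ d (qExpand ℤ (q * q) (jqModC ℤ)) :=
    (qExpand_qExpand (q * q) d (jqModC ℤ)).symm
  refine
    { monic := h.monic.map _
      natDegree_eq := by rw [h.monic.natDegree_map, h.natDegree_eq]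
      coeff_mem := fun i => by
        rw [Polynomial.coeff_map]
        exact qExpand_mem_jjRingD q d (h.coeff_mem i)
      root := by
        rw [hqq, Polynomial.eval_map, Polynomial.eval₂_at_apply, h.root, map_zero]
      A_mem := qExpand_mem_jjRingD q d h.A_mem
      A_cong := ?_
      A_unit := ?_
      dec := ?_
      unit := ?_ }
  · obtain ⟨H, hH⟩ := h.A_cong
    refine ⟨qExpand ℤ d H, ?_⟩
    rw [hqq, ← map_sub, hH, map_mul, qExpand_natCast]
  · have := exists_not_dvd_qExpand q d h.A_unit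
    rwa [map_sub] at this
  · conv_lhs => rw [h.dec]
    simp only [Polynomial.map_add, Polynomial.map_mul, Polynomial.map_pow, Polynomial.map_sub,
      Polynomial.map_X, Polynomial.map_C, qExpand_natCast]
  · have := exists_not_dvd_qExpand q d h.unit
    rwa [← Polynomial.eval₂_at_apply, ← Polynomial.eval_map] at this

/-- **The formal input at every level**: for every prime `q` and every `d ≥ 1`. -/
theorem exists_eisSeriesD (q d : ℕ) [NeZero q] [NeZero d] (hq : q.Prime) :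
    ∃ Ψ G : (LaurentSeries ℤ)[X],
      EisSeriesD q d (qExpand ℤ d (jqModC ℤ) ^ (q ^ 2)) Ψ G := by
  obtain ⟨Ψ, G, h⟩ := exists_eisSeries q hq
  have := expandD_of_eisSeries h d
  rw [map_pow] at this
  exact ⟨_, _, this⟩

end Fermat.Agent.S45.H972

end

end
-- ===== PACK-END S45/H972/EisSeriesD.lean

-- ===== PACK-BEGIN S18/H182/Disc.lean
section


/-!
# S18 / squad S18/S05, piece FF.1 (DISC) — helper182 (extra independent owner)

`disc : DiscStatement`: a valuation subring `V` of a finite extension `F/E` whose restriction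
`V ∩ E` is a principal ideal ring is a principal ideal ring.  Characteristic-free, no separability.

Proof.  Let `n = [F:E]`, `val = V.valuation`.  For `x ∈ Fˣ` the minimal polynomial gives a
vanishing sum `∑ cᵢ xⁱ = 0` of nonzero terms; the maximal valuation is attained twice, so
`val x ^ d = val e` for some `1 ≤ d ≤ n`, `e ∈ Eˣ`.  As `V ∩ E` is a field or a DVR with
uniformizer `π`, `val e` is a power of `γ := val π` (`γ := 1` in the field case).  Hence
`val x ^ n! = γ ^ k`, `k ∈ ℕ`, for every nonzero `x ∈ V`; an ideal is generated by an element with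
minimal `k`.
-/

set_option autoImplicit false

noncomputable section

namespace Fermat.Agent.S18.H182

open Polynomial

section Key

variable {F : Type} [Field F] (V : ValuationSubring F)

/-- If the `N`-th powers of the valuations of the nonzero elements of `V` are natural powers of a
fixed `γ ≤ 1`, then `V` is a principal ideal ring. -/
theorem isPrincipalIdealRing_of_pow_eq (γ : V.ValueGroup) (hγ : γ ≤ 1) (N : ℕ) (hN : N ≠ 0)
    (h : ∀ x : F, x ∈ V → x ≠ 0 → ∃ k : ℕ, V.valuation x ^ N = γ ^ k) :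
    IsPrincipalIdealRing V := by
  classical
  refine ⟨fun I => ?_⟩
  by_cases hI : I = ⊥
  · rw [hI]
    exact ⟨⟨0, by simp⟩⟩
  have hex : ∃ k : ℕ, ∃ x : V, x ∈ I ∧ x ≠ 0 ∧ V.valuation (x : F) ^ N = γ ^ k := by
    obtain ⟨x, hxI, hx0⟩ := Submodule.exists_mem_ne_zero_of_ne_bot hI
    have hx0' : (x : F) ≠ 0 := fun h0 => hx0 (Subtype.ext h0)
    obtain ⟨k, hk⟩ := h x x.2 hx0'
    exact ⟨k, x, hxI, hx0, hk⟩
  obtain ⟨x₀, hx₀I, hx₀0, hk₀⟩ := Nat.find_spec hex
  have hx₀F : (x₀ : F) ≠ 0 := fun h0 => hx₀0 (Subtype.ext h0)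
  have hv₀ : V.valuation (x₀ : F) ≠ 0 := (Valuation.ne_zero_iff _).mpr hx₀F
  refine ⟨⟨x₀, ?_⟩⟩
  apply le_antisymm
  · intro y hyI
    rw [Submodule.mem_span_singleton]
    by_cases hy0 : y = 0
    · exact ⟨0, by simp [hy0]⟩
    have hyF : (y : F) ≠ 0 := fun h0 => hy0 (Subtype.ext h0)
    obtain ⟨k, hk⟩ := h y y.2 hyF
    have hkk : Nat.find hex ≤ k := Nat.find_min' hex ⟨y, hyI, hy0, hk⟩
    have hpow : V.valuation (y : F) ^ N ≤ V.valuation (x₀ : F) ^ N := by
      rw [hk, hk₀]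
      exact pow_le_pow_of_le_one zero_le hγ hkk
    have hle : V.valuation (y : F) ≤ V.valuation (x₀ : F) := by
      by_contra hcon
      have hlt : V.valuation (x₀ : F) < V.valuation (y : F) := not_le.mp hcon
      have := pow_lt_pow_left₀ hlt zero_le hN
      exact absurd hpow (not_le.mpr this)
    have hq : (y : F) / (x₀ : F) ∈ V := by
      rw [← V.valuation_le_one_iff, map_div₀]
      exact (div_le_one₀ (zero_lt_iff.mpr hv₀)).mpr hle
    refine ⟨⟨_, hq⟩, Subtype.ext ?_⟩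
    show (y : F) / (x₀ : F) * (x₀ : F) = y
    field_simp
  · rw [Submodule.span_singleton_le_iff_mem]
    exact hx₀I

end Key

section Dep

variable {E F : Type} [Field E] [Field F] [Algebra E F] [FiniteDimensional E F]
variable (V : ValuationSubring F)

/-- In a vanishing finite sum of nonzero terms the maximal valuation is attained twice. -/
theorem exists_ne_val_eq_of_sum_eq_zero {ι : Type} [DecidableEq ι] (s : Finset ι) (t : ι → F)
    (hs : s.Nonempty) (ht : ∀ i ∈ s, t i ≠ 0) (hsum : ∑ i ∈ s, t i = 0) :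
    ∃ i ∈ s, ∃ j ∈ s, i ≠ j ∧ V.valuation (t i) = V.valuation (t j) := by
  obtain ⟨i₀, hi₀, hmax⟩ := Finset.exists_max_image s (fun i => V.valuation (t i)) hs
  have hv₀ : V.valuation (t i₀) ≠ 0 := (Valuation.ne_zero_iff _).mpr (ht i₀ hi₀)
  by_contra hcon
  have hlt : ∀ j ∈ s.erase i₀, V.valuation (t j) < V.valuation (t i₀) := by
    intro j hj
    have hjs := Finset.mem_of_mem_erase hj
    have hne := Finset.ne_of_mem_erase hj
    rcases (hmax j hjs).lt_or_eq with h | h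
    · exact h
    · exact absurd ⟨i₀, hi₀, j, hjs, fun h' => hne h'.symm, h.symm⟩ hcon
  have hsum' : t i₀ = -∑ j ∈ s.erase i₀, t j := by
    rw [← Finset.add_sum_erase s t hi₀] at hsum
    exact eq_neg_of_add_eq_zero_left hsum
  have h1 : V.valuation (∑ j ∈ s.erase i₀, t j) < V.valuation (t i₀) :=
    Valuation.map_sum_lt _ hv₀ hlt
  rw [hsum', Valuation.map_neg] at h1
  exact lt_irrefl _ h1

/-- For `x ∈ Fˣ` some power `x ^ d`, `1 ≤ d ≤ [F:E]`, has the valuation of an element of `Eˣ`. -/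
theorem exists_pow_val_eq (x : F) (hx : x ≠ 0) :
    ∃ d : ℕ, 1 ≤ d ∧ d ≤ Module.finrank E F ∧ ∃ e : E, e ≠ 0 ∧
      V.valuation x ^ d = V.valuation (algebraMap E F e) := by
  classical
  have hint : IsIntegral E x := Algebra.IsIntegral.isIntegral x
  set p := minpoly E x with hp
  have hp0 : p ≠ 0 := minpoly.ne_zero hint
  have hdeg : p.natDegree ≤ Module.finrank E F := minpoly.natDegree_le x
  have hroot : Polynomial.aeval x p = 0 := minpoly.aeval E x
  have hsum : ∑ i ∈ p.support, algebraMap E F (p.coeff i) * x ^ i = 0 := by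
    rw [← hroot, Polynomial.aeval_def, Polynomial.eval₂_eq_sum, Polynomial.sum_def]
  have hsupp : p.support.Nonempty := Polynomial.nonempty_support_iff.mpr hp0
  have hterm : ∀ i ∈ p.support, algebraMap E F (p.coeff i) * x ^ i ≠ 0 := by
    intro i hi
    have hc : p.coeff i ≠ 0 := Polynomial.mem_support_iff.mp hi
    exact mul_ne_zero ((_root_.map_ne_zero _).mpr hc) (pow_ne_zero _ hx)
  obtain ⟨i, hi, j, hj, hij, hval⟩ :=
    exists_ne_val_eq_of_sum_eq_zero V p.support _ hsupp hterm hsum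
  have hvx : V.valuation x ≠ 0 := (Valuation.ne_zero_iff _).mpr hx
  -- wlog i < j
  have main : ∀ i j : ℕ, i ∈ p.support → j ∈ p.support → i < j →
      V.valuation (algebraMap E F (p.coeff i) * x ^ i) =
        V.valuation (algebraMap E F (p.coeff j) * x ^ j) →
      ∃ d : ℕ, 1 ≤ d ∧ d ≤ Module.finrank E F ∧ ∃ e : E, e ≠ 0 ∧
        V.valuation x ^ d = V.valuation (algebraMap E F e) := by
    intro i j hi hj hlt hval
    have hci : p.coeff i ≠ 0 := Polynomial.mem_support_iff.mp hi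
    have hcj : p.coeff j ≠ 0 := Polynomial.mem_support_iff.mp hj
    have hjdeg : j ≤ p.natDegree := Polynomial.le_natDegree_of_mem_supp j hj
    refine ⟨j - i, by omega, by omega, p.coeff i / p.coeff j, div_ne_zero hci hcj, ?_⟩
    have hcjv : V.valuation (algebraMap E F (p.coeff j)) ≠ 0 :=
      (Valuation.ne_zero_iff _).mpr ((_root_.map_ne_zero _).mpr hcj)
    have hxi : V.valuation x ^ i ≠ 0 := pow_ne_zero _ hvx
    rw [map_mul, map_mul, map_pow, map_pow] at hval
    rw [map_div₀, map_div₀, eq_div_iff hcjv]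
    apply mul_right_cancel₀ hxi
    have hji : j - i + i = j := Nat.sub_add_cancel hlt.le
    calc V.valuation x ^ (j - i) * V.valuation (algebraMap E F (p.coeff j)) * V.valuation x ^ i
        = V.valuation (algebraMap E F (p.coeff j)) * V.valuation x ^ (j - i + i) := by
          rw [pow_add, mul_comm (V.valuation x ^ (j - i)) (V.valuation (algebraMap E F (p.coeff j))),
            mul_assoc]
      _ = V.valuation (algebraMap E F (p.coeff j)) * V.valuation x ^ j := by rw [hji]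
      _ = V.valuation (algebraMap E F (p.coeff i)) * V.valuation x ^ i := hval.symm
  rcases lt_or_gt_of_ne hij with h | h
  · exact main i j hi hj h hval
  · exact main j i hj hi h hval.symm

/-- Common step: if the valuations of `Eˣ` are (inverse) powers of `γ ≤ 1`, then the `n!`-th
powers of the valuations of the nonzero elements of `V` are natural powers of `γ`. -/
theorem exists_pow_factorial_eq (γ : V.ValueGroup) (hγ : γ ≤ 1)
    (hE : ∀ e : E, e ≠ 0 → ∃ i : ℕ, V.valuation (algebraMap E F e) = γ ^ i ∨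
      V.valuation (algebraMap E F e) * γ ^ i = 1)
    (x : F) (hxV : x ∈ V) (hx : x ≠ 0) :
    ∃ k : ℕ, V.valuation x ^ (Module.finrank E F).factorial = γ ^ k := by
  obtain ⟨d, hd1, hdn, e, he, hval⟩ := exists_pow_val_eq (E := E) V x hx
  obtain ⟨q, hq⟩ : d ∣ (Module.finrank E F).factorial := Nat.dvd_factorial (by omega) hdn
  have hx1 : V.valuation x ≤ 1 := (V.valuation_le_one_iff _).mpr hxV
  have hxd : V.valuation x ^ d ≤ 1 := pow_le_one₀ zero_le hx1
  obtain ⟨i, hi | hi⟩ := hE e he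
  · refine ⟨i * q, ?_⟩
    rw [hq, pow_mul, hval, hi, ← pow_mul]
  · refine ⟨0, ?_⟩
    have hγi : γ ^ i ≤ 1 := pow_le_one₀ zero_le hγ
    have he1 : V.valuation (algebraMap E F e) = 1 := by
      rw [← hval] at hi ⊢
      rcases hxd.lt_or_eq with h | h
      · exfalso
        have : V.valuation x ^ d * γ ^ i < 1 := by
          calc V.valuation x ^ d * γ ^ i ≤ V.valuation x ^ d * 1 := by gcongr
            _ = V.valuation x ^ d := mul_one _
            _ < 1 := h
        rw [hi] at this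
        exact lt_irrefl _ this
      · exact h
    rw [hq, pow_mul, hval, he1, one_pow, pow_zero]

end Dep

section Main

variable {E F : Type} [Field E] [Field F] [Algebra E F] [FiniteDimensional E F]
variable (V : ValuationSubring F)

omit [FiniteDimensional E F] in
/-- elements of `E` which are units of `V ∩ E` have valuation one -/
theorem val_eq_one_of_isUnit_comap (y : V.comap (algebraMap E F)) (hy : IsUnit y) :
    V.valuation (algebraMap E F (y : E)) = 1 := by
  obtain ⟨z, hz⟩ := isUnit_iff_exists_inv.mp hy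
  have h1 : V.valuation (algebraMap E F (y : E)) ≤ 1 :=
    (V.valuation_le_one_iff _).mpr (ValuationSubring.mem_comap.mp y.2)
  have h2 : V.valuation (algebraMap E F (z : E)) ≤ 1 :=
    (V.valuation_le_one_iff _).mpr (ValuationSubring.mem_comap.mp z.2)
  have h3 : V.valuation (algebraMap E F (y : E)) * V.valuation (algebraMap E F (z : E)) = 1 := by
    have := congrArg (fun w : V.comap (algebraMap E F) => algebraMap E F (w : E)) hz
    simp only [MulMemClass.coe_mul, map_mul, OneMemClass.coe_one, map_one] at this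
    rw [← map_mul, this, map_one]
  rcases h1.lt_or_eq with h | h
  · exfalso
    have : V.valuation (algebraMap E F (y : E)) * V.valuation (algebraMap E F (z : E)) < 1 := by
      calc V.valuation (algebraMap E F (y : E)) * V.valuation (algebraMap E F (z : E))
          ≤ V.valuation (algebraMap E F (y : E)) * 1 := by gcongr
        _ = V.valuation (algebraMap E F (y : E)) := mul_one _
        _ < 1 := h
    rw [h3] at this
    exact lt_irrefl _ this
  · exact h

/-- **FF.1 (DISC)**. -/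
theorem disc : Sq05.DiscStatement := by
  intro E F _ _ _ _ V hO
  classical
  -- it suffices to describe the valuations of `Eˣ`
  suffices hsuff : ∃ γ : V.ValueGroup, γ ≤ 1 ∧
      ∀ e : E, e ≠ 0 → ∃ i : ℕ, V.valuation (algebraMap E F e) = γ ^ i ∨
        V.valuation (algebraMap E F e) * γ ^ i = 1 by
    obtain ⟨γ, hγ, hE⟩ := hsuff
    exact isPrincipalIdealRing_of_pow_eq V γ hγ _ (Nat.factorial_ne_zero (Module.finrank E F))
      (fun x hxV hx => exists_pow_factorial_eq (E := E) V γ hγ hE x hxV hx)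
  -- reduce to elements of `O = V ∩ E`
  suffices hsuff : ∃ γ : V.ValueGroup, γ ≤ 1 ∧
      ∀ y : V.comap (algebraMap E F), y ≠ 0 → ∃ i : ℕ,
        V.valuation (algebraMap E F (y : E)) = γ ^ i by
    obtain ⟨γ, hγ, hOval⟩ := hsuff
    refine ⟨γ, hγ, fun e he => ?_⟩
    rcases (V.comap (algebraMap E F)).mem_or_inv_mem e with h | h
    · obtain ⟨i, hi⟩ := hOval ⟨e, h⟩ (fun h0 => he (congrArg Subtype.val h0))
      exact ⟨i, Or.inl hi⟩
    · obtain ⟨i, hi⟩ := hOval ⟨e⁻¹, h⟩ (fun h0 => inv_ne_zero he (congrArg Subtype.val h0))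
      refine ⟨i, Or.inr ?_⟩
      have hi' : V.valuation (algebraMap E F e⁻¹) = γ ^ i := hi
      rw [← hi', ← map_mul, ← map_mul, mul_inv_cancel₀ he, map_one, map_one]
  by_cases hfield : IsLocalRing.maximalIdeal (V.comap (algebraMap E F)) = ⊥
  · -- `V ∩ E` is a field
    refine ⟨1, le_rfl, fun y hy => ⟨0, ?_⟩⟩
    rw [pow_zero]
    apply val_eq_one_of_isUnit_comap V y
    by_contra hnu
    have : y ∈ IsLocalRing.maximalIdeal (V.comap (algebraMap E F)) :=
      (IsLocalRing.mem_maximalIdeal y).mpr hnu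
    rw [hfield] at this
    exact hy ((Submodule.mem_bot _).mp this)
  · -- `V ∩ E` is a discrete valuation ring
    have hdvr : IsDiscreteValuationRing (V.comap (algebraMap E F)) := { not_a_field' := hfield }
    obtain ⟨π, hπ⟩ := IsDiscreteValuationRing.exists_irreducible (V.comap (algebraMap E F))
    refine ⟨V.valuation (algebraMap E F (π : E)),
      (V.valuation_le_one_iff _).mpr (ValuationSubring.mem_comap.mp π.2), fun y hy => ?_⟩
    obtain ⟨i, hi⟩ := IsDiscreteValuationRing.associated_pow_irreducible hy hπ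
    obtain ⟨w, hw⟩ := hi
    refine ⟨i, ?_⟩
    have hwv := val_eq_one_of_isUnit_comap V (w : V.comap (algebraMap E F)) w.isUnit
    have := congrArg (fun z : V.comap (algebraMap E F) => V.valuation (algebraMap E F (z : E))) hw
    simp only [MulMemClass.coe_mul, map_mul, SubmonoidClass.coe_pow, map_pow] at this
    rw [hwv, mul_one] at this
    exact this

end Main

end Fermat.Agent.S18.H182

end
end
-- ===== PACK-END S18/H182/Disc.lean

-- ===== PACK-BEGIN S36/Mod3/H323/UniqAbs.lean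
section


/-!
# S36 / MOD3, leaf UNIQ — abstract derivation from the other fields (helper323)

Generic setting of `Eng.TripleCtx` (`R`, `E`, `F`, `F'`, charts `B = chart R {x}`,
`B' = chart R {x'}`).  We prove the fields `unique_α`, `unique_β` of `Eng.TripleCtx`
from fields that are proved elsewhere (`base_i`, `x_unit_i`, `unif₁`, `unif₃`, `ram₂`, `qep_f`,
the `comap` table, `chart_α/β`, `int_α/β`) together with

* a *radicial* congruence on the chart (`b ^ q ≡ γ b'` modulo the radicial component), and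
* an element of the chart of level `q M'` separating the two components of that level.

Route: going-down for the integral extension `γ (B') ⊆ B` of the normal domain `B'`
(Mathlib), the cover `p₁ p₂^(q-1) p₃ ⊆ w B` (from `Qep3`), and the radicial congruence.
-/

set_option autoImplicit false
set_option linter.style.haveILetI false
set_option linter.unusedSectionVars false

noncomputable section

namespace Fermat.Agent.S36.Mod3.H323

open Polynomial
open Fermat.Agent.S18.H138 (chart)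
open Fermat.Agent.S36.Eng

/-! ## Valuation subrings and charts -/

section Basic

variable {R F : Type*} [CommRing R] [Field F] [Algebra R F]

/-- `R[x] ⊆ V` as soon as `R ⊆ V` and `x ∈ V`. -/
theorem adjoin_le_h323 {x : F} (V : ValuationSubring F)
    (hRV : ∀ r : R, algebraMap R F r ∈ V) (hxV : x ∈ V) :
    ∀ a ∈ Algebra.adjoin R ({x} : Set F), a ∈ V := by
  intro a ha
  induction ha using Algebra.adjoin_induction with
  | mem y hy =>
    rw [Set.mem_singleton_iff.mp hy]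
    exact hxV
  | algebraMap r => exact hRV r
  | add y z _ _ hy hz => exact V.add_mem _ _ hy hz
  | mul y z _ _ hy hz => exact V.mul_mem _ _ hy hz

/-- The chart of `x` is contained in every valuation ring containing `R` and `x`. -/
theorem chart_le_h323 {x : F} (V : ValuationSubring F)
    (hRV : ∀ r : R, algebraMap R F r ∈ V) (hxV : x ∈ V) {f : F}
    (hf : f ∈ chart R ({x} : Set F)) : f ∈ V := by
  rw [Fermat.Agent.S18.H138.mem_chart] at hf
  let i : Algebra.adjoin R ({x} : Set F) →+* V :=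
    (algebraMap (Algebra.adjoin R ({x} : Set F)) F).codRestrict V.toSubring
      (fun a => adjoin_le_h323 V hRV hxV a a.2)
  have hi : (algebraMap V F).comp i = algebraMap (Algebra.adjoin R ({x} : Set F)) F := by
    ext a; rfl
  have hint : IsIntegral V f := by
    obtain ⟨p, hp, hpf⟩ := hf
    refine ⟨p.map i, hp.map i, ?_⟩
    rw [Polynomial.eval₂_map, hi]
    exact hpf
  obtain ⟨y, hy⟩ := (IsIntegrallyClosed.isIntegral_iff (R := V) (K := F)).1 hint
  rw [← hy]
  exact y.2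

/-- A nonzero element is a nonunit of `V` iff its inverse is not in `V`. -/
theorem mem_nonunits_iff_h323 (V : ValuationSubring F) {a : F} (ha : a ≠ 0) :
    a ∈ V.nonunits ↔ a⁻¹ ∉ V := by
  rw [ValuationSubring.mem_nonunits_iff, ← ValuationSubring.valuation_le_one_iff, map_inv₀,
    not_le]
  have h0 : (0 : ValuationSubring.ValueGroup V) < V.valuation a :=
    zero_lt_iff.mpr ((map_ne_zero V.valuation).mpr ha)
  constructor
  · intro h
    exact (one_lt_inv₀ h0).mpr h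
  · intro h
    exact (one_lt_inv₀ h0).mp h

theorem zero_mem_nonunits_h323 (V : ValuationSubring F) : (0 : F) ∈ V.nonunits := by
  rw [ValuationSubring.mem_nonunits_iff, map_zero]
  exact zero_lt_one

/-- Nonunits of a comap. -/
theorem mem_nonunits_comap_h323 {F' : Type*} [Field F'] (γ : F' →+* F)
    (V : ValuationSubring F) {b : F'} :
    b ∈ (V.comap γ).nonunits ↔ γ b ∈ V.nonunits := by
  by_cases hb : b = 0
  · subst hb
    rw [map_zero]
    exact ⟨fun _ => zero_mem_nonunits_h323 V, fun _ => zero_mem_nonunits_h323 _⟩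
  · have hγb : γ b ≠ 0 := (map_ne_zero γ).mpr hb
    rw [mem_nonunits_iff_h323 _ hb, mem_nonunits_iff_h323 _ hγb, ValuationSubring.mem_comap,
      map_inv₀]

/-- The chart is integrally closed in `F`. -/
theorem isIntegral_chart_h323 {S : Set F} {f : F} (hf : IsIntegral (chart R S) f) :
    f ∈ chart R S := by
  rw [Fermat.Agent.S18.H138.mem_chart]
  have h1 : IsIntegral (integralClosure (Algebra.adjoin R S) F) f := hf
  exact isIntegral_trans (A := integralClosure (Algebra.adjoin R S) F) f h1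

end Basic

/-! ## The cover `p₁ p₂^(q-1) p₃ ⊆ w B` -/

section Cover

variable {R F : Type*} [CommRing R] [Field F] [Algebra R F]

/-- **Cover.**  A prime of the chart containing `w` contains one of the three vertical primes. -/
theorem cover_h323 (w : R) (q : ℕ) (x : F) (V₁ V₂ V₃ : ValuationSubring F)
    (hB₁ : ∀ b ∈ chart R ({x} : Set F), b ∈ V₁)
    (hB₂ : ∀ b ∈ chart R ({x} : Set F), b ∈ V₂)
    (hB₃ : ∀ b ∈ chart R ({x} : Set F), b ∈ V₃)
    (unif₁ : UnifAt V₁ (algebraMap R F w)) (unif₃ : UnifAt V₃ (algebraMap R F w))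
    (ram₂ : ∃ t : F, UnifAt V₂ t ∧ UnitAt V₂ (algebraMap R F w * (t ^ (q - 1))⁻¹))
    (qep : Qep3 w (chart R ({x} : Set F)) V₁ V₂ V₃)
    (Q : Ideal (chart R ({x} : Set F))) (hQ : Q.IsPrime)
    (hw : algebraMap R (chart R ({x} : Set F)) w ∈ Q) :
    Through _ Q V₁ ∨ Through _ Q V₂ ∨ Through _ Q V₃ := by
  by_contra hcon
  simp only [Through, not_or, not_forall] at hcon
  obtain ⟨⟨b₁, hb₁, hb₁Q⟩, ⟨b₂, hb₂, hb₂Q⟩, ⟨b₃, hb₃, hb₃Q⟩⟩ := hcon
  obtain ⟨t, ht, hu⟩ := ram₂
  set W : F := algebraMap R F w with hW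
  -- the product
  have h1 : ((b₁ * b₂ ^ (q - 1) * b₃ : chart R ({x} : Set F)) : F) * W⁻¹ ∈ V₁ := by
    have e : ((b₁ * b₂ ^ (q - 1) * b₃ : chart R ({x} : Set F)) : F) * W⁻¹ =
        ((b₁ : F) * W⁻¹) * ((b₂ : F) ^ (q - 1) * (b₃ : F)) := by
      push_cast
      ring
    rw [e]
    exact V₁.mul_mem _ _ (unif₁.2.2 _ hb₁)
      (V₁.mul_mem _ _ (pow_mem (hB₁ _ b₂.2) _) (hB₁ _ b₃.2))
  have h3 : ((b₁ * b₂ ^ (q - 1) * b₃ : chart R ({x} : Set F)) : F) * W⁻¹ ∈ V₃ := by
    have e : ((b₁ * b₂ ^ (q - 1) * b₃ : chart R ({x} : Set F)) : F) * W⁻¹ =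
        ((b₃ : F) * W⁻¹) * ((b₂ : F) ^ (q - 1) * (b₁ : F)) := by
      push_cast
      ring
    rw [e]
    exact V₃.mul_mem _ _ (unif₃.2.2 _ hb₃)
      (V₃.mul_mem _ _ (pow_mem (hB₃ _ b₂.2) _) (hB₃ _ b₁.2))
  have h2 : ((b₁ * b₂ ^ (q - 1) * b₃ : chart R ({x} : Set F)) : F) * W⁻¹ ∈ V₂ := by
    have ht0 : t ≠ 0 := ht.1
    have hW0 : W ≠ 0 := unif₁.1
    have e : ((b₁ * b₂ ^ (q - 1) * b₃ : chart R ({x} : Set F)) : F) * W⁻¹ =
        ((b₂ : F) * t⁻¹) ^ (q - 1) * (W * (t ^ (q - 1))⁻¹)⁻¹ * ((b₁ : F) * (b₃ : F)) := by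
      push_cast
      rw [mul_pow, mul_inv, inv_inv, inv_pow]
      have ht1 : t ^ (q - 1) ≠ 0 := pow_ne_zero _ ht0
      field_simp
    rw [e]
    exact V₂.mul_mem _ _ (V₂.mul_mem _ _ (pow_mem (ht.2.2 _ hb₂) _) hu.2.2)
      (V₂.mul_mem _ _ (hB₂ _ b₁.2) (hB₂ _ b₃.2))
  obtain ⟨c, hc⟩ := qep (b₁ * b₂ ^ (q - 1) * b₃) h1 h2 h3
  have hmem : b₁ * b₂ ^ (q - 1) * b₃ ∈ Q := by
    rw [hc]
    exact Q.mul_mem_right _ hw
  rcases hQ.mem_or_mem hmem with h | h
  · rcases hQ.mem_or_mem h with h | h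
    · exact hb₁Q h
    · exact hb₂Q (hQ.mem_of_pow_mem _ h)
  · exact hb₃Q h

end Cover

/-! ## The restriction of a degeneracy map to the charts -/

section ChartHom

variable {R E F F' : Type*} [CommRing R] [Field E] [Algebra R E]
  [Field F] [Algebra E F] [Algebra R F] [Field F'] [Algebra E F'] [Algebra R F']

/-- The restriction of `γ` to the charts. -/
def chartHom_h323 (γ : F' →ₐ[E] F) (x : F) (x' : F')
    (hγ : ∀ b ∈ chart R ({x'} : Set F'), γ b ∈ chart R ({x} : Set F)) :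
    chart R ({x'} : Set F') →+* chart R ({x} : Set F) where
  toFun b := ⟨γ b, hγ b b.2⟩
  map_one' := Subtype.ext (map_one γ)
  map_mul' a b := Subtype.ext (map_mul γ (a : F') (b : F'))
  map_zero' := Subtype.ext (map_zero γ)
  map_add' a b := Subtype.ext (map_add γ (a : F') (b : F'))

@[simp] theorem chartHom_h323_coe (γ : F' →ₐ[E] F) (x : F) (x' : F')
    (hγ : ∀ b ∈ chart R ({x'} : Set F'), γ b ∈ chart R ({x} : Set F))
    (b : chart R ({x'} : Set F')) :
    ((chartHom_h323 γ x x' hγ b : chart R ({x} : Set F)) : F) = γ b := rfl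

theorem chartHom_h323_injective (γ : F' →ₐ[E] F) (x : F) (x' : F')
    (hγ : ∀ b ∈ chart R ({x'} : Set F'), γ b ∈ chart R ({x} : Set F)) :
    Function.Injective (chartHom_h323 γ x x' hγ) := by
  intro a b hab
  have h : γ (a : F') = γ (b : F') := congrArg (fun t : chart R ({x} : Set F) => (t : F)) hab
  exact Subtype.ext ((γ : F' →+* F).injective h)

theorem chartHom_h323_isIntegral (γ : F' →ₐ[E] F) (x : F) (x' : F')
    (hγ : ∀ b ∈ chart R ({x'} : Set F'), γ b ∈ chart R ({x} : Set F))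
    (hint : ∀ b ∈ chart R ({x} : Set F), ∃ p : Polynomial F', p.Monic ∧
      (∀ i, p.coeff i ∈ chart R ({x'} : Set F')) ∧ (p.map (γ : F' →+* F)).eval b = 0) :
    (chartHom_h323 γ x x' hγ).IsIntegral := by
  intro b
  obtain ⟨p, hp, hcoef, hev⟩ := hint b b.2
  have hl : p ∈ Polynomial.lifts ((chart R ({x'} : Set F')).subtype : _ →+* F') := by
    rw [Polynomial.lifts_iff_coeff_lifts]
    intro n
    exact ⟨⟨p.coeff n, hcoef n⟩, rfl⟩
  obtain ⟨p', hp'map, -, hp'⟩ := Polynomial.lifts_and_natDegree_eq_and_monic hl hp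
  refine ⟨p', hp', ?_⟩
  apply Subtype.ext
  have h1 : (((chart R ({x} : Set F)).subtype : _ →+* F))
      (Polynomial.eval₂ (chartHom_h323 γ x x' hγ) b p') =
      Polynomial.eval₂ (((chart R ({x} : Set F)).subtype : _ →+* F).comp
        (chartHom_h323 γ x x' hγ)) (b : F) p' :=
    Polynomial.hom_eval₂ p' (chartHom_h323 γ x x' hγ) _ b
  have h2 : (((chart R ({x} : Set F)).subtype : _ →+* F)).comp (chartHom_h323 γ x x' hγ) =
      (γ : F' →+* F).comp ((chart R ({x'} : Set F')).subtype : _ →+* F') := by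
    ext a
    rfl
  have h3 : Polynomial.eval₂ ((γ : F' →+* F).comp
      ((chart R ({x'} : Set F')).subtype : _ →+* F')) (b : F) p' =
      (p.map (γ : F' →+* F)).eval (b : F) := by
    rw [← hp'map, Polynomial.map_map, Polynomial.eval_map]
  change (((chart R ({x} : Set F)).subtype : _ →+* F))
      (Polynomial.eval₂ (chartHom_h323 γ x x' hγ) b p') = 0
  rw [h1, h2, h3, hev]

/-- The chart is an integrally closed domain. -/
theorem isIntegrallyClosed_chart_h323 (S : Set F) : IsIntegrallyClosed (chart R S) := by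
  haveI : IsIntegrallyClosedIn (chart R S) F := by
    rw [isIntegrallyClosedIn_iff]
    refine ⟨Subtype.val_injective, fun {f} hf => ?_⟩
    exact ⟨⟨f, isIntegral_chart_h323 hf⟩, rfl⟩
  exact IsIntegrallyClosed.of_isIntegrallyClosed_of_isIntegrallyClosedIn (chart R S) F

end ChartHom

/-! ## Uniqueness over a radicial component -/

section Unique

variable {R E F F' : Type*} [CommRing R] [Field E] [Algebra R E]
  [Field F] [Algebra E F] [Algebra R F] [Field F'] [Algebra E F'] [Algebra R F']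

/-- **Uniqueness over a radicial component (abstract).**  `γ : F' → F` maps the chart `B'` into
the chart `B`, `B` is integral over `γ B'`; `Vr` lies over `Vr'`, the two other components `Va`,
`Vb` lie over `Vo'`; some element of `B'` vanishes on `Vo'` but not on `Vr'`; every prime of `B`
containing `w` contains one of the three vertical primes; `B / (B ∩ 𝔪_{Vr})` is radicial over
`γ B'`.  Then a closed point of `B` on `Vr` is the only closed point over its image. -/
theorem unique_of_radicial_h323 (w : R) (q : ℕ) (hq : 0 < q) (γ : F' →ₐ[E] F) (x : F) (x' : F')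
    (Va Vb Vr : ValuationSubring F) (Vr' Vo' : ValuationSubring F')
    (hγ : ∀ b ∈ chart R ({x'} : Set F'), γ b ∈ chart R ({x} : Set F))
    (hint : ∀ b ∈ chart R ({x} : Set F), ∃ p : Polynomial F', p.Monic ∧
      (∀ i, p.coeff i ∈ chart R ({x'} : Set F')) ∧ (p.map (γ : F' →+* F)).eval b = 0)
    (hBr : ∀ b ∈ chart R ({x} : Set F), b ∈ Vr)
    (comap_r : Vr.comap (γ : F' →+* F) = Vr')
    (comap_a : Va.comap (γ : F' →+* F) = Vo')
    (comap_b : Vb.comap (γ : F' →+* F) = Vo')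
    (hne : ∃ b' ∈ chart R ({x'} : Set F'), b' ∈ Vo'.nonunits ∧ b' ∉ Vr'.nonunits)
    (hwr : algebraMap R F w ∈ Vr.nonunits)
    (hγw : γ (algebraMap R F' w) = algebraMap R F w)
    (cover : ∀ Q : Ideal (chart R ({x} : Set F)), Q.IsPrime →
      algebraMap R (chart R ({x} : Set F)) w ∈ Q →
      Through _ Q Va ∨ Through _ Q Vb ∨ Through _ Q Vr)
    (rad : ∀ b ∈ chart R ({x} : Set F), ∃ b' ∈ chart R ({x'} : Set F'),
      b ^ q - γ b' ∈ Vr.nonunits)
    (𝔪 𝔪' : Ideal (chart R ({x} : Set F))) (h𝔪 : 𝔪.IsMaximal) (h𝔪' : 𝔪'.IsMaximal)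
    (hthr : Through _ 𝔪 Vr)
    (H : ∀ (b' : F') (h : b' ∈ chart R ({x'} : Set F')),
      (⟨γ b', hγ b' h⟩ : chart R ({x} : Set F)) ∈ 𝔪 →
        (⟨γ b', hγ b' h⟩ : chart R ({x} : Set F)) ∈ 𝔪') :
    𝔪' = 𝔪 := by
  classical
  let a : chart R ({x'} : Set F') →+* chart R ({x} : Set F) := chartHom_h323 γ x x' hγ
  -- the chart of level `q M'` lies in `Vr'`
  have hB'r : ∀ b' : chart R ({x'} : Set F'), (b' : F') ∈ Vr' := fun b' => by
    rw [← comap_r, ValuationSubring.mem_comap]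
    exact hBr _ (hγ b' b'.2)
  let incl : chart R ({x'} : Set F') →+* Vr' :=
    ((chart R ({x'} : Set F')).subtype : _ →+* F').codRestrict Vr'.toSubring hB'r
  let P : Ideal (chart R ({x'} : Set F')) := Ideal.comap incl (IsLocalRing.maximalIdeal Vr')
  have hPmem : ∀ b' : chart R ({x'} : Set F'), b' ∈ P ↔ (b' : F') ∈ Vr'.nonunits := by
    intro b'
    rw [ValuationSubring.mem_nonunits_iff_exists_mem_maximalIdeal]
    constructor
    · intro h
      exact ⟨hB'r b', h⟩
    · rintro ⟨_, h⟩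
      exact h
  haveI hPprime : P.IsPrime := Ideal.comap_isPrime incl _
  have hnon : ∀ (V : ValuationSubring F) (V' : ValuationSubring F'),
      V.comap (γ : F' →+* F) = V' → ∀ b' : F', b' ∈ V'.nonunits → γ b' ∈ V.nonunits := by
    intro V V' hVV' b' hb'
    have : b' ∈ (V.comap (γ : F' →+* F)).nonunits := by rw [hVV']; exact hb'
    exact (mem_nonunits_comap_h323 _ _).1 this
  have hP𝔪 : P ≤ 𝔪.comap a := by
    intro b' hb'
    rw [Ideal.mem_comap]
    exact hthr _ (hnon Vr Vr' comap_r _ ((hPmem b').1 hb'))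
  have hP𝔪' : P ≤ 𝔪'.comap a := by
    intro b' hb'
    rw [Ideal.mem_comap]
    exact H b' b'.2 (hP𝔪 hb')
  -- going down
  letI : Algebra (chart R ({x'} : Set F')) (chart R ({x} : Set F)) := a.toAlgebra
  haveI : IsIntegrallyClosed (chart R ({x'} : Set F')) := isIntegrallyClosed_chart_h323 _
  haveI : Algebra.IsIntegral (chart R ({x'} : Set F')) (chart R ({x} : Set F)) :=
    ⟨chartHom_h323_isIntegral γ x x' hγ hint⟩
  haveI : FaithfulSMul (chart R ({x'} : Set F')) (chart R ({x} : Set F)) :=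
    (faithfulSMul_iff_algebraMap_injective _ _).mpr (chartHom_h323_injective γ x x' hγ)
  haveI : 𝔪'.IsPrime := h𝔪'.isPrime
  haveI : 𝔪'.LiesOver (𝔪'.comap a) := ⟨rfl⟩
  haveI : (𝔪'.comap a).IsPrime := Ideal.comap_isPrime a 𝔪'
  obtain ⟨Q, hQ𝔪', hQprime, hQover⟩ :=
    Ideal.exists_ideal_le_liesOver_of_le (p := P) (q := 𝔪'.comap a) 𝔪' hP𝔪'
  have hQP : Q.comap a = P := (hQover.over).symm
  -- `w ∈ Q`
  have hwQ : algebraMap R (chart R ({x} : Set F)) w ∈ Q := by
    have hwP : (⟨algebraMap R F' w, Subalgebra.algebraMap_mem _ w⟩ : chart R ({x'} : Set F')) ∈ P := by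
      rw [hPmem]
      have h1 : algebraMap R F' w ∈ (Vr.comap (γ : F' →+* F)).nonunits := by
        rw [mem_nonunits_comap_h323]
        change γ (algebraMap R F' w) ∈ Vr.nonunits
        rw [hγw]
        exact hwr
      rw [comap_r] at h1
      exact h1
    rw [← hQP, Ideal.mem_comap] at hwP
    have e : a ⟨algebraMap R F' w, Subalgebra.algebraMap_mem _ w⟩ =
        algebraMap R (chart R ({x} : Set F)) w := Subtype.ext hγw
    rw [e] at hwP
    exact hwP
  -- `Q` contains the radicial vertical prime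
  have hQr : Through (chart R ({x} : Set F)) Q Vr := by
    obtain ⟨b', hb'B, hb'o, hb'r⟩ := hne
    have key : ∀ V : ValuationSubring F, V.comap (γ : F' →+* F) = Vo' →
        Through (chart R ({x} : Set F)) Q V → False := by
      intro V hV hthrough
      apply hb'r
      rw [← hPmem ⟨b', hb'B⟩, ← hQP, Ideal.mem_comap]
      exact hthrough _ (hnon V Vo' hV _ hb'o)
    rcases cover Q hQprime hwQ with h | h | h
    · exact (key Va comap_a h).elim
    · exact (key Vb comap_b h).elim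
    · exact h
  -- radicial
  have hle : 𝔪 ≤ 𝔪' := by
    intro b hb
    obtain ⟨b', hb'B, hb'⟩ := rad b b.2
    have hcoe : ((b ^ q - a ⟨b', hb'B⟩ : chart R ({x} : Set F)) : F) = (b : F) ^ q - γ b' := by
      push_cast
      rfl
    have h1 : b ^ q - a ⟨b', hb'B⟩ ∈ 𝔪 := hthr _ (by rw [hcoe]; exact hb')
    have h2 : a ⟨b', hb'B⟩ ∈ 𝔪 := by
      have := 𝔪.sub_mem (𝔪.pow_mem_of_mem hb q hq) h1
      simpa using this
    have h3 : a ⟨b', hb'B⟩ ∈ 𝔪' := H b' hb'B h2
    have h4 : b ^ q - a ⟨b', hb'B⟩ ∈ 𝔪' := hQ𝔪' (hQr _ (by rw [hcoe]; exact hb'))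
    have h5 : b ^ q ∈ 𝔪' := by
      have := 𝔪'.add_mem h4 h3
      simpa using this
    exact h𝔪'.isPrime.mem_of_pow_mem q h5
  exact (h𝔪.eq_of_le h𝔪'.ne_top hle).symm

end Unique

end Fermat.Agent.S36.Mod3.H323

end

end
-- ===== PACK-END S36/Mod3/H323/UniqAbs.lean

-- ===== PACK-BEGIN S36/Mod3/H323/UniqFields.lean
section


/-!
# S36 / MOD3, leaf UNIQ — the fields `unique_α`, `unique_β` of `Eng.TripleCtx` from other fields
(helper323)

Generic setting of `Eng.TripleCtx`.  Inputs, all VERBATIM fields of `Eng.TripleCtx` (v1.3):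
`base_i`, `x_unit_i`, `unif₁`, `unif₃`, `ram₂`, `qep_f`, the six `comap`, `chart_α/β`, `int_α/β`,
`nr_α₂`, `nr_β₂`; plus two separating elements of the chart of level `q M'`
(`∃ b' ∈ B', b' ∈ 𝔪_{V₁'} ∖ 𝔪_{V₂'}` and `∃ b' ∈ B', b' ∈ 𝔪_{V₂'} ∖ 𝔪_{V₁'}`: the modular units).
-/

set_option autoImplicit false
set_option linter.style.haveILetI false
set_option linter.unusedSectionVars false

noncomputable section

namespace Fermat.Agent.S36.Mod3.H323

open Polynomial
open Fermat.Agent.S18.H138 (chart)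
open Fermat.Agent.S36.Eng

section Rad

variable {R E F F' : Type*} [CommRing R] [Field E] [Algebra R E]
  [Field F] [Algebra E F] [Algebra R F] [Field F'] [Algebra E F'] [Algebra R F']

/-- The norm of an element of the chart `B` is an element of the chart `B'`. -/
theorem normAlong_mem_chart_h323 (γ : F' →ₐ[E] F) (x : F) (x' : F')
    (hint : ∀ b ∈ chart R ({x} : Set F), ∃ p : Polynomial F', p.Monic ∧
      (∀ i, p.coeff i ∈ chart R ({x'} : Set F')) ∧ (p.map (γ : F' →+* F)).eval b = 0)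
    {b : F} (hb : b ∈ chart R ({x} : Set F)) :
    S29.H395.normAlong γ b ∈ chart R ({x'} : Set F') := by
  apply isIntegral_chart_h323
  letI : Algebra F' F := AlgebraicCurve.algebraAlong γ
  letI : Algebra (chart R ({x'} : Set F')) F :=
    ((γ : F' →+* F).comp ((chart R ({x'} : Set F')).subtype : _ →+* F')).toAlgebra
  haveI : @IsScalarTower (chart R ({x'} : Set F')) F' F Algebra.toSMul Algebra.toSMul
      Algebra.toSMul := IsScalarTower.of_algebraMap_eq (fun _ => rfl)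
  have hbint : IsIntegral (chart R ({x'} : Set F')) b := by
    obtain ⟨p, hp, hcoef, hev⟩ := hint b hb
    have hl : p ∈ Polynomial.lifts ((chart R ({x'} : Set F')).subtype : _ →+* F') := by
      rw [Polynomial.lifts_iff_coeff_lifts]
      intro n
      exact ⟨⟨p.coeff n, hcoef n⟩, rfl⟩
    obtain ⟨p', hp'map, -, hp'⟩ := Polynomial.lifts_and_natDegree_eq_and_monic hl hp
    refine ⟨p', hp', ?_⟩
    have h3 : Polynomial.eval₂ ((γ : F' →+* F).comp
        ((chart R ({x'} : Set F')).subtype : _ →+* F')) b p' =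
        (p.map (γ : F' →+* F)).eval b := by
      rw [← hp'map, Polynomial.map_map, Polynomial.eval_map]
    exact h3.trans hev
  have key := Algebra.isIntegral_norm (R := chart R ({x'} : Set F')) (L := F) F' hbint
  exact key

/-- Powers of nonunits are nonunits. -/
theorem pow_mem_nonunits_h323 (V : ValuationSubring F) {a : F} (ha : a ∈ V.nonunits) {n : ℕ}
    (hn : 0 < n) : a ^ n ∈ V.nonunits := by
  rw [ValuationSubring.mem_nonunits_iff] at ha ⊢
  rw [map_pow]
  exact pow_lt_one₀ (zero_le (a := V.valuation a)) ha hn.ne'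

theorem neg_mem_nonunits_h323 (V : ValuationSubring F) {a : F} (ha : a ∈ V.nonunits) :
    -a ∈ V.nonunits := by
  rw [ValuationSubring.mem_nonunits_iff] at ha ⊢
  rwa [Valuation.map_neg]

/-- **Radicial congruence on the chart** from the field `nr` (purely inseparable residue
extension) and integrality of norms. -/
theorem rad_of_nr_h323 (q : ℕ) (hq : 0 < q) (γ : F' →ₐ[E] F) (x : F) (x' : F')
    (Vr : ValuationSubring F)
    (hint : ∀ b ∈ chart R ({x} : Set F), ∃ p : Polynomial F', p.Monic ∧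
      (∀ i, p.coeff i ∈ chart R ({x'} : Set F')) ∧ (p.map (γ : F' →+* F)).eval b = 0)
    (hBr : ∀ b ∈ chart R ({x} : Set F), b ∈ Vr)
    (nr : ∀ y : F, UnitAt Vr y → γ (S29.H395.normAlong γ y) - y ^ q ∈ Vr.nonunits) :
    ∀ b ∈ chart R ({x} : Set F), ∃ b' ∈ chart R ({x'} : Set F'),
      b ^ q - γ b' ∈ Vr.nonunits := by
  intro b hb
  by_cases hbn : b ∈ Vr.nonunits
  · refine ⟨0, Subalgebra.zero_mem _, ?_⟩
    rw [map_zero, sub_zero]
    exact pow_mem_nonunits_h323 Vr hbn hq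
  · have hb0 : b ≠ 0 := fun h => hbn (h ▸ zero_mem_nonunits_h323 Vr)
    have hinv : b⁻¹ ∈ Vr := by
      by_contra h
      exact hbn ((mem_nonunits_iff_h323 Vr hb0).2 h)
    refine ⟨S29.H395.normAlong γ b, normAlong_mem_chart_h323 γ x x' hint hb, ?_⟩
    have := neg_mem_nonunits_h323 Vr (nr b ⟨hb0, hBr b hb, hinv⟩)
    rwa [neg_sub] at this

end Rad

section Fields

variable {R E F F' : Type*} [CommRing R] [Field E] [Algebra R E]
  [Field F] [Algebra E F] [Algebra R F] [IsScalarTower R E F]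
  [Field F'] [Algebra E F'] [Algebra R F'] [IsScalarTower R E F']

theorem algHom_algebraMap_h323 (γ : F' →ₐ[E] F) (r : R) :
    γ (algebraMap R F' r) = algebraMap R F r := by
  rw [IsScalarTower.algebraMap_apply R E F', IsScalarTower.algebraMap_apply R E F,
    AlgHom.commutes]

/-- **`unique_α`** (field of `Eng.TripleCtx`, in the form of `Mod3.PartUniq`). -/
theorem unique_alpha_h323 (w : R) (q : ℕ) (hq : 0 < q) (α : F' →ₐ[E] F) (x : F) (x' : F')
    (V₁ V₂ V₃ : ValuationSubring F) (V₁' V₂' : ValuationSubring F')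
    (base₁ : ∀ r : R, algebraMap R F r ∈ V₁)
    (base₂ : ∀ r : R, algebraMap R F r ∈ V₂)
    (base₃ : ∀ r : R, algebraMap R F r ∈ V₃)
    (x_unit₁ : UnitAt V₁ x) (x_unit₂ : UnitAt V₂ x) (x_unit₃ : UnitAt V₃ x)
    (unif₁ : UnifAt V₁ (algebraMap R F w)) (unif₃ : UnifAt V₃ (algebraMap R F w))
    (ram₂ : ∃ t : F, UnifAt V₂ t ∧ UnitAt V₂ (algebraMap R F w * (t ^ (q - 1))⁻¹))
    (qep_f : Qep3 w (chart R ({x} : Set F)) V₁ V₂ V₃)
    (comap_α₁ : V₁.comap (α : F' →+* F) = V₁')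
    (comap_α₂ : V₂.comap (α : F' →+* F) = V₁')
    (comap_α₃ : V₃.comap (α : F' →+* F) = V₂')
    (int_α : ∀ b ∈ chart R ({x} : Set F), ∃ p : Polynomial F', p.Monic ∧
      (∀ i, p.coeff i ∈ chart R ({x'} : Set F')) ∧ (p.map (α : F' →+* F)).eval b = 0)
    (nr_α₂ : ∀ y : F, UnitAt V₃ y → α (S29.H395.normAlong α y) - y ^ q ∈ V₃.nonunits)
    (hne : ∃ b' ∈ chart R ({x'} : Set F'), b' ∈ V₁'.nonunits ∧ b' ∉ V₂'.nonunits) :
    ∀ (hα : ∀ b ∈ chart R ({x'} : Set F'), α b ∈ chart R ({x} : Set F))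
      (𝔪 𝔪' : Ideal (chart R ({x} : Set F))), 𝔪.IsMaximal → 𝔪'.IsMaximal →
      IsTriple _ 𝔪 V₁ V₂ V₃ →
      (∀ (b' : F') (h : b' ∈ chart R ({x'} : Set F')),
        (⟨α b', hα b' h⟩ : chart R ({x} : Set F)) ∈ 𝔪 →
          (⟨α b', hα b' h⟩ : chart R ({x} : Set F)) ∈ 𝔪') → 𝔪' = 𝔪 := by
  intro hα 𝔪 𝔪' h𝔪 h𝔪' htriple H
  have hB₁ : ∀ b ∈ chart R ({x} : Set F), b ∈ V₁ := fun b hb =>
    chart_le_h323 V₁ base₁ x_unit₁.2.1 hb
  have hB₂ : ∀ b ∈ chart R ({x} : Set F), b ∈ V₂ := fun b hb =>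
    chart_le_h323 V₂ base₂ x_unit₂.2.1 hb
  have hB₃ : ∀ b ∈ chart R ({x} : Set F), b ∈ V₃ := fun b hb =>
    chart_le_h323 V₃ base₃ x_unit₃.2.1 hb
  exact unique_of_radicial_h323 w q hq α x x' V₁ V₂ V₃ V₂' V₁' hα int_α hB₃ comap_α₃ comap_α₁
    comap_α₂ hne unif₃.2.1 (algHom_algebraMap_h323 α w)
    (fun Q hQ hw => cover_h323 w q x V₁ V₂ V₃ hB₁ hB₂ hB₃ unif₁ unif₃ ram₂ qep_f Q hQ hw)
    (rad_of_nr_h323 q hq α x x' V₃ int_α hB₃ nr_α₂) 𝔪 𝔪' h𝔪 h𝔪' htriple.2.2 H

/-- **`unique_β`** (field of `Eng.TripleCtx`, in the form of `Mod3.PartUniq`). -/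
theorem unique_beta_h323 (w : R) (q : ℕ) (hq : 0 < q) (β : F' →ₐ[E] F) (x : F) (x' : F')
    (V₁ V₂ V₃ : ValuationSubring F) (V₁' V₂' : ValuationSubring F')
    (base₁ : ∀ r : R, algebraMap R F r ∈ V₁)
    (base₂ : ∀ r : R, algebraMap R F r ∈ V₂)
    (base₃ : ∀ r : R, algebraMap R F r ∈ V₃)
    (x_unit₁ : UnitAt V₁ x) (x_unit₂ : UnitAt V₂ x) (x_unit₃ : UnitAt V₃ x)
    (unif₁ : UnifAt V₁ (algebraMap R F w)) (unif₃ : UnifAt V₃ (algebraMap R F w))
    (ram₂ : ∃ t : F, UnifAt V₂ t ∧ UnitAt V₂ (algebraMap R F w * (t ^ (q - 1))⁻¹))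
    (qep_f : Qep3 w (chart R ({x} : Set F)) V₁ V₂ V₃)
    (comap_β₁ : V₁.comap (β : F' →+* F) = V₁')
    (comap_β₂ : V₂.comap (β : F' →+* F) = V₂')
    (comap_β₃ : V₃.comap (β : F' →+* F) = V₂')
    (int_β : ∀ b ∈ chart R ({x} : Set F), ∃ p : Polynomial F', p.Monic ∧
      (∀ i, p.coeff i ∈ chart R ({x'} : Set F')) ∧ (p.map (β : F' →+* F)).eval b = 0)
    (nr_β₂ : ∀ y : F, UnitAt V₁ y → β (S29.H395.normAlong β y) - y ^ q ∈ V₁.nonunits)
    (hne : ∃ b' ∈ chart R ({x'} : Set F'), b' ∈ V₂'.nonunits ∧ b' ∉ V₁'.nonunits) :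
    ∀ (hβ : ∀ b ∈ chart R ({x'} : Set F'), β b ∈ chart R ({x} : Set F))
      (𝔪 𝔪' : Ideal (chart R ({x} : Set F))), 𝔪.IsMaximal → 𝔪'.IsMaximal →
      IsTriple _ 𝔪 V₁ V₂ V₃ →
      (∀ (b' : F') (h : b' ∈ chart R ({x'} : Set F')),
        (⟨β b', hβ b' h⟩ : chart R ({x} : Set F)) ∈ 𝔪 →
          (⟨β b', hβ b' h⟩ : chart R ({x} : Set F)) ∈ 𝔪') → 𝔪' = 𝔪 := by
  intro hβ 𝔪 𝔪' h𝔪 h𝔪' htriple H
  have hB₁ : ∀ b ∈ chart R ({x} : Set F), b ∈ V₁ := fun b hb =>
    chart_le_h323 V₁ base₁ x_unit₁.2.1 hb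
  have hB₂ : ∀ b ∈ chart R ({x} : Set F), b ∈ V₂ := fun b hb =>
    chart_le_h323 V₂ base₂ x_unit₂.2.1 hb
  have hB₃ : ∀ b ∈ chart R ({x} : Set F), b ∈ V₃ := fun b hb =>
    chart_le_h323 V₃ base₃ x_unit₃.2.1 hb
  refine unique_of_radicial_h323 w q hq β x x' V₂ V₃ V₁ V₁' V₂' hβ int_β hB₁ comap_β₁ comap_β₂
    comap_β₃ hne unif₁.2.1 (algHom_algebraMap_h323 β w) (fun Q hQ hw => ?_)
    (rad_of_nr_h323 q hq β x x' V₁ int_β hB₁ nr_β₂) 𝔪 𝔪' h𝔪 h𝔪' htriple.1 H
  rcases cover_h323 w q x V₁ V₂ V₃ hB₁ hB₂ hB₃ unif₁ unif₃ ram₂ qep_f Q hQ hw with h | h | h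
  · exact Or.inr (Or.inr h)
  · exact Or.inl h
  · exact Or.inr (Or.inl h)

end Fields

end Fermat.Agent.S36.Mod3.H323

end

end
-- ===== PACK-END S36/Mod3/H323/UniqFields.lean

-- ===== PACK-BEGIN S45/Reg/H925/PkgWild.lean
section


/-!
# S45 / CAR3 / MOD-E / REG — leaf A4 (and A3): transport of the REG packages along ONE step
(helper925, 2nd owner; OFF-MAIN)

Board: `origin/helper878:coord/S45-REG.md` (leaf list v1), sec. 1–3.  Abstract: Mathlib and the
vocabulary of `S36.Eng.Spec` only.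

`φ : F' → F` a degeneracy map (`α` or `β`), `φ B' ⊆ B`, `V i` the ONLY sheet of the upper level
over the sheet `V' j` of the lower level, ramification index `r`
(`φ t' = unit · t ^ r`; `r = 1`: INSEP, leaf A3; `r = q`: WILD, leaf A4), and the CHAIN CONGRUENCE
`x ^ r = φ x' · (1 + 𝔪_V)`.  Then

* `unitPkg_step`  : `UnitPkg` of `(V' j, x')` in the finite chart `B'` ⟹ `UnitPkg` of `(V i, x)` in `B`,
  with `U = φ U'`, `d = φ d'`, `g = φ g'`, `k = k'`, `N = r N'`;
* `litePkg_step`  : `LitePkg` of `(V' j, x')` in the chart at infinity `B'` ⟹ `LitePkg` of `(V i, x)`,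
  with `g₁ = φ g₁'`, `g₂ = φ g₂'`, `N = r N'`;
* `unitPkg_map`, `litePkg_map` : the case `r = 1`, `x = φ x'` (leaf A3).

The packages are stated here in UNBUNDLED content form (`UnitPkg`, `LitePkg` of this namespace =
memo sec. 1 verbatim); they are the hypotheses of `S36.H878.principalAt_of_unit_self'` and of
`S36.H876.principalAt_lite` in family form.
-/

set_option autoImplicit false

namespace Fermat.Agent.S45.Reg.H925

open Fermat.Agent.S36.Eng

/-! ## Elementwise valuation toolkit -/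

section Tools

variable {F : Type*} [Field F]

theorem nu_add (V : ValuationSubring F) {a b : F} (ha : a ∈ V.nonunits)
    (hb : b ∈ V.nonunits) : a + b ∈ V.nonunits := by
  rw [ValuationSubring.mem_nonunits_iff] at ha hb ⊢
  exact lt_of_le_of_lt (V.valuation.map_add a b) (max_lt ha hb)

theorem nu_mem (V : ValuationSubring F) {a : F} (ha : a ∈ V.nonunits) : a ∈ V := by
  rw [ValuationSubring.mem_nonunits_iff] at ha
  exact (V.valuation_le_one_iff a).1 ha.le

theorem nu_mul (V : ValuationSubring F) {a b : F} (ha : a ∈ V) (hb : b ∈ V.nonunits) :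
    a * b ∈ V.nonunits := by
  rw [ValuationSubring.mem_nonunits_iff] at hb ⊢
  rw [map_mul]
  have h1 : V.valuation a ≤ 1 := (V.valuation_le_one_iff a).2 ha
  calc V.valuation a * V.valuation b ≤ 1 * V.valuation b := mul_le_mul_left h1 _
    _ = V.valuation b := one_mul _
    _ < 1 := hb

theorem nu_mul' (V : ValuationSubring F) {a b : F} (ha : a ∈ V.nonunits) (hb : b ∈ V) :
    a * b ∈ V.nonunits := by
  rw [mul_comm]; exact nu_mul V hb ha

theorem nu_zero (V : ValuationSubring F) : (0 : F) ∈ V.nonunits := by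
  rw [ValuationSubring.mem_nonunits_iff, map_zero]
  exact zero_lt_one

theorem nu_neg (V : ValuationSubring F) {a : F} (ha : a ∈ V.nonunits) : -a ∈ V.nonunits := by
  rw [ValuationSubring.mem_nonunits_iff] at ha ⊢
  rwa [Valuation.map_neg]

theorem nu_sub (V : ValuationSubring F) {a b : F} (ha : a ∈ V.nonunits)
    (hb : b ∈ V.nonunits) : a - b ∈ V.nonunits := by
  rw [sub_eq_add_neg]; exact nu_add V ha (nu_neg V hb)

theorem unitAt_iff_val (V : ValuationSubring F) {y : F} : UnitAt V y ↔ V.valuation y = 1 := by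
  constructor
  · rintro ⟨hy0, hy1, hy2⟩
    have h1 : V.valuation y ≤ 1 := (V.valuation_le_one_iff _).2 hy1
    have h2 : V.valuation y⁻¹ ≤ 1 := (V.valuation_le_one_iff _).2 hy2
    rw [map_inv₀] at h2
    have hv0 : V.valuation y ≠ 0 := by rw [Ne, map_eq_zero]; exact hy0
    exact le_antisymm h1 ((inv_le_one₀ (zero_lt_iff.2 hv0)).1 h2)
  · intro hy
    refine ⟨fun h => ?_, (V.valuation_le_one_iff _).1 hy.le, ?_⟩
    · rw [h, map_zero] at hy
      exact zero_ne_one hy
    · rw [← V.valuation_le_one_iff, map_inv₀, hy, inv_one]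

theorem unitAt_mul (V : ValuationSubring F) {a b : F} (ha : UnitAt V a) (hb : UnitAt V b) :
    UnitAt V (a * b) := by
  rw [unitAt_iff_val] at ha hb ⊢
  rw [map_mul, ha, hb, one_mul]

theorem unitAt_inv (V : ValuationSubring F) {a : F} (ha : UnitAt V a) : UnitAt V a⁻¹ := by
  rw [unitAt_iff_val] at ha ⊢
  rw [map_inv₀, ha, inv_one]

theorem unitAt_pow (V : ValuationSubring F) {a : F} (ha : UnitAt V a) (k : ℕ) :
    UnitAt V (a ^ k) := by
  rw [unitAt_iff_val] at ha ⊢
  rw [map_pow, ha, one_pow]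

/-- `a ∈ 𝔪_V ↔ a ∈ V` and `a` is not a unit. -/
theorem nu_iff (V : ValuationSubring F) {a : F} : a ∈ V.nonunits ↔ a ∈ V ∧ ¬ UnitAt V a := by
  rw [ValuationSubring.mem_nonunits_iff, unitAt_iff_val, ← V.valuation_le_one_iff]
  constructor
  · intro h; exact ⟨h.le, h.ne⟩
  · rintro ⟨h1, h2⟩; exact lt_of_le_of_ne h1 h2

variable {F' : Type*} [Field F']

theorem unitAt_comap (φ : F' →+* F) (V : ValuationSubring F) {y : F'} :
    UnitAt (V.comap φ) y ↔ UnitAt V (φ y) := by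
  unfold UnitAt
  rw [ValuationSubring.mem_comap, ValuationSubring.mem_comap, map_inv₀]
  constructor
  · rintro ⟨h0, h1, h2⟩
    exact ⟨fun h => h0 ((map_eq_zero φ).1 h), h1, h2⟩
  · rintro ⟨h0, h1, h2⟩
    exact ⟨fun h => h0 (by rw [h, map_zero]), h1, h2⟩

theorem nu_comap (φ : F' →+* F) (V : ValuationSubring F) {y : F'} :
    y ∈ (V.comap φ).nonunits ↔ φ y ∈ V.nonunits := by
  rw [nu_iff, nu_iff, unitAt_comap, ValuationSubring.mem_comap]

/-- Residue of a power: `(1 + ε) ^ k - 1 ∈ 𝔪_V`. -/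
theorem nu_one_add_pow_sub_one (V : ValuationSubring F) {ε : F} (hε : ε ∈ V.nonunits) (k : ℕ) :
    (1 + ε) ^ k - 1 ∈ V.nonunits := by
  induction k with
  | zero => simp [nu_zero V]
  | succ k ih =>
    have h1 : (1 + ε) ∈ V := V.add_mem _ _ V.one_mem (nu_mem V hε)
    have e : (1 + ε) ^ (k + 1) - 1 = ((1 + ε) ^ k - 1) * (1 + ε) + ε := by ring
    rw [e]
    exact nu_add V (nu_mul' V ih h1) hε

/-- Two uniformisers differ by a unit. -/
theorem unitAt_unif_div (V : ValuationSubring F) {t s : F} (ht : UnifAt V t) (hs : UnifAt V s) :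
    UnitAt V (t * s⁻¹) := by
  refine ⟨mul_ne_zero ht.1 (inv_ne_zero hs.1), hs.2.2 t ht.2.1, ?_⟩
  rw [mul_inv, inv_inv, mul_comm]
  exact ht.2.2 s hs.2.1

/-- If `y ^ r` is a unit (`0 < r`) then `y` is a unit. -/
theorem unitAt_of_pow (V : ValuationSubring F) {y : F} {r : ℕ} (hr : 0 < r)
    (h : UnitAt V (y ^ r)) : UnitAt V y := by
  rw [unitAt_iff_val] at h ⊢
  rw [map_pow] at h
  exact (pow_eq_one_iff_of_nonneg zero_le (Nat.pos_iff_ne_zero.1 hr)).1 h

/-- `x = unit · t`, `t` a uniformiser ⟹ `x` is a uniformiser. -/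
theorem unifAt_of_unit_mul (V : ValuationSubring F) {t x : F} (ht : UnifAt V t)
    (h : UnitAt V (x * t⁻¹)) : UnifAt V x := by
  have hx0 : x ≠ 0 := fun h0 => h.1 (by rw [h0, zero_mul])
  have ex : x = x * t⁻¹ * t := by rw [mul_assoc, inv_mul_cancel₀ ht.1, mul_one]
  refine ⟨hx0, ?_, fun f hf => ?_⟩
  · rw [ex]; exact nu_mul V h.2.1 ht.2.1
  · have e : f * x⁻¹ = f * t⁻¹ * (x * t⁻¹)⁻¹ := by
      rw [mul_inv, inv_inv, mul_assoc, mul_comm x⁻¹ t, ← mul_assoc t⁻¹, inv_mul_cancel₀ ht.1,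
        one_mul]
    rw [e]
    exact V.mul_mem _ _ (ht.2.2 f hf) h.2.2

end Tools

/-! ## The packages (memo helper878, sec. 1) -/

section Pkg

variable {R F : Type*} [CommRing R] [Field F] [Algebra R F]

/-- **`UnitPkg`** (finite chart): the hypotheses of `S36.H878.principalAt_of_unit_self'` for the
sheet `V i` of the family `V j`, `j ≤ e`, with the named element `x ∈ B`:
`U d = w ^ k` (`U` a unit of `B[1/w]`), `g` a unit of `B`, `U` a unit of the other sheets,
`v_i(U) = N`, and `x ^ N ≡ g U` modulo `U 𝔪_{V i}`. -/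
def UnitPkg (w : R) (B : Subalgebra R F) (e : ℕ) (V : ℕ → ValuationSubring F) (i : ℕ)
    (x : B) : Prop :=
  ∃ (U d g g' : B) (k N : ℕ), 0 < N ∧ U * d = algebraMap R B w ^ k ∧ g * g' = 1 ∧
    (∀ j ≤ e, j ≠ i → (U : F)⁻¹ ∈ V j) ∧
    (∀ t : F, UnifAt (V i) t → UnitAt (V i) ((U : F) * (t ^ N)⁻¹)) ∧
    ((x : F) ^ N - (g : F) * (U : F)) * (U : F)⁻¹ ∈ (V i).nonunits

/-- **`LitePkg`** (chart at infinity, coordinate `ξ = x_chart⁻¹ ∈ B`): the hypotheses of
`S36.H876.principalAt_lite` for the sheet `V i` with the named element `x ∈ B`: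
`x` is a uniformiser of `V i`, `x ^ N g₂ ≡ w ^ k g₁` modulo `w ^ k 𝔪_{V i}`, and `g₁` does not
vanish at the cusps of `V i`. -/
def LitePkg (w : R) (B : Subalgebra R F) (ξ : B) (V : ℕ → ValuationSubring F) (i : ℕ)
    (x : B) : Prop :=
  UnifAt (V i) (x : F) ∧ ∃ (g₁ g₂ : B) (k N : ℕ), 0 < N ∧
    ((x : F) ^ N * (g₂ : F) - algebraMap R F w ^ k * (g₁ : F)) * (algebraMap R F w ^ k)⁻¹
      ∈ (V i).nonunits ∧
    ∀ 𝔪 : Ideal B, 𝔪.IsMaximal → ξ ∈ 𝔪 → Through B 𝔪 (V i) → g₁ ∉ 𝔪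

end Pkg

/-! ## The step -/

section Step

variable {R F F' : Type*} [CommRing R] [Field F] [Field F'] [Algebra R F] [Algebra R F']

/-- The two field identities behind the steps. -/
theorem step_identity_unit {K : Type*} [Field K] (X A U g : K) (hA : A ≠ 0) (hU : U ≠ 0) :
    (X - g * U) * U⁻¹ = (g + (A - g * U) * U⁻¹) * (X * A⁻¹ - 1) + (A - g * U) * U⁻¹ := by
  field_simp
  ring

theorem step_identity_lite {K : Type*} [Field K] (X A W g₁ g₂ : K) (hA : A ≠ 0) (hW : W ≠ 0) :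
    (X * g₂ - W * g₁) * W⁻¹
      = (A * g₂ - W * g₁) * W⁻¹ + (X * A⁻¹ - 1) * ((A * g₂ - W * g₁) * W⁻¹ + g₁) := by
  field_simp
  ring

/-- `x ^ r = a (1 + ε)`, `ε ∈ 𝔪_V` ⟹ `(x ^ r) ^ N / a ^ N - 1 ∈ 𝔪_V`. -/
theorem nu_chain_pow (V : ValuationSubring F) {X a : F} (ha : a ≠ 0)
    (h : (X - a) * a⁻¹ ∈ V.nonunits) (N : ℕ) : X ^ N * (a ^ N)⁻¹ - 1 ∈ V.nonunits := by
  have e : X ^ N * (a ^ N)⁻¹ = (1 + (X - a) * a⁻¹) ^ N := by
    rw [← inv_pow, ← mul_pow]
    congr 1
    field_simp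
    ring
  rw [e]
  exact nu_one_add_pow_sub_one V h N

/-- **A4 / A3, finite chart: one step of `UnitPkg`.**  `V i` lies over `V' j` along `φ` with
ramification index `r` (`φ t' = unit · t ^ r`), every other sheet `V k` lies over a sheet
`V' l`, `l ≠ j`, and `x ^ r = φ x' (1 + 𝔪_{V i})`. -/
theorem unitPkg_step (w : R) (φ : F' →+* F)
    (hφw : φ (algebraMap R F' w) = algebraMap R F w)
    (B' : Subalgebra R F') (B : Subalgebra R F) (hφB : ∀ b ∈ B', φ b ∈ B)
    (n e : ℕ) (V' : ℕ → ValuationSubring F') (V : ℕ → ValuationSubring F) (i j : ℕ)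
    (hover : (V i).comap φ = V' j)
    (hother : ∀ k ≤ e, k ≠ i → ∃ l ≤ n, l ≠ j ∧ (V k).comap φ = V' l)
    (hBV : ∀ b : B, (b : F) ∈ V i)
    (r : ℕ) (hr : 0 < r)
    (hram : ∃ t' t, UnifAt (V' j) t' ∧ UnifAt (V i) t ∧ UnitAt (V i) (φ t' * (t ^ r)⁻¹))
    (x' : B') (x : B)
    (hcong : ((x : F) ^ r - φ x') * (φ (x' : F'))⁻¹ ∈ (V i).nonunits)
    (hpkg : _root_.Fermat.Agent.S45.Reg.H925.UnitPkg w B' n V' j x') : _root_.Fermat.Agent.S45.Reg.H925.UnitPkg w B e V i x := by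
  obtain ⟨U', d', g', g'', k, N', hN', hUd, hgg, hUo, hUi, hres⟩ := hpkg
  obtain ⟨t'₀, t₀, ht'₀, ht₀, hu⟩ := hram
  -- coercions of the identities
  have hUdF : (U' : F') * (d' : F') = algebraMap R F' w ^ k := by
    have := congrArg (fun b : B' => (b : F')) hUd
    simpa using this
  have hggF : (g' : F') * (g'' : F') = 1 := by
    have := congrArg (fun b : B' => (b : F')) hgg
    simpa using this
  -- `B' ⊆ V' j`
  have hB'V : ∀ b' : B', (b' : F') ∈ V' j := fun b' => by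
    rw [← hover, ValuationSubring.mem_comap]
    exact hBV ⟨φ b', hφB b' b'.2⟩
  -- `v_j'(U') = N'`, transported
  have h1 : UnitAt (V i) (φ (U' : F') * (φ t'₀ ^ N')⁻¹) := by
    have := hUi t'₀ ht'₀
    rw [← hover, unitAt_comap, map_mul, map_inv₀, map_pow] at this
    exact this
  have hU'0 : (U' : F') ≠ 0 := by
    intro h
    have := (hUi t'₀ ht'₀).1
    rw [h, zero_mul] at this
    exact this rfl
  have hU0 : φ (U' : F') ≠ 0 := fun h => hU'0 ((map_eq_zero φ).1 h)
  have ht'0 : φ t'₀ ≠ 0 := fun h => ht'₀.1 ((map_eq_zero φ).1 h)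
  -- `g'` is a unit of `V' j`
  have hg'u : UnitAt (V' j) (g' : F') := by
    refine ⟨fun h => ?_, hB'V g', ?_⟩
    · rw [h, zero_mul] at hggF; exact zero_ne_one hggF
    · have : (g' : F')⁻¹ = (g'' : F') := inv_eq_of_mul_eq_one_right hggF
      rw [this]; exact hB'V g''
  -- `x' ≠ 0`
  have hx'0 : (x' : F') ≠ 0 := by
    intro h
    rw [h, zero_pow (Nat.pos_iff_ne_zero.1 hN'), zero_sub, neg_mul, mul_assoc,
      mul_inv_cancel₀ hU'0, mul_one] at hres
    have := nu_neg _ hres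
    rw [neg_neg] at this
    exact ((nu_iff _).1 this).2 hg'u
  have ha0 : φ (x' : F') ≠ 0 := fun h => hx'0 ((map_eq_zero φ).1 h)
  refine ⟨⟨φ U', hφB U' U'.2⟩, ⟨φ d', hφB d' d'.2⟩, ⟨φ g', hφB g' g'.2⟩, ⟨φ g'', hφB g'' g''.2⟩,
    k, r * N', Nat.mul_pos hr hN', ?_, ?_, ?_, ?_, ?_⟩
  · apply Subtype.ext
    simp only [MulMemClass.coe_mul, SubmonoidClass.coe_pow, Subalgebra.coe_algebraMap]
    rw [← map_mul, hUdF, map_pow, hφw]
  · apply Subtype.ext
    simp only [MulMemClass.coe_mul, OneMemClass.coe_one]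
    rw [← map_mul, hggF, map_one]
  · intro k₁ hk₁ hk₁i
    obtain ⟨l, hl, hlj, hc⟩ := hother k₁ hk₁ hk₁i
    have := hUo l hl hlj
    rw [← hc, ValuationSubring.mem_comap, map_inv₀] at this
    exact this
  · intro t ht
    have h2 : UnitAt (V i) (t₀ * t⁻¹) := unitAt_unif_div (V i) ht₀ ht
    have e : φ (U' : F') * (t ^ (r * N'))⁻¹
        = φ (U' : F') * (φ t'₀ ^ N')⁻¹ * (φ t'₀ * (t₀ ^ r)⁻¹) ^ N' * (t₀ * t⁻¹) ^ (r * N') := by
      have ht0 : t ≠ 0 := ht.1
      have ht₀0 : t₀ ≠ 0 := ht₀.1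
      rw [mul_pow, mul_pow, inv_pow, inv_pow, ← pow_mul]
      field_simp
    show UnitAt (V i) (φ (U' : F') * (t ^ (r * N'))⁻¹)
    rw [e]
    exact unitAt_mul _ (unitAt_mul _ h1 (unitAt_pow _ hu N')) (unitAt_pow _ h2 (r * N'))
  · show ((x : F) ^ (r * N') - φ (g' : F') * φ (U' : F')) * (φ (U' : F'))⁻¹ ∈ (V i).nonunits
    have hδ : (φ (x' : F') ^ N' - φ (g' : F') * φ (U' : F')) * (φ (U' : F'))⁻¹
        ∈ (V i).nonunits := by
      have := hres
      rw [← hover, nu_comap, map_mul, map_sub, map_pow, map_mul, map_inv₀] at this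
      exact this
    have hη := nu_chain_pow (V i) ha0 hcong N'
    have hgV : φ (g' : F') ∈ V i := hBV ⟨φ g', hφB g' g'.2⟩
    rw [pow_mul, step_identity_unit (((x : F) ^ r) ^ N') (φ (x' : F') ^ N') (φ (U' : F'))
      (φ (g' : F')) (pow_ne_zero _ ha0) hU0]
    exact nu_add _ (nu_mul _ (V i |>.add_mem _ _ hgV (nu_mem _ hδ)) hη) hδ

/-- **A4 / A3, chart at infinity: one step of `LitePkg`.**  `hmax`: the contraction of a closed
point is a closed point (integrality of `B` over `φ B'`); `hξ`: the cusps lie over cusps. -/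
theorem litePkg_step (w : R) (hw0 : algebraMap R F w ≠ 0) (φ : F' →+* F)
    (hφw : φ (algebraMap R F' w) = algebraMap R F w)
    (B' : Subalgebra R F') (B : Subalgebra R F) (hφB : ∀ b ∈ B', φ b ∈ B)
    (ξ' : B') (ξ : B)
    (V' : ℕ → ValuationSubring F') (V : ℕ → ValuationSubring F) (i j : ℕ)
    (hover : (V i).comap φ = V' j)
    (hBV : ∀ b : B, (b : F) ∈ V i)
    (r : ℕ) (hr : 0 < r)
    (hram : ∃ t' t, UnifAt (V' j) t' ∧ UnifAt (V i) t ∧ UnitAt (V i) (φ t' * (t ^ r)⁻¹))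
    (hmax : ∀ 𝔪 : Ideal B, 𝔪.IsMaximal → ∃ 𝔪' : Ideal B', 𝔪'.IsMaximal ∧
      ∀ b' : B', b' ∈ 𝔪' ↔ (⟨φ b', hφB b' b'.2⟩ : B) ∈ 𝔪)
    (hξ : ∀ 𝔪 : Ideal B, 𝔪.IsMaximal → ξ ∈ 𝔪 → (⟨φ ξ', hφB ξ' ξ'.2⟩ : B) ∈ 𝔪)
    (x' : B') (x : B)
    (hcong : ((x : F) ^ r - φ x') * (φ (x' : F'))⁻¹ ∈ (V i).nonunits)
    (hpkg : _root_.Fermat.Agent.S45.Reg.H925.LitePkg w B' ξ' V' j x') : _root_.Fermat.Agent.S45.Reg.H925.LitePkg w B ξ V i x := by
  obtain ⟨hx', g₁', g₂', k, N', hN', hc', hg'⟩ := hpkg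
  obtain ⟨t'₀, t₀, ht'₀, ht₀, hu⟩ := hram
  have ha0 : φ (x' : F') ≠ 0 := fun h => hx'.1 ((map_eq_zero φ).1 h)
  have hwk0 : algebraMap R F w ^ k ≠ 0 := pow_ne_zero k hw0
  have hη1 := nu_chain_pow (V i) ha0 hcong 1
  refine ⟨?_, ⟨φ g₁', hφB g₁' g₁'.2⟩, ⟨φ g₂', hφB g₂' g₂'.2⟩, k, r * N', Nat.mul_pos hr hN',
    ?_, ?_⟩
  · -- `x` is a uniformiser
    have h1 : UnitAt (V i) (φ (x' : F') * (φ t'₀)⁻¹) := by
      have := unitAt_unif_div (V' j) hx' ht'₀
      rw [← hover, unitAt_comap, map_mul, map_inv₀] at this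
      exact this
    have h2 : UnitAt (V i) ((x : F) ^ r * (φ (x' : F'))⁻¹) := by
      rw [pow_one, pow_one] at hη1
      rw [unitAt_iff_val]
      have e : (x : F) ^ r * (φ (x' : F'))⁻¹ = ((x : F) ^ r * (φ (x' : F'))⁻¹ - 1) + 1 := by ring
      rw [e]
      have := Valuation.map_add_eq_of_lt_right (V i).valuation
        (x := (x : F) ^ r * (φ (x' : F'))⁻¹ - 1) (y := 1)
        (by rw [map_one]; exact (ValuationSubring.mem_nonunits_iff _).1 hη1)
      rw [this, map_one]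
    have ht'0 : φ t'₀ ≠ 0 := fun h => ht'₀.1 ((map_eq_zero φ).1 h)
    have h3 : UnitAt (V i) (((x : F) * t₀⁻¹) ^ r) := by
      have e : ((x : F) * t₀⁻¹) ^ r
          = (x : F) ^ r * (φ (x' : F'))⁻¹ * (φ (x' : F') * (φ t'₀)⁻¹) * (φ t'₀ * (t₀ ^ r)⁻¹) := by
        have ht₀0 : t₀ ≠ 0 := ht₀.1
        rw [mul_pow, inv_pow]
        field_simp
      rw [e]
      exact unitAt_mul _ (unitAt_mul _ h2 h1) hu
    exact unifAt_of_unit_mul (V i) ht₀ (unitAt_of_pow (V i) hr h3)
  · show ((x : F) ^ (r * N') * φ (g₂' : F') - algebraMap R F w ^ k * φ (g₁' : F'))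
      * (algebraMap R F w ^ k)⁻¹ ∈ (V i).nonunits
    have hc : (φ (x' : F') ^ N' * φ (g₂' : F') - algebraMap R F w ^ k * φ (g₁' : F'))
        * (algebraMap R F w ^ k)⁻¹ ∈ (V i).nonunits := by
      have := hc'
      rw [← hover, nu_comap, map_mul, map_sub, map_mul, map_mul, map_pow, map_inv₀, map_pow,
        hφw] at this
      exact this
    have hη := nu_chain_pow (V i) ha0 hcong N'
    have hgV : φ (g₁' : F') ∈ V i := hBV ⟨φ g₁', hφB g₁' g₁'.2⟩
    rw [pow_mul, step_identity_lite (((x : F) ^ r) ^ N') (φ (x' : F') ^ N')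
      (algebraMap R F w ^ k) (φ (g₁' : F')) (φ (g₂' : F')) (pow_ne_zero _ ha0) hwk0]
    exact nu_add _ hc (nu_mul' _ hη ((V i).add_mem _ _ (nu_mem _ hc) hgV))
  · intro 𝔪 h𝔪 hξ𝔪 hthr
    obtain ⟨𝔪', h𝔪', hiff⟩ := hmax 𝔪 h𝔪
    intro hmem
    refine hg' 𝔪' h𝔪' ((hiff ξ').2 (hξ 𝔪 h𝔪 hξ𝔪)) (fun b' hb' => ?_) ((hiff g₁').2 hmem)
    refine (hiff b').2 (hthr _ ?_)
    show φ (b' : F') ∈ (V i).nonunits
    rw [← hover, nu_comap] at hb'
    exact hb'

/-- **A3, finite chart**: the case `r = 1`, `x = φ x'` of `unitPkg_step`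
(`hram`: a uniformiser of `V' j` stays a uniformiser of `V i`). -/
theorem unitPkg_map (w : R) (φ : F' →+* F)
    (hφw : φ (algebraMap R F' w) = algebraMap R F w)
    (B' : Subalgebra R F') (B : Subalgebra R F) (hφB : ∀ b ∈ B', φ b ∈ B)
    (n e : ℕ) (V' : ℕ → ValuationSubring F') (V : ℕ → ValuationSubring F) (i j : ℕ)
    (hover : (V i).comap φ = V' j)
    (hother : ∀ k ≤ e, k ≠ i → ∃ l ≤ n, l ≠ j ∧ (V k).comap φ = V' l)
    (hBV : ∀ b : B, (b : F) ∈ V i)
    (hram : ∃ t', UnifAt (V' j) t' ∧ UnifAt (V i) (φ t'))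
    (x' : B') (hpkg : _root_.Fermat.Agent.S45.Reg.H925.UnitPkg w B' n V' j x') :
    _root_.Fermat.Agent.S45.Reg.H925.UnitPkg w B e V i ⟨φ x', hφB x' x'.2⟩ := by
  obtain ⟨t', ht', ht⟩ := hram
  refine unitPkg_step w φ hφw B' B hφB n e V' V i j hover hother hBV 1 one_pos
    ⟨t', φ t', ht', ht, ?_⟩ x' _ ?_ hpkg
  · rw [pow_one]
    exact unitAt_unif_div (V i) ht ht
  · show (φ (x' : F') ^ 1 - φ x') * (φ (x' : F'))⁻¹ ∈ (V i).nonunits
    rw [pow_one, sub_self, zero_mul]
    exact nu_zero _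

/-- **A3, chart at infinity**: the case `r = 1`, `x = φ x'` of `litePkg_step`. -/
theorem litePkg_map (w : R) (hw0 : algebraMap R F w ≠ 0) (φ : F' →+* F)
    (hφw : φ (algebraMap R F' w) = algebraMap R F w)
    (B' : Subalgebra R F') (B : Subalgebra R F) (hφB : ∀ b ∈ B', φ b ∈ B)
    (ξ' : B') (ξ : B)
    (V' : ℕ → ValuationSubring F') (V : ℕ → ValuationSubring F) (i j : ℕ)
    (hover : (V i).comap φ = V' j)
    (hBV : ∀ b : B, (b : F) ∈ V i)
    (hram : ∃ t', UnifAt (V' j) t' ∧ UnifAt (V i) (φ t'))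
    (hmax : ∀ 𝔪 : Ideal B, 𝔪.IsMaximal → ∃ 𝔪' : Ideal B', 𝔪'.IsMaximal ∧
      ∀ b' : B', b' ∈ 𝔪' ↔ (⟨φ b', hφB b' b'.2⟩ : B) ∈ 𝔪)
    (hξ : ∀ 𝔪 : Ideal B, 𝔪.IsMaximal → ξ ∈ 𝔪 → (⟨φ ξ', hφB ξ' ξ'.2⟩ : B) ∈ 𝔪)
    (x' : B') (hpkg : _root_.Fermat.Agent.S45.Reg.H925.LitePkg w B' ξ' V' j x') :
    _root_.Fermat.Agent.S45.Reg.H925.LitePkg w B ξ V i ⟨φ x', hφB x' x'.2⟩ := by
  obtain ⟨t', ht', ht⟩ := hram
  refine litePkg_step w hw0 φ hφw B' B hφB ξ' ξ V' V i j hover hBV 1 one_pos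
    ⟨t', φ t', ht', ht, ?_⟩ hmax hξ x' _ ?_ hpkg
  · rw [pow_one]
    exact unitAt_unif_div (V i) ht ht
  · show (φ (x' : F') ^ 1 - φ x') * (φ (x' : F'))⁻¹ ∈ (V i).nonunits
    rw [pow_one, sub_self, zero_mul]
    exact nu_zero _

end Step

end Fermat.Agent.S45.Reg.H925

end
-- ===== PACK-END S45/Reg/H925/PkgWild.lean

-- ===== PACK-BEGIN S45/H693/ChainCong.lean
section


/-!
# S45 / CAR3, MOD-E/Reg, leaf A5 `chain_cong` (helper693, 2nd owner; 1st owner helper922)

Mathlib only.  `V` a valuation ring of a field `F`, `q` a prime.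

* `chain_cong693` (GENERIC, REG leaf list v1 of helper878, leaf A5): if `q ∈ w V`,
  `a ^ q ≡ a1` and `b ^ q ≡ b1` modulo `w V` and `v(w) > v(a1 - b1)`, then

      `((a - b) ^ q - (a1 - b1)) / (a1 - b1) ∈ 𝔪_V`,

  i.e. `(a - b) ^ q = (a1 - b1) (1 + 𝔪_V)`.  (Diagonal sheet `2 i = e`: `a = τ e`, `b = τ 0`,
  `a1 = τ (e - 1)`, `b1 = τ 1`, hypotheses = `VerW`, `FrobW`, `μ > q`.)
* `chain_cong_fine693` (REFINED): the same conclusion from `v(q) ≥ v(a1 - b1)` only, if the two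
  Frobenius defects agree to first order: `(a ^ q - a1) - (b ^ q - b1) ∈ q 𝔪_V` and `a ≡ b`.
* `kron_defect693`: the two Frobenius defects agree to first order if `(a, a1)` and `(b, b1)`
  are roots of ONE polynomial `Φ = (X ^ q - Y) (X - Y ^ q) + q Θ` (Kronecker,
  `S28.h88_kronecker_int`), `a ≡ b`, `a1 ≡ b1` and `a - a1 ^ q` is a unit.
* `chain_cong_kron693` = the two together (covers `q = 2`, `e = 4`, where `μ = q`).

No symmetry of `Θ` is needed: both pairs are used in the SAME orientation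
`Φ(X := root, Y := its approximate q-th power) = 0`.
-/

set_option autoImplicit false

namespace Fermat.Agent.S45.H693

section Basic

variable {F : Type*} [Field F] (V : ValuationSubring F)

theorem nonunits_mul_mem693 {x y : F} (hx : x ∈ V.nonunits) (hy : y ∈ V) :
    x * y ∈ V.nonunits := by
  rw [ValuationSubring.mem_nonunits_iff] at hx ⊢
  have hy' : V.valuation y ≤ 1 := (V.valuation_le_one_iff y).2 hy
  rw [map_mul]
  exact mul_lt_one_of_lt_of_le hx hy'

theorem mem_mul_nonunits693 {x y : F} (hx : x ∈ V) (hy : y ∈ V.nonunits) :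
    x * y ∈ V.nonunits := by
  rw [mul_comm]
  exact nonunits_mul_mem693 V hy hx

theorem nonunits_add693 {x y : F} (hx : x ∈ V.nonunits) (hy : y ∈ V.nonunits) :
    x + y ∈ V.nonunits := by
  rw [ValuationSubring.mem_nonunits_iff] at hx hy ⊢
  exact lt_of_le_of_lt (V.valuation.map_add x y) (max_lt hx hy)

theorem nonunits_neg693 {x : F} (hx : x ∈ V.nonunits) : -x ∈ V.nonunits := by
  rw [ValuationSubring.mem_nonunits_iff] at hx ⊢
  rwa [Valuation.map_neg]

theorem nonunits_sub693 {x y : F} (hx : x ∈ V.nonunits) (hy : y ∈ V.nonunits) :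
    x - y ∈ V.nonunits := by
  rw [sub_eq_add_neg]
  exact nonunits_add693 V hx (nonunits_neg693 V hy)

theorem nonunits_mem693 {x : F} (hx : x ∈ V.nonunits) : x ∈ V := by
  rw [ValuationSubring.mem_nonunits_iff] at hx
  exact (V.valuation_le_one_iff x).1 hx.le

theorem zero_mem_nonunits693 : (0 : F) ∈ V.nonunits := by
  rw [ValuationSubring.mem_nonunits_iff]
  simp

/-- A non-unit-free element of `V` is a unit. -/
theorem inv_mem_of_notMem_nonunits693 {u : F} (hu : u ∈ V) (hu' : u ∉ V.nonunits) :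
    u ≠ 0 ∧ u⁻¹ ∈ V := by
  rw [ValuationSubring.mem_nonunits_iff, not_lt] at hu'
  have h1 : V.valuation u ≤ 1 := (V.valuation_le_one_iff u).2 hu
  have h2 : V.valuation u = 1 := le_antisymm h1 hu'
  refine ⟨?_, ?_⟩
  · rintro rfl
    simp at h2
  · rw [← V.valuation_le_one_iff, map_inv₀, h2, inv_one]

end Basic

section Binomial

/-- `(a - b) ^ q = a ^ q - b ^ q - q b (a - b) r` in every commutative ring, `q` prime. -/
theorem sub_pow_prime_eq693 {R : Type*} [CommRing R] {q : ℕ} (hq : q.Prime) (a b : R) :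
    ∃ r : R, (a - b) ^ q - (a ^ q - b ^ q) = -((q : R) * b * (a - b) * r) := by
  obtain ⟨r, hr⟩ := exists_add_pow_prime_eq hq b (a - b)
  refine ⟨r, ?_⟩
  have h : a ^ q = b ^ q + (a - b) ^ q + (q : R) * b * (a - b) * r := by
    rw [← hr]
    congr 1
    ring
  rw [h]
  ring

variable {F : Type*} [Field F] (V : ValuationSubring F)

/-- The same inside a valuation ring: the cofactor `r` lies in `V`. -/
theorem sub_pow_prime_eq_mem693 {q : ℕ} (hq : q.Prime) {a b : F} (ha : a ∈ V) (hb : b ∈ V) :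
    ∃ r ∈ V, (a - b) ^ q - (a ^ q - b ^ q) = -((q : F) * b * (a - b) * r) := by
  obtain ⟨r, hr⟩ := sub_pow_prime_eq693 hq (⟨a, ha⟩ : V) (⟨b, hb⟩ : V)
  refine ⟨(r : F), r.2, ?_⟩
  have h := congrArg (fun z : V => (z : F)) hr
  simpa using h

end Binomial

section Chain

variable {F : Type*} [Field F] (V : ValuationSubring F)

/-- **A5 `chain_cong`, generic form.**  `q ∈ w V`, `a ^ q ≡ a1`, `b ^ q ≡ b1` modulo `w V`,
`v(w) > v(a1 - b1)`  ⟹  `(a - b) ^ q = (a1 - b1) (1 + 𝔪_V)`. -/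
theorem chain_cong693 {q : ℕ} (hq : q.Prime) {w a b a1 b1 : F} (hw0 : w ≠ 0)
    (ha : a ∈ V) (hb : b ∈ V)
    (hqw : (q : F) * w⁻¹ ∈ V)
    (hA : (a ^ q - a1) * w⁻¹ ∈ V) (hB : (b ^ q - b1) * w⁻¹ ∈ V)
    (hw : w * (a1 - b1)⁻¹ ∈ V.nonunits) :
    ((a - b) ^ q - (a1 - b1)) * (a1 - b1)⁻¹ ∈ V.nonunits := by
  obtain ⟨r, hr, hrel⟩ := sub_pow_prime_eq_mem693 V hq ha hb
  have hD : (a ^ q - a1) * w⁻¹ - (b ^ q - b1) * w⁻¹
      - (q : F) * w⁻¹ * (b * (a - b) * r) ∈ V :=
    V.sub_mem (V.sub_mem hA hB)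
      (V.mul_mem _ _ hqw (V.mul_mem _ _ (V.mul_mem _ _ hb (V.sub_mem ha hb)) hr))
  have e : ((a - b) ^ q - (a1 - b1)) * (a1 - b1)⁻¹
      = (w * (a1 - b1)⁻¹) * ((a ^ q - a1) * w⁻¹ - (b ^ q - b1) * w⁻¹
          - (q : F) * w⁻¹ * (b * (a - b) * r)) := by
    have h1 : (a - b) ^ q = (a ^ q - b ^ q) - (q : F) * b * (a - b) * r := by
      linear_combination hrel
    rw [h1]
    field_simp
    ring
  rw [e]
  exact nonunits_mul_mem693 V hw hD

/-- **A5, refined form**: `v(q) ≥ v(a1 - b1)` suffices if the two Frobenius defects agree to first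
order and `a ≡ b`. -/
theorem chain_cong_fine693 {q : ℕ} (hq : q.Prime) {a b a1 b1 ε : F}
    (ha : a ∈ V) (hb : b ∈ V) (hab : a - b ∈ V.nonunits)
    (hε : ε ∈ V.nonunits) (hdef : (a ^ q - a1) - (b ^ q - b1) = (q : F) * ε)
    (hq1 : (q : F) * (a1 - b1)⁻¹ ∈ V) :
    ((a - b) ^ q - (a1 - b1)) * (a1 - b1)⁻¹ ∈ V.nonunits := by
  obtain ⟨r, hr, hrel⟩ := sub_pow_prime_eq_mem693 V hq ha hb
  have hD : ε - b * (a - b) * r ∈ V.nonunits :=
    nonunits_sub693 V hε
      (nonunits_mul_mem693 V (mem_mul_nonunits693 V hb hab) hr)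
  have e : ((a - b) ^ q - (a1 - b1)) * (a1 - b1)⁻¹
      = ((q : F) * (a1 - b1)⁻¹) * (ε - b * (a - b) * r) := by
    have h1 : (a - b) ^ q - (a1 - b1) = (q : F) * (ε - b * (a - b) * r) := by
      linear_combination hrel + hdef
    rw [h1]
    ring
  rw [e]
  exact mem_mul_nonunits693 V hq1 hD

end Chain

section Kron

variable {F : Type*} [Field F] (V : ValuationSubring F)

/-- Evaluation at `(X, Y) = (x, y)` of a two-variable integer polynomial commutes with
`V ↪ F`. -/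
theorem eval₂_coe693 (P : Polynomial (Polynomial ℤ)) (x y : V) :
    P.eval₂ (Polynomial.eval₂RingHom (Int.castRingHom F) (y : F)) (x : F)
      = ((P.eval₂ (Polynomial.eval₂RingHom (Int.castRingHom V) y) x : V) : F) := by
  have h : V.subtype.comp (Polynomial.eval₂RingHom (Int.castRingHom V) y)
      = Polynomial.eval₂RingHom (Int.castRingHom F) (y : F) := by
    apply Polynomial.ringHom_ext
    · intro c
      simp
    · simp
  rw [← h]
  exact (Polynomial.hom_eval₂ P _ V.subtype x).symm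

/-- ... and with the residue map. -/
theorem residue_eval₂693 (P : Polynomial (Polynomial ℤ)) (x y : V) :
    IsLocalRing.residue V (P.eval₂ (Polynomial.eval₂RingHom (Int.castRingHom V) y) x)
      = P.eval₂ (Polynomial.eval₂RingHom (Int.castRingHom (IsLocalRing.ResidueField V))
          (IsLocalRing.residue V y)) (IsLocalRing.residue V x) := by
  have h : (IsLocalRing.residue V).comp (Polynomial.eval₂RingHom (Int.castRingHom V) y)
      = Polynomial.eval₂RingHom (Int.castRingHom (IsLocalRing.ResidueField V))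
          (IsLocalRing.residue V y) := by
    apply Polynomial.ringHom_ext
    · intro c
      simp
    · simp
  rw [← h]
  exact Polynomial.hom_eval₂ P _ (IsLocalRing.residue V) x

theorem residue_eq_of_sub_mem693 {x y : V} (h : ((x : F) - (y : F)) ∈ V.nonunits) :
    IsLocalRing.residue V x = IsLocalRing.residue V y := by
  have h' : ((x - y : V) : F) ∈ V.nonunits := by simpa using h
  rw [ValuationSubring.coe_mem_nonunits_iff] at h'
  have := (IsLocalRing.residue_eq_zero_iff (x - y)).2 h'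
  rw [map_sub] at this
  exact sub_eq_zero.1 this

theorem sub_mem_of_residue_eq693 {x y : V}
    (h : IsLocalRing.residue V x = IsLocalRing.residue V y) :
    ((x : F) - (y : F)) ∈ V.nonunits := by
  have h0 : IsLocalRing.residue V (x - y) = 0 := by rw [map_sub, h, sub_self]
  have h1 := (IsLocalRing.residue_eq_zero_iff (x - y)).1 h0
  rw [← ValuationSubring.coe_mem_nonunits_iff] at h1
  simpa using h1

/-- Two-variable congruence: `x₁ ≡ x₂`, `y₁ ≡ y₂` ⟹ `P(x₁, y₁) ∈ V`, `P(x₁, y₁) ≡ P(x₂, y₂)`. -/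
theorem eval₂_congr693 (P : Polynomial (Polynomial ℤ)) {x₁ y₁ x₂ y₂ : F}
    (hx₁ : x₁ ∈ V) (hx₂ : x₂ ∈ V) (hy₁ : y₁ ∈ V) (hy₂ : y₂ ∈ V)
    (hx : x₁ - x₂ ∈ V.nonunits) (hy : y₁ - y₂ ∈ V.nonunits) :
    P.eval₂ (Polynomial.eval₂RingHom (Int.castRingHom F) y₁) x₁ ∈ V ∧
      P.eval₂ (Polynomial.eval₂RingHom (Int.castRingHom F) y₁) x₁
        - P.eval₂ (Polynomial.eval₂RingHom (Int.castRingHom F) y₂) x₂ ∈ V.nonunits := by
  have e₁ := eval₂_coe693 V P ⟨x₁, hx₁⟩ ⟨y₁, hy₁⟩
  have e₂ := eval₂_coe693 V P ⟨x₂, hx₂⟩ ⟨y₂, hy₂⟩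
  simp only at e₁ e₂
  rw [e₁, e₂]
  refine ⟨Subtype.property _, sub_mem_of_residue_eq693 V ?_⟩
  rw [residue_eval₂693, residue_eval₂693,
    residue_eq_of_sub_mem693 V (x := ⟨x₁, hx₁⟩) (y := ⟨x₂, hx₂⟩) hx,
    residue_eq_of_sub_mem693 V (x := ⟨y₁, hy₁⟩) (y := ⟨y₂, hy₂⟩) hy]

/-- `x ≡ y` ⟹ `x ^ n ≡ y ^ n`. -/
theorem pow_sub_pow_mem693 {x y : F} (hx : x ∈ V) (hy : y ∈ V) (h : x - y ∈ V.nonunits) (n : ℕ) :
    x ^ n - y ^ n ∈ V.nonunits := by
  have h' := residue_eq_of_sub_mem693 V (x := ⟨x, hx⟩) (y := ⟨y, hy⟩) h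
  have := sub_mem_of_residue_eq693 V (x := (⟨x, hx⟩ : V) ^ n) (y := (⟨y, hy⟩ : V) ^ n)
    (by rw [map_pow, map_pow, h'])
  simpa using this

/-- The Kronecker identity, evaluated. -/
theorem eval₂_kron693 {q : ℕ} {Φ Θ : Polynomial (Polynomial ℤ)}
    (hKron : Φ = ((Polynomial.X : Polynomial (Polynomial ℤ)) ^ q
        - Polynomial.C (Polynomial.X : Polynomial ℤ))
      * (Polynomial.X - Polynomial.C ((Polynomial.X : Polynomial ℤ) ^ q))
      + Polynomial.C (Polynomial.C (q : ℤ)) * Θ) (x y : F) :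
    Φ.eval₂ (Polynomial.eval₂RingHom (Int.castRingHom F) y) x
      = (x ^ q - y) * (x - y ^ q)
        + (q : F) * Θ.eval₂ (Polynomial.eval₂RingHom (Int.castRingHom F) y) x := by
  rw [hKron]
  simp [Polynomial.eval₂_pow]

/-- **The two Frobenius defects agree to first order** (Kronecker).  Both pairs in the orientation
`Φ(X := a, Y := a1) = 0` with `a ^ q ≡ a1`. -/
theorem kron_defect693 {q : ℕ} {Φ Θ : Polynomial (Polynomial ℤ)}
    (hKron : Φ = ((Polynomial.X : Polynomial (Polynomial ℤ)) ^ q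
        - Polynomial.C (Polynomial.X : Polynomial ℤ))
      * (Polynomial.X - Polynomial.C ((Polynomial.X : Polynomial ℤ) ^ q))
      + Polynomial.C (Polynomial.C (q : ℤ)) * Θ)
    {a a1 b b1 : F} (ha : a ∈ V) (ha1 : a1 ∈ V) (hb : b ∈ V) (hb1 : b1 ∈ V)
    (hΦa : Φ.eval₂ (Polynomial.eval₂RingHom (Int.castRingHom F) a1) a = 0)
    (hΦb : Φ.eval₂ (Polynomial.eval₂RingHom (Int.castRingHom F) b1) b = 0)
    (hab : a - b ∈ V.nonunits) (hab1 : a1 - b1 ∈ V.nonunits)
    (hunit : a - a1 ^ q ∉ V.nonunits) :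
    ∃ ε ∈ V.nonunits, (a ^ q - a1) - (b ^ q - b1) = (q : F) * ε := by
  set u₁ := a - a1 ^ q with hu₁
  set u₂ := b - b1 ^ q with hu₂
  have hu₁V : u₁ ∈ V := V.sub_mem ha (pow_mem ha1 q)
  have hu₂V : u₂ ∈ V := V.sub_mem hb (pow_mem hb1 q)
  have hu₁₂ : u₁ - u₂ ∈ V.nonunits := by
    have e : u₁ - u₂ = (a - b) - (a1 ^ q - b1 ^ q) := by rw [hu₁, hu₂]; ring
    rw [e]
    exact nonunits_sub693 V hab (pow_sub_pow_mem693 V ha1 hb1 hab1 q)
  have hunit₂ : u₂ ∉ V.nonunits := by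
    intro h
    apply hunit
    have e : u₁ = (u₁ - u₂) + u₂ := by ring
    rw [e]
    exact nonunits_add693 V hu₁₂ h
  obtain ⟨hu₁0, hu₁i⟩ := inv_mem_of_notMem_nonunits693 V hu₁V hunit
  obtain ⟨hu₂0, hu₂i⟩ := inv_mem_of_notMem_nonunits693 V hu₂V hunit₂
  have k₁ := eval₂_kron693 hKron a a1
  have k₂ := eval₂_kron693 hKron b b1
  rw [hΦa] at k₁
  rw [hΦb] at k₂
  obtain ⟨hΘ₁, hΘ⟩ := eval₂_congr693 V Θ ha hb ha1 hb1 hab hab1
  obtain ⟨hΘ₂, -⟩ := eval₂_congr693 V Θ hb ha hb1 ha1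
    (by have := nonunits_neg693 V hab; rwa [neg_sub] at this)
    (by have := nonunits_neg693 V hab1; rwa [neg_sub] at this)
  set Θa := Θ.eval₂ (Polynomial.eval₂RingHom (Int.castRingHom F) a1) a with hΘa
  set Θb := Θ.eval₂ (Polynomial.eval₂RingHom (Int.castRingHom F) b1) b with hΘb
  have d₁ : a ^ q - a1 = -((q : F) * Θa) * u₁⁻¹ := by
    have : (a ^ q - a1) * u₁ = -((q : F) * Θa) := by
      rw [hu₁]; linear_combination -k₁
    field_simp
    linear_combination this
  have d₂ : b ^ q - b1 = -((q : F) * Θb) * u₂⁻¹ := by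
    have : (b ^ q - b1) * u₂ = -((q : F) * Θb) := by
      rw [hu₂]; linear_combination -k₂
    field_simp
    linear_combination this
  refine ⟨-(Θa * u₁⁻¹ - Θb * u₂⁻¹), nonunits_neg693 V ?_, ?_⟩
  · have e : Θa * u₁⁻¹ - Θb * u₂⁻¹
        = (Θa - Θb) * u₁⁻¹ + (u₂ - u₁) * (Θb * (u₁⁻¹ * u₂⁻¹)) := by
      field_simp
      ring
    rw [e]
    refine nonunits_add693 V (nonunits_mul_mem693 V hΘ hu₁i)
      (nonunits_mul_mem693 V ?_ (V.mul_mem _ _ hΘ₂ (V.mul_mem _ _ hu₁i hu₂i)))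
    have := nonunits_neg693 V hu₁₂
    rwa [neg_sub] at this
  · rw [d₁, d₂]
    ring

/-- **A5 `chain_cong`, Kronecker form** (`v(q) ≥ v(a1 - b1)`; covers `μ = q`, i.e. `q = 2`,
`e = 4`):  `(a - b) ^ q = (a1 - b1) (1 + 𝔪_V)`. -/
theorem chain_cong_kron693 {q : ℕ} (hq : q.Prime) {Φ Θ : Polynomial (Polynomial ℤ)}
    (hKron : Φ = ((Polynomial.X : Polynomial (Polynomial ℤ)) ^ q
        - Polynomial.C (Polynomial.X : Polynomial ℤ))
      * (Polynomial.X - Polynomial.C ((Polynomial.X : Polynomial ℤ) ^ q))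
      + Polynomial.C (Polynomial.C (q : ℤ)) * Θ)
    {a a1 b b1 : F} (ha : a ∈ V) (ha1 : a1 ∈ V) (hb : b ∈ V) (hb1 : b1 ∈ V)
    (hΦa : Φ.eval₂ (Polynomial.eval₂RingHom (Int.castRingHom F) a1) a = 0)
    (hΦb : Φ.eval₂ (Polynomial.eval₂RingHom (Int.castRingHom F) b1) b = 0)
    (hab : a - b ∈ V.nonunits) (hab1 : a1 - b1 ∈ V.nonunits)
    (hunit : a - a1 ^ q ∉ V.nonunits)
    (hq1 : (q : F) * (a1 - b1)⁻¹ ∈ V) :
    ((a - b) ^ q - (a1 - b1)) * (a1 - b1)⁻¹ ∈ V.nonunits := by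
  obtain ⟨ε, hε, hdef⟩ := kron_defect693 V hKron ha ha1 hb hb1 hΦa hΦb hab hab1 hunit
  exact chain_cong_fine693 V hq ha hb hab hε hdef hq1

end Kron

end Fermat.Agent.S45.H693

end
-- ===== PACK-END S45/H693/ChainCong.lean

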