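import Fermat.Agent.Pack.S43MC.G0E23L3
import Fermat.Agent.Pack.S45.E0L0
import Fermat.Agent.Pack.S43MC.G0E24L1
import Fermat.Agent.Pack.S45.E1L0
import Fermat.Agent.Pack.S45.E0L1
import Fermat.Agent.Pack.S43MC.G0E24L0
import Fermat.Agent.Pack.S44C.G0E26L0
import Fermat.Agent.Pack.S43MC.G0E17L0
import Fermat.Agent.Pack.S44C.G0E24L3
import Fermat.Agent.Pack.S44C.G0E24L1
import Fermat.Agent.Pack.S43MC.G0E25L0
import Fermat.Agent.Pack.S43MC.G0E23L2
import Fermat.Agent.Pack.S43MC.G0E3L2
import Fermat.Agent.Pack.S44C.G0E23L2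
import Fermat.Agent.Pack.S44C.G0E17L2
import Fermat.Agent.Pack.S44C.G0E21L1
import Fermat.Agent.Pack.S45.E0L3
import Fermat.Agent.Pack.S45.E0L2
import Fermat.Agent.Pack.S43MC.G0E10L3
import Fermat.Agent.Pack.S43MC.G0E23L0
import Fermat.Agent.Pack.S43MC.G0E4L0
import Fermat.Agent.Pack.Fast891

set_option linter.all false

-- ===== PACK-BEGIN S45/H838/ChainJ.lean
section




/-!
# S45 / CAR3, MOD-E / CHART — the modular CHAIN `j, j_q, …, j_{q^e}` at ANY level (helper838)

Level `N` (arbitrary), `q` prime.  `jch E N q i = j_{q^i} ∈ F_E(N)` (`q^i ∣ N`; junk value `1`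
otherwise), **chain coordinate** `xch E N q e = ∏_{i ≤ e} j_{q^i}` (for `e = 1` this is the A2
coordinate `j · j_q`, for `e = 2` the S36 coordinate `j · j_q · j_{q²}`).

* `modEq_up838`, `modEq_down838` : `Φ_q(j_d ; j_{qd}) = 0 = Φ_q(j_{qd} ; j_d)` at every level `N`
  with `q d ∣ N`;
* `jch_mem_iff838`      : `j_{q^i} ∈ V ↔ j_{q^(i+1)} ∈ V` for every valuation subring `V`;
* `jch_mem_of_xch_mem838`, `jch_inv_mem_of_xch_inv_mem838` : valuative criterion;
* `jch_mem_chart838`, `jch_inv_mem_chart838` : `j_{q^i} ∈ chart R {x}`, `j_{q^i}⁻¹ ∈ chart R {x⁻¹}`;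
* `alpha_jch838`, `beta_jch838`, `alpha_xch838`, `beta_xch838` : the degeneracy maps on the chain;
* `chart_alpha838e`, `chart_beta838e`, `int_alpha838e`, `int_beta838e` : the chart fields
  `chart_α`, `chart_β`, `int_α`, `int_β` (shape of `S36.Eng.TripleCtx`) for the pair of levels
  `N`, `N q` and the coordinates `x' = xch E N q e`, `x = xch E (N q) q (e + 1)`, `q ^ e ∣ N`.

No hypothesis on `P`, `E`, `N` beyond `q` prime and `q ^ e ∣ N`.
-/

set_option autoImplicit false
set_option synthInstance.maxHeartbeats 400000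
set_option maxHeartbeats 1600000
set_option linter.unusedSectionVars false

noncomputable section

namespace Fermat.Agent.S45.H838

open ModularCurve Polynomial Finset
open Fermat.Agent.S18.H138 (chart mem_chart mem_chart_of_mem)
open Fermat.Agent
open Fermat.Agent.S36.Mod3.H189 (mem_valuationSubring_of_monic
  mem_chart_of_forall_valuationSubring chart_map int_map imgChart mem_imgChart
  isIntegral_of_monic_eval₂)

variable (P : ValuationSubring A2.Qb) (E : IntermediateField ℚ A2.Qb) (N q : ℕ)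
  [NeZero N] [NeZero q]

/-! ## The modular equation between `j_d` and `j_{qd}` at level `N` -/

section ModEq

/-- substitution `t ↦ t^p` commutes with evaluation of integral polynomials -/
theorem qExpand_comp_evalAt838 {A : Type*} [CommRing A] (p : ℕ) [NeZero p]
    (y : LaurentSeries A) :
    (qExpand A p).comp (S28.evalAt y) = S28.evalAt (qExpand A p y) := by
  refine Polynomial.ringHom_ext' (Subsingleton.elim _ _) ?_
  simp [S28.evalAt]

variable (D : S28.ModPolyData q)

/-- `Φ_q(X = j_d; Y = j_{qd}) = 0` at level `N`. -/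
theorem modEq_up838 (d : ℕ) [NeZero d] (hd : d ∣ N) (hdq : q * d ∣ N) :
    D.Φ.eval₂ (Polynomial.aeval (R := ℤ) (A2.Mod.jE E N (q * d) hdq)).toRingHom
      (A2.Mod.jE E N d hd) = 0 := by
  refine A2.Mod.H873.eval₂_eq_zero_of_int E N D.Φ _ _ _ _ (A2.Mod.H873.coe_jE_int E N d hd)
    (A2.Mod.H873.coe_jE_int E N (q * d) hdq) ?_
  have h := congrArg (qExpand ℤ d) D.eval_j
  rw [Polynomial.hom_eval₂, qExpand_comp_evalAt838, qExpand_qExpand, map_zero] at h
  rw [← h]
  congr 2
  exact qExpand_congr (mul_comm q d) _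

/-- `Φ_q(X = j_{qd}; Y = j_d) = 0` at level `N`. -/
theorem modEq_down838 (d : ℕ) [NeZero d] (hd : d ∣ N) (hdq : q * d ∣ N) :
    D.Φ.eval₂ (Polynomial.aeval (R := ℤ) (A2.Mod.jE E N d hd)).toRingHom
      (A2.Mod.jE E N (q * d) hdq) = 0 := by
  refine A2.Mod.H873.eval₂_eq_zero_of_int E N D.Φ _ _ _ _
    (A2.Mod.H873.coe_jE_int E N (q * d) hdq) (A2.Mod.H873.coe_jE_int E N d hd) ?_
  have h := congrArg (qExpand ℤ d) D.eval_jp
  rw [Polynomial.hom_eval₂, qExpand_comp_evalAt838, qExpand_qExpand, map_zero] at h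
  rw [← h]
  congr 1
  exact qExpand_congr (mul_comm q d) _

end ModEq

/-! ## The chain -/

/-- `j_{q^i}` at level `N` (junk value `1` if `q ^ i ∤ N`). -/
def jch (i : ℕ) : A2.Mod.FE E N :=
  if h : q ^ i ∣ N then A2.Mod.jE E N (q ^ i) h else 1

/-- The chain coordinate `x = ∏_{i ≤ e} j_{q^i}` of level `N`. -/
def xch (e : ℕ) : A2.Mod.FE E N := ∏ i ∈ range (e + 1), jch E N q i

theorem jch_of_dvd838 {i : ℕ} (h : q ^ i ∣ N) : jch E N q i = A2.Mod.jE E N (q ^ i) h := by
  rw [jch, dif_pos h]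

theorem jch_ne_zero838 (i : ℕ) : jch E N q i ≠ 0 := by
  unfold jch
  split_ifs with h
  · exact A2.Mod.H873.jE_ne_zero E N _ h
  · exact one_ne_zero

theorem pow_dvd_of_le838 {e i : ℕ} (he : q ^ e ∣ N) (hi : i ≤ e) : q ^ i ∣ N :=
  (pow_dvd_pow q hi).trans he


/-! ## Valuative criterion along the chain -/

section Mem

variable (hq : q.Prime)
include hq

/-- `j_{q^i} ∈ V ↔ j_{q^(i+1)} ∈ V` for every valuation subring `V` of `F_E(N)`. -/
theorem jch_mem_iff838 (V : ValuationSubring (A2.Mod.FE E N)) {i : ℕ} (h : q ^ (i + 1) ∣ N) :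
    jch E N q i ∈ V ↔ jch E N q (i + 1) ∈ V := by
  obtain ⟨D⟩ := S28.H807.nonempty_modPolyData q hq
  have hi : q ^ i ∣ N := pow_dvd_of_le838 N q h (Nat.le_succ i)
  have hdq : q * q ^ i ∣ N := by rwa [← pow_succ']
  have e1 : jch E N q (i + 1) = A2.Mod.jE E N (q * q ^ i) hdq := by
    rw [jch_of_dvd838 E N q h]
    exact A2.Mod.H751.jE_congr E N (pow_succ' q i) _ _
  rw [jch_of_dvd838 E N q hi, e1]
  exact ⟨fun hm => mem_valuationSubring_of_monic D.Φ D.monic
      (modEq_down838 E N q D (q ^ i) hi hdq) V hm,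
    fun hm => mem_valuationSubring_of_monic D.Φ D.monic
      (modEq_up838 E N q D (q ^ i) hi hdq) V hm⟩

/-- A valuation subring containing `x = ∏_{i ≤ e} j_{q^i}` contains every `j_{q^i}`, `i ≤ e`. -/
theorem jch_mem_of_xch_mem838 {e : ℕ} (he : q ^ e ∣ N) (V : ValuationSubring (A2.Mod.FE E N))
    (hx : xch E N q e ∈ V) : ∀ i, i ≤ e → jch E N q i ∈ V :=
  chain_mem_of_prod838 V (jch E N q) e
    (fun _ hi => jch_mem_iff838 E N q hq V (pow_dvd_of_le838 N q he hi)) hx

/-- A valuation subring containing `x⁻¹` contains every `j_{q^i}⁻¹`, `i ≤ e`. -/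
theorem jch_inv_mem_of_xch_inv_mem838 {e : ℕ} (he : q ^ e ∣ N)
    (V : ValuationSubring (A2.Mod.FE E N)) (hx : (xch E N q e)⁻¹ ∈ V) :
    ∀ i, i ≤ e → (jch E N q i)⁻¹ ∈ V :=
  chain_inv_mem_of_prod_inv838 V (jch E N q) e (fun i _ => jch_ne_zero838 E N q i)
    (fun _ hi => jch_mem_iff838 E N q hq V (pow_dvd_of_le838 N q he hi)) hx

/-- `j_{q^i} ∈ chart R {x}`. -/
theorem jch_mem_chart838 {e : ℕ} (he : q ^ e ∣ N) {i : ℕ} (hi : i ≤ e) :
    jch E N q i ∈ chart (A2.RE P E) ({xch E N q e} : Set (A2.Mod.FE E N)) :=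
  mem_chart_of_forall_valuationSubring fun V hx => jch_mem_of_xch_mem838 E N q hq he V hx i hi

/-- `j_{q^i}⁻¹ ∈ chart R {x⁻¹}`. -/
theorem jch_inv_mem_chart838 {e : ℕ} (he : q ^ e ∣ N) {i : ℕ} (hi : i ≤ e) :
    (jch E N q i)⁻¹ ∈ chart (A2.RE P E) ({(xch E N q e)⁻¹} : Set (A2.Mod.FE E N)) :=
  mem_chart_of_forall_valuationSubring fun V hx =>
    jch_inv_mem_of_xch_inv_mem838 E N q hq he V hx i hi

end Mem

/-! ## The degeneracy maps on the chain -/

section Maps

variable [NeZero (N * q)]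

theorem alpha_jch838 {i : ℕ} (h : q ^ i ∣ N) :
    A2.Mod.αE E N q (jch E N q i) = jch E (N * q) q i := by
  rw [jch_of_dvd838 E N q h, jch_of_dvd838 E (N * q) q (h.trans (dvd_mul_right N q))]
  exact A2.Mod.H751.alpha_jE E N q (q ^ i) h

theorem beta_jch838 {i : ℕ} (h : q ^ i ∣ N) :
    A2.Mod.βE E N q (jch E N q i) = jch E (N * q) q (i + 1) := by
  have h' : q ^ (i + 1) ∣ N * q := by
    rw [pow_succ]
    exact mul_dvd_mul_right h q
  rw [jch_of_dvd838 E N q h, jch_of_dvd838 E (N * q) q h',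
    A2.Mod.H751.beta_jE E N q (q ^ i) h]
  exact A2.Mod.H751.jE_congr E (N * q) (pow_succ' q i).symm _ _

theorem alpha_xch838 {e : ℕ} (he : q ^ e ∣ N) :
    A2.Mod.αE E N q (xch E N q e) = ∏ i ∈ range (e + 1), jch E (N * q) q i := by
  rw [xch, map_prod]
  exact Finset.prod_congr rfl fun i hi =>
    alpha_jch838 E N q (pow_dvd_of_le838 N q he (by have := Finset.mem_range.1 hi; omega))

theorem beta_xch838 {e : ℕ} (he : q ^ e ∣ N) :
    A2.Mod.βE E N q (xch E N q e) = ∏ i ∈ range (e + 1), jch E (N * q) q (i + 1) := by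
  rw [xch, map_prod]
  exact Finset.prod_congr rfl fun i hi =>
    beta_jch838 E N q (pow_dvd_of_le838 N q he (by have := Finset.mem_range.1 hi; omega))

/-- `x = α x' · j_{q^(e+1)}`. -/
theorem xch_eq_alpha838 {e : ℕ} (he : q ^ e ∣ N) :
    xch E (N * q) q (e + 1) = A2.Mod.αE E N q (xch E N q e) * jch E (N * q) q (e + 1) := by
  rw [alpha_xch838 E N q he, xch, Finset.prod_range_succ]

/-- `x = j · β x'`. -/
theorem xch_eq_beta838 {e : ℕ} (he : q ^ e ∣ N) :
    xch E (N * q) q (e + 1) = jch E (N * q) q 0 * A2.Mod.βE E N q (xch E N q e) := by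
  rw [beta_xch838 E N q he, xch, Finset.prod_range_succ']
  exact mul_comm _ _

end Maps

/-! ## The chart fields for the pair of levels `N`, `N q` -/

section Fields

variable [NeZero (N * q)] (hq : q.Prime)
include hq

theorem pow_succ_dvd838 {e : ℕ} (he : q ^ e ∣ N) : q ^ (e + 1) ∣ N * q := by
  rw [pow_succ]
  exact mul_dvd_mul_right he q

/-- **`chart_α`** for the chain coordinates. -/
theorem chart_alpha838e {e : ℕ} (he : q ^ e ∣ N) :
    ∀ b ∈ chart (A2.RE P E) ({xch E N q e} : Set (A2.Mod.FE E N)),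
      A2.Mod.αE E N q b ∈
        chart (A2.RE P E) ({xch E (N * q) q (e + 1)} : Set (A2.Mod.FE E (N * q))) := by
  apply chart_map
  rw [alpha_xch838 E N q he]
  exact Subalgebra.prod_mem _ fun i hi =>
    jch_mem_chart838 P E (N * q) q hq (pow_succ_dvd838 N q hq he)
      (by have := Finset.mem_range.1 hi; omega)

/-- **`chart_β`** for the chain coordinates. -/
theorem chart_beta838e {e : ℕ} (he : q ^ e ∣ N) :
    ∀ b ∈ chart (A2.RE P E) ({xch E N q e} : Set (A2.Mod.FE E N)),
      A2.Mod.βE E N q b ∈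
        chart (A2.RE P E) ({xch E (N * q) q (e + 1)} : Set (A2.Mod.FE E (N * q))) := by
  apply chart_map
  rw [beta_xch838 E N q he]
  exact Subalgebra.prod_mem _ fun i hi =>
    jch_mem_chart838 P E (N * q) q hq (pow_succ_dvd838 N q hq he)
      (by have := Finset.mem_range.1 hi; omega)

/-- **`int_α`** for the chain coordinates. -/
theorem int_alpha838e {e : ℕ} (he : q ^ e ∣ N) :
    ∀ b ∈ chart (A2.RE P E) ({xch E (N * q) q (e + 1)} : Set (A2.Mod.FE E (N * q))),
      ∃ p : Polynomial (A2.Mod.FE E N), p.Monic ∧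
        (∀ i, p.coeff i ∈ chart (A2.RE P E) ({xch E N q e} : Set (A2.Mod.FE E N))) ∧
        (p.map (A2.Mod.αE E N q : A2.Mod.FE E N →+* A2.Mod.FE E (N * q))).eval b = 0 := by
  obtain ⟨D⟩ := S28.H807.nonempty_modPolyData q hq
  apply int_map
  rw [xch_eq_alpha838 E N q he]
  have h1 : A2.Mod.αE E N q (xch E N q e) ∈
      imgChart (R := A2.RE P E) (A2.Mod.αE E N q) (xch E N q e) :=
    mem_imgChart.mpr ⟨xch E N q e, mem_chart_of_mem rfl, rfl⟩
  have h2 : jch E (N * q) q e ∈ imgChart (R := A2.RE P E) (A2.Mod.αE E N q) (xch E N q e) :=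
    mem_imgChart.mpr ⟨jch E N q e, jch_mem_chart838 P E N q hq he le_rfl,
      alpha_jch838 E N q he⟩
  -- `j_{q^(e+1)}` is integral over `j_{q^e}`
  have he1 : q ^ (e + 1) ∣ N * q := pow_succ_dvd838 N q hq he
  have he0 : q ^ e ∣ N * q := he.trans (dvd_mul_right N q)
  have hdq : q * q ^ e ∣ N * q := by rwa [← pow_succ']
  have e1 : jch E (N * q) q (e + 1) = A2.Mod.jE E (N * q) (q * q ^ e) hdq := by
    rw [jch_of_dvd838 E (N * q) q he1]
    exact A2.Mod.H751.jE_congr E (N * q) (pow_succ' q e) _ _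
  have h3 : IsIntegral (imgChart (R := A2.RE P E) (A2.Mod.αE E N q) (xch E N q e))
      (jch E (N * q) q (e + 1)) := by
    rw [e1]
    refine isIntegral_of_monic_eval₂ D.Φ D.monic
      (modEq_down838 E (N * q) q D (q ^ e) he0 hdq) ?_
    rw [← jch_of_dvd838 E (N * q) q he0]
    exact h2
  exact (isIntegral_algebraMap
    (R := imgChart (R := A2.RE P E) (A2.Mod.αE E N q) (xch E N q e)) (x := ⟨_, h1⟩)).mul h3

/-- **`int_β`** for the chain coordinates. -/
theorem int_beta838e {e : ℕ} (he : q ^ e ∣ N) :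
    ∀ b ∈ chart (A2.RE P E) ({xch E (N * q) q (e + 1)} : Set (A2.Mod.FE E (N * q))),
      ∃ p : Polynomial (A2.Mod.FE E N), p.Monic ∧
        (∀ i, p.coeff i ∈ chart (A2.RE P E) ({xch E N q e} : Set (A2.Mod.FE E N))) ∧
        (p.map (A2.Mod.βE E N q : A2.Mod.FE E N →+* A2.Mod.FE E (N * q))).eval b = 0 := by
  obtain ⟨D⟩ := S28.H807.nonempty_modPolyData q hq
  apply int_map
  rw [xch_eq_beta838 E N q he]
  have h1 : A2.Mod.βE E N q (xch E N q e) ∈
      imgChart (R := A2.RE P E) (A2.Mod.βE E N q) (xch E N q e) :=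
    mem_imgChart.mpr ⟨xch E N q e, mem_chart_of_mem rfl, rfl⟩
  have h0 : q ^ 0 ∣ N := by simp
  have h2 : jch E (N * q) q 1 ∈ imgChart (R := A2.RE P E) (A2.Mod.βE E N q) (xch E N q e) :=
    mem_imgChart.mpr ⟨jch E N q 0, jch_mem_chart838 P E N q hq he (Nat.zero_le e),
      beta_jch838 E N q h0⟩
  -- `j` is integral over `j_q`
  have hq1 : q ^ 1 ∣ N * q := by rw [pow_one]; exact dvd_mul_left q N
  have hq0 : q ^ 0 ∣ N * q := by simp
  have hdq : q * q ^ 0 ∣ N * q := by rw [pow_zero, mul_one]; exact dvd_mul_left q N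
  have e1 : jch E (N * q) q 1 = A2.Mod.jE E (N * q) (q * q ^ 0) hdq := by
    rw [jch_of_dvd838 E (N * q) q hq1]
    exact A2.Mod.H751.jE_congr E (N * q) (pow_succ' q 0) _ _
  have h3 : IsIntegral (imgChart (R := A2.RE P E) (A2.Mod.βE E N q) (xch E N q e))
      (jch E (N * q) q 0) := by
    rw [jch_of_dvd838 E (N * q) q hq0]
    refine isIntegral_of_monic_eval₂ D.Φ D.monic
      (modEq_up838 E (N * q) q D (q ^ 0) hq0 hdq) ?_
    rw [← e1]
    exact h2
  exact h3.mul (isIntegral_algebraMap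
    (R := imgChart (R := A2.RE P E) (A2.Mod.βE E N q) (xch E N q e)) (x := ⟨_, h1⟩))

end Fields

end Fermat.Agent.S45.H838

end

end
-- ===== PACK-END S45/H838/ChainJ.lean

-- ===== PACK-BEGIN S45/H838/SheetE.lean
section




/-!
# S45 / CAR3, MOD-E / SHEET — the fields `base`, `x_unit`, `gauss` of `CtxE` for the chain
coordinate, INDEX-FREE (helper838)

Level `N` arbitrary, `q` prime, `q ^ e ∣ N`, `x = xch E N q e = ∏_{i ≤ e} j_{q^i}`, `R = R_E`.
`A2.H489.IsGaussOver R V y`: `V` lies over `R`, `y ∈ V`, and the residue of `y` is transcendental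
over the residue field of `R`.

* `isGaussOver_xch838` : **`j` Gauss at `V` ⟹ `x` Gauss at `V`**  (GAUSS-CHANGE of helper985: `j` is
  integral over `ℤ[x]`);
* `isGaussOver_jch838` : `j` Gauss at `V` ⟹ every `j_{q^i}`, `i ≤ e`, is Gauss at `V`;
* `isGaussOver_j_of_jch838` : conversely, `j_{q^i}` Gauss at `V` ⟹ `j` Gauss at `V`;
* `isOver_of_comap838`, `isGaussOver_j_of_comap_alpha838`, `isGaussOver_j_of_comap_beta838` :
  TRANSPORT along the degeneracy maps of the pair of levels `N`, `N q`: if `V.comap α` (resp.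
  `V.comap β`) lies over `R` and `j` is Gauss there, then `V` lies over `R` and `j` is Gauss at `V`;
* `sheet_fields838` : the three fields `base`, `x_unit`, `gauss` (verbatim shape of
  `S45.Eng.CtxE` / `S36.Eng.TripleCtx`) for every valuation ring `V` at which `j` is Gauss.

Consequence: in the induction on `e` EVERY valuation ring `V i` of level `N q` constructed over a
sheet of level `N` along `α` or `β` is a sheet of the chain coordinate; no table is needed.
-/

set_option autoImplicit false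
set_option linter.style.haveILetI false
set_option linter.unusedSectionVars false
set_option synthInstance.maxHeartbeats 400000
set_option maxHeartbeats 1600000

noncomputable section

namespace Fermat.Agent.S45.H838

open ModularCurve HahnSeries Polynomial Finset
open Fermat.Agent
open Fermat.Agent.A2.Mod
open Fermat.Agent.S36.Mod3.H985 (isGaussOver_of_isIntegralElem inv_aeval_mem_of_isGaussOver
  mem_nonunits_comap_hom)

variable (P : ValuationSubring A2.Qb) (E : IntermediateField ℚ A2.Qb) (N q : ℕ)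
  [NeZero N] [NeZero q]

/-! ## Integrality along the chain -/

section Int

variable (hq : q.Prime)
include hq

/-- `x ∈ V` as soon as `j_{q^i} ∈ V` for ONE `i ≤ e`. -/
theorem xch_mem_of_jch_mem838 {e : ℕ} (he : q ^ e ∣ N) (V : ValuationSubring (FE E N))
    {i : ℕ} (hi : i ≤ e) (hj : jch E N q i ∈ V) : xch E N q e ∈ V := by
  have hiff := chain_mem_iff838 V (jch E N q) e
    (fun k hk => jch_mem_iff838 E N q hq V (pow_dvd_of_le838 N q he hk))
  have h0 : jch E N q 0 ∈ V := (hiff i hi).1 hj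
  exact Subring.prod_mem V.toSubring fun k hk =>
    (hiff k (by have := Finset.mem_range.1 hk; omega)).2 h0

/-- every `j_{q^k}` lies in every valuation ring containing `j_{q^i}` (`i, k ≤ e`). -/
theorem jch_mem_of_jch_mem838 {e : ℕ} (he : q ^ e ∣ N) (V : ValuationSubring (FE E N))
    {i k : ℕ} (hi : i ≤ e) (hk : k ≤ e) (hj : jch E N q i ∈ V) : jch E N q k ∈ V := by
  have hiff := chain_mem_iff838 V (jch E N q) e
    (fun k hk => jch_mem_iff838 E N q hq V (pow_dvd_of_le838 N q he hk))
  exact (hiff k hk).2 ((hiff i hi).1 hj)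

/-- `j_{q^i}` is integral over `R[x]`, `x` the chain coordinate. -/
theorem jch_isIntegralElem_xch838 {e : ℕ} (he : q ^ e ∣ N) {i : ℕ} (hi : i ≤ e) :
    ∃ G : Polynomial (Polynomial (RE P E)), G.Monic ∧
      G.eval₂ (Polynomial.eval₂RingHom (algebraMap (RE P E) (FE E N)) (xch E N q e))
        (jch E N q i) = 0 :=
  H873.isIntegralElem_of_isIntegral_closure _
    (H873.isIntegral_closure_of_forall_valuationSubring
      fun V hx => jch_mem_of_xch_mem838 E N q hq he V hx i hi)

/-- `j_{q^k}` is integral over `R[j_{q^i}]`. -/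
theorem jch_isIntegralElem_jch838 {e : ℕ} (he : q ^ e ∣ N) {i k : ℕ} (hi : i ≤ e)
    (hk : k ≤ e) :
    ∃ G : Polynomial (Polynomial (RE P E)), G.Monic ∧
      G.eval₂ (Polynomial.eval₂RingHom (algebraMap (RE P E) (FE E N)) (jch E N q i))
        (jch E N q k) = 0 :=
  H873.isIntegralElem_of_isIntegral_closure _
    (H873.isIntegral_closure_of_forall_valuationSubring
      fun V hx => jch_mem_of_jch_mem838 E N q hq he V hi hk hx)

end Int

/-! ## The Gauss property along the chain -/

section Gauss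

variable [IsDiscreteValuationRing (RE P E)] (hq : q.Prime)
include hq

/-- **GAUSS for the chain coordinate from GAUSS for one `j_{q^i}`.** -/
theorem isGaussOver_xch_of_jch838 {e : ℕ} (he : q ^ e ∣ N) {V : ValuationSubring (FE E N)}
    {i : ℕ} (hi : i ≤ e) (hj : A2.H489.IsGaussOver (RE P E) V (jch E N q i)) :
    A2.H489.IsGaussOver (RE P E) V (xch E N q e) :=
  isGaussOver_of_isIntegralElem hj (xch_mem_of_jch_mem838 E N q hq he V hi hj.mem)
    (jch_isIntegralElem_xch838 P E N q hq he hi)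

/-- **GAUSS for the chain coordinate from GAUSS for `j`.** -/
theorem isGaussOver_xch838 {e : ℕ} (he : q ^ e ∣ N) {V : ValuationSubring (FE E N)}
    (hj : A2.H489.IsGaussOver (RE P E) V (jch E N q 0)) :
    A2.H489.IsGaussOver (RE P E) V (xch E N q e) :=
  isGaussOver_xch_of_jch838 P E N q hq he (Nat.zero_le e) hj

/-- GAUSS moves along the chain. -/
theorem isGaussOver_jch_of_jch838 {e : ℕ} (he : q ^ e ∣ N) {V : ValuationSubring (FE E N)}
    {i k : ℕ} (hi : i ≤ e) (hk : k ≤ e)
    (hj : A2.H489.IsGaussOver (RE P E) V (jch E N q i)) :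
    A2.H489.IsGaussOver (RE P E) V (jch E N q k) :=
  isGaussOver_of_isIntegralElem hj (jch_mem_of_jch_mem838 E N q hq he V hi hk hj.mem)
    (jch_isIntegralElem_jch838 P E N q hq he hk hi)

end Gauss

/-! ## Transport along the degeneracy maps -/

section Transport

variable [NeZero (N * q)] [IsDiscreteValuationRing (RE P E)]

theorem alpha_algebraMap_RE838 (r : RE P E) :
    (αE E N q : FE E N →+* FE E (N * q)) (algebraMap (RE P E) (FE E N) r) =
      algebraMap (RE P E) (FE E (N * q)) r := by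
  rw [H13.algebraMap_RE_eq, H13.algebraMap_RE_eq]
  exact (αE E N q).commutes _

theorem beta_algebraMap_RE838 (r : RE P E) :
    (βE E N q : FE E N →+* FE E (N * q)) (algebraMap (RE P E) (FE E N) r) =
      algebraMap (RE P E) (FE E (N * q)) r := by
  rw [H13.algebraMap_RE_eq, H13.algebraMap_RE_eq]
  exact (βE E N q).commutes _

/-- A valuation ring whose restriction along an `E`-embedding `φ` commuting with the constants
lies over `R` lies over `R`. -/
theorem isOver_of_comap838 (φ : FE E N →ₐ[E] FE E (N * q))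
    {V : ValuationSubring (FE E (N * q))}
    (h : A2.H489.IsOver (RE P E) (V.comap (φ : FE E N →+* FE E (N * q)))) :
    A2.H489.IsOver (RE P E) V where
  mem := fun r => by
    have h1 := h.mem r
    rw [ValuationSubring.mem_comap] at h1
    have e : (φ : FE E N →+* FE E (N * q)) (algebraMap (RE P E) (FE E N) r) =
        algebraMap (RE P E) (FE E (N * q)) r := by
      rw [H13.algebraMap_RE_eq, H13.algebraMap_RE_eq]
      exact φ.commutes _
    rw [e] at h1
    exact h1
  nonunit := fun r hr => by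
    have h1 := h.nonunit r hr
    rw [mem_nonunits_comap_hom] at h1
    have e : (φ : FE E N →+* FE E (N * q)) (algebraMap (RE P E) (FE E N) r) =
        algebraMap (RE P E) (FE E (N * q)) r := by
      rw [H13.algebraMap_RE_eq, H13.algebraMap_RE_eq]
      exact φ.commutes _
    rw [e] at h1
    exact h1

/-- GAUSS is inherited from the restriction along an `E`-embedding:
`y` Gauss at `V.comap φ` ⟹ `φ y` Gauss at `V`. -/
theorem isGaussOver_of_comap838
    (φ : FE E N →ₐ[E] FE E (N * q)) {V : ValuationSubring (FE E (N * q))} {y : FE E N}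
    (h : A2.H489.IsGaussOver (RE P E) (V.comap (φ : FE E N →+* FE E (N * q))) y) :
    A2.H489.IsGaussOver (RE P E) V (φ y) := by
  refine ⟨isOver_of_comap838 P E N q φ h.isOver, ?_, ?_⟩
  · have h1 := h.mem
    rwa [ValuationSubring.mem_comap] at h1
  · intro Q hQ
    apply h.prim Q
    rw [mem_nonunits_comap_hom]
    have e : (φ : FE E N →+* FE E (N * q)) (aeval y Q) = aeval (φ y) Q := by
      have h1 := Polynomial.aeval_algHom_apply (φ.restrictScalars (RE P E)) y Q
      exact h1.symm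
    rw [e]
    exact hQ

variable (hq : q.Prime)
include hq

/-- **Transport along `α`**: `j` Gauss at `V.comap α` ⟹ `j` Gauss at `V`. -/
theorem isGaussOver_j_of_comap_alpha838 {V : ValuationSubring (FE E (N * q))}
    (h : A2.H489.IsGaussOver (RE P E)
      (V.comap (αE E N q : FE E N →+* FE E (N * q))) (jch E N q 0)) :
    A2.H489.IsGaussOver (RE P E) V (jch E (N * q) q 0) := by
  have h1 := isGaussOver_of_comap838 P E N q (αE E N q) h
  rwa [alpha_jch838 E N q (by simp)] at h1

/-- **Transport along `β`**: `j` Gauss at `V.comap β` ⟹ `j` Gauss at `V`. -/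
theorem isGaussOver_j_of_comap_beta838 {V : ValuationSubring (FE E (N * q))}
    (h : A2.H489.IsGaussOver (RE P E)
      (V.comap (βE E N q : FE E N →+* FE E (N * q))) (jch E N q 0)) :
    A2.H489.IsGaussOver (RE P E) V (jch E (N * q) q 0) := by
  have h1 := isGaussOver_of_comap838 P E N q (βE E N q) h
  rw [beta_jch838 E N q (by simp)] at h1
  have hq1 : q ^ 1 ∣ N * q := by rw [pow_one]; exact dvd_mul_left q N
  exact isGaussOver_jch_of_jch838 P E (N * q) q hq hq1 le_rfl (Nat.zero_le 1) h1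

end Transport

/-! ## The sheet fields -/

section Fields

variable [IsDiscreteValuationRing (RE P E)] (hq : q.Prime)
include hq

/-- **The fields `base`, `x_unit`, `gauss`** of `CtxE` for the chain coordinate, at every
valuation ring `V` of `F_E(N)` at which `j` is Gauss. -/
theorem sheet_fields838 {w : RE P E} (hw : Irreducible w) {e : ℕ} (he : q ^ e ∣ N)
    {V : ValuationSubring (FE E N)}
    (hj : A2.H489.IsGaussOver (RE P E) V (jch E N q 0)) :
    (∀ r : RE P E, algebraMap (RE P E) (FE E N) r ∈ V) ∧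
      S36.Eng.UnitAt V (xch E N q e) ∧
      ∀ Q : Polynomial (RE P E), (∃ k, ¬ w ∣ Q.coeff k) →
        (Polynomial.aeval (xch E N q e) Q)⁻¹ ∈ V := by
  have hmax : IsLocalRing.maximalIdeal (RE P E) = Ideal.span {w} := hw.maximalIdeal_eq
  have hx := isGaussOver_xch838 P E N q hq he hj
  have hg : ∀ Q : Polynomial (RE P E), (∃ k, ¬ w ∣ Q.coeff k) →
      (Polynomial.aeval (xch E N q e) Q)⁻¹ ∈ V :=
    fun Q hQ => inv_aeval_mem_of_isGaussOver hx hmax Q hQ
  refine ⟨hx.isOver.mem, ⟨?_, hx.mem, ?_⟩, hg⟩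
  · exact Finset.prod_ne_zero_iff.2 fun i _ => jch_ne_zero838 E N q i
  · have h1 := hg Polynomial.X ⟨1, by
      rw [Polynomial.coeff_X_one]
      intro hdvd
      exact hw.not_isUnit (isUnit_of_dvd_one hdvd)⟩
    rwa [Polynomial.aeval_X] at h1

end Fields

end Fermat.Agent.S45.H838

end

end
-- ===== PACK-END S45/H838/SheetE.lean

-- ===== PACK-BEGIN S45/ModE/H816/TableE.lean
section








/-!
# S45 / CAR3 / MOD-E — leaf TABLE-E (helper816)

`leafTableE816 : ModE.LeafTableE`, UNCONDITIONAL (no other leaf is used).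

Route.  Lower level `N` (exponent `n`), upper level `N q`; `J l = j_{q^l}`.
* the rows of `α` are `ObjsE.lies` and `S36.H816.alpha_mem_iff` (`V∞`);
* `j` is Gauss at every `V' k` (lower `sheet` + GAUSS-CHANGE of helper985 / helper838), hence at
  every `V i` (transport along `α`);
* every valuation ring `V` of the upper level at which `j` is Gauss has ONE residue pattern `c`
  (`S45.H816.Pattern`: Kronecker dichotomy, no `V`-then-`F`), and `V.comap α`, `V.comap β` have the
  patterns `c - 1`, `min c n`;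
* a valuation ring of the lower level at which `j` is Gauss is a sheet, so it is one of the `V' k`
  (lower `complete`), and `k` is its pattern (lower `kron`, uniqueness of the pattern);
* so `V i` (`i ≥ 2`) has pattern `i`; `V 1` has pattern `0` or `1`, and pattern `0` would give
  `(V 1).comap β = V∞`, hence `V 1 = V∞ = V 0` (`S36.H83.h83_beta_unique`), excluded by `one_ne`.
-/

set_option autoImplicit false
set_option linter.style.haveILetI false
set_option linter.unusedSectionVars false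
set_option linter.unusedVariables false
set_option synthInstance.maxHeartbeats 400000
set_option maxHeartbeats 1600000

noncomputable section

namespace Fermat.Agent.S45.ModE.H816

open ModularCurve Polynomial
open Fermat.Agent Fermat.Agent.A2.Mod
open Fermat.Agent.S45.H816 Fermat.Agent.S45.H838

variable {P : ValuationSubring A2.Qb} {E : IntermediateField ℚ A2.Qb} {N q : ℕ}
  [NeZero N] [NeZero q]

/-! ## The chain `J 0, …, J e` -/

section Chain

theorem jLev_eq_jch (l : ℕ) : jLev E N q l = jch E N q l := rfl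

theorem xLev_eq_xch (n : ℕ) : xLev E N q n = xch E N q n := rfl

/-- `j_d ≠ j_{d'}` for `d < d'` (orders of the poles). -/
theorem jE_ne_of_lt816 {d d' : ℕ} [NeZero d] [NeZero d'] (hd : d ∣ N) (hd' : d' ∣ N)
    (hlt : d < d') : jE E N d hd ≠ jE E N d' hd' := by
  intro h
  obtain ⟨g, hg, e⟩ := H13.isPolar_jE (E := E) (N := N) d hd
  obtain ⟨g', hg', e'⟩ := H13.isPolar_jE (E := E) (N := N) d' hd'
  rw [h] at e
  have h1 := congrArg (fun s : LaurentSeries ↥E => s.coeff (-((d' : ℕ) : ℤ))) e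
  have h2 := congrArg (fun s : LaurentSeries ↥E => s.coeff (-((d' : ℕ) : ℤ))) e'
  beta_reduce at h1 h2
  rw [H553.coeff_coeffEmb_castQ] at h1 h2
  rw [h1] at h2
  rw [hg'.2, hg.1 _ (by
    have : ((d : ℕ) : ℤ) < ((d' : ℕ) : ℤ) := by exact_mod_cast hlt
    linarith)] at h2
  simp at h2

theorem ev816_eq (Φ : Polynomial (Polynomial ℤ)) (x y : FE E N) :
    ev816 Φ x y = Φ.eval₂ (Polynomial.aeval (R := ℤ) y).toRingHom x := by
  rfl

/-- **The chain of level `N`**: `Φ_q(J (k+1), J k) = 0 = Φ_q(J k, J (k+1))`, `J (k+2) ≠ J k`. -/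
theorem isChain816_jLev (hq : q.Prime) (D : S28.ModPolyData q) {e : ℕ} (he : q ^ e ∣ N) :
    IsChain816 D.Φ (jLev E N q) e := by
  have hdvd : ∀ k, k ≤ e → q ^ k ∣ N := fun k hk => pow_dvd_of_le838 N q he hk
  have hsucc : ∀ k (hk : k < e), ∃ hdq : q * q ^ k ∣ N,
      jLev E N q (k + 1) = jE E N (q * q ^ k) hdq := by
    intro k hk
    have h1 : q ^ (k + 1) ∣ N := hdvd (k + 1) hk
    have hdq : q * q ^ k ∣ N := by rwa [← pow_succ']
    refine ⟨hdq, ?_⟩
    rw [jLev_eq_jch, jch_of_dvd838 E N q h1]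
    exact H751.jE_congr E N (pow_succ' q k) _ _
  refine ⟨fun k hk => ?_, fun k hk => ?_, fun k hk => ?_⟩
  · obtain ⟨hdq, e1⟩ := hsucc k hk
    rw [ev816_eq, e1, jLev_eq_jch, jch_of_dvd838 E N q (hdvd k hk.le)]
    exact modEq_down838 E N q D (q ^ k) (hdvd k hk.le) hdq
  · obtain ⟨hdq, e1⟩ := hsucc k hk
    rw [ev816_eq, e1, jLev_eq_jch, jch_of_dvd838 E N q (hdvd k hk.le)]
    exact modEq_up838 E N q D (q ^ k) (hdvd k hk.le) hdq
  · rw [jLev_eq_jch, jLev_eq_jch, jch_of_dvd838 E N q (hdvd (k + 2) hk),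
      jch_of_dvd838 E N q (hdvd k (by omega))]
    exact (jE_ne_of_lt816 (hdvd k (by omega)) (hdvd (k + 2) hk)
      (Nat.pow_lt_pow_right hq.one_lt (by omega))).symm

end Chain

/-! ## Gauss at `j` -/

section Gauss

variable [IsDiscreteValuationRing (RE P E)]

/-- `q ∈ 𝔪_V` for every valuation ring lying over `R`. -/
theorem natCast_mem_nu_of_isOver816 (hP : P.LiesOverPrime q) {V : ValuationSubring (FE E N)}
    (hV : A2.H489.IsOver (RE P E) V) : ((q : ℕ) : FE E N) ∈ V.nonunits := by
  have hqE : ((q : ℕ) : E) ∈ (RE P E).nonunits := by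
    rw [ValuationSubring.mem_nonunits_iff_or]
    by_cases h0 : ((q : ℕ) : E) = 0
    · exact Or.inl h0
    · right
      intro hmem
      have hmem' : algebraMap E A2.Qb (((q : ℕ) : E)⁻¹) ∈ P := hmem
      rw [map_inv₀, map_natCast] at hmem'
      have hq' : ((q : ℕ) : A2.Qb) ∈ P.nonunits := hP
      rw [ValuationSubring.mem_nonunits_iff_or] at hq'
      rcases hq' with h | h
      · apply h0
        have : algebraMap E A2.Qb ((q : ℕ) : E) = 0 := by rw [map_natCast]; exact h
        exact (map_eq_zero (algebraMap E A2.Qb)).mp this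
      · exact h hmem'
  have hmem : ((q : ℕ) : E) ∈ RE P E := ValuationSubring.nonunits_subset hqE
  have hr : (⟨((q : ℕ) : E), hmem⟩ : RE P E) ∈ IsLocalRing.maximalIdeal (RE P E) := by
    rw [← ValuationSubring.coe_mem_nonunits_iff]
    exact hqE
  have h := hV.nonunit _ hr
  have e : algebraMap (RE P E) (FE E N) ⟨((q : ℕ) : E), hmem⟩ = ((q : ℕ) : FE E N) := by
    rw [A2.Mod.H13.algebraMap_RE_eq]
    exact map_natCast (algebraMap E (FE E N)) q
  rw [e] at h
  exact h

/-- the sheet fields give the Gauss property. -/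
theorem isGaussOver_of_sheet816 {w : RE P E} (hw : Irreducible w) {V : ValuationSubring (FE E N)}
    {x : FE E N} (htr : Transcendental E x)
    (hbase : ∀ r : RE P E, algebraMap (RE P E) (FE E N) r ∈ V)
    (hwV : algebraMap (RE P E) (FE E N) w ∈ V.nonunits) (hx : x ∈ V)
    (hg : ∀ Q : Polynomial (RE P E), (∃ k, ¬ w ∣ Q.coeff k) →
      (Polynomial.aeval x Q)⁻¹ ∈ V) : A2.H489.IsGaussOver (RE P E) V x := by
  have hmax : IsLocalRing.maximalIdeal (RE P E) = Ideal.span {w} := hw.maximalIdeal_eq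
  refine ⟨⟨hbase, fun a ha => ?_⟩, hx, fun Q hQ => ?_⟩
  · rw [hmax, Ideal.mem_span_singleton] at ha
    obtain ⟨b, rfl⟩ := ha
    rw [map_mul]
    exact mul_mem_nu_left816 V hwV (hbase b)
  · by_contra hne
    have hex : ∃ k, ¬ w ∣ Q.coeff k := by
      by_contra hall
      apply hne
      apply (A2.H489.map_residue_eq_zero_iff Q).mpr
      intro k
      rw [hmax, Ideal.mem_span_singleton]
      by_contra hk
      exact hall ⟨k, hk⟩
    have h1 := hg Q hex
    rw [ValuationSubring.mem_nonunits_iff_or] at hQ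
    rcases hQ with h0 | h0
    · have hQ0 : Q = 0 := by
        by_contra hQne
        exact (H13.transcendental_RE (P := P) htr) ⟨Q, hQne, h0⟩
      apply hne
      rw [hQ0, Polynomial.map_zero]
    · exact h0 h1

variable (hq : q.Prime)
include hq

/-- the chain coordinate is integral over `R[j]`. -/
theorem xch_isIntegralElem_j816 {e : ℕ} (he : q ^ e ∣ N) :
    ∃ G : Polynomial (Polynomial (RE P E)), G.Monic ∧
      G.eval₂ (Polynomial.eval₂RingHom (algebraMap (RE P E) (FE E N)) (jch E N q 0))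
        (xch E N q e) = 0 :=
  H873.isIntegralElem_of_isIntegral_closure _
    (H873.isIntegral_closure_of_forall_valuationSubring
      fun V hx => xch_mem_of_jch_mem838 E N q hq he V (Nat.zero_le e) hx)

/-- **`x` Gauss ⟹ `j` Gauss.** -/
theorem isGaussOver_j_of_xch816 {e : ℕ} (he : q ^ e ∣ N) {V : ValuationSubring (FE E N)}
    (hx : A2.H489.IsGaussOver (RE P E) V (xch E N q e)) :
    A2.H489.IsGaussOver (RE P E) V (jch E N q 0) :=
  S36.Mod3.H985.isGaussOver_of_isIntegralElem hx
    (jch_mem_of_xch_mem838 E N q hq he V hx.mem 0 (Nat.zero_le e))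
    (xch_isIntegralElem_j816 hq he)

omit hq in
/-- `y ^ (q²) - y` is a unit wherever `y` is Gauss. -/
theorem unitQ_of_isGaussOver816 (hq1 : 1 < q) {V : ValuationSubring (FE E N)} {y : FE E N}
    (hy : A2.H489.IsGaussOver (RE P E) V y) : y ^ (q ^ 2) - y ∉ V.nonunits := by
  intro hmem
  have hdeg : 1 < q ^ 2 := by nlinarith
  have e : Polynomial.aeval y ((Polynomial.X : Polynomial (RE P E)) ^ (q ^ 2) - Polynomial.X)
      = y ^ (q ^ 2) - y := by
    simp
  have h1 := hy.prim ((Polynomial.X : Polynomial (RE P E)) ^ (q ^ 2) - Polynomial.X)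
    (by rw [e]; exact hmem)
  have h2 := congrArg (fun p : Polynomial (IsLocalRing.ResidueField (RE P E)) =>
    p.coeff (q ^ 2)) h1
  simp only [Polynomial.map_sub, Polynomial.map_pow, Polynomial.map_X, Polynomial.coeff_sub,
    Polynomial.coeff_X_pow, Polynomial.coeff_X, Polynomial.coeff_zero] at h2
  rw [if_pos trivial, if_neg (ne_of_lt hdeg)] at h2
  simp at h2

omit hq in
/-- GAUSS goes down along an `E`-embedding: `φ y` Gauss at `V` ⟹ `y` Gauss at `V.comap φ`. -/
theorem isGaussOver_comap816 [NeZero (N * q)] (φ : FE E N →ₐ[E] FE E (N * q))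
    {V : ValuationSubring (FE E (N * q))} {y : FE E N}
    (h : A2.H489.IsGaussOver (RE P E) V (φ y)) :
    A2.H489.IsGaussOver (RE P E) (V.comap (φ : FE E N →+* FE E (N * q))) y := by
  have hr : ∀ r : RE P E, (φ : FE E N →+* FE E (N * q)) (algebraMap (RE P E) (FE E N) r) =
      algebraMap (RE P E) (FE E (N * q)) r := by
    intro r
    rw [H13.algebraMap_RE_eq, H13.algebraMap_RE_eq]
    exact φ.commutes _
  refine ⟨⟨fun r => ?_, fun r hr' => ?_⟩, ?_, fun Q hQ => ?_⟩
  · rw [ValuationSubring.mem_comap, hr]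
    exact h.isOver.mem r
  · rw [mem_nu_comap816, hr]
    exact h.isOver.nonunit r hr'
  · rw [ValuationSubring.mem_comap]
    exact h.mem
  · apply h.prim Q
    rw [mem_nu_comap816] at hQ
    have e : (φ : FE E N →+* FE E (N * q)) (aeval y Q) = aeval (φ y) Q := by
      have h1 := Polynomial.aeval_algHom_apply (φ.restrictScalars (RE P E)) y Q
      exact h1.symm
    rw [e] at hQ
    exact hQ

end Gauss

/-! ## Patterns at the two levels -/

section Pat

variable [NeZero (N * q)]

/-- the pattern of a component, from `PartKronE`. -/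
theorem isComp816_of_kron {F : Type*} [Field F] {e : ℕ} {J : ℕ → F}
    {V : ℕ → ValuationSubring F} (h : PartKronE q e J V) {i : ℕ} (hi : i ≤ e) :
    IsComp816 (V i) q J e i := by
  refine ⟨hi, Nat.sub_le e i, fun l hl => (h.unit i hi l hl).2.1, fun l hl => h.frob i hi l hl,
    fun l hl hl' => ?_⟩
  exact cong_symm816 (V i) (h.ver i hi l hl hl')

variable (hS_q : q.Prime)
include hS_q

/-- **Every Gauss valuation ring of the level `N` (exponent `e`) has a pattern.** -/
theorem exists_isComp816_of_gauss [IsDiscreteValuationRing (RE P E)] (hP : P.LiesOverPrime q)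
    {e : ℕ} (he : q ^ e ∣ N) {V : ValuationSubring (FE E N)}
    (hj : A2.H489.IsGaussOver (RE P E) V (jch E N q 0)) :
    ∃ c, IsComp816 V q (jLev E N q) e c := by
  haveI : Fact q.Prime := ⟨hS_q⟩
  obtain ⟨D⟩ := S28.H807.nonempty_modPolyData q hS_q
  obtain ⟨Θ, hΘ⟩ := S28.h88_kronecker_int q D
  exact IsComp816.exists_of_chain V (natCast_mem_nu_of_isOver816 hP hj.isOver)
    (Φ := D.Φ) (Θ := Θ) hΘ (isChain816_jLev hS_q D he)
    (fun k hk => jch_mem_of_jch_mem838 E N q hS_q he V (Nat.zero_le e) hk hj.mem)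

end Pat

/-! ## The leaf -/

section Leaf

variable [NeZero (N * q)]

/-- `j` is Gauss at every component of a level with `LevelCtx`. -/
theorem isGaussOver_j_of_levelCtx {n : ℕ} {w : A2.RE P E} (hS : StdE P E N q n w)
    {V' : ℕ → ValuationSubring (FE E N)} {W' : FE E N ≃ₐ[E] FE E N}
    (hL : LevelCtx P E N q n w V' W') {k : ℕ} (hk : k ≤ n) :
    haveI := hS.unram.1.dvr
    A2.H489.IsGaussOver (RE P E) (V' k) (jch E N q 0) := by
  haveI := hS.unram.1.dvr
  have hqn : q ^ n ∣ N := by
    have := Nat.ordProj_dvd N q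
    rwa [hS.exp] at this
  have hwV : algebraMap (RE P E) (FE E N) w ∈ (V' k).nonunits := by
    obtain ⟨t, ht, hu⟩ := hL.val.ram k hk
    have hmu : mu q n k ≠ 0 := by
      unfold mu
      exact (Nat.totient_pos.mpr (pow_pos hS.q_prime.pos _)).ne'
    have htm : t ^ mu q n k ∈ (V' k).nonunits := by
      rw [ValuationSubring.mem_nonunits_iff, map_pow]
      have := ht.2.1
      rw [ValuationSubring.mem_nonunits_iff] at this
      exact pow_lt_one' this hmu
    have e : algebraMap (RE P E) (FE E N) w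
        = t ^ mu q n k * (algebraMap (RE P E) (FE E N) w * (t ^ mu q n k)⁻¹) := by
      have ht0 : t ^ mu q n k ≠ 0 := pow_ne_zero _ ht.1
      field_simp
    rw [e]
    exact mul_mem_nu_left816 (V' k) htm hu.2.1
  have hx : A2.H489.IsGaussOver (RE P E) (V' k) (xch E N q n) :=
    isGaussOver_of_sheet816 hS.unif hL.ff.hx (hL.sheet.base k hk) hwV
      (hL.val.x_unit k hk).2.1 (hL.sheet.gauss k hk)
  exact isGaussOver_j_of_xch816 hS.q_prime hqn hx

/-- **A Gauss valuation ring of the lower level with pattern `c` is `V' c`.** -/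
theorem eq_of_isComp816 {n : ℕ} {w : A2.RE P E} (hS : StdE P E N q n w)
    {V' : ℕ → ValuationSubring (FE E N)} {W' : FE E N ≃ₐ[E] FE E N}
    (hL : LevelCtx P E N q n w V' W') {U : ValuationSubring (FE E N)}
    (hj : haveI := hS.unram.1.dvr; A2.H489.IsGaussOver (RE P E) U (jch E N q 0)) {c : ℕ}
    (hc : IsComp816 U q (jLev E N q) n c) : U = V' c := by
  haveI := hS.unram.1.dvr
  have hqn : q ^ n ∣ N := by
    have := Nat.ordProj_dvd N q
    rwa [hS.exp] at this
  obtain ⟨hb, hxu, hg⟩ := sheet_fields838 P E N q hS.q_prime hS.unif hqn hj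
  have hwU : algebraMap (RE P E) (FE E N) w ∈ U.nonunits :=
    hj.isOver.nonunit w (by
      rw [hS.unif.maximalIdeal_eq]
      exact Ideal.mem_span_singleton_self w)
  obtain ⟨k, hk, hUk⟩ := hL.complete.complete U hb hxu.2.1 hwU hg
  have hck : IsComp816 U q (jLev E N q) n k := by
    rw [hUk]
    exact isComp816_of_kron hL.kron hk
  have hqU := natCast_mem_nu_of_isOver816 hS.lies_over hj.isOver
  have hu : jLev E N q 0 ^ (q ^ 2) - jLev E N q 0 ∉ U.nonunits :=
    unitQ_of_isGaussOver816 hS.q_prime.one_lt hj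
  have := hc.unique hck hS.q_prime hqU hu
  rw [this]
  exact hUk

/-- **TABLE-E (leaf).** -/
theorem leafTableE816 : LeafTableE := by
  intro P E N q _ _ _ n w hS hn V' V W' W hL hO
  haveI := hS.unram.1.dvr
  have hq := hS.q_prime
  have hqn : q ^ n ∣ N := by
    have := Nat.ordProj_dvd N q
    rwa [hS.exp] at this
  have hqn1 : q ^ (n + 1) ∣ N * q := pow_succ_dvd838 N q hq hqn
  have hqN : q ∣ N := (dvd_pow_self q (by omega : n ≠ 0)).trans hqn
  have hα : ∀ k, k ≤ n - 0 → (αE E N q : FE E N →+* FE E (N * q)) (jLev E N q k)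
      = jLev E (N * q) q k := fun k hk =>
    alpha_jch838 E N q (pow_dvd_of_le838 N q hqn (by omega))
  have hβ : ∀ k, k ≤ n → (βE E N q : FE E N →+* FE E (N * q)) (jLev E N q k)
      = jLev E (N * q) q (k + 1) := fun k hk =>
    beta_jch838 E N q (pow_dvd_of_le838 N q hqn hk)
  -- Gauss at `j` for the components of the upper level, `i ≥ 1`
  have hG : ∀ i, 1 ≤ i → i ≤ n + 1 →
      A2.H489.IsGaussOver (RE P E) (V i) (jch E (N * q) q 0) := by
    intro i h1 h2
    apply isGaussOver_j_of_comap_alpha838 P E N q hq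
    rw [hO.lies i h1 h2]
    exact isGaussOver_j_of_levelCtx hS hL (by omega)
  -- the restriction along `β` of a Gauss valuation ring with pattern `c`
  have hdown : ∀ (U : ValuationSubring (FE E (N * q))),
      A2.H489.IsGaussOver (RE P E) U (jch E (N * q) q 0) → ∀ c,
      IsComp816 U q (jLev E (N * q) q) (n + 1) c →
      U.comap (βE E N q : FE E N →+* FE E (N * q)) = V' (min c n) := by
    intro U hU c hc
    have h1 : A2.H489.IsGaussOver (RE P E) U (jch E (N * q) q 1) :=
      isGaussOver_jch_of_jch838 P E (N * q) q hq hqn1 (Nat.zero_le _) (by omega) hU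
    have h2 : A2.H489.IsGaussOver (RE P E)
        (U.comap (βE E N q : FE E N →+* FE E (N * q))) (jch E N q 0) := by
      apply isGaussOver_comap816 (βE E N q)
      rw [beta_jch838 E N q (by simp)]
      exact h1
    have h3 := hc.comap_beta (by omega) (βE E N q : FE E N →+* FE E (N * q)) (jLev E N q)
      (fun k hk => hβ k (by simpa using hk))
    simp only [Nat.add_sub_cancel] at h3
    exact eq_of_isComp816 hS hL h2 h3
  -- the pattern of `V i`, `i ≥ 1`
  have hpat : ∀ i, 1 ≤ i → i ≤ n + 1 → IsComp816 (V i) q (jLev E (N * q) q) (n + 1) i := by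
    intro i h1 h2
    obtain ⟨c, hc⟩ := exists_isComp816_of_gauss hq hS.lies_over hqn1 (hG i h1 h2)
    have h3 := hc.comap_alpha (αE E N q : FE E N →+* FE E (N * q)) (jLev E N q)
      (fun k hk => hα k (by simpa using hk))
    simp only [Nat.add_sub_cancel] at h3
    rw [hO.lies i h1 h2] at h3
    have h4 : IsComp816 (V' (i - 1)) q (jLev E N q) n (i - 1) :=
      isComp816_of_kron hL.kron (by omega)
    have hGl := isGaussOver_j_of_levelCtx hS hL (k := i - 1) (by omega)
    have h5 := h3.unique h4 hq (natCast_mem_nu_of_isOver816 hS.lies_over hGl.isOver)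
      (unitQ_of_isGaussOver816 hq.one_lt hGl)
    by_cases hci : c = i
    · subst hci
      exact hc
    · -- `c = 0`, `i = 1`
      exfalso
      have hc0 : c = 0 := by omega
      have hi1 : i = 1 := by omega
      subst hc0
      subst hi1
      have h6 := hdown (V 1) (hG 1 h1 h2) 0 hc
      rw [Nat.zero_min] at h6
      apply hO.one_ne
      refine S36.H83.h83_beta_unique hS.unram.1.dvr hS.unif hq hqN hL.vinf hO.vinf (V 1)
        (fun f => ?_)
      have h7 : f ∈ (V 1).comap (βE E N q : FE E N →+* FE E (N * q)) ↔ f ∈ V' 0 := by rw [h6]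
      rw [ValuationSubring.mem_comap] at h7
      exact h7
  refine ⟨?_, fun i h1 h2 => hO.lies i h1 h2, fun i hi => ?_, ?_⟩
  · ext g
    rw [ValuationSubring.mem_comap]
    exact S36.H816.alpha_mem_iff hL.vinf hO.vinf g
  · rcases Nat.eq_zero_or_pos i with h0 | h0
    · subst h0
      ext g
      rw [ValuationSubring.mem_comap]
      exact S36.H816.beta_mem_iff hL.vinf hO.vinf g
    · have := hdown (V i) (hG i h0 (by omega)) i (hpat i h0 (by omega))
      rwa [min_eq_left hi] at this
  · have := hdown (V (n + 1)) (hG (n + 1) (by omega) le_rfl) (n + 1)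
      (hpat (n + 1) (by omega) le_rfl)
    rwa [min_eq_right (Nat.le_succ n)] at this

end Leaf

end Fermat.Agent.S45.ModE.H816

end

end
-- ===== PACK-END S45/ModE/H816/TableE.lean

-- ===== PACK-BEGIN S45/ModE/H816/OnlyE.lean
section


/-!
# S45 / CAR3 / MOD-E — ONLY-E and COMPLETE-E from the `α`-half of ONLY-E (helper816)

NON-CIRCULAR route to the `β`-half (no SYM-E, no Fricke, no VAL-E, no CHART-E): residue patterns.

* `LeafOnlyAlphaE816`     : the `α`-half of ONLY-E (fields `only_α₀`, `only_α` verbatim; same body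
                            as `H647.LeafOnlyAlphaE647`);
* `isGaussOver_j_upper816`: `j` is Gauss at every `V i`, `i ≤ n + 1`;
* `isComp816_upper`       : `V i` has the pattern `i` (`i ≤ n + 1`);
* `eq_of_isComp816_upper` : a `j`-Gauss valuation ring of the upper level with pattern `c` is `V c`;
* `leafOnlyE_of_alpha816` : `LeafOnlyAlphaE816 → LeafOnlyE`;
* `leafCompleteE_of_alpha816` : `LeafOnlyAlphaE816 → LeafCompleteE`;
* `leafKronE816`          : `LeafKronE`, UNCONDITIONAL.
-/

set_option autoImplicit false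
set_option linter.style.haveILetI false
set_option linter.unusedSectionVars false
set_option linter.unusedVariables false
set_option synthInstance.maxHeartbeats 400000
set_option maxHeartbeats 1600000

noncomputable section

namespace Fermat.Agent.S45.ModE.H816

open ModularCurve Polynomial
open Fermat.Agent Fermat.Agent.A2.Mod
open Fermat.Agent.S45.H816 Fermat.Agent.S45.H838

/-- The `α`-half of ONLY-E. -/
def LeafOnlyAlphaE816 : Prop :=
  Leaf fun _ E N q _ _ _ n _ V' V _ _ =>
    (∀ U : ValuationSubring (A2.Mod.FE E (N * q)),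
      U.comap (A2.Mod.αE E N q : A2.Mod.FE E N →+* A2.Mod.FE E (N * q)) = V' 0 →
        U = V 0 ∨ U = V 1) ∧
    (∀ j, 1 ≤ j → j ≤ n → ∀ U : ValuationSubring (A2.Mod.FE E (N * q)),
      U.comap (A2.Mod.αE E N q : A2.Mod.FE E N →+* A2.Mod.FE E (N * q)) = V' j →
        U = V (j + 1))

variable {P : ValuationSubring A2.Qb} {E : IntermediateField ℚ A2.Qb} {N q : ℕ}
  [NeZero N] [NeZero q] [NeZero (N * q)]

section Upper

variable {n : ℕ} {w : A2.RE P E} {V' : ℕ → ValuationSubring (FE E N)}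
  {V : ℕ → ValuationSubring (FE E (N * q))} {W' : FE E N ≃ₐ[E] FE E N}
  {W : FE E (N * q) ≃ₐ[E] FE E (N * q)}

theorem pow_dvd_of_stdE816 (hS : StdE P E N q n w) : q ^ n ∣ N := by
  have := Nat.ordProj_dvd N q
  rwa [hS.exp] at this

/-- `j` is Gauss at every component of the upper level. -/
theorem isGaussOver_j_upper816 (hS : StdE P E N q n w) (hL : LevelCtx P E N q n w V' W')
    (hO : ObjsE P E N q n V' V W) {i : ℕ} (hi : i ≤ n + 1) :
    haveI := hS.unram.1.dvr
    A2.H489.IsGaussOver (RE P E) (V i) (jch E (N * q) q 0) := by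
  haveI := hS.unram.1.dvr
  apply isGaussOver_j_of_comap_alpha838 P E N q hS.q_prime
  rcases Nat.eq_zero_or_pos i with h0 | h0
  · subst h0
    have e : (V 0).comap (αE E N q : FE E N →+* FE E (N * q)) = V' 0 := by
      ext g
      rw [ValuationSubring.mem_comap]
      exact S36.H816.alpha_mem_iff hL.vinf hO.vinf g
    rw [e]
    exact isGaussOver_j_of_levelCtx hS hL (Nat.zero_le n)
  · rw [hO.lies i h0 hi]
    exact isGaussOver_j_of_levelCtx hS hL (by omega)

/-- the restriction along `β` of a `j`-Gauss valuation ring with pattern `c`. -/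
theorem comap_beta_of_isComp816 (hS : StdE P E N q n w) (hn : 1 ≤ n)
    (hL : LevelCtx P E N q n w V' W') {U : ValuationSubring (FE E (N * q))}
    (hU : haveI := hS.unram.1.dvr; A2.H489.IsGaussOver (RE P E) U (jch E (N * q) q 0)) {c : ℕ}
    (hc : IsComp816 U q (jLev E (N * q) q) (n + 1) c) :
    U.comap (βE E N q : FE E N →+* FE E (N * q)) = V' (min c n) := by
  haveI := hS.unram.1.dvr
  have hq := hS.q_prime
  have hqn := pow_dvd_of_stdE816 hS
  have hqn1 : q ^ (n + 1) ∣ N * q := pow_succ_dvd838 N q hq hqn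
  have h1 : A2.H489.IsGaussOver (RE P E) U (jch E (N * q) q 1) :=
    isGaussOver_jch_of_jch838 P E (N * q) q hq hqn1 (Nat.zero_le _) (by omega) hU
  have h2 : A2.H489.IsGaussOver (RE P E)
      (U.comap (βE E N q : FE E N →+* FE E (N * q))) (jch E N q 0) := by
    apply isGaussOver_comap816 (βE E N q)
    rw [beta_jch838 E N q (by simp)]
    exact h1
  have h3 := hc.comap_beta (by omega) (βE E N q : FE E N →+* FE E (N * q)) (jLev E N q)
    (fun k hk => beta_jch838 E N q (pow_dvd_of_le838 N q hqn (by simpa using hk)))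
  simp only [Nat.add_sub_cancel] at h3
  exact eq_of_isComp816 hS hL h2 h3

/-- the restriction along `α` of a `j`-Gauss valuation ring with pattern `c`. -/
theorem comap_alpha_of_isComp816 (hS : StdE P E N q n w)
    (hL : LevelCtx P E N q n w V' W') {U : ValuationSubring (FE E (N * q))}
    (hU : haveI := hS.unram.1.dvr; A2.H489.IsGaussOver (RE P E) U (jch E (N * q) q 0)) {c : ℕ}
    (hc : IsComp816 U q (jLev E (N * q) q) (n + 1) c) :
    U.comap (αE E N q : FE E N →+* FE E (N * q)) = V' (c - 1) := by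
  haveI := hS.unram.1.dvr
  have hq := hS.q_prime
  have hqn := pow_dvd_of_stdE816 hS
  have h2 : A2.H489.IsGaussOver (RE P E)
      (U.comap (αE E N q : FE E N →+* FE E (N * q))) (jch E N q 0) := by
    apply isGaussOver_comap816 (αE E N q)
    rw [alpha_jch838 E N q (by simp)]
    exact hU
  have h3 := hc.comap_alpha (αE E N q : FE E N →+* FE E (N * q)) (jLev E N q)
    (fun k hk => alpha_jch838 E N q (pow_dvd_of_le838 N q hqn (by simpa using hk)))
  simp only [Nat.add_sub_cancel] at h3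
  exact eq_of_isComp816 hS hL h2 h3

/-- uniqueness of the pattern at a `j`-Gauss valuation ring of the upper level. -/
theorem isComp816_unique_upper (hS : StdE P E N q n w) {U : ValuationSubring (FE E (N * q))}
    (hU : haveI := hS.unram.1.dvr; A2.H489.IsGaussOver (RE P E) U (jch E (N * q) q 0))
    {c c' : ℕ} (hc : IsComp816 U q (jLev E (N * q) q) (n + 1) c)
    (hc' : IsComp816 U q (jLev E (N * q) q) (n + 1) c') : c = c' := by
  haveI := hS.unram.1.dvr
  exact hc.unique hc' hS.q_prime (natCast_mem_nu_of_isOver816 hS.lies_over hU.isOver)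
    (unitQ_of_isGaussOver816 hS.q_prime.one_lt hU)

/-- **`V i` has the pattern `i`.** -/
theorem isComp816_upper (hS : StdE P E N q n w) (hn : 1 ≤ n)
    (hL : LevelCtx P E N q n w V' W') (hO : ObjsE P E N q n V' V W) {i : ℕ} (hi : i ≤ n + 1) :
    IsComp816 (V i) q (jLev E (N * q) q) (n + 1) i := by
  haveI := hS.unram.1.dvr
  have hq := hS.q_prime
  have hqn := pow_dvd_of_stdE816 hS
  have hqn1 : q ^ (n + 1) ∣ N * q := pow_succ_dvd838 N q hq hqn
  have hqN : q ∣ N := (dvd_pow_self q (by omega : n ≠ 0)).trans hqn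
  have hG := isGaussOver_j_upper816 hS hL hO hi
  obtain ⟨c, hc⟩ := exists_isComp816_of_gauss hq hS.lies_over hqn1 hG
  have hβ := comap_beta_of_isComp816 hS hn hL hG hc
  rcases Nat.eq_zero_or_pos i with h0 | h0
  · -- `V 0 = V∞`: `(V 0).comap β = V' 0`
    subst h0
    have e : (V 0).comap (βE E N q : FE E N →+* FE E (N * q)) = V' 0 := by
      ext g
      rw [ValuationSubring.mem_comap]
      exact S36.H816.beta_mem_iff hL.vinf hO.vinf g
    rw [e] at hβ
    have hne := hL.val.ne 0 (Nat.zero_le n) (min c n) (min_le_right _ _)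
    have hc0 : c = 0 := by
      by_contra hcne
      exact hne (by
        intro h
        have : min c n = 0 := h.symm
        rcases Nat.min_eq_zero_iff.mp this with h1 | h1 <;> omega) hβ
    rw [hc0] at hc
    exact hc
  · have hα := comap_alpha_of_isComp816 hS hL hG hc
    rw [hO.lies i h0 hi] at hα
    have hci1 : i - 1 = c - 1 := by
      by_contra hne
      exact hL.val.ne (i - 1) (by omega) (c - 1) (by have := hc.1; omega) hne hα
    by_cases hci : c = i
    · subst hci
      exact hc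
    · exfalso
      have hc0 : c = 0 := by omega
      have hi1 : i = 1 := by omega
      subst hc0
      subst hi1
      rw [Nat.zero_min] at hβ
      apply hO.one_ne
      refine S36.H83.h83_beta_unique hS.unram.1.dvr hS.unif hq hqN hL.vinf hO.vinf (V 1)
        (fun f => ?_)
      have h7 : f ∈ (V 1).comap (βE E N q : FE E N →+* FE E (N * q)) ↔ f ∈ V' 0 := by rw [hβ]
      rw [ValuationSubring.mem_comap] at h7
      exact h7

/-- **A `j`-Gauss valuation ring of the upper level with pattern `c` is `V c`**, given the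
`α`-half of ONLY-E. -/
theorem eq_of_isComp816_upper (hS : StdE P E N q n w) (hn : 1 ≤ n)
    (hL : LevelCtx P E N q n w V' W') (hO : ObjsE P E N q n V' V W)
    (h₀ : ∀ U : ValuationSubring (FE E (N * q)),
      U.comap (αE E N q : FE E N →+* FE E (N * q)) = V' 0 → U = V 0 ∨ U = V 1)
    (h₁ : ∀ j, 1 ≤ j → j ≤ n → ∀ U : ValuationSubring (FE E (N * q)),
      U.comap (αE E N q : FE E N →+* FE E (N * q)) = V' j → U = V (j + 1))
    {U : ValuationSubring (FE E (N * q))}
    (hU : haveI := hS.unram.1.dvr; A2.H489.IsGaussOver (RE P E) U (jch E (N * q) q 0)) {c : ℕ}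
    (hc : IsComp816 U q (jLev E (N * q) q) (n + 1) c) : U = V c := by
  haveI := hS.unram.1.dvr
  have hα := comap_alpha_of_isComp816 hS hL hU hc
  by_cases hc2 : 2 ≤ c
  · have := h₁ (c - 1) (by omega) (by have := hc.1; omega) U hα
    rwa [Nat.sub_add_cancel (by omega)] at this
  · have hα0 : U.comap (αE E N q : FE E N →+* FE E (N * q)) = V' 0 := by
      rw [hα]
      congr 1
      omega
    rcases h₀ U hα0 with h | h
    · have h0 := isComp816_upper hS hn hL hO (i := 0) (Nat.zero_le _)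
      rw [← h] at h0
      have := isComp816_unique_upper hS hU hc h0
      rw [this]
      exact h
    · have h1 := isComp816_upper hS hn hL hO (i := 1) (by omega)
      rw [← h] at h1
      have := isComp816_unique_upper hS hU hc h1
      rw [this]
      exact h

end Upper

/-! ## The leaves -/

/-- the chain coordinate is polar of positive order. -/
theorem isPolar_xch816 {N q : ℕ} [NeZero N] [NeZero q] {E : IntermediateField ℚ A2.Qb} :
    ∀ e : ℕ, q ^ e ∣ N → ∃ a, 0 < a ∧ H13.IsPolar E N (xch E N q e) a := by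
  intro e
  induction e with
  | zero =>
      intro h0
      refine ⟨q ^ 0, by simp, ?_⟩
      have e1 : xch E N q 0 = jch E N q 0 := by
        unfold xch
        simp
      rw [e1, jch_of_dvd838 E N q h0]
      exact H13.isPolar_jE (q ^ 0) h0
  | succ e ih =>
      intro h1
      obtain ⟨a, ha, hp⟩ := ih (pow_dvd_of_le838 N q h1 (Nat.le_succ e))
      refine ⟨a + q ^ (e + 1), by omega, ?_⟩
      have e1 : xch E N q (e + 1) = xch E N q e * jch E N q (e + 1) := by
        unfold xch
        rw [Finset.prod_range_succ]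
      rw [e1, jch_of_dvd838 E N q h1]
      exact hp.mul (H13.isPolar_jE (q ^ (e + 1)) h1)

theorem transcendental_xch816 {N q : ℕ} [NeZero N] [NeZero q] {E : IntermediateField ℚ A2.Qb}
    {e : ℕ} (he : q ^ e ∣ N) : Transcendental E (xch E N q e) := by
  obtain ⟨a, ha, hp⟩ := isPolar_xch816 (E := E) e he
  exact S36.Mod3.H985.transcendental_of_isPolar (E := E) (N := N) ha hp

/-- **ONLY-E from its `α`-half.** -/
theorem leafOnlyE_of_alpha816 (hA : LeafOnlyAlphaE816) : LeafOnlyE := by
  intro P E N q _ _ _ n w hS hn V' V W' W hL hO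
  haveI := hS.unram.1.dvr
  obtain ⟨h₀, h₁⟩ := hA P E N q n w hS hn V' V W' W hL hO
  have hq := hS.q_prime
  have hqn := pow_dvd_of_stdE816 hS
  have hqn1 : q ^ (n + 1) ∣ N * q := pow_succ_dvd838 N q hq hqn
  -- a valuation ring over `V' j` along `β` is `V c` with `min c n = j`
  have key : ∀ j, j ≤ n → ∀ U : ValuationSubring (FE E (N * q)),
      U.comap (βE E N q : FE E N →+* FE E (N * q)) = V' j →
      ∃ c, c ≤ n + 1 ∧ min c n = j ∧ U = V c := by
    intro j hj U hUj
    have hU : A2.H489.IsGaussOver (RE P E) U (jch E (N * q) q 0) := by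
      apply isGaussOver_j_of_comap_beta838 P E N q hq
      rw [hUj]
      exact isGaussOver_j_of_levelCtx hS hL hj
    obtain ⟨c, hc⟩ := exists_isComp816_of_gauss hq hS.lies_over hqn1 hU
    have hβ := comap_beta_of_isComp816 hS (by omega) hL hU hc
    rw [hUj] at hβ
    refine ⟨c, hc.1, ?_, eq_of_isComp816_upper hS (by omega) hL hO h₀ h₁ hU hc⟩
    by_contra hne
    exact hL.val.ne j hj (min c n) (min_le_right _ _) (fun h => hne h.symm) hβ
  refine ⟨h₀, h₁, fun U hU => ?_, fun j hj U hU => ?_⟩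
  · obtain ⟨c, hc1, hc2, hc3⟩ := key n le_rfl U hU
    have : c = n + 1 ∨ c = n := by
      rcases Nat.lt_or_ge c n with h | h
      · rw [min_eq_left h.le] at hc2
        omega
      · omega
    rcases this with h | h
    · left; rw [hc3, h]
    · right; rw [hc3, h]
  · obtain ⟨c, hc1, hc2, hc3⟩ := key j hj.le U hU
    have : c = j := by
      rcases Nat.lt_or_ge c n with h | h
      · rw [min_eq_left h.le] at hc2
        exact hc2
      · rw [min_eq_right h] at hc2
        omega
    rw [hc3, this]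

/-- **COMPLETE-E from the `α`-half of ONLY-E.** -/
theorem leafCompleteE_of_alpha816 (hA : LeafOnlyAlphaE816) : LeafCompleteE := by
  intro P E N q _ _ _ n w hS hn V' V W' W hL hO
  haveI := hS.unram.1.dvr
  obtain ⟨h₀, h₁⟩ := hA P E N q n w hS hn V' V W' W hL hO
  have hq := hS.q_prime
  have hqn := pow_dvd_of_stdE816 hS
  have hqn1 : q ^ (n + 1) ∣ N * q := pow_succ_dvd838 N q hq hqn
  refine ⟨fun U hb hx hw hg => ?_⟩
  have hxG : A2.H489.IsGaussOver (RE P E) U (xch E (N * q) q (n + 1)) :=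
    isGaussOver_of_sheet816 hS.unif (transcendental_xch816 hqn1) hb hw hx hg
  have hU := isGaussOver_j_of_xch816 hq hqn1 hxG
  obtain ⟨c, hc⟩ := exists_isComp816_of_gauss hq hS.lies_over hqn1 hU
  exact ⟨c, hc.1, eq_of_isComp816_upper hS (by omega) hL hO h₀ h₁ hU hc⟩

/-- **KRON-E (leaf), UNCONDITIONAL.** -/
theorem leafKronE816 : LeafKronE := by
  intro P E N q _ _ _ n w hS hn V' V W' W hL hO
  haveI := hS.unram.1.dvr
  have hq := hS.q_prime
  have hqn := pow_dvd_of_stdE816 hS
  have hqn1 : q ^ (n + 1) ∣ N * q := pow_succ_dvd838 N q hq hqn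
  refine ⟨fun i hi l hl => ?_, fun i hi l hl hl' => ?_, fun i hi l hl => ?_⟩
  · exact (isComp816_upper hS (by omega) hL hO hi).2.stepF l hl
  · exact cong_symm816 (V i) ((isComp816_upper hS (by omega) hL hO hi).2.stepV l hl hl')
  · have hG := isGaussOver_j_upper816 hS hL hO hi
    have hGl : A2.H489.IsGaussOver (RE P E) (V i) (jch E (N * q) q l) :=
      isGaussOver_jch_of_jch838 P E (N * q) q hq hqn1 (Nat.zero_le _) hl hG
    refine ⟨jch_ne_zero838 E (N * q) q l, hGl.mem, ?_⟩
    have h1 := S36.Mod3.H985.inv_aeval_mem_of_isGaussOver hGl hS.unif.maximalIdeal_eq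
      Polynomial.X ⟨1, by
        rw [Polynomial.coeff_X_one]
        intro hdvd
        exact hS.unif.not_isUnit (isUnit_of_dvd_one hdvd)⟩
    rwa [Polynomial.aeval_X] at h1

end Fermat.Agent.S45.ModE.H816

end

end
-- ===== PACK-END S45/ModE/H816/OnlyE.lean

-- ===== PACK-BEGIN S45/ModE/H868/NRS.lean
section






/-!
# S45 / CAR3 / MOD-E — the leaf NRS-E (helper868, independent 3rd seat)

`ModE.LeafNRSE` (residues and valuations of norms at the two SPLIT ends of the special fibre of
the level `N q`) from the leaves `LeafTableE` and `LeafValE`, by the generic adapters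
`S36.H253.eng_nr_split`, `eng_nv_split` (helper253):

* `α`-end: `V 0` (`e = f = 1`) and `V 1` (`e = q - 1`, `f = 1`) over `V' 0`;
* `β`-end: `V (n + 1)` (`e = f = 1`) and `V n` (`e = q - 1`, `f = 1`) over `V' n`.

Inputs: the degrees `[F : α F'] = [F : β F'] = q` (`S37.H818.finrankAlong_heckeAlphaBar'`, `q ∣ N`;
`β` by Fricke transport `W ∘ α = β ∘ W'`), the multiplicities `mu q (n + 1) i = 1` for
`i ∈ {0, n + 1}` and `= q - 1` for `i ∈ {1, n}`, and the fields of `PartTableE`, `PartValE`.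

Main statements:
* `partNRSE_of868` : the part at concrete objects;
* `leafNRSE_of868` : `LeafTableE → LeafValE → LeafNRSE`.
-/

set_option autoImplicit false
set_option linter.style.haveILetI false
set_option linter.unusedSectionVars false
set_option linter.unusedVariables false
set_option synthInstance.maxHeartbeats 400000
set_option maxHeartbeats 1600000

noncomputable section

namespace Fermat.Agent.S45.ModE.H868

open ModularCurve AlgebraicCurve
open Fermat.Agent.A2.Mod
open Fermat.Agent.S36 Fermat.Agent.S36.Eng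

/-! ## Index arithmetic -/

theorem mu_zero868 (q e : ℕ) : mu q e 0 = 1 := by
  simp [mu]

theorem mu_top868 (q e : ℕ) : mu q e e = 1 := by
  simp [mu]

theorem mu_one868 {q e : ℕ} (hq : q.Prime) (he : 2 ≤ e) : mu q e 1 = q - 1 := by
  have h : min 1 (e - 1) = 1 := by omega
  simp only [mu, h, pow_one]
  exact Nat.totient_prime hq

theorem mu_pred868 {q e : ℕ} (hq : q.Prime) (he : 2 ≤ e) : mu q e (e - 1) = q - 1 := by
  have h : min (e - 1) (e - (e - 1)) = 1 := by omega
  simp only [mu, h, pow_one]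
  exact Nat.totient_prime hq

/-! ## Abstract preliminaries -/

section Abstract

variable {F : Type*} [Field F]

/-- `w = unit · t` with `t` a uniformiser: `w` is a uniformiser. -/
theorem unifAt_of_unitAt_mul_inv868 (V : ValuationSubring F) {w t : F} (ht : UnifAt V t)
    (hu : UnitAt V (w * (t ^ 1)⁻¹)) : UnifAt V w := by
  rw [pow_one] at hu
  obtain ⟨ht0, htm, htd⟩ := ht
  obtain ⟨hu0, huV, huV'⟩ := hu
  have hw0 : w ≠ 0 := fun h => hu0 (by rw [h, zero_mul])
  have hw : w = w * t⁻¹ * t := by rw [inv_mul_cancel_right₀ ht0]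
  refine ⟨hw0, ?_, fun f hf => ?_⟩
  · rw [ValuationSubring.mem_nonunits_iff] at htm ⊢
    have h1 : V.valuation (w * t⁻¹) ≤ 1 := (V.valuation_le_one_iff _).2 huV
    rw [hw, map_mul]
    calc V.valuation (w * t⁻¹) * V.valuation t ≤ 1 * V.valuation t := by gcongr
      _ = V.valuation t := one_mul _
      _ < 1 := htm
  · have e : f * w⁻¹ = f * t⁻¹ * (w * t⁻¹)⁻¹ := by
      field_simp
    rw [e]
    exact V.mul_mem _ _ (htd f hf) huV'

/-- The degree along a degeneracy map is invariant under transport by automorphisms. -/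
theorem finrankAlong_eq_of_equiv868 {K F F' : Type*} [Field K] [Field F] [Field F'] [Algebra K F]
    [Algebra K F'] (φ ψ : F →ₐ[K] F') (i : F ≃+* F) (j : F' ≃+* F')
    (h : ∀ f, ψ (i f) = j (φ f)) : finrankAlong K φ = finrankAlong K ψ := by
  unfold finrankAlong
  exact @Algebra.finrank_eq_of_equiv_equiv F F' _ _ (algebraAlong φ) F F' _ _ (algebraAlong ψ)
    i j (RingHom.ext fun f => h f)

/-- Positive degree gives finiteness. -/
theorem finiteAlong_of_pos868 {K F F' : Type*} [Field K] [Field F] [Field F'] [Algebra K F]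
    [Algebra K F'] (φ : F →ₐ[K] F') (h : 0 < finrankAlong K φ) : FiniteAlong K φ := by
  unfold FiniteAlong
  unfold finrankAlong at h
  letI := algebraAlong φ
  exact Module.finite_of_finrank_pos h

end Abstract

/-! ## The degrees -/

section Degrees

variable {E : IntermediateField ℚ Qb} {N q : ℕ} [NeZero N] [NeZero q] [NeZero (N * q)]

/-- `[F_{Nq} : α F_N] = q` for `q ∣ N`. -/
theorem deg_alpha868 (hq : q.Prime) (hqN : q ∣ N) : finrankAlong E (αE E N q) = q := by
  have h := Fermat.Agent.S37.H818.finrankAlong_heckeAlphaBar' (L := E) N q hq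
  rw [if_pos hqN] at h
  exact h

/-- `[F_{Nq} : β F_N] = q` for `q ∣ N` (Fricke transport of `deg_alpha868`). -/
theorem deg_beta868 (hq : q.Prime) (hqN : q ∣ N) {W' : FE E N ≃ₐ[E] FE E N}
    {W : FE E (N * q) ≃ₐ[E] FE E (N * q)}
    (hW' : IsFricke E N W') (hW : IsFricke E (N * q) W) :
    finrankAlong E (βE E N q) = q := by
  refine ((finrankAlong_eq_of_equiv868 (αE E N q) (βE E N q) W'.toRingEquiv
    W.toRingEquiv fun f => ?_).symm).trans (deg_alpha868 (E := E) hq hqN)
  exact ((H751.frickeCompat E N q W' W hW' hW f).1).symm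

end Degrees

/-! ## The leaf -/

section Leaves

variable {P : ValuationSubring Qb} {E : IntermediateField ℚ Qb} {N q : ℕ}
  [NeZero N] [NeZero q] [NeZero (N * q)]

/-- **NRS-E at the concrete objects**, from `PartTableE` and `PartValE` of the upper level. -/
theorem partNRSE_of868 {n : ℕ} {w : RE P E} (hq : q.Prime) (hqN : q ∣ N) (hn : 1 ≤ n)
    {V' : ℕ → ValuationSubring (FE E N)} {V : ℕ → ValuationSubring (FE E (N * q))}
    {W' : FE E N ≃ₐ[E] FE E N} {W : FE E (N * q) ≃ₐ[E] FE E (N * q)}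
    (hW' : IsFricke E N W') (hW : IsFricke E (N * q) W)
    (hTab : PartTableE n (αE E N q) (βE E N q) V V')
    (hVal : PartValE (R := RE P E) w q (n + 1) (xLev E (N * q) q (n + 1)) V) :
    PartNRSE (R := RE P E) w q n (αE E N q) (βE E N q) V V' := by
  -- degrees
  have deg_α : finrankAlong E (αE E N q) = q := deg_alpha868 hq hqN
  have deg_β : finrankAlong E (βE E N q) = q := deg_beta868 hq hqN hW' hW
  have fin_α : FiniteAlong E (αE E N q) :=
    finiteAlong_of_pos868 _ (by rw [deg_α]; exact hq.pos)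
  have fin_β : FiniteAlong E (βE E N q) :=
    finiteAlong_of_pos868 _ (by rw [deg_β]; exact hq.pos)
  -- constants
  have hαw : αE E N q (algebraMap (RE P E) (FE E N) w)
      = algebraMap (RE P E) (FE E (N * q)) w :=
    Fermat.Agent.S36.H253.along_algebraMap _ w
  have hβw : βE E N q (algebraMap (RE P E) (FE E N) w)
      = algebraMap (RE P E) (FE E (N * q)) w :=
    Fermat.Agent.S36.H253.along_algebraMap _ w
  -- the reduced ends
  have unif₀ : UnifAt (V 0) (algebraMap (RE P E) (FE E (N * q)) w) := by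
    obtain ⟨t, ht, hu⟩ := hVal.ram 0 (Nat.zero_le _)
    rw [mu_zero868] at hu
    exact unifAt_of_unitAt_mul_inv868 _ ht hu
  have unifₑ : UnifAt (V (n + 1)) (algebraMap (RE P E) (FE E (N * q)) w) := by
    obtain ⟨t, ht, hu⟩ := hVal.ram (n + 1) le_rfl
    rw [mu_top868] at hu
    exact unifAt_of_unitAt_mul_inv868 _ ht hu
  -- the ends of multiplicity `q - 1`
  have ram₁ : ∃ t : FE E (N * q), UnifAt (V 1) t ∧
      UnitAt (V 1) (algebraMap (RE P E) (FE E (N * q)) w * (t ^ (q - 1))⁻¹) := by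
    obtain ⟨t, ht, hu⟩ := hVal.ram 1 (by omega)
    rw [mu_one868 hq (by omega)] at hu
    exact ⟨t, ht, hu⟩
  have ramₙ : ∃ t : FE E (N * q), UnifAt (V n) t ∧
      UnitAt (V n) (algebraMap (RE P E) (FE E (N * q)) w * (t ^ (q - 1))⁻¹) := by
    obtain ⟨t, ht, hu⟩ := hVal.ram n (by omega)
    have h := mu_pred868 (q := q) (e := n + 1) hq (by omega)
    rw [Nat.add_sub_cancel] at h
    rw [h] at hu
    exact ⟨t, ht, hu⟩
  -- lying over
  have hca : (V 0).comap (αE E N q : FE E N →+* FE E (N * q)) = V' 0 := hTab.comap_α₀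
  have hcb : (V 1).comap (αE E N q : FE E N →+* FE E (N * q)) = V' 0 :=
    hTab.comap_α 1 le_rfl (by omega)
  have hca' : (V (n + 1)).comap (βE E N q : FE E N →+* FE E (N * q)) = V' n := hTab.comap_βₑ
  have hcb' : (V n).comap (βE E N q : FE E N →+* FE E (N * q)) = V' n :=
    hTab.comap_β n le_rfl
  have hne : V 0 ≠ V 1 := hVal.ne 0 (Nat.zero_le _) 1 (by omega) (by omega)
  have hne' : V (n + 1) ≠ V n := hVal.ne (n + 1) le_rfl n (by omega) (by omega)
  refine ⟨?_, ?_, ?_, ?_⟩
  · exact Fermat.Agent.S36.H253.eng_nr_split (R := RE P E) w q (αE E N q) fin_α deg_α hq.pos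
      hca hcb hne hαw (hVal.dvr 0 (Nat.zero_le _)) unif₀ ram₁
  · exact Fermat.Agent.S36.H253.eng_nr_split (R := RE P E) w q (βE E N q) fin_β deg_β hq.pos
      hca' hcb' hne' hβw (hVal.dvr (n + 1) le_rfl) unifₑ ramₙ
  · exact Fermat.Agent.S36.H253.eng_nv_split (R := RE P E) w q (αE E N q) fin_α deg_α hq.pos
      hca hcb hne hαw (hVal.dvr 0 (Nat.zero_le _)) unif₀ ram₁
  · exact Fermat.Agent.S36.H253.eng_nv_split (R := RE P E) w q (βE E N q) fin_β deg_β hq.pos
      hca' hcb' hne' hβw (hVal.dvr (n + 1) le_rfl) unifₑ ramₙ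

/-- `q ∣ N` from the exponent. -/
theorem dvd_of_stdE868 {n : ℕ} {w : RE P E} (hS : StdE P E N q n w) (hn : 1 ≤ n) : q ∣ N := by
  have h : 0 < N.factorization q := by rw [hS.exp]; exact hn
  exact Nat.dvd_of_factorization_pos h.ne'

/-- **NRS-E (leaf)** from TABLE-E and VAL-E. -/
theorem leafNRSE_of868 (hTab : LeafTableE) (hVal : LeafValE) : LeafNRSE :=
  fun P E N q _ _ _ n w hS hn V' V W' W hL hO =>
    partNRSE_of868 hS.q_prime (dvd_of_stdE868 hS (by omega)) (by omega) hL.fricke hO.fricke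
      (hTab P E N q n w hS hn V' V W' W hL hO) (hVal P E N q n w hS hn V' V W' W hL hO)

end Leaves

end Fermat.Agent.S45.ModE.H868

end

end
-- ===== PACK-END S45/ModE/H868/NRS.lean

-- ===== PACK-BEGIN S45/ModE/H492/WitE.lean
section





/-!
# S45 / MOD-E leaf WIT-E (helper492): `leafWitE_of : LeafTableE → LeafResE → LeafWitE`

The invariant `wit` ("the ROOT coordinate is not a `q`-th power in the residue field") goes up
along the steps of residue degree ONE:

* `wit_lo` (`2 i ≤ e`, root coordinate `J 0 = α (J' 0)`): `V i` has residue degree one over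
  `V' (i - 1)` along `α` (`PartResE.res_α`), and `2 (i - 1) ≤ e - 1`;
* `wit_hi` (`e ≤ 2 i`, root coordinate `J e = β (J' (e - 1))`): `V i` has residue degree one over
  `V' (min i (e - 1))` along `β` (`PartResE.res_β`), and `e - 1 ≤ 2 min i (e - 1)`.

Also: `alpha_jLev492`, `beta_jLev492` (`α (J' l) = J l`, `β (J' l) = J (l + 1)`), usable by every
leaf which works with the chain `ModE.jLev`.
-/

set_option autoImplicit false
set_option linter.style.haveILetI false
set_option linter.unusedSectionVars false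
set_option synthInstance.maxHeartbeats 400000
set_option maxHeartbeats 1600000

noncomputable section

namespace Fermat.Agent.S45.ModE.H492

open ModularCurve
open Fermat.Agent.A2.Mod (FE RE jE αE βE)

/-! ### the chain `J l = j_{q^l}` under `α` and `β` -/

section Chain

variable (E : IntermediateField ℚ Fermat.Agent.A2.Qb) (N q : ℕ) [NeZero N] [NeZero q]

theorem jLev_of_dvd492 {l : ℕ} (h : q ^ l ∣ N) : jLev E N q l = jE E N (q ^ l) h := by
  unfold jLev
  rw [dif_pos h]

/-- `α (J' l) = J l`. -/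
theorem alpha_jLev492 [NeZero (N * q)] {l : ℕ} (h : q ^ l ∣ N) :
    αE E N q (jLev E N q l) = jLev E (N * q) q l := by
  rw [jLev_of_dvd492 E N q h, jLev_of_dvd492 E (N * q) q (h.trans (dvd_mul_right N q)),
    Fermat.Agent.A2.Mod.H751.alpha_jE]

/-- `β (J' l) = J (l + 1)`. -/
theorem beta_jLev492 [NeZero (N * q)] {l : ℕ} (h : q ^ l ∣ N) :
    βE E N q (jLev E N q l) = jLev E (N * q) q (l + 1) := by
  have h' : q ^ (l + 1) ∣ N * q := by
    rw [pow_succ]
    exact mul_dvd_mul_right h q
  rw [jLev_of_dvd492 E N q h, jLev_of_dvd492 E (N * q) q h', Fermat.Agent.A2.Mod.H751.beta_jE]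
  exact Fermat.Agent.A2.Mod.H751.jE_congr E (N * q) (pow_succ' q l).symm _ _

end Chain

/-! ### `wit` goes up along a step of residue degree one (abstract) -/

section Abs

variable {F F' : Type*} [Field F] [Field F']

/-- nonunits of a comap. -/
theorem mem_nonunits_comap492 (V : ValuationSubring F) (φ : F' →+* F) (x : F') :
    x ∈ (V.comap φ).nonunits ↔ φ x ∈ V.nonunits := by
  rw [ValuationSubring.mem_nonunits_iff_or, ValuationSubring.mem_nonunits_iff_or,
    ValuationSubring.mem_comap, map_inv₀, map_eq_zero]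

/-- If `V` has residue degree one over `V' = V ∘ φ` and `s'` is not a `q`-th power modulo `𝔪_{V'}`,
then `φ s'` is not a `q`-th power modulo `𝔪_V`. -/
theorem wit_up492 (q : ℕ) (φ : F' →+* F) (V : ValuationSubring F) (V' : ValuationSubring F')
    (hcomap : V.comap φ = V') (hres : ∀ f ∈ V, ∃ g ∈ V', f - φ g ∈ V.nonunits)
    (s' : F') (hwit : ∀ g ∈ V', g ^ q - s' ∉ V'.nonunits) :
    ∀ y ∈ V, y ^ q - φ s' ∉ V.nonunits := by
  intro y hy hbad
  obtain ⟨g, hg, hyg⟩ := hres y hy
  have hφg : φ g ∈ V := by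
    have : g ∈ V.comap φ := by rw [hcomap]; exact hg
    exact this
  have h1 : y ^ q - φ g ^ q ∈ V.nonunits :=
    Fermat.Agent.S36.H816.pow_sub_pow_mem_nonunits V hy hφg hyg q
  have h2 : φ (g ^ q - s') ∈ V.nonunits := by
    have e : φ (g ^ q - s') = (y ^ q - φ s') - (y ^ q - φ g ^ q) := by
      rw [map_sub, map_pow]
      ring
    rw [e]
    have hneg : -(y ^ q - φ g ^ q) ∈ V.nonunits := by
      rw [ValuationSubring.mem_nonunits_iff, Valuation.map_neg]
      exact (ValuationSubring.mem_nonunits_iff V).mp h1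
    rw [sub_eq_add_neg]
    exact Fermat.Agent.S36.H816.add_mem_nonunits V hbad hneg
  have h3 : g ^ q - s' ∈ (V.comap φ).nonunits :=
    (mem_nonunits_comap492 V φ _).mpr h2
  rw [hcomap] at h3
  exact hwit g hg h3

end Abs

/-! ### the leaf -/

/-- **MOD-E leaf WIT-E**, from TABLE-E and RES-E (and the invariant `wit` of the lower level). -/
theorem leafWitE_of (hT : LeafTableE) (hR : LeafResE) : LeafWitE := by
  intro P E N q _ _ _ n w hS hn V' V W' W hL hO
  have hT' := hT P E N q n w hS hn V' V W' W hL hO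
  have hR' := hR P E N q n w hS hn V' V W' W hL hO
  have hN0 : N ≠ 0 := NeZero.ne N
  have hdvd : ∀ l ≤ n, q ^ l ∣ N := fun l hl =>
    (Nat.Prime.pow_dvd_iff_le_factorization hS.q_prime hN0).mpr (hS.exp ▸ hl)
  have hJ0 : jLev E (N * q) q 0 = αE E N q (jLev E N q 0) :=
    (alpha_jLev492 E N q (hdvd 0 (Nat.zero_le n))).symm
  have hJe : jLev E (N * q) q (n + 1) = βE E N q (jLev E N q n) :=
    (beta_jLev492 E N q (hdvd n le_rfl)).symm
  refine ⟨?_, ?_⟩
  · -- wit_lo
    intro i hi h2i
    rw [hJ0]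
    have hcomap : (V i).comap (αE E N q : FE E N →+* FE E (N * q)) = V' (i - 1) := by
      rcases Nat.eq_zero_or_pos i with h0 | hpos
      · subst h0
        exact hT'.comap_α₀
      · exact hT'.comap_α i hpos hi
    exact wit_up492 q (αE E N q : FE E N →+* FE E (N * q)) (V i) (V' (i - 1)) hcomap
      (hR'.res_α i hi (Or.inr h2i)) (jLev E N q 0)
      (hL.wit.wit_lo (i - 1) (by omega) (by omega))
  · -- wit_hi
    intro i hi h2i
    rw [hJe]
    have hcomap : (V i).comap (βE E N q : FE E N →+* FE E (N * q)) = V' (min i n) := by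
      rcases Nat.lt_or_ge n i with hlt | hle
      · have hi' : i = n + 1 := by omega
        subst hi'
        rw [min_eq_right (Nat.le_succ n)]
        exact hT'.comap_βₑ
      · rw [min_eq_left hle]
        exact hT'.comap_β i hle
    exact wit_up492 q (βE E N q : FE E N →+* FE E (N * q)) (V i) (V' (min i n)) hcomap
      (hR'.res_β i hi (Or.inr h2i)) (jLev E N q n)
      (hL.wit.wit_hi (min i n) (min_le_right i n) (by
        rcases Nat.lt_or_ge n i with hlt | hle
        · rw [min_eq_right (Nat.le_of_lt hlt)]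
          omega
        · rw [min_eq_left hle]
          omega))

/-- seat-tagged alias. -/
theorem leafWitE_of492 (hT : LeafTableE) (hR : LeafResE) : LeafWitE := leafWitE_of hT hR

end Fermat.Agent.S45.ModE.H492

end

end
-- ===== PACK-END S45/ModE/H492/WitE.lean

-- ===== PACK-BEGIN S45/H890/T9Lev.lean
section






/-!
# S45 / CAR3, MOD-E/Reg (helper890, `q = 2`): the `t₉`-chain and the `j`-chain at ANY level

Level-generic facts about elements of `F_{N,E} ⊆ E((t))` which are given by their expansions: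

* `rel9_of_coe890`     : `τ = t₉(t^d)`, `J = j(t^d)` ⟹ `J · D₉(τ) = P₉(τ)³` (shape of
                         `S36.H934.p9`, `d9`) and the shape of `Haupt9.jq_mul_t9`;
* `modPoly_up890`      : `Φ_q(j(t^d), j(t^{dq})) = 0`  (outer variable `j(t^d)`);
* `modPoly_down890`    : `Φ_q(j(t^{dq}), j(t^d)) = 0`  (outer variable `j(t^{dq})`);
  both in the `aeval` form (helper922 `ev922`) and in the `eval₂RingHom` form (helper693).
-/

set_option autoImplicit false
set_option linter.unusedSectionVars false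
set_option synthInstance.maxHeartbeats 400000
set_option maxHeartbeats 1600000

noncomputable section

namespace Fermat.Agent.S45.H890

open ModularCurve HahnSeries Fermat.Agent.Lib.Haupt Fermat.Agent.A2.Mod
open Fermat.Agent.S36.H890 Fermat.Agent.S36.H934 Fermat.Agent.S28

variable (E : IntermediateField ℚ Fermat.Agent.A2.Mod.Qb) (N : ℕ)

/-- The relation between `t₉(t^d)` and `j(t^d)` in `F_{N,E}`, shape of `Haupt9.jq_mul_t9`. -/
theorem rel9_shape_of_coe890 (τ J : FE E N) (d : ℕ) [NeZero d]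
    (hτ : (τ : LaurentSeries E) = qExpand E d (t9 E))
    (hJ : (J : LaurentSeries E) = qExpand E d (jqModC E)) :
    J * (τ ^ 9 * (τ ^ 2 + 9 * τ + 27))
      = (τ + 9) ^ 3 * (τ ^ 3 + 243 * (τ ^ 2 + 9 * τ + 27)) ^ 3 := by
  apply Subtype.ext
  have h := congrArg (qExpand E d) (jq_mul_t9 E)
  simp only [map_mul, map_pow, map_add, map_ofNat] at h
  rw [← hτ, ← hJ] at h
  exact h

/-- The same in the shape `J · D₉(τ) = P₉(τ)³` of `S36.H934`. -/
theorem rel9_of_coe890 (τ J : FE E N) (d : ℕ) [NeZero d]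
    (hτ : (τ : LaurentSeries E) = qExpand E d (t9 E))
    (hJ : (J : LaurentSeries E) = qExpand E d (jqModC E)) :
    J * d9 τ = p9 τ ^ 3 := by
  have h := rel9_shape_of_coe890 E N τ J d hτ hJ
  rw [d9, p9]
  linear_combination h

/-- `Φ_q(j(t^d), j(t^{dq})) = 0` in `F_{N,E}` (outer variable `j(t^d)`). -/
theorem modPoly_up890 (q : ℕ) [NeZero q] (Φ : ModPolyData q) (d : ℕ) [NeZero d]
    [NeZero (d * q)] (hd : d ∣ N) (hdq : d * q ∣ N) :
    Φ.Φ.eval₂ (Polynomial.aeval (R := ℤ) (jE E N (d * q) hdq)).toRingHom (jE E N d hd) = 0 := by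
  refine H873.eval₂_eq_zero_of_int E N Φ.Φ _ _ (qExpand ℤ d (jqModC ℤ))
    (qExpand ℤ (d * q) (jqModC ℤ)) (H873.coe_jE_int E _ d _) (H873.coe_jE_int E _ (d * q) _) ?_
  have h := congrArg (qExpand ℤ d) Φ.eval_j
  rw [Polynomial.hom_eval₂, map_zero, S28.h88_comp_evalAt, qExpand_qExpand] at h
  exact h

/-- `Φ_q(j(t^{dq}), j(t^d)) = 0` in `F_{N,E}` (outer variable `j(t^{dq})`). -/
theorem modPoly_down890 (q : ℕ) [NeZero q] (Φ : ModPolyData q) (d : ℕ) [NeZero d]
    [NeZero (d * q)] (hd : d ∣ N) (hdq : d * q ∣ N) :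
    Φ.Φ.eval₂ (Polynomial.aeval (R := ℤ) (jE E N d hd)).toRingHom (jE E N (d * q) hdq) = 0 := by
  refine H873.eval₂_eq_zero_of_int E N Φ.Φ _ _ (qExpand ℤ (d * q) (jqModC ℤ))
    (qExpand ℤ d (jqModC ℤ)) (H873.coe_jE_int E _ (d * q) _) (H873.coe_jE_int E _ d _) ?_
  have h := congrArg (qExpand ℤ d) Φ.eval_jp
  rw [Polynomial.hom_eval₂, map_zero, S28.h88_comp_evalAt, qExpand_qExpand] at h
  exact h

/-- The two evaluation homomorphisms `ℤ[Y] → F` agree. -/
theorem aeval_eq_eval₂RingHom890 {F : Type*} [Field F] (y : F) :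
    (Polynomial.aeval (R := ℤ) y).toRingHom = Polynomial.eval₂RingHom (Int.castRingHom F) y := by
  apply Polynomial.ringHom_ext
  · intro a
    simp
  · simp

end Fermat.Agent.S45.H890

end

end
-- ===== PACK-END S45/H890/T9Lev.lean

-- ===== PACK-BEGIN S45/H890/DiagTwo.lean
section





/-!
# S45 / CAR3, MOD-E/Reg, leaf C7 (helper890): the chain congruence of the `t₉`-chain on a
DIAGONAL sheet WITHOUT precision modulo `w`  (`q = 2`, `e = 4`: `μ = q`)

On the diagonal sheet `V = V (e/2)` of level `q ^ e` put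

    (jA, hA) = (J e, τ e),  (jA1, hA1) = (J (e-1), τ (e-1)),  (jB, hB) = (J 0, τ 0),
    (jB1, hB1) = (J 1, τ 1)            (`J l = j(t^{q^l})`, `τ l = t₉(t^{q^l})`).

* `chain_cong_t9_of_kron890` (abstract): Kronecker form of the chain congruence for the `j`-chain
  (helper693 `chain_cong_kron693`: `Φ_q(jA, jA1) = 0 = Φ_q(jB, jB1)`, `v(q) ≥ v(jA1 - jB1)`)
  + transfer `j → t₉` (`chain_transfer9`)  ⟹  `(hA - hB) ^ q = (hA1 - hB1) (1 + 𝔪_V)`;
* `chain_cong_t9_lev890` (concrete, ANY level `N`, any prime `q ≠ 3`): the same for elements of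
  `F_{N,E}` given by their expansions, the modular polynomial from `S28.H807`;
* `chain_cong_t9_two890`: the case `q = 2` (`3` and `j - 1728` are units for free).

Inputs are VALUATION-LEVEL statements in `V` only (patterns of KRON-E / FrobW / VerW modulo `𝔪_V`,
`J 0` a unit, `J e - J (e-1) ^ q` a unit (WIT-E), `q / (J (e-1) - J 1) ∈ V` (UNIF-E + `ram`)).
-/

set_option autoImplicit false
set_option linter.style.haveILetI false
set_option linter.unusedSectionVars false
set_option synthInstance.maxHeartbeats 400000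
set_option maxHeartbeats 1600000

noncomputable section

namespace Fermat.Agent.S45.H890

open Fermat.Agent.S36.H934

section Abs

variable {F : Type*} [Field F] [CharZero F]

/-- `t₉` is integral over `ℤ[j]`: `j ∈ V ⟹ t ∈ V` for a valuation ring `V`. -/
theorem t9_mem_val890 (V : ValuationSubring F) {j t : F} (hj : j ∈ V)
    (hrel : j * d9 t = p9 t ^ 3) : t ∈ V := by
  have hint : IsIntegral V t := by
    refine ⟨Fermat.Agent.S36.H890.poly9 (⟨j, hj⟩ : V), Fermat.Agent.S36.H890.poly9_monic _, ?_⟩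
    rw [Fermat.Agent.S36.H890.eval₂_poly9]
    show (t + 9) ^ 3 * (t ^ 3 + 243 * (t ^ 2 + 9 * t + 27)) ^ 3
      - j * (t ^ 9 * (t ^ 2 + 9 * t + 27)) = 0
    rw [d9, p9] at hrel
    linear_combination -hrel
  obtain ⟨y, hy⟩ := IsIntegrallyClosed.isIntegral_iff.mp hint
  rw [← hy]
  exact y.2

theorem shape_of_rel9_890 {j t : F} (hrel : j * d9 t = p9 t ^ 3) :
    j * (t ^ 9 * (t ^ 2 + 9 * t + 27))
      = (t + 9) ^ 3 * (t ^ 3 + 243 * (t ^ 2 + 9 * t + 27)) ^ 3 := by
  rw [d9, p9] at hrel
  linear_combination hrel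

/-- A unit of `V` has valuation one. -/
theorem valuation_eq_one890 (V : ValuationSubring F) {u : F} (hu : u ∈ V) (hui : u⁻¹ ∈ V)
    (hu0 : u ≠ 0) : V.valuation u = 1 := by
  have h1 : V.valuation u ≤ 1 := (V.valuation_le_one_iff u).2 hu
  have h2 : V.valuation u⁻¹ ≤ 1 := (V.valuation_le_one_iff _).2 hui
  rw [map_inv₀] at h2
  have h0 : V.valuation u ≠ 0 := (map_ne_zero _).2 hu0
  have h3 : 1 ≤ V.valuation u := by
    rwa [inv_le_one₀ (zero_lt_iff.mpr h0)] at h2
  exact le_antisymm h1 h3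

/-- **C7, abstract**: the chain congruence of the `t₉`-chain from the Kronecker congruence of
the `j`-chain. -/
theorem chain_cong_t9_of_kron890 (V : ValuationSubring F) {q : ℕ} (hq : q.Prime)
    (hqV : ((q : ℕ) : F) ∈ V.nonunits) (h3 : (3 : F)⁻¹ ∈ V)
    {Φ Θ : Polynomial (Polynomial ℤ)}
    (hKron : Φ = ((Polynomial.X : Polynomial (Polynomial ℤ)) ^ q
        - Polynomial.C (Polynomial.X : Polynomial ℤ))
      * (Polynomial.X - Polynomial.C ((Polynomial.X : Polynomial ℤ) ^ q))
      + Polynomial.C (Polynomial.C (q : ℤ)) * Θ)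
    (jA jA1 jB jB1 hA hA1 hB hB1 : F)
    (rA : jA * d9 hA = p9 hA ^ 3) (rB : jB * d9 hB = p9 hB ^ 3)
    (rA1 : jA1 * d9 hA1 = p9 hA1 ^ 3) (rB1 : jB1 * d9 hB1 = p9 hB1 ^ 3)
    (hjA : jA ∈ V) (hjA1 : jA1 ∈ V) (hjB1 : jB1 ∈ V)
    (hjB : V.valuation jB = 1) (hjB' : V.valuation (jB - 1728) = 1)
    (hΦa : Φ.eval₂ (Polynomial.eval₂RingHom (Int.castRingHom F) jA1) jA = 0)
    (hΦb : Φ.eval₂ (Polynomial.eval₂RingHom (Int.castRingHom F) jB1) jB = 0)
    (hab : jA - jB ∈ V.nonunits) (hab1 : jA1 - jB1 ∈ V.nonunits)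
    (hunit : jA - jA1 ^ q ∉ V.nonunits)
    (hne : jA1 - jB1 ≠ 0) (hq1 : (q : F) * (jA1 - jB1)⁻¹ ∈ V)
    (hτ : hA - hB ∈ V.nonunits)
    (hFA : hA1 - hA ^ q ∈ V.nonunits) (hFB : hB1 - hB ^ q ∈ V.nonunits) :
    (hA - hB) ^ q * (hA1 - hB1)⁻¹ - 1 ∈ V.nonunits := by
  have hjBV : jB ∈ V := (V.valuation_le_one_iff _).1 hjB.le
  -- the `j`-chain
  have hJ0 := Fermat.Agent.S45.H693.chain_cong_kron693 V hq hKron hjA hjA1 hjBV hjB1 hΦa hΦb
    hab hab1 hunit hq1
  have hJ : (jA - jB) ^ q * (jA1 - jB1)⁻¹ - 1 ∈ V.nonunits := by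
    have e : (jA - jB) ^ q * (jA1 - jB1)⁻¹ - 1
        = ((jA - jB) ^ q - (jA1 - jB1)) * (jA1 - jB1)⁻¹ := by
      field_simp
    rw [e]
    exact hJ0
  -- membership and units of the `t₉`-chain
  have hAV : hA ∈ V := t9_mem_val890 V hjA rA
  have hA1V : hA1 ∈ V := t9_mem_val890 V hjA1 rA1
  have hBV : hB ∈ V := t9_mem_val890 V hjBV rB
  have hB1V : hB1 ∈ V := t9_mem_val890 V hjB1 rB1
  have sB := shape_of_rel9_890 rB
  have hBi : hB⁻¹ ∈ V := Fermat.Agent.S36.H890.inv_mem_of_rel9 V hjBV hBV h3 sB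
  have hQi : (hB ^ 2 + 9 * hB + 27)⁻¹ ∈ V :=
    Fermat.Agent.S36.H890.quad_inv_mem_of_rel9 V hjBV hBV h3 sB
  have hB0 : hB ≠ 0 := by
    intro h0
    have hc := Fermat.Agent.S36.H890.mul_cofactor_of_rel9 sB
    rw [h0, zero_mul] at hc
    exact (Fermat.Agent.S36.H890.h9_three_pow_ne_zero (F := F) 30) hc.symm
  have hQ0 : hB ^ 2 + 9 * hB + 27 ≠ 0 := by
    intro h0
    have hc := Fermat.Agent.S36.H890.quad_mul_cofactor_of_rel9 sB
    rw [h0, zero_mul] at hc
    exact (Fermat.Agent.S36.H890.h9_three_pow_ne_zero (F := F) _) hc.symm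
  have hQV : hB ^ 2 + 9 * hB + 27 ∈ V := by
    have h9 : (9 : F) ∈ V := by exact_mod_cast natCast_mem V 9
    have h27 : (27 : F) ∈ V := by exact_mod_cast natCast_mem V 27
    exact add_mem (add_mem (pow_mem hBV 2) (mul_mem h9 hBV)) h27
  have hhB : V.valuation hB = 1 := valuation_eq_one890 V hBV hBi hB0
  have hhB' : V.valuation (hB ^ 2 + 9 * hB + 27) = 1 := valuation_eq_one890 V hQV hQi hQ0
  -- `hA1 ≠ hB1`
  have hne' : hA1 - hB1 ≠ 0 := by
    intro h0
    have e : hA1 = hB1 := sub_eq_zero.mp h0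
    apply hne
    rw [e] at rA1
    have hd : d9 hB1 ≠ 0 := by
      intro hd0
      -- `d9 hB1 = 0` forces `p9 hB1 = 0`, impossible (`gcd` is a power of `3`)
      have hp : p9 hB1 ^ 3 = 0 := by rw [← rB1, hd0, mul_zero]
      have hp0 : p9 hB1 = 0 := pow_eq_zero_iff (by norm_num) |>.mp hp
      have sB1 := shape_of_rel9_890 rB1
      rw [d9] at hd0
      rcases mul_eq_zero.mp hd0 with h9 | hQ
      · have ht0 : hB1 = 0 := pow_eq_zero_iff (by norm_num) |>.mp h9
        have hc := Fermat.Agent.S36.H890.mul_cofactor_of_rel9 sB1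
        rw [ht0, zero_mul] at hc
        exact (Fermat.Agent.S36.H890.h9_three_pow_ne_zero (F := F) 30) hc.symm
      · have hc := Fermat.Agent.S36.H890.quad_mul_cofactor_of_rel9 sB1
        rw [hQ, zero_mul] at hc
        exact (Fermat.Agent.S36.H890.h9_three_pow_ne_zero (F := F) _) hc.symm
    have : (jA1 - jB1) * d9 hB1 = 0 := by rw [sub_mul, rA1, rB1, sub_self]
    rcases mul_eq_zero.mp this with h | h
    · exact h
    · exact absurd h hd
  exact chain_transfer9 V hq hqV jA jB jA1 jB1 hA hB hA1 hB1 rA rB rA1 rB1 hhB hhB' hjB hjB'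
    hAV hA1V hB1V hτ hFA hFB hne' hJ

/-- `2 ∈ 𝔪_V`, `j` a unit ⟹ `j - 1728` a unit. -/
theorem valuation_sub_1728_two890 (V : ValuationSubring F) (h2 : (2 : F) ∈ V.nonunits) {j : F}
    (hj : V.valuation j = 1) : V.valuation (j - 1728) = 1 := by
  have h1728 : V.valuation (1728 : F) < 1 := by
    have e : (1728 : F) = 2 * 864 := by norm_num
    have h864 : (864 : F) ∈ V := by exact_mod_cast natCast_mem V 864
    have := mul_nonunits890 V h2 h864
    rw [← e] at this
    exact (V.mem_nonunits_iff).1 this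
  rw [Valuation.map_sub_eq_of_lt_left V.valuation (by rw [hj]; exact h1728), hj]

end Abs

section Conc

open ModularCurve HahnSeries Fermat.Agent.Lib.Haupt Fermat.Agent.A2.Mod
open Fermat.Agent.S36.H890 Fermat.Agent.S28

variable (E : IntermediateField ℚ Fermat.Agent.A2.Mod.Qb) (N : ℕ)

/-- **C7, concrete, any level `N`**: elements of `F_{N,E}` given by their expansions
(`dA = q ^ (e - 1)`, `dB = 1` on the diagonal sheet of level `q ^ e`). -/
theorem chain_cong_t9_lev890 {q : ℕ} [NeZero q] (hq : q.Prime)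
    (V : ValuationSubring (FE E N)) (hqV : ((q : ℕ) : FE E N) ∈ V.nonunits)
    (h3 : (3 : FE E N)⁻¹ ∈ V)
    (dA dB : ℕ) [NeZero dA] [NeZero dB] [NeZero (dA * q)] [NeZero (dB * q)]
    (hdA : dA ∣ N) (hdAq : dA * q ∣ N) (hdB : dB ∣ N) (hdBq : dB * q ∣ N)
    (τA τA1 τB τB1 : FE E N)
    (cA : (τA : LaurentSeries E) = qExpand E (dA * q) (t9 E))
    (cA1 : (τA1 : LaurentSeries E) = qExpand E dA (t9 E))
    (cB : (τB : LaurentSeries E) = qExpand E dB (t9 E))
    (cB1 : (τB1 : LaurentSeries E) = qExpand E (dB * q) (t9 E))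
    (hjA : jE E N (dA * q) hdAq ∈ V) (hjA1 : jE E N dA hdA ∈ V)
    (hjB1 : jE E N (dB * q) hdBq ∈ V)
    (hjB : V.valuation (jE E N dB hdB) = 1)
    (hjB' : V.valuation (jE E N dB hdB - 1728) = 1)
    (hab : jE E N (dA * q) hdAq - jE E N dB hdB ∈ V.nonunits)
    (hab1 : jE E N dA hdA - jE E N (dB * q) hdBq ∈ V.nonunits)
    (hunit : jE E N (dA * q) hdAq - jE E N dA hdA ^ q ∉ V.nonunits)
    (hne : jE E N dA hdA - jE E N (dB * q) hdBq ≠ 0)
    (hq1 : ((q : ℕ) : FE E N) * (jE E N dA hdA - jE E N (dB * q) hdBq)⁻¹ ∈ V)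
    (hτ : τA - τB ∈ V.nonunits)
    (hFA : τA1 - τA ^ q ∈ V.nonunits) (hFB : τB1 - τB ^ q ∈ V.nonunits) :
    (τA - τB) ^ q * (τA1 - τB1)⁻¹ - 1 ∈ V.nonunits := by
  haveI : Fact q.Prime := ⟨hq⟩
  obtain ⟨Φ⟩ := Fermat.Agent.S28.H807.nonempty_modPolyData q hq
  obtain ⟨Θ, hΘ⟩ := h88_kronecker_int q Φ
  have hΦa := modPoly_down890 E N q Φ dA hdA hdAq
  have hΦb := modPoly_up890 E N q Φ dB hdB hdBq
  rw [aeval_eq_eval₂RingHom890] at hΦa hΦb
  exact chain_cong_t9_of_kron890 V hq hqV h3 hΘ
    (jE E N (dA * q) hdAq) (jE E N dA hdA) (jE E N dB hdB) (jE E N (dB * q) hdBq)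
    τA τA1 τB τB1
    (rel9_of_coe890 E N τA _ (dA * q) cA (H873.coe_jE E N (dA * q) hdAq))
    (rel9_of_coe890 E N τB _ dB cB (H873.coe_jE E N dB hdB))
    (rel9_of_coe890 E N τA1 _ dA cA1 (H873.coe_jE E N dA hdA))
    (rel9_of_coe890 E N τB1 _ (dB * q) cB1 (H873.coe_jE E N (dB * q) hdBq))
    hjA hjA1 hjB1 hjB hjB' hΦa hΦb hab hab1 hunit hne hq1 hτ hFA hFB

/-- **C7, `q = 2`** (`3` and `j - 1728` are units of `V` for free). -/
theorem chain_cong_t9_two890
    (V : ValuationSubring (FE E N)) (h2V : (2 : FE E N) ∈ V.nonunits)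
    (dA dB : ℕ) [NeZero dA] [NeZero dB] [NeZero (dA * 2)] [NeZero (dB * 2)]
    (hdA : dA ∣ N) (hdAq : dA * 2 ∣ N) (hdB : dB ∣ N) (hdBq : dB * 2 ∣ N)
    (τA τA1 τB τB1 : FE E N)
    (cA : (τA : LaurentSeries E) = qExpand E (dA * 2) (t9 E))
    (cA1 : (τA1 : LaurentSeries E) = qExpand E dA (t9 E))
    (cB : (τB : LaurentSeries E) = qExpand E dB (t9 E))
    (cB1 : (τB1 : LaurentSeries E) = qExpand E (dB * 2) (t9 E))
    (hjA : jE E N (dA * 2) hdAq ∈ V) (hjA1 : jE E N dA hdA ∈ V)
    (hjB1 : jE E N (dB * 2) hdBq ∈ V)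
    (hjB : V.valuation (jE E N dB hdB) = 1)
    (hab : jE E N (dA * 2) hdAq - jE E N dB hdB ∈ V.nonunits)
    (hab1 : jE E N dA hdA - jE E N (dB * 2) hdBq ∈ V.nonunits)
    (hunit : jE E N (dA * 2) hdAq - jE E N dA hdA ^ 2 ∉ V.nonunits)
    (hne : jE E N dA hdA - jE E N (dB * 2) hdBq ≠ 0)
    (hq1 : (2 : FE E N) * (jE E N dA hdA - jE E N (dB * 2) hdBq)⁻¹ ∈ V)
    (hτ : τA - τB ∈ V.nonunits)
    (hFA : τA1 - τA ^ 2 ∈ V.nonunits) (hFB : τB1 - τB ^ 2 ∈ V.nonunits) :
    (τA - τB) ^ 2 * (τA1 - τB1)⁻¹ - 1 ∈ V.nonunits := by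
  have e2 : (((2 : ℕ)) : FE E N) = 2 := by norm_num
  exact chain_cong_t9_lev890 E N Nat.prime_two V (by rw [e2]; exact h2V)
    (three_inv_mem_of_two_mem_nonunits V h2V) dA dB hdA hdAq hdB hdBq τA τA1 τB τB1
    cA cA1 cB cB1 hjA hjA1 hjB1 hjB (valuation_sub_1728_two890 V h2V hjB) hab hab1 hunit hne
    (by rw [e2]; exact hq1) hτ hFA hFB

end Conc

end Fermat.Agent.S45.H890

end

end
-- ===== PACK-END S45/H890/DiagTwo.lean

-- ===== PACK-BEGIN S45/H193/WallFamily.lean
section


/-!
# S45 / CAR3 (helper193): the label wall for an indexed family of components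

Step (d) ("L5") of the norm route at level `q ^ e`, `e ≥ 3`: the special fibre has `e + 1`
components, all of them through every supersingular point, with multiplicities
`φ (q ^ min a b)`.  The wall `S36.H193.exists_pow_eq_of_base_set` (on main) is already stated for
an arbitrary set of valuation rings; this file only repackages it for a family
`V : ι → ValuationSubring F` with colours `κ : ι → ℕ` indexed by the components.

* `FamilyPureValuesAt`           : the purity datum with colour-normalised values, family form;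
* `FamilyPureValuesAt.toBase`    : it is a `BasePureValuesAt` along `Set.range V`;
* `exists_pow_eq_of_family`      : the wall, hypotheses on the base in the `E`-form of the frozen
                                    contexts (`Transcendental E x`, `F` finite over `E(x)`,
                                    `q ∤ m`), one component `V i₀` of multiplicity one;
* `exists_pow_eq_of_family_unr`  : the same with a separate unramified discrete valuation ring
                                    `V₀` (not necessarily a component).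
-/

set_option autoImplicit false
set_option linter.style.haveILetI false
set_option linter.unusedSectionVars false

namespace Fermat.Agent.S45.H193

open Polynomial
open Fermat.Agent.A2.H12 (IsSheet)
open Fermat.Agent.S18.H138
open Fermat.Agent.S36.H193 (BasePureValuesAt Through)

universe u v

section Family

variable {R : Type*} [CommRing R] {F : Type*} [Field F] [Algebra R F]

/-- A **purity datum with colour-normalised values along a family of components**:
`f = (e₁ / e₂) h ^ m` with `e₂ ∉ 𝔫`, and on every component `V i` through `𝔫` the residue of `h`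
is `t / s` with `s ∉ 𝔫` and value `ζ ^ κ i · v` at `𝔫`. -/
def FamilyPureValuesAt {ι : Type*} (V : ι → ValuationSubring F) (B : Subalgebra R F)
    (𝔫 : Ideal B) (m : ℕ) (f : F) (ζ : R) (κ : ι → ℕ) : Prop :=
  ∃ (h : F) (e₁ e₂ v : B), h ≠ 0 ∧ e₂ ∉ 𝔫 ∧ v ∉ 𝔫 ∧ (e₂ : F) * f = e₁ * h ^ m ∧
    ∀ i : ι, Through B 𝔫 (V i) → ∃ s t : B, s ∉ 𝔫 ∧ (s : F) * h - t ∈ (V i).nonunits ∧
      t - algebraMap R B (ζ ^ κ i) * v * s ∈ 𝔫

open Classical in
/-- The colouring of the valuation rings induced by a colouring of the indices (the colour of a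
chosen index; `0` off the family). -/
noncomputable def colourOfFamily {ι : Type*} (V : ι → ValuationSubring F) (κ : ι → ℕ) :
    ValuationSubring F → ℕ :=
  fun W => if h : ∃ i, V i = W then κ h.choose else 0

/-- A family purity datum is a purity datum along the set of the components. -/
theorem FamilyPureValuesAt.toBase {ι : Type*} {V : ι → ValuationSubring F}
    {B : Subalgebra R F} {𝔫 : Ideal B} {m : ℕ} {f : F} {ζ : R} {κ : ι → ℕ}
    (hb : FamilyPureValuesAt V B 𝔫 m f ζ κ) :
    BasePureValuesAt (Set.range V) B 𝔫 m f ζ (colourOfFamily V κ) := by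
  classical
  obtain ⟨h, e₁, e₂, v, hh0, he₂, hv, hf, hval⟩ := hb
  refine ⟨h, e₁, e₂, v, hh0, he₂, hv, hf, ?_⟩
  intro W hW hth
  have hex : ∃ i, V i = W := hW
  have hc : V hex.choose = W := hex.choose_spec
  have hκ : colourOfFamily V κ W = κ hex.choose := by
    unfold colourOfFamily
    rw [dif_pos hex]
  obtain ⟨s, t, hs, hst, ht⟩ := hval hex.choose (by rw [hc]; exact hth)
  refine ⟨s, t, hs, ?_, ?_⟩
  · rw [← hc]
    exact hst
  · rw [hκ]
    exact ht

end Family

section Wall

variable {R : Type u} [CommRing R] [IsDomain R] [IsDiscreteValuationRing R]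
  [HenselianLocalRing R] [IsAlgClosed (IsLocalRing.ResidueField R)] [IsIntegrallyClosed R[X]]
variable (E : Type u) [Field E] [CharZero E] [Algebra R E] [IsFractionRing R E]
variable {F : Type u} [Field F] [Algebra E F] [Algebra R F] [IsScalarTower R E F]

include E in
/-- `m` prime to the residue characteristic is invertible in `R`. -/
theorem exists_natCast_mul_eq_one (q : ℕ) (hq : q.Prime)
    (hqR : (q : R) ∈ IsLocalRing.maximalIdeal R) {m : ℕ} (hqm : ¬ q ∣ m) :
    ∃ mi : R, (m : R) * mi = 1 := by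
  have hu : IsUnit (m : R) := by
    by_contra hnu
    have hmem : (m : R) ∈ IsLocalRing.maximalIdeal R := (IsLocalRing.mem_maximalIdeal _).2 hnu
    have hcop : Nat.Coprime q m := (Nat.Prime.coprime_iff_not_dvd hq).2 hqm
    have h1 : ((Nat.gcd q m : ℕ) : R) ∈ IsLocalRing.maximalIdeal R := by
      have hb : ((Nat.gcd q m : ℕ) : ℤ) = q * Nat.gcdA q m + m * Nat.gcdB q m :=
        Nat.gcd_eq_gcd_ab q m
      have hc : ((Nat.gcd q m : ℕ) : R) = (q : R) * ((Nat.gcdA q m : ℤ) : R) +
          (m : R) * ((Nat.gcdB q m : ℤ) : R) := by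
        have := congrArg (fun z : ℤ => (z : R)) hb
        simpa using this
      rw [hc]
      exact Ideal.add_mem _ (Ideal.mul_mem_right _ _ hqR) (Ideal.mul_mem_right _ _ hmem)
    rw [hcop, Nat.cast_one] at h1
    exact (IsLocalRing.mem_maximalIdeal _).1 h1 isUnit_one
  obtain ⟨v, hv⟩ := hu
  exact ⟨(v⁻¹ : Rˣ), by rw [← hv, Units.mul_inv]⟩

include E in
/-- **The label wall for a family of components, with a separate unramified ring `V₀`.** -/
theorem exists_pow_eq_of_family_unr (w : R) (hw : Irreducible w) (q : ℕ) (hq : q.Prime)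
    (hqR : (q : R) ∈ IsLocalRing.maximalIdeal R)
    {x : F} (hx : Transcendental E x)
    (hfin : FiniteDimensional (IntermediateField.adjoin E ({x} : Set F)) F)
    {m : ℕ} (hm : 0 < m) (hqm : ¬ q ∣ m) {ζ : R} (hζ : IsPrimitiveRoot ζ m)
    {f : F} (hf0 : f ≠ 0)
    {ι : Type v} (V : ι → ValuationSubring F)
    (hsheets : ∀ W, IsSheet w x W → ∃ i, V i = W)
    (hsplit : ∀ i, f - 1 ∈ (V i).nonunits)
    (V₀ : ValuationSubring F) (hRV₀ : ∀ r : R, algebraMap R F r ∈ V₀)
    (hwV₀ : algebraMap R F w ∈ V₀.nonunits) (hsplit₀ : f - 1 ∈ V₀.nonunits)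
    (hunif : ∀ a ∈ V₀.nonunits, a * (algebraMap R F w)⁻¹ ∈ V₀)
    (hdisc : ∀ g : F, ∃ k : ℕ, g * algebraMap R F w ^ k ∈ V₀)
    (κ : ι → ℕ)
    (hpure_fin : ∀ 𝔫 : Ideal (chart R ({x} : Set F)), 𝔫.IsMaximal →
      algebraMap R (chart R ({x} : Set F)) w ∈ 𝔫 →
      FamilyPureValuesAt V (chart R ({x} : Set F)) 𝔫 m f ζ κ)
    (hpure_inf : ∀ 𝔫 : Ideal (chart R ({x⁻¹} : Set F)), 𝔫.IsMaximal →
      algebraMap R (chart R ({x⁻¹} : Set F)) w ∈ 𝔫 →
      FamilyPureValuesAt V (chart R ({x⁻¹} : Set F)) 𝔫 m f ζ κ) :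
    ∃ g : F, g ^ m = f := by
  have hinjRE : Function.Injective (algebraMap R E) := IsFractionRing.injective R E
  have hinjRF : Function.Injective (algebraMap R F) := by
    rw [IsScalarTower.algebraMap_eq R E F]
    exact (algebraMap E F).injective.comp hinjRE
  have hwF0 : algebraMap R F w ≠ 0 := fun h => hw.ne_zero (hinjRF (by rw [h, map_zero]))
  have hxR : Transcendental R x := hx.restrictScalars hinjRE
  haveI := hfin
  haveI : FiniteDimensional (baseField R x) F :=
    Fermat.Agent.A2.H313.finiteDimensional_baseField_of_adjoin E x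
  obtain ⟨mi, hmi⟩ := exists_natCast_mul_eq_one (R := R) E q hq hqR hqm
  refine Fermat.Agent.S36.H193.exists_pow_eq_of_base_set E w hw hxR hm hmi hζ hf0
    (Set.range V) hsheets ?_ V₀ hRV₀ hwV₀ hsplit₀ ?_ hdisc (colourOfFamily V κ)
    (fun 𝔫 h𝔫 hw𝔫 => (hpure_fin 𝔫 h𝔫 hw𝔫).toBase)
    (fun 𝔫 h𝔫 hw𝔫 => (hpure_inf 𝔫 h𝔫 hw𝔫).toBase)
  · rintro W ⟨i, rfl⟩
    exact hsplit i
  · intro a ha
    refine ⟨a * (algebraMap R F w)⁻¹, hunif a ha, ?_⟩
    rw [mul_comm a, ← mul_assoc, mul_inv_cancel₀ hwF0, one_mul]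

include E in
/-- **The label wall for a family of components** (norm route at level `q ^ e`, step (d)).
`V i₀` is a component of multiplicity one (`w` is a uniformiser of `V i₀`). -/
theorem exists_pow_eq_of_family (w : R) (hw : Irreducible w) (q : ℕ) (hq : q.Prime)
    (hqR : (q : R) ∈ IsLocalRing.maximalIdeal R)
    {x : F} (hx : Transcendental E x)
    (hfin : FiniteDimensional (IntermediateField.adjoin E ({x} : Set F)) F)
    {m : ℕ} (hm : 0 < m) (hqm : ¬ q ∣ m) {ζ : R} (hζ : IsPrimitiveRoot ζ m)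
    {f : F} (hf0 : f ≠ 0)
    {ι : Type v} (V : ι → ValuationSubring F)
    (hsheets : ∀ W, IsSheet w x W → ∃ i, V i = W)
    (hsplit : ∀ i, f - 1 ∈ (V i).nonunits)
    (i₀ : ι) (hRV : ∀ r : R, algebraMap R F r ∈ V i₀)
    (hwV : algebraMap R F w ∈ (V i₀).nonunits)
    (hunif : ∀ a ∈ (V i₀).nonunits, a * (algebraMap R F w)⁻¹ ∈ V i₀)
    (hdisc : ∀ g : F, ∃ k : ℕ, g * algebraMap R F w ^ k ∈ V i₀)
    (κ : ι → ℕ)
    (hpure_fin : ∀ 𝔫 : Ideal (chart R ({x} : Set F)), 𝔫.IsMaximal →
      algebraMap R (chart R ({x} : Set F)) w ∈ 𝔫 →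
      FamilyPureValuesAt V (chart R ({x} : Set F)) 𝔫 m f ζ κ)
    (hpure_inf : ∀ 𝔫 : Ideal (chart R ({x⁻¹} : Set F)), 𝔫.IsMaximal →
      algebraMap R (chart R ({x⁻¹} : Set F)) w ∈ 𝔫 →
      FamilyPureValuesAt V (chart R ({x⁻¹} : Set F)) 𝔫 m f ζ κ) :
    ∃ g : F, g ^ m = f :=
  exists_pow_eq_of_family_unr E w hw q hq hqR hx hfin hm hqm hζ hf0 V hsheets hsplit
    (V i₀) hRV hwV (hsplit i₀) hunif hdisc κ hpure_fin hpure_inf

end Wall

end Fermat.Agent.S45.H193

end
-- ===== PACK-END S45/H193/WallFamily.lean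

-- ===== PACK-BEGIN S45/H193/SheetsFamily.lean
section


/-!
# S45 / CAR3 (helper193): SHEETS for an indexed family of components

Family form of `S36.H919.h919_sheet_cases` (three rings): if `V : ι → ValuationSubring F`
(`ι` finite) are discrete valuation subrings containing the chart `B = chart R {x}`, with
`w ∈ 𝔪_{V i}`, satisfying the `q`-expansion principle with multiplicities

    b ∈ B,  b / w ∈ V i for all i   ⟹   b ∈ w B,

then every sheet of `x` is one of the `V i`.

* `qepFamily`                 : the `q`-expansion principle for a family (`Eng.Qep3` for a family);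
* `sheet_eq_of_qepFamily`     : every sheet is some `V i`.

Mathlib + `S36.H919` / `S36.H193` (on main) only; no context structure.
-/

set_option autoImplicit false
set_option linter.style.haveILetI false
set_option linter.unusedSectionVars false

namespace Fermat.Agent.S45.H193

open Polynomial
open Fermat.Agent.A2.H12 (IsSheet)
open Fermat.Agent.S18.H138
open Fermat.Agent.S36.H193
open Fermat.Agent.S36.H919

universe u v

section Def

variable {R : Type*} [CommRing R] {F : Type*} [Field F] [Algebra R F]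

/-- `B ∩ w (⋂ i, V i) = w B`: the valuation rings `V i` are ALL the components of the special
fibre of the chart `B`, with their multiplicities. -/
def qepFamily {ι : Type*} (w : R) (B : Subalgebra R F) (V : ι → ValuationSubring F) : Prop :=
  ∀ b : B, (∀ i, (b : F) * (algebraMap R F w)⁻¹ ∈ V i) → ∃ c : B, b = algebraMap R B w * c

end Def

section Cases

variable {R : Type u} [CommRing R] [IsDomain R] {F : Type u} [Field F] [Algebra R F]
variable [IsNoetherianRing R] [IsIntegrallyClosed R[X]] [CharZero F]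

/-- **Every sheet is one of the `V i`** (from the `q`-expansion principle for the family). -/
theorem sheet_eq_of_qepFamily (hinjR : Function.Injective (algebraMap R F)) {w : R}
    (hw : Prime w) {x : F} (hx : Transcendental R x) [FiniteDimensional (baseField R x) F]
    {ι : Type v} [Finite ι] (V : ι → ValuationSubring F)
    (hdvr : ∀ i, IsDiscreteValuationRing (V i))
    (hV : ∀ i, ∀ c ∈ chart R ({x} : Set F), c ∈ V i)
    (hwV : ∀ i, algebraMap R F w ∈ (V i).nonunits)
    (hqep : qepFamily w (chart R ({x} : Set F)) V)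
    {W : ValuationSubring F} (hW : IsSheet w x W) : ∃ i, V i = W := by
  classical
  haveI : Fintype ι := Fintype.ofFinite ι
  set B := chart R ({x} : Set F) with hB
  have hWB : ∀ c ∈ B, c ∈ W := sheet_chart_le hW
  by_contra hcon
  rw [not_exists] at hcon
  have hw0 : algebraMap R F w ≠ 0 := by
    intro h0
    exact hw.ne_zero (hinjR (h0.trans (map_zero _).symm))
  -- separating elements
  have hsep : ∀ i, ∃ b : B, (b : F) ∈ (V i).nonunits ∧ (b : F) ∉ W.nonunits := by
    intro i
    by_contra hno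
    apply hcon i
    refine h919_eq_sheet_of_centre_le hinjR hw hx hW (V i) (hV i) (hwV i) (fun b hb => ?_)
    by_contra hbW
    exact hno ⟨b, hb, hbW⟩
  choose b hbV hbW using hsep
  have hexp : ∀ i, ∃ e : ℕ, ∀ f ∈ (V i).nonunits, f ^ e * (algebraMap R F w)⁻¹ ∈ V i := by
    intro i
    haveI := hdvr i
    exact h919_exists_pow_mul_inv_mem (V i) hw0
  choose e he using hexp
  set P : B := ∏ i, b i ^ e i with hP
  have hPF : (P : F) = ∏ i, (b i : F) ^ e i := by
    rw [hP]
    simp
  have hq : ∀ i, (P : F) * (algebraMap R F w)⁻¹ ∈ V i := by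
    intro i
    have h1 : (P : F) = (b i : F) ^ e i * ∏ j ∈ Finset.univ.erase i, (b j : F) ^ e j := by
      rw [hPF, Finset.mul_prod_erase Finset.univ (fun j => (b j : F) ^ e j) (Finset.mem_univ i)]
    have h2 : (P : F) * (algebraMap R F w)⁻¹ =
        ((b i : F) ^ e i * (algebraMap R F w)⁻¹) *
          ∏ j ∈ Finset.univ.erase i, (b j : F) ^ e j := by
      rw [h1]; ring
    rw [h2]
    refine (V i).mul_mem _ _ (he i _ (hbV i)) ?_
    refine Subring.prod_mem (V i).toSubring (fun j _ => ?_)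
    exact (V i).pow_mem (hV i (b j) (b j).2) _
  obtain ⟨c, hc⟩ := hqep P hq
  -- `P` is a non-unit of `W`
  have hPW : (P : F) ∈ W.nonunits := by
    have : (P : F) = algebraMap R F w * (c : F) := by
      have := congrArg (fun z : B => (z : F)) hc
      simpa using this
    rw [this]
    exact h919_mem_nonunits_mul W hW.2.2.1 (hWB c c.2)
  -- but it is a unit
  have hunit : ∀ b' : B, (b' : F) ∉ W.nonunits → W.valuation (b' : F) = 1 := by
    intro b' hb'
    rw [ValuationSubring.mem_nonunits_iff, not_lt] at hb'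
    exact le_antisymm ((ValuationSubring.valuation_le_one_iff W _).2 (hWB b' b'.2)) hb'
  have hval : W.valuation (P : F) = 1 := by
    rw [hPF, map_prod]
    refine Finset.prod_eq_one (fun i _ => ?_)
    rw [map_pow, hunit (b i) (hbW i), one_pow]
  rw [ValuationSubring.mem_nonunits_iff, hval] at hPW
  exact lt_irrefl _ hPW

end Cases

end Fermat.Agent.S45.H193

end
-- ===== PACK-END S45/H193/SheetsFamily.lean

-- ===== PACK-BEGIN S45/H193/AlgCore.lean
section




/-!
# S45 / CAR3 (helper193): ALG-E from its leaves, context-free core (block ALG-E/Wall)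

The assembly of the norm route at level `q ^ e` from the outputs of its leaves, WITHOUT any
context structure (so that it can be wired to whatever `CtxE` is frozen by a thin wrapper):

* STEP-A output : `f ^ C₁ = w ^ s * G ^ m * u`, `u ≡ 1` on every component `V i`, and `P u`
                  (`P` = whatever PURE consumes: `m ∣ div u`, the norms of `u` are `m`-th powers);
* SHEETS        : every sheet of `x` is some `V i` (e.g. `sheet_eq_of_qepFamily`);
* PURE          : for every `u` with `P u`, `u ≡ 1` on all `V i`, and every primitive `m`-th root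
                  of unity `ζ ∈ R` there is a colouring `κ : ι → ℕ` with family purity data
                  (`FamilyPureValuesAt`) for `u ^ C₂` at every closed point of the special fibre
                  of the two charts;
* one component `V i₀` of multiplicity one (`w` a uniformiser, `w`-adically discrete).

Conclusion: `f ^ (C₁ * C₂) = c * h ^ m` with `c ∈ E`, `h ≠ 0`.  The wall is
`S36.H193.exists_pow_eq_of_base_set` (on main) through `exists_pow_eq_of_family`.
-/

set_option autoImplicit false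
set_option linter.style.haveILetI false
set_option linter.unusedSectionVars false

namespace Fermat.Agent.S45.H193

open Polynomial
open Fermat.Agent.A2.H12 (IsSheet)
open Fermat.Agent.S18.H138

universe u v

section Aux

variable {F : Type*} [Field F]

/-- `u ≡ 1` along `V` ⟹ `u ^ n ≡ 1` along `V`. -/
theorem sub_one_pow_mem_nonunits {V : ValuationSubring F} {u : F} (hu : u - 1 ∈ V.nonunits)
    (n : ℕ) : u ^ n - 1 ∈ V.nonunits := by
  induction n with
  | zero =>
    rw [pow_zero, sub_self, ValuationSubring.mem_nonunits_iff, map_zero]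
    exact zero_lt_one
  | succ n ih =>
    have huV : u ∈ V := by
      have h1 : u = (u - 1) + 1 := by ring
      rw [h1]
      exact V.add_mem _ _ (V.nonunits_subset hu) V.one_mem
    have h2 : u ^ (n + 1) - 1 = (u ^ n - 1) * u + (u - 1) := by ring
    rw [h2, ValuationSubring.mem_nonunits_iff]
    rw [ValuationSubring.mem_nonunits_iff] at ih hu
    refine lt_of_le_of_lt (V.valuation.map_add _ _) (max_lt ?_ hu)
    rw [map_mul]
    have h3 : V.valuation u ≤ 1 := (ValuationSubring.valuation_le_one_iff V u).2 huV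
    calc V.valuation (u ^ n - 1) * V.valuation u ≤ V.valuation (u ^ n - 1) * 1 := by gcongr
      _ < 1 := by rwa [mul_one]

/-- `u ≡ 1` along `V` ⟹ `u ≠ 0`. -/
theorem ne_zero_of_sub_one_mem {V : ValuationSubring F} {u : F} (hu : u - 1 ∈ V.nonunits) :
    u ≠ 0 := by
  rintro rfl
  rw [zero_sub, ValuationSubring.mem_nonunits_iff, Valuation.map_neg, map_one] at hu
  exact lt_irrefl _ hu

end Aux

section Core

variable {R : Type u} [CommRing R] [IsDomain R] [IsDiscreteValuationRing R]
  [HenselianLocalRing R] [IsAlgClosed (IsLocalRing.ResidueField R)] [IsIntegrallyClosed R[X]]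
variable (E : Type u) [Field E] [CharZero E] [Algebra R E] [IsFractionRing R E]
variable {F : Type u} [Field F] [Algebra E F] [Algebra R F] [IsScalarTower R E F]

include E in
/-- **ALG-E from the outputs of its leaves** (context-free core), STEP-A output with an arbitrary
constant `c₀ ∈ E`:  `f ^ C₁ = c₀ * G ^ m * u`. -/
theorem algE_core_const (w : R) (hw : Irreducible w) (q : ℕ) (hq : q.Prime)
    (hqR : (q : R) ∈ IsLocalRing.maximalIdeal R)
    {x : F} (hx : Transcendental E x)
    (hfin : FiniteDimensional (IntermediateField.adjoin E ({x} : Set F)) F)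
    {ι : Type v} (V : ι → ValuationSubring F)
    (hsheets : ∀ W, IsSheet w x W → ∃ i, V i = W)
    (i₀ : ι) (hRV : ∀ r : R, algebraMap R F r ∈ V i₀)
    (hwV : algebraMap R F w ∈ (V i₀).nonunits)
    (hunif : ∀ a ∈ (V i₀).nonunits, a * (algebraMap R F w)⁻¹ ∈ V i₀)
    (hdisc : ∀ g : F, ∃ k : ℕ, g * algebraMap R F w ^ k ∈ V i₀)
    {m : ℕ} (hm : 0 < m) (hqm : ¬ q ∣ m) (P : F → Prop) (C₁ C₂ : ℕ) {f : F}
    (hA : ∃ (c₀ : E) (G u : F), G ≠ 0 ∧ f ^ C₁ = algebraMap E F c₀ * G ^ m * u ∧
      (∀ i, u - 1 ∈ (V i).nonunits) ∧ P u)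
    (hP : ∀ u : F, P u → (∀ i, u - 1 ∈ (V i).nonunits) →
      ∀ ζ : R, IsPrimitiveRoot ζ m → ∃ κ : ι → ℕ,
        (∀ 𝔫 : Ideal (chart R ({x} : Set F)), 𝔫.IsMaximal →
          algebraMap R (chart R ({x} : Set F)) w ∈ 𝔫 →
          FamilyPureValuesAt V (chart R ({x} : Set F)) 𝔫 m (u ^ C₂) ζ κ) ∧
        (∀ 𝔫 : Ideal (chart R ({x⁻¹} : Set F)), 𝔫.IsMaximal →
          algebraMap R (chart R ({x⁻¹} : Set F)) w ∈ 𝔫 →
          FamilyPureValuesAt V (chart R ({x⁻¹} : Set F)) 𝔫 m (u ^ C₂) ζ κ)) :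
    ∃ (c : E) (h : F), h ≠ 0 ∧ f ^ (C₁ * C₂) = algebraMap E F c * h ^ m := by
  obtain ⟨c₀, G, u, hG, hfu, hu, hPu⟩ := hA
  have hu0 : u ≠ 0 := ne_zero_of_sub_one_mem (hu i₀)
  obtain ⟨ζ, hζ⟩ := Fermat.Agent.A2.Alg.H348.exists_primitiveRoot (R := R) q m hq hqR hm hqm
  obtain ⟨κ, hfinP, hinfP⟩ := hP u hPu hu ζ hζ
  obtain ⟨g, hg⟩ := exists_pow_eq_of_family E w hw q hq hqR hx hfin hm hqm hζ
    (f := u ^ C₂) (pow_ne_zero _ hu0) V hsheets (fun i => sub_one_pow_mem_nonunits (hu i) _)
    i₀ hRV hwV hunif hdisc κ hfinP hinfP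
  have hg0 : g ≠ 0 := by
    rintro rfl
    rw [zero_pow hm.ne'] at hg
    exact pow_ne_zero _ hu0 hg.symm
  refine ⟨c₀ ^ C₂, G ^ C₂ * g, mul_ne_zero (pow_ne_zero _ hG) hg0, ?_⟩
  rw [pow_mul, hfu, mul_pow, mul_pow, ← hg, map_pow, mul_pow, ← pow_mul, ← pow_mul,
    mul_comm m C₂, mul_assoc]

include E in
/-- **ALG-E from the outputs of its leaves** (context-free core), STEP-A output in the shape
`f ^ C₁ = w ^ s * G ^ m * u` (`S36.Alg3.LeafStepA`, `S45.H403.stepA_light403`). -/
theorem algE_core (w : R) (hw : Irreducible w) (q : ℕ) (hq : q.Prime)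
    (hqR : (q : R) ∈ IsLocalRing.maximalIdeal R)
    {x : F} (hx : Transcendental E x)
    (hfin : FiniteDimensional (IntermediateField.adjoin E ({x} : Set F)) F)
    {ι : Type v} (V : ι → ValuationSubring F)
    (hsheets : ∀ W, IsSheet w x W → ∃ i, V i = W)
    (i₀ : ι) (hRV : ∀ r : R, algebraMap R F r ∈ V i₀)
    (hwV : algebraMap R F w ∈ (V i₀).nonunits)
    (hunif : ∀ a ∈ (V i₀).nonunits, a * (algebraMap R F w)⁻¹ ∈ V i₀)
    (hdisc : ∀ g : F, ∃ k : ℕ, g * algebraMap R F w ^ k ∈ V i₀)
    {m : ℕ} (hm : 0 < m) (hqm : ¬ q ∣ m) (P : F → Prop) (C₁ C₂ : ℕ) {f : F}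
    (hA : ∃ (s : ℤ) (G u : F), G ≠ 0 ∧ f ^ C₁ = algebraMap R F w ^ s * G ^ m * u ∧
      (∀ i, u - 1 ∈ (V i).nonunits) ∧ P u)
    (hP : ∀ u : F, P u → (∀ i, u - 1 ∈ (V i).nonunits) →
      ∀ ζ : R, IsPrimitiveRoot ζ m → ∃ κ : ι → ℕ,
        (∀ 𝔫 : Ideal (chart R ({x} : Set F)), 𝔫.IsMaximal →
          algebraMap R (chart R ({x} : Set F)) w ∈ 𝔫 →
          FamilyPureValuesAt V (chart R ({x} : Set F)) 𝔫 m (u ^ C₂) ζ κ) ∧
        (∀ 𝔫 : Ideal (chart R ({x⁻¹} : Set F)), 𝔫.IsMaximal →
          algebraMap R (chart R ({x⁻¹} : Set F)) w ∈ 𝔫 →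
          FamilyPureValuesAt V (chart R ({x⁻¹} : Set F)) 𝔫 m (u ^ C₂) ζ κ)) :
    ∃ (c : E) (h : F), h ≠ 0 ∧ f ^ (C₁ * C₂) = algebraMap E F c * h ^ m := by
  obtain ⟨s, G, u, hG, hfu, hu, hPu⟩ := hA
  have hwF : algebraMap R F w = algebraMap E F (algebraMap R E w) :=
    IsScalarTower.algebraMap_apply R E F w
  refine algE_core_const E w hw q hq hqR hx hfin V hsheets i₀ hRV hwV hunif hdisc hm hqm P
    C₁ C₂ ⟨algebraMap R E w ^ s, G, u, hG, ?_, hu, hPu⟩ hP
  rw [hfu, hwF, map_zpow₀]

end Core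

end Fermat.Agent.S45.H193

end
-- ===== PACK-END S45/H193/AlgCore.lean

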