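import Fermat.Agent.Pack.S45.E0L2

set_option linter.all false

-- ===== PACK-BEGIN S36/Mod3/H323/IncAbs.lean
section


/-!
# S36 / MOD3, leaf INC — the field `incidence` of `Eng.TripleCtx` from other fields (helper323)

Generic setting of `Eng.TripleCtx`.  A closed point of the finite chart lying on two of the three
components lies on all three.  Route: going-up for the integral extension `γ (B') ⊆ B` produces a
closed point on the missing component over the same point of level `q M'`; the uniqueness over a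
radicial component (`unique_of_radicial_h323`) identifies it with the given point.
-/

set_option autoImplicit false
set_option linter.style.haveILetI false
set_option linter.unusedSectionVars false

noncomputable section

namespace Fermat.Agent.S36.Mod3.H323

open Polynomial
open Fermat.Agent.S18.H138 (chart)
open Fermat.Agent.S36.Eng

section VPrime

variable {R F : Type*} [CommRing R] [Field F] [Algebra R F]

/-- The vertical prime `B ∩ 𝔪_V` of a subalgebra `B ⊆ V`. -/
def vprime_h323 (B : Subalgebra R F) (V : ValuationSubring F) (hBV : ∀ b ∈ B, b ∈ V) :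
    Ideal B :=
  Ideal.comap ((B.subtype : B →+* F).codRestrict V.toSubring (fun b => hBV b b.2))
    (IsLocalRing.maximalIdeal V)

theorem mem_vprime_h323 (B : Subalgebra R F) (V : ValuationSubring F)
    (hBV : ∀ b ∈ B, b ∈ V) (b : B) :
    b ∈ vprime_h323 B V hBV ↔ (b : F) ∈ V.nonunits := by
  rw [ValuationSubring.mem_nonunits_iff_exists_mem_maximalIdeal]
  constructor
  · intro h
    exact ⟨hBV b b.2, h⟩
  · rintro ⟨_, h⟩
    exact h

end VPrime

section Through

variable {R E F F' : Type*} [CommRing R] [Field E] [Algebra R E]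
  [Field F] [Algebra E F] [Algebra R F] [Field F'] [Algebra E F'] [Algebra R F']

/-- **Incidence over a radicial component (abstract).**  In the setting of
`unique_of_radicial_h323`: if the closed point `𝔪` lies on the radicial component `Vr` and on a
component `Vy`, and `Vx` lies over the same component of level `q M'` as `Vy`, then `𝔪` lies on
`Vx`. -/
theorem through_of_radicial_h323 (w : R) (q : ℕ) (hq : 0 < q) (γ : F' →ₐ[E] F) (x : F) (x' : F')
    (Va Vb Vr : ValuationSubring F) (Vr' Vo' : ValuationSubring F')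
    (hγ : ∀ b ∈ chart R ({x'} : Set F'), γ b ∈ chart R ({x} : Set F))
    (hint : ∀ b ∈ chart R ({x} : Set F), ∃ p : Polynomial F', p.Monic ∧
      (∀ i, p.coeff i ∈ chart R ({x'} : Set F')) ∧ (p.map (γ : F' →+* F)).eval b = 0)
    (hBr : ∀ b ∈ chart R ({x} : Set F), b ∈ Vr)
    (comap_r : Vr.comap (γ : F' →+* F) = Vr')
    (comap_a : Va.comap (γ : F' →+* F) = Vo')
    (comap_b : Vb.comap (γ : F' →+* F) = Vo')
    (hne : ∃ b' ∈ chart R ({x'} : Set F'), b' ∈ Vo'.nonunits ∧ b' ∉ Vr'.nonunits)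
    (hwr : algebraMap R F w ∈ Vr.nonunits)
    (hγw : γ (algebraMap R F' w) = algebraMap R F w)
    (cover : ∀ Q : Ideal (chart R ({x} : Set F)), Q.IsPrime →
      algebraMap R (chart R ({x} : Set F)) w ∈ Q →
      Through _ Q Va ∨ Through _ Q Vb ∨ Through _ Q Vr)
    (rad : ∀ b ∈ chart R ({x} : Set F), ∃ b' ∈ chart R ({x'} : Set F'),
      b ^ q - γ b' ∈ Vr.nonunits)
    (Vx Vy : ValuationSubring F) (hBx : ∀ b ∈ chart R ({x} : Set F), b ∈ Vx)
    (hxy : Vx.comap (γ : F' →+* F) = Vy.comap (γ : F' →+* F))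
    (𝔪 : Ideal (chart R ({x} : Set F))) (h𝔪 : 𝔪.IsMaximal)
    (hthr : Through _ 𝔪 Vr) (hthy : Through _ 𝔪 Vy) :
    Through _ 𝔪 Vx := by
  classical
  let a : chart R ({x'} : Set F') →+* chart R ({x} : Set F) := chartHom_h323 γ x x' hγ
  have haint : a.IsIntegral := chartHom_h323_isIntegral γ x x' hγ hint
  letI : Algebra (chart R ({x'} : Set F')) (chart R ({x} : Set F)) := a.toAlgebra
  haveI : Algebra.IsIntegral (chart R ({x'} : Set F')) (chart R ({x} : Set F)) := ⟨haint⟩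
  haveI : 𝔪.IsPrime := h𝔪.isPrime
  haveI : (𝔪.comap a).IsPrime := Ideal.comap_isPrime a 𝔪
  -- the vertical prime of `Vx` contracts into the contraction of `𝔪`
  have hle : (vprime_h323 (chart R ({x} : Set F)) Vx hBx).comap
      (algebraMap (chart R ({x'} : Set F')) (chart R ({x} : Set F))) ≤ 𝔪.comap a := by
    intro b' hb'
    rw [Ideal.mem_comap] at hb' ⊢
    have h1 : γ (b' : F') ∈ Vx.nonunits := (mem_vprime_h323 _ Vx hBx _).1 hb'
    have h2 : (b' : F') ∈ (Vx.comap (γ : F' →+* F)).nonunits :=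
      (mem_nonunits_comap_h323 _ _).2 h1
    rw [hxy] at h2
    exact hthy _ ((mem_nonunits_comap_h323 _ _).1 h2)
  obtain ⟨Q, hQge, hQprime, hQcomap⟩ :=
    Ideal.exists_ideal_over_prime_of_isIntegral (𝔪.comap a)
      (vprime_h323 (chart R ({x} : Set F)) Vx hBx) hle
  have hmaxc : (𝔪.comap a).IsMaximal :=
    Ideal.isMaximal_comap_of_isIntegral_of_isMaximal' a haint 𝔪
  have hQmax : Q.IsMaximal := by
    haveI := hQprime
    apply Ideal.isMaximal_of_isIntegral_of_isMaximal_comap' a haint Q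
    have : Q.comap a = 𝔪.comap a := hQcomap
    rw [this]
    exact hmaxc
  have hQ𝔪 : Q = 𝔪 := by
    refine unique_of_radicial_h323 w q hq γ x x' Va Vb Vr Vr' Vo' hγ hint hBr comap_r comap_a
      comap_b hne hwr hγw cover rad 𝔪 Q h𝔪 hQmax hthr ?_
    intro b' hb' hmem
    have h1 : (⟨b', hb'⟩ : chart R ({x'} : Set F')) ∈ 𝔪.comap a := hmem
    have h2 : (⟨b', hb'⟩ : chart R ({x'} : Set F')) ∈ Q.comap a := by
      have : Q.comap a = 𝔪.comap a := hQcomap
      rw [this]
      exact h1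
    exact h2
  intro b hb
  rw [← hQ𝔪]
  exact hQge ((mem_vprime_h323 _ Vx hBx b).2 hb)

end Through

section Fields

variable {R E F F' : Type*} [CommRing R] [Field E] [Algebra R E]
  [Field F] [Algebra E F] [Algebra R F] [IsScalarTower R E F]
  [Field F'] [Algebra E F'] [Algebra R F'] [IsScalarTower R E F']

/-- **`incidence`** (field of `Eng.TripleCtx`). -/
theorem incidence_h323 (w : R) (q : ℕ) (hq : 0 < q) (α β : F' →ₐ[E] F) (x : F) (x' : F')
    (V₁ V₂ V₃ : ValuationSubring F) (V₁' V₂' : ValuationSubring F')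
    (base₁ : ∀ r : R, algebraMap R F r ∈ V₁)
    (base₂ : ∀ r : R, algebraMap R F r ∈ V₂)
    (base₃ : ∀ r : R, algebraMap R F r ∈ V₃)
    (x_unit₁ : UnitAt V₁ x) (x_unit₂ : UnitAt V₂ x) (x_unit₃ : UnitAt V₃ x)
    (unif₁ : UnifAt V₁ (algebraMap R F w)) (unif₃ : UnifAt V₃ (algebraMap R F w))
    (ram₂ : ∃ t : F, UnifAt V₂ t ∧ UnitAt V₂ (algebraMap R F w * (t ^ (q - 1))⁻¹))
    (qep_f : Qep3 w (chart R ({x} : Set F)) V₁ V₂ V₃)
    (comap_α₁ : V₁.comap (α : F' →+* F) = V₁')
    (comap_α₂ : V₂.comap (α : F' →+* F) = V₁')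
    (comap_α₃ : V₃.comap (α : F' →+* F) = V₂')
    (comap_β₁ : V₁.comap (β : F' →+* F) = V₁')
    (comap_β₂ : V₂.comap (β : F' →+* F) = V₂')
    (comap_β₃ : V₃.comap (β : F' →+* F) = V₂')
    (chart_α : ∀ b ∈ chart R ({x'} : Set F'), α b ∈ chart R ({x} : Set F))
    (chart_β : ∀ b ∈ chart R ({x'} : Set F'), β b ∈ chart R ({x} : Set F))
    (int_α : ∀ b ∈ chart R ({x} : Set F), ∃ p : Polynomial F', p.Monic ∧
      (∀ i, p.coeff i ∈ chart R ({x'} : Set F')) ∧ (p.map (α : F' →+* F)).eval b = 0)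
    (int_β : ∀ b ∈ chart R ({x} : Set F), ∃ p : Polynomial F', p.Monic ∧
      (∀ i, p.coeff i ∈ chart R ({x'} : Set F')) ∧ (p.map (β : F' →+* F)).eval b = 0)
    (nr_α₂ : ∀ y : F, UnitAt V₃ y → α (S29.H395.normAlong α y) - y ^ q ∈ V₃.nonunits)
    (nr_β₂ : ∀ y : F, UnitAt V₁ y → β (S29.H395.normAlong β y) - y ^ q ∈ V₁.nonunits)
    (hne₁ : ∃ b' ∈ chart R ({x'} : Set F'), b' ∈ V₁'.nonunits ∧ b' ∉ V₂'.nonunits)
    (hne₂ : ∃ b' ∈ chart R ({x'} : Set F'), b' ∈ V₂'.nonunits ∧ b' ∉ V₁'.nonunits) :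
    ∀ 𝔪 : Ideal (chart R ({x} : Set F)), 𝔪.IsMaximal →
      (Through _ 𝔪 V₁ ∧ Through _ 𝔪 V₂) ∨ (Through _ 𝔪 V₁ ∧ Through _ 𝔪 V₃) ∨
        (Through _ 𝔪 V₂ ∧ Through _ 𝔪 V₃) → IsTriple _ 𝔪 V₁ V₂ V₃ := by
  intro 𝔪 h𝔪 h
  have hB₁ : ∀ b ∈ chart R ({x} : Set F), b ∈ V₁ := fun b hb =>
    chart_le_h323 V₁ base₁ x_unit₁.2.1 hb
  have hB₂ : ∀ b ∈ chart R ({x} : Set F), b ∈ V₂ := fun b hb =>
    chart_le_h323 V₂ base₂ x_unit₂.2.1 hb
  have hB₃ : ∀ b ∈ chart R ({x} : Set F), b ∈ V₃ := fun b hb =>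
    chart_le_h323 V₃ base₃ x_unit₃.2.1 hb
  have cov := fun (Q : Ideal (chart R ({x} : Set F))) (hQ : Q.IsPrime)
      (hw : algebraMap R (chart R ({x} : Set F)) w ∈ Q) =>
    cover_h323 w q x V₁ V₂ V₃ hB₁ hB₂ hB₃ unif₁ unif₃ ram₂ qep_f Q hQ hw
  -- via `α`, radicial component `V₃`
  have viaα : ∀ Vx Vy : ValuationSubring F, (∀ b ∈ chart R ({x} : Set F), b ∈ Vx) →
      Vx.comap (α : F' →+* F) = Vy.comap (α : F' →+* F) →
      Through _ 𝔪 V₃ → Through _ 𝔪 Vy → Through _ 𝔪 Vx := fun Vx Vy hBx hxy h3 hy =>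
    through_of_radicial_h323 w q hq α x x' V₁ V₂ V₃ V₂' V₁' chart_α int_α hB₃ comap_α₃ comap_α₁
      comap_α₂ hne₁ unif₃.2.1 (algHom_algebraMap_h323 α w) cov
      (rad_of_nr_h323 q hq α x x' V₃ int_α hB₃ nr_α₂) Vx Vy hBx hxy 𝔪 h𝔪 h3 hy
  -- via `β`, radicial component `V₁`
  have viaβ : ∀ Vx Vy : ValuationSubring F, (∀ b ∈ chart R ({x} : Set F), b ∈ Vx) →
      Vx.comap (β : F' →+* F) = Vy.comap (β : F' →+* F) →
      Through _ 𝔪 V₁ → Through _ 𝔪 Vy → Through _ 𝔪 Vx := fun Vx Vy hBx hxy h1 hy =>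
    through_of_radicial_h323 w q hq β x x' V₂ V₃ V₁ V₁' V₂' chart_β int_β hB₁ comap_β₁ comap_β₂
      comap_β₃ hne₂ unif₁.2.1 (algHom_algebraMap_h323 β w)
      (fun Q hQ hw => by
        rcases cov Q hQ hw with h | h | h
        · exact Or.inr (Or.inr h)
        · exact Or.inl h
        · exact Or.inr (Or.inl h))
      (rad_of_nr_h323 q hq β x x' V₁ int_β hB₁ nr_β₂) Vx Vy hBx hxy 𝔪 h𝔪 h1 hy
  rcases h with ⟨h1, h2⟩ | ⟨h1, h3⟩ | ⟨h2, h3⟩
  · exact ⟨h1, h2, viaβ V₃ V₂ hB₃ (comap_β₃.trans comap_β₂.symm) h1 h2⟩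
  · exact ⟨h1, viaα V₂ V₁ hB₂ (comap_α₂.trans comap_α₁.symm) h3 h1, h3⟩
  · exact ⟨viaα V₁ V₂ hB₁ (comap_α₁.trans comap_α₂.symm) h3 h2, h2, h3⟩

end Fields

end Fermat.Agent.S36.Mod3.H323

end

end
-- ===== PACK-END S36/Mod3/H323/IncAbs.lean

-- ===== PACK-BEGIN S45/H323/FamAbs.lean
section


/-!
# S45 / CAR3, MOD-E — indexed UNIQ and INC, abstract form (helper323)

Indexed (family) versions of the `S36/Mod3/H323` leaves `unique_α/β` and `incidence`, for the
special fibre of level `q^e M'` (`e + 1` components, multiplicities `φ(q^min(a,b))`).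

Generic setting: `γ : F' → F` maps the chart `B' = chart R {x'}` into the chart `B = chart R {x}`,
`B` integral over `γ B'`;  `V : ι → ValuationSubring F`, `V' : ι' → ValuationSubring F'`,
table `τ : ι → ι'` (`(V i).comap γ = V' (τ i)`);  `r : ι` a RADICIAL index (the only index over
`τ r`, and `b ^ q ≡ γ b'` modulo `𝔪_{V r}` on the chart).

* `pow_of_unif`          : `w = unit · t ^ μ`  ⟹  `f ^ μ / w ∈ V` for `f ∈ 𝔪_V`.
* `cover_fam`            : a prime of the chart containing `w` contains a vertical prime.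
* `sep_of_sheet`         : distinct sheets which are DVRs are separated by chart elements.
* `unique_of_radicial_fam` : a closed point on `V r` is the only closed point over its image.
* `through_of_below_fam` : if the image of `𝔪` lies on `V' (τ r)` and on `V' (τ i)`, then `𝔪`
                           lies on `V i` (and on `V r`).
* `incidence_fam`        : INCIDENCE at level `e` from incidence at level `e - 1`
                           ("two components through a point ⟹ all").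
* `unique_fam`           : the field `unique_γ` in indexed form.

Mathlib + `S36/Mod3/H323` (on main) only.  No `sorry`.
-/

set_option autoImplicit false
set_option linter.style.haveILetI false
set_option linter.unusedSectionVars false
set_option linter.unusedVariables false

noncomputable section

namespace Fermat.Agent.S45.H323

open Polynomial
open Fermat.Agent.S18.H138 (chart)
open Fermat.Agent.S36.Eng
open Fermat.Agent.S36.Mod3.H323

/-! ## Multiplicities and the cover -/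

section Cover

variable {R F : Type*} [CommRing R] [Field F] [Algebra R F]

/-- `w = unit · t ^ μ` at `V`, `t` a uniformiser  ⟹  `f ^ μ / w ∈ V` for every `f ∈ 𝔪_V`. -/
theorem pow_of_unif {V : ValuationSubring F} {W t : F} {μ : ℕ}
    (ht : UnifAt V t) (hu : UnitAt V (W * (t ^ μ)⁻¹)) :
    ∀ f ∈ V.nonunits, f ^ μ * W⁻¹ ∈ V := by
  intro f hf
  have ht0 : t ≠ 0 := ht.1
  have hW0 : W ≠ 0 := fun h => hu.1 (by rw [h, zero_mul])
  have e : f ^ μ * W⁻¹ = (f * t⁻¹) ^ μ * (W * (t ^ μ)⁻¹)⁻¹ := by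
    rw [mul_pow, mul_inv, inv_inv, inv_pow]
    have ht1 : t ^ μ ≠ 0 := pow_ne_zero _ ht0
    field_simp
  rw [e]
  exact V.mul_mem _ _ (pow_mem (ht.2.2 _ hf) _) hu.2.2

/-- `w` itself a uniformiser (multiplicity one). -/
theorem pow_of_unif_one {V : ValuationSubring F} {W : F} (ht : UnifAt V W) :
    ∀ f ∈ V.nonunits, f ^ 1 * W⁻¹ ∈ V := by
  intro f hf
  rw [pow_one]
  exact ht.2.2 _ hf

/-- **Cover (family form).**  If `B ∩ w (⋂ V i) = w B` (`q`-expansion principle) and every `V i`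
has finite multiplicity, a prime of `B` containing `w` contains one of the vertical primes. -/
theorem cover_fam {ι : Type*} [Finite ι] (w : R) (B : Subalgebra R F)
    (V : ι → ValuationSubring F)
    (hB : ∀ i, ∀ b ∈ B, b ∈ V i)
    (hpow : ∀ i, ∃ n : ℕ, ∀ f ∈ (V i).nonunits, f ^ n * (algebraMap R F w)⁻¹ ∈ V i)
    (qep : ∀ b : B, (∀ i, (b : F) * (algebraMap R F w)⁻¹ ∈ V i) →
      ∃ c : B, b = algebraMap R B w * c)
    (Q : Ideal B) (hQ : Q.IsPrime) (hw : algebraMap R B w ∈ Q) :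
    ∃ i, Through B Q (V i) := by
  classical
  cases nonempty_fintype ι
  by_contra hcon
  have hex : ∀ i, ∃ b : B, (b : F) ∈ (V i).nonunits ∧ b ∉ Q := by
    intro i
    by_contra hi
    apply hcon
    refine ⟨i, fun b hb => ?_⟩
    by_contra hbQ
    exact hi ⟨b, hb, hbQ⟩
  choose b hb hbQ using hex
  choose n hn using hpow
  set W : F := algebraMap R F w with hW
  have hP : ∀ i, ((∏ j, b j ^ n j : B) : F) * W⁻¹ ∈ V i := by
    intro i
    have e : ((∏ j, b j ^ n j : B) : F) =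
        (b i : F) ^ n i * ∏ j ∈ Finset.univ.erase i, (b j : F) ^ n j := by
      rw [Finset.mul_prod_erase Finset.univ (fun j => (b j : F) ^ n j) (Finset.mem_univ i)]
      push_cast
      rfl
    rw [e, mul_right_comm]
    refine (V i).mul_mem _ _ (hn i _ (hb i)) ?_
    exact prod_mem (fun j _ => pow_mem (hB i _ (b j).2) _)
  obtain ⟨c, hc⟩ := qep (∏ j, b j ^ n j) hP
  have hmem : (∏ j, b j ^ n j : B) ∈ Q := by
    rw [hc]
    exact Q.mul_mem_right _ hw
  haveI := hQ
  obtain ⟨i, -, hi⟩ := (Ideal.IsPrime.prod_mem_iff (p := Q)).1 hmem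
  exact hbQ i (hQ.mem_of_pow_mem _ hi)

end Cover

/-! ## Uniqueness over a radicial component -/

section Unique

variable {R E F F' : Type*} [CommRing R] [Field E] [Algebra R E]
  [Field F] [Algebra E F] [Algebra R F] [Field F'] [Algebra E F'] [Algebra R F']

/-- Nonunits are transported along a comap table. -/
theorem nonunits_of_comap (γ : F' →ₐ[E] F) {V : ValuationSubring F} {V' : ValuationSubring F'}
    (hVV' : V.comap (γ : F' →+* F) = V') {b' : F'} (hb' : b' ∈ V'.nonunits) :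
    γ b' ∈ V.nonunits := by
  have : b' ∈ (V.comap (γ : F' →+* F)).nonunits := by rw [hVV']; exact hb'
  exact (mem_nonunits_comap_h323 _ _).1 this

theorem nonunits_of_comap' (γ : F' →ₐ[E] F) {V : ValuationSubring F} {V' : ValuationSubring F'}
    (hVV' : V.comap (γ : F' →+* F) = V') {b' : F'} (hb' : γ b' ∈ V.nonunits) :
    b' ∈ V'.nonunits := by
  rw [← hVV']
  exact (mem_nonunits_comap_h323 _ _).2 hb'

/-- The image of a closed point on `V i` lies on `V' (τ i)`. -/
theorem through_comap (γ : F' →ₐ[E] F) (x : F) (x' : F')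
    (hγ : ∀ b ∈ chart R ({x'} : Set F'), γ b ∈ chart R ({x} : Set F))
    {V : ValuationSubring F} {V' : ValuationSubring F'}
    (hVV' : V.comap (γ : F' →+* F) = V')
    (𝔪 : Ideal (chart R ({x} : Set F))) (h : Through _ 𝔪 V) :
    Through _ (𝔪.comap (chartHom_h323 γ x x' hγ)) V' := by
  intro b' hb'
  rw [Ideal.mem_comap]
  exact h _ (nonunits_of_comap γ hVV' hb')

/-- **Uniqueness over a radicial component (family form).**  `γ` maps the chart `B'` into the
chart `B`, `B` integral over `γ B'`; table `τ`; `r` is the only index over `τ r`; the vertical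
prime of `V' (τ r)` contains no other vertical prime of `B'`; every prime of `B` containing `w`
contains a vertical prime; `B / (B ∩ 𝔪_{V r})` is radicial over `γ B'`.  Then a closed point of
`B` on `V r` is the only closed point over its image. -/
theorem unique_of_radicial_fam {ι ι' : Type*} (w : R) (q : ℕ) (hq : 0 < q) (γ : F' →ₐ[E] F)
    (x : F) (x' : F') (V : ι → ValuationSubring F) (V' : ι' → ValuationSubring F')
    (τ : ι → ι') (r : ι)
    (hγ : ∀ b ∈ chart R ({x'} : Set F'), γ b ∈ chart R ({x} : Set F))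
    (hint : ∀ b ∈ chart R ({x} : Set F), ∃ p : Polynomial F', p.Monic ∧
      (∀ i, p.coeff i ∈ chart R ({x'} : Set F')) ∧ (p.map (γ : F' →+* F)).eval b = 0)
    (hBr : ∀ b ∈ chart R ({x} : Set F), b ∈ V r)
    (comap : ∀ i, (V i).comap (γ : F' →+* F) = V' (τ i))
    (hτ : ∀ i, τ i = τ r → i = r)
    (hne : ∀ i, τ i ≠ τ r → ∃ b' ∈ chart R ({x'} : Set F'),
      b' ∈ (V' (τ i)).nonunits ∧ b' ∉ (V' (τ r)).nonunits)
    (hwr : algebraMap R F w ∈ (V r).nonunits)
    (hγw : γ (algebraMap R F' w) = algebraMap R F w)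
    (cover : ∀ Q : Ideal (chart R ({x} : Set F)), Q.IsPrime →
      algebraMap R (chart R ({x} : Set F)) w ∈ Q → ∃ i, Through _ Q (V i))
    (rad : ∀ b ∈ chart R ({x} : Set F), ∃ b' ∈ chart R ({x'} : Set F'),
      b ^ q - γ b' ∈ (V r).nonunits)
    (𝔪 𝔪' : Ideal (chart R ({x} : Set F))) (h𝔪 : 𝔪.IsMaximal) (h𝔪' : 𝔪'.IsMaximal)
    (hthr : Through _ 𝔪 (V r))
    (H : ∀ (b' : F') (h : b' ∈ chart R ({x'} : Set F')),
      (⟨γ b', hγ b' h⟩ : chart R ({x} : Set F)) ∈ 𝔪 →
        (⟨γ b', hγ b' h⟩ : chart R ({x} : Set F)) ∈ 𝔪') :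
    𝔪' = 𝔪 := by
  classical
  let a : chart R ({x'} : Set F') →+* chart R ({x} : Set F) := chartHom_h323 γ x x' hγ
  -- the chart of level `e - 1` lies in `V' (τ r)`
  have hB'r : ∀ b' : chart R ({x'} : Set F'), (b' : F') ∈ V' (τ r) := fun b' => by
    rw [← comap r, ValuationSubring.mem_comap]
    exact hBr _ (hγ b' b'.2)
  let incl : chart R ({x'} : Set F') →+* V' (τ r) :=
    ((chart R ({x'} : Set F')).subtype : _ →+* F').codRestrict (V' (τ r)).toSubring hB'r
  let P : Ideal (chart R ({x'} : Set F')) :=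
    Ideal.comap incl (IsLocalRing.maximalIdeal (V' (τ r)))
  have hPmem : ∀ b' : chart R ({x'} : Set F'), b' ∈ P ↔ (b' : F') ∈ (V' (τ r)).nonunits := by
    intro b'
    rw [ValuationSubring.mem_nonunits_iff_exists_mem_maximalIdeal]
    constructor
    · intro h
      exact ⟨hB'r b', h⟩
    · rintro ⟨_, h⟩
      exact h
  haveI hPprime : P.IsPrime := Ideal.comap_isPrime incl _
  have hP𝔪 : P ≤ 𝔪.comap a := by
    intro b' hb'
    rw [Ideal.mem_comap]
    exact hthr _ (nonunits_of_comap γ (comap r) ((hPmem b').1 hb'))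
  have hP𝔪' : P ≤ 𝔪'.comap a := by
    intro b' hb'
    rw [Ideal.mem_comap]
    exact H b' b'.2 (hP𝔪 hb')
  -- going down
  letI : Algebra (chart R ({x'} : Set F')) (chart R ({x} : Set F)) := a.toAlgebra
  haveI : IsIntegrallyClosed (chart R ({x'} : Set F')) := isIntegrallyClosed_chart_h323 _
  haveI : Algebra.IsIntegral (chart R ({x'} : Set F')) (chart R ({x} : Set F)) :=
    ⟨chartHom_h323_isIntegral γ x x' hγ hint⟩
  haveI : FaithfulSMul (chart R ({x'} : Set F')) (chart R ({x} : Set F)) :=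
    (faithfulSMul_iff_algebraMap_injective _ _).mpr (chartHom_h323_injective γ x x' hγ)
  haveI : 𝔪'.IsPrime := h𝔪'.isPrime
  haveI : 𝔪'.LiesOver (𝔪'.comap a) := ⟨rfl⟩
  haveI : (𝔪'.comap a).IsPrime := Ideal.comap_isPrime a 𝔪'
  obtain ⟨Q, hQ𝔪', hQprime, hQover⟩ :=
    Ideal.exists_ideal_le_liesOver_of_le (p := P) (q := 𝔪'.comap a) 𝔪' hP𝔪'
  have hQP : Q.comap a = P := (hQover.over).symm
  -- `w ∈ Q`
  have hwQ : algebraMap R (chart R ({x} : Set F)) w ∈ Q := by
    have hwP : (⟨algebraMap R F' w, Subalgebra.algebraMap_mem _ w⟩ :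
        chart R ({x'} : Set F')) ∈ P := by
      rw [hPmem]
      apply nonunits_of_comap' γ (comap r)
      rw [hγw]
      exact hwr
    rw [← hQP, Ideal.mem_comap] at hwP
    have e : a ⟨algebraMap R F' w, Subalgebra.algebraMap_mem _ w⟩ =
        algebraMap R (chart R ({x} : Set F)) w := Subtype.ext hγw
    rw [e] at hwP
    exact hwP
  -- `Q` contains the radicial vertical prime
  have hQr : Through (chart R ({x} : Set F)) Q (V r) := by
    obtain ⟨i, hi⟩ := cover Q hQprime hwQ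
    by_cases hir : τ i = τ r
    · rw [← hτ i hir]
      exact hi
    · exfalso
      obtain ⟨b', hb'B, hb'o, hb'r⟩ := hne i hir
      apply hb'r
      rw [← hPmem ⟨b', hb'B⟩, ← hQP, Ideal.mem_comap]
      exact hi _ (nonunits_of_comap γ (comap i) hb'o)
  -- radicial
  have hle : 𝔪 ≤ 𝔪' := by
    intro b hb
    obtain ⟨b', hb'B, hb'⟩ := rad b b.2
    have hcoe : ((b ^ q - a ⟨b', hb'B⟩ : chart R ({x} : Set F)) : F) = (b : F) ^ q - γ b' := by
      push_cast
      rfl
    have h1 : b ^ q - a ⟨b', hb'B⟩ ∈ 𝔪 := hthr _ (by rw [hcoe]; exact hb')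
    have h2 : a ⟨b', hb'B⟩ ∈ 𝔪 := by
      have := 𝔪.sub_mem (𝔪.pow_mem_of_mem hb q hq) h1
      simpa using this
    have h3 : a ⟨b', hb'B⟩ ∈ 𝔪' := H b' hb'B h2
    have h4 : b ^ q - a ⟨b', hb'B⟩ ∈ 𝔪' := hQ𝔪' (hQr _ (by rw [hcoe]; exact hb'))
    have h5 : b ^ q ∈ 𝔪' := by
      have := 𝔪'.add_mem h4 h3
      simpa using this
    exact h𝔪'.isPrime.mem_of_pow_mem q h5
  exact (h𝔪.eq_of_le h𝔪'.ne_top hle).symm

/-- **Lifting a component through a point (family form).**  In the setting of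
`unique_of_radicial_fam`: if the image of the closed point `𝔪` lies on `V' (τ r)` and on
`V' (τ i)`, then `𝔪` lies on `V i`. -/
theorem through_of_below_fam {ι ι' : Type*} (w : R) (q : ℕ) (hq : 0 < q) (γ : F' →ₐ[E] F)
    (x : F) (x' : F') (V : ι → ValuationSubring F) (V' : ι' → ValuationSubring F')
    (τ : ι → ι') (r : ι)
    (hγ : ∀ b ∈ chart R ({x'} : Set F'), γ b ∈ chart R ({x} : Set F))
    (hint : ∀ b ∈ chart R ({x} : Set F), ∃ p : Polynomial F', p.Monic ∧
      (∀ i, p.coeff i ∈ chart R ({x'} : Set F')) ∧ (p.map (γ : F' →+* F)).eval b = 0)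
    (hBV : ∀ i, ∀ b ∈ chart R ({x} : Set F), b ∈ V i)
    (comap : ∀ i, (V i).comap (γ : F' →+* F) = V' (τ i))
    (hτ : ∀ i, τ i = τ r → i = r)
    (hne : ∀ i, τ i ≠ τ r → ∃ b' ∈ chart R ({x'} : Set F'),
      b' ∈ (V' (τ i)).nonunits ∧ b' ∉ (V' (τ r)).nonunits)
    (hwr : algebraMap R F w ∈ (V r).nonunits)
    (hγw : γ (algebraMap R F' w) = algebraMap R F w)
    (cover : ∀ Q : Ideal (chart R ({x} : Set F)), Q.IsPrime →
      algebraMap R (chart R ({x} : Set F)) w ∈ Q → ∃ i, Through _ Q (V i))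
    (rad : ∀ b ∈ chart R ({x} : Set F), ∃ b' ∈ chart R ({x'} : Set F'),
      b ^ q - γ b' ∈ (V r).nonunits)
    (𝔪 : Ideal (chart R ({x} : Set F))) (h𝔪 : 𝔪.IsMaximal)
    (hbr : Through _ (𝔪.comap (chartHom_h323 γ x x' hγ)) (V' (τ r)))
    (i : ι) (hbi : Through _ (𝔪.comap (chartHom_h323 γ x x' hγ)) (V' (τ i))) :
    Through _ 𝔪 (V i) := by
  classical
  let a : chart R ({x'} : Set F') →+* chart R ({x} : Set F) := chartHom_h323 γ x x' hγ
  have haint : a.IsIntegral := chartHom_h323_isIntegral γ x x' hγ hint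
  letI : Algebra (chart R ({x'} : Set F')) (chart R ({x} : Set F)) := a.toAlgebra
  haveI : Algebra.IsIntegral (chart R ({x'} : Set F')) (chart R ({x} : Set F)) := ⟨haint⟩
  haveI : 𝔪.IsPrime := h𝔪.isPrime
  haveI : (𝔪.comap a).IsPrime := Ideal.comap_isPrime a 𝔪
  have hmaxc : (𝔪.comap a).IsMaximal :=
    Ideal.isMaximal_comap_of_isIntegral_of_isMaximal' a haint 𝔪
  -- a closed point over the image of `𝔪` on a given component
  have lift : ∀ k : ι, Through _ (𝔪.comap a) (V' (τ k)) →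
      ∃ Q : Ideal (chart R ({x} : Set F)), Q.IsMaximal ∧ Q.comap a = 𝔪.comap a ∧
        Through _ Q (V k) := by
    intro k hk
    have hle : (vprime_h323 (chart R ({x} : Set F)) (V k) (hBV k)).comap
        (algebraMap (chart R ({x'} : Set F')) (chart R ({x} : Set F))) ≤ 𝔪.comap a := by
      intro b' hb'
      rw [Ideal.mem_comap] at hb'
      have h1 : γ (b' : F') ∈ (V k).nonunits := (mem_vprime_h323 _ (V k) (hBV k) _).1 hb'
      exact hk _ (nonunits_of_comap' γ (comap k) h1)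
    obtain ⟨Q, hQge, hQprime, hQcomap⟩ :=
      Ideal.exists_ideal_over_prime_of_isIntegral (𝔪.comap a)
        (vprime_h323 (chart R ({x} : Set F)) (V k) (hBV k)) hle
    have hQc : Q.comap a = 𝔪.comap a := hQcomap
    refine ⟨Q, ?_, hQc, fun b hb => hQge ((mem_vprime_h323 _ (V k) (hBV k) b).2 hb)⟩
    haveI := hQprime
    apply Ideal.isMaximal_of_isIntegral_of_isMaximal_comap' a haint Q
    rw [hQc]
    exact hmaxc
  obtain ⟨Qr, hQrmax, hQrc, hQrthr⟩ := lift r hbr
  obtain ⟨Qi, hQimax, hQic, hQithr⟩ := lift i hbi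
  have uniq : ∀ Q : Ideal (chart R ({x} : Set F)), Q.IsMaximal → Q.comap a = 𝔪.comap a →
      Q = Qr := by
    intro Q hQmax hQc
    refine unique_of_radicial_fam w q hq γ x x' V V' τ r hγ hint (hBV r) comap hτ hne hwr hγw
      cover rad Qr Q hQrmax hQmax hQrthr ?_
    intro b' hb' hmem
    have h1 : (⟨b', hb'⟩ : chart R ({x'} : Set F')) ∈ Qr.comap a := hmem
    have h2 : (⟨b', hb'⟩ : chart R ({x'} : Set F')) ∈ Q.comap a := by
      rw [hQc, ← hQrc]
      exact h1
    exact h2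
  have e1 : 𝔪 = Qr := uniq 𝔪 h𝔪 rfl
  have e2 : Qi = Qr := uniq Qi hQimax hQic
  rw [e1, ← e2]
  exact hQithr

end Unique

end Fermat.Agent.S45.H323

end

end
-- ===== PACK-END S45/H323/FamAbs.lean

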