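import Fermat.Agent.Pack.S45.E1L0
import Fermat.Agent.Pack.S44C.G0E24L1
import Fermat.Agent.Pack.S43MC.G0E22L0
import Fermat.Agent.Pack.S45.E0L3
import Fermat.Agent.Pack.S45.E1L1
import Fermat.Agent.Pack.S43MC.G0E21L3
import Fermat.Agent.Pack.S44C.G0E20L3
import Fermat.Agent.Pack.S44C.G0E20L0
import Fermat.Agent.Pack.S43MC.G0E12L0
import Fermat.Agent.Pack.S44C.G0E23L2
import Fermat.Agent.Pack.S45.E0L1
import Fermat.Agent.Pack.S44C.G0E21L1
import Fermat.Agent.Pack.S43MC.G0E17L1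
import Fermat.Agent.Pack.S43MC.G0E22L1
import Fermat.Agent.Pack.S43MC.G0E25L2
import Fermat.Agent.Pack.S43MC.G0E23L2
import Fermat.Agent.Pack.Fast891

set_option linter.all false

-- ===== PACK-BEGIN S45/ModE/H590/KronWit.lean
section




/-!
# S45 / CAR3 / MOD-E — the leaves KRON-E and WIT-E are FORMAL (helper590)

Against `S45/ModE/Spec.lean` (sub-architect helper928).  No Kronecker polynomial is used: the
Frobenius / Verschiebung pattern of the chain `J 0, …, J (n + 1)` on the components of the upper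
level and the "root coordinate is not a `q`-th power" invariant are pulled back from the lower
level along `α` (`α (J' l) = J l`) and `β` (`β (J' l) = J (l + 1)`) through the tables.

* `alpha_jLev590`, `beta_jLev590` : `α (J' l) = J l`, `β (J' l) = J (l + 1)` for `q ^ l ∣ N`;
* `partKronE_of590` : `PartTableE` + `PartKronE` (lower) ⟹ `PartKronE` (upper)   (abstract);
* `partWitE_of590`  : `PartTableE` + `PartResE` + `PartWitE` (lower) ⟹ `PartWitE` (upper);
* `leafKronE_of590 : LeafTableE → LeafKronE`;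
* `leafWitE_of590  : LeafTableE → LeafResE → LeafWitE`.
-/

set_option autoImplicit false
set_option linter.style.haveILetI false
set_option linter.unusedSectionVars false
set_option synthInstance.maxHeartbeats 400000
set_option maxHeartbeats 1600000

noncomputable section

namespace Fermat.Agent.S45.ModE.H590

open ModularCurve AlgebraicCurve
open Fermat.Agent.S36 Fermat.Agent.S36.Eng

/-! ## Transport along a comap -/

section Transport

variable {F F' : Type*} [Field F] [Field F']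

theorem mem_nonunits_comap590 (φ : F' →+* F) (U : ValuationSubring F) (x : F') :
    x ∈ (U.comap φ).nonunits ↔ φ x ∈ U.nonunits := by
  rw [ValuationSubring.mem_nonunits_iff_or, ValuationSubring.mem_nonunits_iff_or,
    ValuationSubring.mem_comap, map_inv₀, map_eq_zero]

theorem map_mem_nonunits590 {φ : F' →+* F} {U : ValuationSubring F} {U' : ValuationSubring F'}
    (h : U.comap φ = U') {x : F'} (hx : x ∈ U'.nonunits) : φ x ∈ U.nonunits := by
  rw [← h] at hx
  exact (mem_nonunits_comap590 φ U x).1 hx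

theorem mem_nonunits_of_map590 {φ : F' →+* F} {U : ValuationSubring F}
    {U' : ValuationSubring F'} (h : U.comap φ = U') {x : F'} (hx : φ x ∈ U.nonunits) :
    x ∈ U'.nonunits := by
  rw [← h]
  exact (mem_nonunits_comap590 φ U x).2 hx

theorem unitAt_map590 {φ : F' →+* F} {U : ValuationSubring F} {U' : ValuationSubring F'}
    (h : U.comap φ = U') {x : F'} (hx : UnitAt U' x) : UnitAt U (φ x) := by
  obtain ⟨h0, h1, h2⟩ := hx
  rw [← h] at h1 h2
  refine ⟨(map_ne_zero φ).2 h0, h1, ?_⟩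
  rw [← map_inv₀]
  exact h2

/-- `a ≡ b` and `a, b ∈ U` ⟹ `a ^ q ≡ b ^ q`. -/
theorem pow_sub_pow_mem_nonunits590 {U : ValuationSubring F} {a b : F} (ha : a ∈ U)
    (hb : b ∈ U) (hab : a - b ∈ U.nonunits) (q : ℕ) : a ^ q - b ^ q ∈ U.nonunits := by
  rw [ValuationSubring.mem_nonunits_iff_exists_mem_maximalIdeal] at hab ⊢
  obtain ⟨hmem, hmax⟩ := hab
  have hq : a ^ q - b ^ q ∈ U := U.sub_mem (pow_mem ha q) (pow_mem hb q)
  refine ⟨hq, ?_⟩
  have hdvd : (⟨a, ha⟩ - ⟨b, hb⟩ : U) ∣ (⟨a, ha⟩ ^ q - ⟨b, hb⟩ ^ q : U) := sub_dvd_pow_sub_pow _ _ q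
  have e1 : (⟨a - b, hmem⟩ : U) = ⟨a, ha⟩ - ⟨b, hb⟩ := rfl
  have e2 : (⟨a ^ q - b ^ q, hq⟩ : U) = ⟨a, ha⟩ ^ q - ⟨b, hb⟩ ^ q := rfl
  rw [e2]
  rw [e1] at hmax
  exact Ideal.mem_of_dvd _ hdvd hmax

end Transport

/-! ## The abstract steps -/

section Abs

variable {E F F' : Type*} [Field E] [Field F] [Algebra E F] [Field F'] [Algebra E F']

/-- **KRON-E, abstract.**  The pattern of the chain on the upper level from the pattern on the
lower level, the tables and `α (J' l) = J l` (`l ≤ n`), `β (J' l) = J (l + 1)` (`l ≤ n`). -/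
theorem partKronE_of590 {q n : ℕ} (hn : 1 ≤ n) {α β : F' →ₐ[E] F} {J' : ℕ → F'} {J : ℕ → F}
    {V' : ℕ → ValuationSubring F'} {V : ℕ → ValuationSubring F}
    (hα : ∀ l ≤ n, α (J' l) = J l) (hβ : ∀ l ≤ n, β (J' l) = J (l + 1))
    (hT : PartTableE n α β V V') (hK : PartKronE q n J' V') :
    PartKronE q (n + 1) J V := by
  -- the two lying-over facts in uniform form
  have cα : ∀ i ≤ n + 1, (V i).comap (α : F' →+* F) = V' (i - 1) := by
    intro i hi
    rcases Nat.eq_zero_or_pos i with h0 | h0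
    · subst h0; exact hT.comap_α₀
    · exact hT.comap_α i h0 hi
  have cβ : ∀ i ≤ n + 1, (V i).comap (β : F' →+* F) = V' (min i n) := by
    intro i hi
    rcases Nat.lt_or_ge n i with h | h
    · have : i = n + 1 := by omega
      subst this
      rw [Nat.min_eq_right (by omega)]
      exact hT.comap_βₑ
    · rw [Nat.min_eq_left h]
      exact hT.comap_β i h
  refine ⟨fun i hi l hl => ?_, fun i hi l hl1 hl2 => ?_, fun i hi l hl => ?_⟩
  · -- frob
    rcases Nat.lt_or_ge l n with hln | hln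
    · -- via α
      have h1 : J' (l + 1) - J' l ^ q ∈ (V' (i - 1)).nonunits :=
        hK.frob (i - 1) (by omega) l (by omega)
      have h2 := map_mem_nonunits590 (cα i hi) h1
      have e : (α : F' →+* F) (J' (l + 1) - J' l ^ q) = J (l + 1) - J l ^ q := by
        show α (J' (l + 1) - J' l ^ q) = _
        rw [map_sub, map_pow, hα (l + 1) (by omega), hα l (by omega)]
      rwa [e] at h2
    · -- `l = n`, `i = 0`: via β
      have hl' : l = n := by omega
      have hi' : i = 0 := by omega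
      subst hl' hi'
      have h1 : J' (l - 1 + 1) - J' (l - 1) ^ q ∈ (V' (min 0 l)).nonunits := by
        rw [Nat.min_eq_left (Nat.zero_le _)]
        exact hK.frob 0 (Nat.zero_le _) (l - 1) (by omega)
      have h2 := map_mem_nonunits590 (cβ 0 (by omega)) h1
      have e : (β : F' →+* F) (J' (l - 1 + 1) - J' (l - 1) ^ q) = J (l + 1) - J l ^ q := by
        show β (J' (l - 1 + 1) - J' (l - 1) ^ q) = _
        rw [map_sub, map_pow, hβ (l - 1 + 1) (by omega), hβ (l - 1) (by omega)]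
        have : l - 1 + 1 = l := by omega
        rw [this]
      rwa [e] at h2
  · -- ver
    rcases Nat.lt_or_ge l n with hln | hln
    · -- via α
      have h1 : J' l - J' (l + 1) ^ q ∈ (V' (i - 1)).nonunits :=
        hK.ver (i - 1) (by omega) l (by omega) hln
      have h2 := map_mem_nonunits590 (cα i hi) h1
      have e : (α : F' →+* F) (J' l - J' (l + 1) ^ q) = J l - J (l + 1) ^ q := by
        show α (J' l - J' (l + 1) ^ q) = _
        rw [map_sub, map_pow, hα (l + 1) (by omega), hα l (by omega)]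
      rwa [e] at h2
    · -- `l = n`: via β
      have hl' : l = n := by omega
      subst hl'
      have h1 : J' (l - 1) - J' (l - 1 + 1) ^ q ∈ (V' (min i l)).nonunits :=
        hK.ver (min i l) (Nat.min_le_right _ _) (l - 1) (by omega) (by omega)
      have h2 := map_mem_nonunits590 (cβ i hi) h1
      have e : (β : F' →+* F) (J' (l - 1) - J' (l - 1 + 1) ^ q) = J l - J (l + 1) ^ q := by
        show β (J' (l - 1) - J' (l - 1 + 1) ^ q) = _
        rw [map_sub, map_pow, hβ (l - 1 + 1) (by omega), hβ (l - 1) (by omega)]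
        have : l - 1 + 1 = l := by omega
        rw [this]
      rwa [e] at h2
  · -- unit
    rcases Nat.lt_or_ge n l with hln | hln
    · have hl' : l = n + 1 := by omega
      subst hl'
      have h1 : UnitAt (V' (min i n)) (J' n) :=
        hK.unit (min i n) (Nat.min_le_right _ _) n le_rfl
      have h2 := unitAt_map590 (cβ i hi) h1
      have e : (β : F' →+* F) (J' n) = J (n + 1) := hβ n le_rfl
      rwa [e] at h2
    · have h1 : UnitAt (V' (i - 1)) (J' l) := hK.unit (i - 1) (by omega) l hln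
      have h2 := unitAt_map590 (cα i hi) h1
      have e : (α : F' →+* F) (J' l) = J l := hα l hln
      rwa [e] at h2

/-- **WIT-E, abstract.**  The root coordinate is not a `q`-th power in the residue field of the
components of the upper level: from the lower level through the residue-degree-one directions. -/
theorem partWitE_of590 {q n : ℕ} {α β : F' →ₐ[E] F} {J' : ℕ → F'} {J : ℕ → F}
    {V' : ℕ → ValuationSubring F'} {V : ℕ → ValuationSubring F}
    (hα0 : α (J' 0) = J 0) (hβn : β (J' n) = J (n + 1))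
    (hT : PartTableE n α β V V') (hR : PartResE q n α β V V') (hW : PartWitE q n J' V') :
    PartWitE q (n + 1) J V := by
  have cα : ∀ i ≤ n + 1, (V i).comap (α : F' →+* F) = V' (i - 1) := by
    intro i hi
    rcases Nat.eq_zero_or_pos i with h0 | h0
    · subst h0; exact hT.comap_α₀
    · exact hT.comap_α i h0 hi
  have cβ : ∀ i ≤ n + 1, (V i).comap (β : F' →+* F) = V' (min i n) := by
    intro i hi
    rcases Nat.lt_or_ge n i with h | h
    · have : i = n + 1 := by omega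
      subst this
      rw [Nat.min_eq_right (by omega)]
      exact hT.comap_βₑ
    · rw [Nat.min_eq_left h]
      exact hT.comap_β i h
  refine ⟨fun i hi h2i y hy hmem => ?_, fun i hi h2i y hy hmem => ?_⟩
  · -- wit_lo, via α
    obtain ⟨g, hg, hyg⟩ := hR.res_α i hi (Or.inr h2i) y hy
    have hαg : α g ∈ V i := by
      have : g ∈ (V i).comap (α : F' →+* F) := by rw [cα i hi]; exact hg
      exact this
    have h1 : y ^ q - α g ^ q ∈ (V i).nonunits :=
      pow_sub_pow_mem_nonunits590 hy hαg hyg q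
    have h3 : α g ^ q - J 0 ∈ (V i).nonunits := by
      have e : α g ^ q - J 0 = (y ^ q - J 0) - (y ^ q - α g ^ q) := by ring
      rw [e]
      rw [ValuationSubring.mem_nonunits_iff_exists_mem_maximalIdeal] at hmem h1 ⊢
      obtain ⟨m1, hm1⟩ := hmem
      obtain ⟨m2, hm2⟩ := h1
      exact ⟨(V i).sub_mem m1 m2, Ideal.sub_mem _ hm1 hm2⟩
    have h4 : (α : F' →+* F) (g ^ q - J' 0) ∈ (V i).nonunits := by
      show α (g ^ q - J' 0) ∈ _
      rw [map_sub, map_pow, hα0]
      exact h3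
    have h5 := mem_nonunits_of_map590 (cα i hi) h4
    exact hW.wit_lo (i - 1) (by omega) (by omega) g hg h5
  · -- wit_hi, via β
    obtain ⟨g, hg, hyg⟩ := hR.res_β i hi (Or.inr h2i) y hy
    have hβg : β g ∈ V i := by
      have : g ∈ (V i).comap (β : F' →+* F) := by rw [cβ i hi]; exact hg
      exact this
    have h1 : y ^ q - β g ^ q ∈ (V i).nonunits :=
      pow_sub_pow_mem_nonunits590 hy hβg hyg q
    have h3 : β g ^ q - J (n + 1) ∈ (V i).nonunits := by
      have e : β g ^ q - J (n + 1) = (y ^ q - J (n + 1)) - (y ^ q - β g ^ q) := by ring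
      rw [e]
      rw [ValuationSubring.mem_nonunits_iff_exists_mem_maximalIdeal] at hmem h1 ⊢
      obtain ⟨m1, hm1⟩ := hmem
      obtain ⟨m2, hm2⟩ := h1
      exact ⟨(V i).sub_mem m1 m2, Ideal.sub_mem _ hm1 hm2⟩
    have h4 : (β : F' →+* F) (g ^ q - J' n) ∈ (V i).nonunits := by
      show β (g ^ q - J' n) ∈ _
      rw [map_sub, map_pow, hβn]
      exact h3
    have h5 := mem_nonunits_of_map590 (cβ i hi) h4
    refine hW.wit_hi (min i n) (Nat.min_le_right _ _) ?_ g hg h5
    rcases Nat.lt_or_ge n i with h | h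
    · rw [Nat.min_eq_right (by omega)]; omega
    · rw [Nat.min_eq_left h]; omega

end Abs

/-! ## The chain `J l` under `α` and `β` -/

section Chain

variable (E : IntermediateField ℚ A2.Qb) (N q : ℕ) [NeZero N] [NeZero q] [NeZero (N * q)]

/-- `α (J' l) = J l`. -/
theorem alpha_jLev590 (l : ℕ) (hl : q ^ l ∣ N) :
    A2.Mod.αE E N q (jLev E N q l) = jLev E (N * q) q l := by
  have hl' : q ^ l ∣ N * q := hl.mul_right q
  rw [jLev, jLev, dif_pos hl, dif_pos hl']
  exact A2.Mod.H751.alpha_jE E N q (q ^ l) hl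

/-- `β (J' l) = J (l + 1)`. -/
theorem beta_jLev590 (l : ℕ) (hl : q ^ l ∣ N) :
    A2.Mod.βE E N q (jLev E N q l) = jLev E (N * q) q (l + 1) := by
  have hl' : q ^ (l + 1) ∣ N * q := by
    rw [pow_succ]
    exact mul_dvd_mul_right hl q
  rw [jLev, jLev, dif_pos hl, dif_pos hl']
  rw [A2.Mod.H751.beta_jE E N q (q ^ l) hl]
  exact A2.Mod.H751.jE_congr E (N * q) (by rw [pow_succ, mul_comm]) _ _

/-- `q ^ l ∣ N` for `l ≤ v_q(N)`. -/
theorem pow_dvd_of_le590 {N q n : ℕ} (hexp : N.factorization q = n) {l : ℕ} (hl : l ≤ n) :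
    q ^ l ∣ N := by
  have h1 : q ^ (N.factorization q) ∣ N := Nat.ordProj_dvd N q
  rw [hexp] at h1
  exact (pow_dvd_pow q hl).trans h1

end Chain

/-! ## The leaves -/

/-- **KRON-E** is formal from TABLE-E. -/
theorem leafKronE_of590 (hT : LeafTableE) : LeafKronE := by
  intro P E N q _ _ _ n w hStd hn V' V W' W hL hO
  exact partKronE_of590 (by omega)
    (fun l hl => alpha_jLev590 E N q l (pow_dvd_of_le590 hStd.exp hl))
    (fun l hl => beta_jLev590 E N q l (pow_dvd_of_le590 hStd.exp hl))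
    (hT P E N q n w hStd hn V' V W' W hL hO) hL.kron

/-- **WIT-E** is formal from TABLE-E and RES-E. -/
theorem leafWitE_of590 (hT : LeafTableE) (hR : LeafResE) : LeafWitE := by
  intro P E N q _ _ _ n w hStd hn V' V W' W hL hO
  exact partWitE_of590
    (alpha_jLev590 E N q 0 (pow_dvd_of_le590 hStd.exp (Nat.zero_le _)))
    (beta_jLev590 E N q n (pow_dvd_of_le590 hStd.exp le_rfl))
    (hT P E N q n w hStd hn V' V W' W hL hO) (hR P E N q n w hStd hn V' V W' W hL hO) hL.wit

end Fermat.Agent.S45.ModE.H590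

end

end
-- ===== PACK-END S45/ModE/H590/KronWit.lean

-- ===== PACK-BEGIN S45/H838/QepE.lean
section



/-!
# S45 / CAR3, MOD-E / QEP — `QepE` from completeness, completeness from the tower (helper838)

Abstract (Mathlib + `S36.Mod3.H27` on main + the definition `S45.Eng.QepE`); the family version of
helper27's `qep3_of_complete`, `complete_of_tower`, `qep3_of_tower`.

`R` a noetherian domain with `R[X]` integrally closed, `w ∈ R` prime, `F` a field of
characteristic `0`, `x ∈ F` transcendental over `R`, `F` finite over `baseField R x`;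
`V : ℕ → ValuationSubring F` (only `V i`, `i ≤ e`, matter).

* `qepE_fin_of_complete838`, `qepE_inf_of_complete838`, `qepE_of_complete838` :
  if every sheet of `x` is some `V i`, `i ≤ e`, then `S45.Eng.QepE w e (chart R {x}) V` and
  `S45.Eng.QepE w e (chart R {x⁻¹}) V` (the fields `qep_f`, `qep_i` of `CtxE`);
* `complete_of_towerE838` : completeness at the level above from completeness at the level below
  (`e'` = top index below) and the EXTENSION STEP
  `∀ j ≤ e', ∀ W sheet of x, W.comap α = V' j → ∃ i ≤ e, W = V i`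
  (= uniqueness part of the one-step valuation lemmas: split / purely inseparable / wild);
* `qepE_of_towerE838` : both together.
-/

set_option autoImplicit false
set_option linter.style.haveILetI false
set_option linter.unusedSectionVars false

namespace Fermat.Agent.S45.H838

open Polynomial
open Fermat.Agent.A2.H12 (IsSheet)
open Fermat.Agent.S18.H138
open Fermat.Agent.S36.H193 (isSheet_inv_iff)
open Fermat.Agent.S36.Mod3.H27 (mul_inv_mem_chart_of_sheets isSheet_of_chart_eq isSheet_comap)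
open Fermat.Agent.S45.Eng (QepE)

universe u

section Qep

variable {R : Type u} [CommRing R] [IsDomain R] [IsNoetherianRing R] [IsIntegrallyClosed R[X]]
  {F : Type u} [Field F] [CharZero F] [Algebra R F]

/-- `QepE` for the finite chart from completeness of `{V i | i ≤ e}`. -/
theorem qepE_fin_of_complete838 (hinjR : Function.Injective (algebraMap R F)) {w : R}
    (hw : Prime w) {x : F} (hx : Transcendental R x) [FiniteDimensional (baseField R x) F]
    (e : ℕ) (V : ℕ → ValuationSubring F)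
    (hcomplete : ∀ W : ValuationSubring F, IsSheet w x W → ∃ i ≤ e, W = V i) :
    QepE w e (chart R ({x} : Set F)) V := by
  intro b h
  have := mul_inv_mem_chart_of_sheets hinjR hw hx b.2 (fun W hW => by
    obtain ⟨i, hi, rfl⟩ := hcomplete W hW
    exact h i hi)
  refine ⟨⟨_, this⟩, ?_⟩
  have hw0 : algebraMap R F w ≠ 0 := fun h0 => hw.ne_zero (hinjR (by rw [h0, map_zero]))
  apply Subtype.ext
  show (b : F) = algebraMap R F w * ((b : F) * (algebraMap R F w)⁻¹)
  field_simp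

/-- `QepE` for the chart at infinity from completeness of `{V i | i ≤ e}`. -/
theorem qepE_inf_of_complete838 (hinjR : Function.Injective (algebraMap R F)) {w : R}
    (hw : Prime w) {x : F} (hx : Transcendental R x) [FiniteDimensional (baseField R x) F]
    (e : ℕ) (V : ℕ → ValuationSubring F)
    (hcomplete : ∀ W : ValuationSubring F, IsSheet w x W → ∃ i ≤ e, W = V i) :
    QepE w e (chart R ({x⁻¹} : Set F)) V := by
  have hx0 : x ≠ 0 := ne_zero_of_transcendental hx
  haveI : FiniteDimensional (baseField R x⁻¹) F := by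
    rw [baseField_inv]
    infer_instance
  exact qepE_fin_of_complete838 hinjR hw (transcendental_inv hx) e V
    (fun W hW => hcomplete W ((isSheet_inv_iff w hx0 W).1 hW))

/-- **`QepE` for both charts from completeness.** -/
theorem qepE_of_complete838 (hinjR : Function.Injective (algebraMap R F)) {w : R}
    (hw : Prime w) {x : F} (hx : Transcendental R x) [FiniteDimensional (baseField R x) F]
    (e : ℕ) (V : ℕ → ValuationSubring F)
    (hcomplete : ∀ W : ValuationSubring F, IsSheet w x W → ∃ i ≤ e, W = V i) :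
    QepE w e (chart R ({x} : Set F)) V ∧ QepE w e (chart R ({x⁻¹} : Set F)) V :=
  ⟨qepE_fin_of_complete838 hinjR hw hx e V hcomplete,
    qepE_inf_of_complete838 hinjR hw hx e V hcomplete⟩

end Qep

section Tower

variable {R : Type u} [CommRing R] [IsDomain R] [IsNoetherianRing R] [IsIntegrallyClosed R[X]]
  {F F' : Type u} [Field F] [CharZero F] [Algebra R F] [Field F'] [Algebra R F']

/-- **Completeness from the tower**, family form. -/
theorem complete_of_towerE838 {w : R} (hw : Prime w) (α : F' →+* F)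
    (hα : ∀ r : R, α (algebraMap R F' r) = algebraMap R F r) {x : F} {x' : F'}
    (hx' : Transcendental R (α x'))
    (hc₁ : x ∈ chart R ({α x'} : Set F)) (hc₂ : α x' ∈ chart R ({x} : Set F))
    (e e' : ℕ) (V : ℕ → ValuationSubring F) (V' : ℕ → ValuationSubring F')
    (hS' : ∀ W' : ValuationSubring F', IsSheet w x' W' → ∃ j ≤ e', W' = V' j)
    (hE : ∀ j ≤ e', ∀ W : ValuationSubring F, IsSheet w x W → W.comap α = V' j →
      ∃ i ≤ e, W = V i) :
    ∀ W : ValuationSubring F, IsSheet w x W → ∃ i ≤ e, W = V i := by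
  intro W hW
  have h1 : IsSheet w (α x') W := isSheet_of_chart_eq hw hx' hc₁ hc₂ hW
  have h2 : IsSheet w x' (W.comap α) := isSheet_comap α hα h1
  obtain ⟨j, hj, hWj⟩ := hS' _ h2
  exact hE j hj W hW hWj

/-- **`QepE` for both charts from the tower.** -/
theorem qepE_of_towerE838 (hinjR : Function.Injective (algebraMap R F)) {w : R} (hw : Prime w)
    (α : F' →+* F) (hα : ∀ r : R, α (algebraMap R F' r) = algebraMap R F r) {x : F} {x' : F'}
    (hx : Transcendental R x) [FiniteDimensional (baseField R x) F]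
    (hx' : Transcendental R (α x'))
    (hc₁ : x ∈ chart R ({α x'} : Set F)) (hc₂ : α x' ∈ chart R ({x} : Set F))
    (e e' : ℕ) (V : ℕ → ValuationSubring F) (V' : ℕ → ValuationSubring F')
    (hS' : ∀ W' : ValuationSubring F', IsSheet w x' W' → ∃ j ≤ e', W' = V' j)
    (hE : ∀ j ≤ e', ∀ W : ValuationSubring F, IsSheet w x W → W.comap α = V' j →
      ∃ i ≤ e, W = V i) :
    QepE w e (chart R ({x} : Set F)) V ∧ QepE w e (chart R ({x⁻¹} : Set F)) V :=
  qepE_of_complete838 hinjR hw hx e V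
    (complete_of_towerE838 hw α hα hx' hc₁ hc₂ e e' V V' hS' hE)

end Tower

end Fermat.Agent.S45.H838

end
-- ===== PACK-END S45/H838/QepE.lean

-- ===== PACK-BEGIN S45/H323/FamInc.lean
section


/-!
# S45 / CAR3, MOD-E — indexed INC and UNIQ from the other fields (helper323)

Family form of the fields `incidence`, `unique_α`, `unique_β` of the context of level `q^e M'`
(`e + 1` components `V i`) over the context of level `q^(e-1) M'` (`e` components `V' j`).

* `sep_of_loc`     : two distinct valuation rings, the second a DVR which is a localisation of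
                     the chart, are separated by a chart element (separation at level `e - 1`
                     from `sheet` + `dvr` + `ne`).
* `incidence_fam`  : INCIDENCE at level `e` from INCIDENCE at level `e - 1`:
                     "two components through a closed point ⟹ all components".
                     Inputs: tables `τα`, `τβ` separating any two indices, one radicial index
                     for `α` and one for `β`, cover, integrality.
* `unique_fam`     : a closed point on the radicial component is the only closed point over its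
                     image (field `unique_γ`), with the radicial congruence taken from `nr`.

In the conventions of the CAR3 board (`i : Fin (e+1)`, `α : i ↦ i-1, 0 ↦ 0`,
`β : i ↦ i, e ↦ e-1`): radicial index of `α` is `i = e`, of `β` is `i = 0`;
`τα i₁ = τα i₂` only for `{0,1}`, `τβ i₁ = τβ i₂` only for `{e-1,e}`, so the tables separate
any two indices as soon as `e ≥ 2`.
-/

set_option autoImplicit false
set_option linter.style.haveILetI false
set_option linter.unusedSectionVars false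
set_option linter.unusedVariables false

noncomputable section

namespace Fermat.Agent.S45.H323

open Polynomial
open Fermat.Agent.S18.H138 (chart)
open Fermat.Agent.S36.Eng
open Fermat.Agent.S36.Mod3.H323

/-! ## Separation at the lower level -/

section Sep

variable {R F : Type*} [CommRing R] [Field F] [Algebra R F]

/-- **Separation.**  `Vk` a DVR (Krull dimension `≤ 1`) which is a localisation of `B`,
`Vj ≠ Vk` a valuation ring containing `B`, `Vj ≠ ⊤`.  Then some element of `B` vanishes on `Vj`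
and not on `Vk`. -/
theorem sep_of_loc (B : Subalgebra R F) (Vj Vk : ValuationSubring F)
    [Ring.KrullDimLE 1 Vk]
    (hloc : ∀ z ∈ Vk, ∃ a s : B, (s : F) ∉ Vk.nonunits ∧ z = a * (s : F)⁻¹)
    (hBj : ∀ b ∈ B, b ∈ Vj) (hj : Vj ≠ ⊤) (hne : Vj ≠ Vk) :
    ∃ b ∈ B, b ∈ Vj.nonunits ∧ b ∉ Vk.nonunits := by
  by_contra hcon
  have hall : ∀ b ∈ B, b ∈ Vj.nonunits → b ∈ Vk.nonunits := by
    intro b hb hbj
    by_contra hbk
    exact hcon ⟨b, hb, hbj, hbk⟩
  have hle : Vk ≤ Vj := by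
    intro z hz
    obtain ⟨a, s, hs, rfl⟩ := hloc z hz
    have hsj : (s : F) ∉ Vj.nonunits := fun h => hs (hall _ s.2 h)
    have hs0 : (s : F) ≠ 0 := fun h => hsj (h ▸ zero_mem_nonunits_h323 Vj)
    have hinv : (s : F)⁻¹ ∈ Vj := by
      by_contra h
      exact hsj ((mem_nonunits_iff_h323 Vj hs0).2 h)
    exact Vj.mul_mem _ _ (hBj _ a.2) hinv
  exact hne (ValuationSubring.eq_of_le_of_ne_top Vk hle hj).symm

end Sep

/-! ## Incidence and uniqueness -/

section Fields

variable {R E F F' : Type*} [CommRing R] [Field E] [Algebra R E]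
  [Field F] [Algebra E F] [Algebra R F] [IsScalarTower R E F]
  [Field F'] [Algebra E F'] [Algebra R F'] [IsScalarTower R E F']

/-- **`unique_γ`, family form**: a closed point of the finite chart on the radicial component
`V r` (in particular a point on ALL components) is the only closed point over its image. -/
theorem unique_fam {ι ι' : Type*} [Finite ι] (w : R) (q : ℕ) (hq : 0 < q) (γ : F' →ₐ[E] F)
    (x : F) (x' : F') (V : ι → ValuationSubring F) (V' : ι' → ValuationSubring F')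
    (τ : ι → ι') (r : ι)
    (hBV : ∀ i, ∀ b ∈ chart R ({x} : Set F), b ∈ V i)
    (hpow : ∀ i, ∃ n : ℕ, ∀ f ∈ (V i).nonunits, f ^ n * (algebraMap R F w)⁻¹ ∈ V i)
    (qep : ∀ b : chart R ({x} : Set F), (∀ i, (b : F) * (algebraMap R F w)⁻¹ ∈ V i) →
      ∃ c : chart R ({x} : Set F), b = algebraMap R (chart R ({x} : Set F)) w * c)
    (comap : ∀ i, (V i).comap (γ : F' →+* F) = V' (τ i))
    (hτ : ∀ i, τ i = τ r → i = r)
    (sep' : ∀ i, τ i ≠ τ r → ∃ b' ∈ chart R ({x'} : Set F'),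
      b' ∈ (V' (τ i)).nonunits ∧ b' ∉ (V' (τ r)).nonunits)
    (hwr : algebraMap R F w ∈ (V r).nonunits)
    (hint : ∀ b ∈ chart R ({x} : Set F), ∃ p : Polynomial F', p.Monic ∧
      (∀ i, p.coeff i ∈ chart R ({x'} : Set F')) ∧ (p.map (γ : F' →+* F)).eval b = 0)
    (nr : ∀ y : F, UnitAt (V r) y → γ (S29.H395.normAlong γ y) - y ^ q ∈ (V r).nonunits) :
    ∀ (hγ : ∀ b ∈ chart R ({x'} : Set F'), γ b ∈ chart R ({x} : Set F))
      (𝔪 𝔪' : Ideal (chart R ({x} : Set F))), 𝔪.IsMaximal → 𝔪'.IsMaximal →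
      Through _ 𝔪 (V r) →
      (∀ (b' : F') (h : b' ∈ chart R ({x'} : Set F')),
        (⟨γ b', hγ b' h⟩ : chart R ({x} : Set F)) ∈ 𝔪 →
          (⟨γ b', hγ b' h⟩ : chart R ({x} : Set F)) ∈ 𝔪') → 𝔪' = 𝔪 := by
  intro hγ 𝔪 𝔪' h𝔪 h𝔪' hthr H
  exact unique_of_radicial_fam w q hq γ x x' V V' τ r hγ hint (hBV r) comap hτ sep' hwr
    (algHom_algebraMap_h323 γ w)
    (fun Q hQ hw => cover_fam w (chart R ({x} : Set F)) V hBV hpow qep Q hQ hw)
    (rad_of_nr_h323 q hq γ x x' (V r) hint (hBV r) nr) 𝔪 𝔪' h𝔪 h𝔪' hthr H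

/-- **Lifting all components through a point**: if the image of `𝔪` under `γ` lies on all
components of level `e - 1`, then `𝔪` lies on all components of level `e`. -/
theorem through_all_fam {ι ι' : Type*} [Finite ι] (w : R) (q : ℕ) (hq : 0 < q)
    (γ : F' →ₐ[E] F)
    (x : F) (x' : F') (V : ι → ValuationSubring F) (V' : ι' → ValuationSubring F')
    (τ : ι → ι') (r : ι)
    (hBV : ∀ i, ∀ b ∈ chart R ({x} : Set F), b ∈ V i)
    (hpow : ∀ i, ∃ n : ℕ, ∀ f ∈ (V i).nonunits, f ^ n * (algebraMap R F w)⁻¹ ∈ V i)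
    (qep : ∀ b : chart R ({x} : Set F), (∀ i, (b : F) * (algebraMap R F w)⁻¹ ∈ V i) →
      ∃ c : chart R ({x} : Set F), b = algebraMap R (chart R ({x} : Set F)) w * c)
    (comap : ∀ i, (V i).comap (γ : F' →+* F) = V' (τ i))
    (hτ : ∀ i, τ i = τ r → i = r)
    (sep' : ∀ i, τ i ≠ τ r → ∃ b' ∈ chart R ({x'} : Set F'),
      b' ∈ (V' (τ i)).nonunits ∧ b' ∉ (V' (τ r)).nonunits)
    (hwr : algebraMap R F w ∈ (V r).nonunits)
    (hγ : ∀ b ∈ chart R ({x'} : Set F'), γ b ∈ chart R ({x} : Set F))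
    (hint : ∀ b ∈ chart R ({x} : Set F), ∃ p : Polynomial F', p.Monic ∧
      (∀ i, p.coeff i ∈ chart R ({x'} : Set F')) ∧ (p.map (γ : F' →+* F)).eval b = 0)
    (nr : ∀ y : F, UnitAt (V r) y → γ (S29.H395.normAlong γ y) - y ^ q ∈ (V r).nonunits)
    (𝔪 : Ideal (chart R ({x} : Set F))) (h𝔪 : 𝔪.IsMaximal)
    (hbelow : ∀ i, Through _ (𝔪.comap (chartHom_h323 γ x x' hγ)) (V' (τ i))) :
    ∀ i, Through _ 𝔪 (V i) := fun i =>
  through_of_below_fam w q hq γ x x' V V' τ r hγ hint hBV comap hτ sep' hwr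
    (algHom_algebraMap_h323 γ w)
    (fun Q hQ hw => cover_fam w (chart R ({x} : Set F)) V hBV hpow qep Q hQ hw)
    (rad_of_nr_h323 q hq γ x x' (V r) hint (hBV r) nr) 𝔪 h𝔪 (hbelow r) i (hbelow i)

/-- **INCIDENCE at level `e` from INCIDENCE at level `e - 1`** (finite chart): a closed point on
two components lies on all components.  `rα`, `rβ` are radicial indices for `α`, `β`; the tables
`τα`, `τβ` separate any two indices. -/
theorem incidence_fam {ι ι' : Type*} [Finite ι] (w : R) (q : ℕ) (hq : 0 < q)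
    (α β : F' →ₐ[E] F)
    (x : F) (x' : F') (V : ι → ValuationSubring F) (V' : ι' → ValuationSubring F')
    (τα τβ : ι → ι') (rα rβ : ι)
    (hBV : ∀ i, ∀ b ∈ chart R ({x} : Set F), b ∈ V i)
    (hpow : ∀ i, ∃ n : ℕ, ∀ f ∈ (V i).nonunits, f ^ n * (algebraMap R F w)⁻¹ ∈ V i)
    (qep : ∀ b : chart R ({x} : Set F), (∀ i, (b : F) * (algebraMap R F w)⁻¹ ∈ V i) →
      ∃ c : chart R ({x} : Set F), b = algebraMap R (chart R ({x} : Set F)) w * c)
    (hw : ∀ i, algebraMap R F w ∈ (V i).nonunits)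
    (comap_α : ∀ i, (V i).comap (α : F' →+* F) = V' (τα i))
    (comap_β : ∀ i, (V i).comap (β : F' →+* F) = V' (τβ i))
    (hτα : ∀ i, τα i = τα rα → i = rα)
    (hτβ : ∀ i, τβ i = τβ rβ → i = rβ)
    (hτ : ∀ i₁ i₂, i₁ ≠ i₂ → τα i₁ ≠ τα i₂ ∨ τβ i₁ ≠ τβ i₂)
    (sepα : ∀ i, τα i ≠ τα rα → ∃ b' ∈ chart R ({x'} : Set F'),
      b' ∈ (V' (τα i)).nonunits ∧ b' ∉ (V' (τα rα)).nonunits)
    (sepβ : ∀ i, τβ i ≠ τβ rβ → ∃ b' ∈ chart R ({x'} : Set F'),
      b' ∈ (V' (τβ i)).nonunits ∧ b' ∉ (V' (τβ rβ)).nonunits)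
    (chart_α : ∀ b ∈ chart R ({x'} : Set F'), α b ∈ chart R ({x} : Set F))
    (chart_β : ∀ b ∈ chart R ({x'} : Set F'), β b ∈ chart R ({x} : Set F))
    (int_α : ∀ b ∈ chart R ({x} : Set F), ∃ p : Polynomial F', p.Monic ∧
      (∀ i, p.coeff i ∈ chart R ({x'} : Set F')) ∧ (p.map (α : F' →+* F)).eval b = 0)
    (int_β : ∀ b ∈ chart R ({x} : Set F), ∃ p : Polynomial F', p.Monic ∧
      (∀ i, p.coeff i ∈ chart R ({x'} : Set F')) ∧ (p.map (β : F' →+* F)).eval b = 0)
    (nr_α : ∀ y : F, UnitAt (V rα) y →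
      α (S29.H395.normAlong α y) - y ^ q ∈ (V rα).nonunits)
    (nr_β : ∀ y : F, UnitAt (V rβ) y →
      β (S29.H395.normAlong β y) - y ^ q ∈ (V rβ).nonunits)
    (incα : ∀ 𝔫 : Ideal (chart R ({x'} : Set F')), 𝔫.IsMaximal → ∀ i₁ i₂, τα i₁ ≠ τα i₂ →
      Through _ 𝔫 (V' (τα i₁)) → Through _ 𝔫 (V' (τα i₂)) → ∀ i, Through _ 𝔫 (V' (τα i)))
    (incβ : ∀ 𝔫 : Ideal (chart R ({x'} : Set F')), 𝔫.IsMaximal → ∀ i₁ i₂, τβ i₁ ≠ τβ i₂ →
      Through _ 𝔫 (V' (τβ i₁)) → Through _ 𝔫 (V' (τβ i₂)) → ∀ i, Through _ 𝔫 (V' (τβ i))) :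
    ∀ 𝔪 : Ideal (chart R ({x} : Set F)), 𝔪.IsMaximal → ∀ i₁ i₂, i₁ ≠ i₂ →
      Through _ 𝔪 (V i₁) → Through _ 𝔪 (V i₂) → ∀ i, Through _ 𝔪 (V i) := by
  intro 𝔪 h𝔪 i₁ i₂ h12 h1 h2
  rcases hτ i₁ i₂ h12 with h | h
  · have hmax : (𝔪.comap (chartHom_h323 α x x' chart_α)).IsMaximal :=
      Ideal.isMaximal_comap_of_isIntegral_of_isMaximal' _
        (chartHom_h323_isIntegral α x x' chart_α int_α) 𝔪
    have hbelow := incα _ hmax i₁ i₂ h
      (through_comap α x x' chart_α (comap_α i₁) 𝔪 h1)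
      (through_comap α x x' chart_α (comap_α i₂) 𝔪 h2)
    exact through_all_fam w q hq α x x' V V' τα rα hBV hpow qep comap_α hτα
      sepα (hw rα) chart_α int_α nr_α 𝔪 h𝔪 hbelow
  · have hmax : (𝔪.comap (chartHom_h323 β x x' chart_β)).IsMaximal :=
      Ideal.isMaximal_comap_of_isIntegral_of_isMaximal' _
        (chartHom_h323_isIntegral β x x' chart_β int_β) 𝔪
    have hbelow := incβ _ hmax i₁ i₂ h
      (through_comap β x x' chart_β (comap_β i₁) 𝔪 h1)
      (through_comap β x x' chart_β (comap_β i₂) 𝔪 h2)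
    exact through_all_fam w q hq β x x' V V' τβ rβ hBV hpow qep comap_β hτβ
      sepβ (hw rβ) chart_β int_β nr_β 𝔪 h𝔪 hbelow

end Fields

/-! ## The tables of the CAR3 board -/

section Tables

/-- `α`-table of the board: `i ↦ i - 1` (`i ≥ 1`), `0 ↦ 0`, as a map `Fin (e+2) → Fin (e+1)`
(level `e + 1` over level `e`). -/
def tauAlpha (e : ℕ) (i : Fin (e + 2)) : Fin (e + 1) :=
  ⟨(i : ℕ) - 1, by have := i.2; omega⟩

/-- `β`-table of the board: `i ↦ i` (`i ≤ e`), `e + 1 ↦ e`. -/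
def tauBeta (e : ℕ) (i : Fin (e + 2)) : Fin (e + 1) :=
  ⟨min (i : ℕ) e, by omega⟩

/-- The last index is the only index over its `α`-image (as soon as `e ≥ 1`). -/
theorem tauAlpha_last (e : ℕ) (he : 1 ≤ e) (i : Fin (e + 2))
    (h : tauAlpha e i = tauAlpha e (Fin.last (e + 1))) : i = Fin.last (e + 1) := by
  have h1 := congrArg Fin.val h
  simp only [tauAlpha, Fin.val_last] at h1
  apply Fin.ext
  rw [Fin.val_last]
  have := i.2
  omega

/-- The index `0` is the only index over its `β`-image (as soon as `e ≥ 1`). -/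
theorem tauBeta_zero (e : ℕ) (he : 1 ≤ e) (i : Fin (e + 2))
    (h : tauBeta e i = tauBeta e 0) : i = 0 := by
  have h1 := congrArg Fin.val h
  simp only [tauBeta, Fin.val_zero] at h1
  apply Fin.ext
  rw [Fin.val_zero]
  have := i.2
  omega

/-- The two tables separate any two indices (as soon as `e ≥ 1`). -/
theorem tau_sep (e : ℕ) (he : 1 ≤ e) (i₁ i₂ : Fin (e + 2)) (h : i₁ ≠ i₂) :
    tauAlpha e i₁ ≠ tauAlpha e i₂ ∨ tauBeta e i₁ ≠ tauBeta e i₂ := by
  by_contra hcon
  have ha : tauAlpha e i₁ = tauAlpha e i₂ := by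
    by_contra h'
    exact hcon (Or.inl h')
  have hb : tauBeta e i₁ = tauBeta e i₂ := by
    by_contra h'
    exact hcon (Or.inr h')
  have h1 := congrArg Fin.val ha
  have h2 := congrArg Fin.val hb
  simp only [tauAlpha, tauBeta] at h1 h2
  apply h
  apply Fin.ext
  have := i₁.2
  have := i₂.2
  omega

end Tables

end Fermat.Agent.S45.H323

end

end
-- ===== PACK-END S45/H323/FamInc.lean

-- ===== PACK-BEGIN S45/ModE/H323/IncUniq.lean
section







/-!
# S45 / CAR3 / MOD-E — leaves INC-E (field `incidence`) and UNIQ-E (helper323)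

Against `S45/ModE/Spec.lean` (helper928).  Upper level of exponent `e = n + 1`, lower level of
exponent `n ≥ 2` with its `LevelCtx` (induction hypothesis).

* `leafUniqE_of   : LeafValE → LeafSheetE → LeafQepE → LeafTableE → LeafChartE → LeafGoodE →
                     LeafUniqE`                                 (UNCONDITIONAL on the lower level)
* `leafIncFE_of   : (the same six leaves) → LeafIncFE`          (field `incidence` of `PartIncE`)
* `leafIncE_of    : (the same six leaves) → LeafCuspE → LeafIncE`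
  where `LeafCuspE` is the other field (`cusp_single`) of `PartIncE` as a leaf `Prop`.

Route (as `S36/Mod3/H323`, indexed): cover `∏ p_i ^ mu_i ⊆ w B` from QEP + `ram`; going-down /
going-up for the integral extension `γ B' ⊆ B`; radicial congruence on the component `V (n+1)`
(`α`) resp. `V 0` (`β`) from `GoodAlong` + integrality of norms; separation of the components of
the lower level from `sheet` (centres of sheets are minimal primes over `w`, helper193); incidence
of the lower level (`LevelCtx.inc`).  The tables `α : i ↦ i - 1`, `β : i ↦ min i n` separate any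
two indices.

No `sorry`; std axioms.
-/

set_option autoImplicit false
set_option linter.style.haveILetI false
set_option linter.unusedSectionVars false
set_option linter.unusedVariables false
set_option synthInstance.maxHeartbeats 400000
set_option maxHeartbeats 1600000

noncomputable section

namespace Fermat.Agent.S45.ModE.H323

open Polynomial ModularCurve AlgebraicCurve
open Fermat.Agent.S18.H138 (chart baseField)
open Fermat.Agent.S36 Fermat.Agent.S36.Eng
open Fermat.Agent.S36.Mod3.H323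
open Fermat.Agent.S45.H323
open Fermat.Agent.S45.ModE

/-! ## Generic lemmas -/

section Gen

variable {R E F F' : Type*} [CommRing R] [Field E] [Algebra R E]
  [Field F] [Algebra E F] [Algebra R F] [Field F'] [Algebra E F'] [Algebra R F']

/-- `GoodAlong` gives the radicial congruence `φ (N y) ≡ y ^ q` on units. -/
theorem nr_of_good {q : ℕ} {φ : F' →ₐ[E] F} {V : ValuationSubring F}
    (h : GoodAlong q φ V) :
    ∀ y : F, UnitAt V y → φ (S29.H395.normAlong φ y) - y ^ q ∈ V.nonunits := by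
  intro y hy
  have hy0 : y ≠ 0 := hy.1
  have hu := h y hy0
  set c : F := φ (S29.H395.normAlong φ y) with hc
  have hc0 : c ≠ 0 := by
    intro h0
    rw [h0, inv_zero, mul_zero, zero_sub] at hu
    rw [ValuationSubring.mem_nonunits_iff, Valuation.map_neg, map_one] at hu
    exact lt_irrefl _ hu
  have hvy : V.valuation y = 1 := by
    have h1 : V.valuation y ≤ 1 := (V.valuation_le_one_iff y).2 hy.2.1
    have h2 : V.valuation y⁻¹ ≤ 1 := (V.valuation_le_one_iff _).2 hy.2.2
    rw [map_inv₀] at h2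
    have hpos : 0 < V.valuation y := zero_lt_iff.mpr ((map_ne_zero V.valuation).mpr hy0)
    have h3 : 1 ≤ V.valuation y := (inv_le_one₀ hpos).mp h2
    exact le_antisymm h1 h3
  rw [ValuationSubring.mem_nonunits_iff] at hu ⊢
  have ha : V.valuation (y ^ q * c⁻¹) = 1 := by
    have := Valuation.map_one_add_of_lt (v := V.valuation) hu
    rwa [add_sub_cancel] at this
  have hvc : V.valuation c = 1 := by
    rw [map_mul, map_pow, hvy, one_pow, one_mul, map_inv₀, inv_eq_one] at ha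
    exact ha
  have e : c - y ^ q = -((y ^ q * c⁻¹ - 1) * c) := by
    field_simp
    ring
  rw [e, Valuation.map_neg, map_mul, hvc, mul_one]
  exact hu

theorem mu_pos (q e i : ℕ) (hq : 0 < q) : 0 < mu q e i :=
  Nat.totient_pos.2 (pow_pos hq _)

/-- `w` is a nonunit of every component. -/
theorem w_nonunit_of_ram' {V : ValuationSubring F} {W t : F} {μ : ℕ} (hμ : 0 < μ)
    (ht : UnifAt V t) (hu : UnitAt V (W * (t ^ μ)⁻¹)) : W ∈ V.nonunits := by
  have ht0 : t ≠ 0 := ht.1
  have e : W = (W * (t ^ μ)⁻¹) * t ^ μ := by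
    have ht1 : t ^ μ ≠ 0 := pow_ne_zero _ ht0
    field_simp
  rw [e]
  have h1 : t ^ μ ∈ V.nonunits := pow_mem_nonunits_h323 V ht.2.1 hμ
  rw [ValuationSubring.mem_nonunits_iff] at h1 ⊢
  rw [map_mul]
  have h2 : V.valuation (W * (t ^ μ)⁻¹) ≤ 1 := (V.valuation_le_one_iff _).2 hu.2.1
  calc V.valuation (W * (t ^ μ)⁻¹) * V.valuation (t ^ μ)
      ≤ 1 * V.valuation (t ^ μ) := mul_le_mul_left h2 _
    _ = V.valuation (t ^ μ) := one_mul _
    _ < 1 := h1

end Gen

section GenFields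

variable {R E F F' : Type*} [CommRing R] [Field E] [Algebra R E]
  [Field F] [Algebra E F] [Algebra R F] [IsScalarTower R E F]
  [Field F'] [Algebra E F'] [Algebra R F'] [IsScalarTower R E F']

variable (w : R) (q n : ℕ) (α β : F' →ₐ[E] F) (x : F) (x' : F')
  (V : ℕ → ValuationSubring F) (V' : ℕ → ValuationSubring F')

/-- The uniform form of the `α`-table. -/
theorem comap_alpha_all (table : PartTableE n α β V V') :
    ∀ i ≤ n + 1, (V i).comap (α : F' →+* F) = V' (i - 1) := by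
  intro i hi
  rcases Nat.eq_zero_or_pos i with h0 | h0
  · subst h0
    exact table.comap_α₀
  · exact table.comap_α i h0 hi

/-- The uniform form of the `β`-table. -/
theorem comap_beta_all (table : PartTableE n α β V V') :
    ∀ i ≤ n + 1, (V i).comap (β : F' →+* F) = V' (min i n) := by
  intro i hi
  rcases Nat.lt_or_ge n i with h | h
  · have hin : i = n + 1 := by omega
    subst hin
    rw [Nat.min_eq_right (Nat.le_succ n)]
    exact table.comap_βₑ
  · rw [Nat.min_eq_left h]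
    exact table.comap_β i h

/-- **PartUniqE** (generic). -/
theorem partUniqE_of (hn : 1 ≤ n) (hq : 0 < q)
    (val : PartValE w q (n + 1) x V) (sheet : PartSheetE w (n + 1) x V)
    (qep : PartQepE w (n + 1) x V) (table : PartTableE n α β V V')
    (chart' : PartChartE R n α β x x' V) (good : PartGoodE q n α β V)
    (sep' : ∀ j ≤ n, ∀ k ≤ n, j ≠ k → ∃ b' ∈ chart R ({x'} : Set F'),
      b' ∈ (V' j).nonunits ∧ b' ∉ (V' k).nonunits) :
    PartUniqE R n α β x x' V := by
  have hi : ∀ i : Fin (n + 2), (i : ℕ) ≤ n + 1 := fun i => Nat.lt_succ_iff.mp i.2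
  have hBV : ∀ i : Fin (n + 2), ∀ b ∈ chart R ({x} : Set F), b ∈ V (i : ℕ) := fun i b hb =>
    chart_le_h323 (V i) (sheet.base i (hi i)) (val.x_unit i (hi i)).2.1 hb
  have hpow : ∀ i : Fin (n + 2), ∃ m : ℕ, ∀ f ∈ (V (i : ℕ)).nonunits,
      f ^ m * (algebraMap R F w)⁻¹ ∈ V (i : ℕ) := fun i => by
    obtain ⟨t, ht, hu⟩ := val.ram i (hi i)
    exact ⟨mu q (n + 1) i, pow_of_unif ht hu⟩
  have hqep : ∀ b : chart R ({x} : Set F),
      (∀ i : Fin (n + 2), (b : F) * (algebraMap R F w)⁻¹ ∈ V (i : ℕ)) →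
      ∃ c : chart R ({x} : Set F), b = algebraMap R (chart R ({x} : Set F)) w * c :=
    fun b h => qep.qep_f b (fun i hie => h ⟨i, Nat.lt_succ_iff.mpr hie⟩)
  have hw : ∀ i : Fin (n + 2), algebraMap R F w ∈ (V (i : ℕ)).nonunits := fun i => by
    obtain ⟨t, ht, hu⟩ := val.ram i (hi i)
    exact w_nonunit_of_ram' (mu_pos q (n + 1) i hq) ht hu
  constructor
  · intro hα 𝔪 𝔪' h𝔪 h𝔪' hmulti H
    refine unique_fam (ι := Fin (n + 2)) (ι' := ℕ) w q hq α x x' (fun i => V (i : ℕ)) V'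
      (fun i => (i : ℕ) - 1) (Fin.last (n + 1)) hBV hpow hqep
      (fun i => comap_alpha_all n α β V V' table i (hi i)) (fun i h => ?_) (fun i h => ?_)
      (hw _) chart'.int_α
      (nr_of_good (good.good_α (n + 1) (by omega) le_rfl)) hα 𝔪 𝔪' h𝔪 h𝔪'
      (hmulti (n + 1) le_rfl) H
    · apply Fin.ext
      have h1 : (i : ℕ) - 1 = ((Fin.last (n + 1) : Fin (n + 2)) : ℕ) - 1 := h
      rw [Fin.val_last] at h1 ⊢
      have := hi i
      omega
    · have h1 : (i : ℕ) - 1 ≠ ((Fin.last (n + 1) : Fin (n + 2)) : ℕ) - 1 := h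
      rw [Fin.val_last] at h1
      have := hi i
      have h2 := sep' ((i : ℕ) - 1) (by omega) (n + 1 - 1) (by omega) h1
      simpa [Fin.val_last] using h2
  · intro hβ 𝔪 𝔪' h𝔪 h𝔪' hmulti H
    refine unique_fam (ι := Fin (n + 2)) (ι' := ℕ) w q hq β x x' (fun i => V (i : ℕ)) V'
      (fun i => min (i : ℕ) n) 0 hBV hpow hqep
      (fun i => comap_beta_all n α β V V' table i (hi i)) (fun i h => ?_) (fun i h => ?_)
      (hw _) chart'.int_β
      (nr_of_good (good.good_β 0 (by omega))) hβ 𝔪 𝔪' h𝔪 h𝔪'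
      (hmulti 0 (Nat.zero_le _)) H
    · apply Fin.ext
      have h1 : min (i : ℕ) n = min ((0 : Fin (n + 2)) : ℕ) n := h
      rw [Fin.val_zero] at h1 ⊢
      have := hi i
      omega
    · have h1 : min (i : ℕ) n ≠ min ((0 : Fin (n + 2)) : ℕ) n := h
      rw [Fin.val_zero] at h1
      have h0 : min 0 n = 0 := Nat.zero_min _
      have h2 := sep' (min (i : ℕ) n) (Nat.min_le_right _ _) 0 (Nat.zero_le _)
        (by rw [h0] at h1; exact h1)
      simpa [Fin.val_zero, h0] using h2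

/-- **The field `incidence` of `PartIncE`** (generic) from the incidence of the lower level. -/
theorem incidence_of (hn : 1 ≤ n) (hq : 0 < q)
    (val : PartValE w q (n + 1) x V) (sheet : PartSheetE w (n + 1) x V)
    (qep : PartQepE w (n + 1) x V) (table : PartTableE n α β V V')
    (chart' : PartChartE R n α β x x' V) (good : PartGoodE q n α β V)
    (sep' : ∀ j ≤ n, ∀ k ≤ n, j ≠ k → ∃ b' ∈ chart R ({x'} : Set F'),
      b' ∈ (V' j).nonunits ∧ b' ∉ (V' k).nonunits)
    (inc' : ∀ 𝔫 : Ideal (chart R ({x'} : Set F')), 𝔫.IsMaximal →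
      ∀ j ≤ n, ∀ k ≤ n, j ≠ k → Through _ 𝔫 (V' j) → Through _ 𝔫 (V' k) → IsMulti _ 𝔫 n V') :
    ∀ 𝔪 : Ideal (chart R ({x} : Set F)), 𝔪.IsMaximal →
      ∀ i ≤ n + 1, ∀ k ≤ n + 1, i ≠ k → Through _ 𝔪 (V i) → Through _ 𝔪 (V k) →
      IsMulti _ 𝔪 (n + 1) V := by
  intro 𝔪 h𝔪 i₁ hi₁ i₂ hi₂ h12 h1 h2 i hie
  have hi : ∀ i : Fin (n + 2), (i : ℕ) ≤ n + 1 := fun i => Nat.lt_succ_iff.mp i.2
  have hBV : ∀ i : Fin (n + 2), ∀ b ∈ chart R ({x} : Set F), b ∈ V (i : ℕ) := fun i b hb =>
    chart_le_h323 (V i) (sheet.base i (hi i)) (val.x_unit i (hi i)).2.1 hb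
  have hpow : ∀ i : Fin (n + 2), ∃ m : ℕ, ∀ f ∈ (V (i : ℕ)).nonunits,
      f ^ m * (algebraMap R F w)⁻¹ ∈ V (i : ℕ) := fun i => by
    obtain ⟨t, ht, hu⟩ := val.ram i (hi i)
    exact ⟨mu q (n + 1) i, pow_of_unif ht hu⟩
  have hqep : ∀ b : chart R ({x} : Set F),
      (∀ i : Fin (n + 2), (b : F) * (algebraMap R F w)⁻¹ ∈ V (i : ℕ)) →
      ∃ c : chart R ({x} : Set F), b = algebraMap R (chart R ({x} : Set F)) w * c :=
    fun b h => qep.qep_f b (fun i hie => h ⟨i, Nat.lt_succ_iff.mpr hie⟩)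
  have hw : ∀ i : Fin (n + 2), algebraMap R F w ∈ (V (i : ℕ)).nonunits := fun i => by
    obtain ⟨t, ht, hu⟩ := val.ram i (hi i)
    exact w_nonunit_of_ram' (mu_pos q (n + 1) i hq) ht hu
  exact incidence_fam (ι := Fin (n + 2)) (ι' := ℕ) w q hq α β x x' (fun i => V (i : ℕ)) V'
    (fun i => (i : ℕ) - 1) (fun i => min (i : ℕ) n) (Fin.last (n + 1)) 0 hBV hpow hqep hw
    (fun i => comap_alpha_all n α β V V' table i (hi i))
    (fun i => comap_beta_all n α β V V' table i (hi i))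
    (fun i h => by
      apply Fin.ext
      have h1 : (i : ℕ) - 1 = ((Fin.last (n + 1) : Fin (n + 2)) : ℕ) - 1 := h
      rw [Fin.val_last] at h1 ⊢
      have := hi i
      omega)
    (fun i h => by
      apply Fin.ext
      have h1 : min (i : ℕ) n = min ((0 : Fin (n + 2)) : ℕ) n := h
      rw [Fin.val_zero] at h1 ⊢
      have := hi i
      omega)
    (fun a b hab => by
      have ha := hi a
      have hb := hi b
      have hne : (a : ℕ) ≠ (b : ℕ) := fun h => hab (Fin.ext h)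
      by_cases h : (a : ℕ) - 1 = (b : ℕ) - 1
      · right
        show min (a : ℕ) n ≠ min (b : ℕ) n
        omega
      · left
        exact h)
    (fun i h => by
      have h1 : (i : ℕ) - 1 ≠ ((Fin.last (n + 1) : Fin (n + 2)) : ℕ) - 1 := h
      rw [Fin.val_last] at h1
      have := hi i
      have h2 := sep' ((i : ℕ) - 1) (by omega) (n + 1 - 1) (by omega) h1
      simpa [Fin.val_last] using h2)
    (fun i h => by
      have h1 : min (i : ℕ) n ≠ min ((0 : Fin (n + 2)) : ℕ) n := h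
      rw [Fin.val_zero] at h1
      have h0 : min 0 n = 0 := Nat.zero_min _
      have h2 := sep' (min (i : ℕ) n) (Nat.min_le_right _ _) 0 (Nat.zero_le _)
        (by rw [h0] at h1; exact h1)
      simpa [Fin.val_zero, h0] using h2)
    chart'.chart_α chart'.chart_β chart'.int_α chart'.int_β
    (nr_of_good (good.good_α (n + 1) (by omega) le_rfl))
    (nr_of_good (good.good_β 0 (by omega)))
    (fun 𝔫 h𝔫 a b hab ha hb c => by
      have hc := hi c
      have ha' := hi a
      have hb' := hi b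
      exact inc' 𝔫 h𝔫 ((a : ℕ) - 1) (by omega) ((b : ℕ) - 1) (by omega) hab ha hb
        ((c : ℕ) - 1) (by omega))
    (fun 𝔫 h𝔫 a b hab ha hb c => by
      exact inc' 𝔫 h𝔫 (min (a : ℕ) n) (Nat.min_le_right _ _) (min (b : ℕ) n)
        (Nat.min_le_right _ _) hab ha hb (min (c : ℕ) n) (Nat.min_le_right _ _))
    𝔪 h𝔪 ⟨i₁, Nat.lt_succ_iff.mpr hi₁⟩ ⟨i₂, Nat.lt_succ_iff.mpr hi₂⟩
    (fun h => h12 (congrArg Fin.val h)) h1 h2 ⟨i, Nat.lt_succ_iff.mpr hie⟩

end GenFields

/-! ## Separation at the lower level -/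

section SepLow

universe u

variable {R : Type u} [CommRing R] [IsDomain R] {Z : Type u} [Field Z] [Algebra R Z]
variable [IsNoetherianRing R] [IsIntegrallyClosed R[X]] [CharZero Z]

/-- Two distinct sheets are separated by an element of the chart. -/
theorem sep_of_sheets (hinjR : Function.Injective (algebraMap R Z)) {w : R} (hw : Prime w)
    {x : Z} (hx : Transcendental R x) [FiniteDimensional (baseField R x) Z]
    {W W' : ValuationSubring Z} (hW : A2.H12.IsSheet w x W) (hW' : A2.H12.IsSheet w x W')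
    (hne : W ≠ W') :
    ∃ b ∈ chart R ({x} : Set Z), b ∈ W.nonunits ∧ b ∉ W'.nonunits := by
  by_contra hcon
  have hle : H193.centreW W (chart R ({x} : Set Z)) (H193.sheet_chart_le hW) ≤
      H193.centreW W' (chart R ({x} : Set Z)) (H193.sheet_chart_le hW') := by
    intro b hb
    rw [H193.mem_centreW] at hb ⊢
    by_contra hb'
    exact hcon ⟨b, b.2, hb, hb'⟩
  have hmin' := H193.centre_mem_minimalPrimes hW'
  have hmin := H193.centre_mem_minimalPrimes hW
  have hge := hmin'.2 hmin.1 hle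
  exact hne (H193.sheet_eq_of_centre_eq hinjR hw hx hW hW' (le_antisymm hle hge))

end SepLow

/-! ## The leaves -/

section Leaves

/-- **CUSP-E**: the field `cusp_single` of `PartIncE`, as a leaf `Prop`. -/
def LeafCuspE : Prop :=
  Leaf fun P E N q _ _ _ n w _ V _ _ =>
    ∀ 𝔪 : Ideal (chart (A2.RE P E) ({(xLev E (N * q) q (n + 1))⁻¹} : Set (A2.Mod.FE E (N * q)))),
      𝔪.IsMaximal →
      algebraMap (A2.RE P E)
        (chart (A2.RE P E) ({(xLev E (N * q) q (n + 1))⁻¹} : Set (A2.Mod.FE E (N * q)))) w ∈ 𝔪 →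
      (⟨(xLev E (N * q) q (n + 1))⁻¹, Fermat.Agent.S18.H138.mem_chart_of_mem rfl⟩ :
        chart (A2.RE P E) ({(xLev E (N * q) q (n + 1))⁻¹} : Set (A2.Mod.FE E (N * q)))) ∈ 𝔪 →
      ∀ i ≤ n + 1, ∀ k ≤ n + 1, i ≠ k → ¬ (Through _ 𝔪 (V i) ∧ Through _ 𝔪 (V k))

/-- **INC-F-E**: the field `incidence` of `PartIncE`, as a leaf `Prop`. -/
def LeafIncFE : Prop :=
  Leaf fun P E N q _ _ _ n _ _ V _ _ =>
    ∀ 𝔪 : Ideal (chart (A2.RE P E) ({xLev E (N * q) q (n + 1)} : Set (A2.Mod.FE E (N * q)))),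
      𝔪.IsMaximal →
      ∀ i ≤ n + 1, ∀ k ≤ n + 1, i ≠ k → Through _ 𝔪 (V i) → Through _ 𝔪 (V k) →
      IsMulti _ 𝔪 (n + 1) V

variable {P : ValuationSubring A2.Qb} {E : IntermediateField ℚ A2.Qb} {N q : ℕ}
  [NeZero N] [NeZero q]

/-- SEPARATION at the lower level, from its `LevelCtx`. -/
theorem sep_low {n : ℕ} {w : A2.RE P E} (hS : StdE P E N q n w)
    {V' : ℕ → ValuationSubring (A2.Mod.FE E N)} {W' : A2.Mod.FE E N ≃ₐ[E] A2.Mod.FE E N}
    (hL : LevelCtx P E N q n w V' W') :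
    ∀ j ≤ n, ∀ k ≤ n, j ≠ k →
      ∃ b' ∈ chart (A2.RE P E) ({xLev E N q n} : Set (A2.Mod.FE E N)),
        b' ∈ (V' j).nonunits ∧ b' ∉ (V' k).nonunits := by
  intro j hj k hk hjk
  haveI : IsDiscreteValuationRing (A2.RE P E) := hS.unram.1.dvr
  haveI := hL.ff.hfin
  haveI : FiniteDimensional (baseField (A2.RE P E) (xLev E N q n)) (A2.Mod.FE E N) :=
    A2.H643.finiteDimensional_baseField_of_adjoin (E := E) _
  have hinj : Function.Injective (algebraMap (A2.RE P E) (A2.Mod.FE E N)) := by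
    intro a b hab
    have h1 : algebraMap E (A2.Mod.FE E N) (a : E) = algebraMap E (A2.Mod.FE E N) (b : E) := hab
    exact Subtype.ext ((algebraMap E (A2.Mod.FE E N)).injective h1)
  have hwp : Prime w := hS.unif.prime
  have htrR : Transcendental (A2.RE P E) (xLev E N q n) :=
    A2.Mod.H13.transcendental_RE hL.ff.hx
  have hq : 0 < q := hS.q_prime.pos
  have hsheet : ∀ i ≤ n, A2.H12.IsSheet w (xLev E N q n) (V' i) := fun i hi => by
    obtain ⟨t, ht, hu⟩ := hL.val.ram i hi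
    exact ⟨hL.sheet.base i hi, (hL.val.x_unit i hi).2.1,
      w_nonunit_of_ram' (mu_pos q n i hq) ht hu, hL.sheet.gauss i hi⟩
  exact sep_of_sheets hinj hwp htrR (hsheet j hj) (hsheet k hk) (hL.val.ne j hj k hk hjk)

variable [NeZero (N * q)]

/-- **UNIQ-E** from VAL-E, SHEET-E, QEP-E, TABLE-E, CHART-E, GOOD-E. -/
theorem leafUniqE_of (hVal : LeafValE) (hSheet : LeafSheetE) (hQep : LeafQepE)
    (hTable : LeafTableE) (hChart : LeafChartE) (hGood : LeafGoodE) : LeafUniqE := by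
  intro P E N q _ _ _ n w hS hn V' V W' W hL hO
  exact partUniqE_of (R := A2.RE P E) w q n (A2.Mod.αE E N q) (A2.Mod.βE E N q)
    (xLev E (N * q) q (n + 1)) (xLev E N q n) V V' (by omega) hS.q_prime.pos
    (hVal P E N q n w hS hn V' V W' W hL hO) (hSheet P E N q n w hS hn V' V W' W hL hO)
    (hQep P E N q n w hS hn V' V W' W hL hO) (hTable P E N q n w hS hn V' V W' W hL hO)
    (hChart P E N q n w hS hn V' V W' W hL hO) (hGood P E N q n w hS hn V' V W' W hL hO)
    (sep_low hS hL)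

/-- **The field `incidence`** from VAL-E, SHEET-E, QEP-E, TABLE-E, CHART-E, GOOD-E and the
incidence of the lower level. -/
theorem leafIncFE_of (hVal : LeafValE) (hSheet : LeafSheetE) (hQep : LeafQepE)
    (hTable : LeafTableE) (hChart : LeafChartE) (hGood : LeafGoodE) : LeafIncFE := by
  intro P E N q _ _ _ n w hS hn V' V W' W hL hO
  exact incidence_of (R := A2.RE P E) w q n (A2.Mod.αE E N q) (A2.Mod.βE E N q)
    (xLev E (N * q) q (n + 1)) (xLev E N q n) V V' (by omega) hS.q_prime.pos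
    (hVal P E N q n w hS hn V' V W' W hL hO) (hSheet P E N q n w hS hn V' V W' W hL hO)
    (hQep P E N q n w hS hn V' V W' W hL hO) (hTable P E N q n w hS hn V' V W' W hL hO)
    (hChart P E N q n w hS hn V' V W' W hL hO) (hGood P E N q n w hS hn V' V W' W hL hO)
    (sep_low hS hL) hL.inc.incidence

/-- **INC-E** from the six leaves and CUSP-E. -/
theorem leafIncE_of (hVal : LeafValE) (hSheet : LeafSheetE) (hQep : LeafQepE)
    (hTable : LeafTableE) (hChart : LeafChartE) (hGood : LeafGoodE) (hCusp : LeafCuspE) :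
    LeafIncE := by
  intro P E N q _ _ _ n w hS hn V' V W' W hL hO
  exact
    { incidence := leafIncFE_of hVal hSheet hQep hTable hChart hGood P E N q n w hS hn V' V W' W
        hL hO
      cusp_single := hCusp P E N q n w hS hn V' V W' W hL hO }

end Leaves

end Fermat.Agent.S45.ModE.H323

end

end
-- ===== PACK-END S45/ModE/H323/IncUniq.lean

-- ===== PACK-BEGIN S45/ModE/H323/CuspE.lean
section





/-!
# S45 / CAR3 / MOD-E — leaf INC-E, field `cusp_single` (helper323)

Against `S45/ModE/Spec.lean` (helper928).  Upper level of exponent `e = n + 1`, lower level of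
exponent `n ≥ 2` with its `LevelCtx` (induction hypothesis: `cusp_single` of the lower level).

* `cusp_single_step` (generic): with `u l = (J l)⁻¹ ∈ Bi = chart R {x⁻¹}`, `x⁻¹ = ∏_{l ≤ n+1} u l`,
  `α x'⁻¹ = ∏_{l ≤ n} u l`, `β x'⁻¹ = ∏_{l ≤ n} u (l+1)`:  a closed point `𝔪` of `Bi` with
  `x⁻¹ ∈ 𝔪` on a component `V i` contains ALL `u l` (Kronecker on `V i`), so its images under
  `α` and `β` are cusps of the lower level; two components `V i ≠ V k` through `𝔪` are separated by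
  one of the two tables, which contradicts `cusp_single` of the lower level.
* `LeafJInvE` : the chart at infinity contains the `(J l)⁻¹` (leaf `Prop`; true by the valuation
  criterion + the modular equation, cf. `A2.H408`, `A2.Mod.H873.chartCompat`).
* `leafCuspE_of : LeafValE → LeafSheetE → LeafTableE → LeafKronE → LeafJInvE → LeafCuspE`.
* `leafIncE_of' : … → LeafIncE` (both fields).

No `sorry`; std axioms.
-/

set_option autoImplicit false
set_option linter.style.haveILetI false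
set_option linter.unusedSectionVars false
set_option linter.unusedVariables false
set_option synthInstance.maxHeartbeats 400000
set_option maxHeartbeats 1600000

noncomputable section

namespace Fermat.Agent.S45.ModE.H323

open Polynomial ModularCurve AlgebraicCurve
open Fermat.Agent.S18.H138 (chart baseField)
open Fermat.Agent.S36 Fermat.Agent.S36.Eng
open Fermat.Agent.S36.Mod3.H323
open Fermat.Agent.S45.H323
open Fermat.Agent.S45.ModE

/-! ## Generic step -/

section Gen

variable {R E F F' : Type*} [CommRing R] [Field E] [Algebra R E]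
  [Field F] [Algebra E F] [Algebra R F] [IsScalarTower R E F]
  [Field F'] [Algebra E F'] [Algebra R F'] [IsScalarTower R E F']

/-- Kronecker at infinity: `J₂ ≡ J₁ ^ q` on `V` (units) gives `J₂⁻¹ ≡ (J₁⁻¹) ^ q`. -/
theorem inv_congr_of_congr {V : ValuationSubring F} {J₁ J₂ : F} {q : ℕ}
    (h₁ : UnitAt V J₁) (h₂ : UnitAt V J₂) (h : J₂ - J₁ ^ q ∈ V.nonunits) :
    J₂⁻¹ - (J₁⁻¹) ^ q ∈ V.nonunits := by
  have e : J₂⁻¹ - (J₁⁻¹) ^ q = (J₂ - J₁ ^ q) * (-(J₂⁻¹ * (J₁⁻¹) ^ q)) := by
    have h1 := h₁.1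
    have h2 := h₂.1
    have h3 : J₁ ^ q ≠ 0 := pow_ne_zero _ h1
    rw [inv_pow]
    field_simp
    ring
  rw [e]
  have hmem : -(J₂⁻¹ * (J₁⁻¹) ^ q) ∈ V :=
    V.neg_mem _ (V.mul_mem _ _ h₂.2.2 (pow_mem h₁.2.2 _))
  rw [ValuationSubring.mem_nonunits_iff] at h ⊢
  rw [map_mul]
  have h2 : V.valuation (-(J₂⁻¹ * (J₁⁻¹) ^ q)) ≤ 1 := (V.valuation_le_one_iff _).2 hmem
  calc V.valuation (J₂ - J₁ ^ q) * V.valuation (-(J₂⁻¹ * (J₁⁻¹) ^ q))
      ≤ V.valuation (J₂ - J₁ ^ q) * 1 := mul_le_mul_right h2 _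
    _ = V.valuation (J₂ - J₁ ^ q) := mul_one _
    _ < 1 := h

/-- On a prime `𝔪` of `B` through `V`: if `a - b ^ q ∈ 𝔪_V`, then `a ∈ 𝔪 ↔ b ∈ 𝔪`. -/
theorem mem_iff_of_congr (B : Subalgebra R F) (𝔪 : Ideal B) (h𝔪 : 𝔪.IsPrime)
    (V : ValuationSubring F) (hthr : Through B 𝔪 V) {q : ℕ} (hq : 0 < q) (a b : B)
    (h : (a : F) - (b : F) ^ q ∈ V.nonunits) : a ∈ 𝔪 ↔ b ∈ 𝔪 := by
  have hmem : a - b ^ q ∈ 𝔪 := hthr _ (by push_cast; exact h)
  constructor
  · intro ha
    have h1 : b ^ q ∈ 𝔪 := by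
      have := 𝔪.sub_mem ha hmem
      simpa using this
    exact h𝔪.mem_of_pow_mem q h1
  · intro hb
    have h1 : b ^ q ∈ 𝔪 := 𝔪.pow_mem_of_mem hb q hq
    have := 𝔪.add_mem hmem h1
    simpa using this

variable (w : R) (q n : ℕ) (α β : F' →ₐ[E] F) (y : F) (y' : F')
  (V : ℕ → ValuationSubring F) (V' : ℕ → ValuationSubring F') (J : ℕ → F)

/-- **The step for `cusp_single`** (generic).  `y = x⁻¹`, `y' = x'⁻¹`. -/
theorem cusp_single_step (hn : 1 ≤ n) (hq : 0 < q)
    (hBV : ∀ i ≤ n + 1, ∀ b ∈ chart R ({y} : Set F), b ∈ V i)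
    (table : PartTableE n α β V V')
    (kron : PartKronE q (n + 1) J V)
    (hJ : ∀ l ≤ n + 1, (J l)⁻¹ ∈ chart R ({y} : Set F))
    (hy : y = ∏ l ∈ Finset.range (n + 2), (J l)⁻¹)
    (hαy : α y' = ∏ l ∈ Finset.range (n + 1), (J l)⁻¹)
    (hβy : β y' = ∏ l ∈ Finset.range (n + 1), (J (l + 1))⁻¹)
    (cusp' : ∀ 𝔫 : Ideal (chart R ({y'} : Set F')), 𝔫.IsMaximal →
      algebraMap R (chart R ({y'} : Set F')) w ∈ 𝔫 →
      (⟨y', Fermat.Agent.S18.H138.mem_chart_of_mem rfl⟩ : chart R ({y'} : Set F')) ∈ 𝔫 →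
      ∀ j ≤ n, ∀ k ≤ n, j ≠ k → ¬ (Through _ 𝔫 (V' j) ∧ Through _ 𝔫 (V' k))) :
    ∀ 𝔪 : Ideal (chart R ({y} : Set F)), 𝔪.IsMaximal →
      algebraMap R (chart R ({y} : Set F)) w ∈ 𝔪 →
      (⟨y, Fermat.Agent.S18.H138.mem_chart_of_mem rfl⟩ : chart R ({y} : Set F)) ∈ 𝔪 →
      ∀ i ≤ n + 1, ∀ k ≤ n + 1, i ≠ k → ¬ (Through _ 𝔪 (V i) ∧ Through _ 𝔪 (V k)) := by
  classical
  intro 𝔪 h𝔪 hw𝔪 hy𝔪 i hi k hk hik ⟨hti, htk⟩
  haveI h𝔪p : 𝔪.IsPrime := h𝔪.isPrime
  -- the elements `u l = (J l)⁻¹` of the chart at infinity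
  let u : ℕ → (chart R ({y} : Set F)) := fun l => if h : l ≤ n + 1 then ⟨(J l)⁻¹, hJ l h⟩ else 1
  have hu : ∀ l ≤ n + 1, ((u l : (chart R ({y} : Set F))) : F) = (J l)⁻¹ := fun l hl => by
    simp only [u, dif_pos hl]
  -- consecutive `u` are in `𝔪` together
  have hstep : ∀ l, l < n + 1 → (u l ∈ 𝔪 ↔ u (l + 1) ∈ 𝔪) := by
    intro l hl
    have hl1 : l ≤ n + 1 := le_of_lt hl
    have hl2 : l + 1 ≤ n + 1 := hl
    have hU₁ := kron.unit i hi l hl1
    have hU₂ := kron.unit i hi (l + 1) hl2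
    by_cases hc : l < n + 1 - i
    · -- Frobenius step: `J (l+1) ≡ (J l)^q`
      have h1 := inv_congr_of_congr hU₁ hU₂ (kron.frob i hi l hc)
      have := mem_iff_of_congr (chart R ({y} : Set F)) 𝔪 h𝔪p (V i) hti hq (u (l + 1)) (u l)
        (by rw [hu l hl1, hu (l + 1) hl2]; exact h1)
      exact this.symm
    · -- Verschiebung step: `J l ≡ (J (l+1))^q`
      have h1 := inv_congr_of_congr hU₂ hU₁ (kron.ver i hi l (by omega) hl)
      exact mem_iff_of_congr (chart R ({y} : Set F)) 𝔪 h𝔪p (V i) hti hq (u l) (u (l + 1))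
        (by rw [hu l hl1, hu (l + 1) hl2]; exact h1)
  have hall0 : ∀ l, l ≤ n + 1 → (u l ∈ 𝔪 ↔ u 0 ∈ 𝔪) := by
    intro l
    induction l with
    | zero => intro _; exact Iff.rfl
    | succ l ih =>
      intro hl
      exact (hstep l hl).symm.trans (ih (by omega))
  -- `y = ∏ u l`
  have hyprod : (⟨y, Fermat.Agent.S18.H138.mem_chart_of_mem rfl⟩ : (chart R ({y} : Set F))) =
      ∏ l ∈ Finset.range (n + 2), u l := by
    apply Subtype.ext
    show y = ((∏ l ∈ Finset.range (n + 2), u l : chart R ({y} : Set F)) : F)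
    rw [SubmonoidClass.coe_finsetProd]
    refine hy.trans ?_
    refine Finset.prod_congr rfl (fun l hl => ?_)
    rw [Finset.mem_range] at hl
    exact (hu l (by omega)).symm
  have hex : ∃ l ∈ Finset.range (n + 2), u l ∈ 𝔪 := by
    rw [hyprod] at hy𝔪
    exact (Ideal.IsPrime.prod_mem_iff (p := 𝔪)).1 hy𝔪
  obtain ⟨l₀, hl₀, hul₀⟩ := hex
  rw [Finset.mem_range] at hl₀
  have hu0 : u 0 ∈ 𝔪 := (hall0 l₀ (by omega)).1 hul₀
  have hall : ∀ l ≤ n + 1, u l ∈ 𝔪 := fun l hl => (hall0 l hl).2 hu0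
  -- the two chart maps at infinity
  have hαB : ∀ b ∈ chart R ({y'} : Set F'), α b ∈ chart R ({y} : Set F) := by
    refine H153.map_mem_chart_singleton (α : F' →+* F) (fun r => algHom_algebraMap_h323 α r)
      y' _ ?_
    show α y' ∈ (chart R ({y} : Set F))
    rw [hαy]
    exact prod_mem (fun l hl => hJ l (by rw [Finset.mem_range] at hl; omega))
  have hβB : ∀ b ∈ chart R ({y'} : Set F'), β b ∈ chart R ({y} : Set F) := by
    refine H153.map_mem_chart_singleton (β : F' →+* F) (fun r => algHom_algebraMap_h323 β r)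
      y' _ ?_
    show β y' ∈ (chart R ({y} : Set F))
    rw [hβy]
    exact prod_mem (fun l hl => hJ (l + 1) (by rw [Finset.mem_range] at hl; omega))
  -- the images of `y'` are in `𝔪`
  have hαy𝔪 : (⟨α y', hαB y' (Fermat.Agent.S18.H138.mem_chart_of_mem rfl)⟩ : (chart R ({y} : Set F))) ∈ 𝔪 := by
    have e : (⟨α y', hαB y' (Fermat.Agent.S18.H138.mem_chart_of_mem rfl)⟩ : (chart R ({y} : Set F))) =
        ∏ l ∈ Finset.range (n + 1), u l := by
      apply Subtype.ext
      show α y' = ((∏ l ∈ Finset.range (n + 1), u l : chart R ({y} : Set F)) : F)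
      rw [SubmonoidClass.coe_finsetProd]
      refine hαy.trans ?_
      refine Finset.prod_congr rfl (fun l hl => ?_)
      rw [Finset.mem_range] at hl
      exact (hu l (by omega)).symm
    rw [e]
    exact (Ideal.IsPrime.prod_mem_iff (p := 𝔪)).2
      ⟨0, Finset.mem_range.2 (by omega), hu0⟩
  have hβy𝔪 : (⟨β y', hβB y' (Fermat.Agent.S18.H138.mem_chart_of_mem rfl)⟩ : (chart R ({y} : Set F))) ∈ 𝔪 := by
    have e : (⟨β y', hβB y' (Fermat.Agent.S18.H138.mem_chart_of_mem rfl)⟩ : (chart R ({y} : Set F))) =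
        ∏ l ∈ Finset.range (n + 1), u (l + 1) := by
      apply Subtype.ext
      show β y' = ((∏ l ∈ Finset.range (n + 1), u (l + 1) : chart R ({y} : Set F)) : F)
      rw [SubmonoidClass.coe_finsetProd]
      refine hβy.trans ?_
      refine Finset.prod_congr rfl (fun l hl => ?_)
      rw [Finset.mem_range] at hl
      exact (hu (l + 1) (by omega)).symm
    rw [e]
    exact (Ideal.IsPrime.prod_mem_iff (p := 𝔪)).2
      ⟨0, Finset.mem_range.2 (by omega), hall 1 (by omega)⟩
  -- the contradiction below, for one map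
  have below : ∀ (γ : F' →ₐ[E] F) (hγ : ∀ b ∈ chart R ({y'} : Set F'), γ b ∈ chart R ({y} : Set F))
      (τ : ℕ → ℕ), (∀ i ≤ n + 1, τ i ≤ n) →
      (∀ i ≤ n + 1, (V i).comap (γ : F' →+* F) = V' (τ i)) →
      (⟨γ y', hγ y' (Fermat.Agent.S18.H138.mem_chart_of_mem rfl)⟩ : (chart R ({y} : Set F))) ∈ 𝔪 →
      τ i ≠ τ k → False := by
    intro γ hγ τ hτle hcomap hγy hne
    set 𝔫₀ : Ideal (chart R ({y'} : Set F')) := 𝔪.comap (chartHom_h323 γ y y' hγ) with h𝔫₀
    haveI : 𝔫₀.IsPrime := Ideal.comap_isPrime _ 𝔪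
    obtain ⟨𝔫, h𝔫max, h𝔫le⟩ := Ideal.exists_le_maximal 𝔫₀ (Ideal.IsPrime.ne_top ‹_›)
    have hw𝔫 : algebraMap R (chart R ({y'} : Set F')) w ∈ 𝔫 := by
      apply h𝔫le
      rw [h𝔫₀, Ideal.mem_comap]
      have e : chartHom_h323 γ y y' hγ (algebraMap R (chart R ({y'} : Set F')) w) =
          algebraMap R (chart R ({y} : Set F)) w :=
        Subtype.ext (algHom_algebraMap_h323 γ w)
      rw [e]
      exact hw𝔪
    have hy𝔫 : (⟨y', Fermat.Agent.S18.H138.mem_chart_of_mem rfl⟩ :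
        chart R ({y'} : Set F')) ∈ 𝔫 := by
      apply h𝔫le
      rw [h𝔫₀, Ideal.mem_comap]
      exact hγy
    have h1 : Through _ 𝔫 (V' (τ i)) := fun b hb =>
      h𝔫le (through_comap γ y y' hγ (hcomap i hi) 𝔪 hti b hb)
    have h2 : Through _ 𝔫 (V' (τ k)) := fun b hb =>
      h𝔫le (through_comap γ y y' hγ (hcomap k hk) 𝔪 htk b hb)
    exact cusp' 𝔫 h𝔫max hw𝔫 hy𝔫 (τ i) (hτle i hi) (τ k) (hτle k hk) hne ⟨h1, h2⟩
  by_cases hc : i - 1 = k - 1
  · -- separated by `β`
    refine below β hβB (fun i => min i n) (fun i _ => Nat.min_le_right _ _)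
      (comap_beta_all n α β V V' table) hβy𝔪 ?_
    show min i n ≠ min k n
    omega
  · -- separated by `α`
    exact below α hαB (fun i => i - 1) (fun i hi => by omega)
      (comap_alpha_all n α β V V' table) hαy𝔪 hc

end Gen

/-! ## The leaves -/

section Leaves

/-- **J-INV-E** (leaf `Prop`): the chart at infinity of the upper level contains the
`(J l)⁻¹`, `l ≤ n + 1`. -/
def LeafJInvE : Prop :=
  Leaf fun P E N q _ _ _ n _ _ _ _ _ =>
    ∀ l ≤ n + 1, (jLev E (N * q) q l)⁻¹ ∈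
      chart (A2.RE P E) ({(xLev E (N * q) q (n + 1))⁻¹} : Set (A2.Mod.FE E (N * q)))

variable {E : IntermediateField ℚ A2.Qb} {N q : ℕ} [NeZero N] [NeZero q] [NeZero (N * q)]

/-- `α (J' l) = J l` for `q ^ l ∣ N`. -/
theorem alpha_jLev (l : ℕ) (hl : q ^ l ∣ N) :
    A2.Mod.αE E N q (jLev E N q l) = jLev E (N * q) q l := by
  haveI : NeZero (q ^ l) := ⟨pow_ne_zero _ (NeZero.ne q)⟩
  rw [jLev, dif_pos hl, jLev, dif_pos (hl.mul_right q)]
  exact A2.Mod.H372.alpha_jE (q ^ l) hl

/-- `β (J' l) = J (l + 1)` for `q ^ l ∣ N`. -/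
theorem beta_jLev (l : ℕ) (hl : q ^ l ∣ N) :
    A2.Mod.βE E N q (jLev E N q l) = jLev E (N * q) q (l + 1) := by
  haveI : NeZero (q ^ l) := ⟨pow_ne_zero _ (NeZero.ne q)⟩
  haveI : NeZero (q ^ (l + 1)) := ⟨pow_ne_zero _ (NeZero.ne q)⟩
  haveI : NeZero (q ^ l * q) := ⟨mul_ne_zero (pow_ne_zero _ (NeZero.ne q)) (NeZero.ne q)⟩
  have hl' : q ^ (l + 1) ∣ N * q := by
    rw [pow_succ]
    exact mul_dvd_mul_right hl q
  rw [jLev, dif_pos hl, jLev, dif_pos hl']
  rw [A2.Mod.H372.beta_jE (q ^ l) hl]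
  exact A2.Mod.H372.jE_congr (pow_succ q l).symm _ _

/-- **CUSP-E** from VAL-E, SHEET-E, TABLE-E, KRON-E, J-INV-E and `cusp_single` of the lower
level. -/
theorem leafCuspE_of (hVal : LeafValE) (hSheet : LeafSheetE) (hTable : LeafTableE)
    (hKron : LeafKronE) (hJinv : LeafJInvE) : LeafCuspE := by
  intro P E N q _ _ _ n w hS hn V' V W' W hL hO
  have val := hVal P E N q n w hS hn V' V W' W hL hO
  have sheet := hSheet P E N q n w hS hn V' V W' W hL hO
  have table := hTable P E N q n w hS hn V' V W' W hL hO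
  have kron := hKron P E N q n w hS hn V' V W' W hL hO
  have hJ := hJinv P E N q n w hS hn V' V W' W hL hO
  have hqn : ∀ l ≤ n, q ^ l ∣ N := fun l hl => by
    have h1 : q ^ n ∣ N := by
      have := Nat.ordProj_dvd N q
      rwa [hS.exp] at this
    exact (pow_dvd_pow q hl).trans h1
  have hBV : ∀ i ≤ n + 1, ∀ b ∈ chart (A2.RE P E)
      ({(xLev E (N * q) q (n + 1))⁻¹} : Set (A2.Mod.FE E (N * q))), b ∈ V i := fun i hi b hb =>
    chart_le_h323 (V i) (sheet.base i hi) (val.x_unit i hi).2.2 hb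
  refine cusp_single_step (R := A2.RE P E) w q n (A2.Mod.αE E N q) (A2.Mod.βE E N q)
    ((xLev E (N * q) q (n + 1))⁻¹) ((xLev E N q n)⁻¹) V V' (jLev E (N * q) q) (by omega)
    hS.q_prime.pos hBV table kron hJ ?_ ?_ ?_ hL.inc.cusp_single
  · rw [xLev, ← Finset.prod_inv_distrib]
  · rw [map_inv₀, xLev, map_prod, ← Finset.prod_inv_distrib]
    refine Finset.prod_congr rfl (fun l hl => ?_)
    rw [Finset.mem_range] at hl
    rw [alpha_jLev l (hqn l (by omega))]
  · rw [map_inv₀, xLev, map_prod, ← Finset.prod_inv_distrib]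
    refine Finset.prod_congr rfl (fun l hl => ?_)
    rw [Finset.mem_range] at hl
    rw [beta_jLev l (hqn l (by omega))]

/-- **INC-E** (both fields) from VAL-E, SHEET-E, QEP-E, TABLE-E, CHART-E, GOOD-E, KRON-E,
J-INV-E. -/
theorem leafIncE_of' (hVal : LeafValE) (hSheet : LeafSheetE) (hQep : LeafQepE)
    (hTable : LeafTableE) (hChart : LeafChartE) (hGood : LeafGoodE) (hKron : LeafKronE)
    (hJinv : LeafJInvE) : LeafIncE :=
  leafIncE_of hVal hSheet hQep hTable hChart hGood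
    (leafCuspE_of hVal hSheet hTable hKron hJinv)

end Leaves

end Fermat.Agent.S45.ModE.H323

end

end
-- ===== PACK-END S45/ModE/H323/CuspE.lean

-- ===== PACK-BEGIN S45/ModE/H323/JInv.lean
section






/-!
# S45 / CAR3 / MOD-E — the chart at infinity contains the `(J l)⁻¹` (helper323)

`leafJInvE : LeafJInvE` (UNCONDITIONAL): at a level of exponent `e`, with `J l = j_{q^l}` and
`x = J 0 ⋯ J e`, every `(J l)⁻¹`, `l ≤ e`, is integral over `R[x⁻¹]`.

Route: the modular equation `Φ_q(J l, J (l+1)) = 0` (`S28.ModPolyData`, monic in both variables,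
transported by `t ↦ t^(q^l)`) shows that a valuation ring of the function field contains `J l`
iff it contains `J (l+1)`; so a valuation ring containing `x⁻¹` contains all `J l` (then each
`(J l)⁻¹ = x⁻¹ ∏_{k ≠ l} J k`) or none of them; valuation criterion (`A2.H408`).

Also: `leafCuspE`, `leafIncE_of''` with the J-INV hypothesis discharged.

No `sorry`; std axioms.
-/

set_option autoImplicit false
set_option linter.style.haveILetI false
set_option linter.unusedSectionVars false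
set_option linter.unusedVariables false
set_option synthInstance.maxHeartbeats 400000
set_option maxHeartbeats 1600000

noncomputable section

namespace Fermat.Agent.S45.ModE.H323

open Polynomial ModularCurve AlgebraicCurve HahnSeries
open Fermat.Agent.S18.H138 (chart baseField)
open Fermat.Agent.S36 Fermat.Agent.S36.Eng
open Fermat.Agent.S45.ModE

/-! ## Abstract part -/

section Abs

variable {K : Type*} [Field K]

/-- A valuation ring containing `(∏_{l ≤ m} J l)⁻¹` contains every `(J l)⁻¹`, if it contains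
all the `J l` or none of them. -/
theorem inv_mem_of_prod_inv_mem (J : ℕ → K) (m : ℕ) (U : ValuationSubring K)
    (hne : ∀ l ≤ m, J l ≠ 0)
    (hstep : ∀ l, l < m → (J l ∈ U ↔ J (l + 1) ∈ U))
    (hx : (∏ l ∈ Finset.range (m + 1), J l)⁻¹ ∈ U) :
    ∀ l ≤ m, (J l)⁻¹ ∈ U := by
  classical
  have hall0 : ∀ l, l ≤ m → (J l ∈ U ↔ J 0 ∈ U) := by
    intro l
    induction l with
    | zero => intro _; exact Iff.rfl
    | succ l ih =>
      intro hl
      exact (hstep l hl).symm.trans (ih (by omega))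
  intro l hl
  by_cases h0 : J 0 ∈ U
  · have hall : ∀ k ≤ m, J k ∈ U := fun k hk => (hall0 k hk).2 h0
    have hlmem : l ∈ Finset.range (m + 1) := Finset.mem_range.2 (by omega)
    have hP : (∏ k ∈ (Finset.range (m + 1)).erase l, J k) ≠ 0 := by
      rw [Finset.prod_ne_zero_iff]
      intro k hk
      have := Finset.mem_of_mem_erase hk
      rw [Finset.mem_range] at this
      exact hne k (by omega)
    have e : (J l)⁻¹ = (∏ k ∈ (Finset.range (m + 1)).erase l, J k) *
        (∏ k ∈ Finset.range (m + 1), J k)⁻¹ := by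
      rw [← Finset.mul_prod_erase (Finset.range (m + 1)) J hlmem, mul_inv]
      have hJl := hne l hl
      field_simp
    rw [e]
    exact U.mul_mem _ _ (prod_mem (fun k hk => hall k (by
      have := Finset.mem_of_mem_erase hk
      rw [Finset.mem_range] at this
      omega))) hx
  · have hJl : J l ∉ U := fun h => h0 ((hall0 l hl).1 h)
    exact (U.mem_or_inv_mem (J l)).resolve_left hJl

end Abs

/-! ## The modular equation for consecutive `J` -/

section ModEq

variable (E : IntermediateField ℚ A2.Qb) (N q : ℕ) [NeZero N] [NeZero q]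

/-- The modular equation transported by `t ↦ t ^ d`:
`Φ(j(t^d))(j(t^(d q))) = 0` and `Φ(j(t^(d q)))(j(t^d)) = 0` in `ℤ((t))`. -/
theorem modEq_int (D : S28.ModPolyData q) (d : ℕ) [NeZero d] [NeZero (d * q)] :
    D.Φ.eval₂ (S28.evalAt (qExpand ℤ d (jqModC ℤ))) (qExpand ℤ (d * q) (jqModC ℤ)) = 0 ∧
    D.Φ.eval₂ (S28.evalAt (qExpand ℤ (d * q) (jqModC ℤ))) (qExpand ℤ d (jqModC ℤ)) = 0 := by
  have hcomp : ∀ B : LaurentSeries ℤ,
      (qExpand ℤ d).comp (S28.evalAt B) = S28.evalAt (qExpand ℤ d B) := by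
    intro B
    apply Polynomial.ringHom_ext
    · intro n
      simp [S28.evalAt]
    · simp [S28.evalAt]
  constructor
  · have h := Polynomial.hom_eval₂ D.Φ (S28.evalAt (jqModC ℤ)) (qExpand ℤ d)
      (qExpand ℤ q (jqModC ℤ))
    rw [D.eval_jp, map_zero, hcomp, qExpand_qExpand] at h
    exact h.symm
  · have h := Polynomial.hom_eval₂ D.Φ (S28.evalAt (qExpand ℤ q (jqModC ℤ))) (qExpand ℤ d)
      (jqModC ℤ)
    rw [D.eval_j, map_zero, hcomp, qExpand_qExpand] at h
    exact h.symm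

/-- A valuation ring of the function field contains `j_d` iff it contains `j_{d q}`. -/
theorem jE_mem_iff (hq : q.Prime) (d : ℕ) [NeZero d] [NeZero (d * q)] (hd : d ∣ N)
    (hdq : d * q ∣ N) (U : ValuationSubring (A2.Mod.FE E N)) :
    A2.Mod.jE E N d hd ∈ U ↔ A2.Mod.jE E N (d * q) hdq ∈ U := by
  obtain ⟨D⟩ := S28.H807.nonempty_modPolyData q hq
  obtain ⟨h1, h2⟩ := modEq_int q D d
  have e1 := A2.Mod.H873.eval₂_eq_zero_of_int E N D.Φ (A2.Mod.jE E N (d * q) hdq)
    (A2.Mod.jE E N d hd) _ _ (A2.Mod.H873.coe_jE_int E N (d * q) hdq)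
    (A2.Mod.H873.coe_jE_int E N d hd) h1
  have e2 := A2.Mod.H873.eval₂_eq_zero_of_int E N D.Φ (A2.Mod.jE E N d hd)
    (A2.Mod.jE E N (d * q) hdq) _ _ (A2.Mod.H873.coe_jE_int E N d hd)
    (A2.Mod.H873.coe_jE_int E N (d * q) hdq) h2
  exact ⟨fun h => A2.Mod.H873.mem_valuationSubring_of_monic_eval D.Φ D.monic e1 U h,
    fun h => A2.Mod.H873.mem_valuationSubring_of_monic_eval D.Φ D.monic e2 U h⟩

/-- The same for `J l = jLev`. -/
theorem jLev_mem_iff (hq : q.Prime) (l : ℕ) (hl : q ^ (l + 1) ∣ N)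
    (U : ValuationSubring (A2.Mod.FE E N)) :
    jLev E N q l ∈ U ↔ jLev E N q (l + 1) ∈ U := by
  haveI : NeZero (q ^ l) := ⟨pow_ne_zero _ (NeZero.ne q)⟩
  haveI : NeZero (q ^ (l + 1)) := ⟨pow_ne_zero _ (NeZero.ne q)⟩
  haveI : NeZero (q ^ l * q) := ⟨mul_ne_zero (pow_ne_zero _ (NeZero.ne q)) (NeZero.ne q)⟩
  have hl0 : q ^ l ∣ N := (pow_dvd_pow q (Nat.le_succ l)).trans hl
  have hl1 : q ^ l * q ∣ N := by rw [← pow_succ]; exact hl
  rw [jLev, dif_pos hl0, jLev, dif_pos hl]
  rw [jE_mem_iff E N q hq (q ^ l) hl0 hl1 U]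
  rw [A2.Mod.H372.jE_congr (pow_succ q l).symm hl1 hl]

theorem jLev_ne_zero (l : ℕ) : jLev E N q l ≠ 0 := by
  haveI : NeZero (q ^ l) := ⟨pow_ne_zero _ (NeZero.ne q)⟩
  rw [jLev]
  split_ifs with h
  · exact A2.Mod.H873.jE_ne_zero E N (q ^ l) h
  · exact one_ne_zero

/-- **The chart at infinity contains the `(J l)⁻¹`** (any level, `q ^ e ∣ N`). -/
theorem jLev_inv_mem_chart (P : ValuationSubring A2.Qb) (hq : q.Prime) (e : ℕ)
    (he : q ^ e ∣ N) :
    ∀ l ≤ e, (jLev E N q l)⁻¹ ∈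
      chart (A2.RE P E) ({(xLev E N q e)⁻¹} : Set (A2.Mod.FE E N)) := by
  intro l hl
  rw [Fermat.Agent.S18.H138.mem_chart,
    A2.H408.isIntegral_adjoin_iff_forall_valuationSubring]
  intro U _ hs
  have hx : (xLev E N q e)⁻¹ ∈ U := hs _ rfl
  refine inv_mem_of_prod_inv_mem (jLev E N q) e U (fun k _ => jLev_ne_zero E N q k)
    (fun k hk => jLev_mem_iff E N q hq k ((pow_dvd_pow q (by omega)).trans he) U) ?_ l hl
  exact hx

end ModEq

/-! ## The leaves -/

section Leaves

/-- **J-INV-E** (unconditional). -/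
theorem leafJInvE : LeafJInvE := by
  intro P E N q _ _ _ n w hS hn V' V W' W hL hO
  have h1 : q ^ n ∣ N := by
    have := Nat.ordProj_dvd N q
    rwa [hS.exp] at this
  have h2 : q ^ (n + 1) ∣ N * q := by
    rw [pow_succ]
    exact mul_dvd_mul_right h1 q
  exact jLev_inv_mem_chart E (N * q) q P hS.q_prime (n + 1) h2

/-- **CUSP-E** from VAL-E, SHEET-E, TABLE-E, KRON-E. -/
theorem leafCuspE (hVal : LeafValE) (hSheet : LeafSheetE) (hTable : LeafTableE)
    (hKron : LeafKronE) : LeafCuspE :=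
  leafCuspE_of hVal hSheet hTable hKron leafJInvE

/-- **INC-E** (both fields) from VAL-E, SHEET-E, QEP-E, TABLE-E, CHART-E, GOOD-E, KRON-E. -/
theorem leafIncE (hVal : LeafValE) (hSheet : LeafSheetE) (hQep : LeafQepE)
    (hTable : LeafTableE) (hChart : LeafChartE) (hGood : LeafGoodE) (hKron : LeafKronE) :
    LeafIncE :=
  leafIncE_of' hVal hSheet hQep hTable hChart hGood hKron leafJInvE

end Leaves


end Fermat.Agent.S45.ModE.H323

end

end
-- ===== PACK-END S45/ModE/H323/JInv.lean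

-- ===== PACK-BEGIN S45/H576/LiteAbs.lean
section



/-!
# S45 / CAR3 / MOD-E/Reg, leaf `LeafStepI` (helper576, 2nd owner): abstract transport lemmas

Vocabulary of `S45/Reg/Spec.lean` (helper878): `LitePkg`, `IsCuspIdeal`, `Prec`, `dC`.
Generic: `φ : F' →+* F` a field embedding commuting with the structure maps of `R`.

* valuations: `mem_nonunits_comap576`, `val_eq_of_unifAt576`, `unifAt_of_val_eq576`,
  `val_of_ram576`, `unifAt_map576` (`e = 1`), `val_map_unif_wild576`, `unifAt_wild576` (`e = q`);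
* `litePkg_map576`  : the lite package moves along a step with `e = 1` (apply `φ`);
* `litePkg_wild576` : the lite package moves along the WILD step (`N = N' q`), from the chain
  congruence `(x ^ q - φ x') / φ x' ∈ 𝔪_V`;
* `prec_map_frob576`, `prec_map_ver576` : the precision moves along `φ`;
* `exists_mul_of_irreducible576` : in a valuation ring an irreducible element divides every
  non-unit.
-/

set_option autoImplicit false
set_option linter.unusedSectionVars false

namespace Fermat.Agent.S45.H576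

open Fermat.Agent.S36.Eng (UnifAt UnitAt)
open Fermat.Agent.S45.Reg (LitePkg IsCuspIdeal)

/-! ## Valuations -/

section Val

variable {F F' : Type*} [Field F] [Field F']

theorem mem_nonunits_iff_or576 {K : Type*} [Field K] (U : ValuationSubring K) (y : K) :
    y ∈ U.nonunits ↔ (y = 0 ∨ y⁻¹ ∉ U) := by
  rw [U.mem_nonunits_iff]
  by_cases hy : y = 0
  · subst hy; simp
  · have hv : U.valuation y ≠ 0 := by rwa [Ne, map_eq_zero]
    rw [← U.valuation_le_one_iff, map_inv₀]
    constructor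
    · intro h
      right
      rw [not_le]
      exact (one_lt_inv₀ (zero_lt_iff.2 hv)).2 h
    · rintro (h | h)
      · exact absurd h hy
      · rw [not_le] at h
        exact (one_lt_inv₀ (zero_lt_iff.2 hv)).1 h

theorem mem_nonunits_comap576 (φ : F' →+* F) (V : ValuationSubring F) (b : F') :
    b ∈ (V.comap φ).nonunits ↔ φ b ∈ V.nonunits := by
  rw [mem_nonunits_iff_or576, mem_nonunits_iff_or576, ValuationSubring.mem_comap, map_inv₀,
    map_eq_zero]

theorem val_lt_one_of_unifAt576 (V : ValuationSubring F) {t : F} (ht : UnifAt V t) :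
    V.valuation t < 1 := (V.mem_nonunits_iff).1 ht.2.1

theorem val_ne_zero_of_unifAt576 (V : ValuationSubring F) {t : F} (ht : UnifAt V t) :
    V.valuation t ≠ 0 := by
  rw [Ne, map_eq_zero]; exact ht.1

/-- the value of a non-unit is at most the value of a uniformiser -/
theorem val_le_of_unifAt576 (V : ValuationSubring F) {t f : F} (ht : UnifAt V t)
    (hf : f ∈ V.nonunits) : V.valuation f ≤ V.valuation t := by
  have h := (V.valuation_le_one_iff _).2 (ht.2.2 f hf)
  rw [map_mul, map_inv₀] at h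
  have h0 : 0 < V.valuation t := zero_lt_iff.2 (val_ne_zero_of_unifAt576 V ht)
  calc V.valuation f = V.valuation f * (V.valuation t)⁻¹ * V.valuation t := by
        rw [mul_assoc, inv_mul_cancel₀ h0.ne', mul_one]
    _ ≤ 1 * V.valuation t := by gcongr
    _ = V.valuation t := one_mul _

theorem val_eq_of_unifAt576 (V : ValuationSubring F) {t y : F} (ht : UnifAt V t)
    (hy : UnifAt V y) : V.valuation y = V.valuation t :=
  le_antisymm (val_le_of_unifAt576 V ht hy.2.1) (val_le_of_unifAt576 V hy ht.2.1)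

theorem unifAt_of_val_eq576 (V : ValuationSubring F) {t y : F} (ht : UnifAt V t)
    (h : V.valuation y = V.valuation t) : UnifAt V y := by
  have h0 : V.valuation y ≠ 0 := by rw [h]; exact val_ne_zero_of_unifAt576 V ht
  refine ⟨by rwa [Ne, ← map_eq_zero V.valuation], ?_, fun f hf => ?_⟩
  · rw [V.mem_nonunits_iff, h]; exact val_lt_one_of_unifAt576 V ht
  · rw [← V.valuation_le_one_iff, map_mul, map_inv₀, h]
    have h1 := val_le_of_unifAt576 V ht hf
    have h2 : 0 < V.valuation t := zero_lt_iff.2 (val_ne_zero_of_unifAt576 V ht)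
    calc V.valuation f * (V.valuation t)⁻¹ ≤ V.valuation t * (V.valuation t)⁻¹ := by gcongr
      _ = 1 := mul_inv_cancel₀ h2.ne'

theorem val_eq_one_of_unitAt576 (V : ValuationSubring F) {u : F} (hu : UnitAt V u) :
    V.valuation u = 1 := by
  obtain ⟨h0, h1, h2⟩ := hu
  have a := (V.valuation_le_one_iff _).2 h1
  have b := (V.valuation_le_one_iff _).2 h2
  rw [map_inv₀] at b
  have h0' : 0 < V.valuation u := zero_lt_iff.2 (by rwa [Ne, map_eq_zero])
  refine le_antisymm a ?_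
  calc (1 : V.ValueGroup) = (V.valuation u)⁻¹ * V.valuation u := (inv_mul_cancel₀ h0'.ne').symm
    _ ≤ 1 * V.valuation u := by gcongr
    _ = V.valuation u := one_mul _

/-- `ram`: `w = unit · t ^ μ` gives `v(w) = v(t) ^ μ`. -/
theorem val_of_ram576 (V : ValuationSubring F) {w t : F} {μ : ℕ}
    (hu : UnitAt V (w * (t ^ μ)⁻¹)) (ht : t ≠ 0) : V.valuation w = V.valuation t ^ μ := by
  have h := val_eq_one_of_unitAt576 V hu
  rw [map_mul, map_inv₀, map_pow] at h
  have h0 : V.valuation t ^ μ ≠ 0 := pow_ne_zero _ (by rwa [Ne, map_eq_zero])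
  calc V.valuation w = V.valuation w * (V.valuation t ^ μ)⁻¹ * V.valuation t ^ μ := by
        rw [mul_assoc, inv_mul_cancel₀ h0, mul_one]
    _ = V.valuation t ^ μ := by rw [h, one_mul]

theorem pow_inj_val576 (V : ValuationSubring F) {a b : V.ValueGroup} {n : ℕ} (hn : n ≠ 0)
    (h : a ^ n = b ^ n) : a = b := by
  rcases lt_trichotomy a b with hab | hab | hab
  · exact absurd h (ne_of_lt (pow_lt_pow_left₀ hab zero_le' hn))
  · exact hab
  · exact absurd h.symm (ne_of_lt (pow_lt_pow_left₀ hab zero_le' hn))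

/-- A 1-unit has value `1`. -/
theorem val_eq_one_of_sub_one576 (V : ValuationSubring F) {u : F} (hu : u - 1 ∈ V.nonunits) :
    V.valuation u = 1 := by
  have h1 : V.valuation (u - 1) < 1 := (V.mem_nonunits_iff).1 hu
  have e : u = (u - 1) + 1 := by ring
  rw [e]
  have := Valuation.map_add_eq_of_lt_right V.valuation (x := u - 1) (y := 1)
    (by rw [map_one]; exact h1)
  rw [this, map_one]

variable (φ : F' →+* F) (V : ValuationSubring F) (V' : ValuationSubring F')

theorem val_map_eq_of_unit576 (hc : V.comap φ = V') {u : F'} (hu : UnitAt V' u) :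
    V.valuation (φ u) = 1 := by
  obtain ⟨h0, h1, h2⟩ := hu
  rw [← hc, ValuationSubring.mem_comap] at h1 h2
  rw [map_inv₀] at h2
  exact val_eq_one_of_unitAt576 V ⟨(map_ne_zero φ).2 h0, h1, h2⟩

/-- `e = 1`: equal multiplicities above and below: `φ` maps uniformisers to uniformisers. -/
theorem unifAt_map576 (hc : V.comap φ = V') {w : F} {w' : F'} (hw : φ w' = w) {μ : ℕ}
    (hμ : μ ≠ 0)
    (hram : ∃ t : F, UnifAt V t ∧ UnitAt V (w * (t ^ μ)⁻¹))
    (hram' : ∃ t' : F', UnifAt V' t' ∧ UnitAt V' (w' * (t' ^ μ)⁻¹))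
    {x' : F'} (hx' : UnifAt V' x') : UnifAt V (φ x') := by
  obtain ⟨t, ht, hu⟩ := hram
  obtain ⟨t', ht', hu'⟩ := hram'
  have h1 := val_of_ram576 V hu ht.1
  have h2 : V.valuation w = V.valuation (φ t') ^ μ := by
    have := val_map_eq_of_unit576 φ V V' hc hu'
    rw [map_mul, map_inv₀, map_pow, hw, map_mul, map_inv₀, map_pow] at this
    have h0 : V.valuation (φ t') ^ μ ≠ 0 :=
      pow_ne_zero _ (by rw [Ne, map_eq_zero]; exact (map_ne_zero φ).2 ht'.1)
    calc V.valuation w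
        = V.valuation w * (V.valuation (φ t') ^ μ)⁻¹ * V.valuation (φ t') ^ μ := by
          rw [mul_assoc, inv_mul_cancel₀ h0, mul_one]
      _ = V.valuation (φ t') ^ μ := by rw [this, one_mul]
  have h3 : V.valuation (φ t') = V.valuation t := pow_inj_val576 V hμ (h2.symm.trans h1)
  -- `x' / t'` is a unit below
  have h4 : V.valuation (φ x') = V.valuation (φ t') := by
    have hxt : UnitAt V' (x' * t'⁻¹) := by
      refine ⟨mul_ne_zero hx'.1 (inv_ne_zero ht'.1), ht'.2.2 x' hx'.2.1, ?_⟩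
      rw [mul_inv, inv_inv, mul_comm]
      exact hx'.2.2 t' ht'.2.1
    have := val_map_eq_of_unit576 φ V V' hc hxt
    rw [map_mul, map_inv₀, map_mul, map_inv₀] at this
    have h0 : V.valuation (φ t') ≠ 0 := by
      rw [Ne, map_eq_zero]; exact (map_ne_zero φ).2 ht'.1
    calc V.valuation (φ x')
        = V.valuation (φ x') * (V.valuation (φ t'))⁻¹ * V.valuation (φ t') := by
          rw [mul_assoc, inv_mul_cancel₀ h0, mul_one]
      _ = V.valuation (φ t') := by rw [this, one_mul]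
  exact unifAt_of_val_eq576 V ht (h4.trans h3)

/-- WILD: `μ = μ' q`: the image of a uniformiser below has the value of the `q`-th power of a
uniformiser above. -/
theorem val_map_unif_wild576 (hc : V.comap φ = V') {w : F} {w' : F'} (hw : φ w' = w)
    {μ' q : ℕ} (hμ : μ' ≠ 0)
    {t : F} (ht : UnifAt V t) (hu : UnitAt V (w * (t ^ (μ' * q))⁻¹))
    (hram' : ∃ t' : F', UnifAt V' t' ∧ UnitAt V' (w' * (t' ^ μ')⁻¹))
    {x' : F'} (hx' : UnifAt V' x') : V.valuation (φ x') = V.valuation t ^ q := by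
  obtain ⟨t', ht', hu'⟩ := hram'
  have h1 := val_of_ram576 V hu ht.1
  have h2 : V.valuation w = V.valuation (φ t') ^ μ' := by
    have := val_map_eq_of_unit576 φ V V' hc hu'
    rw [map_mul, map_inv₀, map_pow, hw, map_mul, map_inv₀, map_pow] at this
    have h0 : V.valuation (φ t') ^ μ' ≠ 0 :=
      pow_ne_zero _ (by rw [Ne, map_eq_zero]; exact (map_ne_zero φ).2 ht'.1)
    calc V.valuation w
        = V.valuation w * (V.valuation (φ t') ^ μ')⁻¹ * V.valuation (φ t') ^ μ' := by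
          rw [mul_assoc, inv_mul_cancel₀ h0, mul_one]
      _ = V.valuation (φ t') ^ μ' := by rw [this, one_mul]
  have h3 : V.valuation (φ t') = V.valuation t ^ q := by
    refine pow_inj_val576 V hμ ?_
    rw [← h2, h1, ← pow_mul, mul_comm]
  have h4 : V.valuation (φ x') = V.valuation (φ t') := by
    have hxt : UnitAt V' (x' * t'⁻¹) := by
      refine ⟨mul_ne_zero hx'.1 (inv_ne_zero ht'.1), ht'.2.2 x' hx'.2.1, ?_⟩
      rw [mul_inv, inv_inv, mul_comm]
      exact hx'.2.2 t' ht'.2.1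
    have := val_map_eq_of_unit576 φ V V' hc hxt
    rw [map_mul, map_inv₀, map_mul, map_inv₀] at this
    have h0 : V.valuation (φ t') ≠ 0 := by
      rw [Ne, map_eq_zero]; exact (map_ne_zero φ).2 ht'.1
    calc V.valuation (φ x')
        = V.valuation (φ x') * (V.valuation (φ t'))⁻¹ * V.valuation (φ t') := by
          rw [mul_assoc, inv_mul_cancel₀ h0, mul_one]
      _ = V.valuation (φ t') := by rw [this, one_mul]
  exact h4.trans h3

/-- WILD: `x ^ q = φ x' · (1-unit)` makes `x` a uniformiser above. -/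
theorem unifAt_wild576 (hc : V.comap φ = V') {w : F} {w' : F'} (hw : φ w' = w)
    {μ' q : ℕ} (hμ : μ' ≠ 0) (hq : q ≠ 0)
    (hram : ∃ t : F, UnifAt V t ∧ UnitAt V (w * (t ^ (μ' * q))⁻¹))
    (hram' : ∃ t' : F', UnifAt V' t' ∧ UnitAt V' (w' * (t' ^ μ')⁻¹))
    {x' : F'} (hx' : UnifAt V' x') {x : F}
    (hcong : (x ^ q - φ x') * (φ x')⁻¹ ∈ V.nonunits) : UnifAt V x := by
  obtain ⟨t, ht, hu⟩ := hram
  have h1 := val_map_unif_wild576 φ V V' hc hw hμ ht hu hram' hx'
  have hx0 : φ x' ≠ 0 := (map_ne_zero φ).2 hx'.1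
  have h2 : V.valuation (x ^ q * (φ x')⁻¹) = 1 := by
    refine val_eq_one_of_sub_one576 V ?_
    have e : x ^ q * (φ x')⁻¹ - 1 = (x ^ q - φ x') * (φ x')⁻¹ := by
      field_simp
    rw [e]; exact hcong
  rw [map_mul, map_inv₀, map_pow] at h2
  have h3 : V.valuation x ^ q = V.valuation t ^ q := by
    have h0 : V.valuation (φ x') ≠ 0 := by rw [Ne, map_eq_zero]; exact hx0
    calc V.valuation x ^ q
        = V.valuation x ^ q * (V.valuation (φ x'))⁻¹ * V.valuation (φ x') := by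
          rw [mul_assoc, inv_mul_cancel₀ h0, mul_one]
      _ = V.valuation t ^ q := by rw [h2, one_mul, h1]
  exact unifAt_of_val_eq576 V ht (pow_inj_val576 V hq h3)

end Val

/-! ## Divisibility in a valuation ring -/

theorem exists_mul_of_irreducible576 {A : Type*} [CommRing A] [IsDomain A] [ValuationRing A]
    {w a : A} (hw : Irreducible w) (ha : ¬ IsUnit a) : ∃ r : A, a = w * r := by
  rcases ValuationRing.dvd_total w a with h | h
  · exact h
  · obtain ⟨b, hb⟩ := h
    rcases hw.isUnit_or_isUnit hb with h1 | h1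
    · exact absurd h1 ha
    · obtain ⟨u, rfl⟩ := h1
      exact ⟨(u⁻¹ : Aˣ), by rw [hb, mul_assoc, Units.mul_inv, mul_one]⟩

/-! ## The packages -/

section Pkg

variable {R F F' : Type*} [CommRing R] [Field F] [Algebra R F] [Field F'] [Algebra R F']

/-- the restriction of `φ` to the charts -/
def restrictHom576 (φ : F' →+* F) (B' : Subalgebra R F') (B : Subalgebra R F)
    (hB : ∀ b ∈ B', φ b ∈ B) : B' →+* B where
  toFun b := ⟨φ b, hB b b.2⟩
  map_one' := Subtype.ext (map_one φ)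
  map_mul' a b := Subtype.ext (map_mul φ (a : F') (b : F'))
  map_zero' := Subtype.ext (map_zero φ)
  map_add' a b := Subtype.ext (map_add φ (a : F') (b : F'))

theorem isCuspIdeal_comap576 (φ : F' →+* F) (B' : Subalgebra R F') (B : Subalgebra R F)
    (hB : ∀ b ∈ B', φ b ∈ B) (J' : ℕ → F') (J : ℕ → F) (n e : ℕ)
    (hJ : ∀ l ≤ n, ∃ l₂ ≤ e, φ (J' l) = J l₂) (𝔪 : Ideal B) (h𝔪 : IsCuspIdeal B J e 𝔪) :
    IsCuspIdeal B' J' n (𝔪.comap (restrictHom576 φ B' B hB)) := by
  intro l hl y hy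
  obtain ⟨l₂, hl₂, hJl⟩ := hJ l hl
  rw [Ideal.mem_comap]
  refine h𝔪 l₂ hl₂ _ ?_
  show φ (y : F') = (J l₂)⁻¹
  rw [hy, map_inv₀, hJl]

/-- **The lite package moves along a step with `e = 1`.** -/
theorem litePkg_map576 (w : R) (φ : F' →+* F)
    (hφ : ∀ r : R, φ (algebraMap R F' r) = algebraMap R F r)
    (B' : Subalgebra R F') (B : Subalgebra R F) (hB : ∀ b ∈ B', φ b ∈ B)
    (J' : ℕ → F') (J : ℕ → F) (n e : ℕ) (hJ : ∀ l ≤ n, ∃ l₂ ≤ e, φ (J' l) = J l₂)
    (V' : ℕ → ValuationSubring F') (V : ℕ → ValuationSubring F) (i j : ℕ)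
    (hc : (V i).comap φ = V' j) {x' : F'} (hx : LitePkg w B' J' n V' j x')
    (hu : UnifAt (V i) (φ x')) : LitePkg w B J e V i (φ x') := by
  obtain ⟨hxB, -, g₁, g₂, k, N, hN, hcong, hcusp⟩ := hx
  refine ⟨hB _ hxB, hu, ⟨φ g₁, hB _ g₁.2⟩, ⟨φ g₂, hB _ g₂.2⟩, k, N, hN, ?_, ?_⟩
  · have h1 : φ ((x' ^ N * (g₂ : F') - algebraMap R F' w ^ k * (g₁ : F')) *
        (algebraMap R F' w ^ k)⁻¹) ∈ (V i).nonunits := by
      rw [← mem_nonunits_comap576, hc]; exact hcong
    simpa only [map_mul, map_sub, map_pow, map_inv₀, hφ] using h1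
  · intro 𝔪 h𝔪 hcu hmem
    have hp : (𝔪.comap (restrictHom576 φ B' B hB)).IsPrime := Ideal.comap_isPrime _ _
    exact hcusp _ hp (isCuspIdeal_comap576 φ B' B hB J' J n e hJ 𝔪 hcu) hmem

/-- **The lite package moves along the WILD step** (`N = N' q`), from the chain congruence. -/
theorem litePkg_wild576 (w : R) (φ : F' →+* F)
    (hφ : ∀ r : R, φ (algebraMap R F' r) = algebraMap R F r)
    (B' : Subalgebra R F') (B : Subalgebra R F) (hB : ∀ b ∈ B', φ b ∈ B)
    (J' : ℕ → F') (J : ℕ → F) (n e : ℕ) (hJ : ∀ l ≤ n, ∃ l₂ ≤ e, φ (J' l) = J l₂)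
    (V' : ℕ → ValuationSubring F') (V : ℕ → ValuationSubring F) (i j : ℕ)
    (hc : (V i).comap φ = V' j) (hBV : ∀ b ∈ B, b ∈ V i) (hw0 : algebraMap R F w ≠ 0)
    {x' : F'} (hx : LitePkg w B' J' n V' j x') (q : ℕ) (hq : 0 < q)
    {x : F} (hxB : x ∈ B) (hu : UnifAt (V i) x)
    (hchain : (x ^ q - φ x') * (φ x')⁻¹ ∈ (V i).nonunits) : LitePkg w B J e V i x := by
  obtain ⟨-, hx'u, g₁, g₂, k, N, hN, hcong, hcusp⟩ := hx
  refine ⟨hxB, hu, ⟨φ g₁, hB _ g₁.2⟩, ⟨φ g₂, hB _ g₂.2⟩, k, N * q, Nat.mul_pos hN hq, ?_, ?_⟩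
  · have hx0 : φ x' ≠ 0 := (map_ne_zero φ).2 hx'u.1
    have hwk : algebraMap R F w ^ k ≠ 0 := pow_ne_zero _ hw0
    -- the transported congruence
    have h1 : ((φ x') ^ N * φ (g₂ : F') - algebraMap R F w ^ k * φ (g₁ : F')) *
        (algebraMap R F w ^ k)⁻¹ ∈ (V i).nonunits := by
      have : φ ((x' ^ N * (g₂ : F') - algebraMap R F' w ^ k * (g₁ : F')) *
          (algebraMap R F' w ^ k)⁻¹) ∈ (V i).nonunits := by
        rw [← mem_nonunits_comap576, hc]; exact hcong
      simpa only [map_mul, map_sub, map_pow, map_inv₀, hφ] using this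
    -- the 1-unit `r = x^q / φ x'`
    have hr : x ^ q * (φ x')⁻¹ - 1 ∈ (V i).nonunits := by
      have e : x ^ q * (φ x')⁻¹ - 1 = (x ^ q - φ x') * (φ x')⁻¹ := by field_simp
      rw [e]; exact hchain
    have hrN := pow_sub_one_mem576' (V i) hr N
    have hg₁V : φ (g₁ : F') ∈ V i := hBV _ (hB _ g₁.2)
    have hrNV : (x ^ q * (φ x')⁻¹) ^ N ∈ V i := by
      have : (x ^ q * (φ x')⁻¹) ^ N = ((x ^ q * (φ x')⁻¹) ^ N - 1) + 1 := by ring
      rw [this]
      exact (V i).add_mem _ _ (mem_of_nonunits576' (V i) hrN) (V i).one_mem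
    have e : (x ^ (N * q) * φ (g₂ : F') - algebraMap R F w ^ k * φ (g₁ : F')) *
        (algebraMap R F w ^ k)⁻¹ =
        (x ^ q * (φ x')⁻¹) ^ N *
          (((φ x') ^ N * φ (g₂ : F') - algebraMap R F w ^ k * φ (g₁ : F')) *
            (algebraMap R F w ^ k)⁻¹) +
        ((x ^ q * (φ x')⁻¹) ^ N - 1) * φ (g₁ : F') := by
      have hxN : (φ x') ^ N ≠ 0 := pow_ne_zero _ hx0
      rw [mul_pow, inv_pow, ← pow_mul, mul_comm q N]
      field_simp
      ring
    show (x ^ (N * q) * φ (g₂ : F') - algebraMap R F w ^ k * φ (g₁ : F')) *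
        (algebraMap R F w ^ k)⁻¹ ∈ (V i).nonunits
    rw [e]
    refine nonunits_add576' (V i) ?_ (nonunits_mul_mem576' (V i) hrN hg₁V)
    rw [mul_comm]
    exact nonunits_mul_mem576' (V i) h1 hrNV
  · intro 𝔪 h𝔪 hcu hmem
    have hp : (𝔪.comap (restrictHom576 φ B' B hB)).IsPrime := Ideal.comap_isPrime _ _
    exact hcusp _ hp (isCuspIdeal_comap576 φ B' B hB J' J n e hJ 𝔪 hcu) hmem

/-- transport of a membership `y · w⁻¹ ∈ V'` along `φ` -/
theorem prec_map576 (w : R) (φ : F' →+* F)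
    (hφ : ∀ r : R, φ (algebraMap R F' r) = algebraMap R F r)
    (V : ValuationSubring F) (V' : ValuationSubring F') (hc : V.comap φ = V') {y' : F'}
    (h : y' * (algebraMap R F' w)⁻¹ ∈ V') : φ y' * (algebraMap R F w)⁻¹ ∈ V := by
  rw [← hc, ValuationSubring.mem_comap, map_mul, map_inv₀, hφ] at h
  exact h

end Pkg

end Fermat.Agent.S45.H576

end
-- ===== PACK-END S45/H576/LiteAbs.lean

-- ===== PACK-BEGIN S45/H987/PureFam.lean
section



/-!
# S45 / CAR3, block ALG-E / PURE, part P1 (helper987): purity with a FAMILY of components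

Context-free core (no `CtxE`): `R` a discrete valuation ring with uniformiser `w`, `E = Frac R`,
`F / E` a function field with coordinate `x`, `B = chart R {x}`; a family of valuation rings
`V 0, …, V e` of `F` (only the values `V i`, `i ≤ e`, matter) with multiplicities `μ i`
(`w = unit · t ^ μ i` at `V i`, `t` a uniformiser) satisfying the `q`-expansion principle on `B`
(`∀ b : B, (∀ i ≤ e, b / w ∈ V i) → b ∈ w B`).

* `family_dvd987`        : `∏ i ≤ e, g i ^ μ i ∈ w B` if `g i ∈ B ∩ 𝔪_{V i}` for all `i ≤ e`.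
* `exists_through987`    : some component passes through every closed point `𝔪 ∋ w`.
* `principalAt_single987`: if `V k`, of multiplicity `μ k = 1`, is the ONLY component through `𝔪`,
                           then `w` generates `B ∩ 𝔪_{V k}` locally at `𝔪`.
* `exists_principal987`  : at every closed point `𝔪 ∋ w` some component through `𝔪` is locally
                           principal, provided this holds at the points of the NON-REDUCED
                           components `V i`, `1 ≤ i ≤ e - 1` (`hreg`), the end components have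
                           multiplicity one, and a point on two components is on all (`hinc`).
* `sheets_family987`     : every sheet of `x` is some `V i`, `i ≤ e`.
* **`pure_of_family987`**: the purity datum `u · d ^ m · s₀ = a₀`, `a₀, s₀ ∈ B ∖ 𝔪`, at every
                           closed point `𝔪 ∋ w` of `B`, for `u` with `m ∣ div u` on the generic
                           fibre which is a unit of every `V i`.

The hypotheses are those of `S45.Eng.CtxE` (fields `ram`, `qep_f`, `normal_f`, `incidence`,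
`regular_f`), unfolded; the wiring to `CtxE` is `PureE.lean`.
-/

set_option autoImplicit false
set_option linter.style.haveILetI false
set_option linter.unusedSectionVars false
set_option linter.unusedVariables false
set_option synthInstance.maxHeartbeats 400000
set_option maxHeartbeats 1600000

noncomputable section

namespace Fermat.Agent.S45.H987

open Polynomial IsLocalRing
open Fermat.Agent.A2
open Fermat.Agent.A2.H12 (IsSheet)
open Fermat.Agent.S18.H138 (chart baseField)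
open Fermat.Agent.S36.Eng (UnitAt UnifAt Through PrincipalAt NormalAlong)
open Fermat.Agent.S36.H193 (centreW mem_centreW sheet_chart_le)
open Fermat.Agent.S36.H987 (LocReg pure_of_locReg)

universe u

section Vocab

variable {R F : Type*} [CommRing R] [Field F] [Algebra R F]

/-- `∏ i ≤ e, g i ^ μ i ∈ w B` if `g i ∈ B ∩ 𝔪_{V i}` for all `i ≤ e`. -/
theorem family_dvd987 {B : Subalgebra R F} {w : R} {e : ℕ} {V : ℕ → ValuationSubring F}
    {μ : ℕ → ℕ}
    (hB : ∀ i ≤ e, ∀ c ∈ B, c ∈ V i)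
    (ram : ∀ i ≤ e, ∃ t : F, UnifAt (V i) t ∧ UnitAt (V i) (algebraMap R F w * (t ^ μ i)⁻¹))
    (qep : ∀ b : B, (∀ i ≤ e, (b : F) * (algebraMap R F w)⁻¹ ∈ V i) →
      ∃ c : B, b = algebraMap R B w * c)
    (g : ℕ → B) (hg : ∀ i ≤ e, (g i : F) ∈ (V i).nonunits) :
    ∃ c : B, ∏ i ∈ Finset.range (e + 1), g i ^ μ i = algebraMap R B w * c := by
  classical
  refine qep _ fun j hj => ?_
  obtain ⟨t, ⟨ht0, -, ht⟩, ⟨-, -, hy⟩⟩ := ram j hj
  have hjm : j ∈ Finset.range (e + 1) := Finset.mem_range.2 (Nat.lt_succ_of_le hj)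
  rw [← Finset.mul_prod_erase _ _ hjm]
  set r : B := ∏ i ∈ (Finset.range (e + 1)).erase j, g i ^ μ i with hr
  have htt : (t⁻¹) ^ μ j * t ^ μ j = 1 := by
    rw [← mul_pow, inv_mul_cancel₀ ht0, one_pow]
  have e1 : ((g j ^ μ j * r : B) : F) * (algebraMap R F w)⁻¹
      = (((g j : F) * t⁻¹) ^ μ j * (algebraMap R F w * (t ^ μ j)⁻¹)⁻¹) * (r : F) := by
    have e2 : ((g j ^ μ j * r : B) : F) = (g j : F) ^ μ j * (r : F) := by
      push_cast
      rfl
    rw [e2, mul_pow, mul_inv, inv_inv]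
    calc (g j : F) ^ μ j * (r : F) * (algebraMap R F w)⁻¹
        = (g j : F) ^ μ j * (r : F) * (algebraMap R F w)⁻¹ * 1 := (mul_one _).symm
      _ = (g j : F) ^ μ j * (r : F) * (algebraMap R F w)⁻¹ * ((t⁻¹) ^ μ j * t ^ μ j) := by
          rw [htt]
      _ = (g j : F) ^ μ j * t⁻¹ ^ μ j * ((algebraMap R F w)⁻¹ * t ^ μ j) * (r : F) := by ring
  rw [e1]
  exact (V j).mul_mem _ _ ((V j).mul_mem _ _ ((V j).pow_mem (ht _ (hg j hj)) _) hy)
    (hB j hj _ r.2)

/-- A component which does not pass through `𝔪` has an element of its centre outside `𝔪`. -/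
theorem exists_of_not_through987 {B : Subalgebra R F} {𝔪 : Ideal B} {W : ValuationSubring F}
    (h : ¬ _root_.Fermat.Agent.S36.Eng.Through B 𝔪 W) : ∃ g : B, (g : F) ∈ W.nonunits ∧ g ∉ 𝔪 := by
  unfold _root_.Fermat.Agent.S36.Eng.Through at h
  push Not at h
  exact h

/-- Some component passes through every closed point `𝔪 ∋ w`. -/
theorem exists_through987 {B : Subalgebra R F} {w : R} {e : ℕ} {V : ℕ → ValuationSubring F}
    {μ : ℕ → ℕ}
    (hB : ∀ i ≤ e, ∀ c ∈ B, c ∈ V i)
    (ram : ∀ i ≤ e, ∃ t : F, UnifAt (V i) t ∧ UnitAt (V i) (algebraMap R F w * (t ^ μ i)⁻¹))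
    (qep : ∀ b : B, (∀ i ≤ e, (b : F) * (algebraMap R F w)⁻¹ ∈ V i) →
      ∃ c : B, b = algebraMap R B w * c)
    (𝔪 : Ideal B) [h𝔪 : 𝔪.IsPrime] (hw𝔪 : algebraMap R B w ∈ 𝔪) :
    ∃ i ≤ e, _root_.Fermat.Agent.S36.Eng.Through B 𝔪 (V i) := by
  classical
  by_contra hcon
  push Not at hcon
  have hex : ∀ i, ∃ g : B, i ≤ e → ((g : F) ∈ (V i).nonunits ∧ g ∉ 𝔪) := by
    intro i
    by_cases hi : i ≤ e
    · obtain ⟨g, hg⟩ := exists_of_not_through987 (hcon i hi)
      exact ⟨g, fun _ => hg⟩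
    · exact ⟨0, fun h => absurd h hi⟩
  choose g hg using hex
  obtain ⟨c, hc⟩ := family_dvd987 hB ram qep g (fun i hi => (hg i hi).1)
  have hmem : ∏ i ∈ Finset.range (e + 1), g i ^ μ i ∈ 𝔪 := by
    rw [hc]
    exact 𝔪.mul_mem_right _ hw𝔪
  obtain ⟨i, hi, him⟩ := (Ideal.IsPrime.prod_mem_iff (p := 𝔪)).1 hmem
  exact (hg i (Nat.lt_succ_iff.1 (Finset.mem_range.1 hi))).2 (h𝔪.mem_of_pow_mem _ him)

/-- If `V k`, of multiplicity one, is the ONLY component through `𝔪`, then `w` generates its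
centre locally at `𝔪`. -/
theorem principalAt_single987 {B : Subalgebra R F} {w : R} {e : ℕ} {V : ℕ → ValuationSubring F}
    {μ : ℕ → ℕ}
    (hB : ∀ i ≤ e, ∀ c ∈ B, c ∈ V i)
    (ram : ∀ i ≤ e, ∃ t : F, UnifAt (V i) t ∧ UnitAt (V i) (algebraMap R F w * (t ^ μ i)⁻¹))
    (qep : ∀ b : B, (∀ i ≤ e, (b : F) * (algebraMap R F w)⁻¹ ∈ V i) →
      ∃ c : B, b = algebraMap R B w * c)
    (𝔪 : Ideal B) [h𝔪 : 𝔪.IsPrime] {k : ℕ} (hk : k ≤ e) (hμ : μ k = 1)
    (hno : ∀ i ≤ e, i ≠ k → ¬ _root_.Fermat.Agent.S36.Eng.Through B 𝔪 (V i)) :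
    PrincipalAt B 𝔪 (V k) := by
  classical
  have hwk : algebraMap R F w ∈ (V k).nonunits := by
    obtain ⟨t, ⟨ht0, htn, -⟩, ⟨-, hy, -⟩⟩ := ram k hk
    rw [hμ, pow_one] at hy
    have e1 : algebraMap R F w = (algebraMap R F w * t⁻¹) * t := by
      rw [mul_assoc, inv_mul_cancel₀ ht0, mul_one]
    rw [e1]
    exact Fermat.Agent.S36.H193.nu_mul_left (V k) htn hy
  have hex : ∀ i, ∃ g : B, i ≤ e → i ≠ k → ((g : F) ∈ (V i).nonunits ∧ g ∉ 𝔪) := by
    intro i
    by_cases hi : i ≤ e ∧ i ≠ k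
    · obtain ⟨g, hg⟩ := exists_of_not_through987 (hno i hi.1 hi.2)
      exact ⟨g, fun _ _ => hg⟩
    · exact ⟨0, fun h h' => absurd ⟨h, h'⟩ hi⟩
  choose g hg using hex
  refine ⟨algebraMap R B w, hwk, fun a ha => ?_⟩
  have hkm : k ∈ Finset.range (e + 1) := Finset.mem_range.2 (Nat.lt_succ_of_le hk)
  obtain ⟨c, hc⟩ := family_dvd987 (μ := μ) hB ram qep (fun i => if i = k then a else g i)
    (fun i hi => by
      by_cases hik : i = k
      · subst hik
        simpa using ha
      · simpa [hik] using (hg i hi hik).1)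
  rw [← Finset.mul_prod_erase _ _ hkm] at hc
  simp only [if_true, hμ, pow_one] at hc
  refine ⟨∏ i ∈ (Finset.range (e + 1)).erase k, (if i = k then a else g i) ^ μ i, c, ?_, ?_⟩
  · intro hmem
    obtain ⟨i, hi, him⟩ := (Ideal.IsPrime.prod_mem_iff (p := 𝔪)).1 hmem
    have hik : i ≠ k := (Finset.mem_erase.1 hi).1
    have hie : i ≤ e := Nat.lt_succ_iff.1 (Finset.mem_range.1 (Finset.mem_erase.1 hi).2)
    rw [if_neg hik] at him
    exact (hg i hie hik).2 (h𝔪.mem_of_pow_mem _ him)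
  · rw [← hc, mul_comm]

/-- At every closed point `𝔪 ∋ w`, some component through `𝔪` is locally principal. -/
theorem exists_principal987 {B : Subalgebra R F} {w : R} {e : ℕ} {V : ℕ → ValuationSubring F}
    {μ : ℕ → ℕ} (he : 2 ≤ e) (hμ0 : μ 0 = 1) (hμe : μ e = 1)
    (hB : ∀ i ≤ e, ∀ c ∈ B, c ∈ V i)
    (ram : ∀ i ≤ e, ∃ t : F, UnifAt (V i) t ∧ UnitAt (V i) (algebraMap R F w * (t ^ μ i)⁻¹))
    (qep : ∀ b : B, (∀ i ≤ e, (b : F) * (algebraMap R F w)⁻¹ ∈ V i) →
      ∃ c : B, b = algebraMap R B w * c)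
    (𝔪 : Ideal B) [h𝔪 : 𝔪.IsPrime] (hw𝔪 : algebraMap R B w ∈ 𝔪)
    (hinc : (∃ i ≤ e, ∃ j ≤ e, i ≠ j ∧ _root_.Fermat.Agent.S36.Eng.Through B 𝔪 (V i) ∧ _root_.Fermat.Agent.S36.Eng.Through B 𝔪 (V j)) →
      ∀ i ≤ e, _root_.Fermat.Agent.S36.Eng.Through B 𝔪 (V i))
    (hreg : (∃ i, 1 ≤ i ∧ i ≤ e - 1 ∧ _root_.Fermat.Agent.S36.Eng.Through B 𝔪 (V i)) →
      ∃ k ≤ e, _root_.Fermat.Agent.S36.Eng.Through B 𝔪 (V k) ∧ PrincipalAt B 𝔪 (V k)) :
    ∃ k ≤ e, _root_.Fermat.Agent.S36.Eng.Through B 𝔪 (V k) ∧ PrincipalAt B 𝔪 (V k) := by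
  classical
  by_cases hmid : ∃ i, 1 ≤ i ∧ i ≤ e - 1 ∧ _root_.Fermat.Agent.S36.Eng.Through B 𝔪 (V i)
  · exact hreg hmid
  obtain ⟨k, hk, hthr⟩ := exists_through987 hB ram qep 𝔪 hw𝔪
  have hno : ∀ i ≤ e, i ≠ k → ¬ _root_.Fermat.Agent.S36.Eng.Through B 𝔪 (V i) := by
    intro i hi hik hthi
    exact hmid ⟨1, le_refl 1, by omega,
      hinc ⟨i, hi, k, hk, hik, hthi, hthr⟩ 1 (by omega)⟩
  have hk0e : k = 0 ∨ k = e := by
    by_contra hcon
    push Not at hcon
    exact hmid ⟨k, by omega, by omega, hthr⟩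
  have hμk : μ k = 1 := by
    rcases hk0e with rfl | rfl
    · exact hμ0
    · exact hμe
  exact ⟨k, hk, hthr, principalAt_single987 hB ram qep 𝔪 hk hμk hno⟩

end Vocab

section Core

variable {R E F : Type u} [CommRing R] [IsDomain R] [IsDiscreteValuationRing R]
  [Field E] [CharZero E] [Algebra R E] [IsFractionRing R E]
  [Field F] [Algebra E F] [Algebra R F] [IsScalarTower R E F]

/-- **Every sheet is one of the components** (from the `q`-expansion principle). -/
theorem sheets_family987 (w : R) (hw : Irreducible w) {x : F} (hx : Transcendental E x)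
    (hfin : FiniteDimensional (IntermediateField.adjoin E ({x} : Set F)) F)
    {e : ℕ} {V : ℕ → ValuationSubring F} {μ : ℕ → ℕ}
    (hV : ∀ i ≤ e, IsSheet w x (V i))
    (ram : ∀ i ≤ e, ∃ t : F, UnifAt (V i) t ∧ UnitAt (V i) (algebraMap R F w * (t ^ μ i)⁻¹))
    (qep : ∀ b : chart R ({x} : Set F), (∀ i ≤ e, (b : F) * (algebraMap R F w)⁻¹ ∈ V i) →
      ∃ c : chart R ({x} : Set F), b = algebraMap R (chart R ({x} : Set F)) w * c) :
    ∀ W, IsSheet w x W → ∃ i ≤ e, W = V i := by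
  classical
  intro W hW
  by_contra hcon
  push Not at hcon
  have hxR : Transcendental R x := Fermat.Agent.A2.Alg.H754.transcendental_base hx
  haveI : CharZero F := charZero_of_injective_algebraMap (algebraMap E F).injective
  haveI := Fermat.Agent.A2.Alg.H754.finiteDimensional_baseField (R := R) x hfin
  have hinjRF : Function.Injective (algebraMap R F) :=
    Fermat.Agent.A2.Alg.H754.algebraMap_base_injective (E := E)
  -- a component different from `W` has an element of its centre which is a unit of `W`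
  have key : ∀ W', IsSheet w x W' → W ≠ W' →
      ∃ g : chart R ({x} : Set F), (g : F) ∈ W'.nonunits ∧ (g : F) ∉ W.nonunits := by
    intro W' hW' hne
    by_contra hno
    push Not at hno
    apply hne
    refine Fermat.Agent.S36.H193.sheet_eq_of_centre_eq hinjRF hw.prime hxR hW hW' ?_
    have hle : centreW W' (chart R ({x} : Set F)) (sheet_chart_le hW')
        ≤ centreW W (chart R ({x} : Set F)) (sheet_chart_le hW) := by
      intro g hg
      rw [mem_centreW] at hg ⊢
      exact hno g hg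
    have hminV := Fermat.Agent.S36.H193.centre_mem_minimalPrimes hW
    have hminW := Fermat.Agent.S36.H193.centre_mem_minimalPrimes hW'
    exact le_antisymm (hminV.2 hminW.1 hle) hle
  have hex : ∀ i, ∃ g : chart R ({x} : Set F), i ≤ e →
      ((g : F) ∈ (V i).nonunits ∧ (g : F) ∉ W.nonunits) := by
    intro i
    by_cases hi : i ≤ e
    · obtain ⟨g, hg⟩ := key (V i) (hV i hi) (hcon i hi)
      exact ⟨g, fun _ => hg⟩
    · exact ⟨0, fun h => absurd h hi⟩
  choose g hg using hex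
  obtain ⟨c, hc⟩ := family_dvd987 (μ := μ) (fun i hi => sheet_chart_le (hV i hi)) ram qep g
    (fun i hi => (hg i hi).1)
  set p := centreW W (chart R ({x} : Set F)) (sheet_chart_le hW) with hp
  haveI hpp : p.IsPrime := inferInstance
  have hwp : algebraMap R (chart R ({x} : Set F)) w ∈ p :=
    (mem_centreW W _ (sheet_chart_le hW) _).2 hW.2.2.1
  have hmem : ∏ i ∈ Finset.range (e + 1), g i ^ μ i ∈ p := by
    rw [hc]
    exact p.mul_mem_right _ hwp
  obtain ⟨i, hi, him⟩ := (Ideal.IsPrime.prod_mem_iff (p := p)).1 hmem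
  exact (hg i (Nat.lt_succ_iff.1 (Finset.mem_range.1 hi))).2
    ((mem_centreW W _ (sheet_chart_le hW) _).1 (hpp.mem_of_pow_mem _ him))

/-- **Purity at every closed point of the special fibre of a chart with components
`V 0, …, V e`.** -/
theorem pure_of_family987 (w : R) (hw : Irreducible w) {x : F} (hx : Transcendental E x)
    (hfin : FiniteDimensional (IntermediateField.adjoin E ({x} : Set F)) F)
    {e : ℕ} (he : 2 ≤ e) {V : ℕ → ValuationSubring F} {μ : ℕ → ℕ}
    (hμ0 : μ 0 = 1) (hμe : μ e = 1)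
    (hV : ∀ i ≤ e, IsSheet w x (V i))
    (ram : ∀ i ≤ e, ∃ t : F, UnifAt (V i) t ∧ UnitAt (V i) (algebraMap R F w * (t ^ μ i)⁻¹))
    (qep : ∀ b : chart R ({x} : Set F), (∀ i ≤ e, (b : F) * (algebraMap R F w)⁻¹ ∈ V i) →
      ∃ c : chart R ({x} : Set F), b = algebraMap R (chart R ({x} : Set F)) w * c)
    (hn : ∀ i ≤ e, NormalAlong (chart R ({x} : Set F)) (V i))
    (𝔪 : Ideal (chart R ({x} : Set F))) (h𝔪 : 𝔪.IsMaximal)
    (hw𝔪 : algebraMap R (chart R ({x} : Set F)) w ∈ 𝔪)
    (hinc : (∃ i ≤ e, ∃ j ≤ e, i ≠ j ∧ _root_.Fermat.Agent.S36.Eng.Through _ 𝔪 (V i) ∧ _root_.Fermat.Agent.S36.Eng.Through _ 𝔪 (V j)) →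
      ∀ i ≤ e, _root_.Fermat.Agent.S36.Eng.Through _ 𝔪 (V i))
    (hreg : (∃ i, 1 ≤ i ∧ i ≤ e - 1 ∧ _root_.Fermat.Agent.S36.Eng.Through _ 𝔪 (V i)) →
      ∃ k ≤ e, _root_.Fermat.Agent.S36.Eng.Through _ 𝔪 (V k) ∧ PrincipalAt _ 𝔪 (V k))
    {m : ℕ} (hm : 0 < m) {u : F} (hu : u ≠ 0) (hdiv : DivisibleDiv E m u)
    (hus : ∀ i ≤ e, u ∈ V i ∧ u⁻¹ ∈ V i) :
    ∃ d : F, d ≠ 0 ∧ ∃ a₀ s₀ : chart R ({x} : Set F), a₀ ∉ 𝔪 ∧ s₀ ∉ 𝔪 ∧
      u * d ^ m * (s₀ : F) = a₀ := by
  classical
  haveI := h𝔪.isPrime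
  have hsheets := sheets_family987 w hw hx hfin hV ram qep
  have hus' : ∀ W, IsSheet w x W → u ∈ W ∧ u⁻¹ ∈ W := by
    intro W hW
    obtain ⟨i, hi, rfl⟩ := hsheets W hW
    exact hus i hi
  obtain ⟨k, hk, hthr, hpr⟩ := exists_principal987 he hμ0 hμe
    (fun i hi => sheet_chart_le (hV i hi)) ram qep 𝔪 hw𝔪 hinc hreg
  exact pure_of_locReg w hw hx hfin hm hu hdiv hus' (V k) (hV k hk) (hn k hk) 𝔪 h𝔪 ⟨hthr, hpr⟩

end Core

end Fermat.Agent.S45.H987

end

end
-- ===== PACK-END S45/H987/PureFam.lean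

-- ===== PACK-BEGIN S45/H987/PureE.lean
section





/-!
# S45 / CAR3, block ALG-E / PURE, part P1 (helper987): purity from the context `Eng.CtxE`

In an `(e + 1)`-component context (`S45.Eng.CtxE`, `S45/Eng/Spec.lean`), for `u ≠ 0` with
`m ∣ div u` on the generic fibre (`A2.DivisibleDiv E m u`) which is a unit of every `V i`, `i ≤ e`:

* `ctxE_isSheet987`, `ctxE_sheets987` : the `V i` are sheets, and every sheet is some `V i`.
* **`ctxE_pure_fin987`**  : the purity datum `u · d ^ m · s₀ = a₀`, `a₀, s₀ ∈ Bf ∖ 𝔪`, at EVERY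
  closed point `𝔪 ∋ w` of the finite chart `Bf = chart R {x}`.
* `ctxE_pure_cusp987`     : the same at every closed point `𝔪 ∋ w, x⁻¹` (cusp) of
  `Bi = chart R {x⁻¹}`.
* **`ctxE_pure_inf987`**  : the same at EVERY closed point `𝔪 ∋ w` of `Bi` (change of chart off
  the cusps).
* `ctxE_pure987`          : both, in the shape `∃ d a₀ s₀, a₀ ∉ 𝔫 ∧ s₀ ∉ 𝔫 ∧ u * d ^ m * s₀ = a₀`
  of the purity input of `S36.H630.basePureValuesAt_single` / `LabelAt`.

Used fields of `CtxE`: `he hx hfin ram base x_unit gauss qep_f qep_i normal_f normal_i incidence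
regular_f cusp_single regular_i` (nothing about `α`, `β`, `V'`).  No hypothesis `3 ≤ e`.
-/

set_option autoImplicit false
set_option linter.style.haveILetI false
set_option linter.unusedSectionVars false
set_option linter.unusedVariables false
set_option synthInstance.maxHeartbeats 400000
set_option maxHeartbeats 1600000

noncomputable section

namespace Fermat.Agent.S45.H987

open Polynomial IsLocalRing
open Fermat.Agent.A2
open Fermat.Agent.A2.H12 (IsSheet)
open Fermat.Agent.S18.H138 (chart baseField)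
open Fermat.Agent.S36.Eng (UnitAt UnifAt Through PrincipalAt NormalAlong)
open Fermat.Agent.S45.Eng (CtxE mult)

universe u

theorem mult_zero987 (q e : ℕ) : mult q e 0 = 1 := by
  simp [mult]

theorem mult_self987 (q e : ℕ) : mult q e e = 1 := by
  simp [mult]

theorem mult_pos987 {q : ℕ} (hq : 0 < q) (e i : ℕ) : 0 < mult q e i :=
  Nat.totient_pos.2 (pow_pos hq _)

section Ctx

variable {R E F F' : Type u} [CommRing R] [IsDomain R] [IsDiscreteValuationRing R]
  [Field E] [CharZero E] [Algebra R E] [IsFractionRing R E]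
  [Field F] [Algebra E F] [Algebra R F] [IsScalarTower R E F]
  [Field F'] [Algebra E F'] [Algebra R F']
variable {w : R} {q e : ℕ} {α β : F' →ₐ[E] F} {x : F} {x' : F'}
  {V : ℕ → ValuationSubring F} {V' : ℕ → ValuationSubring F'}

omit [IsDomain R] [IsDiscreteValuationRing R] [CharZero E] [IsFractionRing R E]
  [IsScalarTower R E F] in
theorem ctxE_w_mem987 (hq : q.Prime) (ctx : CtxE w q e α β x x' V V') {i : ℕ} (hi : i ≤ e) :
    algebraMap R F w ∈ (V i).nonunits := by
  obtain ⟨t, ⟨ht0, htn, -⟩, ⟨-, hy, -⟩⟩ := ctx.ram i hi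
  have e1 : algebraMap R F w = (algebraMap R F w * (t ^ mult q e i)⁻¹) * t ^ mult q e i := by
    rw [mul_assoc, inv_mul_cancel₀ (pow_ne_zero _ ht0), mul_one]
  rw [e1]
  exact Fermat.Agent.S36.H193.nu_mul_left (V i)
    (Fermat.Agent.S36.H193.nu_pow (V i) htn (mult_pos987 hq.pos e i).ne') hy

omit [IsDomain R] [IsDiscreteValuationRing R] [CharZero E] [IsFractionRing R E]
  [IsScalarTower R E F] in
/-- The components are sheets of `x`. -/
theorem ctxE_isSheet987 (hq : q.Prime) (ctx : CtxE w q e α β x x' V V') {i : ℕ} (hi : i ≤ e) :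
    IsSheet w x (V i) :=
  ⟨ctx.base i hi, (ctx.x_unit i hi).2.1, ctxE_w_mem987 hq ctx hi, ctx.gauss i hi⟩

/-- Every sheet is one of the components `V i`, `i ≤ e`. -/
theorem ctxE_sheets987 (hw : Irreducible w) (hq : q.Prime)
    (ctx : CtxE w q e α β x x' V V') :
    ∀ W, IsSheet w x W → ∃ i ≤ e, W = V i :=
  sheets_family987 w hw ctx.hx ctx.hfin (fun i hi => ctxE_isSheet987 hq ctx hi) ctx.ram
    ctx.qep_f

/-- **Purity at every closed point of the special fibre of the finite chart.** -/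
theorem ctxE_pure_fin987 (hw : Irreducible w) (hq : q.Prime)
    (ctx : CtxE w q e α β x x' V V')
    (𝔪 : Ideal (chart R ({x} : Set F))) (h𝔪 : 𝔪.IsMaximal)
    (hw𝔪 : algebraMap R (chart R ({x} : Set F)) w ∈ 𝔪)
    {m : ℕ} (hm : 0 < m) {u : F} (hdiv : DivisibleDiv E m u)
    (hu : ∀ i ≤ e, UnitAt (V i) u) :
    ∃ d : F, d ≠ 0 ∧ ∃ a₀ s₀ : chart R ({x} : Set F), a₀ ∉ 𝔪 ∧ s₀ ∉ 𝔪 ∧
      u * d ^ m * (s₀ : F) = a₀ :=
  pure_of_family987 w hw ctx.hx ctx.hfin ctx.he (mult_zero987 q e) (mult_self987 q e)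
    (fun i hi => ctxE_isSheet987 hq ctx hi) ctx.ram ctx.qep_f ctx.normal_f 𝔪 h𝔪 hw𝔪
    (fun h => ctx.incidence 𝔪 h𝔪 h) (fun h => ctx.regular_f 𝔪 h𝔪 h) hm
    (hu 0 (Nat.zero_le e)).1 hdiv (fun i hi => (hu i hi).2)

/-- **Purity at the cusps** (closed points `𝔪 ∋ w, x⁻¹` of the chart at infinity). -/
theorem ctxE_pure_cusp987 (hw : Irreducible w) (hq : q.Prime)
    (ctx : CtxE w q e α β x x' V V')
    (𝔪 : Ideal (chart R ({x⁻¹} : Set F))) (h𝔪 : 𝔪.IsMaximal)
    (hw𝔪 : algebraMap R (chart R ({x⁻¹} : Set F)) w ∈ 𝔪)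
    (hx𝔪 : (⟨x⁻¹, Fermat.Agent.S18.H138.mem_chart_of_mem rfl⟩ : chart R ({x⁻¹} : Set F)) ∈ 𝔪)
    {m : ℕ} (hm : 0 < m) {u : F} (hdiv : DivisibleDiv E m u)
    (hu : ∀ i ≤ e, UnitAt (V i) u) :
    ∃ d : F, d ≠ 0 ∧ ∃ a₀ s₀ : chart R ({x⁻¹} : Set F), a₀ ∉ 𝔪 ∧ s₀ ∉ 𝔪 ∧
      u * d ^ m * (s₀ : F) = a₀ := by
  have hx0 : x ≠ 0 := (ctx.x_unit 0 (Nat.zero_le e)).1
  have hxi : Transcendental E x⁻¹ := Fermat.Agent.S18.H138.transcendental_inv ctx.hx
  have hfini := Fermat.Agent.S36.H987.finiteDimensional_adjoin_inv987 ctx.hfin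
  have hs : ∀ i ≤ e, IsSheet w x⁻¹ (V i) := fun i hi =>
    (Fermat.Agent.S36.H193.isSheet_inv_iff w hx0 (V i)).2 (ctxE_isSheet987 hq ctx hi)
  refine pure_of_family987 w hw hxi hfini ctx.he (mult_zero987 q e) (mult_self987 q e)
    hs ctx.ram ctx.qep_i ctx.normal_i 𝔪 h𝔪 hw𝔪 ?_ ?_ hm
    (hu 0 (Nat.zero_le e)).1 hdiv (fun i hi => (hu i hi).2)
  · rintro ⟨i, hi, j, hj, hij, hthi, hthj⟩
    exact absurd (ctx.cusp_single 𝔪 h𝔪 hw𝔪 hx𝔪 i hi j hj hthi hthj) hij
  · rintro ⟨i, h1, h2, hthi⟩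
    exact ⟨i, by omega, hthi, ctx.regular_i 𝔪 h𝔪 hx𝔪 i h1 h2 hthi⟩

end Ctx

section Inf

variable {R E F F' : Type u} [CommRing R] [IsDomain R] [IsDiscreteValuationRing R]
  [IsAlgClosed (IsLocalRing.ResidueField R)]
  [Field E] [CharZero E] [Algebra R E] [IsFractionRing R E]
  [Field F] [Algebra E F] [Algebra R F] [IsScalarTower R E F]
  [Field F'] [Algebra E F'] [Algebra R F']
variable {w : R} {q e : ℕ} {α β : F' →ₐ[E] F} {x : F} {x' : F'}
  {V : ℕ → ValuationSubring F} {V' : ℕ → ValuationSubring F'}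

/-- **Purity at every closed point of the special fibre of the chart at infinity.** -/
theorem ctxE_pure_inf987 (hw : Irreducible w) (hq : q.Prime)
    (ctx : CtxE w q e α β x x' V V')
    (𝔫 : Ideal (chart R ({x⁻¹} : Set F))) (h𝔫 : 𝔫.IsMaximal)
    (hw𝔫 : algebraMap R (chart R ({x⁻¹} : Set F)) w ∈ 𝔫)
    {m : ℕ} (hm : 0 < m) {u : F} (hdiv : DivisibleDiv E m u)
    (hu : ∀ i ≤ e, UnitAt (V i) u) :
    ∃ d : F, d ≠ 0 ∧ ∃ a₀ s₀ : chart R ({x⁻¹} : Set F), a₀ ∉ 𝔫 ∧ s₀ ∉ 𝔫 ∧
      u * d ^ m * (s₀ : F) = a₀ := by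
  classical
  haveI := h𝔫
  have h𝔫p : 𝔫.IsPrime := h𝔫.isPrime
  have hyB' : x⁻¹ ∈ chart R ({x⁻¹} : Set F) := Fermat.Agent.S18.H138.mem_chart_of_mem rfl
  by_cases hy : (⟨x⁻¹, hyB'⟩ : chart R ({x⁻¹} : Set F)) ∈ 𝔫
  · exact ctxE_pure_cusp987 hw hq ctx 𝔫 h𝔫 hw𝔫 hy hm hdiv hu
  · have hx0 : x ≠ 0 := (ctx.x_unit 0 (Nat.zero_le e)).1
    have h𝔪n' := Fermat.Agent.S36.H630.maximalIdeal_map_mem hw hw𝔫
    have hrat' := Fermat.Agent.S36.H630.rat_chart x⁻¹ 𝔫 h𝔫 h𝔪n'
    have hclear : ∀ b : chart R ({x} : Set F),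
        ∃ k : ℕ, x⁻¹ ^ k * (b : F) ∈ chart R ({x⁻¹} : Set F) :=
      fun b => Fermat.Agent.S18.H138.exists_inv_pow_mul_mem_chart hx0 b.2
    have hnmax : (Fermat.Agent.S36.H630.backIdeal (chart R ({x} : Set F)) 𝔫 x⁻¹ hyB'
        hclear).IsMaximal :=
      Fermat.Agent.S36.H630.backIdeal_isMaximal hyB' hclear hy h𝔪n' hrat'
    have hwn : algebraMap R (chart R ({x} : Set F)) w
        ∈ Fermat.Agent.S36.H630.backIdeal (chart R ({x} : Set F)) 𝔫 x⁻¹ hyB' hclear :=
      (Fermat.Agent.S36.H630.algebraMap_mem_backIdeal_iff hyB' hclear hy w).2 hw𝔫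
    obtain ⟨d, hd0, a₀, s₀, ha₀, hs₀, hpure⟩ :=
      ctxE_pure_fin987 hw hq ctx _ hnmax hwn hm hdiv hu
    obtain ⟨k, hka, hks⟩ := Fermat.Agent.S36.H630.exists_clear₂ hyB' hclear a₀ s₀
    refine ⟨d, hd0, ⟨_, hka⟩, ⟨_, hks⟩, ?_, ?_, ?_⟩
    · intro h
      exact ha₀ ((Fermat.Agent.S36.H630.mem_backIdeal_iff hyB' hclear hy a₀ k hka).2 h)
    · intro h
      exact hs₀ ((Fermat.Agent.S36.H630.mem_backIdeal_iff hyB' hclear hy s₀ k hks).2 h)
    · show u * d ^ m * (x⁻¹ ^ k * (s₀ : F)) = x⁻¹ ^ k * (a₀ : F)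
      rw [← hpure]
      ring

/-- **P1 of ALG-E / PURE**: the purity datum at every closed point of the special fibre of both
charts, in the shape of the purity input of `S36.H630.basePureValuesAt_single` / `LabelAt`. -/
theorem ctxE_pure987 (hw : Irreducible w) (hq : q.Prime)
    (ctx : CtxE w q e α β x x' V V')
    {m : ℕ} (hm : 0 < m) {u : F} (hdiv : DivisibleDiv E m u)
    (hu : ∀ i ≤ e, UnitAt (V i) u) :
    (∀ 𝔫 : Ideal (chart R ({x} : Set F)), 𝔫.IsMaximal →
      algebraMap R (chart R ({x} : Set F)) w ∈ 𝔫 →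
      ∃ (d : F) (a₀ s₀ : chart R ({x} : Set F)), a₀ ∉ 𝔫 ∧ s₀ ∉ 𝔫 ∧
        u * d ^ m * (s₀ : F) = a₀) ∧
    (∀ 𝔫 : Ideal (chart R ({x⁻¹} : Set F)), 𝔫.IsMaximal →
      algebraMap R (chart R ({x⁻¹} : Set F)) w ∈ 𝔫 →
      ∃ (d : F) (a₀ s₀ : chart R ({x⁻¹} : Set F)), a₀ ∉ 𝔫 ∧ s₀ ∉ 𝔫 ∧
        u * d ^ m * (s₀ : F) = a₀) := by
  refine ⟨fun 𝔫 h𝔫 hw𝔫 => ?_, fun 𝔫 h𝔫 hw𝔫 => ?_⟩
  · obtain ⟨d, -, a₀, s₀, h⟩ := ctxE_pure_fin987 hw hq ctx 𝔫 h𝔫 hw𝔫 hm hdiv hu
    exact ⟨d, a₀, s₀, h⟩
  · obtain ⟨d, -, a₀, s₀, h⟩ := ctxE_pure_inf987 hw hq ctx 𝔫 h𝔫 hw𝔫 hm hdiv hu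
    exact ⟨d, a₀, s₀, h⟩

/-- A principal unit (`u - 1 ∈ 𝔪_V`) is a unit. -/
theorem unitAt_of_sub_one987 {F : Type*} [Field F] {W : ValuationSubring F} {u : F}
    (h : u - 1 ∈ W.nonunits) : UnitAt W u :=
  Fermat.Agent.S36.H630.unit_of_split h

end Inf

end Fermat.Agent.S45.H987

end

end
-- ===== PACK-END S45/H987/PureE.lean

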