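import Fermat.Agent.Pack.S45.E1L0
import Fermat.Agent.Pack.S45.E0L0
import Fermat.Agent.Pack.S44C.G0E24L1
import Fermat.Agent.Pack.S44C.G0E17L2
import Fermat.Agent.Pack.S44C.G0E21L1
import Fermat.Agent.Pack.S43MC.G0E24L1
import Fermat.Agent.Pack.S43MC.G0E24L0
import Fermat.Agent.Pack.S44C.G0E20L0
import Fermat.Agent.Pack.S44C.G0E26L0
import Fermat.Agent.Pack.S44C.G0E17L0
import Fermat.Agent.Pack.S43MC.G0E25L1
import Fermat.Agent.Pack.S43MC.G0E20L0
import Fermat.Agent.Pack.S43MC.G0E23L3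
import Fermat.Agent.Pack.S45.E0L3
import Fermat.Agent.Pack.S45.E0L1
import Fermat.Agent.Pack.S44C.G0E6L3
import Fermat.Agent.Pack.S44C.G0E23L2
import Fermat.Agent.Pack.S44C.G0E9L0
import Fermat.Agent.Pack.Fast891

set_option linter.all false

-- ===== PACK-BEGIN S45/ModE/H717/ChainE.lean
section










/-!
# S45 / CAR3 / MOD-E (helper717): the chain `J 0, …, J m` at a valuation ring over `R_E`

Level `N`, `q` prime, `J l = jLev E N q l = j_{q^l}`.  For EVERY valuation subring `U` of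
`F_E(N)` over `R_E` (no component structure is assumed):

* `chain_up`, `chain_down` : `Φ_q(j_{dq} ; j_d) = 0 = Φ_q(j_d ; j_{dq})` in `F_E(N)`;
* `jLev_mem_succ`, `jLev_mem_pred`, `jLev_mem_all` : `J l ∈ U ↔ J (l + 1) ∈ U`;
* `jLev_dich` : KRONECKER, every step is of type `F` (`J (l+1) ≡ J l ^ q`) or of type `V`
  (`J l ≡ J (l+1) ^ q`);
* `jLev_powComm`, `xLev_powComm`, `shift_powComm` : all `J l`, the coordinate `x = ∏ J l` and
  `∏ J (l + 1)` are power-commensurable with `J 0` modulo `𝔪_U`;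
* `jLev_not_both` : a step is not of both types if the residue of `J l` is transcendental.

Main + `ResTrE` only.
-/

set_option autoImplicit false
set_option linter.unusedSectionVars false
set_option linter.style.haveILetI false
set_option synthInstance.maxHeartbeats 400000
set_option maxHeartbeats 1600000

noncomputable section

namespace Fermat.Agent.S45.ModE.H717

open ModularCurve HahnSeries Polynomial
open Fermat.Agent Fermat.Agent.A2.Mod

variable {P : ValuationSubring A2.Qb} {E : IntermediateField ℚ A2.Qb}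

/-! ### The exact modular relations -/

section Series

variable {q : ℕ} [NeZero q]

/-- `Φ_q(j_{dq} ; j_d) = 0` as Laurent series (outer variable `j_{dq}`). -/
theorem modPoly_series_up (Φ : S28.ModPolyData q) (d : ℕ) [NeZero d] :
    Φ.Φ.eval₂ (S28.evalAt (qExpand E d (jqModC E))) (qExpand E (d * q) (jqModC E)) = 0 := by
  have h := congrArg (qExpand E d) (S28.h88_modPoly_eval_jp E q Φ)
  rw [Polynomial.hom_eval₂, map_zero, S28.h88_comp_evalAt, qExpand_qExpand] at h
  exact h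

/-- `Φ_q(j_d ; j_{dq}) = 0` as Laurent series (outer variable `j_d`). -/
theorem modPoly_series_down (Φ : S28.ModPolyData q) (d : ℕ) [NeZero d] :
    Φ.Φ.eval₂ (S28.evalAt (qExpand E (d * q) (jqModC E))) (qExpand E d (jqModC E)) = 0 := by
  have h := congrArg (qExpand E d) (S28.h88_modPoly_eval_j E q Φ)
  rw [Polynomial.hom_eval₂, map_zero, S28.h88_comp_evalAt, qExpand_qExpand] at h
  exact h

/-- **`Φ_q(j_{dq} ; j_d) = 0`** in `F_E(N)`. -/
theorem chain_up (Φ : S28.ModPolyData q) (N d : ℕ) [NeZero d] (hd : d ∣ N)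
    (hdq : d * q ∣ N) :
    Φ.Φ.eval₂ (Polynomial.aeval (R := ℤ) (jE E N d hd)).toRingHom (jE E N (d * q) hdq) = 0 := by
  apply Subtype.ext
  have h := Polynomial.hom_eval₂ Φ.Φ (Polynomial.aeval (R := ℤ) (jE E N d hd)).toRingHom
    (algebraMap (FE E N) (LaurentSeries E)) (jE E N (d * q) hdq)
  have h2 : ((Polynomial.eval₂ (Polynomial.aeval (R := ℤ) (jE E N d hd)).toRingHom
      (jE E N (d * q) hdq) Φ.Φ : FE E N) : LaurentSeries E)
      = Polynomial.eval₂ ((algebraMap (FE E N) (LaurentSeries E)).comp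
          (Polynomial.aeval (R := ℤ) (jE E N d hd)).toRingHom)
          ((jE E N (d * q) hdq : FE E N) : LaurentSeries E) Φ.Φ := h
  rw [h2, S36.H83.h83_coe_comp_aeval, S36.H83.h83_coe_jE, S36.H83.h83_coe_jE]
  exact modPoly_series_up Φ d

/-- **`Φ_q(j_d ; j_{dq}) = 0`** in `F_E(N)`. -/
theorem chain_down (Φ : S28.ModPolyData q) (N d : ℕ) [NeZero d] (hd : d ∣ N)
    (hdq : d * q ∣ N) :
    Φ.Φ.eval₂ (Polynomial.aeval (R := ℤ) (jE E N (d * q) hdq)).toRingHom (jE E N d hd) = 0 := by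
  apply Subtype.ext
  have h := Polynomial.hom_eval₂ Φ.Φ (Polynomial.aeval (R := ℤ) (jE E N (d * q) hdq)).toRingHom
    (algebraMap (FE E N) (LaurentSeries E)) (jE E N d hd)
  have h2 : ((Polynomial.eval₂ (Polynomial.aeval (R := ℤ) (jE E N (d * q) hdq)).toRingHom
      (jE E N d hd) Φ.Φ : FE E N) : LaurentSeries E)
      = Polynomial.eval₂ ((algebraMap (FE E N) (LaurentSeries E)).comp
          (Polynomial.aeval (R := ℤ) (jE E N (d * q) hdq)).toRingHom)
          ((jE E N d hd : FE E N) : LaurentSeries E) Φ.Φ := h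
  rw [h2, S36.H83.h83_coe_comp_aeval, S36.H83.h83_coe_jE, S36.H83.h83_coe_jE]
  exact modPoly_series_down Φ d

end Series

/-! ### One step at a valuation ring -/

section Step

variable {q : ℕ} [NeZero q] {N d : ℕ} [NeZero d]

/-- evaluation of a polynomial with coefficients mapped into a valuation subring -/
theorem eval₂_mem_of_coeff {F : Type*} [Field F] {A : Type*} [CommRing A]
    (V : ValuationSubring F) (φ : A →+* F)
    (hφ : ∀ a, φ a ∈ V) {y : F} (hy : y ∈ V) (p : A[X]) : p.eval₂ φ y ∈ V := by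
  rw [Polynomial.eval₂_eq_sum, Polynomial.sum]
  exact sum_mem fun i _ => V.mul_mem _ _ (hφ _) (pow_mem hy i)

/-- `j_{dq}` is integral over `ℤ[j_d]`. -/
theorem jE_mem_up (hq : q.Prime) (hd : d ∣ N) (hdq : d * q ∣ N)
    (U : ValuationSubring (FE E N)) (hj : jE E N d hd ∈ U) : jE E N (d * q) hdq ∈ U := by
  obtain ⟨Φ⟩ := S28.H807.nonempty_modPolyData q hq
  refine A2.H48.mem_of_monic_root U
    (Φ.monic.map (Polynomial.aeval (R := ℤ) (jE E N d hd)).toRingHom)
    (fun i => ?_) ?_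
  · rw [Polynomial.coeff_map]
    exact S36.H83.h83_aeval_mem U hj _
  · rw [Polynomial.eval_map]
    exact chain_up Φ N d hd hdq

/-- `j_d` is integral over `ℤ[j_{dq}]`. -/
theorem jE_mem_down (hq : q.Prime) (hd : d ∣ N) (hdq : d * q ∣ N)
    (U : ValuationSubring (FE E N)) (hj : jE E N (d * q) hdq ∈ U) : jE E N d hd ∈ U := by
  obtain ⟨Φ⟩ := S28.H807.nonempty_modPolyData q hq
  refine A2.H48.mem_of_monic_root U
    (Φ.monic.map (Polynomial.aeval (R := ℤ) (jE E N (d * q) hdq)).toRingHom)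
    (fun i => ?_) ?_
  · rw [Polynomial.coeff_map]
    exact S36.H83.h83_aeval_mem U hj _
  · rw [Polynomial.eval_map]
    exact chain_down Φ N d hd hdq

/-- **Kronecker**: `(j_{dq}^q - j_d)(j_{dq} - j_d^q) = - q θ` with `θ ∈ U`. -/
theorem kron_rel (hq : q.Prime) (hd : d ∣ N) (hdq : d * q ∣ N)
    (U : ValuationSubring (FE E N)) (hj : jE E N d hd ∈ U) (hjq : jE E N (d * q) hdq ∈ U) :
    ∃ θ ∈ U, ((jE E N (d * q) hdq) ^ q - jE E N d hd) * (jE E N (d * q) hdq - (jE E N d hd) ^ q)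
      = -(((q : ℕ) : FE E N) * θ) := by
  haveI : Fact q.Prime := ⟨hq⟩
  obtain ⟨Φ⟩ := S28.H807.nonempty_modPolyData q hq
  obtain ⟨Θ, hΘ⟩ := S28.h88_kronecker_int q Φ
  have h0 := chain_up (E := E) Φ N d hd hdq
  set φ : Polynomial ℤ →+* FE E N := (Polynomial.aeval (R := ℤ) (jE E N d hd)).toRingHom with hφ
  have hφX : φ Polynomial.X = jE E N d hd := by
    rw [hφ]
    simp
  have hφC : φ (Polynomial.C ((q : ℕ) : ℤ)) = ((q : ℕ) : FE E N) := by
    rw [hφ]
    simp
  refine ⟨Θ.eval₂ φ (jE E N (d * q) hdq),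
    eval₂_mem_of_coeff U φ (fun c => S36.H83.h83_aeval_mem U hj c) hjq Θ, ?_⟩
  rw [hΘ, Polynomial.eval₂_add, Polynomial.eval₂_mul, Polynomial.eval₂_mul,
    Polynomial.eval₂_sub, Polynomial.eval₂_sub, Polynomial.eval₂_pow, Polynomial.eval₂_X,
    Polynomial.eval₂_C, Polynomial.eval₂_C, Polynomial.eval₂_C, map_pow, hφX, hφC] at h0
  exact eq_neg_of_add_eq_zero_left h0

/-- **Kronecker, two cases**: `j_{dq} ≡ j_d ^ q` (type `F`) or `j_d ≡ j_{dq} ^ q` (type `V`)
modulo `𝔪_U`. -/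
theorem kron_dich (hq : q.Prime) (hd : d ∣ N) (hdq : d * q ∣ N)
    {U : ValuationSubring (FE E N)} (hqU : ((q : ℕ) : FE E N) ∈ U.nonunits)
    (hj : jE E N d hd ∈ U) :
    jE E N (d * q) hdq - (jE E N d hd) ^ q ∈ U.nonunits ∨
      jE E N d hd - (jE E N (d * q) hdq) ^ q ∈ U.nonunits := by
  have hjq : jE E N (d * q) hdq ∈ U := jE_mem_up hq hd hdq U hj
  obtain ⟨θ, hθ, hrel⟩ := kron_rel (E := E) hq hd hdq U hj hjq
  have hprod : ((jE E N (d * q) hdq) ^ q - jE E N d hd) *
      (jE E N (d * q) hdq - (jE E N d hd) ^ q) ∈ U.nonunits := by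
    rw [hrel]
    exact neg_mem_nu U (mul_mem_nu_left U hqU hθ)
  rcases mul_mem_nonunits_cases U (sub_mem (pow_mem hjq q) hj) (sub_mem hjq (pow_mem hj q)) hprod
    with h | h
  · right
    exact cong_symm U h
  · left
    exact h

end Step

/-! ### `q ∈ 𝔪_U` -/

section Over

variable {q : ℕ} [NeZero q] {w : RE P E} {N : ℕ}

/-- `q ∈ 𝔪_U` for a valuation subring over `R_E`. -/
theorem natCast_mem_nonunits_of_isOver (hS : S36.H370.SettingQ P E q w)
    {U : ValuationSubring (FE E N)}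
    (hU : haveI := hS.dvr; A2.H489.IsOver (RE P E) U) : ((q : ℕ) : FE E N) ∈ U.nonunits := by
  haveI := hS.dvr
  obtain ⟨c, hc⟩ := S36.H370.exists_q_eqQ hS
  have h1 : w * c ∈ IsLocalRing.maximalIdeal (RE P E) :=
    Ideal.mul_mem_right _ _ ((IsLocalRing.mem_maximalIdeal w).mpr hS.unif.not_isUnit)
  have h2 := hU.nonunit (w * c) h1
  have e : algebraMap (RE P E) (FE E N) (w * c) = ((q : ℕ) : FE E N) := by
    rw [A2.Mod.H13.algebraMap_RE_eq]
    have : ((w * c : RE P E) : E) = ((q : ℕ) : E) := by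
      rw [hc]
      rfl
    rw [this, map_natCast]
  rw [e] at h2
  exact h2

end Over

/-! ### The chain `J l` -/

section Chain

variable (E) (N q : ℕ) [NeZero N] [NeZero q]

theorem jLev_eq {l : ℕ} (h : q ^ l ∣ N) : jLev E N q l = jE E N (q ^ l) h := by
  rw [jLev, dif_pos h]

theorem pow_mul_dvd {l : ℕ} (h : q ^ (l + 1) ∣ N) : q ^ l * q ∣ N := by
  rwa [← pow_succ]

theorem pow_dvd_pred {l : ℕ} (h : q ^ (l + 1) ∣ N) : q ^ l ∣ N :=
  (pow_dvd_pow q (Nat.le_succ l)).trans h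

theorem jLev_succ_eq {l : ℕ} (h : q ^ (l + 1) ∣ N) :
    jLev E N q (l + 1) = jE E N (q ^ l * q) (pow_mul_dvd N q h) := by
  rw [jLev_eq E N q h]
  exact A2.Mod.H751.jE_congr E N (pow_succ q l) _ _

variable {E N q}

theorem jLev_mem_succ (hq : q.Prime) {l : ℕ} (h : q ^ (l + 1) ∣ N)
    (U : ValuationSubring (FE E N)) (hj : jLev E N q l ∈ U) : jLev E N q (l + 1) ∈ U := by
  rw [jLev_succ_eq E N q h]
  rw [jLev_eq E N q (pow_dvd_pred N q h)] at hj
  exact jE_mem_up hq _ _ U hj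

theorem jLev_mem_pred (hq : q.Prime) {l : ℕ} (h : q ^ (l + 1) ∣ N)
    (U : ValuationSubring (FE E N)) (hj : jLev E N q (l + 1) ∈ U) : jLev E N q l ∈ U := by
  rw [jLev_succ_eq E N q h] at hj
  rw [jLev_eq E N q (pow_dvd_pred N q h)]
  exact jE_mem_down hq _ _ U hj

/-- **Kronecker along the chain**: the step `l` is of type `F` or of type `V`. -/
theorem jLev_dich (hq : q.Prime) {l : ℕ} (h : q ^ (l + 1) ∣ N)
    {U : ValuationSubring (FE E N)} (hqU : ((q : ℕ) : FE E N) ∈ U.nonunits)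
    (hj : jLev E N q l ∈ U) :
    jLev E N q (l + 1) - jLev E N q l ^ q ∈ U.nonunits ∨
      jLev E N q l - jLev E N q (l + 1) ^ q ∈ U.nonunits := by
  rw [jLev_succ_eq E N q h]
  rw [jLev_eq E N q (pow_dvd_pred N q h)] at hj ⊢
  exact kron_dich hq _ _ hqU hj

theorem jLev_mem_all (hq : q.Prime) {m : ℕ} (h : q ^ m ∣ N)
    (U : ValuationSubring (FE E N)) (h0 : jLev E N q 0 ∈ U) :
    ∀ l ≤ m, jLev E N q l ∈ U := by
  intro l
  induction l with
  | zero => intro _; exact h0
  | succ l ih =>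
      intro hl
      exact jLev_mem_succ hq ((pow_dvd_pow q hl).trans h) U (ih (Nat.le_of_succ_le hl))

/-- all `J l` are power-commensurable with `J 0`. -/
theorem jLev_powComm (hq : q.Prime) {m : ℕ} (h : q ^ m ∣ N)
    {U : ValuationSubring (FE E N)} (hqU : ((q : ℕ) : FE E N) ∈ U.nonunits)
    (h0 : jLev E N q 0 ∈ U) :
    ∀ l ≤ m, PowComm U (jLev E N q l) (jLev E N q 0) := by
  have hq0 : 0 < q := hq.pos
  intro l
  induction l with
  | zero => intro _; exact PowComm.refl _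
  | succ l ih =>
      intro hl
      have hl' : l ≤ m := Nat.le_of_succ_le hl
      have hdvd : q ^ (l + 1) ∣ N := (pow_dvd_pow q hl).trans h
      have hjl : jLev E N q l ∈ U := jLev_mem_all hq h U h0 l hl'
      have hjl1 : jLev E N q (l + 1) ∈ U := jLev_mem_all hq h U h0 (l + 1) hl
      have hstep : PowComm U (jLev E N q (l + 1)) (jLev E N q l) := by
        rcases jLev_dich hq hdvd hqU hjl with hF | hV
        · refine ⟨1, q, one_pos, hq0, ?_⟩
          rw [pow_one]
          exact hF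
        · refine ⟨q, 1, hq0, one_pos, ?_⟩
          rw [pow_one]
          exact cong_symm U hV
      exact PowComm.trans hjl1 hjl h0 hstep (ih hl')

/-- the coordinate `x = J 0 ⋯ J m` is power-commensurable with `J 0`. -/
theorem xLev_powComm (hq : q.Prime) {m : ℕ} (h : q ^ m ∣ N)
    {U : ValuationSubring (FE E N)} (hqU : ((q : ℕ) : FE E N) ∈ U.nonunits)
    (h0 : jLev E N q 0 ∈ U) : PowComm U (xLev E N q m) (jLev E N q 0) := by
  rw [xLev]
  exact PowComm.prod_range h0 m (jLev_mem_all hq h U h0) (jLev_powComm hq h hqU h0)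

theorem xLev_mem (hq : q.Prime) {m : ℕ} (h : q ^ m ∣ N)
    (U : ValuationSubring (FE E N)) (h0 : jLev E N q 0 ∈ U) : xLev E N q m ∈ U := by
  rw [xLev]
  exact prod_mem fun l hl =>
    jLev_mem_all hq h U h0 l (by have := Finset.mem_range.mp hl; omega)

/-- the shifted product `J 1 ⋯ J (m + 1)` is power-commensurable with `J 0`. -/
theorem shift_powComm (hq : q.Prime) {m : ℕ} (h : q ^ (m + 1) ∣ N)
    {U : ValuationSubring (FE E N)} (hqU : ((q : ℕ) : FE E N) ∈ U.nonunits)
    (h0 : jLev E N q 0 ∈ U) :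
    PowComm U (∏ l ∈ Finset.range (m + 1), jLev E N q (l + 1)) (jLev E N q 0) :=
  PowComm.prod_range (s := fun l => jLev E N q (l + 1)) h0 m
    (fun l hl => jLev_mem_all hq h U h0 (l + 1) (by omega))
    (fun l hl => jLev_powComm hq h hqU h0 (l + 1) (by omega))

theorem shift_mem (hq : q.Prime) {m : ℕ} (h : q ^ (m + 1) ∣ N)
    (U : ValuationSubring (FE E N)) (h0 : jLev E N q 0 ∈ U) :
    (∏ l ∈ Finset.range (m + 1), jLev E N q (l + 1)) ∈ U :=
  prod_mem fun l hl =>
    jLev_mem_all hq h U h0 (l + 1) (by have := Finset.mem_range.mp hl; omega)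

end Chain

/-! ### A step is not of both types -/

section NotBoth

variable {R L : Type*} [CommRing R] [IsLocalRing R] [Field L] [Algebra R L]
  {V : ValuationSubring L}

/-- `y ≡ x ^ q` and `x ≡ y ^ q` is impossible if the residue of `x` is transcendental. -/
theorem not_both_of_resTr [Nontrivial (IsLocalRing.ResidueField R)] {x y : L} {q : ℕ}
    (hq : 2 ≤ q) (hx : x ∈ V) (hy : y ∈ V)
    (h : ResTr R V x) (hF : y - x ^ q ∈ V.nonunits) (hV : x - y ^ q ∈ V.nonunits) : False := by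
  have h1 : y ^ q - (x ^ q) ^ q ∈ V.nonunits := pow_cong V hy (pow_mem hx q) hF q
  have h2 : x - (x ^ q) ^ q ∈ V.nonunits := cong_trans V hV h1
  rw [← pow_mul] at h2
  exact resTr_sub_pow_not_mem h (k := q * q) (by nlinarith) h2

end NotBoth

end Fermat.Agent.S45.ModE.H717

end

end
-- ===== PACK-END S45/ModE/H717/ChainE.lean

-- ===== PACK-BEGIN S45/ModE/H717/TableE.lean
section



/-!
# S45 / CAR3 / MOD-E, leaf TABLE-E (helper717): `theorem leafTableE717 : ModE.LeafTableE`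

UNCONDITIONAL (no other leaf is used; in particular NOT the upper KRON-E, cf. helper590 #14505).

Lower level `N` of exponent `n ≥ 2`, components `V' j` (`j ≤ n`), upper level `N q`.

**Core** (`comap_beta_of_comap_alpha`).  Let `U` be ANY valuation subring of `F_E(N q)` with
`U.comap α = V' j` (`j ≤ n`), and `U ≠ V∞(N q)`.  Then `U.comap β = V' (min (j + 1) n)`.

Proof.
1. `U` lies over `R_E`, the residue of `J 0 = α (J' 0)` is transcendental (lower `sheet`, `ff`),
   all `J l ∈ U` and are power-commensurable with `J 0` modulo `𝔪_U` (Kronecker dichotomy), so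
   `β x' = J 1 ⋯ J (n + 1)` is residually transcendental: `U.comap β` is a sheet of `x'`, hence
   `U.comap β = V' k` for some `k ≤ n` (lower `complete`).
2. The types of the steps `1, …, n - 1` of the chain on `U` are given by the lower `kron` in two
   ways: through `α` (`V' j`) and through `β` (`V' k`).  A step is not of both types (residual
   transcendence).  For `n ≥ 2` this forces `k = min (j + 1) n`, or `j = 0 ∧ k = 0`.
3. `j = 0 ∧ k = 0`: `U.comap β = V∞(N)`, so `U = V∞(N q)` (helper83, `h83_beta_unique`: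
   `V∞(N q)` is the only valuation ring over `β (V∞(N))`, `q ∣ N`).

No Eisenstein input, no uniqueness of extensions along `α`.
-/

set_option autoImplicit false
set_option linter.unusedSectionVars false
set_option linter.style.haveILetI false
set_option synthInstance.maxHeartbeats 400000
set_option maxHeartbeats 1600000

noncomputable section

namespace Fermat.Agent.S45.ModE.H717

open ModularCurve Polynomial
open Fermat.Agent Fermat.Agent.A2.Mod
open Fermat.Agent.S36 Fermat.Agent.S36.Eng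

variable {P : ValuationSubring A2.Qb} {E : IntermediateField ℚ A2.Qb}

/-! ### Generalities -/

section General

variable {F F' : Type*} [Field F] [Field F']

theorem map_mem_nu {φ : F' →+* F} {U : ValuationSubring F} {U' : ValuationSubring F'}
    (h : U.comap φ = U') {x : F'} (hx : x ∈ U'.nonunits) : φ x ∈ U.nonunits := by
  rw [← h] at hx
  exact (mem_nonunits_comap_hom U φ x).1 hx

theorem map_mem_of_comap {φ : F' →+* F} {U : ValuationSubring F} {U' : ValuationSubring F'}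
    (h : U.comap φ = U') {x : F'} (hx : x ∈ U') : φ x ∈ U := by
  rw [← h] at hx
  exact hx

end General

/-! ### Sheets and residual transcendence -/

section Sheet

variable {N : ℕ} [IsDiscreteValuationRing (RE P E)] {w : RE P E}

theorem not_dvd_of_residue_ne (hw : Irreducible w) {c : RE P E}
    (hc : IsLocalRing.residue (RE P E) c ≠ 0) : ¬ w ∣ c := by
  intro hdvd
  apply hc
  rw [IsLocalRing.residue_eq_zero_iff, hw.maximalIdeal_eq]
  exact Ideal.mem_span_singleton.mpr hdvd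

theorem residue_ne_of_not_dvd (hw : Irreducible w) {c : RE P E} (hc : ¬ w ∣ c) :
    IsLocalRing.residue (RE P E) c ≠ 0 := by
  intro h
  apply hc
  rw [IsLocalRing.residue_eq_zero_iff, hw.maximalIdeal_eq] at h
  exact Ideal.mem_span_singleton.mp h

/-- `IsOver` from `R ⊆ V` and `w ∈ 𝔪_V`. -/
theorem isOver_of_base (hw : Irreducible w) {V : ValuationSubring (FE E N)}
    (hbase : ∀ r : RE P E, algebraMap (RE P E) (FE E N) r ∈ V)
    (hwV : algebraMap (RE P E) (FE E N) w ∈ V.nonunits) : A2.H489.IsOver (RE P E) V where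
  mem := hbase
  nonunit := fun a ha => by
    rw [hw.maximalIdeal_eq] at ha
    obtain ⟨c, hc⟩ := Ideal.mem_span_singleton'.mp ha
    rw [← hc, map_mul]
    exact mul_mem_nu_right V (hbase c) hwV

/-- the Gauss clause of a sheet gives residual transcendence -/
theorem resTr_of_gauss (hw : Irreducible w) {V : ValuationSubring (FE E N)} {x : FE E N}
    (hx : Transcendental (RE P E) x)
    (hg : ∀ Q : Polynomial (RE P E), (∃ k, ¬ w ∣ Q.coeff k) → (Polynomial.aeval x Q)⁻¹ ∈ V) :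
    ResTr (RE P E) V x := by
  intro Q hQ
  by_contra hne
  obtain ⟨k, hk⟩ : ∃ k, (Q.map (IsLocalRing.residue (RE P E))).coeff k ≠ 0 := by
    by_contra hall
    push_neg at hall
    exact hne (Polynomial.ext fun k => by rw [hall k, Polynomial.coeff_zero])
  rw [Polynomial.coeff_map] at hk
  have hinv := hg Q ⟨k, not_dvd_of_residue_ne hw hk⟩
  rcases (ValuationSubring.mem_nonunits_iff_or V).mp hQ with h0 | h0
  · have hQ0 : Q = 0 := (transcendental_iff.mp hx) Q h0
    apply hne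
    rw [hQ0, Polynomial.map_zero]
  · exact h0 hinv

/-- residual transcendence gives the Gauss clause of a sheet -/
theorem gauss_of_resTr (hw : Irreducible w) {V : ValuationSubring (FE E N)} {x : FE E N}
    (hbase : ∀ r : RE P E, algebraMap (RE P E) (FE E N) r ∈ V) (hx : x ∈ V)
    (h : ResTr (RE P E) V x) (Q : Polynomial (RE P E)) (hQ : ∃ k, ¬ w ∣ Q.coeff k) :
    (Polynomial.aeval x Q)⁻¹ ∈ V := by
  obtain ⟨k, hk⟩ := hQ
  have hmem : Polynomial.aeval x Q ∈ V := by
    rw [Polynomial.aeval_def]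
    exact eval₂_mem_of_coeff V _ hbase hx Q
  refine inv_mem_of_not_mem_nu V hmem fun hnu => ?_
  have h0 := h Q hnu
  have h1 : (Q.map (IsLocalRing.residue (RE P E))).coeff k = 0 := by
    rw [h0, Polynomial.coeff_zero]
  rw [Polynomial.coeff_map] at h1
  exact residue_ne_of_not_dvd hw hk h1

end Sheet

/-! ### The chain under `α` and `β` -/

section Maps

variable (E) (N q : ℕ) [NeZero N] [NeZero q] [NeZero (N * q)]

/-- `α (J' l) = J l`. -/
theorem alpha_jLev (l : ℕ) (hl : q ^ l ∣ N) :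
    αE E N q (jLev E N q l) = jLev E (N * q) q l := by
  have hl' : q ^ l ∣ N * q := hl.mul_right q
  rw [jLev, jLev, dif_pos hl, dif_pos hl']
  exact A2.Mod.H751.alpha_jE E N q (q ^ l) hl

/-- `β (J' l) = J (l + 1)`. -/
theorem beta_jLev (l : ℕ) (hl : q ^ l ∣ N) :
    βE E N q (jLev E N q l) = jLev E (N * q) q (l + 1) := by
  have hl' : q ^ (l + 1) ∣ N * q := by
    rw [pow_succ]
    exact mul_dvd_mul_right hl q
  rw [jLev, jLev, dif_pos hl, dif_pos hl']
  rw [A2.Mod.H751.beta_jE E N q (q ^ l) hl]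
  exact A2.Mod.H751.jE_congr E (N * q) (by rw [pow_succ, mul_comm]) _ _

variable {N q}

theorem pow_dvd_of_le {n : ℕ} (hexp : N.factorization q = n) {l : ℕ} (hl : l ≤ n) :
    q ^ l ∣ N := by
  have h1 : q ^ (N.factorization q) ∣ N := Nat.ordProj_dvd N q
  rw [hexp] at h1
  exact (pow_dvd_pow q hl).trans h1

theorem pow_dvd_succ {n : ℕ} (hexp : N.factorization q = n) : q ^ (n + 1) ∣ N * q := by
  rw [pow_succ]
  exact mul_dvd_mul_right (pow_dvd_of_le hexp le_rfl) q

variable (N q)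

/-- `β x' = J 1 ⋯ J (n + 1)`. -/
theorem beta_xLev {n : ℕ} (hexp : N.factorization q = n) :
    βE E N q (xLev E N q n) = ∏ l ∈ Finset.range (n + 1), jLev E (N * q) q (l + 1) := by
  rw [xLev, map_prod]
  exact Finset.prod_congr rfl fun l hl =>
    beta_jLev E N q l (pow_dvd_of_le hexp (by have := Finset.mem_range.mp hl; omega))

theorem alpha_algebraMap_RE (r : RE P E) :
    (αE E N q : FE E N →+* FE E (N * q)) (algebraMap (RE P E) (FE E N) r)
      = algebraMap (RE P E) (FE E (N * q)) r :=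
  (αE E N q).commutes (r : E)

theorem beta_algebraMap_RE (r : RE P E) :
    (βE E N q : FE E N →+* FE E (N * q)) (algebraMap (RE P E) (FE E N) r)
      = algebraMap (RE P E) (FE E (N * q)) r :=
  (βE E N q).commutes (r : E)

end Maps

/-! ### The core -/

section Core

variable {N q : ℕ} [NeZero N] [NeZero q] [NeZero (N * q)] {n : ℕ} {w : RE P E}
  {V' : ℕ → ValuationSubring (FE E N)} {W' : FE E N ≃ₐ[E] FE E N}
  [IsDiscreteValuationRing (RE P E)]

/-- `w ∈ 𝔪_{V' j}`. -/
theorem w_mem_nu_lower (hL : LevelCtx P E N q n w V' W') {j : ℕ} (hj : j ≤ n) :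
    algebraMap (RE P E) (FE E N) w ∈ (V' j).nonunits := by
  obtain ⟨t, ht, hu⟩ := hL.val.ram j hj
  obtain ⟨ht0, htnu, -⟩ := ht
  obtain ⟨-, hu1, -⟩ := hu
  have hmu : 0 < mu q n j := by
    unfold mu
    exact Nat.totient_pos.mpr (Nat.pos_of_ne_zero (pow_ne_zero _ (NeZero.ne q)))
  have htm : t ^ mu q n j ∈ (V' j).nonunits := by
    obtain ⟨m, hm⟩ : ∃ m, mu q n j = m + 1 := ⟨mu q n j - 1, by omega⟩
    rw [hm, pow_succ]
    exact mul_mem_nu_right (V' j) (pow_mem (ValuationSubring.nonunits_subset htnu) m) htnu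
  have e : algebraMap (RE P E) (FE E N) w
      = algebraMap (RE P E) (FE E N) w * (t ^ mu q n j)⁻¹ * t ^ mu q n j := by
    rw [mul_assoc, inv_mul_cancel₀ (pow_ne_zero _ ht0), mul_one]
  rw [e]
  exact mul_mem_nu_right (V' j) hu1 htm

/-- the facts about the lower level which are used -/
theorem lower_facts (hStd : StdE P E N q n w) (hL : LevelCtx P E N q n w V' W') {j : ℕ}
    (hj : j ≤ n) :
    A2.H489.IsOver (RE P E) (V' j) ∧ jLev E N q 0 ∈ V' j ∧
      ResTr (RE P E) (V' j) (jLev E N q 0) := by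
  have hover : A2.H489.IsOver (RE P E) (V' j) :=
    isOver_of_base hStd.unif (hL.sheet.base j hj) (w_mem_nu_lower hL hj)
  have hQ : S36.H370.SettingQ P E q w :=
    ⟨hStd.q_prime, hStd.lies_over, inferInstance, hStd.unif⟩
  have hqV : ((q : ℕ) : FE E N) ∈ (V' j).nonunits := natCast_mem_nonunits_of_isOver hQ hover
  have h0 : jLev E N q 0 ∈ V' j := (hL.kron.unit j hj 0 (Nat.zero_le n)).2.1
  have hpow : q ^ n ∣ N := pow_dvd_of_le hStd.exp le_rfl
  have hx : xLev E N q n ∈ V' j := xLev_mem hStd.q_prime hpow (V' j) h0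
  have hxtr : ResTr (RE P E) (V' j) (xLev E N q n) :=
    resTr_of_gauss hStd.unif (A2.Mod.H13.transcendental_RE hL.ff.hx) (hL.sheet.gauss j hj)
  refine ⟨hover, h0, ?_⟩
  exact resTr_of_powComm hover h0 hx (xLev_powComm hStd.q_prime hpow hqV h0).symm hxtr

variable {U : ValuationSubring (FE E (N * q))}

/-- the facts about a valuation ring `U` over `V' j` along `α` -/
theorem upper_facts (hStd : StdE P E N q n w) (hL : LevelCtx P E N q n w V' W') {j : ℕ}
    (hj : j ≤ n) (hU : U.comap (αE E N q : FE E N →+* FE E (N * q)) = V' j) :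
    A2.H489.IsOver (RE P E) U ∧ ((q : ℕ) : FE E (N * q)) ∈ U.nonunits ∧
      (∀ l ≤ n + 1, jLev E (N * q) q l ∈ U) ∧
      (∀ l ≤ n + 1, ResTr (RE P E) U (jLev E (N * q) q l)) ∧
      (∏ l ∈ Finset.range (n + 1), jLev E (N * q) q (l + 1)) ∈ U ∧
      ResTr (RE P E) U (∏ l ∈ Finset.range (n + 1), jLev E (N * q) q (l + 1)) := by
  obtain ⟨hover', h0', htr'⟩ := lower_facts hStd hL hj
  have hQ : S36.H370.SettingQ P E q w :=
    ⟨hStd.q_prime, hStd.lies_over, inferInstance, hStd.unif⟩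
  have hover : A2.H489.IsOver (RE P E) U :=
    isOver_of_comap (αE E N q : FE E N →+* FE E (N * q)) (alpha_algebraMap_RE E N q) hU hover'
  have hqU : ((q : ℕ) : FE E (N * q)) ∈ U.nonunits := natCast_mem_nonunits_of_isOver hQ hover
  have hα0 : (αE E N q : FE E N →+* FE E (N * q)) (jLev E N q 0) = jLev E (N * q) q 0 :=
    alpha_jLev E N q 0 (pow_dvd_of_le hStd.exp (Nat.zero_le n))
  have h0 : jLev E (N * q) q 0 ∈ U := by
    rw [← hα0]
    exact map_mem_of_comap hU h0'
  have htr0 : ResTr (RE P E) U (jLev E (N * q) q 0) := by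
    rw [← hα0]
    exact resTr_map (αE E N q : FE E N →+* FE E (N * q)) (alpha_algebraMap_RE E N q) hU htr'
  have hpow : q ^ (n + 1) ∣ N * q := pow_dvd_succ hStd.exp
  have hall : ∀ l ≤ n + 1, jLev E (N * q) q l ∈ U := jLev_mem_all hStd.q_prime hpow U h0
  refine ⟨hover, hqU, hall, fun l hl => ?_, shift_mem hStd.q_prime hpow U h0, ?_⟩
  · exact resTr_of_powComm hover (hall l hl) h0 (jLev_powComm hStd.q_prime hpow hqU h0 l hl) htr0
  · exact resTr_of_powComm hover (shift_mem hStd.q_prime hpow U h0) h0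
      (shift_powComm hStd.q_prime hpow hqU h0) htr0

/-- **Step 1.**  `U.comap β` is one of the components of the lower level. -/
theorem exists_comap_beta (hStd : StdE P E N q n w) (hL : LevelCtx P E N q n w V' W') {j : ℕ}
    (hj : j ≤ n) (hU : U.comap (αE E N q : FE E N →+* FE E (N * q)) = V' j) :
    ∃ k ≤ n, U.comap (βE E N q : FE E N →+* FE E (N * q)) = V' k := by
  obtain ⟨hover, hqU, hall, -, hsm, hstr⟩ := upper_facts hStd hL hj hU
  have hover' : A2.H489.IsOver (RE P E) (U.comap (βE E N q : FE E N →+* FE E (N * q))) :=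
    isOver_comap (βE E N q : FE E N →+* FE E (N * q)) (beta_algebraMap_RE E N q) hover
  have hβx : (βE E N q : FE E N →+* FE E (N * q)) (xLev E N q n)
      = ∏ l ∈ Finset.range (n + 1), jLev E (N * q) q (l + 1) := beta_xLev E N q hStd.exp
  have hx' : xLev E N q n ∈ U.comap (βE E N q : FE E N →+* FE E (N * q)) := by
    rw [ValuationSubring.mem_comap, hβx]
    exact hsm
  have htr' : ResTr (RE P E) (U.comap (βE E N q : FE E N →+* FE E (N * q))) (xLev E N q n) := by
    refine resTr_comap (βE E N q : FE E N →+* FE E (N * q)) (beta_algebraMap_RE E N q) ?_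
    rw [hβx]
    exact hstr
  have hw' : algebraMap (RE P E) (FE E N) w
      ∈ (U.comap (βE E N q : FE E N →+* FE E (N * q))).nonunits :=
    hover'.nonunit w ((IsLocalRing.mem_maximalIdeal w).mpr hStd.unif.not_isUnit)
  exact hL.complete.complete _ hover'.mem hx' hw'
    (gauss_of_resTr hStd.unif hover'.mem hx' htr')

/-- the types of the steps `l < n` of the chain on `U`, through `α` -/
theorem pat_alpha (hStd : StdE P E N q n w) (hL : LevelCtx P E N q n w V' W') {j : ℕ}
    (hj : j ≤ n) (hU : U.comap (αE E N q : FE E N →+* FE E (N * q)) = V' j) (l : ℕ)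
    (hl : l < n) :
    (l < n - j → jLev E (N * q) q (l + 1) - jLev E (N * q) q l ^ q ∈ U.nonunits) ∧
      (n - j ≤ l → jLev E (N * q) q l - jLev E (N * q) q (l + 1) ^ q ∈ U.nonunits) := by
  have e0 : (αE E N q : FE E N →+* FE E (N * q)) (jLev E N q l) = jLev E (N * q) q l :=
    alpha_jLev E N q l (pow_dvd_of_le hStd.exp hl.le)
  have e1 : (αE E N q : FE E N →+* FE E (N * q)) (jLev E N q (l + 1))
      = jLev E (N * q) q (l + 1) :=
    alpha_jLev E N q (l + 1) (pow_dvd_of_le hStd.exp hl)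
  constructor
  · intro h
    have h1 := map_mem_nu hU (hL.kron.frob j hj l h)
    rwa [map_sub, map_pow, e0, e1] at h1
  · intro h
    have h1 := map_mem_nu hU (hL.kron.ver j hj l h hl)
    rwa [map_sub, map_pow, e0, e1] at h1

/-- the types of the steps `l + 1`, `l < n`, of the chain on `U`, through `β` -/
theorem pat_beta (hStd : StdE P E N q n w) (hL : LevelCtx P E N q n w V' W') {k : ℕ}
    (hk : k ≤ n) (hU : U.comap (βE E N q : FE E N →+* FE E (N * q)) = V' k) (l : ℕ)
    (hl : l < n) :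
    (l < n - k → jLev E (N * q) q (l + 1 + 1) - jLev E (N * q) q (l + 1) ^ q ∈ U.nonunits) ∧
      (n - k ≤ l →
        jLev E (N * q) q (l + 1) - jLev E (N * q) q (l + 1 + 1) ^ q ∈ U.nonunits) := by
  have e0 : (βE E N q : FE E N →+* FE E (N * q)) (jLev E N q l) = jLev E (N * q) q (l + 1) :=
    beta_jLev E N q l (pow_dvd_of_le hStd.exp hl.le)
  have e1 : (βE E N q : FE E N →+* FE E (N * q)) (jLev E N q (l + 1))
      = jLev E (N * q) q (l + 1 + 1) :=
    beta_jLev E N q (l + 1) (pow_dvd_of_le hStd.exp hl)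
  constructor
  · intro h
    have h1 := map_mem_nu hU (hL.kron.frob k hk l h)
    rwa [map_sub, map_pow, e0, e1] at h1
  · intro h
    have h1 := map_mem_nu hU (hL.kron.ver k hk l h hl)
    rwa [map_sub, map_pow, e0, e1] at h1

/-- **Step 2.**  Comparison of the two patterns. -/
theorem comap_beta_index (hStd : StdE P E N q n w) (hn : 2 ≤ n)
    (hL : LevelCtx P E N q n w V' W') {j k : ℕ} (hj : j ≤ n) (hk : k ≤ n)
    (hU : U.comap (αE E N q : FE E N →+* FE E (N * q)) = V' j)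
    (hU' : U.comap (βE E N q : FE E N →+* FE E (N * q)) = V' k) :
    k = min (j + 1) n ∨ (j = 0 ∧ k = 0) := by
  obtain ⟨-, -, hall, htr, -, -⟩ := upper_facts hStd hL hj hU
  haveI : Nontrivial (IsLocalRing.ResidueField (RE P E)) := inferInstance
  have hq2 : 2 ≤ q := hStd.q_prime.two_le
  -- a step `l ≤ n` of the chain on `U` is not of both types
  have hnb : ∀ l, l + 1 ≤ n + 1 →
      jLev E (N * q) q (l + 1) - jLev E (N * q) q l ^ q ∈ U.nonunits →
      jLev E (N * q) q l - jLev E (N * q) q (l + 1) ^ q ∈ U.nonunits → False :=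
    fun l hl hF hV =>
      not_both_of_resTr hq2 (hall l (by omega)) (hall (l + 1) hl) (htr l (by omega)) hF hV
  by_contra hcon
  rw [not_or, not_and_or] at hcon
  obtain ⟨hne, hjk⟩ := hcon
  rcases Nat.lt_or_ge j n with hjn | hjn
  · -- `j + 1 ≤ n`
    have hmin : min (j + 1) n = j + 1 := Nat.min_eq_left hjn
    rw [hmin] at hne
    rcases Nat.lt_or_ge k (j + 1) with hlt | hge
    · -- `k < j + 1`
      rcases Nat.eq_zero_or_pos j with hj0 | hj0
      · -- `j = 0`, hence `k = 0`: excluded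
        rcases hjk with h | h
        · exact h hj0
        · exact h (by omega)
      · -- `j ≥ 1`: step `l = n - j`
        have hlα := (pat_alpha hStd hL hj hU (n - j) (by omega)).2 le_rfl
        have hlβ := (pat_beta hStd hL hk hU' (n - j - 1) (by omega)).1 (by omega)
        have e : n - j - 1 + 1 = n - j := by omega
        rw [e] at hlβ
        exact hnb (n - j) (by omega) hlβ hlα
    · -- `k ≥ j + 2`: step `l = n + 1 - k`
      have hk2 : j + 2 ≤ k := by omega
      have hlα := (pat_alpha hStd hL hj hU (n + 1 - k) (by omega)).1 (by omega)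
      have hlβ := (pat_beta hStd hL hk hU' (n - k) (by omega)).2 le_rfl
      have e : n - k + 1 = n + 1 - k := by omega
      rw [e] at hlβ
      exact hnb (n + 1 - k) (by omega) hlα hlβ
  · -- `j = n`
    have hjn' : j = n := le_antisymm hj hjn
    have hmin : min (j + 1) n = n := Nat.min_eq_right (by omega)
    rw [hmin] at hne
    have hkn : k < n := lt_of_le_of_ne hk hne
    -- step `l = 1`
    have hlα := (pat_alpha hStd hL hj hU 1 (by omega)).2 (by omega)
    have hlβ := (pat_beta hStd hL hk hU' 0 (by omega)).1 (by omega)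
    exact hnb 1 (by omega) hlβ hlα

/-- **The core.**  A valuation subring `U ≠ V∞(N q)` of `F_E(N q)` over `V' j` along `α` lies
over `V' (min (j + 1) n)` along `β`. -/
theorem comap_beta_of_comap_alpha (hStd : StdE P E N q n w) (hn : 2 ≤ n)
    (hL : LevelCtx P E N q n w V' W') {V0 : ValuationSubring (FE E (N * q))}
    (hV0 : IsVinf P E (N * q) V0) {j : ℕ} (hj : j ≤ n)
    (hU : U.comap (αE E N q : FE E N →+* FE E (N * q)) = V' j) (hne : U ≠ V0) :
    U.comap (βE E N q : FE E N →+* FE E (N * q)) = V' (min (j + 1) n) := by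
  obtain ⟨k, hk, hU'⟩ := exists_comap_beta hStd hL hj hU
  rcases comap_beta_index hStd hn hL hj hk hU hU' with h | ⟨-, hk0⟩
  · rw [hU', h]
  · exfalso
    apply hne
    have hqN : q ∣ N := by
      have := pow_dvd_of_le hStd.exp (l := 1) (by omega)
      rwa [pow_one] at this
    refine S36.H83.h83_beta_unique inferInstance hStd.unif hStd.q_prime hqN hL.vinf hV0 U
      (fun f => ?_)
    rw [← hk0, ← hU', ValuationSubring.mem_comap]
    rfl

end Core

/-! ### The leaf -/

/-- **TABLE-E (leaf)**, exact frozen type, unconditional. -/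
theorem leafTableE717 : LeafTableE := by
  intro P E N q _ _ _ n w hStd hn V' V W' W hL hO
  have hdvr : IsDiscreteValuationRing (RE P E) := hStd.unram.1.dvr
  haveI := hdvr
  have hQ : S36.H370.SettingQ P E q w := ⟨hStd.q_prime, hStd.lies_over, hdvr, hStd.unif⟩
  -- `V i ≠ V 0` for `1 ≤ i ≤ n + 1`
  have hne : ∀ i, 1 ≤ i → i ≤ n + 1 → V i ≠ V 0 := by
    intro i hi1 hi h
    rcases Nat.lt_or_ge 1 i with h2 | h2
    · have h1 := hO.lies i hi1 hi
      rw [h, S36.H370.comap_alpha_vinfQ hQ hL.vinf hO.vinf] at h1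
      exact hL.val.ne 0 (Nat.zero_le n) (i - 1) (by omega) (by omega) h1
    · have hi' : i = 1 := by omega
      rw [hi'] at h
      exact hO.one_ne h
  have hcore : ∀ i, 1 ≤ i → i ≤ n + 1 →
      (V i).comap (βE E N q : FE E N →+* FE E (N * q)) = V' (min i n) := by
    intro i hi1 hi
    have h := comap_beta_of_comap_alpha hStd hn hL hO.vinf (j := i - 1) (by omega)
      (hO.lies i hi1 hi) (hne i hi1 hi)
    have e : i - 1 + 1 = i := by omega
    rwa [e] at h
  refine ⟨S36.H370.comap_alpha_vinfQ hQ hL.vinf hO.vinf, hO.lies, fun i hi => ?_, ?_⟩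
  · rcases Nat.eq_zero_or_pos i with hi0 | hi0
    · rw [hi0]
      exact S36.H370.comap_beta_vinfQ hQ hL.vinf hO.vinf
    · have h := hcore i hi0 (by omega)
      rwa [Nat.min_eq_left hi] at h
  · have h := hcore (n + 1) (by omega) le_rfl
    rwa [Nat.min_eq_right (Nat.le_succ n)] at h

end Fermat.Agent.S45.ModE.H717

end

end
-- ===== PACK-END S45/ModE/H717/TableE.lean

-- ===== PACK-BEGIN S45/ModE/H717/ObjE.lean
section





/-!
# S45 / CAR3 / MOD-E, leaf OBJ-E (helper717): `theorem leafObjE717 : ModE.LeafObjE`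

UNCONDITIONAL (no other leaf, no Eisenstein / split computation).

* `exists_comap_eq` : EXISTENCE of extensions (Chevalley): for a homomorphism of fields
  `φ : F' → F` and a valuation subring `O` of `F'` there is a valuation subring `U` of `F` with
  `U.comap φ = O` (Mathlib: `LocalSubring.exists_le_valuationSubring`).
* `comap_fricke_alpha` : `(U ∘ W) ∩ α = (U ∩ β) ∘ W'` (`W ∘ α = β ∘ W'`).
* objects: `V 0 = V∞`; `V i` = any extension of `V' (i - 1)` along `α` for `i ≥ 2`;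
  `V 1 = U ∘ W` for any extension `U` of `V' (n - 1)` along `α`:  by the core of `TableE.lean`
  `U` lies over `V' n` along `β`, hence `V 1` lies over `V' n ∘ W' = V' 0` along `α`; and
  `V 1 = V∞` would give `U = V∞ ∘ W`, which lies over `V' 0 ∘ W' = V' n ≠ V' (n - 1)`.
-/

set_option autoImplicit false
set_option linter.unusedSectionVars false
set_option linter.style.haveILetI false
set_option synthInstance.maxHeartbeats 400000
set_option maxHeartbeats 1600000

noncomputable section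

namespace Fermat.Agent.S45.ModE.H717

open ModularCurve Polynomial
open Fermat.Agent Fermat.Agent.A2.Mod
open Fermat.Agent.S36 Fermat.Agent.S36.Eng

variable {P : ValuationSubring A2.Qb} {E : IntermediateField ℚ A2.Qb}

/-! ### Existence of extensions -/

section Exists

variable {F F' : Type*} [Field F] [Field F']

/-- **Chevalley.**  Every valuation subring extends along a homomorphism of fields. -/
theorem exists_comap_eq (φ : F' →+* F) (O : ValuationSubring F') :
    ∃ U : ValuationSubring F, U.comap φ = O := by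
  classical
  obtain ⟨B, hle, hloc⟩ := (LocalSubring.map φ O.toLocalSubring).exists_le_valuationSubring
  have hmemA : ∀ g : F', g ∈ O → φ g ∈ (LocalSubring.map φ O.toLocalSubring).toSubring :=
    fun g hg => Subring.mem_map.mpr ⟨g, hg, rfl⟩
  refine ⟨B, ?_⟩
  ext g
  rw [ValuationSubring.mem_comap]
  constructor
  · intro hg
    by_contra hgO
    have hginv : g⁻¹ ∈ O := (O.mem_or_inv_mem g).resolve_left hgO
    have hg0 : g ≠ 0 := fun h => hgO (h ▸ O.zero_mem)
    have hunit : IsUnit (Subring.inclusion hle ⟨φ g⁻¹, hmemA _ hginv⟩) := by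
      refine isUnit_iff_exists_inv.mpr ⟨⟨φ g, hg⟩, Subtype.ext ?_⟩
      show φ g⁻¹ * φ g = 1
      rw [← map_mul, inv_mul_cancel₀ hg0, map_one]
    have hunitA := hloc.map_nonunit _ hunit
    obtain ⟨b, hb⟩ := isUnit_iff_exists_inv.mp hunitA
    obtain ⟨g', hg'O, hg'⟩ := Subring.mem_map.mp b.2
    have h1 : φ g⁻¹ * φ g' = 1 := by
      rw [hg']
      exact congrArg Subtype.val hb
    have h2 : g⁻¹ * g' = 1 := by
      apply φ.injective
      rw [map_mul, h1, map_one]
    have h3 : g' = g := by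
      have := congrArg (fun z => g * z) h2
      simp only [mul_one] at this
      rw [← mul_assoc, mul_inv_cancel₀ hg0, one_mul] at this
      exact this
    rw [h3] at hg'O
    exact hgO hg'O
  · intro hg
    exact hle (hmemA g hg)

end Exists

/-! ### Fricke transport -/

section Fricke

variable {F F' : Type*} [Field F] [Field F'] {E₀ : Type*} [Field E₀] [Algebra E₀ F]
  [Algebra E₀ F']

/-- `(U ∘ W) ∩ α = (U ∩ β) ∘ W'` if `W ∘ α = β ∘ W'`. -/
theorem comap_fricke_alpha (α β : F' →ₐ[E₀] F) (W' : F' ≃ₐ[E₀] F') (W : F ≃ₐ[E₀] F)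
    (hc : ∀ f : F', W (α f) = β (W' f)) (U : ValuationSubring F) :
    (U.comap (W : F →+* F)).comap (α : F' →+* F)
      = (U.comap (β : F' →+* F)).comap (W' : F' →+* F') := by
  ext g
  show W (α g) ∈ U ↔ β (W' g) ∈ U
  rw [hc]

/-- `(U ∘ W) ∘ W = U` for an involution `W`. -/
theorem comap_comap_invol (W : F ≃ₐ[E₀] F) (hWW : ∀ f, W (W f) = f) (U : ValuationSubring F) :
    (U.comap (W : F →+* F)).comap (W : F →+* F) = U := by
  ext g
  show W (W g) ∈ U ↔ g ∈ U
  rw [hWW]

end Fricke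

/-! ### The leaf -/

/-- **OBJ-E (leaf)**, exact frozen type, unconditional. -/
theorem leafObjE717 : LeafObjE := by
  intro P E N q _ _ _ n w hStd hn V' W' hL
  have hdvr : IsDiscreteValuationRing (RE P E) := hStd.unram.1.dvr
  haveI := hdvr
  have hQ : S36.H370.SettingQ P E q w := ⟨hStd.q_prime, hStd.lies_over, hdvr, hStd.unif⟩
  obtain ⟨V0, hV0⟩ := A2.Mod.H553.vinfExists P E (N * q) (NeZero.ne _) hdvr
  obtain ⟨W, hW⟩ := A2.Mod.H553.frickeExists (E := E) (N * q) (NeZero.ne _)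
  have hc := A2.Mod.H553.frickeCompat E N q W' W hL.fricke hW
  have hV0α : V0.comap (αE E N q : FE E N →+* FE E (N * q)) = V' 0 :=
    S36.H370.comap_alpha_vinfQ hQ hL.vinf hV0
  have hV0β : V0.comap (βE E N q : FE E N →+* FE E (N * q)) = V' 0 :=
    S36.H370.comap_beta_vinfQ hQ hL.vinf hV0
  choose Uext hUext using fun j : ℕ =>
    exists_comap_eq (αE E N q : FE E N →+* FE E (N * q)) (V' j)
  -- the extension `U` of `V' (n - 1)` and its Fricke image
  have hUne : Uext (n - 1) ≠ V0 := by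
    intro h
    have h1 := hUext (n - 1)
    rw [h, hV0α] at h1
    exact hL.val.ne 0 (Nat.zero_le n) (n - 1) (by omega) (by omega) h1
  have hUβ : (Uext (n - 1)).comap (βE E N q : FE E N →+* FE E (N * q)) = V' n := by
    have h := comap_beta_of_comap_alpha hStd hn hL hV0 (j := n - 1) (by omega)
      (hUext (n - 1)) hUne
    have e : min (n - 1 + 1) n = n := by omega
    rwa [e] at h
  have hV1α : ((Uext (n - 1)).comap (W : FE E (N * q) →+* FE E (N * q))).comap
      (αE E N q : FE E N →+* FE E (N * q)) = V' 0 := by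
    rw [comap_fricke_alpha (αE E N q) (βE E N q) W' W (fun f => (hc f).1), hUβ]
    have h := hL.sym n le_rfl
    rw [Nat.sub_self] at h
    exact h.symm
  have hV1ne : (Uext (n - 1)).comap (W : FE E (N * q) →+* FE E (N * q)) ≠ V0 := by
    intro h
    have h1 : Uext (n - 1) = V0.comap (W : FE E (N * q) →+* FE E (N * q)) := by
      rw [← h, comap_comap_invol W hW.2]
    have h2 := hUext (n - 1)
    rw [h1, comap_fricke_alpha (αE E N q) (βE E N q) W' W (fun f => (hc f).1), hV0β] at h2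
    have h3 := hL.sym 0 (Nat.zero_le n)
    rw [Nat.sub_zero] at h3
    rw [← h3] at h2
    exact hL.val.ne n le_rfl (n - 1) (by omega) (by omega) h2
  refine ⟨fun i => if i = 0 then V0 else if i = 1 then
      (Uext (n - 1)).comap (W : FE E (N * q) →+* FE E (N * q)) else Uext (i - 1), W, ?_⟩
  refine ⟨?_, hW, ?_, ?_⟩
  · simpa using hV0
  · intro i hi1 hi
    have hi0 : i ≠ 0 := by omega
    by_cases h1 : i = 1
    · subst h1
      simpa using hV1α
    · simp only [hi0, h1, if_false]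
      exact hUext (i - 1)
  · simpa using hV1ne

end Fermat.Agent.S45.ModE.H717

end

end
-- ===== PACK-END S45/ModE/H717/ObjE.lean

-- ===== PACK-BEGIN S45/H860/SheetE.lean
section




/-!
# S45 / CAR3 / MOD-E — leaf SHEET (helper860): `base`, `x_unit`, `gauss` of `S45.Eng.CtxE`

ANY level `N`, any prime `q`, any `e` with `q ^ e ∣ N`.  Coordinate

    xGE E N q e = ∏_{i ≤ e} j_{q^i}        (`= x3E E M q` for `N = M q q`, `e = 2`).

A valuation ring `V` of `F_E(N)` is a SHEET OF `j` (`IsSheetJ`) if it lies over `R = R_E`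
(`A2.H489.IsOver`), `q ∈ 𝔪_V` and `j` has the Gauss property at `V` (the residue of `j` is
transcendental over `k`).  This is the invariant which travels along the tower of levels:

* `isSheetJ_vinf`     : `V∞` is a sheet of `j`;
* `isSheetJ_fricke`   : `V∞.comap W` is a sheet of `j` (`W` the Fricke involution);
* `isSheetJ_comap_α`  : `V.comap α = V'`, `V'` a sheet of `j` at level `N` ⟹ `V` is one at `N q`;
* `isSheetJ_comap_β`  : the same along `β`;
* `IsSheetJ.comap_α`, `IsSheetJ.comap_β` : ... and conversely (going DOWN);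
* `IsSheetJ.gauss_all`: **a sheet of `j` is a sheet of every `j_{q^i}`, `i ≤ e`, and of `xGE`**
                        (Kronecker chains, NO assumption on the Frobenius/Verschiebung pattern);
* `IsSheetJ.base`, `IsSheetJ.x_unit`, `IsSheetJ.gauss` : the three fields of `CtxE`, verbatim;
* `isSheetJ_of_gauss_xGE` : conversely a sheet of `xGE` containing `j` is a sheet of `j`.

So for the family `V 0, …, V e` of MOD-E (each `V i`, `i ≥ 1`, lies over `V' (i - 1)` along `α`
and `V 0 = V∞`; or `V e = V∞.comap W`) the fields `base`, `x_unit`, `gauss` follow by induction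
on the level from `comap_α` alone.
-/

set_option autoImplicit false
set_option linter.style.haveILetI false
set_option linter.unusedSectionVars false
set_option linter.unusedVariables false
set_option synthInstance.maxHeartbeats 400000
set_option maxHeartbeats 1600000

noncomputable section

namespace Fermat.Agent.S45.H860

open ModularCurve AlgebraicCurve Polynomial
open Fermat.Agent.S36.Eng (UnitAt)
open Fermat.Agent.A2.Mod

/-! ## The coordinate -/

section Defs

variable (E : IntermediateField ℚ Qb) (N q : ℕ) [NeZero q]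

/-- `j_{q^i}` at level `N` (`0` if `q ^ i ∤ N`). -/
def jPow (i : ℕ) : FE E N := if h : q ^ i ∣ N then jE E N (q ^ i) h else 0

theorem jPow_of_dvd {i : ℕ} (h : q ^ i ∣ N) : jPow E N q i = jE E N (q ^ i) h := dif_pos h

theorem jE_congr {d d' : ℕ} [NeZero d] [NeZero d'] (h : d = d') (hd : d ∣ N) (hd' : d' ∣ N) :
    jE E N d hd = jE E N d' hd' := by
  subst h
  rfl

theorem jPow_zero : jPow E N q 0 = jE E N 1 (one_dvd N) := by
  rw [jPow_of_dvd E N q (i := 0) (by rw [pow_zero]; exact one_dvd N)]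
  exact jE_congr E N (pow_zero q) _ _

theorem jPow_one (h : q ∣ N) : jPow E N q 1 = jE E N q h := by
  rw [jPow_of_dvd E N q (i := 1) (by rw [pow_one]; exact h)]
  exact jE_congr E N (pow_one q) _ _

/-- **the coordinate** `x = ∏_{i ≤ e} j_{q^i}` -/
def xGE (e : ℕ) : FE E N := ∏ i ∈ Finset.range (e + 1), jPow E N q i

theorem xGE_zero : xGE E N q 0 = jE E N 1 (one_dvd N) := by
  rw [xGE, Finset.prod_range_one, jPow_zero]

theorem xGE_succ (e : ℕ) : xGE E N q (e + 1) = xGE E N q e * jPow E N q (e + 1) :=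
  Finset.prod_range_succ _ _

theorem xGE_succ' (e : ℕ) :
    xGE E N q (e + 1) = (∏ i ∈ Finset.range (e + 1), jPow E N q (i + 1)) * jPow E N q 0 :=
  Finset.prod_range_succ' _ _

end Defs

section Compat

variable (E : IntermediateField ℚ Qb) (N q : ℕ) [NeZero N] [NeZero q]

theorem αE_jPow {i : ℕ} (h : q ^ i ∣ N) :
    αE E N q (jPow E N q i) = jPow E (N * q) q i := by
  rw [jPow_of_dvd E N q h, jPow_of_dvd E (N * q) q (h.trans (dvd_mul_right N q)), H553.αE_jE]

theorem βE_jPow {i : ℕ} (h : q ^ i ∣ N) :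
    βE E N q (jPow E N q i) = jPow E (N * q) q (i + 1) := by
  have h' : q ^ (i + 1) ∣ N * q := by
    rw [pow_succ]
    exact mul_dvd_mul_right h q
  rw [jPow_of_dvd E N q h, jPow_of_dvd E (N * q) q h']
  haveI : NeZero (q ^ i * q) := ⟨mul_ne_zero (NeZero.ne _) (NeZero.ne q)⟩
  rw [H553.βE_jE E N q (q ^ i) h]
  exact jE_congr E (N * q) (pow_succ q i).symm _ _

/-- `x_{e+1} = α(x_e) · j_{q^(e+1)}` -/
theorem xGE_succ_α {e : ℕ} (h : q ^ e ∣ N) :
    xGE E (N * q) q (e + 1) = αE E N q (xGE E N q e) * jPow E (N * q) q (e + 1) := by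
  rw [xGE_succ, xGE, xGE, map_prod]
  congr 1
  refine Finset.prod_congr rfl (fun i hi => ?_)
  have hi' : i ≤ e := by
    have := Finset.mem_range.mp hi
    omega
  rw [αE_jPow E N q ((pow_dvd_pow q hi').trans h)]

/-- `x_{e+1} = β(x_e) · j` -/
theorem xGE_succ_β {e : ℕ} (h : q ^ e ∣ N) :
    xGE E (N * q) q (e + 1) = βE E N q (xGE E N q e) * jE E (N * q) 1 (one_dvd _) := by
  rw [xGE_succ', jPow_zero, xGE, map_prod]
  congr 1
  refine Finset.prod_congr rfl (fun i hi => ?_)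
  have hi' : i ≤ e := by
    have := Finset.mem_range.mp hi
    omega
  rw [βE_jPow E N q ((pow_dvd_pow q hi').trans h)]

end Compat

section X3

variable (E : IntermediateField ℚ Qb) (M q : ℕ) [NeZero M] [NeZero q] [NeZero (M * q)]

/-- for `e = 2` the coordinate is the coordinate `x3E` of S36 -/
theorem xGE_two : xGE E (M * q * q) q 2 = S36.Mod3.x3E E M q := by
  rw [xGE, Finset.prod_range_succ, Finset.prod_range_succ, Finset.prod_range_one, jPow_zero,
    jPow_one E (M * q * q) q (Dvd.intro_left (M * q) rfl),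
    jPow_of_dvd E (M * q * q) q (i := 2) ⟨M, by ring⟩]
  rw [S36.Mod3.x3E, S36.Mod3.j1, S36.Mod3.jq, S36.Mod3.jqq]
  congr 1
  exact jE_congr E (M * q * q) (by ring) _ _

end X3

/-! ## The modular equations of the chain -/

section ModEq

variable (E : IntermediateField ℚ Qb) {q : ℕ} [NeZero q]

/-- `Φ_q(j_{q^i}, j_{q^(i+1)}) = 0` -/
theorem modEq_jPow (D : S28.ModPolyData q) (N i : ℕ) (h : q ^ (i + 1) ∣ N) :
    D.Φ.eval₂ (Polynomial.aeval (R := ℤ) (jPow E N q i)).toRingHom (jPow E N q (i + 1)) = 0 := by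
  have h' : q ^ i ∣ N := (pow_dvd_pow q (Nat.le_succ i)).trans h
  have h'' : q ^ i * q ∣ N := by
    rw [← pow_succ]
    exact h
  haveI : NeZero (q ^ i * q) := ⟨mul_ne_zero (NeZero.ne _) (NeZero.ne q)⟩
  rw [jPow_of_dvd E N q h, jPow_of_dvd E N q h', jE_congr E N (pow_succ q i) h h'']
  exact H873.eval₂_eq_zero_of_int E N D.Φ _ _ _ _
    (H873.coe_jE_int E N (q ^ i * q) h'') (H873.coe_jE_int E N (q ^ i) h')
    (S28.H739.modPoly_eval_level D (q ^ i))

/-- `Φ_q(j_q, j) = 0` -/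
theorem modEq_rev (D : S28.ModPolyData q) (N : ℕ) (h : q ∣ N) :
    D.Φ.eval₂ (Polynomial.aeval (R := ℤ) (jE E N q h)).toRingHom (jE E N 1 (one_dvd N)) = 0 :=
  H873.eval₂_eq_zero_of_int E N D.Φ _ _ _ _
    (H873.coe_jE_one E N) (H873.coe_jE_int E N q h) D.eval_j

end ModEq

/-! ## Sheets of `j` -/

section Sheet

variable {P : ValuationSubring Qb} {E : IntermediateField ℚ Qb}

/-- **`V` is a sheet of `j`** (a component of the special fibre over `q` of any model dominating
the `j`-line): `V` lies over `R_E`, `q ∈ 𝔪_V`, and `j` has the Gauss property at `V`. -/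
structure IsSheetJ (P : ValuationSubring Qb) (E : IntermediateField ℚ Qb) (N : ℕ) (w : RE P E)
    (q : ℕ) (V : ValuationSubring (FE E N)) : Prop where
  isOver : A2.H489.IsOver (RE P E) V
  q_mem : ((q : ℕ) : FE E N) ∈ V.nonunits
  gauss_j : GaussAt V w (jE E N 1 (one_dvd N))

theorem algebraMap_RE_comm {N N' : ℕ} (α : FE E N →ₐ[E] FE E N') (r : RE P E) :
    α (algebraMap (RE P E) (FE E N) r) = algebraMap (RE P E) (FE E N') r :=
  α.commutes (r : E)

/-- `V∞` is a sheet of `j`. -/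
theorem isSheetJ_vinf [IsDiscreteValuationRing (RE P E)] {w : RE P E} (hw : Irreducible w)
    {q : ℕ} [NeZero q] (hP : P.LiesOverPrime q) {N : ℕ} (hN : N ≠ 0)
    {V : ValuationSubring (FE E N)} (hV : IsVinf P E N V) : IsSheetJ P E N w q V where
  isOver := H13.isOver_of_isVinf hV
  q_mem := by
    have h := (V.mem_nonunits_iff).mpr (H994.val_natCast_lt_one hP hV)
    rwa [map_natCast] at h
  gauss_j := fun p hp =>
    S36.Mod3.H860.polar_unit hw hN hV one_pos (H13.isPolar_jE 1 (one_dvd _)) hp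

/-- `V∞.comap W` is a sheet of `j`. -/
theorem isSheetJ_fricke [IsDiscreteValuationRing (RE P E)] {w : RE P E} (hw : Irreducible w)
    {q : ℕ} [NeZero q] (hP : P.LiesOverPrime q) {N : ℕ} [NeZero N]
    {V : ValuationSubring (FE E N)} (hV : IsVinf P E N V)
    {W : FE E N ≃ₐ[E] FE E N} (hW : IsFricke E N W) :
    IsSheetJ P E N w q (V.comap (W : FE E N →+* FE E N)) where
  isOver := H13.isOver_comap hV W
  q_mem := by
    rw [S36.Mod3.H860.mem_nonunits_comap_iff]
    have h := (isSheetJ_vinf (w := w) hw hP (NeZero.ne N) hV).q_mem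
    have e : (W : FE E N →+* FE E N) ((q : ℕ) : FE E N) = ((q : ℕ) : FE E N) := map_natCast _ q
    rw [e]
    exact h
  gauss_j := by
    refine gaussAt_of_comap (W : FE E N →+* FE E N)
      (fun r => algebraMap_RE_comm (W : FE E N →ₐ[E] FE E N) r) _ V rfl ?_
    have h1 : (W : FE E N →+* FE E N) (jE E N 1 (one_dvd N)) = jE E N N dvd_rfl :=
      hW.1 1 N (one_dvd _) dvd_rfl (one_mul _)
    rw [h1]
    exact fun p hp => S36.Mod3.H860.polar_unit hw (NeZero.ne N) hV
      (Nat.pos_of_ne_zero (NeZero.ne N)) (H13.isPolar_jE N dvd_rfl) hp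

/-- transport of `IsOver` along a homomorphism of function fields -/
theorem isOver_of_comap {N N' : ℕ} (α : FE E N →ₐ[E] FE E N')
    {V' : ValuationSubring (FE E N)} {V : ValuationSubring (FE E N')}
    (hmid : V.comap (α : FE E N →+* FE E N') = V') (h : A2.H489.IsOver (RE P E) V') :
    A2.H489.IsOver (RE P E) V where
  mem := fun r => by
    have h1 := h.mem r
    rw [← hmid, ValuationSubring.mem_comap] at h1
    have e : (α : FE E N →+* FE E N') (algebraMap (RE P E) (FE E N) r) =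
        algebraMap (RE P E) (FE E N') r := algebraMap_RE_comm α r
    rw [e] at h1
    exact h1
  nonunit := fun r hr => by
    have h1 := h.nonunit r hr
    rw [← hmid, S36.Mod3.H860.mem_nonunits_comap_iff] at h1
    have e : (α : FE E N →+* FE E N') (algebraMap (RE P E) (FE E N) r) =
        algebraMap (RE P E) (FE E N') r := algebraMap_RE_comm α r
    rw [e] at h1
    exact h1

/-- ... and back -/
theorem isOver_comap' {N N' : ℕ} (α : FE E N →ₐ[E] FE E N')
    {V' : ValuationSubring (FE E N)} {V : ValuationSubring (FE E N')}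
    (hmid : V.comap (α : FE E N →+* FE E N') = V') (h : A2.H489.IsOver (RE P E) V) :
    A2.H489.IsOver (RE P E) V' where
  mem := fun r => by
    rw [← hmid, ValuationSubring.mem_comap]
    have e : (α : FE E N →+* FE E N') (algebraMap (RE P E) (FE E N) r) =
        algebraMap (RE P E) (FE E N') r := algebraMap_RE_comm α r
    rw [e]
    exact h.mem r
  nonunit := fun r hr => by
    rw [← hmid, S36.Mod3.H860.mem_nonunits_comap_iff]
    have e : (α : FE E N →+* FE E N') (algebraMap (RE P E) (FE E N) r) =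
        algebraMap (RE P E) (FE E N') r := algebraMap_RE_comm α r
    rw [e]
    exact h.nonunit r hr

theorem natCast_mem_nonunits_comap {N N' : ℕ} (α : FE E N →ₐ[E] FE E N')
    {V' : ValuationSubring (FE E N)} {V : ValuationSubring (FE E N')}
    (hmid : V.comap (α : FE E N →+* FE E N') = V') (q : ℕ) :
    ((q : ℕ) : FE E N) ∈ V'.nonunits ↔ ((q : ℕ) : FE E N') ∈ V.nonunits := by
  rw [← hmid, S36.Mod3.H860.mem_nonunits_comap_iff]
  have e : (α : FE E N →+* FE E N') ((q : ℕ) : FE E N) = ((q : ℕ) : FE E N') := map_natCast _ q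
  rw [e]

/-- **going up along `α`** -/
theorem isSheetJ_comap_α {w : RE P E} (N q : ℕ) [NeZero N] [NeZero q]
    {V' : ValuationSubring (FE E N)} {V : ValuationSubring (FE E (N * q))}
    (hmid : V.comap (αE E N q : FE E N →+* FE E (N * q)) = V')
    (h : IsSheetJ P E N w q V') : IsSheetJ P E (N * q) w q V where
  isOver := isOver_of_comap (αE E N q) hmid h.isOver
  q_mem := (natCast_mem_nonunits_comap (αE E N q) hmid q).mp h.q_mem
  gauss_j := by
    have h1 := gaussAt_comap (αE E N q : FE E N →+* FE E (N * q))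
      (fun r => algebraMap_RE_comm (αE E N q) r) V' V hmid h.gauss_j
    have e : (αE E N q : FE E N →+* FE E (N * q)) (jE E N 1 (one_dvd N)) =
        jE E (N * q) 1 (one_dvd _) := H553.αE_jE E N q 1 (one_dvd _)
    rw [e] at h1
    exact h1

/-- **going down along `α`** -/
theorem IsSheetJ.comap_α {w : RE P E} (N q : ℕ) [NeZero N] [NeZero q]
    {V' : ValuationSubring (FE E N)} {V : ValuationSubring (FE E (N * q))}
    (hmid : V.comap (αE E N q : FE E N →+* FE E (N * q)) = V')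
    (h : IsSheetJ P E (N * q) w q V) : IsSheetJ P E N w q V' where
  isOver := isOver_comap' (αE E N q) hmid h.isOver
  q_mem := (natCast_mem_nonunits_comap (αE E N q) hmid q).mpr h.q_mem
  gauss_j := by
    refine gaussAt_of_comap (αE E N q : FE E N →+* FE E (N * q))
      (fun r => algebraMap_RE_comm (αE E N q) r) V' V hmid ?_
    have e : (αE E N q : FE E N →+* FE E (N * q)) (jE E N 1 (one_dvd N)) =
        jE E (N * q) 1 (one_dvd _) := H553.αE_jE E N q 1 (one_dvd _)
    rw [e]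
    exact h.gauss_j

/-- **The sheets of `j` are sheets of all the `j_{q^i}` and of the coordinate `xGE`.** -/
theorem IsSheetJ.gauss_all [IsDiscreteValuationRing (RE P E)] {w : RE P E} (hw : Irreducible w)
    {q : ℕ} [NeZero q] (hq : q.Prime) {N : ℕ} {V : ValuationSubring (FE E N)}
    (h : IsSheetJ P E N w q V) (e : ℕ) (he : q ^ e ∣ N) :
    (∀ i ≤ e, GaussAt V w (jPow E N q i)) ∧ GaussAt V w (xGE E N q e) := by
  haveI : Fact q.Prime := ⟨hq⟩
  obtain ⟨D⟩ := S28.H807.nonempty_modPolyData q hq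
  obtain ⟨Θ, hΘ⟩ := S28.h88_kronecker_int q D
  exact gaussAt_prod_of_modEq V h.isOver.mem hw.prime hq h.q_mem D.Φ Θ D.monic hΘ
    (fun i => jPow E N q i) e
    (fun i hi => modEq_jPow E D N i ((pow_dvd_pow q (by omega)).trans he))
    (by rw [jPow_zero]; exact h.gauss_j)

/-- the field `base` of `CtxE` -/
theorem IsSheetJ.base {w : RE P E} {q N : ℕ} {V : ValuationSubring (FE E N)}
    (h : IsSheetJ P E N w q V) (r : RE P E) : algebraMap (RE P E) (FE E N) r ∈ V :=
  h.isOver.mem r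

/-- the field `x_unit` of `CtxE` -/
theorem IsSheetJ.x_unit [IsDiscreteValuationRing (RE P E)] {w : RE P E} (hw : Irreducible w)
    {q : ℕ} [NeZero q] (hq : q.Prime) {N : ℕ} {V : ValuationSubring (FE E N)}
    (h : IsSheetJ P E N w q V) (e : ℕ) (he : q ^ e ∣ N) : UnitAt V (xGE E N q e) :=
  (h.gauss_all hw hq e he).2.unit hw.not_isUnit

/-- the field `gauss` of `CtxE` -/
theorem IsSheetJ.gauss [IsDiscreteValuationRing (RE P E)] {w : RE P E} (hw : Irreducible w)
    {q : ℕ} [NeZero q] (hq : q.Prime) {N : ℕ} {V : ValuationSubring (FE E N)}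
    (h : IsSheetJ P E N w q V) (e : ℕ) (he : q ^ e ∣ N)
    (p : Polynomial (RE P E)) (hp : ∃ k, ¬ w ∣ p.coeff k) :
    (Polynomial.aeval (xGE E N q e) p)⁻¹ ∈ V :=
  (h.gauss_all hw hq e he).2.weak p hp

/-- the `j_{q^i}` are units of `V` -/
theorem IsSheetJ.jPow_unit [IsDiscreteValuationRing (RE P E)] {w : RE P E} (hw : Irreducible w)
    {q : ℕ} [NeZero q] (hq : q.Prime) {N : ℕ} {V : ValuationSubring (FE E N)}
    (h : IsSheetJ P E N w q V) (e : ℕ) (he : q ^ e ∣ N) (i : ℕ) (hi : i ≤ e) :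
    UnitAt V (jPow E N q i) :=
  ((h.gauss_all hw hq e he).1 i hi).unit hw.not_isUnit

/-- **going up along `β`** -/
theorem isSheetJ_comap_β [IsDiscreteValuationRing (RE P E)] {w : RE P E} (hw : Irreducible w)
    (N q : ℕ) [NeZero N] [NeZero q] (hq : q.Prime)
    {V' : ValuationSubring (FE E N)} {V : ValuationSubring (FE E (N * q))}
    (hmid : V.comap (βE E N q : FE E N →+* FE E (N * q)) = V')
    (h : IsSheetJ P E N w q V') : IsSheetJ P E (N * q) w q V where
  isOver := isOver_of_comap (βE E N q) hmid h.isOver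
  q_mem := (natCast_mem_nonunits_comap (βE E N q) hmid q).mp h.q_mem
  gauss_j := by
    have hover := isOver_of_comap (βE E N q) hmid h.isOver
    have hqV := (natCast_mem_nonunits_comap (βE E N q) hmid q).mp h.q_mem
    have h1 := gaussAt_comap (βE E N q : FE E N →+* FE E (N * q))
      (fun r => algebraMap_RE_comm (βE E N q) r) V' V hmid h.gauss_j
    have e : (βE E N q : FE E N →+* FE E (N * q)) (jE E N 1 (one_dvd N)) =
        jE E (N * q) q (dvd_mul_left q N) := by
      have h2 := H553.βE_jE E N q 1 (one_dvd N)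
      exact h2.trans (jE_congr E (N * q) (one_mul q) _ _)
    rw [e] at h1
    haveI : Fact q.Prime := ⟨hq⟩
    obtain ⟨D⟩ := S28.H807.nonempty_modPolyData q hq
    obtain ⟨Θ, hΘ⟩ := S28.h88_kronecker_int q D
    let a : ℕ → FE E (N * q) := fun i =>
      if i = 0 then jE E (N * q) q (dvd_mul_left q N) else jE E (N * q) 1 (one_dvd _)
    have key := gaussAt_prod_of_modEq V hover.mem hw.prime hq hqV D.Φ Θ D.monic hΘ a 1
      (fun i hi => by
        have hi0 : i = 0 := by omega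
        subst hi0
        exact modEq_rev E D (N * q) (dvd_mul_left q N))
      h1
    exact key.1 1 le_rfl

/-- **going down along `β`** -/
theorem IsSheetJ.comap_β [IsDiscreteValuationRing (RE P E)] {w : RE P E} (hw : Irreducible w)
    (N q : ℕ) [NeZero N] [NeZero q] (hq : q.Prime)
    {V' : ValuationSubring (FE E N)} {V : ValuationSubring (FE E (N * q))}
    (hmid : V.comap (βE E N q : FE E N →+* FE E (N * q)) = V')
    (h : IsSheetJ P E (N * q) w q V) : IsSheetJ P E N w q V' where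
  isOver := isOver_comap' (βE E N q) hmid h.isOver
  q_mem := (natCast_mem_nonunits_comap (βE E N q) hmid q).mpr h.q_mem
  gauss_j := by
    refine gaussAt_of_comap (βE E N q : FE E N →+* FE E (N * q))
      (fun r => algebraMap_RE_comm (βE E N q) r) V' V hmid ?_
    have e : (βE E N q : FE E N →+* FE E (N * q)) (jE E N 1 (one_dvd N)) =
        jE E (N * q) q (dvd_mul_left q N) := by
      have h2 := H553.βE_jE E N q 1 (one_dvd N)
      exact h2.trans (jE_congr E (N * q) (one_mul q) _ _)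
    rw [e]
    have h1 := (h.gauss_all hw hq 1 (by rw [pow_one]; exact dvd_mul_left q N)).1 1 le_rfl
    rw [jPow_one E (N * q) q (dvd_mul_left q N)] at h1
    exact h1

/-- **Conversely**: a valuation ring over `R_E` which contains `j` and is a sheet of the
coordinate `xGE` is a sheet of `j`. -/
theorem isSheetJ_of_gauss_xGE [IsDiscreteValuationRing (RE P E)] {w : RE P E}
    (hw : Irreducible w) {q : ℕ} [NeZero q] (hq : q.Prime) {N : ℕ}
    {V : ValuationSubring (FE E N)} (hover : A2.H489.IsOver (RE P E) V)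
    (hqV : ((q : ℕ) : FE E N) ∈ V.nonunits) (hj : jE E N 1 (one_dvd N) ∈ V)
    (e : ℕ) (he : q ^ e ∣ N) (hg : GaussAt V w (xGE E N q e)) : IsSheetJ P E N w q V where
  isOver := hover
  q_mem := hqV
  gauss_j := by
    haveI : Fact q.Prime := ⟨hq⟩
    obtain ⟨D⟩ := S28.H807.nonempty_modPolyData q hq
    obtain ⟨Θ, hΘ⟩ := S28.h88_kronecker_int q D
    haveI hmax : (Ideal.span ({w} : Set (RE P E))).IsMaximal :=
      PrincipalIdealRing.isMaximal_of_irreducible hw
    have hwV : algebraMap (RE P E) (FE E N) w ∈ V.nonunits :=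
      hover.nonunit w ((IsLocalRing.mem_maximalIdeal w).mpr hw.not_isUnit)
    have hmod : ∀ i < e, D.Φ.eval₂ (Polynomial.aeval (R := ℤ) (jPow E N q i)).toRingHom
        (jPow E N q (i + 1)) = 0 :=
      fun i hi => modEq_jPow E D N i ((pow_dvd_pow q (by omega)).trans he)
    have ha : ∀ i ≤ e, jPow E N q i ∈ V :=
      chain_mem V D.Φ D.monic (fun i => jPow E N q i) e (by rw [jPow_zero]; exact hj) hmod
    have hkron : ∀ i < e, (jPow E N q (i + 1) ^ q - jPow E N q i) *
        (jPow E N q (i + 1) - jPow E N q i ^ q) ∈ V.nonunits :=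
      fun i hi => kron_of_modEq V hqV D.Φ Θ hΘ (ha i (by omega)) (ha (i + 1) (by omega))
        (hmod i hi)
    have h0 := gaussAt_member_of_prod V hover.mem hwV hq hqV (fun i => jPow E N q i) e ha
      hkron hg 0 (Nat.zero_le e)
    rw [jPow_zero] at h0
    exact h0

end Sheet

end Fermat.Agent.S45.H860

end

end
-- ===== PACK-END S45/H860/SheetE.lean

-- ===== PACK-BEGIN S36/Mod3/H544/NormalGen.lean
section




/-!
# S36 / MOD3, leaf NORMAL (helper544): the six `NormalAlong` and the four chart-level `res`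
from the valuation-level table and the normality of the two components of level `M q`

Generic part (abstract `R`, `E`, `F`, `F'`).

* `PartNormMq544`: the INPUT from level `M q` (cell A2 / `S35.G.ModelStatement`): the two
  components `V₁'`, `V₂'` of both charts `chart R {x'}`, `chart R {x'⁻¹}` are normal.
* `partNormal_of544`, `partRes_of544`: the six `NormalAlong` of level `M q q` (both charts) and
  the four chart-level residue statements of `PartChart`, from `PartVT` (residue degree one,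
  Kronecker), `PartTable` (lying over), `PartVal` (`x` unit), `PartSheet` (`R ⊆ V_i`).

Finite chart: `chart R {x}` is integral over `α (chart R {x'})` (`int_α`, `int_β`).
Chart at infinity: `chart R {x⁻¹}` is integral over `α (chart R {x'⁻¹})` only MODULO `𝔪_V`
(`x⁻¹ ≡ α (j'⁻¹ (j_q'⁻¹)^(q+1))` on `V₁`, `≡ α ((j'⁻¹)² j_q'⁻¹)` on `V₂`,
`≡ β ((j'⁻¹)^(q+1) j_q'⁻¹)` on `V₃`), which is all `H544.res_of_transfer544` needs.
-/

set_option autoImplicit false
set_option linter.style.haveILetI false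
set_option linter.unusedSectionVars false
set_option synthInstance.maxHeartbeats 400000
set_option maxHeartbeats 1600000

namespace Fermat.Agent.S36.Mod3.H544

open Polynomial
open Fermat.Agent.S18.H138 (chart mem_chart mem_chart_of_mem)
open Fermat.Agent.S36.Eng

section Generic

variable {R E F F' : Type*} [CommRing R] [Field E] [Algebra R E]
  [Field F] [Algebra E F] [Algebra R F] [IsScalarTower R E F]
  [Field F'] [Algebra E F'] [Algebra R F'] [IsScalarTower R E F']

/-- **Input from level `M q`**: the two components of both charts are normal. -/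
structure PartNormMq544 (R : Type*) [CommRing R] {F' : Type*} [Field F'] [Algebra R F']
    (x' : F') (V₁' V₂' : ValuationSubring F') : Prop where
  normal_f₁' : NormalAlong (chart R ({x'} : Set F')) V₁'
  normal_f₂' : NormalAlong (chart R ({x'} : Set F')) V₂'
  normal_i₁' : NormalAlong (chart R ({x'⁻¹} : Set F')) V₁'
  normal_i₂' : NormalAlong (chart R ({x'⁻¹} : Set F')) V₂'

/-- An `E`-algebra homomorphism is `R`-linear. -/
theorem algHom_algebraMap544 (φ : F' →ₐ[E] F) (r : R) :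
    (φ : F' →+* F) (algebraMap R F' r) = algebraMap R F r := by
  rw [IsScalarTower.algebraMap_apply R E F', IsScalarTower.algebraMap_apply R E F]
  exact φ.commutes _

/-- The chart of `s` lies in every valuation ring containing `R` and `s`. -/
theorem chart_le544 (s : F) (V : ValuationSubring F) (hbase : ∀ r : R, algebraMap R F r ∈ V)
    (hs : s ∈ V) : ∀ b ∈ chart R ({s} : Set F), b ∈ V := by
  intro b hb
  have hadj : ∀ c ∈ Algebra.adjoin R ({s} : Set F), c ∈ V := by
    intro c hc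
    induction hc using Algebra.adjoin_induction with
    | mem y hy =>
      rw [Set.mem_singleton_iff] at hy
      rw [hy]
      exact hs
    | algebraMap r => exact hbase r
    | add a b _ _ ha hb => exact V.add_mem _ _ ha hb
    | mul a b _ _ ha hb => exact V.mul_mem _ _ ha hb
  obtain ⟨P, hP, hPb⟩ := (mem_chart.1 hb : IsIntegral (Algebra.adjoin R ({s} : Set F)) b)
  refine mem_of_monic_root_mod544 (Algebra.adjoin R ({s} : Set F)) V hadj b P hP ?_
  rw [Polynomial.aeval_def, hPb]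
  exact nu_zero544 V

/-- One transfer, residue form, integrality modulo `𝔪_V` given on the generator. -/
theorem res_chart_gen544 (φ : F' →ₐ[E] F) (s : F) (B' : Subalgebra R F')
    (V : ValuationSubring F) (V' : ValuationSubring F')
    (hcomap : V.comap (φ : F' →+* F) = V')
    (hbase : ∀ r : R, algebraMap R F r ∈ V) (hs : s ∈ V)
    (hres : ∀ f ∈ V, ∃ g ∈ V', f - φ g ∈ V.nonunits)
    (hchart : ∀ b ∈ B', φ b ∈ chart R ({s} : Set F))
    (hgen : ∃ y ∈ B', s - φ y ∈ V.nonunits)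
    (hnorm : NormalAlong B' V') :
    ∀ (f : F) (p : Polynomial (chart R ({s} : Set F))), p.Monic →
      Polynomial.aeval f p ∈ V.nonunits → ∃ b' ∈ B', f - φ b' ∈ V.nonunits := by
  have hBV := chart_le544 (R := R) s V hbase hs
  have hB'V : ∀ b' ∈ B', (φ : F' →+* F) b' ∈ V := fun b' hb' => hBV _ (hchart b' hb')
  refine res_of_transfer544 (φ : F' →+* F) (chart R ({s} : Set F)) B' V V' hcomap hBV hB'V
    hres ?_ hnorm
  refine hint_of_gen544 (φ : F' →+* F) (algHom_algebraMap544 φ) ({s} : Set F) B' V hB'V ?_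
  intro t ht
  rw [Set.mem_singleton_iff] at ht
  rw [ht]
  exact hgen

/-- One transfer, residue form, exact integrality. -/
theorem res_chart_int544 (φ : F' →ₐ[E] F) (s : F) (B' : Subalgebra R F')
    (V : ValuationSubring F) (V' : ValuationSubring F')
    (hcomap : V.comap (φ : F' →+* F) = V')
    (hbase : ∀ r : R, algebraMap R F r ∈ V) (hs : s ∈ V)
    (hres : ∀ f ∈ V, ∃ g ∈ V', f - φ g ∈ V.nonunits)
    (hchart : ∀ b ∈ B', φ b ∈ chart R ({s} : Set F))
    (hint : ∀ b ∈ chart R ({s} : Set F), ∃ p : Polynomial F', p.Monic ∧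
      (∀ i, p.coeff i ∈ B') ∧ (p.map (φ : F' →+* F)).eval b = 0)
    (hnorm : NormalAlong B' V') :
    ∀ (f : F) (p : Polynomial (chart R ({s} : Set F))), p.Monic →
      Polynomial.aeval f p ∈ V.nonunits → ∃ b' ∈ B', f - φ b' ∈ V.nonunits := by
  have hBV := chart_le544 (R := R) s V hbase hs
  have hB'V : ∀ b' ∈ B', (φ : F' →+* F) b' ∈ V := fun b' hb' => hBV _ (hchart b' hb')
  exact res_of_transfer544 (φ : F' →+* F) (chart R ({s} : Set F)) B' V V' hcomap hBV hB'V
    hres (hint_of_int544 (φ : F' →+* F) _ B' V hint) hnorm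

/-- From the residue form to `NormalAlong`. -/
theorem normalAlong_of_res544 (φ : F' →ₐ[E] F) (B : Subalgebra R F) (B' : Subalgebra R F')
    (V : ValuationSubring F) (hchart : ∀ b ∈ B', φ b ∈ B)
    (h : ∀ (f : F) (p : Polynomial B), p.Monic →
      Polynomial.aeval f p ∈ V.nonunits → ∃ b' ∈ B', f - φ b' ∈ V.nonunits) :
    NormalAlong B V := by
  intro f p hp hpf
  obtain ⟨b', hb', hfb⟩ := h f p hp hpf
  exact ⟨⟨φ b', hchart b' hb'⟩, hfb⟩

/-- From the residue form to the chart-level residue statement. -/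
theorem chartRes_of_res544 (φ : F' →ₐ[E] F) (B : Subalgebra R F) (B' : Subalgebra R F')
    (V : ValuationSubring F)
    (h : ∀ (f : F) (p : Polynomial B), p.Monic →
      Polynomial.aeval f p ∈ V.nonunits → ∃ b' ∈ B', f - φ b' ∈ V.nonunits) :
    ∀ b ∈ B, ∃ b' ∈ B', b - φ b' ∈ V.nonunits := by
  intro b hb
  refine h b (Polynomial.X - Polynomial.C ⟨b, hb⟩) (Polynomial.monic_X_sub_C _) ?_
  have : Polynomial.aeval b (Polynomial.X - Polynomial.C (⟨b, hb⟩ : B)) = 0 := by
    rw [map_sub, Polynomial.aeval_X, Polynomial.aeval_C]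
    exact sub_self b
  rw [this]
  exact nu_zero544 V

/-! ### The three congruences of the chart at infinity -/

/-- `a⁻¹ b⁻¹ c⁻¹ ≡ a⁻¹ (b⁻¹)^(q+1)` when `c ≡ b^q`. -/
theorem cong_inv_A544 (V : ValuationSubring F) (q : ℕ) {a b c : F} (hb0 : b ≠ 0) (hc0 : c ≠ 0)
    (ha : a⁻¹ ∈ V) (hb : b⁻¹ ∈ V) (hc : c⁻¹ ∈ V) (h : c - b ^ q ∈ V.nonunits) :
    (a * b * c)⁻¹ - a⁻¹ * b⁻¹ ^ (q + 1) ∈ V.nonunits := by
  have e : (a * b * c)⁻¹ - a⁻¹ * b⁻¹ ^ (q + 1) =
      (-(c - b ^ q)) * (a⁻¹ * b⁻¹ * c⁻¹ * b⁻¹ ^ q) := by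
    have hbq : b ^ q * b⁻¹ ^ q = 1 := by rw [← mul_pow, mul_inv_cancel₀ hb0, one_pow]
    have hcc : c * c⁻¹ = 1 := mul_inv_cancel₀ hc0
    rw [mul_inv, mul_inv, pow_succ]
    linear_combination (a⁻¹ * b⁻¹ * b⁻¹ ^ q) * hcc - (a⁻¹ * b⁻¹ * c⁻¹) * hbq
  rw [e]
  exact nu_mul544 V (nu_neg544 V h)
    (V.mul_mem _ _ (V.mul_mem _ _ (V.mul_mem _ _ ha hb) hc) (pow_mem hb q))

/-- `a⁻¹ b⁻¹ c⁻¹ ≡ (a⁻¹)² b⁻¹` when `c ≡ a`. -/
theorem cong_inv_B544 (V : ValuationSubring F) {a b c : F} (ha0 : a ≠ 0) (hc0 : c ≠ 0)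
    (ha : a⁻¹ ∈ V) (hb : b⁻¹ ∈ V) (hc : c⁻¹ ∈ V) (h : c - a ∈ V.nonunits) :
    (a * b * c)⁻¹ - a⁻¹ ^ 2 * b⁻¹ ∈ V.nonunits := by
  have e : (a * b * c)⁻¹ - a⁻¹ ^ 2 * b⁻¹ = (-(c - a)) * (a⁻¹ * b⁻¹ * c⁻¹ * a⁻¹) := by
    have haa : a * a⁻¹ = 1 := mul_inv_cancel₀ ha0
    have hcc : c * c⁻¹ = 1 := mul_inv_cancel₀ hc0
    rw [mul_inv, mul_inv]
    linear_combination (a⁻¹ * b⁻¹ * a⁻¹) * hcc - (a⁻¹ * b⁻¹ * c⁻¹) * haa
  rw [e]
  exact nu_mul544 V (nu_neg544 V h)
    (V.mul_mem _ _ (V.mul_mem _ _ (V.mul_mem _ _ ha hb) hc) ha)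

/-- `a⁻¹ b⁻¹ c⁻¹ ≡ (b⁻¹)^(q+1) c⁻¹` when `a ≡ b^q`. -/
theorem cong_inv_C544 (V : ValuationSubring F) (q : ℕ) {a b c : F} (ha0 : a ≠ 0) (hb0 : b ≠ 0)
    (ha : a⁻¹ ∈ V) (hb : b⁻¹ ∈ V) (hc : c⁻¹ ∈ V) (h : a - b ^ q ∈ V.nonunits) :
    (a * b * c)⁻¹ - b⁻¹ ^ (q + 1) * c⁻¹ ∈ V.nonunits := by
  have e : (a * b * c)⁻¹ - b⁻¹ ^ (q + 1) * c⁻¹ =
      (-(a - b ^ q)) * (a⁻¹ * b⁻¹ * c⁻¹ * b⁻¹ ^ q) := by
    have hbq : b ^ q * b⁻¹ ^ q = 1 := by rw [← mul_pow, mul_inv_cancel₀ hb0, one_pow]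
    have haa : a * a⁻¹ = 1 := mul_inv_cancel₀ ha0
    rw [mul_inv, mul_inv, pow_succ]
    linear_combination (b⁻¹ * c⁻¹ * b⁻¹ ^ q) * haa - (a⁻¹ * b⁻¹ * c⁻¹) * hbq
  rw [e]
  exact nu_mul544 V (nu_neg544 V h)
    (V.mul_mem _ _ (V.mul_mem _ _ (V.mul_mem _ _ ha hb) hc) (pow_mem hb q))

/-! ### Assembly (generic) -/

section Assembly

variable (w : R) (q : ℕ) (α β : F' →ₐ[E] F) (j jq jqq : F) (j' jq' x' : F')
  (V₁ V₂ V₃ : ValuationSubring F) (V₁' V₂' : ValuationSubring F')

/-- `α` maps the chart at infinity of level `M q` into the chart at infinity of level `M q q`. -/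
theorem chart_inf_α544 (hx' : x' = j' * jq') (hαj : α j' = j) (hαjq : α jq' = jq)
    (hji : j⁻¹ ∈ chart R ({(j * jq * jqq)⁻¹} : Set F))
    (hjqi : jq⁻¹ ∈ chart R ({(j * jq * jqq)⁻¹} : Set F)) :
    ∀ b ∈ chart R ({x'⁻¹} : Set F'), α b ∈ chart R ({(j * jq * jqq)⁻¹} : Set F) := by
  apply Fermat.Agent.S36.Mod3.H189.chart_map (R := R)
  have e : α x'⁻¹ = j⁻¹ * jq⁻¹ := by
    rw [hx', map_inv₀, map_mul, hαj, hαjq, mul_inv]
  rw [e]
  exact (chart R ({(j * jq * jqq)⁻¹} : Set F)).mul_mem hji hjqi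

/-- `β` maps the chart at infinity of level `M q` into the chart at infinity of level `M q q`. -/
theorem chart_inf_β544 (hx' : x' = j' * jq') (hβj : β j' = jq) (hβjq : β jq' = jqq)
    (hjqi : jq⁻¹ ∈ chart R ({(j * jq * jqq)⁻¹} : Set F))
    (hjqqi : jqq⁻¹ ∈ chart R ({(j * jq * jqq)⁻¹} : Set F)) :
    ∀ b ∈ chart R ({x'⁻¹} : Set F'), β b ∈ chart R ({(j * jq * jqq)⁻¹} : Set F) := by
  apply Fermat.Agent.S36.Mod3.H189.chart_map (R := R)
  have e : β x'⁻¹ = jq⁻¹ * jqq⁻¹ := by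
    rw [hx', map_inv₀, map_mul, hβj, hβjq, mul_inv]
  rw [e]
  exact (chart R ({(j * jq * jqq)⁻¹} : Set F)).mul_mem hjqi hjqqi

/-- **The six `NormalAlong`** of level `M q q`. -/
theorem partNormal_of544 (hx' : x' = j' * jq')
    (hαj : α j' = j) (hαjq : α jq' = jq) (hβj : β j' = jq) (hβjq : β jq' = jqq)
    (hj0 : j ≠ 0) (hjq0 : jq ≠ 0) (hjqq0 : jqq ≠ 0)
    (hVT : PartVT w q α β j jq jqq V₁ V₂ V₃ V₁' V₂')
    (hT : PartTable α β V₁ V₂ V₃ V₁' V₂')
    (hVal : PartVal w q (j * jq * jqq) V₁ V₂ V₃)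
    (hSh : PartSheet w (j * jq * jqq) V₁ V₂ V₃)
    (hcα : ∀ b ∈ chart R ({x'} : Set F'), α b ∈ chart R ({j * jq * jqq} : Set F))
    (hcβ : ∀ b ∈ chart R ({x'} : Set F'), β b ∈ chart R ({j * jq * jqq} : Set F))
    (hiα : ∀ b ∈ chart R ({j * jq * jqq} : Set F), ∃ p : Polynomial F', p.Monic ∧
      (∀ i, p.coeff i ∈ chart R ({x'} : Set F')) ∧ (p.map (α : F' →+* F)).eval b = 0)
    (hiβ : ∀ b ∈ chart R ({j * jq * jqq} : Set F), ∃ p : Polynomial F', p.Monic ∧
      (∀ i, p.coeff i ∈ chart R ({x'} : Set F')) ∧ (p.map (β : F' →+* F)).eval b = 0)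
    (hji : j⁻¹ ∈ chart R ({(j * jq * jqq)⁻¹} : Set F))
    (hjqi : jq⁻¹ ∈ chart R ({(j * jq * jqq)⁻¹} : Set F))
    (hjqqi : jqq⁻¹ ∈ chart R ({(j * jq * jqq)⁻¹} : Set F))
    (hj'i : j'⁻¹ ∈ chart R ({x'⁻¹} : Set F'))
    (hjq'i : jq'⁻¹ ∈ chart R ({x'⁻¹} : Set F'))
    (hN : PartNormMq544 R x' V₁' V₂') :
    PartNormal R (j * jq * jqq) V₁ V₂ V₃ := by
  have hcαi := chart_inf_α544 (R := R) α j jq jqq j' jq' x' hx' hαj hαjq hji hjqi
  have hcβi := chart_inf_β544 (R := R) β j jq jqq j' jq' x' hx' hβj hβjq hjqi hjqqi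
  have hBi₁ := chart_le544 (R := R) (j * jq * jqq)⁻¹ V₁ hSh.base₁ hVal.x_unit₁.2.2
  have hBi₂ := chart_le544 (R := R) (j * jq * jqq)⁻¹ V₂ hSh.base₂ hVal.x_unit₂.2.2
  have hBi₃ := chart_le544 (R := R) (j * jq * jqq)⁻¹ V₃ hSh.base₃ hVal.x_unit₃.2.2
  -- the three elements of the chart at infinity of level `M q`
  have hyA : j'⁻¹ * jq'⁻¹ ^ (q + 1) ∈ chart R ({x'⁻¹} : Set F') :=
    (chart R ({x'⁻¹} : Set F')).mul_mem hj'i (pow_mem hjq'i _)
  have hyB : j'⁻¹ ^ 2 * jq'⁻¹ ∈ chart R ({x'⁻¹} : Set F') :=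
    (chart R ({x'⁻¹} : Set F')).mul_mem (pow_mem hj'i _) hjq'i
  have hyC : j'⁻¹ ^ (q + 1) * jq'⁻¹ ∈ chart R ({x'⁻¹} : Set F') :=
    (chart R ({x'⁻¹} : Set F')).mul_mem (pow_mem hj'i _) hjq'i
  have eA : α (j'⁻¹ * jq'⁻¹ ^ (q + 1)) = j⁻¹ * jq⁻¹ ^ (q + 1) := by
    rw [map_mul, map_pow, map_inv₀, map_inv₀, hαj, hαjq]
  have eB : α (j'⁻¹ ^ 2 * jq'⁻¹) = j⁻¹ ^ 2 * jq⁻¹ := by
    rw [map_mul, map_pow, map_inv₀, map_inv₀, hαj, hαjq]
  have eC : β (j'⁻¹ ^ (q + 1) * jq'⁻¹) = jq⁻¹ ^ (q + 1) * jqq⁻¹ := by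
    rw [map_mul, map_pow, map_inv₀, map_inv₀, hβj, hβjq]
  refine
    { normal_f₁ := normalAlong_of_res544 α _ _ V₁ hcα
        (res_chart_int544 α (j * jq * jqq) _ V₁ V₁' hT.comap_α₁ hSh.base₁ hVal.x_unit₁.2.1
          hVT.res_α₁ hcα hiα hN.normal_f₁')
      normal_f₂ := normalAlong_of_res544 α _ _ V₂ hcα
        (res_chart_int544 α (j * jq * jqq) _ V₂ V₁' hT.comap_α₂ hSh.base₂ hVal.x_unit₂.2.1
          hVT.res_α₂ hcα hiα hN.normal_f₁')
      normal_f₃ := normalAlong_of_res544 β _ _ V₃ hcβ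
        (res_chart_int544 β (j * jq * jqq) _ V₃ V₂' hT.comap_β₃ hSh.base₃ hVal.x_unit₃.2.1
          hVT.res_β₃ hcβ hiβ hN.normal_f₂')
      normal_i₁ := normalAlong_of_res544 α _ _ V₁ hcαi
        (res_chart_gen544 α (j * jq * jqq)⁻¹ _ V₁ V₁' hT.comap_α₁ hSh.base₁ hVal.x_unit₁.2.2
          hVT.res_α₁ hcαi ⟨_, hyA, ?_⟩ hN.normal_i₁')
      normal_i₂ := normalAlong_of_res544 α _ _ V₂ hcαi
        (res_chart_gen544 α (j * jq * jqq)⁻¹ _ V₂ V₁' hT.comap_α₂ hSh.base₂ hVal.x_unit₂.2.2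
          hVT.res_α₂ hcαi ⟨_, hyB, ?_⟩ hN.normal_i₁')
      normal_i₃ := normalAlong_of_res544 β _ _ V₃ hcβi
        (res_chart_gen544 β (j * jq * jqq)⁻¹ _ V₃ V₂' hT.comap_β₃ hSh.base₃ hVal.x_unit₃.2.2
          hVT.res_β₃ hcβi ⟨_, hyC, ?_⟩ hN.normal_i₂') }
  · rw [eA]
    exact cong_inv_A544 V₁ q hjq0 hjqq0 (hBi₁ _ hji) (hBi₁ _ hjqi) (hBi₁ _ hjqqi) hVT.kron₁.2
  · rw [eB]
    exact cong_inv_B544 V₂ hj0 hjqq0 (hBi₂ _ hji) (hBi₂ _ hjqi) (hBi₂ _ hjqqi) hVT.kron₂.2
  · rw [eC]
    exact cong_inv_C544 V₃ q hj0 hjq0 (hBi₃ _ hji) (hBi₃ _ hjqi) (hBi₃ _ hjqqi) hVT.kron₃.1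

/-- **The four chart-level residue statements** of `PartChart`. -/
theorem partRes_of544
    (hVT : PartVT w q α β j jq jqq V₁ V₂ V₃ V₁' V₂')
    (hT : PartTable α β V₁ V₂ V₃ V₁' V₂')
    (hVal : PartVal w q (j * jq * jqq) V₁ V₂ V₃)
    (hSh : PartSheet w (j * jq * jqq) V₁ V₂ V₃)
    (hcα : ∀ b ∈ chart R ({x'} : Set F'), α b ∈ chart R ({j * jq * jqq} : Set F))
    (hcβ : ∀ b ∈ chart R ({x'} : Set F'), β b ∈ chart R ({j * jq * jqq} : Set F))
    (hiα : ∀ b ∈ chart R ({j * jq * jqq} : Set F), ∃ p : Polynomial F', p.Monic ∧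
      (∀ i, p.coeff i ∈ chart R ({x'} : Set F')) ∧ (p.map (α : F' →+* F)).eval b = 0)
    (hiβ : ∀ b ∈ chart R ({j * jq * jqq} : Set F), ∃ p : Polynomial F', p.Monic ∧
      (∀ i, p.coeff i ∈ chart R ({x'} : Set F')) ∧ (p.map (β : F' →+* F)).eval b = 0)
    (hN : PartNormMq544 R x' V₁' V₂') :
    Fermat.Agent.S36.Mod3.H189.PartRes R α β (j * jq * jqq) x' V₁ V₂ V₃ :=
  { res_α₁ := chartRes_of_res544 α _ _ V₁
      (res_chart_int544 α (j * jq * jqq) _ V₁ V₁' hT.comap_α₁ hSh.base₁ hVal.x_unit₁.2.1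
        hVT.res_α₁ hcα hiα hN.normal_f₁')
    res_α₂ := chartRes_of_res544 α _ _ V₂
      (res_chart_int544 α (j * jq * jqq) _ V₂ V₁' hT.comap_α₂ hSh.base₂ hVal.x_unit₂.2.1
        hVT.res_α₂ hcα hiα hN.normal_f₁')
    res_β₃ := chartRes_of_res544 β _ _ V₃
      (res_chart_int544 β (j * jq * jqq) _ V₃ V₂' hT.comap_β₃ hSh.base₃ hVal.x_unit₃.2.1
        hVT.res_β₃ hcβ hiβ hN.normal_f₂')
    res_β₂ := chartRes_of_res544 β _ _ V₂
      (res_chart_int544 β (j * jq * jqq) _ V₂ V₂' hT.comap_β₂ hSh.base₂ hVal.x_unit₂.2.1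
        hVT.res_β₂ hcβ hiβ hN.normal_f₂') }

end Assembly

end Generic

end Fermat.Agent.S36.Mod3.H544

end
-- ===== PACK-END S36/Mod3/H544/NormalGen.lean

-- ===== PACK-BEGIN S45/Reg/H878/Out.lean
section





/-!
# S45 / CAR3 / MOD-E / REG — the leaf `Reg.LeafOut` (helper878)

`leafOut_of : Reg.LeafCuspPoles → Reg.LeafOut`: the invariant `Reg.RegInv` of a level, together
with the parts VAL, SHEET, QEP, INC of its absolute context, gives the part REG
(`ModE.PartRegE`, v0.2):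

* `regular_m`, `regular_s` : `UnitPkg` + helper922 `principalAt_of_unit_fam922'` (family form of
  `S36.H878.principalAt_of_unit_self'`), at EVERY closed point of the finite chart through `V i`;
* `regular_i`              : `LitePkg` + helper843 `principalAt_lite_fam` (family form of
  `S36.H876.principalAt_lite`), `cusp_single`, and `LeafCuspPoles`.

Abstract cores: `principalAt_of_unitPkg878`, `principalAt_of_litePkg878`.
-/

set_option autoImplicit false
set_option linter.style.haveILetI false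
set_option linter.unusedSectionVars false
set_option linter.unusedVariables false
set_option synthInstance.maxHeartbeats 400000
set_option maxHeartbeats 1600000

noncomputable section

namespace Fermat.Agent.S45.Reg.H878

open ModularCurve AlgebraicCurve
open Fermat.Agent.S18.H138 (chart)
open Fermat.Agent.S36 Fermat.Agent.S36.Eng
open Fermat.Agent.S45

/-! ## Abstract cores -/

section Abs

variable {R F : Type*} [CommRing R] [Field F] [Algebra R F]

/-- The chart of `y` lies in every valuation ring containing `R` and `y`. -/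
theorem chart_le878 (V : ValuationSubring F) {y : F}
    (hR : ∀ r : R, algebraMap R F r ∈ V) (hy : y ∈ V) :
    ∀ b : chart R ({y} : Set F), (b : F) ∈ V := by
  intro b
  have hle : ∀ a ∈ Algebra.adjoin R ({y} : Set F), a ∈ V := by
    intro a ha
    induction ha using Algebra.adjoin_induction with
    | mem z hz =>
      rw [Set.mem_singleton_iff] at hz
      rw [hz]
      exact hy
    | algebraMap r => exact hR r
    | add z z' _ _ hz hz' => exact V.add_mem _ _ hz hz'
    | mul z z' _ _ hz hz' => exact V.mul_mem _ _ hz hz'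
  have hb : IsIntegral (Algebra.adjoin R ({y} : Set F)) (b : F) :=
    (Fermat.Agent.S18.H138.mem_chart).1 b.2
  obtain ⟨p, hp, hpe⟩ := hb
  -- `b` is integral over the subring `V`
  have hint : IsIntegral V (b : F) := by
    let φ : Algebra.adjoin R ({y} : Set F) →+* V :=
      { toFun := fun a => ⟨(a : F), hle a a.2⟩
        map_one' := rfl
        map_mul' := fun _ _ => rfl
        map_zero' := rfl
        map_add' := fun _ _ => rfl }
    refine ⟨p.map φ, hp.map φ, ?_⟩
    rw [Polynomial.eval₂_map]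
    have : (algebraMap V F).comp φ = algebraMap (Algebra.adjoin R ({y} : Set F)) F := by
      ext a
      rfl
    rw [this]
    exact hpe
  have := (IsIntegrallyClosed.isIntegral_iff (R := V) (K := F)).1 hint
  obtain ⟨v, hv⟩ := this
  rw [← hv]
  exact v.2

/-- **A1 in package form**: a unit package of the sheet `V i` makes `V i` locally principal at
every proper ideal `𝔪` of the chart through which it passes. -/
theorem principalAt_of_unitPkg878 (w : R) (B : Subalgebra R F) (e : ℕ)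
    (V : ℕ → ValuationSubring F) (i : ℕ) (hi : i ≤ e) (x : F)
    (hw0 : algebraMap R F w ≠ 0)
    (hB : ∀ j ≤ e, ∀ b : B, (b : F) ∈ V j)
    (hqep : ModE.QepE w B e V)
    (hpkg : UnitPkg w B e V i x)
    (𝔪 : Ideal B) (h𝔪 : 𝔪 ≠ ⊤) (hthr : Through B 𝔪 (V i)) :
    PrincipalAt B 𝔪 (V i) := by
  obtain ⟨hxB, U, d, g, g', k, N, hN, hUd, hgg, hU, ⟨t, ht, hUt⟩, hres⟩ := hpkg
  have hg : g ∉ 𝔪 := by
    intro hgm
    apply h𝔪
    rw [Ideal.eq_top_iff_one, ← hgg]
    exact 𝔪.mul_mem_right _ hgm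
  exact (H922.principalAt_of_unit_fam922' w B (fun j : Fin (e + 1) => V j) ⟨i, by omega⟩ hw0
    (fun j b => hB j (by omega) b)
    (fun b hb => hqep b (fun j hj => hb ⟨j, by omega⟩)) 𝔪 hthr ⟨x, hxB⟩ U d g k N hN hUd
    (fun j hj => hU j (by omega) (fun h => hj (Fin.ext h))) t ht hUt hg hres).2

/-- **A2 in package form**: a lite package of the sheet `V i` makes `V i` locally principal at
every prime cusp ideal `𝔪` of the chart lying on `V i` only. -/
theorem principalAt_of_litePkg878 (w : R) (B : Subalgebra R F) (J : ℕ → F) (e : ℕ)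
    (V : ℕ → ValuationSubring F) (μ : ℕ → ℕ) (i : ℕ) (hi : i ≤ e) (x : F)
    (hw0 : algebraMap R F w ≠ 0)
    (hB : ∀ j ≤ e, ∀ b : B, (b : F) ∈ V j)
    (hqep : ModE.QepE w B e V)
    (hram : ∀ j ≤ e, ∃ t : F, UnifAt (V j) t ∧ UnitAt (V j) (algebraMap R F w * (t ^ μ j)⁻¹))
    (hpkg : LitePkg w B J e V i x)
    (𝔪 : Ideal B) (h𝔪 : 𝔪.IsPrime) (hcusp : IsCuspIdeal B J e 𝔪) (hthr : Through B 𝔪 (V i))
    (hsingle : ∀ j ≤ e, j ≠ i → ¬ Through B 𝔪 (V j)) :
    PrincipalAt B 𝔪 (V i) := by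
  obtain ⟨hxB, hx, g₁, g₂, k, N, hN, hcong, hg₁⟩ := hpkg
  exact ModE.H843.principalAt_lite_fam w e B V μ hw0 hB hqep hram 𝔪 h𝔪 i hi hthr hsingle
    ⟨x, hxB⟩ g₁ g₂ k N hN hx (hg₁ 𝔪 h𝔪 hcusp) hcong

/-- `w ∈ 𝔪_V` from `ram` with a positive multiplicity. -/
theorem w_mem_nonunits878 {V : ValuationSubring F} {a : F} {μ : ℕ} (hμ : 0 < μ)
    (h : ∃ t : F, UnifAt V t ∧ UnitAt V (a * (t ^ μ)⁻¹)) : a ∈ V.nonunits := by
  obtain ⟨t, ⟨t0, t1, -⟩, ⟨-, u1, -⟩⟩ := h
  have e : a = a * (t ^ μ)⁻¹ * t ^ μ := by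
    have : t ^ μ ≠ 0 := pow_ne_zero _ t0
    field_simp
  rw [e, V.mem_nonunits_iff, map_mul, map_pow]
  rw [V.mem_nonunits_iff] at t1
  have h1 : V.valuation (a * (t ^ μ)⁻¹) ≤ 1 := (V.valuation_le_one_iff _).mpr u1
  have h2 : V.valuation t ^ μ < 1 := pow_lt_one₀ zero_le t1 (by omega)
  calc V.valuation (a * (t ^ μ)⁻¹) * V.valuation t ^ μ
      ≤ 1 * V.valuation t ^ μ := by gcongr
    _ = V.valuation t ^ μ := one_mul _
    _ < 1 := h2

end Abs

/-! ## The leaf -/

/-- `mu q e i` is positive for a prime `q`. -/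
theorem mu_pos878 {q : ℕ} (hq : q.Prime) (e i : ℕ) : 0 < ModE.mu q e i := by
  unfold ModE.mu
  exact Nat.totient_pos.2 (pow_pos hq.pos _)

/-- The algebra map `R_E → F_E(N)` is injective. -/
theorem algebraMap_RE_injective878 (P : ValuationSubring A2.Qb) (E : IntermediateField ℚ A2.Qb)
    (N : ℕ) : Function.Injective (algebraMap (A2.RE P E) (A2.Mod.FE E N)) := by
  intro a b hab
  have h1 : algebraMap E (A2.Mod.FE E N) (a : E) = algebraMap E (A2.Mod.FE E N) (b : E) := hab
  exact Subtype.ext ((algebraMap E (A2.Mod.FE E N)).injective h1)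

/-- **REG-OUT.** -/
theorem leafOut_of (hCP : LeafCuspPoles) : LeafOut := by
  intro P E N q _ _ n w V W hStd hn hval hsheet hqep hinc hX
  obtain ⟨⟨τ, hchain, hF⟩, hI⟩ := hX
  have hw0 : algebraMap (A2.RE P E) (A2.Mod.FE E N) w ≠ 0 := by
    intro h
    have h0 : w = 0 := algebraMap_RE_injective878 P E N (by rw [h, map_zero])
    exact hStd.unif.ne_zero h0
  have hBf : ∀ j ≤ n, ∀ b : chart (A2.RE P E) ({ModE.xLev E N q n} : Set (A2.Mod.FE E N)),
      (b : A2.Mod.FE E N) ∈ V j := fun j hj =>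
    chart_le878 (V j) (hsheet.base j hj) (hval.x_unit j hj).2.1
  have hBi : ∀ j ≤ n, ∀ b : chart (A2.RE P E) ({(ModE.xLev E N q n)⁻¹} : Set (A2.Mod.FE E N)),
      (b : A2.Mod.FE E N) ∈ V j := fun j hj =>
    chart_le878 (V j) (hsheet.base j hj) (hval.x_unit j hj).2.2
  refine ⟨?_, ?_, ?_⟩
  · -- `regular_m`: the sheet `V 1`
    intro 𝔪 h𝔪 hmulti
    exact ⟨1, by omega, principalAt_of_unitPkg878 w _ n V 1 (by omega) _ hw0 hBf hqep.qep_f
      (hF.pkg 1 le_rfl (by omega)) 𝔪 h𝔪.ne_top (hmulti 1 (by omega))⟩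
  · -- `regular_s`
    intro 𝔪 h𝔪 i hi1 hi2 hthr _
    exact principalAt_of_unitPkg878 w _ n V i (by omega) _ hw0 hBf hqep.qep_f
      (hF.pkg i hi1 hi2) 𝔪 h𝔪.ne_top hthr
  · -- `regular_i`
    intro 𝔪 h𝔪 hx i hi1 hi2 hthr
    obtain ⟨x, -, hpkg⟩ := hI.pkg i hi1 hi2
    have hcusp := hCP P E N q n hStd.q_prime hStd.exp 𝔪 h𝔪 hx
    have hw𝔪 : algebraMap (A2.RE P E)
        (chart (A2.RE P E) ({(ModE.xLev E N q n)⁻¹} : Set (A2.Mod.FE E N))) w ∈ 𝔪 :=
      hthr _ (w_mem_nonunits878 (mu_pos878 hStd.q_prime n i) (hval.ram i (by omega)))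
    have hsingle : ∀ j ≤ n, j ≠ i → ¬ Through _ 𝔪 (V j) := fun j hj hji hthrj =>
      hinc.cusp_single 𝔪 h𝔪 hw𝔪 hx i (by omega) j hj (fun h => hji h.symm) ⟨hthr, hthrj⟩
    exact principalAt_of_litePkg878 w _ (ModE.jLev E N q) n V (ModE.mu q n) i (by omega) x hw0
      hBi hqep.qep_i hval.ram hpkg 𝔪 h𝔪.isPrime hcusp hthr hsingle

end Fermat.Agent.S45.Reg.H878

end

end
-- ===== PACK-END S45/Reg/H878/Out.lean

-- ===== PACK-BEGIN S45/H715/ChartE.lean
section






/-!
# S45 / MOD-E, cell CHART-E (helper715) — the chart fields of `S45.Eng.CtxE` at EVERY level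

Level `N` (below, `F' = F_E(N)`), level `N q` (above, `F = F_E(N q)`), `q ^ n ∣ N`, degeneracy maps
`α = A2.Mod.αE E N q`, `β = A2.Mod.βE E N q : F' → F`.

* `sE E N q k = j_{q^k}` at level `N` (junk value `1` if `q ^ k ∤ N`);
* **the coordinate** `xGE E N q e = ∏_{k ≤ e} j_{q^k}` (`e = 1`: `A2.Mod.xE`; `e = 2`: `Mod3.x3E`);
* `alpha_sE`, `beta_sE` : `α j_{q^k} = j_{q^k}`, `β j_{q^k} = j_{q^(k+1)}`;
* `modEq_up`, `modEq_down` : `Φ_q(j_{q^k}; j_{q^(k+1)}) = 0 = Φ_q(j_{q^(k+1)}; j_{q^k})` at every level;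
* `chainEq_sE` : the chain `j, j_q, …, j_{q^e}` is a `ChainEq` for `Φ_q`;
* `sE_mem_chart`, `sE_inv_mem_chart` : `j_{q^k} ∈ chart R {x}`, `j_{q^k}⁻¹ ∈ chart R {x⁻¹}`;
* `chart_α_xGE`, `chart_β_xGE`, `int_α_xGE`, `int_β_xGE` : the four fields `chart_α`, `chart_β`,
  `int_α`, `int_β` of `S45.Eng.CtxE` for `x' = xGE E N q n`, `x = xGE E (N q) q (n + 1)`.

No hypothesis on `P`, `E`, `N`, `q` beyond `q` prime and `q ^ n ∣ N` (`q ∣ N` or not).
-/

set_option autoImplicit false
set_option linter.unusedSectionVars false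
set_option linter.style.haveILetI false
set_option synthInstance.maxHeartbeats 400000
set_option maxHeartbeats 1600000

noncomputable section

namespace Fermat.Agent.S45.H715

open ModularCurve Polynomial
open Fermat.Agent.S18.H138 (chart mem_chart mem_chart_of_mem)
open Fermat.Agent

variable (P : ValuationSubring A2.Qb) (E : IntermediateField ℚ A2.Qb) (N q : ℕ)
  [NeZero N] [NeZero q]

/-! ## The generators and the coordinate -/

/-- `j_{q^k}` at level `N` (junk value `1` if `q ^ k ∤ N`). -/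
def sE (k : ℕ) : A2.Mod.FE E N :=
  if h : q ^ k ∣ N then A2.Mod.jE E N (q ^ k) h else 1

/-- **The coordinate** `x = ∏_{k ≤ e} j_{q^k}` of level `N`, `q ^ e ∣ N`. -/
def xGE (e : ℕ) : A2.Mod.FE E N := chainProd (sE E N q) e

theorem sE_of_dvd {k : ℕ} (h : q ^ k ∣ N) : sE E N q k = A2.Mod.jE E N (q ^ k) h :=
  dif_pos h

theorem sE_zero : sE E N q 0 = A2.Mod.jE E N 1 (one_dvd N) := by
  rw [sE_of_dvd E N q (k := 0) (by simp)]
  exact A2.Mod.H751.jE_congr E N (pow_zero q) _ _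

theorem sE_one (h : q ∣ N) : sE E N q 1 = A2.Mod.jE E N q h := by
  rw [sE_of_dvd E N q (k := 1) (by simpa using h)]
  exact A2.Mod.H751.jE_congr E N (pow_one q) _ _

theorem sE_ne_zero (k : ℕ) : sE E N q k ≠ 0 := by
  unfold sE
  split_ifs with h
  · exact A2.Mod.H873.jE_ne_zero E N (q ^ k) h
  · exact one_ne_zero

theorem xGE_def (e : ℕ) : xGE E N q e = ∏ k ∈ Finset.range (e + 1), sE E N q k := rfl

theorem xGE_ne_zero (e : ℕ) : xGE E N q e ≠ 0 :=
  chainProd_ne_zero fun k _ => sE_ne_zero E N q k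

/-! ## The degeneracy maps on the generators -/

theorem dvd_mul_of_pow_dvd {k : ℕ} (h : q ^ k ∣ N) : q ^ k ∣ N * q :=
  h.trans (dvd_mul_right N q)

theorem pow_succ_dvd_mul {k : ℕ} (h : q ^ k ∣ N) : q ^ (k + 1) ∣ N * q := by
  rw [pow_succ]
  exact mul_dvd_mul_right h q

/-- `α j_{q^k} = j_{q^k}`. -/
theorem alpha_sE {k : ℕ} (h : q ^ k ∣ N) :
    A2.Mod.αE E N q (sE E N q k) = sE E (N * q) q k := by
  rw [sE_of_dvd E N q h, sE_of_dvd E (N * q) q (dvd_mul_of_pow_dvd N q h)]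
  exact A2.Mod.H751.alpha_jE E N q (q ^ k) h

/-- `β j_{q^k} = j_{q^(k+1)}`. -/
theorem beta_sE {k : ℕ} (h : q ^ k ∣ N) :
    A2.Mod.βE E N q (sE E N q k) = sE E (N * q) q (k + 1) := by
  rw [sE_of_dvd E N q h, sE_of_dvd E (N * q) q (pow_succ_dvd_mul N q h)]
  rw [A2.Mod.H751.beta_jE E N q (q ^ k) h]
  exact A2.Mod.H751.jE_congr E (N * q) (pow_succ' q k).symm _ _

theorem alpha_xGE {n : ℕ} (h : q ^ n ∣ N) :
    A2.Mod.αE E N q (xGE E N q n) = ∏ k ∈ Finset.range (n + 1), sE E (N * q) q k := by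
  rw [xGE_def, map_prod]
  exact Finset.prod_congr rfl fun k hk =>
    alpha_sE E N q ((pow_dvd_pow q (Nat.lt_succ_iff.mp (Finset.mem_range.mp hk))).trans h)

theorem beta_xGE {n : ℕ} (h : q ^ n ∣ N) :
    A2.Mod.βE E N q (xGE E N q n) = ∏ k ∈ Finset.range (n + 1), sE E (N * q) q (k + 1) := by
  rw [xGE_def, map_prod]
  exact Finset.prod_congr rfl fun k hk =>
    beta_sE E N q ((pow_dvd_pow q (Nat.lt_succ_iff.mp (Finset.mem_range.mp hk))).trans h)

/-- `x_{e+1} = α x_e · j_{q^(e+1)}`. -/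
theorem xGE_succ_eq_alpha {n : ℕ} (h : q ^ n ∣ N) :
    xGE E (N * q) q (n + 1) = A2.Mod.αE E N q (xGE E N q n) * sE E (N * q) q (n + 1) := by
  rw [alpha_xGE E N q h, xGE_def, Finset.prod_range_succ]

/-- `x_{e+1} = j · β x_e`. -/
theorem xGE_succ_eq_beta {n : ℕ} (h : q ^ n ∣ N) :
    xGE E (N * q) q (n + 1) = sE E (N * q) q 0 * A2.Mod.βE E N q (xGE E N q n) := by
  rw [beta_xGE E N q h, xGE_def, Finset.prod_range_succ']
  exact mul_comm _ _

/-! ## The modular equations along the chain -/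

section ModEq

variable (D : S28.ModPolyData q)

/-- `Φ_q(X = j(t^d); Y = j(t^(d q))) = 0` in `ℤ((t))`. -/
theorem modEq_int_up (d : ℕ) [NeZero d] :
    D.Φ.eval₂ (S28.evalAt (qExpand ℤ (d * q) (jqModC ℤ))) (qExpand ℤ d (jqModC ℤ)) = 0 := by
  have h := congrArg (qExpand ℤ d) D.eval_j
  rw [Polynomial.hom_eval₂, S28.H145.qExpand_comp_evalAt, qExpand_qExpand, map_zero] at h
  exact h

/-- `Φ_q(X = j(t^(d q)); Y = j(t^d)) = 0` in `ℤ((t))`. -/
theorem modEq_int_down (d : ℕ) [NeZero d] :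
    D.Φ.eval₂ (S28.evalAt (qExpand ℤ d (jqModC ℤ))) (qExpand ℤ (d * q) (jqModC ℤ)) = 0 := by
  have h := congrArg (qExpand ℤ d) D.eval_jp
  rw [Polynomial.hom_eval₂, S28.H145.qExpand_comp_evalAt, qExpand_qExpand, map_zero] at h
  exact h

/-- `Φ_q(X = j_{q^k}; Y = j_{q^(k+1)}) = 0` at level `N`. -/
theorem modEq_up {k : ℕ} (h : q ^ (k + 1) ∣ N) :
    D.Φ.eval₂ (Polynomial.aeval (R := ℤ) (sE E N q (k + 1))).toRingHom (sE E N q k) = 0 := by
  have hk : q ^ k ∣ N := (pow_dvd_pow q (Nat.le_succ k)).trans h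
  rw [sE_of_dvd E N q h, sE_of_dvd E N q hk]
  refine A2.Mod.H873.eval₂_eq_zero_of_int E N D.Φ _ _ _ _
    (A2.Mod.H873.coe_jE_int E N (q ^ k) hk) ?_ (modEq_int_up q D (q ^ k))
  rw [A2.Mod.H873.coe_jE_int E N (q ^ (k + 1)) h]
  exact congrArg _ (qExpand_congr (pow_succ q k) _)

/-- `Φ_q(X = j_{q^(k+1)}; Y = j_{q^k}) = 0` at level `N`. -/
theorem modEq_down {k : ℕ} (h : q ^ (k + 1) ∣ N) :
    D.Φ.eval₂ (Polynomial.aeval (R := ℤ) (sE E N q k)).toRingHom (sE E N q (k + 1)) = 0 := by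
  have hk : q ^ k ∣ N := (pow_dvd_pow q (Nat.le_succ k)).trans h
  rw [sE_of_dvd E N q h, sE_of_dvd E N q hk]
  refine A2.Mod.H873.eval₂_eq_zero_of_int E N D.Φ _ _ _ _ ?_
    (A2.Mod.H873.coe_jE_int E N (q ^ k) hk) (modEq_int_down q D (q ^ k))
  rw [A2.Mod.H873.coe_jE_int E N (q ^ (k + 1)) h]
  exact congrArg _ (qExpand_congr (pow_succ q k) _)

/-- **The chain `j, j_q, …, j_{q^e}` at level `N`, `q ^ e ∣ N`.** -/
theorem chainEq_sE_of (e : ℕ) (h : q ^ e ∣ N) : ChainEq D.Φ (sE E N q) e where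
  monic := D.monic
  up := fun _ hk => modEq_up E N q D ((pow_dvd_pow q (Nat.succ_le_of_lt hk)).trans h)
  down := fun _ hk => modEq_down E N q D ((pow_dvd_pow q (Nat.succ_le_of_lt hk)).trans h)
  ne_zero := fun k _ => sE_ne_zero E N q k

end ModEq

/-! ## The generators lie in the charts; the chart fields of `CtxE` -/

section Charts

variable (hq : q.Prime)
include hq

theorem exists_chainEq_sE (e : ℕ) (h : q ^ e ∣ N) :
    ∃ Φ : Polynomial (Polynomial ℤ), ChainEq Φ (sE E N q) e := by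
  obtain ⟨D⟩ := S28.H807.nonempty_modPolyData q hq
  exact ⟨D.Φ, chainEq_sE_of E N q D e h⟩

/-- a valuation subring containing `x = ∏ j_{q^k}` contains every `j_{q^k}`, `k ≤ e` -/
theorem sE_mem_of_xGE_mem {e : ℕ} (h : q ^ e ∣ N) (V : ValuationSubring (A2.Mod.FE E N))
    (hx : xGE E N q e ∈ V) : ∀ k ≤ e, sE E N q k ∈ V := by
  obtain ⟨Φ, hΦ⟩ := exists_chainEq_sE E N q hq e h
  exact hΦ.mem_of_mem V hx

/-- a valuation subring containing `x⁻¹` contains every `j_{q^k}⁻¹`, `k ≤ e` -/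
theorem sE_inv_mem_of_xGE_inv_mem {e : ℕ} (h : q ^ e ∣ N) (V : ValuationSubring (A2.Mod.FE E N))
    (hx : (xGE E N q e)⁻¹ ∈ V) : ∀ k ≤ e, (sE E N q k)⁻¹ ∈ V := by
  obtain ⟨Φ, hΦ⟩ := exists_chainEq_sE E N q hq e h
  exact hΦ.inv_mem_of_inv_mem V hx

/-- **`j_{q^k} ∈ chart R {x}`**, `k ≤ e`. -/
theorem sE_mem_chart {e : ℕ} (h : q ^ e ∣ N) {k : ℕ} (hk : k ≤ e) :
    sE E N q k ∈ chart (A2.RE P E) ({xGE E N q e} : Set (A2.Mod.FE E N)) := by
  obtain ⟨Φ, hΦ⟩ := exists_chainEq_sE E N q hq e h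
  exact hΦ.mem_chart (R := A2.RE P E) k hk

/-- **`j_{q^k}⁻¹ ∈ chart R {x⁻¹}`**, `k ≤ e`. -/
theorem sE_inv_mem_chart {e : ℕ} (h : q ^ e ∣ N) {k : ℕ} (hk : k ≤ e) :
    (sE E N q k)⁻¹ ∈ chart (A2.RE P E) ({(xGE E N q e)⁻¹} : Set (A2.Mod.FE E N)) := by
  obtain ⟨Φ, hΦ⟩ := exists_chainEq_sE E N q hq e h
  exact hΦ.inv_mem_chart (R := A2.RE P E) k hk

variable [NeZero (N * q)]

/-- **`chart_α`** at every level. -/
theorem chart_α_xGE {n : ℕ} (h : q ^ n ∣ N) :
    ∀ b ∈ chart (A2.RE P E) ({xGE E N q n} : Set (A2.Mod.FE E N)),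
      A2.Mod.αE E N q b ∈
        chart (A2.RE P E) ({xGE E (N * q) q (n + 1)} : Set (A2.Mod.FE E (N * q))) := by
  obtain ⟨D⟩ := S28.H807.nonempty_modPolyData q hq
  exact chart_α_chain (chainEq_sE_of E (N * q) q D (n + 1) (pow_succ_dvd_mul N q h))
    (A2.Mod.αE E N q) fun k hk => alpha_sE E N q ((pow_dvd_pow q hk).trans h)

/-- **`chart_β`** at every level. -/
theorem chart_β_xGE {n : ℕ} (h : q ^ n ∣ N) :
    ∀ b ∈ chart (A2.RE P E) ({xGE E N q n} : Set (A2.Mod.FE E N)),
      A2.Mod.βE E N q b ∈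
        chart (A2.RE P E) ({xGE E (N * q) q (n + 1)} : Set (A2.Mod.FE E (N * q))) := by
  obtain ⟨D⟩ := S28.H807.nonempty_modPolyData q hq
  exact chart_β_chain (chainEq_sE_of E (N * q) q D (n + 1) (pow_succ_dvd_mul N q h))
    (A2.Mod.βE E N q) fun k hk => beta_sE E N q ((pow_dvd_pow q hk).trans h)

/-- **`int_α`** at every level. -/
theorem int_α_xGE {n : ℕ} (h : q ^ n ∣ N) :
    ∀ b ∈ chart (A2.RE P E) ({xGE E (N * q) q (n + 1)} : Set (A2.Mod.FE E (N * q))),
      ∃ p : Polynomial (A2.Mod.FE E N), p.Monic ∧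
        (∀ i, p.coeff i ∈ chart (A2.RE P E) ({xGE E N q n} : Set (A2.Mod.FE E N))) ∧
        (p.map (A2.Mod.αE E N q : A2.Mod.FE E N →+* A2.Mod.FE E (N * q))).eval b = 0 := by
  obtain ⟨D⟩ := S28.H807.nonempty_modPolyData q hq
  exact int_α_chain (chainEq_sE_of E (N * q) q D (n + 1) (pow_succ_dvd_mul N q h))
    (chainEq_sE_of E N q D n h) (A2.Mod.αE E N q)
    fun k hk => alpha_sE E N q ((pow_dvd_pow q hk).trans h)

/-- **`int_β`** at every level. -/
theorem int_β_xGE {n : ℕ} (h : q ^ n ∣ N) :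
    ∀ b ∈ chart (A2.RE P E) ({xGE E (N * q) q (n + 1)} : Set (A2.Mod.FE E (N * q))),
      ∃ p : Polynomial (A2.Mod.FE E N), p.Monic ∧
        (∀ i, p.coeff i ∈ chart (A2.RE P E) ({xGE E N q n} : Set (A2.Mod.FE E N))) ∧
        (p.map (A2.Mod.βE E N q : A2.Mod.FE E N →+* A2.Mod.FE E (N * q))).eval b = 0 := by
  obtain ⟨D⟩ := S28.H807.nonempty_modPolyData q hq
  exact int_β_chain (chainEq_sE_of E (N * q) q D (n + 1) (pow_succ_dvd_mul N q h))
    (chainEq_sE_of E N q D n h) (A2.Mod.βE E N q)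
    fun k hk => beta_sE E N q ((pow_dvd_pow q hk).trans h)

end Charts

/-! ## The shape of `S45.Eng.ModelEStatement`: levels `M q`, `M q q`, `e = v_q(M) + 2` -/

section ModelE

variable (M : ℕ) [NeZero M] [NeZero (M * q)] (hq : q.Prime)
include hq

omit [NeZero M] hq in
theorem pow_factorization_succ_dvd : q ^ (M.factorization q + 1) ∣ M * q := by
  rw [pow_succ]
  exact mul_dvd_mul_right (Nat.ordProj_dvd M q) q

/-- **`chart_α` of `CtxE`** at the levels of `ModelEStatement`. -/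
theorem chart_α_modelE :
    ∀ b ∈ chart (A2.RE P E)
        ({xGE E (M * q) q (M.factorization q + 1)} : Set (A2.Mod.FE E (M * q))),
      A2.Mod.αE E (M * q) q b ∈ chart (A2.RE P E)
        ({xGE E (M * q * q) q (M.factorization q + 2)} : Set (A2.Mod.FE E (M * q * q))) :=
  chart_α_xGE P E (M * q) q hq (pow_factorization_succ_dvd q M)

/-- **`chart_β` of `CtxE`** at the levels of `ModelEStatement`. -/
theorem chart_β_modelE :
    ∀ b ∈ chart (A2.RE P E)
        ({xGE E (M * q) q (M.factorization q + 1)} : Set (A2.Mod.FE E (M * q))),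
      A2.Mod.βE E (M * q) q b ∈ chart (A2.RE P E)
        ({xGE E (M * q * q) q (M.factorization q + 2)} : Set (A2.Mod.FE E (M * q * q))) :=
  chart_β_xGE P E (M * q) q hq (pow_factorization_succ_dvd q M)

/-- **`int_α` of `CtxE`** at the levels of `ModelEStatement`. -/
theorem int_α_modelE :
    ∀ b ∈ chart (A2.RE P E)
        ({xGE E (M * q * q) q (M.factorization q + 2)} : Set (A2.Mod.FE E (M * q * q))),
      ∃ p : Polynomial (A2.Mod.FE E (M * q)), p.Monic ∧
        (∀ i, p.coeff i ∈ chart (A2.RE P E)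
          ({xGE E (M * q) q (M.factorization q + 1)} : Set (A2.Mod.FE E (M * q)))) ∧
        (p.map (A2.Mod.αE E (M * q) q :
          A2.Mod.FE E (M * q) →+* A2.Mod.FE E (M * q * q))).eval b = 0 :=
  int_α_xGE P E (M * q) q hq (pow_factorization_succ_dvd q M)

/-- **`int_β` of `CtxE`** at the levels of `ModelEStatement`. -/
theorem int_β_modelE :
    ∀ b ∈ chart (A2.RE P E)
        ({xGE E (M * q * q) q (M.factorization q + 2)} : Set (A2.Mod.FE E (M * q * q))),
      ∃ p : Polynomial (A2.Mod.FE E (M * q)), p.Monic ∧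
        (∀ i, p.coeff i ∈ chart (A2.RE P E)
          ({xGE E (M * q) q (M.factorization q + 1)} : Set (A2.Mod.FE E (M * q)))) ∧
        (p.map (A2.Mod.βE E (M * q) q :
          A2.Mod.FE E (M * q) →+* A2.Mod.FE E (M * q * q))).eval b = 0 :=
  int_β_xGE P E (M * q) q hq (pow_factorization_succ_dvd q M)

end ModelE

/-! ## Comparison with the coordinates of A2 (`e = 1`) and S36 (`e = 2`) -/

section Compare

variable (M : ℕ) [NeZero M] [NeZero (M * q)]

/-- `e = 1`: the A2 coordinate `x = j · j_q` of level `M q`. -/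
theorem xGE_one_eq_xE : xGE E (M * q) q 1 = A2.Mod.xE E M q := by
  rw [xGE_def, Finset.prod_range_succ, Finset.prod_range_one, sE_zero,
    sE_one E (M * q) q (dvd_mul_left q M)]
  rfl

/-- `e = 2`: the S36 coordinate `x = j · j_q · j_{q²}` of level `M q q`
(`= S36.Mod3.x3E E M q = S36.Mod3.H189.x3 E M q`, unfolded). -/
theorem xGE_two_eq :
    xGE E (M * q * q) q 2 =
      A2.Mod.jE E (M * q * q) 1 (one_dvd _) *
        A2.Mod.jE E (M * q * q) q (Dvd.intro_left (M * q) rfl) *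
        A2.Mod.jE E (M * q * q) (q * q) ⟨M, by ring⟩ := by
  rw [xGE_def, Finset.prod_range_succ, Finset.prod_range_succ, Finset.prod_range_one, sE_zero,
    sE_one E (M * q * q) q (Dvd.intro_left (M * q) rfl),
    sE_of_dvd E (M * q * q) q (k := 2) ⟨M, by ring⟩]
  congr 1
  exact A2.Mod.H751.jE_congr E (M * q * q) (pow_two q) _ _

end Compare

end Fermat.Agent.S45.H715

end

end
-- ===== PACK-END S45/H715/ChartE.lean

-- ===== PACK-BEGIN S45/H576/CuspChartE.lean
section




/-!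
# S45 / CAR3 / MOD-E/Reg, leaf C6 (spare, helper576): the cusp parameter `tc` lies in the chart at
infinity, at EVERY level

Level `N`, `q ^ e ∣ N`, `J l = j_{q^l} = H715.sE E N q l`, coordinate `x = H715.xGE E N q e`.

* `pair_fwd_mem576`, `pair_bwd_mem576` : `J (l+1) / (J l)^q`, `J l / (J (l+1))^q` lie in every
  valuation ring containing `x⁻¹` (`l < e`);
* **`tc_mem_chart576`** : `tc q J k c ∈ chart R {x⁻¹}` for `k + 2c ≤ e`
  (`c = 1`, `k = 0`, `e = 2`: `S36.Mod3.H276.tcusp_mem_chart`);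
* `tc_alpha576`, `tc_beta576` : `α (tc' k c) = tc k c`, `β (tc' k c) = tc (k+1) c`.
-/

set_option autoImplicit false
set_option linter.style.haveILetI false
set_option linter.unusedSectionVars false
set_option synthInstance.maxHeartbeats 400000
set_option maxHeartbeats 1600000

noncomputable section

namespace Fermat.Agent.S45.H576

open ModularCurve Polynomial
open Fermat.Agent.S18.H138 (chart mem_chart_of_mem)
open Fermat.Agent
open Fermat.Agent.S15.H962 (IsModularShape eval2)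
open Fermat.Agent.S45.H715 (sE xGE)

variable (P : ValuationSubring A2.Qb) (E : IntermediateField ℚ A2.Qb) (N q : ℕ)
  [NeZero N] [NeZero q]

section Mem

variable (hq : q.Prime)
include hq

/-- `J (l+1) / (J l)^q` lies in every valuation ring containing `x⁻¹`. -/
theorem pair_fwd_mem576 {e : ℕ} (h : q ^ e ∣ N) (V : ValuationSubring (A2.Mod.FE E N))
    (hx : (xGE E N q e)⁻¹ ∈ V) {l : ℕ} (hl : l < e) :
    sE E N q (l + 1) * ((sE E N q l) ^ q)⁻¹ ∈ V := by
  obtain ⟨D⟩ := S28.H807.nonempty_modPolyData q hq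
  have hΦ := S15.H386.isModularShape_of_modPolyData D hq.one_lt
  have hinv := H715.sE_inv_mem_of_xGE_inv_mem E N q hq h V hx
  have hdvd : q ^ (l + 1) ∣ N := (pow_dvd_pow q (Nat.succ_le_of_lt hl)).trans h
  have hab : eval2 D.Φ (sE E N q l) (sE E N q (l + 1)) = 0 :=
    (S36.Mod3.H276.eval2_eq_aeval D.Φ _ _).trans (H715.modEq_down E N q D hdvd)
  exact S36.Mod3.H276.pair_mem hq.pos hΦ hab V (hinv l hl.le)

/-- `J l / (J (l+1))^q` lies in every valuation ring containing `x⁻¹`. -/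
theorem pair_bwd_mem576 {e : ℕ} (h : q ^ e ∣ N) (V : ValuationSubring (A2.Mod.FE E N))
    (hx : (xGE E N q e)⁻¹ ∈ V) {l : ℕ} (hl : l < e) :
    sE E N q l * ((sE E N q (l + 1)) ^ q)⁻¹ ∈ V := by
  obtain ⟨D⟩ := S28.H807.nonempty_modPolyData q hq
  have hΦ := S15.H386.isModularShape_of_modPolyData D hq.one_lt
  have hinv := H715.sE_inv_mem_of_xGE_inv_mem E N q hq h V hx
  have hdvd : q ^ (l + 1) ∣ N := (pow_dvd_pow q (Nat.succ_le_of_lt hl)).trans h
  have hab : eval2 D.Φ (sE E N q l) (sE E N q (l + 1)) = 0 :=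
    (S36.Mod3.H276.eval2_eq_aeval D.Φ _ _).trans (H715.modEq_down E N q D hdvd)
  exact S36.Mod3.H276.pair_mem' hq.pos hΦ hab V (hinv (l + 1) hl)

/-- `tc ∈ V` for every valuation ring containing `x⁻¹`. -/
theorem tc_mem_of_inv_mem576 {e : ℕ} (h : q ^ e ∣ N) (V : ValuationSubring (A2.Mod.FE E N))
    (hx : (xGE E N q e)⁻¹ ∈ V) {k c : ℕ} (hk : k + 2 * c ≤ e) :
    tc q (sE E N q) k c ∈ V :=
  tc_mem576 V q hq.pos (sE E N q) k c (fun l _ _ => H715.sE_ne_zero E N q l)
    (fun l _ h2 => pair_fwd_mem576 E N q hq h V hx (by omega))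
    (fun l _ h2 => pair_bwd_mem576 E N q hq h V hx (by omega))

/-- **C6: the cusp parameter of the balanced sheet lies in the chart at infinity.** -/
theorem tc_mem_chart576 {e : ℕ} (h : q ^ e ∣ N) {k c : ℕ} (hk : k + 2 * c ≤ e) :
    tc q (sE E N q) k c ∈
      chart (A2.RE P E) ({(xGE E N q e)⁻¹} : Set (A2.Mod.FE E N)) :=
  S36.Mod3.H189.mem_chart_of_forall_valuationSubring fun V hV =>
    tc_mem_of_inv_mem576 E N q hq h V hV hk

/-- the pair elements lie in the chart at infinity -/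
theorem pair_fwd_mem_chart576 {e : ℕ} (h : q ^ e ∣ N) {l : ℕ} (hl : l < e) :
    sE E N q (l + 1) * ((sE E N q l) ^ q)⁻¹ ∈
      chart (A2.RE P E) ({(xGE E N q e)⁻¹} : Set (A2.Mod.FE E N)) :=
  S36.Mod3.H189.mem_chart_of_forall_valuationSubring fun V hV =>
    pair_fwd_mem576 E N q hq h V hV hl

theorem pair_bwd_mem_chart576 {e : ℕ} (h : q ^ e ∣ N) {l : ℕ} (hl : l < e) :
    sE E N q l * ((sE E N q (l + 1)) ^ q)⁻¹ ∈
      chart (A2.RE P E) ({(xGE E N q e)⁻¹} : Set (A2.Mod.FE E N)) :=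
  S36.Mod3.H189.mem_chart_of_forall_valuationSubring fun V hV =>
    pair_bwd_mem576 E N q hq h V hV hl

end Mem

/-! ## Transport along the degeneracy maps -/

section Transport

variable [NeZero (N * q)]

/-- a ring hom commutes with `tc` -/
theorem map_tc576 {F F' : Type*} [Field F] [Field F'] (φ : F' →+* F) (q : ℕ) (J : ℕ → F')
    (k c : ℕ) : φ (tc q J k c) = tc q (fun l => φ (J l)) k c := by
  unfold tc
  simp only [map_mul, map_sub, map_inv₀, map_pow]

theorem tc_congr576 {F : Type*} [Field F] (q : ℕ) {J J' : ℕ → F} (k c : ℕ)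
    (h : ∀ l, k ≤ l → l ≤ k + 2 * c → J l = J' l) : tc q J k c = tc q J' k c := by
  unfold tc
  rw [h k le_rfl (by omega), h (k + c) (by omega) (by omega), h (k + 2 * c) (by omega) le_rfl]

theorem tc_shift576 {F : Type*} [Field F] (q : ℕ) (J : ℕ → F) (k c : ℕ) :
    tc q (fun l => J (l + 1)) k c = tc q J (k + 1) c := by
  unfold tc
  have e1 : k + 2 * c + 1 = k + 1 + 2 * c := by omega
  have e2 : k + c + 1 = k + 1 + c := by omega
  simp only [e1, e2]

/-- `α (tc' k c) = tc k c`  (`k + 2c ≤ n`, `q ^ n ∣ N`). -/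
theorem tc_alpha576 {n : ℕ} (h : q ^ n ∣ N) {k c : ℕ} (hk : k + 2 * c ≤ n) :
    A2.Mod.αE E N q (tc q (sE E N q) k c) = tc q (sE E (N * q) q) k c := by
  have := map_tc576 (A2.Mod.αE E N q : A2.Mod.FE E N →+* A2.Mod.FE E (N * q)) q (sE E N q) k c
  refine this.trans (tc_congr576 q k c fun l _ h2 => ?_)
  exact H715.alpha_sE E N q ((pow_dvd_pow q (by omega : l ≤ n)).trans h)

/-- `β (tc' k c) = tc (k + 1) c`  (`k + 2c ≤ n`, `q ^ n ∣ N`). -/
theorem tc_beta576 {n : ℕ} (h : q ^ n ∣ N) {k c : ℕ} (hk : k + 2 * c ≤ n) :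
    A2.Mod.βE E N q (tc q (sE E N q) k c) = tc q (sE E (N * q) q) (k + 1) c := by
  have := map_tc576 (A2.Mod.βE E N q : A2.Mod.FE E N →+* A2.Mod.FE E (N * q)) q (sE E N q) k c
  rw [← tc_shift576]
  refine this.trans (tc_congr576 q k c fun l _ h2 => ?_)
  exact H715.beta_sE E N q ((pow_dvd_pow q (by omega : l ≤ n)).trans h)

end Transport

end Fermat.Agent.S45.H576

end
end
-- ===== PACK-END S45/H576/CuspChartE.lean

-- ===== PACK-BEGIN S45/H576/CuspLeaf.lean
section




/-!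
# S45 / CAR3 / MOD-E/Reg, leaf C6 (spare, helper576): the cusp parameter against `ModE/Spec`

Vocabulary of `S45/ModE/Spec.lean` (helper928): `jLev`, `xLev`, `PartKronE`, `PartUnifE`.

* `jLev_eq_sE576`, `xLev_eq_xGE576` : the chain / coordinate of `ModE/Spec` are those of
  `H715/ChartE` (definitionally);
* **`tcLev_mem_chart576`** : `tc q (jLev E N q) k c ∈ chart R {(xLev E N q e)⁻¹}`, `k + 2c ≤ e`,
  `q ^ e ∣ N`;
* **`tc_unifAt_lo576`** : `tc q J (e - 2i) i` is a uniformiser of `V i`, `1 ≤ i`, `2i ≤ e`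
  (from `PartUnifE` and `PartKronE.unit`);
* **`tc_wild_diag576`** : on the diagonal sheet `c = d + 1` of the level `e = 2c`:
  `(x^q - x₁) / x₁ ∈ 𝔪_(V c)`, `x = tc q J 0 c`, `x₁ = tc q J 1 d` (`= α (β x'')`), from
  `PartKronE` and the chain congruence of the `j`-differences (REG leaf A5);
* `tcLev_alpha576`, `tcLev_beta576` : transport along `α`, `β`.
-/

set_option autoImplicit false
set_option linter.style.haveILetI false
set_option linter.unusedSectionVars false
set_option synthInstance.maxHeartbeats 400000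
set_option maxHeartbeats 1600000

noncomputable section

namespace Fermat.Agent.S45.H576

open ModularCurve
open Fermat.Agent.S18.H138 (chart)
open Fermat.Agent
open Fermat.Agent.S36.Eng (UnifAt UnitAt)
open Fermat.Agent.S45.ModE (jLev xLev PartKronE PartUnifE)

section Abs

variable {F : Type*} [Field F]

/-- **`tc` is a uniformiser of the sheet `V i`**, `1 ≤ i`, `2 i ≤ e`. -/
theorem tc_unifAt_lo576 {q e : ℕ} {J : ℕ → F} {V : ℕ → ValuationSubring F}
    (hK : PartKronE q e J V) (hU : PartUnifE e J V) {i : ℕ} (hi : 1 ≤ i) (h2 : 2 * i ≤ e) :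
    UnifAt (V i) (tc q J (e - 2 * i) i) := by
  have hie : i ≤ e := by omega
  have e1 : e - 2 * i + 2 * i = e := by omega
  have hT := hU.unif i hi h2
  have h0 := hK.unit i hie (e - 2 * i) (by omega)
  have hc := hK.unit i hie (e - 2 * i + i) (by omega)
  have he := hK.unit i hie e le_rfl
  refine tc_unifAt576 (V i) q J (e - 2 * i) i ?_ h0 hc ?_
  · rw [e1]; exact hT
  · rw [e1]; exact he

/-- **The wild step at the cusps of the diagonal sheet**, `e = 2 (d + 1)`, sheet `d + 1`. -/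
theorem tc_wild_diag576 {q d : ℕ} {J : ℕ → F} {V : ℕ → ValuationSubring F}
    (hK : PartKronE q (2 * (d + 1)) J V)
    (hchain : ((J (2 * (d + 1)) - J 0) ^ q - (J (2 * d + 1) - J 1)) *
        (J (2 * d + 1) - J 1)⁻¹ ∈ (V (d + 1)).nonunits) :
    ((tc q J 0 (d + 1)) ^ q - tc q J 1 d) * (tc q J 1 d)⁻¹ ∈ (V (d + 1)).nonunits := by
  have hie : d + 1 ≤ 2 * (d + 1) := by omega
  refine tc_wild576 (V (d + 1)) q J d (fun l hl => hK.unit (d + 1) hie l hl)
    (fun l hl => hK.frob (d + 1) hie l (by omega))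
    (fun l h1 h2 => hK.ver (d + 1) hie l (by omega) h2) hchain

end Abs

section Concrete

variable (P : ValuationSubring A2.Qb) (E : IntermediateField ℚ A2.Qb) (N q : ℕ)
  [NeZero N] [NeZero q]

theorem jLev_eq_sE576 : jLev E N q = H715.sE E N q := rfl

theorem xLev_eq_xGE576 (e : ℕ) : xLev E N q e = H715.xGE E N q e := rfl

/-- **C6: `tc ∈ chart R {x⁻¹}`** in the vocabulary of `ModE/Spec`. -/
theorem tcLev_mem_chart576 (hq : q.Prime) {e : ℕ} (h : q ^ e ∣ N) {k c : ℕ}
    (hk : k + 2 * c ≤ e) :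
    tc q (jLev E N q) k c ∈
      chart (A2.RE P E) ({(xLev E N q e)⁻¹} : Set (A2.Mod.FE E N)) :=
  tc_mem_chart576 P E N q hq h hk

variable [NeZero (N * q)]

/-- `α (tc' k c) = tc k c`. -/
theorem tcLev_alpha576 {n : ℕ} (h : q ^ n ∣ N) {k c : ℕ} (hk : k + 2 * c ≤ n) :
    A2.Mod.αE E N q (tc q (jLev E N q) k c) = tc q (jLev E (N * q) q) k c :=
  tc_alpha576 E N q h hk

/-- `β (tc' k c) = tc (k + 1) c`. -/
theorem tcLev_beta576 {n : ℕ} (h : q ^ n ∣ N) {k c : ℕ} (hk : k + 2 * c ≤ n) :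
    A2.Mod.βE E N q (tc q (jLev E N q) k c) = tc q (jLev E (N * q) q) (k + 1) c :=
  tc_beta576 E N q h hk

end Concrete

end Fermat.Agent.S45.H576

end
end
-- ===== PACK-END S45/H576/CuspLeaf.lean

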