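import Fermat.Agent.Pack.S43MC.G0E25L3
import Fermat.Agent.Pack.S45.E0L2
import Fermat.Agent.Pack.S45.E1L0
import Fermat.Agent.Pack.S45.E0L3
import Fermat.Agent.Pack.S44C.G0E24L3
import Fermat.Agent.Pack.S43MC.G0E24L0
import Fermat.Agent.Pack.S43MC.G0E24L1
import Fermat.Agent.Pack.S45.E0L1
import Fermat.Agent.Pack.S43MC.G0E25L2
import Fermat.Agent.Pack.S44C.G0E26L0
import Fermat.Agent.Pack.S43MC.G0E18L1
import Fermat.Agent.Pack.S43MC.G0E25L0
import Fermat.Agent.Pack.S43MC.G0E16L3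
import Fermat.Agent.Pack.S43MC.G0E24L2
import Fermat.Agent.Pack.Fast891

set_option linter.all false

-- ===== PACK-BEGIN S45/H972/SplitE.lean
section




/-!
# S45 / CAR3, MOD-E/Val (helper972): SPLIT-E, the `α`-side over the component of the cusp `∞`

Generalisation of `S36/H972/Mod3.lean` (`mod3_alpha`, levels `M q → M q²`, `q ∤ M`) to EVERY level
pair `N → N q` with `q ∣ N`:

  `N = d · q · M'`,  `q ∤ M'`   (e.g. `d = q ^ (k - 1)`, `N = M' q ^ k`, `k ≥ 1`).

`K = F_N`, `L = F_{Nq}`, `α : K → L` the inclusion, `V1` the Gauss valuation ring of `K`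
(the component `i = 0` of level `N`), `V` the Gauss valuation ring of `L`.  Then

* `V` and ONE more valuation ring `V_mid` are EXACTLY the valuation rings of `L` lying over `V1`
  along `α`   (board CAR3 §2: "α over j = 0: TWO extensions, i = 0 (1,1) and i = 1 (q-1,1)");
* `V_mid` has uniformiser `π = j_{dqq} - j_d`, `π ^ (q - 1) = w · unit`  (`e = q - 1`);
* both have residue degree one over `V1` (elementwise: `res`).

The minimal polynomial of `j_{dqq}` over `F_N` is `Ψ_d(Y) = Φ_q(j_{dq}, Y) / (Y - j_d)`; its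
`t`-expansion is the `S36` one with `t ↦ t ^ d` (`EisSeriesD`, `S45/H972/EisSeriesD.lean`).

Main statements: `exists_eisDataD`, `splitE_alpha`, `splitE_alpha_main` (unconditional).
-/

set_option autoImplicit false
set_option linter.unusedSectionVars false
set_option linter.style.haveILetI false
set_option synthInstance.maxHeartbeats 400000
set_option maxHeartbeats 1600000

noncomputable section

namespace Fermat.Agent.S45.H972

open ModularCurve HahnSeries Polynomial AlgebraicCurve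
open Fermat.Agent.A2 Fermat.Agent.A2.Mod Fermat.Agent.A2.H48 Fermat.Agent.S28
open Fermat.Agent.S36.H972

section Alpha

variable {P : ValuationSubring _root_.Fermat.Agent.A2.Mod.Qb} {E : IntermediateField ℚ _root_.Fermat.Agent.A2.Mod.Qb} {N q d : ℕ}
  [NeZero N] [NeZero q] [NeZero d] {w : _root_.Fermat.Agent.A2.Mod.RE P E}

/-- `ℤ[J_d, J_{dq}]` maps into `F_N` as soon as `d q ∣ N`. -/
theorem castE_mem_of_mem_jjRingD (hdq : d * q ∣ N) {g : LaurentSeries ℤ}
    (hg : g ∈ jjRingD q d) : castE E g ∈ _root_.Fermat.Agent.A2.Mod.FE E N := by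
  have hle : jjRingD q d ≤ (_root_.Fermat.Agent.A2.Mod.FE E N).toSubring.comap (castE E) := by
    rw [jjRingD, Subring.closure_le]
    rintro x (rfl | rfl)
    · show castE E (qExpand ℤ d (jqModC ℤ)) ∈ _root_.Fermat.Agent.A2.Mod.FE E N
      rw [castE_qExpand_j]
      exact H378.jser_mem E N d (Dvd.dvd.trans (dvd_mul_right d q) hdq)
    · show castE E (qExpand ℤ (d * q) (jqModC ℤ)) ∈ _root_.Fermat.Agent.A2.Mod.FE E N
      rw [castE_qExpand_j]
      exact H378.jser_mem E N (d * q) hdq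
  exact hle hg

/-- `j_{dqq} ∉ α(F_N)` if `N = d q M'`, `q ∤ M'` (Fricke: otherwise `j_{M'} ∈ E((t^q))`). -/
theorem jhi_not_mem_range {M' : ℕ} [NeZero M'] (hN : N = d * q * M') (hqM : ¬ q ∣ M')
    (hhi : d * (q * q) ∣ N * q) (g : _root_.Fermat.Agent.A2.Mod.FE E N) :
    αE E N q g ≠ jE E (N * q) (d * (q * q)) hhi := by
  intro h
  have hc := H553.frickeCompat E N q (H553.wE E N) (H553.wE E (N * q))
    (H553.isFricke_wE E N) (H553.isFricke_wE E (N * q)) g
  have hM' : M' ∣ N * q := ⟨d * (q * q), by rw [hN]; ring⟩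
  have h1 : H553.wE E (N * q) (jE E (N * q) (d * (q * q)) hhi) = jE E (N * q) M' hM' :=
    H553.wE_jE E (N * q) (d * (q * q)) M' _ _ (by rw [hN]; ring)
  rw [h, h1] at hc
  have h2 := congrArg (fun z : _root_.Fermat.Agent.A2.Mod.FE E (N * q) => ((z : LaurentSeries E)).coeff (-(M' : ℤ))) hc.1
  simp only [coe_heckeBetaBar] at h2
  rw [coe_jE', castE_coeff,
    show (-(M' : ℤ)) = (M' : ℤ) * (-1) by ring, qExpand_coeff_mul, coeff_jqModC_neg_one] at h2
  rw [show (M' : ℤ) * (-1) = -(M' : ℤ) by ring, qExpand_coeff_of_not_dvd] at h2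
  · simp at h2
  · rw [Int.dvd_neg]
    exact_mod_cast hqM

/-- the comparison `valHom ∘ α = valV` on `V1`. -/
theorem valHom_comp_phiD (V1 : ValuationSubring (_root_.Fermat.Agent.A2.Mod.FE E N)) :
    letI : Algebra (_root_.Fermat.Agent.A2.Mod.FE E N) (_root_.Fermat.Agent.A2.Mod.FE E (N * q)) := algebraAlong (αE E N q)
    (H378.valHom E (N * q)).comp (phi (L := _root_.Fermat.Agent.A2.Mod.FE E (N * q)) V1) = valV V1 := by
  letI : Algebra (_root_.Fermat.Agent.A2.Mod.FE E N) (_root_.Fermat.Agent.A2.Mod.FE E (N * q)) := algebraAlong (αE E N q)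
  refine RingHom.ext fun x => ?_
  have h : algebraMap (_root_.Fermat.Agent.A2.Mod.FE E N) (_root_.Fermat.Agent.A2.Mod.FE E (N * q)) = (αE E N q).toRingHom :=
    RingHom.algebraMap_toAlgebra _
  rw [RingHom.comp_apply, phi_apply, h, H378.valHom_apply, valV_apply]
  exact coe_heckeAlphaBar N q (x : _root_.Fermat.Agent.A2.Mod.FE E N)

theorem finrank_alphaD (hq : q.Prime) (hqN : q ∣ N) :
    letI : Algebra (_root_.Fermat.Agent.A2.Mod.FE E N) (_root_.Fermat.Agent.A2.Mod.FE E (N * q)) := algebraAlong (αE E N q)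
    Module.finrank (_root_.Fermat.Agent.A2.Mod.FE E N) (_root_.Fermat.Agent.A2.Mod.FE E (N * q)) = q := by
  have h := Fermat.Agent.S37.H818.finrankAlong_heckeAlphaBar' (L := E) N q hq
  rw [if_pos hqN] at h
  exact h

theorem finite_alphaD (hq : q.Prime) :
    letI : Algebra (_root_.Fermat.Agent.A2.Mod.FE E N) (_root_.Fermat.Agent.A2.Mod.FE E (N * q)) := algebraAlong (αE E N q)
    FiniteDimensional (_root_.Fermat.Agent.A2.Mod.FE E N) (_root_.Fermat.Agent.A2.Mod.FE E (N * q)) :=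
  Fermat.Agent.S37.H818.finiteAlong_heckeAlphaBar (L := E) N q hq

/-- **The Eisenstein-split data at level `N q`, `N = d q M'`.** -/
theorem exists_eisDataD (hq : q.Prime) (hlies : P.LiesOverPrime q)
    (hdvr : IsDiscreteValuationRing (_root_.Fermat.Agent.A2.Mod.RE P E)) (hw : Irreducible w) (hun : Unram P E q w)
    {M' : ℕ} [NeZero M'] (hN : N = d * q * M') (hqM : ¬ q ∣ M')
    (hlo : d ∣ N) (hhi : d * (q * q) ∣ N * q)
    {A : LaurentSeries ℤ} {Ψ G : (LaurentSeries ℤ)[X]} (hE : EisSeriesD q d A Ψ G)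
    {V1 : ValuationSubring (_root_.Fermat.Agent.A2.Mod.FE E N)} (hV1 : IsVinf P E N V1) :
    letI : Algebra (_root_.Fermat.Agent.A2.Mod.FE E N) (_root_.Fermat.Agent.A2.Mod.FE E (N * q)) := algebraAlong (αE E N q)
    ∃ (Ψ' G' : V1[X]) (a c : V1),
      valV V1 a = castE E A ∧ ((c : V1) : _root_.Fermat.Agent.A2.Mod.FE E N) = jE E N d hlo ∧
      Ψ'.map (valV V1) = Ψ.map (castE E) ∧
      (∃ (uO : V1) (G₁ : V1[X]), G' = Polynomial.C uO * G₁ ∧
        G₁.map (valV V1) = G.map (castE E) ∧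
        valV V1 ⟨cE P E N w, (H553.vinfBasic P E w N (NeZero.ne N) hdvr hw V1 hV1).1.mem⟩ *
          valV V1 uO = ((q : ℕ) : LaurentSeries E)) ∧
      EisData V1 (cE P E N w) (jE E (N * q) (d * (q * q)) hhi) Ψ' G' a c (q - 1) := by
  letI : Algebra (_root_.Fermat.Agent.A2.Mod.FE E N) (_root_.Fermat.Agent.A2.Mod.FE E (N * q)) := algebraAlong (αE E N q)
  haveI := hdvr
  have hdq : d * q ∣ N := ⟨M', hN⟩
  have hqN : q ∣ N := Dvd.dvd.trans (dvd_mul_left q d) hdq
  haveI : FiniteDimensional (_root_.Fermat.Agent.A2.Mod.FE E N) (_root_.Fermat.Agent.A2.Mod.FE E (N * q)) := finite_alphaD hq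
  have hN0 : N ≠ 0 := NeZero.ne _
  obtain ⟨u, hu⟩ := hun
  -- the subring of integral series with expansion in `F_N`
  set T : Subring (LaurentSeries ℤ) := (_root_.Fermat.Agent.A2.Mod.FE E N).toSubring.comap (castE E) with hT
  have hjjT : jjRingD q d ≤ T := fun g hg => castE_mem_of_mem_jjRingD hdq hg
  have hTlift : ∀ Q : (LaurentSeries ℤ)[X], Q ∈ Polynomial.liftsRing T.subtype →
      ∀ i, castE E (Q.coeff i) ∈ _root_.Fermat.Agent.A2.Mod.FE E N := by
    intro Q hQ i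
    rw [← Polynomial.lifts_iff_liftsRing, Polynomial.lifts_iff_coeff_lifts] at hQ
    obtain ⟨x, hx⟩ := hQ i
    rw [← hx]
    exact x.2
  have hliftT : ∀ Q : (LaurentSeries ℤ)[X], (∀ i, Q.coeff i ∈ T) →
      Q ∈ Polynomial.liftsRing T.subtype := by
    intro Q hQ
    rw [← Polynomial.lifts_iff_liftsRing, Polynomial.lifts_iff_coeff_lifts]
    exact fun i => ⟨⟨_, hQ i⟩, rfl⟩
  have hCT : ∀ g ∈ T, (Polynomial.C g : (LaurentSeries ℤ)[X]) ∈ Polynomial.liftsRing T.subtype := by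
    intro g hg
    rw [← Polynomial.lifts_iff_liftsRing]
    exact Polynomial.C_mem_lifts T.subtype ⟨g, hg⟩
  have hXT : (Polynomial.X : (LaurentSeries ℤ)[X]) ∈ Polynomial.liftsRing T.subtype := by
    rw [← Polynomial.lifts_iff_liftsRing]
    exact Polynomial.X_mem_lifts T.subtype
  have hJT : qExpand ℤ d (jqModC ℤ) ∈ T := hjjT (Subring.subset_closure (by simp))
  have hAT : A ∈ T := hjjT hE.A_mem
  have hΨT : Ψ ∈ Polynomial.liftsRing T.subtype := hliftT Ψ fun i => hjjT (hE.coeff_mem i)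
  -- coefficients of `G`
  have hqG : Polynomial.C (q : LaurentSeries ℤ) * G ∈ Polynomial.liftsRing T.subtype := by
    have : Polynomial.C (q : LaurentSeries ℤ) * G =
        Ψ - (Polynomial.X - Polynomial.C A) *
          (Polynomial.X - Polynomial.C (qExpand ℤ d (jqModC ℤ))) ^ (q - 1) := by
      conv_rhs => rw [hE.dec]
      ring
    rw [this]
    exact sub_mem hΨT (mul_mem (sub_mem hXT (hCT _ hAT)) (pow_mem (sub_mem hXT (hCT _ hJT)) _))
  have hq0E : ((q : ℕ) : LaurentSeries E) ≠ 0 := by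
    have : ((q : ℕ) : LaurentSeries E) = algebraMap E (LaurentSeries E) ((q : ℕ) : E) :=
      (map_natCast _ q).symm
    rw [this]
    exact (map_ne_zero_iff _ (algebraMap E (LaurentSeries E)).injective).mpr
      (Nat.cast_ne_zero.mpr hq.ne_zero)
  have hqmem : ((q : ℕ) : LaurentSeries E) ∈ _root_.Fermat.Agent.A2.Mod.FE E N := natCast_mem _ q
  have hGF : ∀ i, castE E (G.coeff i) ∈ _root_.Fermat.Agent.A2.Mod.FE E N := by
    intro i
    have h1 := hTlift _ hqG i
    rw [Polynomial.coeff_C_mul, map_mul, castE_natCast] at h1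
    have h2 : castE E (G.coeff i) =
        ((q : ℕ) : LaurentSeries E)⁻¹ * (((q : ℕ) : LaurentSeries E) * castE E (G.coeff i)) := by
      rw [← mul_assoc, inv_mul_cancel₀ hq0E, one_mul]
    rw [h2]
    exact mul_mem (inv_mem hqmem) h1
  -- lifts
  obtain ⟨Ψ', hΨ'⟩ := exists_lift_poly hV1 Ψ (hTlift Ψ hΨT)
  obtain ⟨G₁, hG₁⟩ := exists_lift_poly hV1 G hGF
  obtain ⟨a, ha⟩ := exists_lift hV1 A hAT
  obtain ⟨c, hc⟩ := exists_lift hV1 (qExpand ℤ d (jqModC ℤ)) hJT
  have hcj : ((c : V1) : _root_.Fermat.Agent.A2.Mod.FE E N) = jE E N d hlo := by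
    apply Subtype.ext
    rw [coe_jE']
    exact hc
  have hinj := valV_injective V1
  have hL2 := H553.vinfBasic P E w N hN0 hdvr hw V1 hV1
  have hunif : IsUnif V1 (cE P E N w) := hL2.1
  set uO : V1 := ⟨cE P E N (u : _root_.Fermat.Agent.A2.Mod.RE P E), cE_mem_vinf hV1 _⟩ with huO
  have huOinv : ((uO : V1) : _root_.Fermat.Agent.A2.Mod.FE E N)⁻¹ ∈ V1 := by
    have : ((uO : V1) : _root_.Fermat.Agent.A2.Mod.FE E N)⁻¹ = cE P E N ((u⁻¹ : (_root_.Fermat.Agent.A2.Mod.RE P E)ˣ) : _root_.Fermat.Agent.A2.Mod.RE P E) := by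
      rw [huO]
      show (algebraMap E (_root_.Fermat.Agent.A2.Mod.FE E N) ((u : _root_.Fermat.Agent.A2.Mod.RE P E) : E))⁻¹ = algebraMap E (_root_.Fermat.Agent.A2.Mod.FE E N) _
      rw [← map_inv₀]
      congr 1
      apply inv_eq_of_mul_eq_one_right
      have h5 := congrArg (_root_.Fermat.Agent.A2.Mod.RE P E).subtype u.mul_inv
      rw [map_mul, map_one] at h5
      exact h5
    rw [this]
    exact cE_mem_vinf hV1 _
  have huO0 : ((uO : V1) : _root_.Fermat.Agent.A2.Mod.FE E N) ≠ 0 := by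
    rw [huO]
    show algebraMap E (_root_.Fermat.Agent.A2.Mod.FE E N) ((u : _root_.Fermat.Agent.A2.Mod.RE P E) : E) ≠ 0
    exact (map_ne_zero_iff _ (algebraMap E (_root_.Fermat.Agent.A2.Mod.FE E N)).injective).mpr
      (fun h => u.ne_zero (Subtype.ext h))
  have hwu : valV V1 ⟨cE P E N w, hunif.mem⟩ * valV V1 uO = ((q : ℕ) : LaurentSeries E) := by
    have h1 : cE P E N w * cE P E N (u : _root_.Fermat.Agent.A2.Mod.RE P E) = ((q : ℕ) : _root_.Fermat.Agent.A2.Mod.FE E N) := by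
      simp only [cE]
      rw [← map_mul, ← hu, map_natCast]
    have h2 := congrArg (fun z : _root_.Fermat.Agent.A2.Mod.FE E N => (z : LaurentSeries E)) h1
    show ((cE P E N w : _root_.Fermat.Agent.A2.Mod.FE E N) : LaurentSeries E) *
      ((cE P E N (u : _root_.Fermat.Agent.A2.Mod.RE P E) : _root_.Fermat.Agent.A2.Mod.FE E N) : LaurentSeries E) = _
    simpa using h2
  -- the fields
  have hmonic : Ψ'.Monic := Polynomial.monic_of_injective hinj (by rw [hΨ']; exact hE.monic.map _)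
  have hdeg : Ψ'.natDegree = Module.finrank (_root_.Fermat.Agent.A2.Mod.FE E N) (_root_.Fermat.Agent.A2.Mod.FE E (N * q)) := by
    rw [finrank_alphaD hq hqN, ← Polynomial.natDegree_map_eq_of_injective hinj, hΨ',
      hE.monic.natDegree_map, hE.natDegree_eq]
  have hroot : Ψ'.eval₂ (phi V1) (jE E (N * q) (d * (q * q)) hhi) = 0 := by
    apply (H378.valHom E (N * q)).injective
    rw [Polynomial.hom_eval₂, valHom_comp_phiD, map_zero, ← Polynomial.eval_map, hΨ',
      H378.valHom_apply, coe_jE', Polynomial.eval_map, Polynomial.eval₂_at_apply, hE.root,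
      map_zero]
  have hyK : jE E (N * q) (d * (q * q)) hhi ∉ (algebraMap (_root_.Fermat.Agent.A2.Mod.FE E N) (_root_.Fermat.Agent.A2.Mod.FE E (N * q))).range := by
    rintro ⟨g, hg⟩
    exact jhi_not_mem_range hN hqM hhi g hg
  have hprime : (Module.finrank (_root_.Fermat.Agent.A2.Mod.FE E N) (_root_.Fermat.Agent.A2.Mod.FE E (N * q))).Prime := by
    rw [finrank_alphaD hq hqN]
    exact hq
  have hmin := minpoly_eq_map_of_prime hmonic hprime hdeg hroot hyK
  have hdec : Ψ' = (Polynomial.X - Polynomial.C a) * (Polynomial.X - Polynomial.C c) ^ (q - 1) +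
      Polynomial.C ⟨cE P E N w, hunif.mem⟩ * (Polynomial.C uO * G₁) := by
    apply Polynomial.map_injective _ hinj
    rw [hΨ']
    conv_lhs => rw [hE.dec]
    simp only [Polynomial.map_add, Polynomial.map_mul, Polynomial.map_pow, Polynomial.map_sub,
      Polynomial.map_X, Polynomial.map_C, hG₁, ha, hc]
    rw [← mul_assoc, ← Polynomial.C_mul, hwu, castE_natCast]
  have hsub : IsUnit (a - c) := by
    have hser : (((a - c : V1) : _root_.Fermat.Agent.A2.Mod.FE E N) : LaurentSeries E) =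
        castE E (A - qExpand ℤ d (jqModC ℤ)) := by
      rw [map_sub, ← ha, ← hc]
      rfl
    refine isUnit_of_inv_mem ?_ (inv_mem_of_castE hq hlies hV1 hser hE.A_unit)
    intro h0
    rw [h0] at hser
    have h1 : A - qExpand ℤ d (jqModC ℤ) = 0 :=
      castE_injective E (by rw [map_zero]; exact hser.symm)
    obtain ⟨n, hn⟩ := hE.A_unit
    rw [h1] at hn
    exact hn (by simp)
  have hGu : IsUnit ((Polynomial.C uO * G₁).eval c) := by
    rw [Polynomial.eval_mul, Polynomial.eval_C]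
    have hser : (((G₁.eval c : V1) : _root_.Fermat.Agent.A2.Mod.FE E N) : LaurentSeries E) =
        castE E (G.eval (qExpand ℤ d (jqModC ℤ))) := by
      have h1 : valV V1 (G₁.eval c) = (G₁.map (valV V1)).eval (valV V1 c) := by
        rw [Polynomial.eval_map, Polynomial.eval₂_at_apply]
      rw [hG₁, hc, Polynomial.eval_map, Polynomial.eval₂_at_apply] at h1
      exact h1
    have hG0 : ((G₁.eval c : V1) : _root_.Fermat.Agent.A2.Mod.FE E N) ≠ 0 := by
      intro h0
      rw [h0] at hser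
      have h1 : G.eval (qExpand ℤ d (jqModC ℤ)) = 0 :=
        castE_injective E (by rw [map_zero]; exact hser.symm)
      obtain ⟨n, hn⟩ := hE.unit
      rw [h1] at hn
      exact hn (by simp)
    exact (isUnit_of_inv_mem huO0 huOinv).mul
      (isUnit_of_inv_mem hG0 (inv_mem_of_castE hq hlies hV1 hser hE.unit))
  refine ⟨Ψ', Polynomial.C uO * G₁, a, c, ha, hcj, hΨ', ⟨uO, G₁, rfl, hG₁, hwu⟩, ?_⟩
  exact
    { unif := hunif
      arch := arch_vinf hw hV1
      monic := hmonic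
      minpoly_eq := hmin
      gen := gen_of_natDegree_eq hmin hdeg
      pos := by have := hq.two_le; omega
      dec := hdec
      unit_sub := hsub
      unit_G := hGu }

theorem alpha_jloD (hlo : d ∣ N) (hlo' : d ∣ N * q) :
    αE E N q (jE E N d hlo) = jE E (N * q) d hlo' :=
  H553.αE_jE E N q d hlo

/-- **SPLIT-E, `α`-side** (from the formal input): the Gauss valuation `V` (component `i = 0`) and
the valuation `V_mid` (component `i = 1`) are exactly the valuation rings of `F_{Nq}` lying over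
the Gauss valuation `V1` of `F_N` along `α`; `e(V) = 1`, `e(V_mid) = q - 1` with uniformiser
`j_{dqq} - j_d`, residue degrees one. -/
theorem splitE_alpha (hq : q.Prime) (hlies : P.LiesOverPrime q)
    (hdvr : IsDiscreteValuationRing (_root_.Fermat.Agent.A2.Mod.RE P E)) (hw : Irreducible w) (hun : Unram P E q w)
    {M' : ℕ} [NeZero M'] (hN : N = d * q * M') (hqM : ¬ q ∣ M')
    (hlo' : d ∣ N * q) (hhi : d * (q * q) ∣ N * q)
    {A : LaurentSeries ℤ} {Ψ G : (LaurentSeries ℤ)[X]} (hE : EisSeriesD q d A Ψ G)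
    {V1 : ValuationSubring (_root_.Fermat.Agent.A2.Mod.FE E N)} (hV1 : IsVinf P E N V1)
    {V : ValuationSubring (_root_.Fermat.Agent.A2.Mod.FE E (N * q))} (hV : IsVinf P E (N * q) V) :
    ∃ Vmid : ValuationSubring (_root_.Fermat.Agent.A2.Mod.FE E (N * q)),
      Vmid ≠ V ∧
      (∀ k, αE E N q k ∈ Vmid ↔ k ∈ V1) ∧
      IsUnif Vmid (jE E (N * q) (d * (q * q)) hhi - jE E (N * q) d hlo') ∧
      (∃ u, u ∈ Vmid ∧ u⁻¹ ∈ Vmid ∧
        (jE E (N * q) (d * (q * q)) hhi - jE E (N * q) d hlo') ^ (q - 1) =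
          cE P E (N * q) w * u) ∧
      (∀ f ∈ Vmid, ∃ g ∈ V1,
        (f - αE E N q g) * (jE E (N * q) (d * (q * q)) hhi - jE E (N * q) d hlo')⁻¹ ∈ Vmid) ∧
      (∀ f ∈ V, ∃ g ∈ V1, (f - αE E N q g) * (cE P E (N * q) w)⁻¹ ∈ V) ∧
      (∀ V' : ValuationSubring (_root_.Fermat.Agent.A2.Mod.FE E (N * q)),
        (∀ k, αE E N q k ∈ V' ↔ k ∈ V1) → V' = V ∨ V' = Vmid) := by
  letI : Algebra (_root_.Fermat.Agent.A2.Mod.FE E N) (_root_.Fermat.Agent.A2.Mod.FE E (N * q)) := algebraAlong (αE E N q)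
  haveI := hdvr
  have hlo : d ∣ N := ⟨q * M', by rw [hN]; ring⟩
  obtain ⟨Ψ', G', a, c, ha, hcj, -, -, h⟩ :=
    exists_eisDataD hq hlies hdvr hw hun hN hqM hlo hhi hE hV1
  have halg : ∀ k : _root_.Fermat.Agent.A2.Mod.FE E N,
      algebraMap (_root_.Fermat.Agent.A2.Mod.FE E N) (_root_.Fermat.Agent.A2.Mod.FE E (N * q)) k = αE E N q k := fun k => rfl
  have hc' : algebraMap (_root_.Fermat.Agent.A2.Mod.FE E N) (_root_.Fermat.Agent.A2.Mod.FE E (N * q)) (c : _root_.Fermat.Agent.A2.Mod.FE E N) = jE E (N * q) d hlo' := by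
    rw [halg, hcj, alpha_jloD hlo hlo']
  have hw' : algebraMap (_root_.Fermat.Agent.A2.Mod.FE E N) (_root_.Fermat.Agent.A2.Mod.FE E (N * q)) (cE P E N w) =
      cE P E (N * q) w := by
    rw [halg, alpha_cE']
  have hNq : N * q ≠ 0 := NeZero.ne _
  have hL2 := H553.vinfBasic P E w (N * q) hNq hdvr hw V hV
  have hover : ∀ k : _root_.Fermat.Agent.A2.Mod.FE E N,
      algebraMap (_root_.Fermat.Agent.A2.Mod.FE E N) (_root_.Fermat.Agent.A2.Mod.FE E (N * q)) k ∈ V ↔ k ∈ V1 := fun k => by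
    rw [halg]
    exact alpha_mem_iff' hV1 hV k
  -- `V` is `V_a`
  have hVa : V = h.Va := by
    rcases h.eq_Va_or_eq_Vc V hover with h1 | h1
    · exact h1
    exfalso
    have hinv := h.inv_sub_a_mem_Vc
    rw [← h1] at hinv
    obtain ⟨H, hH⟩ := hE.A_cong
    obtain ⟨u, hu⟩ := hun
    set y : _root_.Fermat.Agent.A2.Mod.FE E (N * q) := jE E (N * q) (d * (q * q)) hhi with hy
    set D : _root_.Fermat.Agent.A2.Mod.FE E (N * q) :=
      y - algebraMap (_root_.Fermat.Agent.A2.Mod.FE E N) (_root_.Fermat.Agent.A2.Mod.FE E (N * q)) (a : _root_.Fermat.Agent.A2.Mod.FE E N) with hD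
    have hdser : (D : LaurentSeries E) = ((q : ℕ) : LaurentSeries E) * castE E H := by
      rw [hD, halg]
      have h2 : ((y - αE E N q (a : _root_.Fermat.Agent.A2.Mod.FE E N) : _root_.Fermat.Agent.A2.Mod.FE E (N * q)) :
          LaurentSeries E) = (y : LaurentSeries E) -
            ((αE E N q (a : _root_.Fermat.Agent.A2.Mod.FE E N) : _root_.Fermat.Agent.A2.Mod.FE E (N * q)) : LaurentSeries E) := rfl
      rw [h2, coe_heckeAlphaBar, hy, coe_jE', ← valV_apply, ha, ← map_sub, hH, map_mul,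
        castE_natCast]
    have hd0 : D ≠ 0 := by
      intro h0
      have : y = algebraMap (_root_.Fermat.Agent.A2.Mod.FE E N) (_root_.Fermat.Agent.A2.Mod.FE E (N * q)) (a : _root_.Fermat.Agent.A2.Mod.FE E N) :=
        sub_eq_zero.mp (hD ▸ h0)
      exact jhi_not_mem_range hN hqM hhi (a : _root_.Fermat.Agent.A2.Mod.FE E N) ((halg _).symm.trans this.symm)
    have hq0 : ((q : ℕ) : _root_.Fermat.Agent.A2.Mod.FE E (N * q)) ≠ 0 := Nat.cast_ne_zero.mpr hq.ne_zero
    have hfH : D * ((q : ℕ) : _root_.Fermat.Agent.A2.Mod.FE E (N * q))⁻¹ ∈ V := by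
      refine mem_of_castE hV (g := H) ?_
      have h3 : ((D * ((q : ℕ) : _root_.Fermat.Agent.A2.Mod.FE E (N * q))⁻¹ : _root_.Fermat.Agent.A2.Mod.FE E (N * q)) : LaurentSeries E) =
          (D : LaurentSeries E) * (((q : ℕ) : LaurentSeries E))⁻¹ := by
        rw [IntermediateField.coe_mul, IntermediateField.coe_inv]
        simp
      have hq0' : ((q : ℕ) : LaurentSeries E) ≠ 0 := by
        intro h4
        apply hq0
        apply Subtype.ext
        simpa using h4
      rw [h3, hdser]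
      field_simp
    have hqw : ((q : ℕ) : _root_.Fermat.Agent.A2.Mod.FE E (N * q)) =
        cE P E (N * q) w * cE P E (N * q) (u : _root_.Fermat.Agent.A2.Mod.RE P E) := by
      simp only [cE]
      rw [← map_mul, ← hu, map_natCast]
    have hw0 : cE P E (N * q) w ≠ 0 := hL2.1.ne_zero
    have hu0 : cE P E (N * q) (u : _root_.Fermat.Agent.A2.Mod.RE P E) ≠ 0 := by
      intro h0
      rw [h0, mul_zero] at hqw
      exact hq0 hqw
    have hdw : D * (cE P E (N * q) w)⁻¹ ∈ V := by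
      have : D * (cE P E (N * q) w)⁻¹ =
          (D * ((q : ℕ) : _root_.Fermat.Agent.A2.Mod.FE E (N * q))⁻¹) * cE P E (N * q) (u : _root_.Fermat.Agent.A2.Mod.RE P E) := by
        rw [hqw]
        field_simp
      rw [this]
      exact mul_mem hfH (cE_mem_vinf hV _)
    apply hL2.1.inv_not_mem
    have : (cE P E (N * q) w)⁻¹ = (D * (cE P E (N * q) w)⁻¹) * D⁻¹ := by
      field_simp
    rw [this]
    exact mul_mem hdw hinv
  refine ⟨h.Vc, ?_, ?_, ?_, ?_, ?_, ?_, ?_⟩
  · rw [hVa]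
    exact h.Va_ne_Vc.symm
  · intro k
    rw [← halg]
    exact h.algebraMap_mem_Vc_iff k
  · have := h.isUnif_Vc
    rwa [hc'] at this
  · obtain ⟨u, hu1, hu2, hu3⟩ := h.exists_unit_Vc
    rw [hc', hw'] at hu3
    exact ⟨u, hu1, hu2, hu3⟩
  · intro f hf
    obtain ⟨g, hg, hfg⟩ := h.residue_Vc hf
    rw [hc'] at hfg
    exact ⟨g, hg, hfg⟩
  · intro f hf
    rw [hVa] at hf
    obtain ⟨g, hg, hfg⟩ := h.residue_Va hf
    rw [hw', ← hVa] at hfg
    exact ⟨g, hg, hfg⟩
  · intro V' hV'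
    rcases h.eq_Va_or_eq_Vc V' hV' with h1 | h1
    · left
      rw [hVa]
      exact h1
    · right
      exact h1

/-- **SPLIT-E, `α`-side, UNCONDITIONAL.**  `q` prime, `R_E` a discrete valuation ring with
uniformiser `w`, unramified at `q`; `N = d q M'`, `q ∤ M'`.  Over the Gauss valuation ring `V1` of
`F_N` there are exactly two valuation rings of `F_{Nq}` along `α`: the Gauss valuation ring `V`
(`e = f = 1`) and `V_mid` (`e = q - 1`, `f = 1`, uniformiser `j_{dqq} - j_d`). -/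
theorem splitE_alpha_main (hq : q.Prime) (hlies : P.LiesOverPrime q)
    (hdvr : IsDiscreteValuationRing (_root_.Fermat.Agent.A2.Mod.RE P E)) (hw : Irreducible w) (hun : Unram P E q w)
    {M' : ℕ} [NeZero M'] (hN : N = d * q * M') (hqM : ¬ q ∣ M')
    (hlo' : d ∣ N * q) (hhi : d * (q * q) ∣ N * q)
    {V1 : ValuationSubring (_root_.Fermat.Agent.A2.Mod.FE E N)} (hV1 : IsVinf P E N V1)
    {V : ValuationSubring (_root_.Fermat.Agent.A2.Mod.FE E (N * q))} (hV : IsVinf P E (N * q) V) :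
    ∃ Vmid : ValuationSubring (_root_.Fermat.Agent.A2.Mod.FE E (N * q)),
      Vmid ≠ V ∧
      (∀ k, αE E N q k ∈ Vmid ↔ k ∈ V1) ∧
      IsUnif Vmid (jE E (N * q) (d * (q * q)) hhi - jE E (N * q) d hlo') ∧
      (∃ u, u ∈ Vmid ∧ u⁻¹ ∈ Vmid ∧
        (jE E (N * q) (d * (q * q)) hhi - jE E (N * q) d hlo') ^ (q - 1) =
          cE P E (N * q) w * u) ∧
      (∀ f ∈ Vmid, ∃ g ∈ V1,
        (f - αE E N q g) * (jE E (N * q) (d * (q * q)) hhi - jE E (N * q) d hlo')⁻¹ ∈ Vmid) ∧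
      (∀ f ∈ V, ∃ g ∈ V1, (f - αE E N q g) * (cE P E (N * q) w)⁻¹ ∈ V) ∧
      (∀ V' : ValuationSubring (_root_.Fermat.Agent.A2.Mod.FE E (N * q)),
        (∀ k, αE E N q k ∈ V' ↔ k ∈ V1) → V' = V ∨ V' = Vmid) := by
  obtain ⟨Ψ, G, hE⟩ := exists_eisSeriesD q d hq
  exact splitE_alpha hq hlies hdvr hw hun hN hqM hlo' hhi hE hV1 hV

/-- The level form used on the CAR3 board: `N = M q ^ k`, `k ≥ 1`, `q ∤ M`
(`e = k + 1`; uniformiser `j_{q^(k+1)} - j_{q^(k-1)}` of the component `(e - 1, 1)`). -/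
theorem splitE_alpha_pow (hq : q.Prime) (hlies : P.LiesOverPrime q)
    (hdvr : IsDiscreteValuationRing (_root_.Fermat.Agent.A2.Mod.RE P E)) (hw : Irreducible w) (hun : Unram P E q w)
    {M k : ℕ} [NeZero M] (hk : 1 ≤ k) (hN : N = M * q ^ k) (hqM : ¬ q ∣ M)
    (hlo' : q ^ (k - 1) ∣ N * q) (hhi : q ^ (k - 1) * (q * q) ∣ N * q)
    {V1 : ValuationSubring (_root_.Fermat.Agent.A2.Mod.FE E N)} (hV1 : IsVinf P E N V1)
    {V : ValuationSubring (_root_.Fermat.Agent.A2.Mod.FE E (N * q))} (hV : IsVinf P E (N * q) V) :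
    ∃ Vmid : ValuationSubring (_root_.Fermat.Agent.A2.Mod.FE E (N * q)),
      Vmid ≠ V ∧
      (∀ g, αE E N q g ∈ Vmid ↔ g ∈ V1) ∧
      IsUnif Vmid (jE E (N * q) (q ^ (k - 1) * (q * q)) hhi - jE E (N * q) (q ^ (k - 1)) hlo') ∧
      (∃ u, u ∈ Vmid ∧ u⁻¹ ∈ Vmid ∧
        (jE E (N * q) (q ^ (k - 1) * (q * q)) hhi - jE E (N * q) (q ^ (k - 1)) hlo') ^ (q - 1) =
          cE P E (N * q) w * u) ∧
      (∀ f ∈ Vmid, ∃ g ∈ V1,
        (f - αE E N q g) *
          (jE E (N * q) (q ^ (k - 1) * (q * q)) hhi - jE E (N * q) (q ^ (k - 1)) hlo')⁻¹ ∈ Vmid) ∧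
      (∀ f ∈ V, ∃ g ∈ V1, (f - αE E N q g) * (cE P E (N * q) w)⁻¹ ∈ V) ∧
      (∀ V' : ValuationSubring (_root_.Fermat.Agent.A2.Mod.FE E (N * q)),
        (∀ g, αE E N q g ∈ V' ↔ g ∈ V1) → V' = V ∨ V' = Vmid) := by
  have hN' : N = q ^ (k - 1) * q * M := by
    rw [hN, ← pow_succ, Nat.sub_add_cancel hk]
    ring
  exact splitE_alpha_main (d := q ^ (k - 1)) hq hlies hdvr hw hun hN' hqM hlo' hhi hV1 hV

end Alpha

end Fermat.Agent.S45.H972

end

end
-- ===== PACK-END S45/H972/SplitE.lean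

-- ===== PACK-BEGIN S45/ModE/H835/Prelim.lean
section








/-!
# S45 / CAR3 / MOD-E — preliminaries for the leaves VAL-E and RES-E (helper835)

Everything here is on top of main (`S18.H182.disc`, `S37.H818`, `A2.Mod.H553`, `S36.H253`) and of
`S45/VT/H835/OneStep*.lean`.

* index arithmetic for `ModE.mu`;
* `deg_alpha835`, `fin_alpha835` : `[F_{Nq} : α F_N] = q` for `q ∣ N`;
* `dvr_up835` : a valuation subring over a discrete valuation ring along a finite map is a
  discrete valuation ring (`S18.H182.disc`);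
* `alpha_jLev835` : `α (J' l) = J l`;
* `natCast_nonunits835` : the residue characteristic of a component is `q`;
* `two_ext_vt835` : two extensions of a discrete valuation ring, counting form (type SPLIT);
* small lemmas on `UnitAt`, `UnifAt`.
-/

set_option autoImplicit false
set_option linter.style.haveILetI false
set_option linter.unusedSectionVars false
set_option linter.unusedVariables false
set_option synthInstance.maxHeartbeats 400000
set_option maxHeartbeats 1600000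

noncomputable section

namespace Fermat.Agent.S45.ModE.H835

open scoped BigOperators
open ModularCurve AlgebraicCurve
open Fermat.Agent.A2.Mod
open Fermat.Agent.S35.H253 Fermat.Agent.S36.H253
open Fermat.Agent.S36 Fermat.Agent.S36.Eng Fermat.Agent.S45.ModE
open Fermat.Agent.S45.VT.H835

/-! ## Index arithmetic -/

theorem mu_zero835 (q e : ℕ) : mu q e 0 = 1 := by
  simp [mu]

theorem mu_pos835 {q : ℕ} (hq : q.Prime) (e i : ℕ) : 0 < mu q e i := by
  unfold mu
  exact Nat.totient_pos.2 (pow_pos hq.pos _)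

theorem mu_one835 {q e : ℕ} (hq : q.Prime) (he : 2 ≤ e) : mu q e 1 = q - 1 := by
  have h : min 1 (e - 1) = 1 := by omega
  simp only [mu, h, pow_one]
  exact Nat.totient_prime hq

/-- INSEP type: the multiplicity does not change. -/
theorem mu_insep835 (q : ℕ) {n i : ℕ} (h1 : 1 ≤ i) (hi : i ≤ n + 1) (h2 : n + 1 < 2 * i) :
    mu q (n + 1) i = mu q n (i - 1) := by
  have e1 : min i (n + 1 - i) = n + 1 - i := by omega
  have e2 : min (i - 1) (n - (i - 1)) = n + 1 - i := by omega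
  simp only [mu, e1, e2]

/-- WILD type: the multiplicity is multiplied by `q`. -/
theorem mu_wild835 {q : ℕ} (hq : q.Prime) {n i : ℕ} (h1 : 2 ≤ i) (h2 : 2 * i ≤ n + 1) :
    mu q (n + 1) i = q * mu q n (i - 1) := by
  have e1 : min i (n + 1 - i) = i := by omega
  have e2 : min (i - 1) (n - (i - 1)) = i - 1 := by omega
  simp only [mu, e1, e2]
  rw [Nat.totient_prime_pow hq (by omega : 0 < i),
    Nat.totient_prime_pow hq (by omega : 0 < i - 1), ← mul_assoc]
  congr 1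
  have : i - 1 = (i - 1 - 1) + 1 := by omega
  conv_lhs => rw [this, pow_succ]
  ring

/-! ## `UnitAt`, `UnifAt` -/

section Vocab

variable {F : Type*} [Field F]

theorem unitAt_one835 (V : ValuationSubring F) : UnitAt V (1 : F) :=
  ⟨one_ne_zero, V.one_mem, by rw [inv_one]; exact V.one_mem⟩

theorem unitAt_mul835 {V : ValuationSubring F} {a b : F}
    (ha : UnitAt V a) (hb : UnitAt V b) : UnitAt V (a * b) :=
  ⟨mul_ne_zero ha.1 hb.1, mul_mem ha.2.1 hb.2.1, by
    rw [mul_inv]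
    exact mul_mem ha.2.2 hb.2.2⟩

theorem unitAt_prod835 {V : ValuationSubring F} {ι : Type*} (s : Finset ι) (f : ι → F)
    (h : ∀ i ∈ s, UnitAt V (f i)) : UnitAt V (∏ i ∈ s, f i) := by
  classical
  induction s using Finset.induction_on with
  | empty => simpa using unitAt_one835 V
  | insert a s ha ih =>
    rw [Finset.prod_insert ha]
    exact unitAt_mul835 (h a (Finset.mem_insert_self a s))
      (ih fun i hi => h i (Finset.mem_insert_of_mem hi))

theorem unifAt_val_lt835 {V : ValuationSubring F} {t : F} (ht : UnifAt V t) :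
    V.valuation t < 1 := (ValuationSubring.mem_nonunits_iff V).1 ht.2.1

/-- `w = unit · t ^ μ`, `t` a uniformiser, `μ ≥ 1`: `w ∈ 𝔪_V`. -/
theorem mem_nonunits_of_ram835 {V : ValuationSubring F} {w t : F} {μ : ℕ} (hμ : 0 < μ)
    (ht : UnifAt V t) (hu : UnitAt V (w * (t ^ μ)⁻¹)) : w ∈ V.nonunits := by
  rw [ValuationSubring.mem_nonunits_iff]
  have h1 := val_eq_zpow_of_unitAt V ht.1 ((μ : ℕ) : ℤ) (by rw [zpow_natCast]; exact hu)
  rw [zpow_natCast] at h1
  rw [h1]
  exact pow_lt_one₀ zero_le (unifAt_val_lt835 ht) hμ.ne'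

/-- The relation `w = unit · t ^ μ` does not depend on the uniformiser. -/
theorem ram_change835 {V : ValuationSubring F} {w t t₀ : F} {μ : ℕ}
    (ht : UnifAt V t) (ht₀ : UnifAt V t₀) (hu : UnitAt V (w * (t ^ μ)⁻¹)) :
    UnitAt V (w * (t₀ ^ μ)⁻¹) := by
  have h1 := val_eq_zpow_of_unitAt V ht.1 ((μ : ℕ) : ℤ) (by rw [zpow_natCast]; exact hu)
  rw [val_eq_of_unifAt V ht ht₀] at h1
  have h2 := unitAt_of_val_eq_zpow V ht₀.1 ((μ : ℕ) : ℤ) h1
  rw [zpow_natCast] at h2
  exact h2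

/-- Transport of `UnitAt` along a lying-over. -/
theorem unitAt_map835 {F' : Type*} [Field F'] (φ : F' →+* F) {V : ValuationSubring F}
    {V' : ValuationSubring F'} (hc : V.comap φ = V') {a : F'} (ha : UnitAt V' a) :
    UnitAt V (φ a) := by
  refine ⟨(map_ne_zero φ).2 ha.1, ?_, ?_⟩
  · have : a ∈ V.comap φ := by rw [hc]; exact ha.2.1
    exact this
  · rw [← map_inv₀]
    have : a⁻¹ ∈ V.comap φ := by rw [hc]; exact ha.2.2
    exact this

/-- Transport of `𝔪` along a lying-over. -/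
theorem nonunits_map835 {F' : Type*} [Field F'] (φ : F' →+* F) {V : ValuationSubring F}
    {V' : ValuationSubring F'} (hc : V.comap φ = V') {a : F'} (ha : a ∈ V'.nonunits) :
    φ a ∈ V.nonunits := by
  rw [ValuationSubring.mem_nonunits_iff_or] at ha ⊢
  rcases ha with h | h
  · left; rw [h, map_zero]
  · right
    intro hmem
    apply h
    rw [← hc]
    show φ a⁻¹ ∈ V
    rw [map_inv₀]
    exact hmem

end Vocab

/-! ## Going up -/

section Up

/-- A valuation subring lying over a discrete valuation ring along a finite extension is a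
discrete valuation ring (`S18.H182.disc`). -/
theorem dvr_up835 {E F F' : Type} [Field E] [Field F] [Field F'] [Algebra E F] [Algebra E F']
    (φ : F' →ₐ[E] F) (hfin : FiniteAlong E φ) {V : ValuationSubring F}
    {V' : ValuationSubring F'} (hc : V.comap (φ : F' →+* F) = V')
    (hdvr' : IsDiscreteValuationRing V') : IsDiscreteValuationRing V := by
  letI := algebraAlong φ
  haveI : Module.Finite F' F := hfin
  have hPID' : IsPrincipalIdealRing (V.comap (algebraMap F' F)) := by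
    have : V.comap (algebraMap F' F) = V' := hc
    rw [this]
    exact hdvr'.toIsPrincipalIdealRing
  have hPID : IsPrincipalIdealRing V := S18.H182.disc F' F V hPID'
  -- not a field
  obtain ⟨π, hπ⟩ := IsDiscreteValuationRing.exists_irreducible V'
  have hπ0 : (π : F') ≠ 0 := fun h0 => hπ.ne_zero (Subtype.ext h0)
  have hπn : (π : F') ∈ V'.nonunits :=
    ValuationSubring.coe_mem_nonunits_iff.2 ((IsLocalRing.mem_maximalIdeal π).2 hπ.not_isUnit)
  have hφn : φ (π : F') ∈ V.nonunits := nonunits_map835 (φ : F' →+* F) hc hπn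
  refine { toIsPrincipalIdealRing := hPID, toIsLocalRing := inferInstance, not_a_field' := ?_ }
  intro hbot
  have hmem : (⟨φ (π : F'), V.nonunits_le hφn⟩ : V) ∈ IsLocalRing.maximalIdeal V :=
    ValuationSubring.coe_mem_nonunits_iff.1 hφn
  rw [hbot, Ideal.mem_bot] at hmem
  have : φ (π : F') = 0 := congrArg Subtype.val hmem
  exact hπ0 ((map_eq_zero φ).1 this)

end Up

/-! ## The degrees -/

section Degrees

variable {E : IntermediateField ℚ Qb} {N q : ℕ} [NeZero N] [NeZero q] [NeZero (N * q)]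

/-- `[F_{Nq} : α F_N] = q` for `q ∣ N`. -/
theorem deg_alpha835 (hq : q.Prime) (hqN : q ∣ N) : finrankAlong E (αE E N q) = q := by
  have h := Fermat.Agent.S37.H818.finrankAlong_heckeAlphaBar' (L := E) N q hq
  rw [if_pos hqN] at h
  exact h

theorem fin_alpha835 (hq : q.Prime) (hqN : q ∣ N) : FiniteAlong E (αE E N q) := by
  have h := deg_alpha835 (E := E) hq hqN
  unfold FiniteAlong
  unfold finrankAlong at h
  letI := algebraAlong (αE E N q)
  exact Module.finite_of_finrank_pos (by rw [h]; exact hq.pos)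

end Degrees

end Fermat.Agent.S45.ModE.H835

end

end
-- ===== PACK-END S45/ModE/H835/Prelim.lean

-- ===== PACK-BEGIN S45/ModE/H835/Rows.lean
section



/-!
# S45 / CAR3 / MOD-E — the rows of the `(e, f)` table along `α` (helper835)

Concrete objects: `StdE` at the level `N` of exponent `n ≥ 2`, `LevelCtx` of the level `N`
(components `V'`), `ObjsE` (components `V` of the level `N q`).  For every `i ≤ n + 1` the row of
`V i` along `α`:

* `vinfRow835`  (`i = 0`)               : discrete valuation ring, uniformiser `w`, `V 0 ∘ α = V' 0`;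
* `splitRow835` (`i ∈ {0, 1}`, type SPLIT) from ONE relation `w = τ ^ (q - 1) · unit` at `V 1`:
  completeness over `V' 0`, residue degree one at `V 0`, `V 1`, uniformiser `τ`;
* `wildRow835`  (`2 ≤ i`, `2 i ≤ n + 1`, type WILD) from ONE relation `α t' = τ ^ q · unit` at
  `V i`, `t'` a uniformiser of `V' (i - 1)`: completeness, residue degree one, uniformiser `τ`,
  multiplicity `mu q (n + 1) i`;
* `insepRow835` (`2 ≤ i`, `n + 1 < 2 i`, type INSEP), from the Kronecker pattern of the upper level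
  (`PartKronE`: `J n ≡ J (n + 1) ^ q` on `V i`) and the lower `wit_hi` — NO further input:
  completeness, pure inseparability, uniformiser `α t'`, multiplicity.
-/

set_option autoImplicit false
set_option linter.style.haveILetI false
set_option linter.unusedSectionVars false
set_option linter.unusedVariables false
set_option synthInstance.maxHeartbeats 400000
set_option maxHeartbeats 1600000

noncomputable section

namespace Fermat.Agent.S45.ModE.H835

open scoped BigOperators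
open ModularCurve AlgebraicCurve
open Fermat.Agent.A2.Mod
open Fermat.Agent.S35.H253 Fermat.Agent.S36.H253
open Fermat.Agent.S36 Fermat.Agent.S36.Eng Fermat.Agent.S45.ModE
open Fermat.Agent.S45.VT.H835

/-! ## Two extensions, counting form (type SPLIT) -/

section Two

variable {K F : Type*} [Field K] [Field F] [Algebra K F]

/-- **Two extensions, counting form**: `Va` unramified, `Vb` with `v_b (ϖ) = v_b (τ) ^ e`,
`[F : K] ≤ 1 + e`. -/
theorem two_ext_vt835 [Module.Finite K F] {O : ValuationSubring K} {ϖ : K}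
    {Va Vb : ValuationSubring F} (ha : Over O Va) (hb : Over O Vb) (hne : Va ≠ Vb)
    (hϖ0 : ϖ ≠ 0) (hϖ : O.valuation ϖ < 1)
    (hdvr : ∀ a : K, a ≠ 0 → ∃ n : ℤ, O.valuation a = O.valuation ϖ ^ n)
    {τ : F} {e : ℕ} (hτ : Vb.valuation τ < 1)
    (hram : Vb.valuation (algebraMap K F ϖ) = Vb.valuation τ ^ e)
    (hle : Module.finrank K F ≤ 1 + e) :
    (∀ W : ValuationSubring F, Over O W → W = Va ∨ W = Vb) ∧
      (∀ f ∈ Va, ∃ g ∈ O, f - algebraMap K F g ∈ Va.nonunits) ∧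
      (∀ f ∈ Vb, ∃ g ∈ O, f - algebraMap K F g ∈ Vb.nonunits) ∧
      (∀ z : F, Vb.valuation z < 1 → Vb.valuation z ≤ Vb.valuation τ) ∧
      (∀ y : F, y ≠ 0 → ∃ a : ℤ, Vb.valuation y = Vb.valuation τ ^ a) := by
  classical
  haveI : Algebra.IsAlgebraic K F := Algebra.IsAlgebraic.of_finite K F
  set V : Bool → ValuationSubring F := fun b => cond b Va Vb with hV
  set E : Bool → ℕ := fun b => cond b 1 e with hE
  set t : Bool → F := fun b => cond b (algebraMap K F ϖ) τ with ht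
  have hover : ∀ i, Over O (V i) := fun i => by cases i <;> simp only [hV, cond] <;> assumption
  have hinc : ∀ i i', i ≠ i' → ¬ V i ≤ V i' := by
    intro i i' hii' hle'
    have heq := eq_of_le_of_over (hover i) (hover i') hϖ0 hϖ hdvr hle'
    cases i <;> cases i'
    · exact hii' rfl
    · exact hne heq.symm
    · exact hne heq
    · exact hii' rfl
  have hτ' : ∀ i, (V i).valuation (t i) < 1 := fun i => by
    cases i
    · exact hτ
    · exact (ha.val_lt_one_iff ϖ).2 hϖ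
  have hram' : ∀ i, (V i).valuation (algebraMap K F ϖ) = (V i).valuation (t i) ^ E i := fun i => by
    cases i
    · exact hram
    · simp only [hE, ht, cond, pow_one]
  have hsum : ∑ i, E i = 1 + e := by
    rw [Fintype.sum_bool]; rfl
  have hge := sum_le_finrank_vt835 hover hinc hϖ0 hϖ hdvr hτ' hram'
  rw [hsum] at hge
  have hdeg : ∑ i, E i = Module.finrank K F := by rw [hsum]; exact le_antisymm hge hle
  refine ⟨?_, ?_, ?_, ?_, ?_⟩
  · intro W hW
    obtain ⟨i, hi⟩ := eq_split hover hinc hϖ0 hϖ hdvr hτ' hram' hdeg hW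
    cases i
    · exact Or.inr hi
    · exact Or.inl hi
  · intro f hf
    exact res_split_vt835 hover hinc hϖ0 hϖ hdvr hτ' hram' hdeg true hf
  · intro f hf
    exact res_split_vt835 hover hinc hϖ0 hϖ hdvr hτ' hram' hdeg false hf
  · intro z hz
    exact gen_split hover hinc hϖ0 hϖ hdvr hτ' hram' hdeg false z hz
  · intro y hy
    obtain ⟨a, ha', -⟩ := valNorm_split hover hinc hϖ0 hϖ hdvr hτ' hram' hdeg hy
    exact ⟨a false, ha' false⟩

end Two

/-! ## The concrete level -/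

section Concrete

variable {P : ValuationSubring Qb} {E : IntermediateField ℚ Qb} {N q : ℕ}
  [NeZero N] [NeZero q]

theorem dvd_of_stdE835 {n : ℕ} {w : RE P E} (hS : StdE P E N q n w) (hn : 1 ≤ n) : q ∣ N := by
  have h : 0 < N.factorization q := by rw [hS.exp]; exact hn
  exact Nat.dvd_of_factorization_pos h.ne'

theorem pow_dvd_of_stdE835 {n : ℕ} {w : RE P E} (hS : StdE P E N q n w) {l : ℕ} (hl : l ≤ n) :
    q ^ l ∣ N := by
  have h := Nat.ordProj_dvd N q
  rw [hS.exp] at h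
  exact (pow_dvd_pow q hl).trans h

/-- `w ∣ q` in `R_E`. -/
theorem dvd_natCast835 {n : ℕ} {w : RE P E} (hS : StdE P E N q n w) :
    w ∣ ((q : ℕ) : RE P E) := by
  haveI := hS.unram.1.dvr
  have hP : ((q : ℕ) : Qb) ∈ P.nonunits := hS.lies_over
  have hmem : ((q : ℕ) : RE P E) ∈ IsLocalRing.maximalIdeal (RE P E) := by
    rw [IsLocalRing.mem_maximalIdeal, mem_nonunits_iff]
    intro hu
    obtain ⟨v, hv⟩ := hu.exists_right_inv
    have h1 : ((q : ℕ) : E) * (v : E) = 1 := by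
      have := congrArg (fun x : RE P E => (x : E)) hv
      simpa using this
    have h2 : ((q : ℕ) : Qb) * algebraMap E Qb (v : E) = 1 := by
      have := congrArg (algebraMap E Qb) h1
      simpa using this
    have hvP : algebraMap E Qb (v : E) ∈ P := v.2
    rw [ValuationSubring.mem_nonunits_iff] at hP
    have h3 : P.valuation (((q : ℕ) : Qb) * algebraMap E Qb (v : E)) < 1 := by
      rw [map_mul]
      calc P.valuation ((q : ℕ) : Qb) * P.valuation (algebraMap E Qb (v : E))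
          ≤ P.valuation ((q : ℕ) : Qb) * 1 := by
            gcongr
            exact (P.valuation_le_one_iff _).2 hvP
        _ = P.valuation ((q : ℕ) : Qb) := mul_one _
        _ < 1 := hP
    rw [h2, map_one] at h3
    exact lt_irrefl _ h3
  rw [(IsDiscreteValuationRing.irreducible_iff_uniformizer w).1 hS.unif,
    Ideal.mem_span_singleton] at hmem
  exact hmem

/-- The residue characteristic of a component is `q`. -/
theorem natCast_nonunits835 {n : ℕ} {w : RE P E} (hS : StdE P E N q n w)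
    {U : ValuationSubring (FE E N)}
    (hbase : ∀ r : RE P E, algebraMap (RE P E) (FE E N) r ∈ U)
    (hw : algebraMap (RE P E) (FE E N) w ∈ U.nonunits) :
    ((q : ℕ) : FE E N) ∈ U.nonunits :=
  Fermat.Agent.S36.H253.natCast_mem_nonunits (R := RE P E) w q hbase hw (dvd_natCast835 hS)

variable [NeZero (N * q)]

/-- `α (J' l) = J l`. -/
theorem alpha_jLev835 (l : ℕ) (hl : q ^ l ∣ N) :
    αE E N q (jLev E N q l) = jLev E (N * q) q l := by
  have hl' : q ^ l ∣ N * q := hl.trans (dvd_mul_right N q)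
  unfold jLev
  rw [dif_pos hl, dif_pos hl']
  exact H553.αE_jE E N q (q ^ l) hl

/-- `α w = w`. -/
theorem alpha_w835 (w : RE P E) :
    αE E N q (algebraMap (RE P E) (FE E N) w) = algebraMap (RE P E) (FE E (N * q)) w :=
  Fermat.Agent.S36.H253.along_algebraMap _ w

/-! ## The rows -/

variable {n : ℕ} {w : RE P E} {V' : ℕ → ValuationSubring (FE E N)}
  {V : ℕ → ValuationSubring (FE E (N * q))} {W' : FE E N ≃ₐ[E] FE E N}
  {W : FE E (N * q) ≃ₐ[E] FE E (N * q)}

/-- `V 0 ∘ α = V' 0` (both are `V∞`). -/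
theorem comap_alpha_zero835 (hS : StdE P E N q n w) (hL : LevelCtx P E N q n w V' W')
    (hO : ObjsE P E N q n V' V W) :
    (V 0).comap (αE E N q : FE E N →+* FE E (N * q)) = V' 0 := by
  haveI := hS.unram.1.dvr
  ext g
  rw [ValuationSubring.mem_comap]
  exact S36.H816.alpha_mem_iff hL.vinf hO.vinf g

/-- Every `V i`, `i ≤ n + 1`, lies over `V' (i - 1)` along `α`. -/
theorem lies835 (hS : StdE P E N q n w) (hL : LevelCtx P E N q n w V' W')
    (hO : ObjsE P E N q n V' V W) (i : ℕ) (hi : i ≤ n + 1) :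
    (V i).comap (αE E N q : FE E N →+* FE E (N * q)) = V' (i - 1) := by
  rcases Nat.eq_zero_or_pos i with h0 | hpos
  · subst h0
    exact comap_alpha_zero835 hS hL hO
  · exact hO.lies i hpos hi

/-- Every `V i`, `i ≤ n + 1`, is a discrete valuation ring. -/
theorem dvr835 (hS : StdE P E N q n w) (hn : 2 ≤ n) (hL : LevelCtx P E N q n w V' W')
    (hO : ObjsE P E N q n V' V W) (i : ℕ) (hi : i ≤ n + 1) :
    IsDiscreteValuationRing (V i) :=
  dvr_up835 (αE E N q) (fin_alpha835 hS.q_prime (dvd_of_stdE835 hS (by omega)))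
    (lies835 hS hL hO i hi) (hL.val.dvr (i - 1) (by omega))

/-- The components of the upper level are pairwise distinct. -/
theorem ne835 (hS : StdE P E N q n w) (hL : LevelCtx P E N q n w V' W')
    (hO : ObjsE P E N q n V' V W) :
    ∀ i ≤ n + 1, ∀ k ≤ n + 1, i ≠ k → V i ≠ V k := by
  have key : ∀ i ≤ n + 1, ∀ k ≤ n + 1, i < k → V i ≠ V k := by
    intro i hi k hk hik hVV
    have h1 := lies835 hS hL hO i hi
    have h2 := lies835 hS hL hO k hk
    rw [hVV, h2] at h1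
    by_cases hk1 : i = 0 ∧ k = 1
    · obtain ⟨rfl, rfl⟩ := hk1
      exact hO.one_ne hVV.symm
    · exact hL.val.ne (k - 1) (by omega) (i - 1) (by omega) (by omega) h1
  intro i hi k hk hik
  rcases Nat.lt_or_gt_of_ne hik with h | h
  · exact key i hi k hk h
  · exact fun hVV => key k hk i hi h hVV.symm

/-- The uniformiser `w` of `V' 0 = V∞`. -/
theorem unif_lower_zero835 (hS : StdE P E N q n w) (hL : LevelCtx P E N q n w V' W') :
    UnifAt (V' 0) (algebraMap (RE P E) (FE E N) w) := by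
  obtain ⟨t, ht, hu⟩ := hL.val.ram 0 (Nat.zero_le _)
  rw [mu_zero835, pow_one] at hu
  -- `w = unit · t`
  have hw0 : algebraMap (RE P E) (FE E N) w ≠ 0 := fun h => hu.1 (by rw [h, zero_mul])
  have hv : (V' 0).valuation (algebraMap (RE P E) (FE E N) w) = (V' 0).valuation t := by
    have := val_eq_zpow_of_unitAt (V' 0) ht.1 1 (by rw [zpow_one]; exact hu)
    rw [zpow_one] at this
    exact this
  refine ⟨hw0, ?_, fun f hf => ?_⟩
  · rw [ValuationSubring.mem_nonunits_iff, hv]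
    exact unifAt_val_lt835 ht
  · have h1 := ht.2.2 f hf
    rw [← (V' 0).valuation_le_one_iff] at h1 ⊢
    rw [map_mul, map_inv₀] at h1 ⊢
    rw [hv]
    exact h1

/-- **The row `i = 0`**: `w` is a uniformiser of `V 0 = V∞`. -/
theorem vinfRow835 (hS : StdE P E N q n w) (hO : ObjsE P E N q n V' V W) :
    UnifAt (V 0) (algebraMap (RE P E) (FE E (N * q)) w) := by
  have hL2 := H553.vinfBasic P E w (N * q) (NeZero.ne _) hS.unram.1.dvr hS.unif (V 0) hO.vinf
  have hu : A2.H48.IsUnif (V 0) (cE P E (N * q) w) := hL2.1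
  exact ⟨hu.ne_zero, (ValuationSubring.mem_nonunits_iff _).mpr hu.val_lt_one,
    fun _ hf => hu.mul_inv_mem_iff.mpr ((ValuationSubring.mem_nonunits_iff _).mp hf)⟩

/-- **The rows `i ∈ {0, 1}`, type SPLIT**, from ONE relation `w = τ ^ (q - 1) · unit` at `V 1`. -/
theorem splitRow835 (hS : StdE P E N q n w) (hn : 2 ≤ n) (hL : LevelCtx P E N q n w V' W')
    (hO : ObjsE P E N q n V' V W) {τ : FE E (N * q)}
    (hram : UnitAt (V 1) (algebraMap (RE P E) (FE E (N * q)) w * (τ ^ (q - 1))⁻¹)) :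
    (∀ U : ValuationSubring (FE E (N * q)),
        U.comap (αE E N q : FE E N →+* FE E (N * q)) = V' 0 → U = V 0 ∨ U = V 1) ∧
      (∀ f ∈ V 0, ∃ g ∈ V' 0, f - αE E N q g ∈ (V 0).nonunits) ∧
      (∀ f ∈ V 1, ∃ g ∈ V' 0, f - αE E N q g ∈ (V 1).nonunits) ∧
      UnifAt (V 1) τ := by
  have hq := hS.q_prime
  have hqN := dvd_of_stdE835 hS (by omega : 1 ≤ n)
  letI := algebraAlong (αE E N q)
  haveI : Module.Finite (FE E N) (FE E (N * q)) := fin_alpha835 hq hqN
  have hdeg : Module.finrank (FE E N) (FE E (N * q)) = q := deg_alpha835 hq hqN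
  have hca := comap_alpha_zero835 hS hL hO
  have hcb := hO.lies 1 le_rfl (by omega)
  have hoa : Over (V' 0) (V 0) := over_of_comap (αE E N q) hca
  have hob : Over (V' 0) (V 1) := over_of_comap (αE E N q) hcb
  have hw' := unif_lower_zero835 hS hL
  have hdvr := hdvr_of_dvr (V' 0) (hL.val.dvr 0 (Nat.zero_le _)) hw'
  have hϖ : (V' 0).valuation (algebraMap (RE P E) (FE E N) w) < 1 := unifAt_val_lt835 hw'
  have hτ0 : τ ≠ 0 := by
    intro h0
    by_cases hq1 : q - 1 = 0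
    · -- `q = 1` is impossible
      have := hq.two_le
      omega
    · apply hram.1
      rw [h0, zero_pow hq1, inv_zero, mul_zero]
  have hwF : algebraMap (FE E N) (FE E (N * q)) (algebraMap (RE P E) (FE E N) w) =
      algebraMap (RE P E) (FE E (N * q)) w := alpha_w835 w
  have hram' : (V 1).valuation (algebraMap (FE E N) (FE E (N * q))
      (algebraMap (RE P E) (FE E N) w)) = (V 1).valuation τ ^ (q - 1) := by
    rw [hwF]
    have := val_eq_zpow_of_unitAt (V 1) hτ0 ((q - 1 : ℕ) : ℤ) (by rw [zpow_natCast]; exact hram)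
    rw [zpow_natCast] at this
    exact this
  have hϖV : (V 1).valuation (algebraMap (FE E N) (FE E (N * q))
      (algebraMap (RE P E) (FE E N) w)) < 1 := (hob.val_lt_one_iff _).2 hϖ
  have hτ : (V 1).valuation τ < 1 := val_lt_one_of_pow835 (V 1) hϖV hram'
  have hle : Module.finrank (FE E N) (FE E (N * q)) ≤ 1 + (q - 1) := by
    rw [hdeg]; omega
  obtain ⟨h1, h2, h3, h4, h5⟩ :=
    two_ext_vt835 hoa hob hO.one_ne.symm hw'.1 hϖ hdvr hτ hram' hle
  refine ⟨fun U hU => h1 U (over_of_comap (αE E N q) hU), ?_, ?_, ?_⟩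
  · intro f hf
    obtain ⟨g, hg, hfg⟩ := h2 f hf
    exact ⟨g, hg, hfg⟩
  · intro f hf
    obtain ⟨g, hg, hfg⟩ := h3 f hf
    exact ⟨g, hg, hfg⟩
  · exact (dvr_of_gen835 (V 1) hτ0 hτ h5).2

/-- **The row `i`, `2 ≤ i`, `2 i ≤ n + 1`, type WILD**, from ONE relation `α t' = τ ^ q · unit`
at `V i`, `t'` a uniformiser of `V' (i - 1)`. -/
theorem wildRow835 (hS : StdE P E N q n w) (hn : 2 ≤ n) (hL : LevelCtx P E N q n w V' W')
    (hO : ObjsE P E N q n V' V W) {i : ℕ} (h2 : 2 ≤ i) (hi : 2 * i ≤ n + 1)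
    {t' : FE E N} {τ : FE E (N * q)} (ht' : UnifAt (V' (i - 1)) t')
    (hram : UnitAt (V i) (αE E N q t' * (τ ^ q)⁻¹)) :
    (∀ U : ValuationSubring (FE E (N * q)),
        U.comap (αE E N q : FE E N →+* FE E (N * q)) = V' (i - 1) → U = V i) ∧
      (∀ f ∈ V i, ∃ g ∈ V' (i - 1), f - αE E N q g ∈ (V i).nonunits) ∧
      UnifAt (V i) τ ∧
      UnitAt (V i) (algebraMap (RE P E) (FE E (N * q)) w * (τ ^ mu q (n + 1) i)⁻¹) := by
  have hq := hS.q_prime
  have hqN := dvd_of_stdE835 hS (by omega : 1 ≤ n)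
  have hc := hO.lies i (by omega) (by omega)
  obtain ⟨-, hon, hres, hun, -, -, -⟩ := wild_along835 q (αE E N q) (fin_alpha835 hq hqN)
    (deg_alpha835 hq hqN).le hq.pos hc (hL.val.dvr (i - 1) (by omega)) ht' hram
  refine ⟨hon, hres, hun, ?_⟩
  -- the multiplicity
  obtain ⟨t₀, ht₀, hu₀⟩ := hL.val.ram (i - 1) (by omega)
  have hu' : UnitAt (V' (i - 1)) (algebraMap (RE P E) (FE E N) w * (t' ^ mu q n (i - 1))⁻¹) :=
    ram_change835 ht₀ ht' hu₀
  have hu'' := mult_insep835 (αE E N q : FE E N →+* FE E (N * q)) hc hu'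
  have hαw : (αE E N q : FE E N →+* FE E (N * q)) (algebraMap (RE P E) (FE E N) w) =
      algebraMap (RE P E) (FE E (N * q)) w := alpha_w835 w
  rw [hαw] at hu''
  have key := mult_wild835 (V i) hu'' hram
  rw [mu_wild835 hq h2 hi]
  exact key

/-- **The row `i`, `2 ≤ i`, `n + 1 < 2 i`, type INSEP**, from the witness of inseparability
`J (n + 1) ∈ V i`, `J (n + 1) ^ q ≡ α (J' n)` on `V i`, and the lower `wit_hi`. -/
theorem insepRow_core835 (hS : StdE P E N q n w) (hn : 2 ≤ n) (hL : LevelCtx P E N q n w V' W')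
    (hO : ObjsE P E N q n V' V W)
    {i : ℕ} (h2 : 2 ≤ i) (hi : i ≤ n + 1) (h2i : n + 1 < 2 * i)
    (hz₀ : jLev E (N * q) q (n + 1) ∈ V i)
    (hzc : jLev E (N * q) q (n + 1) ^ q - αE E N q (jLev E N q n) ∈ (V i).nonunits) :
    (∀ U : ValuationSubring (FE E (N * q)),
        U.comap (αE E N q : FE E N →+* FE E (N * q)) = V' (i - 1) → U = V i) ∧
      (∀ f ∈ V i, ∃ g ∈ V' (i - 1), f ^ q - αE E N q g ∈ (V i).nonunits) ∧
      (∃ t : FE E (N * q), UnifAt (V i) t ∧
        UnitAt (V i) (algebraMap (RE P E) (FE E (N * q)) w * (t ^ mu q (n + 1) i)⁻¹)) := by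
  have hq := hS.q_prime
  have hqN := dvd_of_stdE835 hS (by omega : 1 ≤ n)
  have hc := hO.lies i (by omega) hi
  obtain ⟨t', ht', hu'⟩ := hL.val.ram (i - 1) (by omega)
  -- residue characteristic
  have hw' : algebraMap (RE P E) (FE E N) w ∈ (V' (i - 1)).nonunits :=
    mem_nonunits_of_ram835 (mu_pos835 hq n (i - 1)) ht' hu'
  have hq' : ((q : ℕ) : FE E N) ∈ (V' (i - 1)).nonunits :=
    natCast_nonunits835 hS (hL.sheet.base (i - 1) (by omega)) hw'
  have hqV : ((q : ℕ) : FE E (N * q)) ∈ (V i).nonunits := by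
    have := nonunits_map835 (αE E N q : FE E N →+* FE E (N * q)) hc hq'
    rwa [map_natCast] at this
  have hnp : ∀ a : FE E N, a ∈ V' (i - 1) → a ^ q - jLev E N q n ∉ (V' (i - 1)).nonunits :=
    hL.wit.wit_hi (i - 1) (by omega) (by omega)
  obtain ⟨hon, hins, hun, -, -, -⟩ := insep_along835 q (αE E N q) (fin_alpha835 hq hqN)
    (deg_alpha835 hq hqN) hq hc (hL.val.dvr (i - 1) (by omega)) ht' hqV hz₀ hzc hnp
  refine ⟨hon, hins, αE E N q t', hun, ?_⟩
  have hu'' := mult_insep835 (αE E N q : FE E N →+* FE E (N * q)) hc hu'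
  have hαw : (αE E N q : FE E N →+* FE E (N * q)) (algebraMap (RE P E) (FE E N) w) =
      algebraMap (RE P E) (FE E (N * q)) w := alpha_w835 w
  rw [hαw] at hu''
  rw [mu_insep835 q (by omega) hi h2i]
  exact hu''

/-- The witness of inseparability from the Kronecker pattern of the upper level. -/
theorem insepWit_of_kron835 (hS : StdE P E N q n w)
    (hK : PartKronE q (n + 1) (jLev E (N * q) q) V) {i : ℕ} (h1 : 1 ≤ i) (hi : i ≤ n + 1) :
    jLev E (N * q) q (n + 1) ∈ V i ∧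
      jLev E (N * q) q (n + 1) ^ q - αE E N q (jLev E N q n) ∈ (V i).nonunits := by
  refine ⟨(hK.unit i hi (n + 1) le_rfl).2.1, ?_⟩
  have hαJ : αE E N q (jLev E N q n) = jLev E (N * q) q n :=
    alpha_jLev835 n (pow_dvd_of_stdE835 hS le_rfl)
  rw [hαJ]
  have h := hK.ver i hi n (by omega) (by omega)
  have e : jLev E (N * q) q (n + 1) ^ q - jLev E (N * q) q n =
      -(jLev E (N * q) q n - jLev E (N * q) q (n + 1) ^ q) := by ring
  rw [e]
  exact (V i).nonunits.neg_mem h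

/-- **The row `i`, `2 ≤ i`, `n + 1 < 2 i`, type INSEP**, from the Kronecker pattern of the upper
level and the lower `wit_hi`. -/
theorem insepRow835 (hS : StdE P E N q n w) (hn : 2 ≤ n) (hL : LevelCtx P E N q n w V' W')
    (hO : ObjsE P E N q n V' V W) (hK : PartKronE q (n + 1) (jLev E (N * q) q) V)
    {i : ℕ} (h2 : 2 ≤ i) (hi : i ≤ n + 1) (h2i : n + 1 < 2 * i) :
    (∀ U : ValuationSubring (FE E (N * q)),
        U.comap (αE E N q : FE E N →+* FE E (N * q)) = V' (i - 1) → U = V i) ∧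
      (∀ f ∈ V i, ∃ g ∈ V' (i - 1), f ^ q - αE E N q g ∈ (V i).nonunits) ∧
      (∃ t : FE E (N * q), UnifAt (V i) t ∧
        UnitAt (V i) (algebraMap (RE P E) (FE E (N * q)) w * (t ^ mu q (n + 1) i)⁻¹)) :=
  insepRow_core835 hS hn hL hO h2 hi h2i (insepWit_of_kron835 hS hK (by omega) hi).1
    (insepWit_of_kron835 hS hK (by omega) hi).2

end Concrete

end Fermat.Agent.S45.ModE.H835

end

end
-- ===== PACK-END S45/ModE/H835/Rows.lean

-- ===== PACK-BEGIN S45/ModE/H403/GoodE.lean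
section







/-!
# S45 / CAR3 / MOD-E — leaf GOOD-E (helper403)

`leafGoodE_of : LeafValE → LeafTableE → LeafKronE → LeafGoodE`.

At the upper level `N q` (exponent `e = n + 1`) the component `V i` is

* `α`-good for `2 ≤ i ≤ e`:  `V i` is the only extension of `V' (i - 1)` along `α`;
  - `2 i ≤ e`  (WILD, `(e, f) = (q, 1)`): the multiplicities `mu q e i = q · mu q n (i - 1)` of
    VAL-E (upper) and of the lower level give `v (α t') = v (T) ^ q` for uniformisers `T`, `t'`;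
    then `S45.H253.eng_wild_table` (helper253);
  - `2 i > e`  (INSEP, `(e, f) = (1, q)`): the witness `z₀ = J e`, `c₀ = J' n` (`J e ^ q ≡ J n = α (J' n)`
    on `V i` by KRON-E `ver`; `J' n` is not a `q`-th power modulo `𝔪_{V' (i - 1)}` by the lower
    `wit_hi`); then `S45.H253.eng_insep_table1`;
* `β`-good for `i + 2 ≤ e`:  mirror image (`e ≤ 2 i` WILD; `2 i < e` INSEP with the witness
  `z₀ = J 0`, `c₀ = J' 0`, `J 0 ^ q ≡ J 1 = β (J' 0)` by KRON-E `frob`, lower `wit_lo`).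

Degrees: `[F : α F'] = q` (`S37.H818.finrankAlong_heckeAlphaBar'`), `[F : β F'] = q` (Fricke).
-/

set_option autoImplicit false
set_option linter.style.haveILetI false
set_option linter.unusedSectionVars false
set_option linter.unusedVariables false
set_option synthInstance.maxHeartbeats 400000
set_option maxHeartbeats 1600000

noncomputable section

namespace Fermat.Agent.S45.ModE.H403

open ModularCurve AlgebraicCurve
open Fermat.Agent.A2.Mod
open Fermat.Agent.S36.Eng (UnitAt UnifAt)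
open Fermat.Agent.S29.H395 (normAlong)

/-! ## Index arithmetic -/

section Mu

theorem mu_pos {q : ℕ} (hq : q.Prime) (e i : ℕ) : 0 < mu q e i := by
  unfold mu
  exact Nat.totient_pos.2 (pow_pos hq.pos _)

/-- Along `α`, wild type: `mu q (n + 1) i = q · mu q n (i - 1)` for `2 ≤ i`, `2 i ≤ n + 1`. -/
theorem mu_alpha_wild {q : ℕ} (hq : q.Prime) {n i : ℕ} (hi2 : 2 ≤ i) (hi : 2 * i ≤ n + 1) :
    mu q (n + 1) i = q * mu q n (i - 1) := by
  unfold mu
  have h1 : min i (n + 1 - i) = (i - 2) + 1 + 1 := by omega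
  have h2 : min (i - 1) (n - (i - 1)) = (i - 2) + 1 := by omega
  rw [h1, h2, Nat.totient_prime_pow_succ hq, Nat.totient_prime_pow_succ hq, pow_succ]
  ring

/-- Along `β`, wild type: `mu q (n + 1) i = q · mu q n i` for `i + 2 ≤ n + 1`, `n + 1 ≤ 2 i`. -/
theorem mu_beta_wild {q : ℕ} (hq : q.Prime) {n i : ℕ} (hi2 : i + 2 ≤ n + 1)
    (hi : n + 1 ≤ 2 * i) : mu q (n + 1) i = q * mu q n i := by
  unfold mu
  have h1 : min i (n + 1 - i) = (n - i - 1) + 1 + 1 := by omega
  have h2 : min i (n - i) = (n - i - 1) + 1 := by omega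
  rw [h1, h2, Nat.totient_prime_pow_succ hq, Nat.totient_prime_pow_succ hq, pow_succ]
  ring

end Mu

/-! ## The abstract steps -/

section Abs

variable {E F F' : Type*} [Field E] [Field F] [Algebra E F] [Field F'] [Algebra E F']

theorem val_eq_pow_of_unitAt {V : ValuationSubring F} {w t : F} {μ : ℕ} (ht0 : t ≠ 0)
    (h : UnitAt V (w * (t ^ μ)⁻¹)) : V.valuation w = V.valuation t ^ μ := by
  have h1 : V.valuation (w * (t ^ μ)⁻¹) = 1 := by
    have ha : V.valuation (w * (t ^ μ)⁻¹) ≤ 1 := (V.valuation_le_one_iff _).2 h.2.1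
    have hb : V.valuation (w * (t ^ μ)⁻¹)⁻¹ ≤ 1 := (V.valuation_le_one_iff _).2 h.2.2
    rw [map_inv₀] at hb
    have hpos : 0 < V.valuation (w * (t ^ μ)⁻¹) := by
      rw [Valuation.pos_iff]
      exact h.1
    exact le_antisymm ha ((inv_le_one₀ hpos).1 hb)
  rw [map_mul, map_inv₀, map_pow] at h1
  have ht : V.valuation t ≠ 0 := by
    rw [Ne, Valuation.zero_iff]
    exact ht0
  have h0 : V.valuation t ^ μ ≠ 0 := pow_ne_zero _ ht
  calc V.valuation w = V.valuation w * (V.valuation t ^ μ)⁻¹ * V.valuation t ^ μ := by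
        rw [inv_mul_cancel_right₀ h0]
    _ = V.valuation t ^ μ := by rw [h1, one_mul]

/-- A unit below is a unit above. -/
theorem unitAt_map (φ : F' →ₐ[E] F) {V : ValuationSubring F} {V' : ValuationSubring F'}
    (hc : V.comap (φ : F' →+* F) = V') {y : F'} (hy : UnitAt V' y) : UnitAt V (φ y) := by
  obtain ⟨h0, h1, h2⟩ := hy
  rw [← hc] at h1 h2
  refine ⟨(map_ne_zero φ).2 h0, h1, ?_⟩
  have h3 : φ y⁻¹ ∈ V := h2
  rwa [map_inv₀] at h3

/-- **The relation of the uniformisers** from the multiplicities: `μ = k μ'` ⟹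
`v (φ t') = v (T) ^ k`. -/
theorem val_unif_of_ram (φ : F' →ₐ[E] F) {V : ValuationSubring F} {V' : ValuationSubring F'}
    (hc : V.comap (φ : F' →+* F) = V') {wF : F} {wF' : F'} (hw : φ wF' = wF)
    {T : F} {t' : F'} (hT0 : T ≠ 0) (ht'0 : t' ≠ 0) {μ μ' k : ℕ} (hμ' : 0 < μ')
    (hμ : μ = k * μ') (hram : UnitAt V (wF * (T ^ μ)⁻¹))
    (hram' : UnitAt V' (wF' * (t' ^ μ')⁻¹)) :
    V.valuation (φ t') = V.valuation T ^ k := by
  have h1 : V.valuation wF = V.valuation T ^ μ := val_eq_pow_of_unitAt hT0 hram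
  have h2 : V.valuation wF = V.valuation (φ t') ^ μ' := by
    have h3 := unitAt_map φ hc hram'
    rw [map_mul, map_inv₀, map_pow, hw] at h3
    exact val_eq_pow_of_unitAt ((map_ne_zero φ).2 ht'0) h3
  have h4 : (V.valuation T ^ k) ^ μ' = V.valuation (φ t') ^ μ' := by
    rw [← pow_mul, ← hμ, ← h1, h2]
  exact ((pow_left_inj₀ zero_le zero_le hμ'.ne').1 h4).symm

/-- `GoodAlong` from the table of helper253. -/
theorem goodAlong_of_oneTable {q : ℕ} {φ : F' →ₐ[E] F} {V : ValuationSubring F}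
    {V' : ValuationSubring F'} {t : F} {t' : F'} {k : ℕ}
    (H : Fermat.Agent.S45.H253.OneTable q φ V V' t t' k) : GoodAlong q φ V := by
  intro y hy
  rw [ValuationSubring.mem_nonunits_iff, ← div_eq_mul_inv]
  exact H.good y hy

/-- **The WILD step**: `V` over the discrete valuation ring `V'` along `φ` of degree `q`, with
multiplicities `μ = q μ'` of a common element `w`. -/
theorem goodAlong_wild {q : ℕ} (hq : q.Prime) (φ : F' →ₐ[E] F)
    (hdeg : finrankAlong E φ = q)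
    {V : ValuationSubring F} {V' : ValuationSubring F'}
    (hc : V.comap (φ : F' →+* F) = V') (hdvr' : IsDiscreteValuationRing V')
    (hqV : (q : F) ∈ V.nonunits) {wF : F} {wF' : F'} (hw : φ wF' = wF)
    {T : F} {t' : F'} (hT : UnifAt V T) (ht' : UnifAt V' t') {μ μ' : ℕ} (hμ' : 0 < μ')
    (hμ : μ = q * μ') (hram : UnitAt V (wF * (T ^ μ)⁻¹))
    (hram' : UnitAt V' (wF' * (t' ^ μ')⁻¹)) : GoodAlong q φ V := by
  have hfin : FiniteAlong E φ :=
    Fermat.Agent.S36.Mod3.H657.finiteAlong_of_pos φ (by rw [hdeg]; exact hq.pos)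
  have hv := val_unif_of_ram φ hc hw hT.1 ht'.1 hμ' hμ hram hram'
  exact goodAlong_of_oneTable
    (Fermat.Agent.S45.H253.eng_wild_table q φ hfin hdeg hq hc hdvr' ht' hqV hT.2.1 hv).1

/-- **The INSEP step**: `V` over the discrete valuation ring `V'` along `φ` of degree `q`, with a
witness of inseparability. -/
theorem goodAlong_insep {q : ℕ} (hq : q.Prime) (φ : F' →ₐ[E] F)
    (hdeg : finrankAlong E φ = q)
    {V : ValuationSubring F} {V' : ValuationSubring F'}
    (hc : V.comap (φ : F' →+* F) = V') (hdvr' : IsDiscreteValuationRing V')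
    (hqV : (q : F) ∈ V.nonunits) {t' : F'} (ht' : UnifAt V' t')
    {z₀ : F} {c₀ : F'} (hz₀ : z₀ ∈ V) (hzc : z₀ ^ q - φ c₀ ∈ V.nonunits)
    (hnp : ∀ a : F', a ∈ V' → a ^ q - c₀ ∉ V'.nonunits) : GoodAlong q φ V := by
  have hfin : FiniteAlong E φ :=
    Fermat.Agent.S36.Mod3.H657.finiteAlong_of_pos φ (by rw [hdeg]; exact hq.pos)
  exact goodAlong_of_oneTable
    (Fermat.Agent.S45.H253.eng_insep_table1 q φ hfin hdeg hq hc hdvr' ht' hqV hz₀ hzc hnp)

/-- `a - b ∈ 𝔪 ⟹ b - a ∈ 𝔪`. -/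
theorem sub_comm_mem_nonunits {V : ValuationSubring F} {a b : F} (h : a - b ∈ V.nonunits) :
    b - a ∈ V.nonunits := by
  rw [ValuationSubring.mem_nonunits_iff] at h ⊢
  rwa [← Valuation.map_neg, neg_sub]

/-- The residue characteristic: `q ∈ 𝔪_R`, `R ⊆ V`, `w = unit · t ^ μ` at `V` with `μ > 0`
⟹ `q ∈ 𝔪_V`. -/
theorem natCast_mem_nonunits_of_ram {R : Type*} [CommRing R] [IsDomain R]
    [IsDiscreteValuationRing R] [Algebra R F] {w : R} (hw : Irreducible w) {q : ℕ}
    (hqR : (q : R) ∈ IsLocalRing.maximalIdeal R) {V : ValuationSubring F}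
    (hbase : ∀ r : R, algebraMap R F r ∈ V) {t : F} {μ : ℕ} (hμ : 0 < μ) (ht : UnifAt V t)
    (hram : UnitAt V (algebraMap R F w * (t ^ μ)⁻¹)) : ((q : ℕ) : F) ∈ V.nonunits := by
  have hdvd : w ∣ (q : R) := by
    rw [(IsDiscreteValuationRing.irreducible_iff_uniformizer w).1 hw] at hqR
    exact Ideal.mem_span_singleton.1 hqR
  obtain ⟨r, hr⟩ := hdvd
  have h1 : ((q : ℕ) : F) = algebraMap R F w * algebraMap R F r := by
    rw [← map_mul, ← hr, map_natCast]
  have hwv : V.valuation (algebraMap R F w) < 1 := by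
    rw [val_eq_pow_of_unitAt ht.1 hram]
    exact pow_lt_one₀ zero_le ((ValuationSubring.mem_nonunits_iff _).1 ht.2.1) hμ.ne'
  rw [ValuationSubring.mem_nonunits_iff, h1, map_mul]
  have h2 : V.valuation (algebraMap R F r) ≤ 1 := (V.valuation_le_one_iff _).2 (hbase r)
  calc V.valuation (algebraMap R F w) * V.valuation (algebraMap R F r)
      ≤ V.valuation (algebraMap R F w) * 1 := by gcongr
    _ = V.valuation (algebraMap R F w) := mul_one _
    _ < 1 := hwv

end Abs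

/-! ## The concrete inputs -/

section Concrete

variable {P : ValuationSubring Qb} {E : IntermediateField ℚ Qb} {N q : ℕ}
  [NeZero N] [NeZero q] [NeZero (N * q)]

/-- `[F_{Nq} : α F_N] = q` for `q ∣ N`. -/
theorem deg_alpha (hq : q.Prime) (hqN : q ∣ N) : finrankAlong E (αE E N q) = q := by
  have h := Fermat.Agent.S37.H818.finrankAlong_heckeAlphaBar' (L := E) N q hq
  rw [if_pos hqN] at h
  exact h

/-- `[F_{Nq} : β F_N] = q` for `q ∣ N` (Fricke transport). -/
theorem deg_beta (hq : q.Prime) (hqN : q ∣ N) {W' : FE E N ≃ₐ[E] FE E N}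
    {W : FE E (N * q) ≃ₐ[E] FE E (N * q)}
    (hW' : IsFricke E N W') (hW : IsFricke E (N * q) W) :
    finrankAlong E (βE E N q) = q := by
  refine ((Fermat.Agent.S36.Mod3.H657.finrankAlong_eq_of_equiv (αE E N q) (βE E N q)
    W'.toRingEquiv W.toRingEquiv fun f => ?_).symm).trans (deg_alpha (E := E) hq hqN)
  exact ((H751.frickeCompat E N q W' W hW' hW f).1).symm

theorem jE_congr {d d' : ℕ} [NeZero d] [NeZero d'] (h : d = d') (hd : d ∣ N) (hd' : d' ∣ N) :
    jE E N d hd = jE E N d' hd' := by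
  subst h
  rfl

/-- `α (J' l) = J l`. -/
theorem alpha_jLev {l : ℕ} (hl : q ^ l ∣ N) :
    αE E N q (jLev E N q l) = jLev E (N * q) q l := by
  have hl' : q ^ l ∣ N * q := hl.trans (dvd_mul_right N q)
  unfold jLev
  rw [dif_pos hl, dif_pos hl']
  exact H553.αE_jE E N q (q ^ l) hl

/-- `β (J' l) = J (l + 1)`. -/
theorem beta_jLev {l : ℕ} (hl : q ^ l ∣ N) :
    βE E N q (jLev E N q l) = jLev E (N * q) q (l + 1) := by
  have hl' : q ^ (l + 1) ∣ N * q := by
    rw [pow_succ]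
    exact mul_dvd_mul_right hl q
  unfold jLev
  rw [dif_pos hl, dif_pos hl']
  haveI : NeZero (q ^ l * q) := ⟨mul_ne_zero (NeZero.ne _) (NeZero.ne q)⟩
  rw [H553.βE_jE E N q (q ^ l) hl]
  exact jE_congr (pow_succ q l).symm _ _

/-! ## The leaf -/

/-- **GOOD-E at the concrete objects**, from VAL-E, TABLE-E, KRON-E of the upper level and the
absolute context of the lower level. -/
theorem partGoodE_of {n : ℕ} {w : RE P E} (hS : StdE P E N q n w) (hn : 2 ≤ n)
    {V' : ℕ → ValuationSubring (FE E N)} {V : ℕ → ValuationSubring (FE E (N * q))}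
    {W' : FE E N ≃ₐ[E] FE E N} {W : FE E (N * q) ≃ₐ[E] FE E (N * q)}
    (hL : LevelCtx P E N q n w V' W') (hO : ObjsE P E N q n V' V W)
    (hVal : PartValE (R := RE P E) w q (n + 1) (xLev E (N * q) q (n + 1)) V)
    (hTab : PartTableE n (αE E N q) (βE E N q) V V')
    (hKron : PartKronE q (n + 1) (jLev E (N * q) q) V) :
    PartGoodE q n (αE E N q) (βE E N q) V := by
  have hq : q.Prime := hS.q_prime
  have hN0 : N ≠ 0 := NeZero.ne N
  have hpow : ∀ l ≤ n, q ^ l ∣ N := fun l hl =>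
    (hq.pow_dvd_iff_le_factorization hN0).2 (by rw [hS.exp]; exact hl)
  have hqN : q ∣ N := by
    have := hpow 1 (by omega)
    rwa [pow_one] at this
  haveI hdvrR : IsDiscreteValuationRing (RE P E) := hS.unram.1.dvr
  have hqR : ((q : ℕ) : RE P E) ∈ IsLocalRing.maximalIdeal (RE P E) :=
    Fermat.Agent.S36.Eng.natCast_mem_maximalIdeal_RE E hS.lies_over
  have degα : finrankAlong E (αE E N q) = q := deg_alpha (E := E) hq hqN
  have degβ : finrankAlong E (βE E N q) = q := deg_beta hq hqN hL.fricke hO.fricke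
  have hαw : αE E N q (algebraMap (RE P E) (FE E N) w)
      = algebraMap (RE P E) (FE E (N * q)) w :=
    Fermat.Agent.S36.H253.along_algebraMap _ w
  have hβw : βE E N q (algebraMap (RE P E) (FE E N) w)
      = algebraMap (RE P E) (FE E (N * q)) w :=
    Fermat.Agent.S36.H253.along_algebraMap _ w
  -- the residue characteristic of the lower sheets
  have hq' : ∀ j ≤ n, ((q : ℕ) : FE E N) ∈ (V' j).nonunits := by
    intro j hj
    obtain ⟨t, ht, hr⟩ := hL.val.ram j hj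
    exact natCast_mem_nonunits_of_ram hS.unif hqR (hL.sheet.base j hj) (mu_pos hq n j) ht hr
  refine ⟨?_, ?_⟩
  · -- along `α`
    intro i hi2 hi
    have hc : (V i).comap (αE E N q : FE E N →+* FE E (N * q)) = V' (i - 1) :=
      hTab.comap_α i (by omega) hi
    have hqV : ((q : ℕ) : FE E (N * q)) ∈ (V i).nonunits := by
      have h1 := hq' (i - 1) (by omega)
      rw [← hc, Fermat.Agent.S36.Mod3.H657.mem_nonunits_comap] at h1
      have h2 : (αE E N q : FE E N →+* FE E (N * q)) ((q : ℕ) : FE E N)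
          = ((q : ℕ) : FE E (N * q)) := map_natCast _ q
      rwa [h2] at h1
    obtain ⟨t', ht', hr'⟩ := hL.val.ram (i - 1) (by omega)
    have hdvr' : IsDiscreteValuationRing (V' (i - 1)) := hL.val.dvr (i - 1) (by omega)
    by_cases hw : 2 * i ≤ n + 1
    · obtain ⟨T, hT, hr⟩ := hVal.ram i hi
      exact goodAlong_wild hq (αE E N q) degα hc hdvr' hqV hαw hT ht' (mu_pos hq n (i - 1))
        (mu_alpha_wild hq hi2 hw) hr hr'
    · have hz₀ : jLev E (N * q) q (n + 1) ∈ V i := (hKron.unit i hi (n + 1) le_rfl).2.1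
      have hver := hKron.ver i hi n (by omega) (by omega)
      have hzc : jLev E (N * q) q (n + 1) ^ q - αE E N q (jLev E N q n) ∈ (V i).nonunits := by
        rw [alpha_jLev (hpow n le_rfl)]
        exact sub_comm_mem_nonunits hver
      have hnp : ∀ a : FE E N, a ∈ V' (i - 1) → a ^ q - jLev E N q n ∉ (V' (i - 1)).nonunits :=
        hL.wit.wit_hi (i - 1) (by omega) (by omega)
      exact goodAlong_insep hq (αE E N q) degα hc hdvr' hqV ht' hz₀ hzc hnp
  · -- along `β`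
    intro i hi2
    have hc : (V i).comap (βE E N q : FE E N →+* FE E (N * q)) = V' i :=
      hTab.comap_β i (by omega)
    have hqV : ((q : ℕ) : FE E (N * q)) ∈ (V i).nonunits := by
      have h1 := hq' i (by omega)
      rw [← hc, Fermat.Agent.S36.Mod3.H657.mem_nonunits_comap] at h1
      have h2 : (βE E N q : FE E N →+* FE E (N * q)) ((q : ℕ) : FE E N)
          = ((q : ℕ) : FE E (N * q)) := map_natCast _ q
      rwa [h2] at h1
    obtain ⟨t', ht', hr'⟩ := hL.val.ram i (by omega)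
    have hdvr' : IsDiscreteValuationRing (V' i) := hL.val.dvr i (by omega)
    by_cases hw : n + 1 ≤ 2 * i
    · obtain ⟨T, hT, hr⟩ := hVal.ram i (by omega)
      exact goodAlong_wild hq (βE E N q) degβ hc hdvr' hqV hβw hT ht' (mu_pos hq n i)
        (mu_beta_wild hq hi2 hw) hr hr'
    · have hz₀ : jLev E (N * q) q 0 ∈ V i := (hKron.unit i (by omega) 0 (Nat.zero_le _)).2.1
      have hfrob := hKron.frob i (by omega) 0 (by omega)
      have hzc : jLev E (N * q) q 0 ^ q - βE E N q (jLev E N q 0) ∈ (V i).nonunits := by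
        rw [beta_jLev (hpow 0 (Nat.zero_le _))]
        exact sub_comm_mem_nonunits hfrob
      have hnp : ∀ a : FE E N, a ∈ V' i → a ^ q - jLev E N q 0 ∉ (V' i).nonunits :=
        hL.wit.wit_lo i (by omega) (by omega)
      exact goodAlong_insep hq (βE E N q) degβ hc hdvr' hqV ht' hz₀ hzc hnp

end Concrete

/-- **Leaf GOOD-E** from the leaves VAL-E, TABLE-E, KRON-E. -/
theorem leafGoodE_of (hVal : LeafValE) (hTab : LeafTableE) (hKron : LeafKronE) : LeafGoodE :=
  fun P E N q _ _ _ n w hS hn V' V W' W hL hO =>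
    partGoodE_of hS hn hL hO (hVal P E N q n w hS hn V' V W' W hL hO)
      (hTab P E N q n w hS hn V' V W' W hL hO) (hKron P E N q n w hS hn V' V W' W hL hO)

end Fermat.Agent.S45.ModE.H403

end

end
-- ===== PACK-END S45/ModE/H403/GoodE.lean

-- ===== PACK-BEGIN S45/ModE/H492/WitInf.lean
section




/-!
# S45 / MOD-E — WIT at the Gauss valuation `V∞` (helper492)

`V∞` = Gauss valuation ring of the `t`-expansion at ANY level `N` (`A2.Mod.IsVinf`), residue
characteristic `q`.  For `d ∣ N` with `q ∤ d` the generator `j_d = j(t^d)` is NOT a `q`-th power in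
the residue field of `V∞`:

    witInf492 :  ∀ y ∈ V∞,  y ^ q - j_d ∉ 𝔪_{V∞}.

Proof: write `y = U₁ / U₂` with integral series, `U₂` primitive.  If `y ^ q ≡ j_d` then
`(red U₁) ^ q = j̄_d · (red U₂) ^ q` in `k((t))`, so `j̄_d` is a `q`-th power in `k((t))`; but in
characteristic `q` a `q`-th power has no term `t ^ n` with `q ∤ n`, and `j̄_d = t ^ (-d) + …`.

Use: base case of the invariant `wit` of `ModE.LevelCtx` (`V 0 = V∞`: `d = 1`; `V e = V∞ ∘ W`:
`W (j_{q^e}) = j_{N / q^e}`, `d = N / q ^ e` prime to `q`).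
-/

set_option autoImplicit false
set_option linter.style.haveILetI false
set_option linter.unusedSectionVars false
set_option synthInstance.maxHeartbeats 400000
set_option maxHeartbeats 1600000

noncomputable section

namespace Fermat.Agent.S45.ModE.H492

open ModularCurve HahnSeries
open Fermat.Agent.A2.Mod (FE RE jE IsVinf)
open Fermat.Agent.A2.H708 (incl red castA jInt incl_injective)

/-! ### `q`-th powers in `k((t))`, characteristic `q` -/

/-- In characteristic `q` a `q`-th power in `k((t))` has no term `t ^ n` with `q ∤ n`. -/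
theorem coeff_pow_char_of_not_dvd492 {k : Type*} [Field k] (q : ℕ) [Fact q.Prime] [CharP k q]
    [NeZero q] (s : LaurentSeries k) {n : ℤ} (hn : ¬ (q : ℤ) ∣ n) : (s ^ q).coeff n = 0 := by
  rw [Fermat.Agent.S35.G.H516.pow_eq_qExpand_frob q s]
  exact qExpand_coeff_of_not_dvd q _ hn

/-- If `a ^ q = J · b ^ q` in `k((t))` with `b ≠ 0`, then `J` has no term `t ^ n`, `q ∤ n`. -/
theorem coeff_eq_zero_of_pow_eq492 {k : Type*} [Field k] (q : ℕ) [Fact q.Prime] [CharP k q]
    [NeZero q] {a b J : LaurentSeries k} (hb : b ≠ 0) (h : a ^ q = J * b ^ q) {n : ℤ}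
    (hn : ¬ (q : ℤ) ∣ n) : J.coeff n = 0 := by
  have hJ : J = (a * b⁻¹) ^ q := by
    rw [mul_pow, h, mul_assoc, ← mul_pow, mul_inv_cancel₀ hb, one_pow, mul_one]
  rw [hJ]
  exact coeff_pow_char_of_not_dvd492 q _ hn

/-! ### the series `j(t^d)` modulo `q` -/

/-- the coefficient of `t ^ (-d)` in `j(t^d)` is `1` (integral form). -/
theorem coeff_jInt_neg492 (d : ℕ) [NeZero d] : (jInt d).coeff (-(d : ℤ)) = 1 := by
  have h : (-(d : ℤ)) = (d : ℤ) * (-1) := by ring
  rw [jInt, jqNModC, h, qExpand_coeff_mul, coeff_jqModC_neg_one]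

variable {P : ValuationSubring Fermat.Agent.A2.Qb} {E : IntermediateField ℚ Fermat.Agent.A2.Qb}

/-- the coefficient of `t ^ (-d)` in the reduction of `j(t^d)` is `1`. -/
theorem coeff_red_jInt_neg492 (d : ℕ) [NeZero d] :
    (red (RE P E) (castA (RE P E) (jInt d))).coeff (-(d : ℤ)) = 1 := by
  rw [red, castA, coeffMap_coeff, coeffMap_coeff, coeff_jInt_neg492]
  simp

/-! ### nonunits of `V∞` -/

/-- A nonunit of `V∞` has a Gauss representation with numerator `≡ 0`. -/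
theorem red_num_eq_zero_of_mem_nonunits492 {N : ℕ} {V : ValuationSubring (FE E N)}
    (hV : IsVinf P E N V) {z : FE E N} (hz : z ∈ V.nonunits)
    {Z₁ Z₂ : LaurentSeries (RE P E)}
    (hZ₂F : incl (RE P E) Z₂ ∈ laurentBaseChange E (modularFunctionFieldFull N))
    (hzZ : (z : LaurentSeries E) * incl (RE P E) Z₂ = incl (RE P E) Z₁) :
    red (RE P E) Z₁ = 0 := by
  by_contra hne
  have hz0 : z ≠ 0 := by
    intro h0
    apply hne
    rw [h0] at hzZ
    have h1 : incl (RE P E) Z₁ = 0 := by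
      rw [← hzZ]
      simp
    have h2 : Z₁ = 0 := incl_injective (RE P E) (by rw [h1, map_zero])
    rw [h2, map_zero]
  have hZ₁F : incl (RE P E) Z₁ ∈ laurentBaseChange E (modularFunctionFieldFull N) := by
    rw [← hzZ]
    exact mul_mem z.2 hZ₂F
  have hinv : z⁻¹ ∈ V := by
    rw [hV]
    refine ⟨Z₂, Z₁, hne, hZ₁F, ?_⟩
    have hzL : (z : LaurentSeries E) ≠ 0 := fun h => hz0 (Subtype.ext h)
    have hc : ((z⁻¹ : FE E N) : LaurentSeries E) = (z : LaurentSeries E)⁻¹ := rfl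
    rw [hc, ← hzZ, ← mul_assoc, inv_mul_cancel₀ hzL, one_mul]
  have h1 : V.valuation z < 1 := (ValuationSubring.mem_nonunits_iff V).mp hz
  have h2 : V.valuation z⁻¹ ≤ 1 := (ValuationSubring.valuation_le_one_iff V _).mpr hinv
  have hpos : 0 < V.valuation z := zero_lt_iff.mpr ((Valuation.ne_zero_iff _).mpr hz0)
  have h5 : 1 < V.valuation z⁻¹ := by
    rw [map_inv₀]
    exact (one_lt_inv₀ hpos).mpr h1
  exact absurd h2 (not_le.mpr h5)

/-- **WIT at `V∞`**: for `q ∤ d` the generator `j_d` is not a `q`-th power modulo `𝔪_{V∞}`. -/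
theorem witInf492 {q : ℕ} [NeZero q] (hq : q.Prime) (hP : P.LiesOverPrime q) {N : ℕ}
    {V : ValuationSubring (FE E N)} (hV : IsVinf P E N V) (d : ℕ) [NeZero d] (hd : d ∣ N)
    (hqd : ¬ q ∣ d) (y : FE E N) (hy : y ∈ V) :
    y ^ q - jE E N d hd ∉ V.nonunits := by
  intro hz
  haveI : Fact q.Prime := ⟨hq⟩
  haveI : CharP (IsLocalRing.ResidueField (RE P E)) q :=
    Fermat.Agent.S35.G.H516.charP_residueField_RE P E hq hP
  have hzV : y ^ q - jE E N d hd ∈ V := V.nonunits_le hz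
  obtain ⟨U₁, U₂, hU₂, -, hyU⟩ := (hV y).mp hy
  obtain ⟨Z₁, Z₂, hZ₂, hZ₂F, hzZ⟩ := (hV _).mp hzV
  have hZ₁ : red (RE P E) Z₁ = 0 := red_num_eq_zero_of_mem_nonunits492 hV hz hZ₂F hzZ
  -- the coercion of `z`
  have hj : ((jE E N d hd : FE E N) : LaurentSeries E)
      = incl (RE P E) (castA (RE P E) (jInt d)) := by
    rw [Fermat.Agent.S36.H816.coe_jE_eq_jser, Fermat.Agent.A2.Mod.H378.jser_eq_incl]
  have hzc : ((y ^ q - jE E N d hd : FE E N) : LaurentSeries E)
      = (y : LaurentSeries E) ^ q - incl (RE P E) (castA (RE P E) (jInt d)) := by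
    rw [← hj]
    rfl
  rw [hzc] at hzZ
  -- the identity over `R((t))`
  have key : (U₁ ^ q - castA (RE P E) (jInt d) * U₂ ^ q) * Z₂ = Z₁ * U₂ ^ q := by
    apply incl_injective (RE P E)
    rw [map_mul, map_sub, map_mul, map_pow, map_pow, map_mul, map_pow, ← hyU, ← hzZ]
    ring
  have hred := congrArg (red (RE P E)) key
  rw [map_mul, map_sub, map_mul, map_pow, map_pow, map_mul, hZ₁, zero_mul] at hred
  have h1 : red (RE P E) U₁ ^ q - red (RE P E) (castA (RE P E) (jInt d)) * red (RE P E) U₂ ^ q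
      = 0 := by
    rcases mul_eq_zero.mp hred with h | h
    · exact h
    · exact absurd h hZ₂
  have h2 : red (RE P E) U₁ ^ q
      = red (RE P E) (castA (RE P E) (jInt d)) * red (RE P E) U₂ ^ q := sub_eq_zero.mp h1
  have hnd : ¬ ((q : ℤ) ∣ (-(d : ℤ))) := by
    rw [Int.dvd_neg]
    exact fun h => hqd (Int.natCast_dvd_natCast.mp h)
  have h3 := coeff_eq_zero_of_pow_eq492 q hU₂ h2 hnd
  rw [coeff_red_jInt_neg492] at h3
  exact one_ne_zero h3

end Fermat.Agent.S45.ModE.H492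

end

end
-- ===== PACK-END S45/ModE/H492/WitInf.lean

-- ===== PACK-BEGIN S45/Reg/H925/FamStep.lean
section



/-!
# S45 / CAR3 / MOD-E / REG — the FAMILY step of the packages, in the indexing of `ModE/Spec`
(helper925, 2nd owner of C8; OFF-MAIN)

Board: `origin/helper878:coord/S45-REG.md` (leaf list v1), sec. 2.  Abstract: charts are arbitrary
subalgebras `B' ⊆ F'`, `B ⊆ F`; the tables and the ramification are the parts `PartTableE`,
`PartValE.ram` of `ModE/Spec`; NO modular arithmetic.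

* `unitAt_of_ram` (leaf A7): `w = unit · t ^ m` above, `w = unit · t' ^ m'` below, `m = r m'`
  ⟹ `φ t' = unit · t ^ r`  (NO discreteness needed: the value group is torsion free);
* `ram_step_α`, `ram_step_β` : the hypothesis `hram` of `unitPkg_step` / `litePkg_step` from
  `PartValE.ram` of the two levels and `ModE.H163` (index arithmetic of `mu`);
* `unitPkg_fam_step` : `UnitPkg` of ALL the non-reduced sheets `V' j`, `1 ≤ j ≤ n - 1`, of the lower
  level ⟹ `UnitPkg` of ALL the non-reduced sheets `V i`, `1 ≤ i ≤ n`, of the upper level: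
    - `2 i < n + 1` : along `β`, `x i = β (x' i)`             (INSEP, `r = 1`);
    - `2 i > n + 1` : along `α`, `x i = α (x' (i - 1))`       (INSEP, `r = 1`);
    - `2 i = n + 1` : along `α`, `x i ^ q = α (x' (i - 1)) (1 + 𝔪)` (WILD, `r = q`; hypothesis
      `hdiag` = the CHAIN CONGRUENCE, leaf A5 + C5);
* `litePkg_fam_step` : the same for `LitePkg` (chart at infinity); extra hypotheses `hmax`
  (contraction of closed points: integrality) and `hξ` (cusps lie over cusps).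
-/

set_option autoImplicit false
set_option linter.unusedSectionVars false
set_option linter.unusedVariables false

namespace Fermat.Agent.S45.Reg.H925

open Fermat.Agent.S36.Eng Fermat.Agent.S45.ModE

/-! ## A7: the ramification index from `ram` -/

section Ram

variable {F F' : Type*} [Field F] [Field F']

/-- **A7.**  `w' = unit · t' ^ m'` at `V'`, `φ w' = unit · t ^ m` at `V`, `V` over `V'` and
`m = r m'`, `0 < m'`  ⟹  `φ t' = unit · t ^ r` at `V`. -/
theorem unitAt_of_ram (φ : F' →+* F) (V : ValuationSubring F) (V' : ValuationSubring F')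
    (hover : V.comap φ = V') (w' t' : F') (t : F) (m' m r : ℕ) (hm' : 0 < m')
    (hm : m = r * m')
    (hw' : UnitAt V' (w' * (t' ^ m')⁻¹)) (hw : UnitAt V (φ w' * (t ^ m)⁻¹))
    (ht0 : t ≠ 0) (ht'0 : t' ≠ 0) : UnitAt V (φ t' * (t ^ r)⁻¹) := by
  have h1 : UnitAt V (φ w' * (φ t' ^ m')⁻¹) := by
    have := hw'
    rw [← hover, unitAt_comap, map_mul, map_inv₀, map_pow] at this
    exact this
  have hφt' : φ t' ≠ 0 := fun h => ht'0 ((map_eq_zero φ).1 h)
  have h2 : UnitAt V ((φ t' * (t ^ r)⁻¹) ^ m') := by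
    have e : (φ t' * (t ^ r)⁻¹) ^ m' = φ w' * (t ^ m)⁻¹ * (φ w' * (φ t' ^ m')⁻¹)⁻¹ := by
      have hw0 : φ w' ≠ 0 := fun h => h1.1 (by rw [h, zero_mul])
      rw [hm, mul_pow, inv_pow, ← pow_mul]
      field_simp
    rw [e]
    exact unitAt_mul _ hw (unitAt_inv _ h1)
  exact unitAt_of_pow V hm' h2

end Ram

/-! ## The family step -/

section Fam

variable {R E F F' : Type*} [CommRing R] [Field E] [Algebra R E]
  [Field F] [Algebra E F] [Algebra R F] [Field F'] [Algebra E F'] [Algebra R F']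

/-- `hram` along `α`, INSEP or WILD: `V i` over `V' (i - 1)`, `2 ≤ i ≤ n`; `r = q` if
`2 i ≤ n + 1`, `r = 1` otherwise. -/
theorem ram_step_α (w : R) {q : ℕ} (hq : q.Prime) (n : ℕ) (α : F' →+* F)
    (hαw : α (algebraMap R F' w) = algebraMap R F w)
    (V : ℕ → ValuationSubring F) (V' : ℕ → ValuationSubring F')
    (comap_α : ∀ i, 1 ≤ i → i ≤ n + 1 → (V i).comap α = V' (i - 1))
    (ram : ∀ i ≤ n + 1, ∃ t : F, UnifAt (V i) t ∧
      UnitAt (V i) (algebraMap R F w * (t ^ mu q (n + 1) i)⁻¹))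
    (ram' : ∀ j ≤ n, ∃ t' : F', UnifAt (V' j) t' ∧
      UnitAt (V' j) (algebraMap R F' w * (t' ^ mu q n j)⁻¹))
    (i : ℕ) (hi : 2 ≤ i) (hin : i ≤ n + 1) :
    ∃ t' t, UnifAt (V' (i - 1)) t' ∧ UnifAt (V i) t ∧
      UnitAt (V i) (α t' * (t ^ (if 2 * i ≤ n + 1 then q else 1))⁻¹) := by
  obtain ⟨t, ht, hw⟩ := ram i hin
  obtain ⟨t', ht', hw'⟩ := ram' (i - 1) (by omega)
  refine ⟨t', t, ht', ht, ?_⟩
  refine unitAt_of_ram α (V i) (V' (i - 1)) (comap_α i (by omega) hin) (algebraMap R F' w) t' t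
    (mu q n (i - 1)) (mu q (n + 1) i) _ (H163.mu_pos163 hq n (i - 1)) ?_ hw'
    (by rw [hαw]; exact hw) ht.1 ht'.1
  split_ifs with h
  · exact H163.mu_wild_α163 hq hi h
  · rw [one_mul]; exact H163.mu_insep_α163 q hi hin (by omega)

/-- `hram` along `β`, INSEP: `V i` over `V' i`, `2 i < n + 1`. -/
theorem ram_step_β (w : R) {q : ℕ} (hq : q.Prime) (n : ℕ) (β : F' →+* F)
    (hβw : β (algebraMap R F' w) = algebraMap R F w)
    (V : ℕ → ValuationSubring F) (V' : ℕ → ValuationSubring F')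
    (comap_β : ∀ i ≤ n, (V i).comap β = V' i)
    (ram : ∀ i ≤ n + 1, ∃ t : F, UnifAt (V i) t ∧
      UnitAt (V i) (algebraMap R F w * (t ^ mu q (n + 1) i)⁻¹))
    (ram' : ∀ j ≤ n, ∃ t' : F', UnifAt (V' j) t' ∧
      UnitAt (V' j) (algebraMap R F' w * (t' ^ mu q n j)⁻¹))
    (i : ℕ) (h2 : 2 * i < n + 1) :
    ∃ t' t, UnifAt (V' i) t' ∧ UnifAt (V i) t ∧ UnitAt (V i) (β t' * (t ^ 1)⁻¹) := by
  obtain ⟨t, ht, hw⟩ := ram i (by omega)
  obtain ⟨t', ht', hw'⟩ := ram' i (by omega)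
  refine ⟨t', t, ht', ht, ?_⟩
  refine unitAt_of_ram β (V i) (V' i) (comap_β i (by omega)) (algebraMap R F' w) t' t
    (mu q n i) (mu q (n + 1) i) 1 (H163.mu_pos163 hq n i) ?_ hw'
    (by rw [hβw]; exact hw) ht.1 ht'.1
  rw [one_mul]; exact H163.mu_insep_β163 q h2

/-- The other sheets along `α`: `V k`, `k ≠ i`, lies over a sheet `V' l`, `l ≠ i - 1`
(`2 ≤ i`). -/
theorem other_α (n : ℕ) (α β : F' →ₐ[E] F) (V : ℕ → ValuationSubring F)
    (V' : ℕ → ValuationSubring F') (htab : PartTableE n α β V V') (i : ℕ) (hi : 2 ≤ i) :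
    ∀ k ≤ n + 1, k ≠ i → ∃ l ≤ n, l ≠ i - 1 ∧ (V k).comap (α : F' →+* F) = V' l := by
  intro k hk hki
  rcases Nat.eq_zero_or_pos k with h0 | hpos
  · subst h0
    exact ⟨0, Nat.zero_le _, by omega, htab.comap_α₀⟩
  · exact ⟨k - 1, by omega, by omega, htab.comap_α k hpos hk⟩

/-- The other sheets along `β`: `V k`, `k ≠ i`, lies over a sheet `V' l`, `l ≠ i`
(`i + 1 ≤ n`). -/
theorem other_β (n : ℕ) (α β : F' →ₐ[E] F) (V : ℕ → ValuationSubring F)
    (V' : ℕ → ValuationSubring F') (htab : PartTableE n α β V V') (i : ℕ) (hi : i + 1 ≤ n) :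
    ∀ k ≤ n + 1, k ≠ i → ∃ l ≤ n, l ≠ i ∧ (V k).comap (β : F' →+* F) = V' l := by
  intro k hk hki
  rcases Nat.lt_or_ge k (n + 1) with h | h
  · exact ⟨k, by omega, hki, htab.comap_β k (by omega)⟩
  · have hkn : k = n + 1 := by omega
    subst hkn
    exact ⟨n, le_rfl, by omega, htab.comap_βₑ⟩

/-- **The family step of `UnitPkg`** (finite charts `B'`, `B`), levels `n → n + 1`, `2 ≤ n`. -/
theorem unitPkg_fam_step (w : R) {q : ℕ} (hq : q.Prime) (n : ℕ) (hn : 2 ≤ n)
    (α β : F' →ₐ[E] F)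
    (hαw : α (algebraMap R F' w) = algebraMap R F w)
    (hβw : β (algebraMap R F' w) = algebraMap R F w)
    (B' : Subalgebra R F') (B : Subalgebra R F)
    (hαB : ∀ b ∈ B', α b ∈ B) (hβB : ∀ b ∈ B', β b ∈ B)
    (V : ℕ → ValuationSubring F) (V' : ℕ → ValuationSubring F')
    (htab : PartTableE n α β V V')
    (ram : ∀ i ≤ n + 1, ∃ t : F, UnifAt (V i) t ∧
      UnitAt (V i) (algebraMap R F w * (t ^ mu q (n + 1) i)⁻¹))
    (ram' : ∀ j ≤ n, ∃ t' : F', UnifAt (V' j) t' ∧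
      UnitAt (V' j) (algebraMap R F' w * (t' ^ mu q n j)⁻¹))
    (hBV : ∀ i ≤ n + 1, ∀ b : B, (b : F) ∈ V i)
    (xT' : ℕ → B') (xT : ℕ → B)
    (hlo : ∀ i, 1 ≤ i → 2 * i < n + 1 → (xT i : F) = β (xT' i))
    (hhi : ∀ i, i ≤ n → n + 1 < 2 * i → (xT i : F) = α (xT' (i - 1)))
    (hdiag : ∀ i, 2 * i = n + 1 →
      ((xT i : F) ^ q - α (xT' (i - 1))) * (α (xT' (i - 1) : F'))⁻¹ ∈ (V i).nonunits)
    (hpkg' : ∀ j, 1 ≤ j → j + 1 ≤ n → _root_.Fermat.Agent.S45.Reg.H925.UnitPkg w B' n V' j (xT' j)) :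
    ∀ i, 1 ≤ i → i + 1 ≤ n + 1 → _root_.Fermat.Agent.S45.Reg.H925.UnitPkg w B (n + 1) V i (xT i) := by
  intro i hi1 hin
  rcases Nat.lt_trichotomy (2 * i) (n + 1) with h | h | h
  · -- along `β`, INSEP
    have hx : xT i = ⟨β (xT' i), hβB _ (xT' i).2⟩ := Subtype.ext (hlo i hi1 h)
    rw [hx]
    obtain ⟨t', t, ht', ht, hu⟩ := ram_step_β w hq n (β : F' →+* F) hβw V V' htab.comap_β ram
      ram' i h
    refine unitPkg_step w (β : F' →+* F) hβw B' B hβB n (n + 1) V' V i i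
      (htab.comap_β i (by omega)) (other_β n α β V V' htab i (by omega)) (hBV i (by omega))
      1 one_pos ⟨t', t, ht', ht, hu⟩ (xT' i) _ ?_ (hpkg' i hi1 (by omega))
    show (β (xT' i : F') ^ 1 - β (xT' i)) * (β (xT' i : F'))⁻¹ ∈ (V i).nonunits
    rw [pow_one, sub_self, zero_mul]
    exact nu_zero _
  · -- the diagonal: along `α`, WILD
    have hi2 : 2 ≤ i := by omega
    obtain ⟨t', t, ht', ht, hu⟩ := ram_step_α w hq n (α : F' →+* F) hαw V V' htab.comap_α ram
      ram' i hi2 (by omega)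
    rw [if_pos (by omega)] at hu
    exact unitPkg_step w (α : F' →+* F) hαw B' B hαB n (n + 1) V' V i (i - 1)
      (htab.comap_α i hi1 (by omega)) (other_α n α β V V' htab i hi2) (hBV i (by omega))
      q hq.pos ⟨t', t, ht', ht, hu⟩ (xT' (i - 1)) (xT i) (hdiag i h)
      (hpkg' (i - 1) (by omega) (by omega))
  · -- along `α`, INSEP
    have hi2 : 2 ≤ i := by omega
    have hx : xT i = ⟨α (xT' (i - 1)), hαB _ (xT' (i - 1)).2⟩ :=
      Subtype.ext (hhi i (by omega) h)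
    rw [hx]
    obtain ⟨t', t, ht', ht, hu⟩ := ram_step_α w hq n (α : F' →+* F) hαw V V' htab.comap_α ram
      ram' i hi2 (by omega)
    rw [if_neg (by omega)] at hu
    refine unitPkg_step w (α : F' →+* F) hαw B' B hαB n (n + 1) V' V i (i - 1)
      (htab.comap_α i hi1 (by omega)) (other_α n α β V V' htab i hi2) (hBV i (by omega))
      1 one_pos ⟨t', t, ht', ht, hu⟩ (xT' (i - 1)) _ ?_ (hpkg' (i - 1) (by omega) (by omega))
    show (α (xT' (i - 1) : F') ^ 1 - α (xT' (i - 1))) * (α (xT' (i - 1) : F'))⁻¹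
      ∈ (V i).nonunits
    rw [pow_one, sub_self, zero_mul]
    exact nu_zero _

/-- **The family step of `LitePkg`** (charts at infinity `B'`, `B`, coordinates `ξ'`, `ξ`),
levels `n → n + 1`, `2 ≤ n`. -/
theorem litePkg_fam_step (w : R) (hw0 : algebraMap R F w ≠ 0) {q : ℕ} (hq : q.Prime)
    (n : ℕ) (hn : 2 ≤ n) (α β : F' →ₐ[E] F)
    (hαw : α (algebraMap R F' w) = algebraMap R F w)
    (hβw : β (algebraMap R F' w) = algebraMap R F w)
    (B' : Subalgebra R F') (B : Subalgebra R F)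
    (hαB : ∀ b ∈ B', α b ∈ B) (hβB : ∀ b ∈ B', β b ∈ B) (ξ' : B') (ξ : B)
    (V : ℕ → ValuationSubring F) (V' : ℕ → ValuationSubring F')
    (htab : PartTableE n α β V V')
    (ram : ∀ i ≤ n + 1, ∃ t : F, UnifAt (V i) t ∧
      UnitAt (V i) (algebraMap R F w * (t ^ mu q (n + 1) i)⁻¹))
    (ram' : ∀ j ≤ n, ∃ t' : F', UnifAt (V' j) t' ∧
      UnitAt (V' j) (algebraMap R F' w * (t' ^ mu q n j)⁻¹))
    (hBV : ∀ i ≤ n + 1, ∀ b : B, (b : F) ∈ V i)
    (hmaxα : ∀ 𝔪 : Ideal B, 𝔪.IsMaximal → ∃ 𝔪' : Ideal B', 𝔪'.IsMaximal ∧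
      ∀ b' : B', b' ∈ 𝔪' ↔ (⟨α b', hαB b' b'.2⟩ : B) ∈ 𝔪)
    (hmaxβ : ∀ 𝔪 : Ideal B, 𝔪.IsMaximal → ∃ 𝔪' : Ideal B', 𝔪'.IsMaximal ∧
      ∀ b' : B', b' ∈ 𝔪' ↔ (⟨β b', hβB b' b'.2⟩ : B) ∈ 𝔪)
    (hξα : ∀ 𝔪 : Ideal B, 𝔪.IsMaximal → ξ ∈ 𝔪 → (⟨α ξ', hαB ξ' ξ'.2⟩ : B) ∈ 𝔪)
    (hξβ : ∀ 𝔪 : Ideal B, 𝔪.IsMaximal → ξ ∈ 𝔪 → (⟨β ξ', hβB ξ' ξ'.2⟩ : B) ∈ 𝔪)
    (xC' : ℕ → B') (xC : ℕ → B)
    (hlo : ∀ i, 1 ≤ i → 2 * i < n + 1 → (xC i : F) = β (xC' i))
    (hhi : ∀ i, i ≤ n → n + 1 < 2 * i → (xC i : F) = α (xC' (i - 1)))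
    (hdiag : ∀ i, 2 * i = n + 1 →
      ((xC i : F) ^ q - α (xC' (i - 1))) * (α (xC' (i - 1) : F'))⁻¹ ∈ (V i).nonunits)
    (hpkg' : ∀ j, 1 ≤ j → j + 1 ≤ n → _root_.Fermat.Agent.S45.Reg.H925.LitePkg w B' ξ' V' j (xC' j)) :
    ∀ i, 1 ≤ i → i + 1 ≤ n + 1 → _root_.Fermat.Agent.S45.Reg.H925.LitePkg w B ξ V i (xC i) := by
  intro i hi1 hin
  rcases Nat.lt_trichotomy (2 * i) (n + 1) with h | h | h
  · have hx : xC i = ⟨β (xC' i), hβB _ (xC' i).2⟩ := Subtype.ext (hlo i hi1 h)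
    rw [hx]
    obtain ⟨t', t, ht', ht, hu⟩ := ram_step_β w hq n (β : F' →+* F) hβw V V' htab.comap_β ram
      ram' i h
    refine litePkg_step w hw0 (β : F' →+* F) hβw B' B hβB ξ' ξ V' V i i
      (htab.comap_β i (by omega)) (hBV i (by omega))
      1 one_pos ⟨t', t, ht', ht, hu⟩ hmaxβ hξβ (xC' i) _ ?_ (hpkg' i hi1 (by omega))
    show (β (xC' i : F') ^ 1 - β (xC' i)) * (β (xC' i : F'))⁻¹ ∈ (V i).nonunits
    rw [pow_one, sub_self, zero_mul]
    exact nu_zero _
  · have hi2 : 2 ≤ i := by omega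
    obtain ⟨t', t, ht', ht, hu⟩ := ram_step_α w hq n (α : F' →+* F) hαw V V' htab.comap_α ram
      ram' i hi2 (by omega)
    rw [if_pos (by omega)] at hu
    exact litePkg_step w hw0 (α : F' →+* F) hαw B' B hαB ξ' ξ V' V i (i - 1)
      (htab.comap_α i hi1 (by omega)) (hBV i (by omega))
      q hq.pos ⟨t', t, ht', ht, hu⟩ hmaxα hξα (xC' (i - 1)) (xC i) (hdiag i h)
      (hpkg' (i - 1) (by omega) (by omega))
  · have hi2 : 2 ≤ i := by omega
    have hx : xC i = ⟨α (xC' (i - 1)), hαB _ (xC' (i - 1)).2⟩ :=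
      Subtype.ext (hhi i (by omega) h)
    rw [hx]
    obtain ⟨t', t, ht', ht, hu⟩ := ram_step_α w hq n (α : F' →+* F) hαw V V' htab.comap_α ram
      ram' i hi2 (by omega)
    rw [if_neg (by omega)] at hu
    refine litePkg_step w hw0 (α : F' →+* F) hαw B' B hαB ξ' ξ V' V i (i - 1)
      (htab.comap_α i hi1 (by omega)) (hBV i (by omega))
      1 one_pos ⟨t', t, ht', ht, hu⟩ hmaxα hξα (xC' (i - 1)) _ ?_
      (hpkg' (i - 1) (by omega) (by omega))
    show (α (xC' (i - 1) : F') ^ 1 - α (xC' (i - 1))) * (α (xC' (i - 1) : F'))⁻¹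
      ∈ (V i).nonunits
    rw [pow_one, sub_self, zero_mul]
    exact nu_zero _

end Fam

end Fermat.Agent.S45.Reg.H925

end
-- ===== PACK-END S45/Reg/H925/FamStep.lean

-- ===== PACK-BEGIN S45/Reg/H925/StepFAbs.lean
section



/-!
# S45 / CAR3 / MOD-E / REG — leaf `LeafStepF`, ABSTRACT core (helper925, 2nd owner; OFF-MAIN)

Against `S45/Reg/Spec.lean` of helper878 (v1.3, sha256 `1c69ece8…`).  Arbitrary fields `F'`, `F`,
arbitrary charts `B'`, `B`; the chains `τ'`, `τ` are related by `τ l = α (τ' l)`,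
`τ (l + 1) = β (τ' l)` (`l ≤ n`).

* `unitPkg_iff` : `Reg.UnitPkg` (ONE uniformiser) ⟺ `H925.UnitPkg` (ALL uniformisers);
* `unifAt_of_unitPkg` : the named element of a `UnitPkg` is a uniformiser of the sheet;
* `chain_cong` (leaf A5, generic form): `q ∈ w V`, `(a₁ - a ^ q) / w, (b₁ - b ^ q) / w ∈ V`,
  `w / (a₁ - b₁) ∈ 𝔪_V`  ⟹  `((a - b) ^ q - (a₁ - b₁)) / (a₁ - b₁) ∈ 𝔪_V`;
* `prec_step` : `Reg.Prec` moves up one level (tables only);
* `xT_lo`, `xT_hi`, `xT_diag` : the named elements under `α`, `β`;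
* `invF_step_abs` : the three fields of `Reg.InvF` at the upper level.  The chain congruence on
  the diagonal sheet `2 i = n + 1` follows from `Prec` and `mu > q`, EXCEPT for `q = 2`, `n = 3`
  (`mu = q`), where it is the hypothesis `hexc` (leaf C7 = `Reg.LeafDiag2`).
-/

set_option autoImplicit false
set_option linter.unusedSectionVars false
set_option linter.unusedVariables false

namespace Fermat.Agent.S45.Reg.H925

open Fermat.Agent.S36.Eng Fermat.Agent.S45.ModE

section Conv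

variable {R F : Type*} [CommRing R] [Field F] [Algebra R F]

/-- `Reg.UnitPkg` (one uniformiser) gives `H925.UnitPkg` (all uniformisers). -/
theorem unitPkg_of_reg (w : R) (B : Subalgebra R F) (e : ℕ) (V : ℕ → ValuationSubring F)
    (i : ℕ) (x : F) (h : Reg.UnitPkg w B e V i x) :
    ∃ hx : x ∈ B, _root_.Fermat.Agent.S45.Reg.H925.UnitPkg w B e V i ⟨x, hx⟩ := by
  obtain ⟨hx, U, d, g, g', k, N, hN, hUd, hgg, hUo, ⟨t, ht, hUt⟩, hres⟩ := h
  refine ⟨hx, U, d, g, g', k, N, hN, hUd, hgg, hUo, fun s hs => ?_, hres⟩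
  have h2 : UnitAt (V i) (t * s⁻¹) := unitAt_unif_div (V i) ht hs
  have e1 : (U : F) * (s ^ N)⁻¹ = (U : F) * (t ^ N)⁻¹ * (t * s⁻¹) ^ N := by
    have ht0 : t ≠ 0 := ht.1
    have hs0 : s ≠ 0 := hs.1
    rw [mul_pow, inv_pow]
    field_simp
  rw [e1]
  exact unitAt_mul _ hUt (unitAt_pow _ h2 N)

/-- `H925.UnitPkg` gives `Reg.UnitPkg`, given a uniformiser. -/
theorem reg_of_unitPkg (w : R) (B : Subalgebra R F) (e : ℕ) (V : ℕ → ValuationSubring F)
    (i : ℕ) (x : B) (hunif : ∃ t : F, UnifAt (V i) t) (h : _root_.Fermat.Agent.S45.Reg.H925.UnitPkg w B e V i x) :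
    Reg.UnitPkg w B e V i (x : F) := by
  obtain ⟨U, d, g, g', k, N, hN, hUd, hgg, hUo, hUi, hres⟩ := h
  obtain ⟨t, ht⟩ := hunif
  exact ⟨x.2, U, d, g, g', k, N, hN, hUd, hgg, hUo, ⟨t, ht, hUi t ht⟩, hres⟩

/-- The named element of a `UnitPkg` is a uniformiser of the sheet (`B ⊆ V i`). -/
theorem unifAt_of_unitPkg (w : R) (B : Subalgebra R F) (e : ℕ) (V : ℕ → ValuationSubring F)
    (i : ℕ) (hBV : ∀ b : B, (b : F) ∈ V i) (x : F) (h : Reg.UnitPkg w B e V i x) :
    UnifAt (V i) x := by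
  obtain ⟨hx, U, d, g, g', k, N, hN, hUd, hgg, hUo, ⟨t, ht, hUt⟩, hres⟩ := h
  have hggF : (g : F) * (g' : F) = 1 := by
    have := congrArg (fun b : B => (b : F)) hgg
    simpa using this
  have hgu : UnitAt (V i) (g : F) := by
    refine ⟨fun h => ?_, hBV g, ?_⟩
    · rw [h, zero_mul] at hggF; exact zero_ne_one hggF
    · have : (g : F)⁻¹ = (g' : F) := inv_eq_of_mul_eq_one_right hggF
      rw [this]; exact hBV g'
  have hU0 : (U : F) ≠ 0 := fun h => hUt.1 (by rw [h, zero_mul])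
  -- `x ^ N / U` is a unit
  have h1 : UnitAt (V i) (x ^ N * (U : F)⁻¹) := by
    rw [unitAt_iff_val]
    have e1 : x ^ N * (U : F)⁻¹ = (x ^ N - (g : F) * (U : F)) * (U : F)⁻¹ + (g : F) := by
      rw [sub_mul, mul_assoc (g : F), mul_inv_cancel₀ hU0, mul_one, sub_add_cancel]
    rw [e1, ← (unitAt_iff_val _).1 hgu]
    apply Valuation.map_add_eq_of_lt_right
    rw [(unitAt_iff_val _).1 hgu]
    exact (ValuationSubring.mem_nonunits_iff _).1 hres
  have h2 : UnitAt (V i) ((x * t⁻¹) ^ N) := by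
    have e2 : (x * t⁻¹) ^ N = x ^ N * (U : F)⁻¹ * ((U : F) * (t ^ N)⁻¹) := by
      have ht0 : t ≠ 0 := ht.1
      rw [mul_pow, inv_pow]
      field_simp
    rw [e2]
    exact unitAt_mul _ h1 hUt
  exact unifAt_of_unit_mul (V i) ht (unitAt_of_pow (V i) hN h2)

end Conv

/-! ## A5: the chain congruence, generic form -/

section Chain

variable {F : Type*} [Field F]

/-- `(a - b) ^ q - (a ^ q - b ^ q) ∈ q V` for a prime `q` and `a, b ∈ V`. -/
theorem sub_pow_prime_mem (V : ValuationSubring F) {q : ℕ} (hq : q.Prime) {a b : F}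
    (ha : a ∈ V) (hb : b ∈ V) :
    ∃ c ∈ V, (a - b) ^ q - (a ^ q - b ^ q) = (q : F) * c := by
  obtain ⟨r, hr⟩ := exists_add_pow_prime_eq hq (⟨a, ha⟩ : V) (-⟨b, hb⟩ : V)
  have hrF : (a + -b) ^ q = a ^ q + (-b) ^ q + (q : F) * a * (-b) * (r : F) := by
    have := congrArg (fun v : V => (v : F)) hr
    simpa using this
  rcases hq.eq_two_or_odd' with h2 | hodd
  · subst h2
    refine ⟨b ^ 2 - a * b, sub_mem (pow_mem hb 2) (V.mul_mem _ _ ha hb), ?_⟩
    push_cast
    ring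
  · refine ⟨a * (-b) * (r : F), V.mul_mem _ _ (V.mul_mem _ _ ha (V.neg_mem _ hb)) r.2, ?_⟩
    rw [sub_eq_add_neg a b, hrF, hodd.neg_pow]
    ring

/-- **A5, generic form.** -/
theorem chain_cong (V : ValuationSubring F) {q : ℕ} (hq : q.Prime) (w a b a₁ b₁ : F)
    (hqw : (q : F) * w⁻¹ ∈ V) (hw0 : w ≠ 0)
    (ha : a ∈ V) (hb : b ∈ V)
    (hver : (a₁ - a ^ q) * w⁻¹ ∈ V) (hfrob : (b₁ - b ^ q) * w⁻¹ ∈ V)
    (hsmall : w * (a₁ - b₁)⁻¹ ∈ V.nonunits) :
    ((a - b) ^ q - (a₁ - b₁)) * (a₁ - b₁)⁻¹ ∈ V.nonunits := by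
  obtain ⟨c, hc, hcq⟩ := sub_pow_prime_mem V hq ha hb
  have e1 : ((a - b) ^ q - (a₁ - b₁)) * (a₁ - b₁)⁻¹
      = ((q : F) * w⁻¹ * c - (a₁ - a ^ q) * w⁻¹ + (b₁ - b ^ q) * w⁻¹) * (w * (a₁ - b₁)⁻¹) := by
    have h1 : (a - b) ^ q = (a ^ q - b ^ q) + (q : F) * c := by rw [← hcq]; ring
    rw [h1]
    field_simp
    ring
  rw [e1]
  exact nu_mul V (V.add_mem _ _ (sub_mem (V.mul_mem _ _ hqw hc) hver) hfrob) hsmall

end Chain

/-! ## The named elements under `α`, `β` -/

section XT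

variable {F F' : Type*} [Field F] [Field F']

theorem xT_lo (n : ℕ) (β : F' →+* F) (τ' : ℕ → F') (τ : ℕ → F)
    (hτβ : ∀ l ≤ n, τ (l + 1) = β (τ' l)) (i : ℕ) (h2 : 2 * i < n + 1) :
    Reg.xT τ (n + 1) i = β (Reg.xT τ' n i) := by
  unfold Reg.xT
  rw [if_pos (by omega), if_pos (by omega), map_sub, ← hτβ n le_rfl, ← hτβ (n - 2 * i) (by omega)]
  congr 2
  omega

theorem xT_hi (n : ℕ) (α : F' →+* F) (τ' : ℕ → F') (τ : ℕ → F)
    (hτα : ∀ l ≤ n, τ l = α (τ' l)) (i : ℕ) (hin : i ≤ n) (h2 : n + 1 < 2 * i) :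
    Reg.xT τ (n + 1) i = α (Reg.xT τ' n (i - 1)) := by
  unfold Reg.xT
  rw [if_neg (by omega)]
  by_cases h : 2 * (i - 1) ≤ n
  · rw [if_pos h, map_sub, ← hτα n le_rfl, ← hτα (n - 2 * (i - 1)) (by omega)]
    have e1 : 2 * (n + 1) - 2 * i = n := by omega
    have e2 : n - 2 * (i - 1) = 0 := by omega
    rw [e1, e2]
  · rw [if_neg h, map_sub, ← hτα (2 * n - 2 * (i - 1)) (by omega), ← hτα 0 (Nat.zero_le _)]
    have e1 : 2 * (n + 1) - 2 * i = 2 * n - 2 * (i - 1) := by omega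
    rw [e1]

theorem xT_diag_up (n : ℕ) (τ : ℕ → F) (i : ℕ) (h2 : 2 * i = n + 1) :
    Reg.xT τ (n + 1) i = τ (n + 1) - τ 0 := by
  unfold Reg.xT
  rw [if_pos (by omega)]
  have e1 : n + 1 - 2 * i = 0 := by omega
  rw [e1]

theorem xT_diag_low (n : ℕ) (α : F' →+* F) (τ' : ℕ → F') (τ : ℕ → F)
    (hτα : ∀ l ≤ n, τ l = α (τ' l)) (i : ℕ) (hi : 2 ≤ i) (h2 : 2 * i = n + 1) :
    α (Reg.xT τ' n (i - 1)) = τ n - τ 1 := by
  unfold Reg.xT
  rw [if_pos (by omega), map_sub, ← hτα n le_rfl, ← hτα (n - 2 * (i - 1)) (by omega)]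
  have e1 : n - 2 * (i - 1) = 1 := by omega
  rw [e1]

/-- All the indices of `xT τ n j` are `≤ n`. -/
theorem xT_mem (B : Set F) (n : ℕ) (τ : ℕ → F) (hsub : ∀ a ∈ B, ∀ b ∈ B, a - b ∈ B)
    (hmem : ∀ l ≤ n, τ l ∈ B) (j : ℕ) : Reg.xT τ n j ∈ B := by
  unfold Reg.xT
  split_ifs with h
  · exact hsub _ (hmem n le_rfl) _ (hmem _ (by omega))
  · exact hsub _ (hmem _ (by omega)) _ (hmem 0 (Nat.zero_le _))

end XT

/-! ## `mu > q` on the diagonal -/

theorem lt_mu_diag {q : ℕ} (hq : q.Prime) {n i : ℕ} (hi : 2 ≤ i) (h2 : 2 * i = n + 1)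
    (hexc : ¬ (q = 2 ∧ n = 3)) : q < mu q (n + 1) i := by
  rw [H163.mu_eq_lo163 hq (by omega) (by omega)]
  have hq2 := hq.two_le
  rcases Nat.lt_or_ge 2 q with h3 | h3
  · -- `q ≥ 3`
    have h1 : q ^ 1 ≤ q ^ (i - 1) := Nat.pow_le_pow_right hq.pos (by omega)
    rw [pow_one] at h1
    calc q < q * 2 := by omega
      _ ≤ q ^ (i - 1) * 2 := Nat.mul_le_mul_right 2 h1
      _ ≤ q ^ (i - 1) * (q - 1) := Nat.mul_le_mul_left _ (by omega)
  · -- `q = 2`, so `i ≥ 3`
    have hq' : q = 2 := by omega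
    subst hq'
    have hi3 : 3 ≤ i := by
      by_contra hcon
      exact hexc ⟨rfl, by omega⟩
    have h1 : 2 ^ 2 ≤ 2 ^ (i - 1) := Nat.pow_le_pow_right (by norm_num) (by omega)
    norm_num at h1 ⊢
    omega

/-! ## The step of `Prec` -/

section PrecStep

variable {R E F F' : Type*} [CommRing R] [Field E] [Algebra R E]
  [Field F] [Algebra E F] [Algebra R F] [Field F'] [Algebra E F'] [Algebra R F']

theorem prec_step (w : R) (q n : ℕ) (hn : 1 ≤ n) (α β : F' →ₐ[E] F)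
    (hαw : α (algebraMap R F' w) = algebraMap R F w)
    (hβw : β (algebraMap R F' w) = algebraMap R F w)
    (V : ℕ → ValuationSubring F) (V' : ℕ → ValuationSubring F')
    (htab : PartTableE n α β V V')
    (τ' : ℕ → F') (τ : ℕ → F)
    (hτα : ∀ l ≤ n, τ l = α (τ' l)) (hτβ : ∀ l ≤ n, τ (l + 1) = β (τ' l))
    (hmem : ∀ i ≤ n + 1, ∀ l ≤ n + 1, τ l ∈ V i)
    (hprec' : Reg.Prec w q n τ' V') : Reg.Prec w q (n + 1) τ V := by
  refine ⟨hmem, fun i hi => ?_, fun i hi1 hin => ?_⟩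
  · -- Frobenius, along `α`
    have e1 : (τ 1 - τ 0 ^ q) * (algebraMap R F w)⁻¹
        = (α : F' →+* F) ((τ' 1 - τ' 0 ^ q) * (algebraMap R F' w)⁻¹) := by
      rw [map_mul, map_sub, map_pow, map_inv₀]
      simp only [RingHom.coe_coe]
      rw [hαw, ← hτα 1 hn, ← hτα 0 (Nat.zero_le _)]
    rw [e1, ← ValuationSubring.mem_comap]
    rcases Nat.eq_zero_or_pos i with h0 | hpos
    · subst h0
      rw [htab.comap_α₀]
      exact hprec'.frob 0 (by omega)
    · rw [htab.comap_α i hpos (by omega)]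
      exact hprec'.frob (i - 1) (by omega)
  · -- Verschiebung, along `β`
    have hn1 : n - 1 + 1 = n := by omega
    have e1 : (τ (n + 1 - 1) - τ (n + 1) ^ q) * (algebraMap R F w)⁻¹
        = (β : F' →+* F) ((τ' (n - 1) - τ' n ^ q) * (algebraMap R F' w)⁻¹) := by
      rw [map_mul, map_sub, map_pow, map_inv₀]
      simp only [RingHom.coe_coe]
      rw [hβw, ← hτβ n le_rfl, ← hτβ (n - 1) (by omega), hn1, Nat.add_sub_cancel]
    rw [e1, ← ValuationSubring.mem_comap]
    rcases Nat.lt_or_ge i (n + 1) with h | h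
    · rw [htab.comap_β i (by omega)]
      exact hprec'.ver i hi1 (by omega)
    · have hi' : i = n + 1 := by omega
      subst hi'
      rw [htab.comap_βₑ]
      exact hprec'.ver n hn le_rfl

/-- `w / (τ n - τ 1) ∈ 𝔪_{V i}` on the diagonal sheet, if `q < mu`. -/
theorem diag_small (w : R) {q : ℕ} (hq : q.Prime) (n : ℕ) (α : F' →+* F)
    (hαw : α (algebraMap R F' w) = algebraMap R F w)
    (V : ℕ → ValuationSubring F) (V' : ℕ → ValuationSubring F')
    (comap_α : ∀ i, 1 ≤ i → i ≤ n + 1 → (V i).comap α = V' (i - 1))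
    (ram : ∀ i ≤ n + 1, ∃ t : F, UnifAt (V i) t ∧
      UnitAt (V i) (algebraMap R F w * (t ^ mu q (n + 1) i)⁻¹))
    (ram' : ∀ j ≤ n, ∃ t' : F', UnifAt (V' j) t' ∧
      UnitAt (V' j) (algebraMap R F' w * (t' ^ mu q n j)⁻¹))
    (i : ℕ) (hi : 2 ≤ i) (h2 : 2 * i = n + 1) (hlt : q < mu q (n + 1) i)
    (x' : F') (hx' : UnifAt (V' (i - 1)) x') :
    algebraMap R F w * (α x')⁻¹ ∈ (V i).nonunits := by
  obtain ⟨t', t, ht', ht, hu⟩ := ram_step_α w hq n α hαw V V' comap_α ram ram' i hi (by omega)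
  rw [if_pos (by omega)] at hu
  obtain ⟨t₁, ht₁, hw₁⟩ := ram i (by omega)
  -- all the units
  have h1 : UnitAt (V i) (α x' * (α t')⁻¹) := by
    have := unitAt_unif_div (V' (i - 1)) hx' ht'
    rw [← comap_α i (by omega) (by omega), unitAt_comap, map_mul, map_inv₀] at this
    exact this
  have h2' : UnitAt (V i) (t₁ * t⁻¹) := unitAt_unif_div (V i) ht₁ ht
  have hαt' : α t' ≠ 0 := fun h => ht'.1 ((map_eq_zero α).1 h)
  have hαx' : α x' ≠ 0 := fun h => hx'.1 ((map_eq_zero α).1 h)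
  obtain ⟨m, hm⟩ : ∃ m, mu q (n + 1) i = q + (m + 1) := ⟨mu q (n + 1) i - q - 1, by omega⟩
  have e1 : algebraMap R F w * (α x')⁻¹
      = algebraMap R F w * (t₁ ^ mu q (n + 1) i)⁻¹ * (t₁ * t⁻¹) ^ mu q (n + 1) i
        * (α t' * (t ^ q)⁻¹)⁻¹ * (α x' * (α t')⁻¹)⁻¹ * t ^ (m + 1) := by
    have ht0 : t ≠ 0 := ht.1
    have ht₁0 : t₁ ≠ 0 := ht₁.1
    rw [hm, mul_pow, inv_pow, pow_add]
    field_simp
    ring
  rw [e1]
  refine nu_mul _ ?_ ?_
  · exact (unitAt_mul _ (unitAt_mul _ (unitAt_mul _ hw₁ (unitAt_pow _ h2' _))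
      (unitAt_inv _ hu)) (unitAt_inv _ h1)).2.1
  · rw [pow_succ]
    exact nu_mul _ (pow_mem (nu_mem _ ht.2.1) m) ht.2.1

/-- **`LeafStepF`, abstract core**: the three fields of `Reg.InvF` at the upper level. -/
theorem invF_step_abs (w : R) {q : ℕ} (hq : q.Prime) (n : ℕ) (hn : 2 ≤ n)
    (α β : F' →ₐ[E] F)
    (hαw : α (algebraMap R F' w) = algebraMap R F w)
    (hβw : β (algebraMap R F' w) = algebraMap R F w)
    (B' : Subalgebra R F') (B : Subalgebra R F)
    (hαB : ∀ b ∈ B', α b ∈ B) (hβB : ∀ b ∈ B', β b ∈ B)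
    (V : ℕ → ValuationSubring F) (V' : ℕ → ValuationSubring F')
    (htab : PartTableE n α β V V')
    (ram : ∀ i ≤ n + 1, ∃ t : F, UnifAt (V i) t ∧
      UnitAt (V i) (algebraMap R F w * (t ^ mu q (n + 1) i)⁻¹))
    (ram' : ∀ j ≤ n, ∃ t' : F', UnifAt (V' j) t' ∧
      UnitAt (V' j) (algebraMap R F' w * (t' ^ mu q n j)⁻¹))
    (hBV : ∀ i ≤ n + 1, ∀ b : B, (b : F) ∈ V i)
    (hB'V' : ∀ j ≤ n, ∀ b : B', (b : F') ∈ V' j)
    (hqw : ∀ i ≤ n + 1, (q : F) * (algebraMap R F w)⁻¹ ∈ V i)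
    (τ' : ℕ → F') (τ : ℕ → F)
    (hτα : ∀ l ≤ n, τ l = α (τ' l)) (hτβ : ∀ l ≤ n, τ (l + 1) = β (τ' l))
    (hmem' : ∀ l ≤ n, τ' l ∈ B')
    (hprec' : Reg.Prec w q n τ' V')
    (hpkg' : ∀ j, 1 ≤ j → j + 1 ≤ n → Reg.UnitPkg w B' n V' j (Reg.xT τ' n j))
    (hexc : q = 2 → n = 3 → Reg.Prec w q (n + 1) τ V →
      ((τ 4 - τ 0) ^ 2 - (τ 3 - τ 1)) * (τ 3 - τ 1)⁻¹ ∈ (V 2).nonunits) :
    (∀ l ≤ n + 1, τ l ∈ B) ∧ Reg.Prec w q (n + 1) τ V ∧
      ∀ i, 1 ≤ i → i + 1 ≤ n + 1 → Reg.UnitPkg w B (n + 1) V i (Reg.xT τ (n + 1) i) := by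
  -- membership
  have hmem : ∀ l ≤ n + 1, τ l ∈ B := by
    intro l hl
    rcases Nat.lt_or_ge l (n + 1) with h | h
    · rw [hτα l (by omega)]
      exact hαB _ (hmem' l (by omega))
    · have hl' : l = n + 1 := by omega
      rw [hl', hτβ n le_rfl]
      exact hβB _ (hmem' n le_rfl)
  have hprec : Reg.Prec w q (n + 1) τ V :=
    prec_step w q n (by omega) α β hαw hβw V V' htab τ' τ hτα hτβ
      (fun i hi l hl => hBV i hi ⟨τ l, hmem l hl⟩) hprec'
  refine ⟨hmem, hprec, ?_⟩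
  -- the named elements as elements of the charts
  have hxT' : ∀ j, Reg.xT τ' n j ∈ B' := fun j =>
    xT_mem (B' : Set F') n τ' (fun a ha b hb => sub_mem ha hb) hmem' j
  have hxT : ∀ i, Reg.xT τ (n + 1) i ∈ B := fun i =>
    xT_mem (B : Set F) (n + 1) τ (fun a ha b hb => sub_mem ha hb) hmem i
  have hw0 : algebraMap R F w ≠ 0 := by
    obtain ⟨t, ht, hu⟩ := ram 0 (Nat.zero_le _)
    intro h
    exact hu.1 (by rw [h, zero_mul])
  have key := unitPkg_fam_step w hq n hn α β hαw hβw B' B hαB hβB V V' htab ram ram' hBV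
    (fun j => ⟨Reg.xT τ' n j, hxT' j⟩) (fun i => ⟨Reg.xT τ (n + 1) i, hxT i⟩)
    (fun i hi1 h2 => xT_lo n (β : F' →+* F) τ' τ hτβ i h2)
    (fun i hin h2 => xT_hi n (α : F' →+* F) τ' τ hτα i hin h2)
    (fun i h2 => ?_)
    (fun j hj1 hjn => by
      obtain ⟨hx, h⟩ := unitPkg_of_reg w B' n V' j _ (hpkg' j hj1 hjn)
      exact h)
  · intro i hi1 hin
    obtain ⟨t, ht, -⟩ := ram i (by omega)
    exact reg_of_unitPkg w B (n + 1) V i ⟨Reg.xT τ (n + 1) i, hxT i⟩ ⟨t, ht⟩ (key i hi1 hin)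
  · -- the chain congruence on the diagonal
    have hi2 : 2 ≤ i := by omega
    show (Reg.xT τ (n + 1) i ^ q - (α : F' →+* F) (Reg.xT τ' n (i - 1)))
      * ((α : F' →+* F) (Reg.xT τ' n (i - 1)))⁻¹ ∈ (V i).nonunits
    rw [xT_diag_up n τ i h2, xT_diag_low n (α : F' →+* F) τ' τ hτα i hi2 h2]
    by_cases hex : q = 2 ∧ n = 3
    · obtain ⟨hq2, hn3⟩ := hex
      have hi' : i = 2 := by omega
      subst hq2 hn3 hi'
      exact hexc rfl rfl hprec
    · have hx' : UnifAt (V' (i - 1)) (Reg.xT τ' n (i - 1)) :=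
        unifAt_of_unitPkg w B' n V' (i - 1) (hB'V' (i - 1) (by omega)) _
          (hpkg' (i - 1) (by omega) (by omega))
      have hsmall := diag_small w hq n (α : F' →+* F) hαw V V' htab.comap_α ram ram' i hi2 h2
        (lt_mu_diag hq hi2 h2 hex) _ hx'
      rw [xT_diag_low n (α : F' →+* F) τ' τ hτα i hi2 h2] at hsmall
      have hver := hprec.ver i (by omega) (by omega)
      rw [Nat.add_sub_cancel] at hver
      exact chain_cong (V i) hq (algebraMap R F w) (τ (n + 1)) (τ 0) (τ n) (τ 1)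
        (hqw i (by omega)) hw0 (hprec.mem i (by omega) (n + 1) le_rfl)
        (hprec.mem i (by omega) 0 (Nat.zero_le _)) hver (hprec.frob i (by omega)) hsmall

end PrecStep

end Fermat.Agent.S45.Reg.H925

end
-- ===== PACK-END S45/Reg/H925/StepFAbs.lean

-- ===== PACK-BEGIN S45/H630/LabE.lean
section


/-!
# S45 / CAR3, block ALG-E/Pure (helper630), part 2: label algebra at a multiple point, `e ≥ 3`

At a multiple point of level `q ^ e`, `e ≥ 3`, all `e + 1` sheets `V 0, …, V e` pass through the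
point.  Let `η i` be the value of the purity datum along `V i`, `ζ ^ a j` (`ζ ^ b j`) the label of
`k_α` (`k_β`) on the sheet `V' j` below.  The label equations (`SideE.lean`)

    (α, one extension)   `ζ ^ a 1 · η 2 ^ q ≡ ζ ^ a (i - 1) · η i ^ q`        (`2 ≤ i ≤ e`),
    (α, split)           `ζ ^ a 0 · η 0 · η 1 ^ (q - 1) ≡ ζ ^ a 1 · η 2 ^ q`,
    (β, one extension)   `ζ ^ b 0 · η 0 ^ q ≡ ζ ^ b 1 · η 1 ^ q`              (`1 ≤ e - 2`),

together with `η i ^ m ≡ ρ` (all `i`) and `q q̄ = 1 + m N`, give `η i ≡ η 2 · ζ ^ cE i` with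
exponents `cE i` which depend only on the labels, NOT on the point (`label_algebraE630`).
No factor `q ± 1` occurs (`C = 1`).

* `root630`             : extraction of a `q`-th root among `m`-th roots of a common value;
* `cE630`               : the exponents;
* `label_algebraE630`   : the algebra, modulo a prime ideal of `R`;
* `kappaE630`           : the colouring `κ (V i) = (m - 1) · cE i`;
* `labelAt_of_multi630` : the label datum `S36.H630.LabelAt` at a multiple point.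
-/

set_option autoImplicit false
set_option linter.unusedSectionVars false
set_option linter.style.haveILetI false
set_option synthInstance.maxHeartbeats 400000
set_option maxHeartbeats 1600000

namespace Fermat.Agent.S45.H630

open Fermat.Agent.S36.H630

section Algebra

variable {K : Type*} [CommRing K] [IsDomain K]

/-- **Root extraction.**  `x ^ m = y ^ m`, `ζ ^ s · x ^ q = ζ ^ t · y ^ q`, `q q̄ = 1 + m N`
⟹ `x = ζ ^ (q̄ (t + (m - 1) s)) · y`. -/
theorem root630 {ζ : K} {m : ℕ} (hm : 0 < m) (hζ : ζ ^ m = 1) {q qb N : ℕ}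
    (hqq : q * qb = 1 + m * N) {x y : K} (hy : y ≠ 0) (hxy : x ^ m = y ^ m) {s t : ℕ}
    (h : ζ ^ s * x ^ q = ζ ^ t * y ^ q) :
    x = ζ ^ (qb * (t + (m - 1) * s)) * y := by
  have hinv := zeta_pow_mul_inv hm hζ s
  -- `x ^ q = ζ ^ (t + (m - 1) s) y ^ q`
  have h1 : x ^ q = ζ ^ (t + (m - 1) * s) * y ^ q := by
    calc x ^ q = (ζ ^ s * ζ ^ ((m - 1) * s)) * x ^ q := by rw [hinv, one_mul]
      _ = ζ ^ ((m - 1) * s) * (ζ ^ s * x ^ q) := by ring
      _ = ζ ^ ((m - 1) * s) * (ζ ^ t * y ^ q) := by rw [h]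
      _ = ζ ^ (t + (m - 1) * s) * y ^ q := by rw [pow_add]; ring
  have h2 : x ^ (q * qb) = ζ ^ (qb * (t + (m - 1) * s)) * y ^ (q * qb) := by
    rw [pow_mul, h1, mul_pow, ← pow_mul, ← pow_mul, mul_comm (t + (m - 1) * s) qb]
  rw [hqq, pow_add, pow_add, pow_one, pow_one, pow_mul, pow_mul, hxy] at h2
  have hyN : (y ^ m) ^ N ≠ 0 := pow_ne_zero _ (pow_ne_zero _ hy)
  apply mul_right_cancel₀ hyN
  rw [h2]
  ring

end Algebra

/-- The exponents of the labels at a multiple point, relative to the sheet `V 2`. -/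
def cE630 (m qb : ℕ) (a b : ℕ → ℕ) (i : ℕ) : ℕ :=
  if i = 0 then
    qb * (a 1 + (m - 1) * (a 0 + qb * (b 1 + (m - 1) * b 0))) + qb * (b 1 + (m - 1) * b 0)
  else if i = 1 then qb * (a 1 + (m - 1) * (a 0 + qb * (b 1 + (m - 1) * b 0)))
  else qb * (a 1 + (m - 1) * a (i - 1))

theorem cE630_zero (m qb : ℕ) (a b : ℕ → ℕ) :
    cE630 m qb a b 0 =
      qb * (a 1 + (m - 1) * (a 0 + qb * (b 1 + (m - 1) * b 0))) + qb * (b 1 + (m - 1) * b 0) := by
  unfold cE630
  rw [if_pos rfl]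

theorem cE630_one (m qb : ℕ) (a b : ℕ → ℕ) :
    cE630 m qb a b 1 = qb * (a 1 + (m - 1) * (a 0 + qb * (b 1 + (m - 1) * b 0))) := by
  unfold cE630
  rw [if_neg one_ne_zero, if_pos rfl]

theorem cE630_ge_two (m qb : ℕ) (a b : ℕ → ℕ) {i : ℕ} (hi : 2 ≤ i) :
    cE630 m qb a b i = qb * (a 1 + (m - 1) * a (i - 1)) := by
  unfold cE630
  rw [if_neg (by omega), if_neg (by omega)]

section Domain

variable {K : Type*} [CommRing K] [IsDomain K]

/-- **Label algebra at a multiple point**, in a domain. -/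
theorem label_algebraE_domain630 {ζ : K} {m : ℕ} (hm : 0 < m) (hζ : ζ ^ m = 1) {q qb N : ℕ}
    (hq : 0 < q) (hqq : q * qb = 1 + m * N) {e : ℕ} (he : 3 ≤ e) {η : ℕ → K} {ρ : K}
    (hη0 : ∀ i ≤ e, η i ≠ 0) (hηm : ∀ i ≤ e, η i ^ m = ρ) {a b : ℕ → ℕ}
    (hα : ∀ i, 2 ≤ i → i ≤ e → ζ ^ a 1 * η 2 ^ q = ζ ^ a (i - 1) * η i ^ q)
    (hαs : ζ ^ a 0 * (η 0 * η 1 ^ (q - 1)) = ζ ^ a 1 * η 2 ^ q)
    (hβ : ζ ^ b 0 * η 0 ^ q = ζ ^ b 1 * η 1 ^ q) :
    ∀ i ≤ e, η i = η 2 * ζ ^ cE630 m qb a b i := by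
  have h2e : 2 ≤ e := by omega
  have h1e : 1 ≤ e := by omega
  have h0e : 0 ≤ e := Nat.zero_le e
  -- `η 0 = ζ ^ s₀ η 1`
  have e01 : η 0 = ζ ^ (qb * (b 1 + (m - 1) * b 0)) * η 1 :=
    root630 hm hζ hqq (hη0 1 h1e) ((hηm 0 h0e).trans (hηm 1 h1e).symm) hβ
  -- `η 1 = ζ ^ c₁ η 2`
  have hq1 : q - 1 + 1 = q := Nat.sub_add_cancel hq
  have e12' : ζ ^ (a 0 + qb * (b 1 + (m - 1) * b 0)) * η 1 ^ q = ζ ^ a 1 * η 2 ^ q := by
    rw [← hαs, e01, pow_add]
    have : η 1 ^ q = η 1 * η 1 ^ (q - 1) := by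
      rw [← pow_succ', hq1]
    rw [this]
    ring
  have e12 : η 1 = ζ ^ (qb * (a 1 + (m - 1) * (a 0 + qb * (b 1 + (m - 1) * b 0)))) * η 2 :=
    root630 hm hζ hqq (hη0 2 h2e) ((hηm 1 h1e).trans (hηm 2 h2e).symm) e12'
  intro i hi
  rcases Nat.lt_or_ge i 2 with h | h
  · rcases Nat.lt_or_ge i 1 with h' | h'
    · obtain rfl : i = 0 := by omega
      rw [cE630_zero, e01, pow_add]
      conv_lhs => rw [e12]
      ring
    · obtain rfl : i = 1 := by omega
      rw [cE630_one]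
      conv_lhs => rw [e12]
      ring
  · rw [cE630_ge_two m qb a b h]
    have := root630 hm hζ hqq (hη0 2 h2e) ((hηm i hi).trans (hηm 2 h2e).symm) (hα i h hi).symm
    rw [this]
    ring

end Domain

section ModPrime

variable {R : Type*} [CommRing R]

/-- **Label algebra at a multiple point**, modulo a prime ideal of `R`. -/
theorem label_algebraE630 (𝔪 : Ideal R) [𝔪.IsPrime] {ζ : R} {m : ℕ} (hm : 0 < m)
    (hζ : ζ ^ m = 1) {q qb N : ℕ} (hq : 0 < q) (hqq : q * qb = 1 + m * N) {e : ℕ} (he : 3 ≤ e)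
    {η : ℕ → R} {ρ : R} (hη0 : ∀ i ≤ e, η i ∉ 𝔪) (hηm : ∀ i ≤ e, η i ^ m - ρ ∈ 𝔪)
    {a b : ℕ → ℕ}
    (hα : ∀ i, 2 ≤ i → i ≤ e → ζ ^ a 1 * η 2 ^ q - ζ ^ a (i - 1) * η i ^ q ∈ 𝔪)
    (hαs : ζ ^ a 0 * (η 0 * η 1 ^ (q - 1)) - ζ ^ a 1 * η 2 ^ q ∈ 𝔪)
    (hβ : ζ ^ b 0 * η 0 ^ q - ζ ^ b 1 * η 1 ^ q ∈ 𝔪) :
    ∀ i ≤ e, η i - η 2 * ζ ^ cE630 m qb a b i ∈ 𝔪 := by
  have key := label_algebraE_domain630 (K := R ⧸ 𝔪) (ζ := Ideal.Quotient.mk 𝔪 ζ) hm
    (by rw [← map_pow, hζ, map_one]) hq hqq he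
    (η := fun i => Ideal.Quotient.mk 𝔪 (η i)) (ρ := Ideal.Quotient.mk 𝔪 ρ)
    (fun i hi h => hη0 i hi (Ideal.Quotient.eq_zero_iff_mem.1 h))
    (fun i hi => by
      have := (Ideal.Quotient.eq (I := 𝔪)).2 (hηm i hi)
      simpa only [map_pow] using this)
    (a := a) (b := b)
    (fun i h2 hi => by
      have := (Ideal.Quotient.eq (I := 𝔪)).2 (hα i h2 hi)
      simpa only [map_mul, map_pow] using this)
    (by
      have := (Ideal.Quotient.eq (I := 𝔪)).2 hαs
      simpa only [map_mul, map_pow] using this)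
    (by
      have := (Ideal.Quotient.eq (I := 𝔪)).2 hβ
      simpa only [map_mul, map_pow] using this)
  intro i hi
  apply (Ideal.Quotient.eq (I := 𝔪)).1
  simpa only [map_mul, map_pow] using key i hi

end ModPrime

section Kappa

variable {F : Type*} [Field F]

open Classical in
/-- The colouring with the value `c i` on `V i`, `i ≤ e`, and `0` elsewhere. -/
noncomputable def kappaE630 (e : ℕ) (V : ℕ → ValuationSubring F) (c : ℕ → ℕ) :
    ValuationSubring F → ℕ :=
  fun W => if h : ∃ i, i ≤ e ∧ W = V i then c (Nat.find h) else 0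

theorem kappaE630_apply {e : ℕ} {V : ℕ → ValuationSubring F}
    (hinj : ∀ i ≤ e, ∀ j ≤ e, V i = V j → i = j) (c : ℕ → ℕ) {i : ℕ} (hi : i ≤ e) :
    kappaE630 e V c (V i) = c i := by
  classical
  have h : ∃ j, j ≤ e ∧ V i = V j := ⟨i, hi, rfl⟩
  unfold kappaE630
  rw [dif_pos h]
  have hs := Nat.find_spec h
  rw [← hinj i hi _ hs.1 hs.2]

end Kappa

section LabelAt

variable {R : Type*} [CommRing R] {F : Type*} [Field F] [Algebra R F]

/-- the inverse of a power of a root of unity (no domain hypothesis) -/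
theorem zeta_pow_mul_inv630 {ζ : R} {m : ℕ} (hm : 0 < m) (hζ : ζ ^ m = 1) (i : ℕ) :
    ζ ^ i * ζ ^ ((m - 1) * i) = 1 := by
  rw [← pow_add]
  have : i + (m - 1) * i = m * i := by
    have hm1 : m - 1 + 1 = m := Nat.sub_add_cancel hm
    calc i + (m - 1) * i = (m - 1 + 1) * i := by ring
      _ = m * i := by rw [hm1]
  rw [this, pow_mul, hζ, one_pow]

/-- **The label datum at a multiple point**, `e ≥ 3`, for `u` itself (`C = 1`): from the values
of a purity datum along the `e + 1` sheets and the relations `η i ≡ η 2 · ζ ^ c i`. -/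
theorem labelAt_of_rel630 {B : Subalgebra R F} {n : Ideal B} [n.IsPrime]
    (𝔪 : Ideal R) (h𝔪n : ∀ r ∈ 𝔪, algebraMap R B r ∈ n)
    {e : ℕ} (he : 2 ≤ e) {V : ℕ → ValuationSubring F}
    (hinj : ∀ i ≤ e, ∀ j ≤ e, V i = V j → i = j)
    (hBV : ∀ i ≤ e, ChartLe B (V i)) (hth : ∀ i ≤ e, PassThrough B n (V i))
    {𝒱 : Set (ValuationSubring F)} (h𝒱 : ∀ W ∈ 𝒱, ∃ i, i ≤ e ∧ W = V i)
    {m : ℕ} (hm : 0 < m) {ζ : R} (hζ : ζ ^ m = 1)
    {u d : F} {a₀ s₀ : B} (hs₀ : s₀ ∉ n) (hpure : u * d ^ m * (s₀ : F) = a₀)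
    {η : ℕ → R} (hηn : algebraMap R B (η 2) ∉ n)
    (hv : ∀ i ≤ e, ValAt B n (V i) d (η i)) (c : ℕ → ℕ)
    (hrel : ∀ i ≤ e, η i - η 2 * ζ ^ c i ∈ 𝔪) :
    LabelAt B n 𝒱 m u ζ (kappaE630 e V (fun i => (m - 1) * c i)) := by
  have hd0 : d ≠ 0 := by
    rintro rfl
    exact (hv 2 he).not_nonunits (hBV 2 he) (hth 2 he) hηn (vnu_zero (V 2))
  refine ⟨d, a₀, s₀, η 2, hd0, hs₀, hpure, hηn, ?_⟩
  intro W hW _
  obtain ⟨i, hi, rfl⟩ := h𝒱 W hW
  rw [kappaE630_apply hinj _ hi]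
  refine (hv i hi).congr_const ?_
  have h1 : ζ ^ ((m - 1) * ((m - 1) * c i)) = ζ ^ c i := by
    have h3 := zeta_pow_mul_inv630 hm hζ (c i)
    have h4 := zeta_pow_mul_inv630 hm hζ ((m - 1) * c i)
    calc ζ ^ ((m - 1) * ((m - 1) * c i))
        = (ζ ^ c i * ζ ^ ((m - 1) * c i)) * ζ ^ ((m - 1) * ((m - 1) * c i)) := by
          rw [h3, one_mul]
      _ = ζ ^ c i * (ζ ^ ((m - 1) * c i) * ζ ^ ((m - 1) * ((m - 1) * c i))) := by ring
      _ = ζ ^ c i := by rw [h4, mul_one]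
  rw [h1]
  exact h𝔪n _ (hrel i hi)

end LabelAt

end Fermat.Agent.S45.H630

end
-- ===== PACK-END S45/H630/LabE.lean

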