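import Fermat.Agent.Pack.S45.E0L2
import Fermat.Agent.Pack.S45.E2L3
import Fermat.Agent.Pack.S45.E1L0
import Fermat.Agent.Pack.S43MC.G0E25L0
import Fermat.Agent.Pack.S44C.G0E23L2
import Fermat.Agent.Pack.S45.E2L0
import Fermat.Agent.Pack.S45.E0L3
import Fermat.Agent.Pack.S43MC.G0E6L0
import Fermat.Agent.Pack.S45.E2L2
import Fermat.Agent.Pack.Fast891

set_option linter.all false

-- ===== PACK-BEGIN S45/H972/WildE.lean
section




/-!
# S45 / CAR3, MOD-E/Val (helper972): WILD-E and INSEP-E, the concrete one-extension steps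

FE plumbing of the abstract wild step `S45.H693.wild_step` (helper693), in the same way as
`S45/H972/SplitE.lean` instantiates `S36.H972.EisSplit`.

Level pair `N → N q`, `N = d₀ q M'`, `q ∤ M'`;  `K = F_N`, `L = F_{Nq}`, `α : K → L` the
inclusion.  Chain elements of `K`:  `z = j_{d₀}`, `x = j_{d₀ q}` (the last two of the chain
below) and `y = j_{d₀ q q} ∈ L` (the new one).  The minimal polynomial of `y` over `K` is
`Ψ(Y) = Φ_q(Y, x) / (Y - z)` (`chainPsi`, `minpoly_chain`), for EVERY valuation subring `O` of `K`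
containing `z` and `x`.

* `modRel_up`, `modRel_down` : `Φ_q(j_{d}, j_{dq}) = 0 = Φ_q(j_{dq}, j_d)` in `F_N`, `d q ∣ N`.
* `wildE_alpha` (WILD, `e = q`, `f = 1`): `O` a valuation subring of `K` with uniformiser
  `ϖ = x - x'`, `x' = j_{dq}`, `dd = j_d` (`d q ∣ N`), `q ∈ ϖ O`, and
      `z ≡ x ^ q`,  `x' ≡ dd ^ q`  modulo `ϖ`,   `dd ^ (q²) - dd ∈ Oˣ`.
  Then `L` has EXACTLY ONE valuation subring `V` over `O` along `α`; `T = y - j_d` is a
  uniformiser of `V`, `T ^ q = α ϖ · unit`, residue degree one.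
  (Board CAR3 §2, component `i ≥ 2`, `2 i ≤ e`:  `d₀ = q ^ (e - 2)`, `d = q ^ (e - 2 i)`.)
* `insepE_witness` (INSEP, `e = 1`, `f = q`): if `z ≡ x ^ q` modulo `𝔪_O`, then for EVERY
  valuation subring `V` of `L` over `O`:  `y ∈ V` and `y ^ q ≡ α x` modulo `𝔪_V`
  (the witness `z₀ = y`, `c₀ = x` of `S36.H253.eng_nr_insep`).
-/

set_option autoImplicit false
set_option linter.unusedSectionVars false
set_option linter.style.haveILetI false
set_option synthInstance.maxHeartbeats 400000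
set_option maxHeartbeats 1600000

noncomputable section

namespace Fermat.Agent.S45.H972

open ModularCurve HahnSeries Polynomial AlgebraicCurve
open Fermat.Agent.A2 Fermat.Agent.A2.Mod Fermat.Agent.A2.H48 Fermat.Agent.S28
open Fermat.Agent.S36.H972
open Fermat.Agent.S45.H693 (evY comp_evY)

/-! ## The modular relations in `F_N` -/

section ModRel

variable {E : IntermediateField ℚ _root_.Fermat.Agent.A2.Mod.Qb} {q : ℕ} [NeZero q]

theorem evalAt_eq_evY (b : LaurentSeries ℤ) : evalAt b = evY b := by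
  apply Polynomial.ringHom_ext
  · intro c
    simp [evalAt]
  · simp [evalAt]

/-- `Φ(X := j(t^d), Y := j(t^{dq})) = 0` over `E((t))`. -/
theorem modRel_series_up (Φ : ModPolyData q) (d : ℕ) [NeZero d] :
    Φ.Φ.eval₂ (evY (castE E (qExpand ℤ (d * q) (jqModC ℤ))))
      (castE E (qExpand ℤ d (jqModC ℤ))) = 0 := by
  have h := congrArg ((castE E).comp (qExpand ℤ d)) Φ.eval_j
  rw [map_zero, Polynomial.hom_eval₂, evalAt_eq_evY, comp_evY] at h
  simp only [RingHom.comp_apply] at h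
  rwa [qExpand_qExpand q d (jqModC ℤ)] at h

/-- `Φ(X := j(t^{dq}), Y := j(t^d)) = 0` over `E((t))`. -/
theorem modRel_series_down (Φ : ModPolyData q) (d : ℕ) [NeZero d] :
    Φ.Φ.eval₂ (evY (castE E (qExpand ℤ d (jqModC ℤ))))
      (castE E (qExpand ℤ (d * q) (jqModC ℤ))) = 0 := by
  have h := congrArg ((castE E).comp (qExpand ℤ d)) Φ.eval_jp
  rw [map_zero, Polynomial.hom_eval₂, evalAt_eq_evY, comp_evY] at h
  simp only [RingHom.comp_apply] at h
  rwa [qExpand_qExpand q d (jqModC ℤ)] at h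

variable {N : ℕ}

/-- `Φ_q(X := j_d, Y := j_{dq}) = 0` in `F_N`. -/
theorem modRel_up (Φ : ModPolyData q) (d : ℕ) [NeZero d] (hd : d ∣ N) (hdq : d * q ∣ N) :
    Φ.Φ.eval₂ (evY (jE E N (d * q) hdq)) (jE E N d hd) = 0 := by
  apply (H378.valHom E N).injective
  rw [map_zero, Polynomial.hom_eval₂, comp_evY, H378.valHom_apply, H378.valHom_apply,
    coe_jE', coe_jE']
  exact modRel_series_up Φ d

/-- `Φ_q(X := j_{dq}, Y := j_d) = 0` in `F_N`. -/
theorem modRel_down (Φ : ModPolyData q) (d : ℕ) [NeZero d] (hd : d ∣ N) (hdq : d * q ∣ N) :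
    Φ.Φ.eval₂ (evY (jE E N d hd)) (jE E N (d * q) hdq) = 0 := by
  apply (H378.valHom E N).injective
  rw [map_zero, Polynomial.hom_eval₂, comp_evY, H378.valHom_apply, H378.valHom_apply,
    coe_jE', coe_jE']
  exact modRel_series_down Φ d

theorem jE_congr {d d' : ℕ} [NeZero d] [NeZero d'] (h : d = d') (hd : d ∣ N) (hd' : d' ∣ N) :
    jE E N d hd = jE E N d' hd' := by
  subst h
  rfl

end ModRel

/-! ## The minimal polynomial of the new chain element -/

section Chain

variable {P : ValuationSubring _root_.Fermat.Agent.A2.Mod.Qb} {E : IntermediateField ℚ _root_.Fermat.Agent.A2.Mod.Qb} {N q d₀ : ℕ}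
  [NeZero N] [NeZero q] [NeZero d₀]

/-- `Ψ(Y) = Φ_q(Y, x) / (Y - z)` over a valuation subring `O ∋ x, z` of `F_N`. -/
def chainPsi (Φ : ModPolyData q) (O : ValuationSubring (_root_.Fermat.Agent.A2.Mod.FE E N)) (x z : O) : Polynomial O :=
  (Φ.Φ.map (evY x)) /ₘ (Polynomial.X - Polynomial.C z)

theorem map_evY_monic {A : Type*} [CommRing A] [Nontrivial A] (Φ : ModPolyData q) (x : A) :
    (Φ.Φ.map (evY x)).Monic := Φ.monic.map _

theorem chainPsi_fac (Φ : ModPolyData q) (O : ValuationSubring (_root_.Fermat.Agent.A2.Mod.FE E N))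
    (hlo : d₀ ∣ N) (hmid : d₀ * q ∣ N)
    (hz : jE E N d₀ hlo ∈ O) (hx : jE E N (d₀ * q) hmid ∈ O) :
    Φ.Φ.map (evY (⟨_, hx⟩ : O)) =
      (Polynomial.X - Polynomial.C (⟨_, hz⟩ : O)) * chainPsi Φ O ⟨_, hx⟩ ⟨_, hz⟩ := by
  have hroot : (Φ.Φ.map (evY (⟨_, hx⟩ : O))).IsRoot (⟨_, hz⟩ : O) := by
    rw [Polynomial.IsRoot.def, Polynomial.eval_map]
    apply Subtype.val_injective
    show O.subtype _ = O.subtype 0
    rw [map_zero, Polynomial.hom_eval₂, comp_evY]
    exact modRel_up Φ d₀ hlo hmid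
  exact (Polynomial.mul_divByMonic_eq_iff_isRoot.mpr hroot).symm

theorem chainPsi_monic (Φ : ModPolyData q) (O : ValuationSubring (_root_.Fermat.Agent.A2.Mod.FE E N))
    (hlo : d₀ ∣ N) (hmid : d₀ * q ∣ N)
    (hz : jE E N d₀ hlo ∈ O) (hx : jE E N (d₀ * q) hmid ∈ O) :
    (chainPsi Φ O ⟨_, hx⟩ ⟨_, hz⟩).Monic := by
  have h := map_evY_monic Φ (⟨_, hx⟩ : O)
  rw [chainPsi_fac Φ O hlo hmid hz hx] at h
  exact (Polynomial.monic_X_sub_C _).of_mul_monic_left h

theorem chainPsi_natDegree (Φ : ModPolyData q) (O : ValuationSubring (_root_.Fermat.Agent.A2.Mod.FE E N)) (x z : O) :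
    (chainPsi Φ O x z).natDegree = q := by
  rw [chainPsi, Polynomial.natDegree_divByMonic _ (Polynomial.monic_X_sub_C _),
    Φ.monic.natDegree_map, Φ.natDegree_eq, Polynomial.natDegree_X_sub_C, Nat.add_sub_cancel]

/-- **The minimal polynomial of `y = j_{d₀qq}` over `F_N`** is `chainPsi`, and `F_{Nq} = F_N[y]`
(`N = d₀ q M'`, `q ∤ M'`). -/
theorem minpoly_chain (hq : q.Prime) (Φ : ModPolyData q) {M' : ℕ} [NeZero M']
    (hN : N = d₀ * q * M') (hqM : ¬ q ∣ M')
    (O : ValuationSubring (_root_.Fermat.Agent.A2.Mod.FE E N)) (hlo : d₀ ∣ N) (hmid : d₀ * q ∣ N)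
    (hhi : d₀ * (q * q) ∣ N * q)
    (hz : jE E N d₀ hlo ∈ O) (hx : jE E N (d₀ * q) hmid ∈ O) :
    letI : Algebra (_root_.Fermat.Agent.A2.Mod.FE E N) (_root_.Fermat.Agent.A2.Mod.FE E (N * q)) := algebraAlong (αE E N q)
    (chainPsi Φ O ⟨_, hx⟩ ⟨_, hz⟩).eval₂ (phi O) (jE E (N * q) (d₀ * (q * q)) hhi) = 0 ∧
    minpoly (_root_.Fermat.Agent.A2.Mod.FE E N) (jE E (N * q) (d₀ * (q * q)) hhi) =
      (chainPsi Φ O ⟨_, hx⟩ ⟨_, hz⟩).map O.subtype ∧
    ∀ f : _root_.Fermat.Agent.A2.Mod.FE E (N * q), ∃ Q : Polynomial (_root_.Fermat.Agent.A2.Mod.FE E N),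
      Polynomial.aeval (jE E (N * q) (d₀ * (q * q)) hhi) Q = f := by
  letI : Algebra (_root_.Fermat.Agent.A2.Mod.FE E N) (_root_.Fermat.Agent.A2.Mod.FE E (N * q)) := algebraAlong (αE E N q)
  haveI : FiniteDimensional (_root_.Fermat.Agent.A2.Mod.FE E N) (_root_.Fermat.Agent.A2.Mod.FE E (N * q)) := finite_alphaD hq
  have hqN : q ∣ N := Dvd.dvd.trans (dvd_mul_left q d₀) hmid
  have halg : ∀ k : _root_.Fermat.Agent.A2.Mod.FE E N,
      algebraMap (_root_.Fermat.Agent.A2.Mod.FE E N) (_root_.Fermat.Agent.A2.Mod.FE E (N * q)) k = αE E N q k := fun k => rfl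
  set y : _root_.Fermat.Agent.A2.Mod.FE E (N * q) := jE E (N * q) (d₀ * (q * q)) hhi with hy
  have hmonic := chainPsi_monic Φ O hlo hmid hz hx
  have hdeg : (chainPsi Φ O ⟨_, hx⟩ ⟨_, hz⟩).natDegree =
      Module.finrank (_root_.Fermat.Agent.A2.Mod.FE E N) (_root_.Fermat.Agent.A2.Mod.FE E (N * q)) := by
    rw [finrank_alphaD hq hqN, chainPsi_natDegree]
  have hyK : y ∉ (algebraMap (_root_.Fermat.Agent.A2.Mod.FE E N) (_root_.Fermat.Agent.A2.Mod.FE E (N * q))).range := by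
    rintro ⟨g, hg⟩
    exact jhi_not_mem_range hN hqM hhi g hg
  have hprime : (Module.finrank (_root_.Fermat.Agent.A2.Mod.FE E N) (_root_.Fermat.Agent.A2.Mod.FE E (N * q))).Prime := by
    rw [finrank_alphaD hq hqN]
    exact hq
  have hroot : (chainPsi Φ O ⟨_, hx⟩ ⟨_, hz⟩).eval₂ (phi O) y = 0 := by
    have h1 : (Φ.Φ.map (evY (⟨_, hx⟩ : O))).eval₂ (phi (L := _root_.Fermat.Agent.A2.Mod.FE E (N * q)) O) y = 0 := by
      rw [Polynomial.eval₂_map, comp_evY, phi_apply, halg]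
      show Φ.Φ.eval₂ (evY (αE E N q (jE E N (d₀ * q) hmid))) y = 0
      rw [H553.αE_jE E N q (d₀ * q) hmid]
      have h2 := modRel_down (E := E) (N := N * q) Φ (d₀ * q)
        (Dvd.dvd.trans hmid (dvd_mul_right N q))
        (by rw [mul_assoc]; exact hhi)
      rwa [jE_congr (mul_assoc d₀ q q) _ hhi] at h2
    rw [chainPsi_fac Φ O hlo hmid hz hx, Polynomial.eval₂_mul, Polynomial.eval₂_sub,
      Polynomial.eval₂_X, Polynomial.eval₂_C] at h1
    rcases mul_eq_zero.mp h1 with h0 | h0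
    · exfalso
      apply hyK
      refine ⟨jE E N d₀ hlo, ?_⟩
      rw [phi_apply] at h0
      exact (sub_eq_zero.mp h0).symm
    · exact h0
  have hmin := minpoly_eq_map_of_prime hmonic hprime hdeg hroot hyK
  exact ⟨hroot, hmin, gen_of_natDegree_eq hmin hdeg⟩

end Chain

/-! ## The two one-extension steps -/

section Steps

variable {P : ValuationSubring _root_.Fermat.Agent.A2.Mod.Qb} {E : IntermediateField ℚ _root_.Fermat.Agent.A2.Mod.Qb} {N q d₀ d : ℕ}
  [NeZero N] [NeZero q] [NeZero d₀] [NeZero d]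

/-- **WILD-E, `α`-side (concrete).**  `N = d₀ q M'`, `q ∤ M'`, `d q ∣ N`;  `O` a valuation subring
of `F_N` with uniformiser `ϖ = j_{d₀q} - j_{dq}`, `q ∈ ϖ O`, and
`j_{d₀} ≡ j_{d₀q} ^ q`, `j_{dq} ≡ j_d ^ q` modulo `ϖ`, `j_d ^ (q²) - j_d ∈ Oˣ`.
Then there is EXACTLY ONE valuation subring `V` of `F_{Nq}` over `O` along `α`;
`T = j_{d₀qq} - j_d` is a uniformiser of `V`, `T ^ q = α ϖ · unit`, residue degree one. -/
theorem wildE_alpha (hq : q.Prime) {M' : ℕ} [NeZero M'] (hN : N = d₀ * q * M')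
    (hqM : ¬ q ∣ M')
    (hlo : d₀ ∣ N) (hmid : d₀ * q ∣ N) (hhi : d₀ * (q * q) ∣ N * q)
    (hd : d ∣ N) (hdq : d * q ∣ N) (hd' : d ∣ N * q)
    (O : ValuationSubring (_root_.Fermat.Agent.A2.Mod.FE E N))
    (hz : jE E N d₀ hlo ∈ O) (hx : jE E N (d₀ * q) hmid ∈ O)
    (hx' : jE E N (d * q) hdq ∈ O) (hdd : jE E N d hd ∈ O)
    (hO : IsUnif O (jE E N (d₀ * q) hmid - jE E N (d * q) hdq))
    (harch : ∀ a : _root_.Fermat.Agent.A2.Mod.FE E N, ∃ k : ℕ, (jE E N (d₀ * q) hmid - jE E N (d * q) hdq) ^ k * a ∈ O)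
    (hpO : ((q : ℕ) : _root_.Fermat.Agent.A2.Mod.FE E N) * (jE E N (d₀ * q) hmid - jE E N (d * q) hdq)⁻¹ ∈ O)
    (hcz : (jE E N d₀ hlo - jE E N (d₀ * q) hmid ^ q) *
      (jE E N (d₀ * q) hmid - jE E N (d * q) hdq)⁻¹ ∈ O)
    (hcx' : (jE E N (d * q) hdq - jE E N d hd ^ q) *
      (jE E N (d₀ * q) hmid - jE E N (d * q) hdq)⁻¹ ∈ O)
    (hu0 : jE E N d hd ^ (q ^ 2) - jE E N d hd ≠ 0)
    (hu : (jE E N d hd ^ (q ^ 2) - jE E N d hd)⁻¹ ∈ O) :
    ∃ V : ValuationSubring (_root_.Fermat.Agent.A2.Mod.FE E (N * q)),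
      (∀ k : _root_.Fermat.Agent.A2.Mod.FE E N, αE E N q k ∈ V ↔ k ∈ O) ∧
      jE E (N * q) (d₀ * (q * q)) hhi ∈ V ∧
      IsUnif V (jE E (N * q) (d₀ * (q * q)) hhi - jE E (N * q) d hd') ∧
      (∃ u : _root_.Fermat.Agent.A2.Mod.FE E (N * q), u ∈ V ∧ u⁻¹ ∈ V ∧
        (jE E (N * q) (d₀ * (q * q)) hhi - jE E (N * q) d hd') ^ q =
          αE E N q (jE E N (d₀ * q) hmid - jE E N (d * q) hdq) * u) ∧
      (∀ f ∈ V, ∃ g ∈ O, (f - αE E N q g) *
        (jE E (N * q) (d₀ * (q * q)) hhi - jE E (N * q) d hd')⁻¹ ∈ V) ∧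
      (∀ V' : ValuationSubring (_root_.Fermat.Agent.A2.Mod.FE E (N * q)),
        (∀ k : _root_.Fermat.Agent.A2.Mod.FE E N, αE E N q k ∈ V' ↔ k ∈ O) → V' = V) := by
  letI : Algebra (_root_.Fermat.Agent.A2.Mod.FE E N) (_root_.Fermat.Agent.A2.Mod.FE E (N * q)) := algebraAlong (αE E N q)
  obtain ⟨Φ⟩ := Fermat.Agent.S28.H326.nonempty_modPolyData q hq
  haveI : Fact q.Prime := ⟨hq⟩
  obtain ⟨Θ, hKron⟩ := h88_kronecker_int q Φ
  obtain ⟨-, hmin, hgen⟩ := minpoly_chain hq Φ hN hqM O hlo hmid hhi hz hx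
  have hrel : Φ.Φ.eval₂ (evY (⟨_, hx'⟩ : O)) (⟨_, hdd⟩ : O) = 0 := by
    apply Subtype.val_injective
    show O.subtype _ = O.subtype 0
    rw [map_zero, Polynomial.hom_eval₂, comp_evY]
    exact modRel_up Φ d hd hdq
  have hα : algebraMap (_root_.Fermat.Agent.A2.Mod.FE E N) (_root_.Fermat.Agent.A2.Mod.FE E (N * q)) (jE E N d hd) = jE E (N * q) d hd' :=
    H553.αE_jE E N q d hd
  have h := Fermat.Agent.S45.H693.wild_step (L := _root_.Fermat.Agent.A2.Mod.FE E (N * q)) q hq hO harch hpO hKron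
    (x := ⟨_, hx⟩) (x' := ⟨_, hx'⟩) (d := ⟨_, hdd⟩) (z := ⟨_, hz⟩)
    (chainPsi_fac Φ O hlo hmid hz hx) hrel rfl hcz hcx' hu0 hu
    (chainPsi_monic Φ O hlo hmid hz hx) hmin hgen
  obtain ⟨V, h1, h2, h3, h4, h5, h6⟩ := h
  simp only [hα] at h3 h4 h5
  exact ⟨V, h1, h2, h3, h4, h5, h6⟩

/-- **INSEP-E (concrete): the congruence `Ψ ≡ Y ^ q - x`.**  If `j_{d₀} ≡ j_{d₀q} ^ q` modulo
`𝔪_O` (the last step of the chain below is a Verschiebung) and `q ∈ 𝔪_O`, then the minimal
polynomial `Ψ` of `y = j_{d₀qq}` is `≡ Y ^ q - j_{d₀q}` modulo `𝔪_O`, coefficientwise. -/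
theorem insepE_congr (hq : q.Prime) (Φ : ModPolyData q)
    (hlo : d₀ ∣ N) (hmid : d₀ * q ∣ N)
    (O : ValuationSubring (_root_.Fermat.Agent.A2.Mod.FE E N))
    (hz : jE E N d₀ hlo ∈ O) (hx : jE E N (d₀ * q) hmid ∈ O)
    (hpO : ((q : ℕ) : _root_.Fermat.Agent.A2.Mod.FE E N) ∈ O.nonunits)
    (hcz : jE E N d₀ hlo - jE E N (d₀ * q) hmid ^ q ∈ O.nonunits) :
    (chainPsi Φ O ⟨_, hx⟩ ⟨_, hz⟩).map (IsLocalRing.residue O) =
      Polynomial.X ^ q - Polynomial.C (IsLocalRing.residue O ⟨_, hx⟩) := by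
  classical
  haveI : Fact q.Prime := ⟨hq⟩
  obtain ⟨Θ, hKron⟩ := h88_kronecker_int q Φ
  set res : O →+* IsLocalRing.ResidueField O := IsLocalRing.residue O with hres
  have hres0 : ∀ a : O, (a : _root_.Fermat.Agent.A2.Mod.FE E N) ∈ O.nonunits → res a = 0 := by
    intro a ha
    rw [hres, IsLocalRing.residue_eq_zero_iff]
    exact (ValuationSubring.mem_nonunits_iff_exists_mem_maximalIdeal).1 ha |>.2
  have hpκ : ((q : ℕ) : IsLocalRing.ResidueField O) = 0 := by
    have h1 : res ((q : ℕ) : O) = 0 := hres0 _ (by push_cast; exact hpO)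
    rwa [map_natCast] at h1
  haveI : CharP (IsLocalRing.ResidueField O) q := (CharP.charP_iff_prime_eq_zero hq).2 hpκ
  have hzb : res ⟨_, hz⟩ = res ⟨_, hx⟩ ^ q := by
    have h1 : res ((⟨_, hz⟩ : O) - (⟨_, hx⟩ : O) ^ q) = 0 := hres0 _ (by push_cast; exact hcz)
    rw [map_sub, map_pow, sub_eq_zero] at h1
    exact h1
  have h1 : (Φ.Φ.map (evY (⟨_, hx⟩ : O))).map res =
      (Polynomial.X - Polynomial.C (res ⟨_, hz⟩)) *
        (chainPsi Φ O ⟨_, hx⟩ ⟨_, hz⟩).map res := by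
    rw [chainPsi_fac Φ O hlo hmid hz hx]
    simp
  rw [Polynomial.map_map, comp_evY, Fermat.Agent.S45.H693.kron_map_evY q hKron, hzb] at h1
  have hne : (Polynomial.X - Polynomial.C (res ⟨_, hx⟩ ^ q) :
      Polynomial (IsLocalRing.ResidueField O)) ≠ 0 := Polynomial.X_sub_C_ne_zero _
  refine (mul_left_cancel₀ hne ?_).symm
  rw [← h1]
  ring

/-- Non-units of a valuation subring, elementwise. -/
theorem mem_nonunits_iff_inv_notMem {F : Type*} [Field F] (V : ValuationSubring F) (x : F) :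
    x ∈ V.nonunits ↔ x = 0 ∨ x⁻¹ ∉ V := by
  rw [ValuationSubring.mem_nonunits_iff]
  by_cases hx : x = 0
  · subst hx
    simp
  · have hv : 0 < V.valuation x := by rw [Valuation.pos_iff]; exact hx
    rw [← V.valuation_le_one_iff, map_inv₀, not_le, one_lt_inv₀ hv]
    simp [hx]

/-- `α` maps `𝔪_O` into `𝔪_V` if `V` lies over `O`. -/
theorem alpha_mem_nonunits_of_over {O : ValuationSubring (_root_.Fermat.Agent.A2.Mod.FE E N)}
    {V : ValuationSubring (_root_.Fermat.Agent.A2.Mod.FE E (N * q))} (hV : ∀ k : _root_.Fermat.Agent.A2.Mod.FE E N, αE E N q k ∈ V ↔ k ∈ O)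
    {c : _root_.Fermat.Agent.A2.Mod.FE E N} (hc : c ∈ O.nonunits) : αE E N q c ∈ V.nonunits := by
  rw [mem_nonunits_iff_inv_notMem] at hc ⊢
  rcases hc with rfl | hc
  · left
    exact map_zero _
  · right
    rw [← map_inv₀, hV]
    exact hc

/-- **INSEP-E (concrete): the witness.**  If `j_{d₀} ≡ j_{d₀q} ^ q` modulo `𝔪_O` and `q ∈ 𝔪_O`,
then for EVERY valuation subring `V` of `F_{Nq}` over `O` along `α`: `y = j_{d₀qq} ∈ V` and
`y ^ q ≡ α (j_{d₀q})` modulo `𝔪_V`  (the witness `z₀ = y`, `c₀ = j_{d₀q}` of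
`S36.H253.eng_nr_insep` / `normResInsep_all`). -/
theorem insepE_witness (hq : q.Prime) {M' : ℕ} [NeZero M'] (hN : N = d₀ * q * M')
    (hqM : ¬ q ∣ M')
    (hlo : d₀ ∣ N) (hmid : d₀ * q ∣ N) (hhi : d₀ * (q * q) ∣ N * q)
    (O : ValuationSubring (_root_.Fermat.Agent.A2.Mod.FE E N))
    (hz : jE E N d₀ hlo ∈ O) (hx : jE E N (d₀ * q) hmid ∈ O)
    (hpO : ((q : ℕ) : _root_.Fermat.Agent.A2.Mod.FE E N) ∈ O.nonunits)
    (hcz : jE E N d₀ hlo - jE E N (d₀ * q) hmid ^ q ∈ O.nonunits)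
    (V : ValuationSubring (_root_.Fermat.Agent.A2.Mod.FE E (N * q)))
    (hV : ∀ k : _root_.Fermat.Agent.A2.Mod.FE E N, αE E N q k ∈ V ↔ k ∈ O) :
    jE E (N * q) (d₀ * (q * q)) hhi ∈ V ∧
      jE E (N * q) (d₀ * (q * q)) hhi ^ q - αE E N q (jE E N (d₀ * q) hmid) ∈ V.nonunits := by
  classical
  letI : Algebra (_root_.Fermat.Agent.A2.Mod.FE E N) (_root_.Fermat.Agent.A2.Mod.FE E (N * q)) := algebraAlong (αE E N q)
  obtain ⟨Φ⟩ := Fermat.Agent.S28.H326.nonempty_modPolyData q hq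
  obtain ⟨hroot, -, -⟩ := minpoly_chain hq Φ hN hqM O hlo hmid hhi hz hx
  have halg : ∀ k : _root_.Fermat.Agent.A2.Mod.FE E N,
      algebraMap (_root_.Fermat.Agent.A2.Mod.FE E N) (_root_.Fermat.Agent.A2.Mod.FE E (N * q)) k = αE E N q k := fun k => rfl
  set y : _root_.Fermat.Agent.A2.Mod.FE E (N * q) := jE E (N * q) (d₀ * (q * q)) hhi with hy
  set Ψ : Polynomial O := chainPsi Φ O ⟨_, hx⟩ ⟨_, hz⟩ with hΨ
  have hmonic : Ψ.Monic := chainPsi_monic Φ O hlo hmid hz hx
  -- `y ∈ V`: `y` is integral over `V`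
  let ι : O →+* V :=
    { toFun := fun k => ⟨αE E N q (k : _root_.Fermat.Agent.A2.Mod.FE E N), (hV _).2 k.2⟩
      map_one' := Subtype.ext (map_one _)
      map_mul' := fun a b => Subtype.ext (map_mul _ _ _)
      map_zero' := Subtype.ext (map_zero _)
      map_add' := fun a b => Subtype.ext (map_add _ _ _) }
  have hι : (algebraMap V (_root_.Fermat.Agent.A2.Mod.FE E (N * q))).comp ι = phi (L := _root_.Fermat.Agent.A2.Mod.FE E (N * q)) O := by
    refine RingHom.ext fun k => ?_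
    rw [RingHom.comp_apply, phi_apply, halg]
    rfl
  have hyint : IsIntegral V y := by
    refine ⟨Ψ.map ι, hmonic.map _, ?_⟩
    rw [Polynomial.eval₂_map, hι]
    exact hroot
  have hyV : y ∈ V := by
    obtain ⟨v, hv⟩ := (IsIntegrallyClosed.isIntegral_iff (R := V) (K := _root_.Fermat.Agent.A2.Mod.FE E (N * q))).1 hyint
    rw [← hv]
    exact v.2
  refine ⟨hyV, ?_⟩
  -- the congruence
  have hcong := insepE_congr hq Φ hlo hmid O hz hx hpO hcz
  set D : Polynomial O := Ψ - (Polynomial.X ^ q - Polynomial.C (⟨_, hx⟩ : O)) with hD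
  have hDres : D.map (IsLocalRing.residue O) = 0 := by
    rw [hD, Polynomial.map_sub, hcong]
    simp
  have hDcoeff : ∀ i, ((D.coeff i : O) : _root_.Fermat.Agent.A2.Mod.FE E N) ∈ O.nonunits := by
    intro i
    have h1 : (D.map (IsLocalRing.residue O)).coeff i = 0 := by
      rw [hDres, Polynomial.coeff_zero]
    rw [Polynomial.coeff_map, IsLocalRing.residue_eq_zero_iff] at h1
    exact (ValuationSubring.mem_nonunits_iff_exists_mem_maximalIdeal).2 ⟨(D.coeff i).2, h1⟩
  have hDy : D.eval₂ (phi (L := _root_.Fermat.Agent.A2.Mod.FE E (N * q)) O) y =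
      -(y ^ q - αE E N q (jE E N (d₀ * q) hmid)) := by
    rw [hD, Polynomial.eval₂_sub, hroot, Polynomial.eval₂_sub, Polynomial.eval₂_pow,
      Polynomial.eval₂_X, Polynomial.eval₂_C, phi_apply, halg]
    ring
  have hval : V.valuation (D.eval₂ (phi (L := _root_.Fermat.Agent.A2.Mod.FE E (N * q)) O) y) < 1 := by
    rw [Polynomial.eval₂_eq_sum_range]
    refine Valuation.map_sum_lt _ one_ne_zero fun i _ => ?_
    rw [map_mul, map_pow]
    have h1 : V.valuation (phi (L := _root_.Fermat.Agent.A2.Mod.FE E (N * q)) O (D.coeff i)) < 1 := by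
      rw [phi_apply, halg, ← ValuationSubring.mem_nonunits_iff]
      exact alpha_mem_nonunits_of_over hV (hDcoeff i)
    have h2 : V.valuation y ^ i ≤ 1 :=
      pow_le_one₀ zero_le ((V.valuation_le_one_iff y).2 hyV)
    calc V.valuation (phi (L := _root_.Fermat.Agent.A2.Mod.FE E (N * q)) O (D.coeff i)) * V.valuation y ^ i
        ≤ V.valuation (phi (L := _root_.Fermat.Agent.A2.Mod.FE E (N * q)) O (D.coeff i)) * 1 := by
          gcongr
      _ < 1 := by rwa [mul_one]
  rw [ValuationSubring.mem_nonunits_iff]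
  rw [hDy, Valuation.map_neg] at hval
  exact hval

end Steps

end Fermat.Agent.S45.H972

end

end
-- ===== PACK-END S45/H972/WildE.lean

-- ===== PACK-BEGIN S45/ModE/H83/SplitRows.lean
section






/-!
# S45 / CAR3 / MOD-E — ABS-S adapter (helper83): the rows `i ≤ 1` along `α`

Board `origin/helper928:coord/S45-MODE-helper928.md`, leaf ABS-S (helper972 / helper83).

Input: helper972 `S45.H972.splitE_alpha_pow` (general level `N = M q ^ n`, `q ∤ M`, `n ≥ 1`):
over the Gauss valuation ring `V' 0 = V∞(N)` there are exactly two valuation rings of `F_{Nq}`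
along `α`, the Gauss valuation ring `V∞(N q)` and `V_mid`.

Output (this file), in the vocabulary of `S45/ModE/Spec.lean`, from `StdE`, `1 ≤ n`,
`IsVinf (V' 0)`, `IsVinf (V 0)`, `V 1` over `V' 0` along `α`, `V 1 ≠ V 0` (i.e. from the fields
`LevelCtx.vinf`, `ObjsE.vinf`, `ObjsE.lies 1`, `ObjsE.one_ne`):

* `SplitRows83` : the rows `i = 0, 1` of TABLE-E (`comap_α₀`), ONLY-E (`only_α₀`), VAL-E (`dvr`,
  `ne`, `ram`), RES-E (`res_α`), UNIF-E (`unif` at `i = 1`), KRON-E (`frob`, `ver`, `unit`);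
* leaf-shaped corollaries `*_of_ctx83` from `LevelCtx` (lower) and `ObjsE`, and the WIT-E rows
  `wit_lo` at `i = 0, 1` from the lower `wit`.

Sorry-free; Mathlib + main + `S45/H972/SplitE.lean` only.
-/

set_option autoImplicit false
set_option linter.style.haveILetI false
set_option linter.unusedSectionVars false
set_option linter.unusedVariables false
set_option synthInstance.maxHeartbeats 400000
set_option maxHeartbeats 1600000

noncomputable section

namespace Fermat.Agent.S45.ModE.H83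

open ModularCurve
open Fermat.Agent.A2.Mod
open Fermat.Agent.S36 Fermat.Agent.S36.Eng

/-! ## Generalities on valuation subrings (Mathlib only) -/

section Gen

variable {F F' : Type*} [Field F] [Field F']

theorem sr83_mem_of_mem_nonunits {V : ValuationSubring F} {x : F} (hx : x ∈ V.nonunits) :
    x ∈ V :=
  ValuationSubring.nonunits_subset hx

theorem sr83_nonunits_iff {V : ValuationSubring F} {x : F} :
    x ∈ V.nonunits ↔ V.valuation x < 1 :=
  ValuationSubring.mem_nonunits_iff V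

theorem sr83_add_mem_nonunits {V : ValuationSubring F} {x y : F} (hx : x ∈ V.nonunits)
    (hy : y ∈ V.nonunits) : x + y ∈ V.nonunits := by
  rw [sr83_nonunits_iff] at hx hy ⊢
  exact lt_of_le_of_lt (V.valuation.map_add x y) (max_lt hx hy)

theorem sr83_neg_mem_nonunits {V : ValuationSubring F} {x : F} (hx : x ∈ V.nonunits) :
    -x ∈ V.nonunits := by
  rw [sr83_nonunits_iff] at hx ⊢
  rwa [Valuation.map_neg]

theorem sr83_sub_mem_nonunits {V : ValuationSubring F} {x y : F} (hx : x ∈ V.nonunits)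
    (hy : y ∈ V.nonunits) : x - y ∈ V.nonunits := by
  rw [sub_eq_add_neg]
  exact sr83_add_mem_nonunits hx (sr83_neg_mem_nonunits hy)

theorem sr83_mul_mem_nonunits {V : ValuationSubring F} {x y : F} (hx : x ∈ V)
    (hy : y ∈ V.nonunits) : x * y ∈ V.nonunits := by
  rw [sr83_nonunits_iff] at hy ⊢
  rw [map_mul]
  have hx1 : V.valuation x ≤ 1 := (V.valuation_le_one_iff x).2 hx
  calc V.valuation x * V.valuation y ≤ 1 * V.valuation y := mul_le_mul_left hx1 _
    _ = V.valuation y := one_mul _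
    _ < 1 := hy

/-- `x w⁻¹ ∈ V`, `w ∈ 𝔪_V`, `w ≠ 0` ⟹ `x ∈ 𝔪_V`. -/
theorem sr83_mem_nonunits_of_mul_inv {V : ValuationSubring F} {x w : F} (hw0 : w ≠ 0)
    (hw : w ∈ V.nonunits) (h : x * w⁻¹ ∈ V) : x ∈ V.nonunits := by
  have e : x = x * w⁻¹ * w := by
    rw [mul_assoc, inv_mul_cancel₀ hw0, mul_one]
  rw [e]
  exact sr83_mul_mem_nonunits h hw

theorem sr83_isUnif_mem_nonunits {V : ValuationSubring F} {ϖ : F}
    (h : Fermat.Agent.A2.H48.IsUnif V ϖ) : ϖ ∈ V.nonunits := by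
  rw [ValuationSubring.mem_nonunits_iff_or]
  exact Or.inr h.inv_not_mem

theorem sr83_unifAt_of_isUnif {V : ValuationSubring F} {ϖ : F}
    (h : Fermat.Agent.A2.H48.IsUnif V ϖ) : UnifAt V ϖ := by
  refine ⟨h.ne_zero, sr83_isUnif_mem_nonunits h, fun f hf => ?_⟩
  have hfV : f ∈ V := sr83_mem_of_mem_nonunits hf
  rw [ValuationSubring.mem_nonunits_iff_or] at hf
  rcases hf with rfl | hf
  · rw [zero_mul]
    exact V.zero_mem
  · exact h.gen f hfV hf

/-- Along a field homomorphism `φ` with `V.comap φ = V'`: the nonunits correspond. -/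
theorem sr83_nonunits_comap (φ : F' →+* F) {V : ValuationSubring F} {V' : ValuationSubring F'}
    (h : V.comap φ = V') (g : F') : φ g ∈ V.nonunits ↔ g ∈ V'.nonunits := by
  have hm : ∀ x : F', φ x ∈ V ↔ x ∈ V' := fun x => by
    rw [← h, ValuationSubring.mem_comap]
  rw [ValuationSubring.mem_nonunits_iff_or, ValuationSubring.mem_nonunits_iff_or]
  constructor
  · rintro (h0 | h1)
    · left
      exact (map_eq_zero φ).mp h0
    · right
      intro hg
      apply h1
      rw [← map_inv₀]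
      exact (hm _).mpr hg
  · rintro (h0 | h1)
    · left
      rw [h0, map_zero]
    · right
      intro hg
      apply h1
      rw [← map_inv₀] at hg
      exact (hm _).mp hg

/-- A unit plus a nonunit is a unit. -/
theorem sr83_unitAt_add {V : ValuationSubring F} {x y : F} (hx : UnitAt V x)
    (hy : y ∈ V.nonunits) : UnitAt V (x + y) := by
  obtain ⟨hx0, hxV, hxi⟩ := hx
  have hv : V.valuation x = 1 := by
    have h1 : V.valuation x ≤ 1 := (V.valuation_le_one_iff x).2 hxV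
    have h2 : V.valuation x⁻¹ ≤ 1 := (V.valuation_le_one_iff _).2 hxi
    rw [map_inv₀] at h2
    have h3 : V.valuation x ≠ 0 := (Valuation.ne_zero_iff _).2 hx0
    have h4 : 1 ≤ V.valuation x := by
      rwa [inv_le_one₀ (zero_lt_iff.2 h3)] at h2
    exact le_antisymm h1 h4
  have hy1 : V.valuation y < 1 := sr83_nonunits_iff.mp hy
  have hs : V.valuation (x + y) = 1 := by
    rw [Valuation.map_add_eq_of_lt_left _ (by rw [hv]; exact hy1), hv]
  have hs0 : x + y ≠ 0 := by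
    intro h0
    rw [h0, map_zero] at hs
    exact zero_ne_one hs
  refine ⟨hs0, (V.valuation_le_one_iff _).1 hs.le, (V.valuation_le_one_iff _).1 ?_⟩
  rw [map_inv₀, hs, inv_one]

/-- `x ≡ y mod 𝔪` ⟹ `x ^ k ≡ y ^ k mod 𝔪` (`x, y ∈ V`). -/
theorem sr83_pow_sub_pow_mem {V : ValuationSubring F} {x y : F} (hx : x ∈ V) (hy : y ∈ V)
    (h : x - y ∈ V.nonunits) (k : ℕ) : x ^ k - y ^ k ∈ V.nonunits := by
  induction k with
  | zero =>
    rw [pow_zero, pow_zero, sub_self]
    exact (ValuationSubring.mem_nonunits_iff_or V).mpr (Or.inl rfl)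
  | succ k ih =>
    have e : x ^ (k + 1) - y ^ (k + 1) = x ^ k * (x - y) + y * (x ^ k - y ^ k) := by ring
    rw [e]
    exact sr83_add_mem_nonunits (sr83_mul_mem_nonunits (V.pow_mem hx k) h)
      (sr83_mul_mem_nonunits hy ih)

theorem sr83_unitAt_mul {V : ValuationSubring F} {a b : F}
    (ha : UnitAt V a) (hb : UnitAt V b) : UnitAt V (a * b) :=
  ⟨mul_ne_zero ha.1 hb.1, mul_mem ha.2.1 hb.2.1, by
    rw [mul_inv]
    exact mul_mem ha.2.2 hb.2.2⟩

/-- Units go up along `φ` with `V.comap φ = V'`. -/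
theorem sr83_unitAt_map (φ : F' →+* F) {V : ValuationSubring F} {V' : ValuationSubring F'}
    (h : V.comap φ = V') {g : F'} (hg : UnitAt V' g) : UnitAt V (φ g) := by
  have hm : ∀ x : F', φ x ∈ V ↔ x ∈ V' := fun x => by
    rw [← h, ValuationSubring.mem_comap]
  refine ⟨(map_ne_zero φ).mpr hg.1, (hm g).mpr hg.2.1, ?_⟩
  rw [← map_inv₀]
  exact (hm _).mpr hg.2.2

end Gen

/-! ## Rank one over an Eisenstein-split base (as `S36.Mod3.H775.arch_over775`) -/

section Arch

open Polynomial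

variable {K L : Type*} [Field K] [Field L] [Algebra K L]
variable {O : ValuationSubring K} {y : L} {ϖ : K}

/-- Every valuation ring of `L` lying over `O` is archimedean with respect to the uniformiser
of `O`. -/
theorem sr83_arch_over {Ψ G : O[X]} {a c : O} {n : ℕ} (h : H972.EisData O ϖ y Ψ G a c n)
    (V' : ValuationSubring L) (hV' : ∀ k : K, algebraMap K L k ∈ V' ↔ k ∈ O) (f : L) :
    ∃ k : ℕ, (algebraMap K L ϖ) ^ k * f ∈ V' := by
  obtain ⟨p, rfl⟩ := h.gen f
  obtain ⟨k, hk⟩ := H972.exists_pow_mul_coeff_mem h.arch h.unif p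
  have hlift : Polynomial.C (ϖ ^ k) * p ∈ Polynomial.lifts (O.subtype : O →+* K) := by
    rw [Polynomial.lifts_iff_coeff_lifts]
    intro i
    rw [Polynomial.coeff_C_mul]
    exact ⟨⟨_, hk i⟩, rfl⟩
  obtain ⟨Q, hQ⟩ := (Polynomial.mem_lifts _).1 hlift
  refine ⟨k, ?_⟩
  have h1 := h.coe_mem_of_le V' hV' (H972.evS O y Q)
  rw [H972.coe_evS, H972.eval₂_phi_eq_aeval, hQ, map_mul, Polynomial.aeval_C, map_pow] at h1
  exact h1

end Arch

/-! ## Level arithmetic -/

section Level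

theorem sr83_level {N q n : ℕ} [NeZero N] (hq : q.Prime) (hexp : N.factorization q = n) :
    ∃ M : ℕ, M ≠ 0 ∧ N = M * q ^ n ∧ ¬ q ∣ M := by
  have hN : N ≠ 0 := NeZero.ne N
  subst hexp
  refine ⟨N / q ^ N.factorization q, (Nat.ordCompl_pos q hN).ne', ?_,
    Nat.not_dvd_ordCompl hq hN⟩
  rw [mul_comm]
  exact (Nat.ordProj_mul_ordCompl_eq_self N q).symm

theorem sr83_pow_dvd {N q n : ℕ} (hexp : N.factorization q = n) {l : ℕ} (hl : l ≤ n) :
    q ^ l ∣ N := by
  subst hexp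
  exact (pow_dvd_pow q hl).trans (Nat.ordProj_dvd N q)

theorem sr83_pow_dvd_up {N q n : ℕ} (hexp : N.factorization q = n) {l : ℕ} (hl : l ≤ n + 1) :
    q ^ l ∣ N * q := by
  rcases Nat.eq_zero_or_pos l with h0 | h0
  · subst h0
    rw [pow_zero]
    exact one_dvd _
  · obtain ⟨m, rfl⟩ : ∃ m, l = m + 1 := ⟨l - 1, by omega⟩
    rw [pow_succ]
    exact mul_dvd_mul_right (sr83_pow_dvd hexp (by omega)) q

end Level

/-! ## The concrete rows -/

section Concrete

variable {P : ValuationSubring A2.Qb} {E : IntermediateField ℚ A2.Qb} {N q : ℕ}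
  [NeZero N] [NeZero q] [NeZero (N * q)] {n : ℕ} {w : A2.RE P E}

/-- `StdE` gives the unramifiedness hypothesis of helper972: `q = w · unit` in `R_E`
(as `S36.Mod3.H27.vt27_unram`). -/
theorem sr83_unram (h : StdE P E N q n w) : Fermat.Agent.S36.H972.Unram P E q w := by
  haveI : IsDiscreteValuationRing (A2.RE P E) := h.unram.1.dvr
  have hw0 : (w : E) ≠ 0 := fun h0 => h.unif.ne_zero (Subtype.ext h0)
  have hq0 : ((q : ℕ) : E) ≠ 0 := Nat.cast_ne_zero.mpr (NeZero.ne q)
  have hq0' : ((q : ℕ) : A2.Qb) ≠ 0 := Nat.cast_ne_zero.mpr (NeZero.ne q)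
  -- `w` is a nonunit of `P`
  have hwn : ((w : E) : A2.Qb) ∈ P.nonunits := by
    rw [ValuationSubring.mem_nonunits_iff_or]
    right
    intro hinv
    apply h.unif.not_isUnit
    refine isUnit_iff_exists_inv.mpr ⟨⟨(w : E)⁻¹, ?_⟩, Subtype.ext ?_⟩
    · show algebraMap E A2.Qb ((w : E)⁻¹) ∈ P
      rw [map_inv₀]
      exact hinv
    · show (w : E) * (w : E)⁻¹ = 1
      exact mul_inv_cancel₀ hw0
  have h1 : ((w : E) : A2.Qb) * ((q : A2.Qb))⁻¹ ∈ P := h.unram.2 (w : E) hwn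
  -- `q` lies in the maximal ideal of `R_E`
  have hqmem : ((q : ℕ) : E) ∈ A2.RE P E := natCast_mem (A2.RE P E) q
  have hqm : (⟨((q : ℕ) : E), hqmem⟩ : A2.RE P E) ∈ IsLocalRing.maximalIdeal (A2.RE P E) := by
    rw [IsLocalRing.mem_maximalIdeal, mem_nonunits_iff]
    intro hu
    obtain ⟨b, hb⟩ := isUnit_iff_exists_inv.mp hu
    have hb' : ((q : ℕ) : E) * (b : E) = 1 := congrArg Subtype.val hb
    have hbq : (b : E) = ((q : ℕ) : E)⁻¹ := eq_inv_of_mul_eq_one_right hb'
    have hbP : algebraMap E A2.Qb (b : E) ∈ P := b.2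
    rw [hbq, map_inv₀, map_natCast] at hbP
    have hl : ((q : ℕ) : A2.Qb) ∈ P.nonunits := h.lies_over
    rw [ValuationSubring.mem_nonunits_iff_or] at hl
    rcases hl with hl | hl
    · exact hq0' hl
    · exact hl hbP
  rw [Irreducible.maximalIdeal_eq h.unif, Ideal.mem_span_singleton'] at hqm
  obtain ⟨a, ha⟩ := hqm
  have ha' : (a : E) * (w : E) = ((q : ℕ) : E) := congrArg Subtype.val ha
  have ha0 : (a : E) ≠ 0 := by
    intro h0
    rw [h0, zero_mul] at ha'
    exact hq0 ha'.symm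
  have hainv : (a : E)⁻¹ ∈ A2.RE P E := by
    show algebraMap E A2.Qb ((a : E)⁻¹) ∈ P
    have e : (a : E)⁻¹ = (w : E) * (((q : ℕ) : E))⁻¹ := by
      rw [← ha']
      field_simp
    rw [e, map_mul, map_inv₀, map_natCast]
    exact h1
  refine ⟨⟨a, ⟨(a : E)⁻¹, hainv⟩, Subtype.ext (mul_inv_cancel₀ ha0),
    Subtype.ext (inv_mul_cancel₀ ha0)⟩, ?_⟩
  show ((q : ℕ) : E) = (w : E) * (a : E)
  rw [← ha', mul_comm]

omit [NeZero (N * q)] in
theorem sr83_jLev_eq (l : ℕ) (h : q ^ l ∣ N) : jLev E N q l = jE E N (q ^ l) h :=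
  dif_pos h

/-- `α (J' l) = J l` for `q ^ l ∣ N`. -/
theorem sr83_alpha_jLev (l : ℕ) (h : q ^ l ∣ N) :
    αE E N q (jLev E N q l) = jLev E (N * q) q l := by
  rw [sr83_jLev_eq l h, sr83_jLev_eq l (h.trans (dvd_mul_right N q))]
  exact A2.Mod.H553.αE_jE E N q (q ^ l) h

/-- **The rows `i = 0, 1` along `α`** of the valuation-level parts of `S45/ModE/Spec.lean`
(`V'₀ = V' 0`, `V₀ = V 0`, `V₁ = V 1`, upper exponent `e = n + 1`). -/
structure SplitRows83 (P : ValuationSubring A2.Qb) (E : IntermediateField ℚ A2.Qb) (N q : ℕ)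
    [NeZero N] [NeZero q] [NeZero (N * q)] (n : ℕ) (w : A2.RE P E)
    (V'₀ : ValuationSubring (FE E N)) (V₀ V₁ : ValuationSubring (FE E (N * q))) : Prop where
  /-- TABLE-E, `comap_α₀` -/
  comap₀ : V₀.comap (αE E N q : FE E N →+* FE E (N * q)) = V'₀
  /-- ONLY-E, `only_α₀` -/
  only : ∀ U : ValuationSubring (FE E (N * q)),
    U.comap (αE E N q : FE E N →+* FE E (N * q)) = V'₀ → U = V₀ ∨ U = V₁
  /-- VAL-E, `dvr` -/
  dvr₀ : IsDiscreteValuationRing V₀
  dvr₁ : IsDiscreteValuationRing V₁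
  /-- VAL-E, `ram` at `i = 0` (`mu = 1`) -/
  unif₀ : UnifAt V₀ (algebraMap (A2.RE P E) (FE E (N * q)) w)
  /-- UNIF-E at `i = 1` -/
  unif₁ : UnifAt V₁ (jLev E (N * q) q (n + 1) - jLev E (N * q) q (n - 1))
  /-- VAL-E, `ram` at `i = 1` (`mu = q - 1`) -/
  ram₁ : UnitAt V₁ (algebraMap (A2.RE P E) (FE E (N * q)) w *
    ((jLev E (N * q) q (n + 1) - jLev E (N * q) q (n - 1)) ^ (q - 1))⁻¹)
  /-- RES-E, `res_α` at `i = 0, 1` -/
  res₀ : ∀ f ∈ V₀, ∃ g ∈ V'₀, f - αE E N q g ∈ V₀.nonunits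
  res₁ : ∀ f ∈ V₁, ∃ g ∈ V'₀, f - αE E N q g ∈ V₁.nonunits
  /-- KRON-E at `i = 0` -/
  frob₀ : ∀ l, l < n + 1 →
    jLev E (N * q) q (l + 1) - jLev E (N * q) q l ^ q ∈ V₀.nonunits
  unit₀ : ∀ l ≤ n + 1, UnitAt V₀ (jLev E (N * q) q l)
  /-- KRON-E at `i = 1` -/
  frob₁ : ∀ l, l < n →
    jLev E (N * q) q (l + 1) - jLev E (N * q) q l ^ q ∈ V₁.nonunits
  ver₁ : jLev E (N * q) q n - jLev E (N * q) q (n + 1) ^ q ∈ V₁.nonunits
  unit₁ : ∀ l ≤ n + 1, UnitAt V₁ (jLev E (N * q) q l)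

/-- **ABS-S adapter.**  The rows `i = 0, 1` along `α` at every level `N` of exponent `n ≥ 1`. -/
theorem splitRows83 (hS : StdE P E N q n w) (hn : 1 ≤ n)
    {V'₀ : ValuationSubring (FE E N)} (hV' : IsVinf P E N V'₀)
    {V₀ V₁ : ValuationSubring (FE E (N * q))} (hV₀ : IsVinf P E (N * q) V₀)
    (hlies : V₁.comap (αE E N q : FE E N →+* FE E (N * q)) = V'₀) (hne : V₁ ≠ V₀) :
    SplitRows83 P E N q n w V'₀ V₀ V₁ := by
  have hq : q.Prime := hS.q_prime
  have hdvr : IsDiscreteValuationRing (A2.RE P E) := hS.unram.1.dvr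
  haveI := hdvr
  have hun := sr83_unram hS
  obtain ⟨M, hM0, hNM, hqM⟩ := sr83_level (N := N) hq hS.exp
  haveI : NeZero M := ⟨hM0⟩
  have hN' : N = q ^ (n - 1) * q * M := by
    rw [hNM, ← pow_succ, Nat.sub_add_cancel hn]
    ring
  have hlo : q ^ (n - 1) ∣ N := sr83_pow_dvd hS.exp (Nat.sub_le n 1)
  have hlo' : q ^ (n - 1) ∣ N * q := hlo.trans (dvd_mul_right N q)
  have hhi : q ^ (n - 1) * (q * q) ∣ N * q := by
    rw [← mul_assoc]
    exact mul_dvd_mul_right ⟨M, hN'⟩ q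
  obtain ⟨Vmid, hmne, -, hunif, ⟨u, hu, hui, hpow⟩, hresm, hres0, honly⟩ :=
    Fermat.Agent.S45.H972.splitE_alpha_pow hq hS.lies_over hdvr hS.unif hun hn hNM hqM
      hlo' hhi hV' hV₀
  have hcα : ∀ g : FE E N, αE E N q g ∈ V₁ ↔ g ∈ V'₀ := fun g => by
    have h2 : g ∈ V₁.comap (αE E N q : FE E N →+* FE E (N * q)) ↔ g ∈ V'₀ := by
      rw [hlies]
    rw [ValuationSubring.mem_comap] at h2
    exact h2
  have hV₁ : V₁ = Vmid := (honly V₁ hcα).resolve_left hne
  subst hV₁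
  have hcα₀ : V₀.comap (αE E N q : FE E N →+* FE E (N * q)) = V'₀ := by
    ext g
    rw [ValuationSubring.mem_comap]
    exact Fermat.Agent.S36.H816.alpha_mem_iff hV' hV₀ g
  -- the coordinates
  have hupd : ∀ l, l ≤ n + 1 → q ^ l ∣ N * q := fun l hl => sr83_pow_dvd_up hS.exp hl
  have hlod : ∀ l, l ≤ n → q ^ l ∣ N := fun l hl => sr83_pow_dvd hS.exp hl
  have hJhi : jLev E (N * q) q (n + 1) = jE E (N * q) (q ^ (n - 1) * (q * q)) hhi := by
    rw [sr83_jLev_eq (n + 1) (hupd _ le_rfl)]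
    refine Fermat.Agent.S36.H816.jE_congr (N * q) ?_ _ _
    rw [← pow_two, ← pow_add]
    congr 1
    omega
  have hJlo : jLev E (N * q) q (n - 1) = jE E (N * q) (q ^ (n - 1)) hlo' :=
    sr83_jLev_eq (n - 1) hlo'
  -- uniformisers
  have hL2 := A2.Mod.H553.vinfBasic P E w (N * q) (NeZero.ne _) hdvr hS.unif V₀ hV₀
  have hL2' := A2.Mod.H553.vinfBasic P E w N (NeZero.ne _) hdvr hS.unif V'₀ hV'
  have hw0 : cE P E (N * q) w ≠ 0 := hL2.1.ne_zero
  have hw1 : cE P E (N * q) w ∈ V₀.nonunits := sr83_isUnif_mem_nonunits hL2.1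
  rw [← hJhi, ← hJlo] at hunif hpow hresm
  have hπ0 : jLev E (N * q) q (n + 1) - jLev E (N * q) q (n - 1) ≠ 0 := hunif.ne_zero
  have hπn : jLev E (N * q) q (n + 1) - jLev E (N * q) q (n - 1) ∈ V₁.nonunits :=
    sr83_isUnif_mem_nonunits hunif
  -- rank one of `V₁`
  have harch₁ : ∀ f : FE E (N * q),
      ∃ k : ℕ, (jLev E (N * q) q (n + 1) - jLev E (N * q) q (n - 1)) ^ k * f ∈ V₁ := by
    letI : Algebra (FE E N) (FE E (N * q)) := AlgebraicCurve.algebraAlong (αE E N q)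
    obtain ⟨Ψ, G, hE⟩ := Fermat.Agent.S45.H972.exists_eisSeriesD q (q ^ (n - 1)) hq
    obtain ⟨Ψ', G', a, c, -, -, -, -, h⟩ :=
      Fermat.Agent.S45.H972.exists_eisDataD hq hS.lies_over hdvr hS.unif hun hN' hqM hlo hhi
        hE hV'
    intro f
    obtain ⟨k, hk⟩ := sr83_arch_over h V₁ hcα f
    have hw' : algebraMap (FE E N) (FE E (N * q)) (cE P E N w) = cE P E (N * q) w :=
      Fermat.Agent.S36.H972.alpha_cE' N w
    rw [hw'] at hk
    refine ⟨(q - 1) * k, ?_⟩
    have e : (jLev E (N * q) q (n + 1) - jLev E (N * q) q (n - 1)) ^ ((q - 1) * k) * f =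
        u ^ k * ((cE P E (N * q) w) ^ k * f) := by
      rw [pow_mul, hpow, mul_pow]
      ring
    rw [e]
    exact mul_mem (pow_mem hu k) hk
  -- units
  have hj : ∀ l, l ≤ n + 1 → UnitAt V₀ (jLev E (N * q) q l) := fun l hl => by
    rw [sr83_jLev_eq l (hupd l hl)]
    exact ⟨A2.Mod.H873.jE_ne_zero E _ _ _, (hL2.2.2 _ _).1, (hL2.2.2 _ _).2⟩
  have hj' : ∀ l, l ≤ n → UnitAt V'₀ (jLev E N q l) := fun l hl => by
    rw [sr83_jLev_eq l (hlod l hl)]
    exact ⟨A2.Mod.H873.jE_ne_zero E _ _ _, (hL2'.2.2 _ _).1, (hL2'.2.2 _ _).2⟩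
  have hj₁ : ∀ l, l ≤ n → UnitAt V₁ (jLev E (N * q) q l) := fun l hl => by
    rw [← sr83_alpha_jLev l (hlod l hl)]
    exact sr83_unitAt_map _ hlies (hj' l hl)
  have hjtop : UnitAt V₁ (jLev E (N * q) q (n + 1)) := by
    have e : jLev E (N * q) q (n + 1) = jLev E (N * q) q (n - 1) +
        (jLev E (N * q) q (n + 1) - jLev E (N * q) q (n - 1)) := by ring
    rw [e]
    exact sr83_unitAt_add (hj₁ (n - 1) (Nat.sub_le n 1)) hπn
  -- Kronecker
  have hkron : ∀ (N' : ℕ) [NeZero N'] (V : ValuationSubring (FE E N')), IsVinf P E N' V →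
      ∀ l, q ^ (l + 1) ∣ N' →
        jLev E N' q (l + 1) - jLev E N' q l ^ q ∈ V.nonunits := by
    intro N' _ V hV l hl
    have hl' : q ^ l ∣ N' := (pow_dvd_pow q (Nat.le_succ l)).trans hl
    have hl'' : q ^ l * q ∣ N' := by
      rw [← pow_succ]
      exact hl
    rw [sr83_jLev_eq (l + 1) hl, sr83_jLev_eq l hl',
      Fermat.Agent.S36.H816.jE_congr N' (pow_succ q l) hl hl'']
    exact Fermat.Agent.S36.H816.kron_jE hq hS.lies_over hV (q ^ l) hl' hl''
  have hfrob₁ : ∀ l, l < n →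
      jLev E (N * q) q (l + 1) - jLev E (N * q) q l ^ q ∈ V₁.nonunits := fun l hl => by
    have h1 := hkron N V'₀ hV' l (hlod (l + 1) hl)
    rw [← sr83_nonunits_comap _ hlies, map_sub, map_pow] at h1
    have h2 : (αE E N q : FE E N →+* FE E (N * q)) (jLev E N q (l + 1)) =
        jLev E (N * q) q (l + 1) := sr83_alpha_jLev (l + 1) (hlod (l + 1) hl)
    have h3 : (αE E N q : FE E N →+* FE E (N * q)) (jLev E N q l) =
        jLev E (N * q) q l := sr83_alpha_jLev l (hlod l hl.le)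
    rw [h2, h3] at h1
    exact h1
  refine
    { comap₀ := hcα₀
      only := ?_
      dvr₀ := Fermat.Agent.S36.H972.isDiscreteValuationRing_of_isUnif hL2.1
        (Fermat.Agent.S36.H972.arch_vinf hS.unif hV₀)
      dvr₁ := Fermat.Agent.S36.H972.isDiscreteValuationRing_of_isUnif hunif harch₁
      unif₀ := sr83_unifAt_of_isUnif hL2.1
      unif₁ := sr83_unifAt_of_isUnif hunif
      ram₁ := ?_
      res₀ := ?_
      res₁ := ?_
      frob₀ := fun l hl => hkron (N * q) V₀ hV₀ l (hupd (l + 1) hl)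
      unit₀ := hj
      frob₁ := hfrob₁
      ver₁ := ?_
      unit₁ := ?_ }
  · -- only
    intro U hU
    refine honly U fun k => ?_
    have h2 : k ∈ U.comap (αE E N q : FE E N →+* FE E (N * q)) ↔ k ∈ V'₀ := by
      rw [hU]
    rw [ValuationSubring.mem_comap] at h2
    exact h2
  · -- ram₁
    have hu0 : u ≠ 0 := by
      intro h0
      rw [h0, mul_zero] at hpow
      exact pow_ne_zero _ hπ0 hpow
    have e : algebraMap (A2.RE P E) (FE E (N * q)) w *
        ((jLev E (N * q) q (n + 1) - jLev E (N * q) q (n - 1)) ^ (q - 1))⁻¹ = u⁻¹ := by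
      show cE P E (N * q) w *
        ((jLev E (N * q) q (n + 1) - jLev E (N * q) q (n - 1)) ^ (q - 1))⁻¹ = u⁻¹
      rw [hpow, mul_inv, ← mul_assoc, mul_inv_cancel₀ hw0, one_mul]
    rw [e]
    exact ⟨inv_ne_zero hu0, hui, by rw [inv_inv]; exact hu⟩
  · -- res₀
    intro f hf
    obtain ⟨g, hg, hfg⟩ := hres0 f hf
    exact ⟨g, hg, sr83_mem_nonunits_of_mul_inv hw0 hw1 hfg⟩
  · -- res₁
    intro f hf
    obtain ⟨g, hg, hfg⟩ := hresm f hf
    exact ⟨g, hg, sr83_mem_nonunits_of_mul_inv hπ0 hπn hfg⟩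
  · -- ver₁ : `J n ≡ J (n-1) ^ q ≡ J (n+1) ^ q`
    have h1 := hfrob₁ (n - 1) (by omega)
    rw [Nat.sub_add_cancel hn] at h1
    have h2 := sr83_pow_sub_pow_mem hjtop.2.1 (hj₁ (n - 1) (Nat.sub_le n 1)).2.1 hπn q
    have e : jLev E (N * q) q n - jLev E (N * q) q (n + 1) ^ q =
        (jLev E (N * q) q n - jLev E (N * q) q (n - 1) ^ q) -
          (jLev E (N * q) q (n + 1) ^ q - jLev E (N * q) q (n - 1) ^ q) := by ring
    rw [e]
    exact sr83_sub_mem_nonunits h1 h2
  · -- unit₁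
    intro l hl
    rcases Nat.lt_or_ge l (n + 1) with h | h
    · exact hj₁ l (by omega)
    · have e : l = n + 1 := le_antisymm hl h
      rw [e]
      exact hjtop

end Concrete

/-! ## Leaf shape: the rows `i ≤ 1` of the parts of `S45/ModE/Spec.lean` -/

section Leaf

variable {P : ValuationSubring A2.Qb} {E : IntermediateField ℚ A2.Qb} {N q : ℕ}
  [NeZero N] [NeZero q] [NeZero (N * q)] {n : ℕ} {w : A2.RE P E}
  {V' : ℕ → ValuationSubring (FE E N)} {V : ℕ → ValuationSubring (FE E (N * q))}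
  {W' : FE E N ≃ₐ[E] FE E N} {W : FE E (N * q) ≃ₐ[E] FE E (N * q)}

omit [NeZero N] [NeZero (N * q)] in
theorem sr83_mu_zero (e : ℕ) : mu q e 0 = 1 := by
  unfold mu
  rw [Nat.zero_min, pow_zero, Nat.totient_one]

omit [NeZero N] [NeZero (N * q)] in
theorem sr83_mu_one (hq : q.Prime) {e : ℕ} (he : 2 ≤ e) : mu q e 1 = q - 1 := by
  unfold mu
  rw [min_eq_left (by omega), pow_one, Nat.totient_prime hq]

/-- **The rows `i ≤ 1`** of TABLE-E, ONLY-E, VAL-E, RES-E, UNIF-E, KRON-E, WIT-E (`α`-side), in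
the exact shapes of the fields of `PartTableE`, `PartOnlyE`, `PartValE`, `PartResE`, `PartUnifE`,
`PartKronE`, `PartWitE` with `i` restricted to `i ≤ 1` (upper exponent `e = n + 1`). -/
structure LeafRows83 (P : ValuationSubring A2.Qb) (E : IntermediateField ℚ A2.Qb) (N q : ℕ)
    [NeZero N] [NeZero q] [NeZero (N * q)] (n : ℕ) (w : A2.RE P E)
    (V' : ℕ → ValuationSubring (FE E N)) (V : ℕ → ValuationSubring (FE E (N * q))) : Prop where
  comap_α₀ : (V 0).comap (αE E N q : FE E N →+* FE E (N * q)) = V' 0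
  comap_α₁ : (V 1).comap (αE E N q : FE E N →+* FE E (N * q)) = V' 0
  only_α₀ : ∀ U : ValuationSubring (FE E (N * q)),
    U.comap (αE E N q : FE E N →+* FE E (N * q)) = V' 0 → U = V 0 ∨ U = V 1
  dvr : ∀ i ≤ 1, IsDiscreteValuationRing (V i)
  ne : V 0 ≠ V 1
  ram : ∀ i ≤ 1, ∃ t : FE E (N * q), UnifAt (V i) t ∧
    UnitAt (V i) (algebraMap (A2.RE P E) (FE E (N * q)) w * (t ^ mu q (n + 1) i)⁻¹)
  res_α : ∀ i ≤ 1, ∀ f ∈ V i, ∃ g ∈ V' (i - 1), f - αE E N q g ∈ (V i).nonunits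
  unif : UnifAt (V 1) (jLev E (N * q) q (n + 1) - jLev E (N * q) q (n + 1 - 2 * 1))
  frob : ∀ i ≤ 1, ∀ l, l < n + 1 - i →
    jLev E (N * q) q (l + 1) - jLev E (N * q) q l ^ q ∈ (V i).nonunits
  ver : ∀ i ≤ 1, ∀ l, n + 1 - i ≤ l → l < n + 1 →
    jLev E (N * q) q l - jLev E (N * q) q (l + 1) ^ q ∈ (V i).nonunits
  unit : ∀ i ≤ 1, ∀ l ≤ n + 1, UnitAt (V i) (jLev E (N * q) q l)
  wit_lo : ∀ i ≤ 1, ∀ y ∈ V i, y ^ q - jLev E (N * q) q 0 ∉ (V i).nonunits

/-- The rows `i = 0, 1` from the binders of a leaf (`1 ≤ n` suffices). -/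
theorem splitRows_of_ctx83 (hS : StdE P E N q n w) (hn : 1 ≤ n)
    (hL : LevelCtx P E N q n w V' W') (hO : ObjsE P E N q n V' V W) :
    SplitRows83 P E N q n w (V' 0) (V 0) (V 1) :=
  splitRows83 hS hn hL.vinf hO.vinf (hO.lies 1 le_rfl (by omega)) hO.one_ne

/-- WIT-E, `wit_lo`, along a residue-degree-one extension: from the lower `wit_lo`. -/
theorem sr83_wit_lo {V'₀ : ValuationSubring (FE E N)} {U : ValuationSubring (FE E (N * q))}
    (hcomap : U.comap (αE E N q : FE E N →+* FE E (N * q)) = V'₀)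
    (hres : ∀ f ∈ U, ∃ g ∈ V'₀, f - αE E N q g ∈ U.nonunits)
    (hwit : ∀ y ∈ V'₀, y ^ q - jLev E N q 0 ∉ V'₀.nonunits) :
    ∀ y ∈ U, y ^ q - jLev E (N * q) q 0 ∉ U.nonunits := by
  intro y hy hmem
  obtain ⟨g, hg, hyg⟩ := hres y hy
  have hm : ∀ x : FE E N, αE E N q x ∈ U ↔ x ∈ V'₀ := fun x => by
    have h2 : x ∈ U.comap (αE E N q : FE E N →+* FE E (N * q)) ↔ x ∈ V'₀ := by
      rw [hcomap]
    rw [ValuationSubring.mem_comap] at h2
    exact h2
  have hαg : αE E N q g ∈ U := (hm g).mpr hg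
  have h1 : y ^ q - αE E N q g ^ q ∈ U.nonunits := sr83_pow_sub_pow_mem hy hαg hyg q
  have hJ : αE E N q (jLev E N q 0) = jLev E (N * q) q 0 :=
    sr83_alpha_jLev 0 (by rw [pow_zero]; exact one_dvd _)
  have h2 : αE E N q (g ^ q - jLev E N q 0) ∈ U.nonunits := by
    rw [map_sub, map_pow, hJ]
    have e : αE E N q g ^ q - jLev E (N * q) q 0 =
        (y ^ q - jLev E (N * q) q 0) - (y ^ q - αE E N q g ^ q) := by ring
    rw [e]
    exact sr83_sub_mem_nonunits hmem h1
  exact hwit g hg ((sr83_nonunits_comap (αE E N q : FE E N →+* FE E (N * q)) hcomap _).mp h2)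

/-- **ABS-S adapter, leaf shape.**  All the rows `i ≤ 1` (`α`-side) of the valuation-level leaves
from the binders of a leaf. -/
theorem leafRows83 (hS : StdE P E N q n w) (hn : 1 ≤ n)
    (hL : LevelCtx P E N q n w V' W') (hO : ObjsE P E N q n V' V W) :
    LeafRows83 P E N q n w V' V := by
  have h := splitRows_of_ctx83 hS hn hL hO
  have hq : q.Prime := hS.q_prime
  have hlies : (V 1).comap (αE E N q : FE E N →+* FE E (N * q)) = V' 0 :=
    hO.lies 1 le_rfl (by omega)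
  have hcases : ∀ i ≤ 1, i = 0 ∨ i = 1 := fun i hi => by omega
  have hwit' : ∀ y ∈ V' 0, y ^ q - jLev E N q 0 ∉ (V' 0).nonunits :=
    hL.wit.wit_lo 0 (Nat.zero_le n) (by omega)
  refine
    { comap_α₀ := h.comap₀
      comap_α₁ := hlies
      only_α₀ := h.only
      dvr := ?_
      ne := fun e => hO.one_ne e.symm
      ram := ?_
      res_α := ?_
      unif := ?_
      frob := ?_
      ver := ?_
      unit := ?_
      wit_lo := ?_ }
  · intro i hi
    rcases hcases i hi with rfl | rfl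
    · exact h.dvr₀
    · exact h.dvr₁
  · intro i hi
    rcases hcases i hi with rfl | rfl
    · refine ⟨_, h.unif₀, ?_⟩
      rw [sr83_mu_zero, pow_one, mul_inv_cancel₀ h.unif₀.1]
      exact ⟨one_ne_zero, (V 0).one_mem, by rw [inv_one]; exact (V 0).one_mem⟩
    · refine ⟨_, h.unif₁, ?_⟩
      rw [sr83_mu_one hq (by omega)]
      exact h.ram₁
  · intro i hi
    rcases hcases i hi with rfl | rfl
    · exact h.res₀
    · exact h.res₁
  · have e : n + 1 - 2 * 1 = n - 1 := by omega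
    rw [e]
    exact h.unif₁
  · intro i hi l hl
    rcases hcases i hi with rfl | rfl
    · exact h.frob₀ l (by omega)
    · exact h.frob₁ l (by omega)
  · intro i hi l hl hl'
    rcases hcases i hi with rfl | rfl
    · omega
    · have e : l = n := by omega
      rw [e]
      exact h.ver₁
  · intro i hi
    rcases hcases i hi with rfl | rfl
    · exact h.unit₀
    · exact h.unit₁
  · intro i hi
    rcases hcases i hi with rfl | rfl
    · exact sr83_wit_lo h.comap₀ h.res₀ hwit'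
    · exact sr83_wit_lo hlies h.res₁ hwit'

end Leaf

end Fermat.Agent.S45.ModE.H83

end

end
-- ===== PACK-END S45/ModE/H83/SplitRows.lean

-- ===== PACK-BEGIN S45/ModE/H816/OnlyAlpha.lean
section






/-!
# S45 / CAR3 / MOD-E — leaf ONLY-E, UNCONDITIONAL (helper816)

* `only_α₀`                : `H83.leafRows83` (helper83, SPLIT rows on helper972 `splitE_alpha_pow`);
* `only_alpha_insep816`    : `1 ≤ j`, `n ≤ 2 j`: helper263 `exists_insepStep263` at `O = V' j`,
  `Ψ = chainPsi` (helper972 `minpoly_chain`, `insepE_congr`), `c = J n`, no `q`-th root: lower `wit_hi`;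
* `only_alpha_wild816`     : `1 ≤ j`, `2 j < n`: helper972 `wildE_alpha` at `O = V' j`,
  `ϖ = J n - J (n - 2 j)` (lower `unif`), congruences = lower `kron`, unit = Gauss at `j`;
* `leafOnlyAlphaE816 : LeafOnlyAlphaE816`, `leafOnlyE816 : LeafOnlyE`,
  `leafCompleteE816 : LeafCompleteE`.
-/

set_option autoImplicit false
set_option linter.style.haveILetI false
set_option linter.unusedSectionVars false
set_option linter.unusedVariables false
set_option synthInstance.maxHeartbeats 400000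
set_option maxHeartbeats 1600000

noncomputable section

namespace Fermat.Agent.S45.ModE.H816

open ModularCurve Polynomial AlgebraicCurve
open Fermat.Agent Fermat.Agent.A2.Mod
open Fermat.Agent.S45.H816 Fermat.Agent.S45.H838
open Fermat.Agent.S36 Fermat.Agent.S36.Eng

variable {P : ValuationSubring A2.Qb} {E : IntermediateField ℚ A2.Qb} {N q : ℕ}
  [NeZero N] [NeZero q] [NeZero (N * q)]

section Alpha

variable {n : ℕ} {w : A2.RE P E} {V' : ℕ → ValuationSubring (FE E N)}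
  {W' : FE E N ≃ₐ[E] FE E N}

theorem isUnif_of_unifAt816 {F : Type*} [Field F] {O : ValuationSubring F} {t : F}
    (h : UnifAt O t) : A2.H48.IsUnif O t where
  mem := ValuationSubring.nonunits_subset h.2.1
  inv_not_mem := by
    have := h.2.1
    rw [ValuationSubring.mem_nonunits_iff_or] at this
    exact this.resolve_left h.1
  gen := fun f hf hfi => h.2.2 f (by
    rw [ValuationSubring.mem_nonunits_iff_or]
    exact Or.inr hfi)

/-- In a discrete valuation subring, a power of a nonzero non-unit kills every denominator. -/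
theorem arch816 {K : Type*} [Field K] (V : ValuationSubring K) [IsDiscreteValuationRing V]
    {ω : K} (hω : ω ∈ V) (hω' : ω⁻¹ ∉ V) (x : K) : ∃ n : ℕ, ω ^ n * x ∈ V := by
  by_cases hxV : x ∈ V
  · exact ⟨0, by rwa [pow_zero, one_mul]⟩
  have hx0 : x ≠ 0 := by
    rintro rfl
    exact hxV V.zero_mem
  have hxi : x⁻¹ ∈ V := (V.mem_or_inv_mem x).resolve_left hxV
  set y : V := ⟨x⁻¹, hxi⟩ with hy
  have hy0 : y ≠ 0 := fun h0 => inv_ne_zero hx0 (congrArg Subtype.val h0)
  obtain ⟨ϖ, hirr⟩ := IsDiscreteValuationRing.exists_irreducible V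
  have hspan : Ideal.span {y} ≠ ⊥ := by
    rw [Ne, Ideal.span_singleton_eq_bot]
    exact hy0
  obtain ⟨n, hn⟩ := IsDiscreteValuationRing.ideal_eq_span_pow_irreducible hspan hirr
  have hωm : (⟨ω, hω⟩ : V) ∈ IsLocalRing.maximalIdeal V := by
    rw [← ValuationSubring.coe_mem_nonunits_iff, ValuationSubring.mem_nonunits_iff_or]
    exact Or.inr hω'
  rw [hirr.maximalIdeal_eq, Ideal.mem_span_singleton] at hωm
  obtain ⟨c, hc⟩ := hωm
  have hmem : (⟨ω, hω⟩ : V) ^ n ∈ Ideal.span {y} := by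
    rw [hn, Ideal.mem_span_singleton, hc, mul_pow]
    exact dvd_mul_right _ _
  rw [Ideal.mem_span_singleton] at hmem
  obtain ⟨z, hz⟩ := hmem
  refine ⟨n, ?_⟩
  have hz' : ω ^ n = x⁻¹ * (z : K) := by
    have := congrArg Subtype.val hz
    simpa using this
  have : ω ^ n * x = (z : K) := by
    rw [hz', mul_comm x⁻¹, mul_assoc, inv_mul_cancel₀ hx0, mul_one]
  rw [this]
  exact z.2

/-- the level data `N = q ^ (n - 1) * q * M`. -/
theorem level816 (hS : StdE P E N q n w) (hn : 1 ≤ n) :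
    ∃ M : ℕ, M ≠ 0 ∧ N = q ^ (n - 1) * q * M ∧ ¬ q ∣ M := by
  obtain ⟨M, hM0, hNM, hqM⟩ := H83.sr83_level (N := N) hS.q_prime hS.exp
  refine ⟨M, hM0, ?_, hqM⟩
  rw [hNM, ← pow_succ, Nat.sub_add_cancel hn]
  ring

/-- **ONLY along `α`, INSEP rows** (`1 ≤ j`, `n ≤ 2 j`). -/
theorem only_alpha_insep816 (hS : StdE P E N q n w) (hn : 1 ≤ n)
    (hL : LevelCtx P E N q n w V' W') {j : ℕ} (hj1 : 1 ≤ j) (hjn : j ≤ n) (hw : n ≤ 2 * j) :
    ∃ V₀ : ValuationSubring (FE E (N * q)), ∀ U : ValuationSubring (FE E (N * q)),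
      U.comap (αE E N q : FE E N →+* FE E (N * q)) = V' j → U = V₀ := by
  classical
  haveI := hS.unram.1.dvr
  have hq := hS.q_prime
  obtain ⟨M, hM0, hN', hqM⟩ := level816 hS hn
  haveI : NeZero M := ⟨hM0⟩
  have hqn := pow_dvd_of_stdE816 hS
  have hlo : q ^ (n - 1) ∣ N := pow_dvd_of_le838 N q hqn (Nat.sub_le n 1)
  have hmid : q ^ (n - 1) * q ∣ N := ⟨M, hN'⟩
  have hhi : q ^ (n - 1) * (q * q) ∣ N * q := by
    rw [← mul_assoc]
    exact mul_dvd_mul_right hmid q
  have hqN : q ∣ N := (dvd_mul_left q _).trans hmid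
  have hG := isGaussOver_j_of_levelCtx hS hL hjn
  have ez : jLev E N q (n - 1) = jE E N (q ^ (n - 1)) hlo := dif_pos hlo
  have ex : jLev E N q n = jE E N (q ^ (n - 1) * q) hmid := by
    rw [show jLev E N q n = jE E N (q ^ n) hqn from dif_pos hqn]
    refine H751.jE_congr E N ?_ _ _
    rw [← pow_succ, Nat.sub_add_cancel hn]
  have hz : jE E N (q ^ (n - 1)) hlo ∈ V' j := by
    rw [← ez]
    exact (hL.kron.unit j hjn (n - 1) (Nat.sub_le n 1)).2.1
  have hx : jE E N (q ^ (n - 1) * q) hmid ∈ V' j := by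
    rw [← ex]
    exact (hL.kron.unit j hjn n le_rfl).2.1
  have hpO : ((q : ℕ) : FE E N) ∈ (V' j).nonunits :=
    natCast_mem_nu_of_isOver816 hS.lies_over hG.isOver
  have hcz : jE E N (q ^ (n - 1)) hlo - jE E N (q ^ (n - 1) * q) hmid ^ q ∈ (V' j).nonunits := by
    have h1 := hL.kron.ver j hjn (n - 1) (by omega) (by omega)
    rw [Nat.sub_add_cancel hn, ez, ex] at h1
    exact h1
  obtain ⟨Φ⟩ := S28.H807.nonempty_modPolyData q hq
  obtain ⟨hroot, -, -⟩ := H972.minpoly_chain hq Φ hN' hqM (V' j) hlo hmid hhi hz hx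
  have hcong := H972.insepE_congr hq Φ hlo hmid (V' j) hz hx hpO hcz
  set Ψ₀ : Polynomial (V' j) := H972.chainPsi Φ (V' j) ⟨_, hx⟩ ⟨_, hz⟩ with hΨ₀
  have hmonic : Ψ₀.Monic := H972.chainPsi_monic Φ (V' j) hlo hmid hz hx
  obtain ⟨t, ht, -⟩ := hL.val.ram j hjn
  have hfin : FiniteAlong E (αE E N q) := S37.H818.finiteAlong_heckeAlphaBar (L := E) N q hq
  have hdeg : finrankAlong E (αE E N q) = q := by
    have h := S37.H818.finrankAlong_heckeAlphaBar' (L := E) N q hq
    rw [if_pos hqN] at h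
    exact h
  have hD : ∀ k, ((Ψ₀.map (V' j).subtype) - (X ^ q - C (jE E N (q ^ (n - 1) * q) hmid))).coeff k
      ∈ (V' j).nonunits := by
    intro k
    set D : Polynomial (V' j) := Ψ₀ - (X ^ q - C (⟨_, hx⟩ : V' j)) with hDdef
    have hDres : D.map (IsLocalRing.residue (V' j)) = 0 := by
      rw [hDdef, Polynomial.map_sub, hcong]
      simp
    have h1 : IsLocalRing.residue (V' j) (D.coeff k) = 0 := by
      have := congrArg (fun p => p.coeff k) hDres
      simpa using this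
    rw [IsLocalRing.residue_eq_zero_iff, ← ValuationSubring.coe_mem_nonunits_iff] at h1
    have eD : (Ψ₀.map (V' j).subtype) - (X ^ q - C (jE E N (q ^ (n - 1) * q) hmid))
        = D.map (V' j).subtype := by
      rw [hDdef, Polynomial.map_sub, Polynomial.map_sub, Polynomial.map_pow, Polynomial.map_X,
        Polynomial.map_C]
      rfl
    rw [eD, Polynomial.coeff_map]
    exact h1
  have hnp : ∀ a : FE E N, a ∈ V' j → a ^ q - jE E N (q ^ (n - 1) * q) hmid ∉ (V' j).nonunits := by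
    intro a ha
    rw [← ex]
    exact hL.wit.wit_hi j hjn hw a ha
  have hs : ((Ψ₀.map (V' j).subtype).map (αE E N q : FE E N →+* FE E (N * q))).eval
      (jE E (N * q) (q ^ (n - 1) * (q * q)) hhi) = 0 := by
    rw [Polynomial.map_map, Polynomial.eval_map]
    exact hroot
  obtain ⟨V₀, -, -, honly, -⟩ := H263.exists_insepStep263 q (αE E N q) hfin hdeg hq
    (hL.val.dvr j hjn) ht hpO (hmonic.map _) (fun k => by
      rw [Polynomial.coeff_map]
      exact (Ψ₀.coeff k).2) hs hD hnp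
  exact ⟨V₀, honly⟩

/-- **ONLY along `α`, WILD rows** (`1 ≤ j`, `2 j < n`). -/
theorem only_alpha_wild816 (hS : StdE P E N q n w) (hn : 1 ≤ n)
    (hL : LevelCtx P E N q n w V' W') {j : ℕ} (hj1 : 1 ≤ j) (hjn : j ≤ n) (hw : 2 * j < n) :
    ∃ V₀ : ValuationSubring (FE E (N * q)), ∀ U : ValuationSubring (FE E (N * q)),
      U.comap (αE E N q : FE E N →+* FE E (N * q)) = V' j → U = V₀ := by
  classical
  haveI := hS.unram.1.dvr
  haveI := hL.val.dvr j hjn
  have hq := hS.q_prime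
  obtain ⟨M, hM0, hN', hqM⟩ := level816 hS hn
  haveI : NeZero M := ⟨hM0⟩
  have hqn := pow_dvd_of_stdE816 hS
  have hlo : q ^ (n - 1) ∣ N := pow_dvd_of_le838 N q hqn (Nat.sub_le n 1)
  have hmid : q ^ (n - 1) * q ∣ N := ⟨M, hN'⟩
  have hhi : q ^ (n - 1) * (q * q) ∣ N * q := by
    rw [← mul_assoc]
    exact mul_dvd_mul_right hmid q
  have hd : q ^ (n - 2 * j - 1) ∣ N := pow_dvd_of_le838 N q hqn (by omega)
  have hdq : q ^ (n - 2 * j - 1) * q ∣ N := by
    rw [← pow_succ]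
    exact pow_dvd_of_le838 N q hqn (by omega)
  have hd' : q ^ (n - 2 * j - 1) ∣ N * q := hd.trans (dvd_mul_right N q)
  have hG := isGaussOver_j_of_levelCtx hS hL hjn
  have ez : jLev E N q (n - 1) = jE E N (q ^ (n - 1)) hlo := dif_pos hlo
  have ex : jLev E N q n = jE E N (q ^ (n - 1) * q) hmid := by
    rw [show jLev E N q n = jE E N (q ^ n) hqn from dif_pos hqn]
    refine H751.jE_congr E N ?_ _ _
    rw [← pow_succ, Nat.sub_add_cancel hn]
  have ed : jLev E N q (n - 2 * j - 1) = jE E N (q ^ (n - 2 * j - 1)) hd := dif_pos hd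
  have hdq' : q ^ (n - 2 * j) ∣ N := pow_dvd_of_le838 N q hqn (by omega)
  have edq : jLev E N q (n - 2 * j) = jE E N (q ^ (n - 2 * j - 1) * q) hdq := by
    rw [show jLev E N q (n - 2 * j) = jE E N (q ^ (n - 2 * j)) hdq' from dif_pos hdq']
    refine H751.jE_congr E N ?_ _ _
    rw [← pow_succ]
    congr 1
    omega
  have hz : jE E N (q ^ (n - 1)) hlo ∈ V' j := by
    rw [← ez]
    exact (hL.kron.unit j hjn (n - 1) (Nat.sub_le n 1)).2.1
  have hx : jE E N (q ^ (n - 1) * q) hmid ∈ V' j := by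
    rw [← ex]
    exact (hL.kron.unit j hjn n le_rfl).2.1
  have hx' : jE E N (q ^ (n - 2 * j - 1) * q) hdq ∈ V' j := by
    rw [← edq]
    exact (hL.kron.unit j hjn (n - 2 * j) (by omega)).2.1
  have hdd : jE E N (q ^ (n - 2 * j - 1)) hd ∈ V' j := by
    rw [← ed]
    exact (hL.kron.unit j hjn (n - 2 * j - 1) (by omega)).2.1
  have hunif : UnifAt (V' j)
      (jE E N (q ^ (n - 1) * q) hmid - jE E N (q ^ (n - 2 * j - 1) * q) hdq) := by
    have h1 := hL.unif.unif j hj1 (by omega)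
    rw [ex, edq] at h1
    exact h1
  have hO := isUnif_of_unifAt816 hunif
  have harch : ∀ a : FE E N, ∃ k : ℕ,
      (jE E N (q ^ (n - 1) * q) hmid - jE E N (q ^ (n - 2 * j - 1) * q) hdq) ^ k * a ∈ V' j :=
    fun a => arch816 (V' j) hO.mem hO.inv_not_mem a
  have hpO : ((q : ℕ) : FE E N) *
      (jE E N (q ^ (n - 1) * q) hmid - jE E N (q ^ (n - 2 * j - 1) * q) hdq)⁻¹ ∈ V' j :=
    hunif.2.2 _ (natCast_mem_nu_of_isOver816 hS.lies_over hG.isOver)
  have hcz : (jE E N (q ^ (n - 1)) hlo - jE E N (q ^ (n - 1) * q) hmid ^ q) *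
      (jE E N (q ^ (n - 1) * q) hmid - jE E N (q ^ (n - 2 * j - 1) * q) hdq)⁻¹ ∈ V' j := by
    have h1 := hL.kron.ver j hjn (n - 1) (by omega) (by omega)
    rw [Nat.sub_add_cancel hn, ez, ex] at h1
    exact hunif.2.2 _ h1
  have hcx' : (jE E N (q ^ (n - 2 * j - 1) * q) hdq - jE E N (q ^ (n - 2 * j - 1)) hd ^ q) *
      (jE E N (q ^ (n - 1) * q) hmid - jE E N (q ^ (n - 2 * j - 1) * q) hdq)⁻¹ ∈ V' j := by
    have h1 := hL.kron.frob j hjn (n - 2 * j - 1) (by omega)
    rw [show n - 2 * j - 1 + 1 = n - 2 * j by omega, ed, edq] at h1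
    exact hunif.2.2 _ h1
  have hGd : A2.H489.IsGaussOver (RE P E) (V' j) (jch E N q (n - 2 * j - 1)) :=
    isGaussOver_jch_of_jch838 P E N q hq hqn (Nat.zero_le _) (by omega) hG
  have huQ := unitQ_of_isGaussOver816 hq.one_lt hGd
  rw [← jLev_eq_jch, ed] at huQ
  rw [ValuationSubring.mem_nonunits_iff_or, not_or, not_not] at huQ
  obtain ⟨V₀, -, -, -, -, -, honly⟩ := H972.wildE_alpha hq hN' hqM hlo hmid hhi hd hdq hd'
    (V' j) hz hx hx' hdd hO harch hpO hcz hcx' huQ.1 huQ.2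
  refine ⟨V₀, fun U hU => honly U (fun k => ?_)⟩
  have h2 : k ∈ U.comap (αE E N q : FE E N →+* FE E (N * q)) ↔ k ∈ V' j := by rw [hU]
  rw [ValuationSubring.mem_comap] at h2
  exact h2

end Alpha

/-- **The `α`-half of ONLY-E.** -/
theorem leafOnlyAlphaE816 : LeafOnlyAlphaE816 := by
  intro P E N q _ _ _ n w hS hn V' V W' W hL hO
  refine ⟨(H83.leafRows83 hS (by omega) hL hO).only_α₀, fun j hj1 hjn U hU => ?_⟩
  have hVj : (V (j + 1)).comap (αE E N q : FE E N →+* FE E (N * q)) = V' j := by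
    have := hO.lies (j + 1) (by omega) (by omega)
    simpa using this
  have key : ∃ V₀ : ValuationSubring (FE E (N * q)), ∀ U : ValuationSubring (FE E (N * q)),
      U.comap (αE E N q : FE E N →+* FE E (N * q)) = V' j → U = V₀ := by
    rcases Nat.lt_or_ge (2 * j) n with h | h
    · exact only_alpha_wild816 hS (by omega) hL hj1 hjn h
    · exact only_alpha_insep816 hS (by omega) hL hj1 hjn h
  obtain ⟨V₀, h₀⟩ := key
  rw [h₀ U hU, h₀ (V (j + 1)) hVj]

/-- **ONLY-E (leaf), UNCONDITIONAL.** -/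
theorem leafOnlyE816 : LeafOnlyE := leafOnlyE_of_alpha816 leafOnlyAlphaE816

/-- **COMPLETE-E (leaf), UNCONDITIONAL.** -/
theorem leafCompleteE816 : LeafCompleteE := leafCompleteE_of_alpha816 leafOnlyAlphaE816

end Fermat.Agent.S45.ModE.H816

end

end
-- ===== PACK-END S45/ModE/H816/OnlyAlpha.lean

-- ===== PACK-BEGIN S45/ModE/H83/WildRows.lean
section





/-!
# S45 / CAR3 / MOD-E — the WILD rows along `α` and UNIF-E (helper83)

Board `origin/helper928:coord/S45-MODE-helper928.md`.  Input: helper972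
`S45.H972.wildE_alpha` (concrete wild step over ANY valuation subring `O` of `F_N` with
uniformiser `j_{d₀q} - j_{dq}`, two congruences and a unit).  Here its hypotheses are DISCHARGED
from the binders of a leaf (`StdE`, `2 ≤ n`, `LevelCtx` of the lower level, `ObjsE`) at
`O = V' j`, `1 ≤ j`, `2 j + 1 ≤ n` (`d₀ = q ^ (n - 1)`, `d = q ^ (n - 2 j - 1)`):

* uniformiser: lower `unif` at `j`; rank one: lower `val.dvr`;
* `q ∈ 𝔪`: lower `val.ram` (`mu ≥ 1`) and `Unram`;
* congruences: lower `kron.ver` at `l = n - 1`, lower `kron.frob` at `l = n - 2 j - 1`;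
* unit `c ^ (q²) - c`, `c = J' (n - 2 j - 1)`: lower `kron.frob` chain + lower `wit_lo`
  (Frobenius is injective modulo `𝔪`).

Output:

* `wildRow83`   : the row of `V (j + 1)` over `V' j` (uniformiser `J e - J (e - 2 i)`,
  `α T' = T ^ q · unit`, residue degree one, uniqueness);
* `leafUnifE83 : ModE.LeafUnifE`   UNCONDITIONAL;
* `leafSplitRam83`, `leafWildRam83` : the two inputs `LeafSplitRam835`, `LeafWildRam835` of
  helper835 (`S45/ModE/H835/Leaves.lean`), same bodies, UNCONDITIONAL.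

Sorry-free; Mathlib + main + `S45/H972/{SplitE,WildE}` + `S45/H693` only.
-/

set_option autoImplicit false
set_option linter.style.haveILetI false
set_option linter.unusedSectionVars false
set_option linter.unusedVariables false
set_option synthInstance.maxHeartbeats 400000
set_option maxHeartbeats 1600000

noncomputable section

namespace Fermat.Agent.S45.ModE.H83

open ModularCurve
open Fermat.Agent.A2.Mod
open Fermat.Agent.S36 Fermat.Agent.S36.Eng

/-! ## Generalities on valuation subrings (Mathlib only) -/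

section Gen

variable {F : Type*} [Field F]

theorem wr83_isUnif_of_unifAt {V : ValuationSubring F} {t : F} (h : UnifAt V t) :
    Fermat.Agent.A2.H48.IsUnif V t := by
  obtain ⟨h0, hn, hg⟩ := h
  refine ⟨sr83_mem_of_mem_nonunits hn, ?_, fun f hf hfi => hg f ?_⟩
  · rw [ValuationSubring.mem_nonunits_iff_or] at hn
    exact hn.resolve_left h0
  · rw [ValuationSubring.mem_nonunits_iff_or]
    exact Or.inr hfi

/-- A discrete valuation subring with uniformiser `t` has rank one. -/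
theorem wr83_arch_of_dvr (V : ValuationSubring F) [IsDiscreteValuationRing V] {t : F}
    (ht : UnifAt V t) (g : F) : ∃ k : ℕ, t ^ k * g ∈ V := by
  obtain ⟨ht0, htn, hgen⟩ := ht
  by_cases hg : g = 0
  · exact ⟨0, by rw [hg, mul_zero]; exact V.zero_mem⟩
  obtain ⟨a, ha⟩ := Fermat.Agent.S36.H586.exists_isOrd_of_dvr V ht0 htn hgen g hg
  refine ⟨(-a).toNat, ?_⟩
  have hvt : V.valuation t < 1 := sr83_nonunits_iff.mp htn
  have hvt0 : 0 < V.valuation t := zero_lt_iff.2 ((Valuation.ne_zero_iff _).2 ht0)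
  rw [← ValuationSubring.valuation_le_one_iff, map_mul, map_pow]
  unfold Fermat.Agent.S36.H586.IsOrd at ha
  rw [ha, ← zpow_natCast, ← zpow_add₀ hvt0.ne']
  have hnn : 0 ≤ ((-a).toNat : ℤ) + a := by
    have := Int.self_le_toNat (-a)
    omega
  have h1 : V.valuation t ^ (((-a).toNat : ℤ) + a) ≤ V.valuation t ^ (0 : ℤ) :=
    (zpow_le_zpow_iff_right_of_lt_one₀ hvt0 hvt).2 hnn
  simpa using h1

/-- An element of `V` outside `𝔪_V` is a unit. -/
theorem wr83_unitAt_of_not_mem {V : ValuationSubring F} {x : F} (hx : x ∈ V)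
    (hn : x ∉ V.nonunits) : UnitAt V x := by
  rw [ValuationSubring.mem_nonunits_iff_or, not_or, not_not] at hn
  exact ⟨hn.1, hx, hn.2⟩

theorem wr83_pow_mem_nonunits {V : ValuationSubring F} {x : F} {k : ℕ}
    (h : x ^ k ∈ V.nonunits) : x ∈ V.nonunits := by
  rw [sr83_nonunits_iff] at h ⊢
  rw [map_pow] at h
  by_contra hcon
  rw [not_lt] at hcon
  exact absurd h (not_lt.mpr (one_le_pow₀ hcon))

/-- **Frobenius is injective modulo `𝔪_V`** when `q ∈ 𝔪_V`. -/
theorem wr83_frob_pow_inj {V : ValuationSubring F} {q : ℕ} (hq : q.Prime)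
    (hqV : ((q : ℕ) : F) ∈ V.nonunits) {a b : F} (ha : a ∈ V) (hb : b ∈ V) (l : ℕ)
    (h : a ^ q ^ l - b ^ q ^ l ∈ V.nonunits) : a - b ∈ V.nonunits := by
  obtain ⟨r, hr⟩ :=
    exists_add_pow_prime_pow_eq hq ((⟨a, ha⟩ : V) - ⟨b, hb⟩) (⟨b, hb⟩ : V) l
  have hr' : a ^ q ^ l =
      (a - b) ^ q ^ l + b ^ q ^ l + ((q : ℕ) : F) * (a - b) * b * (r : F) := by
    have := congrArg (fun x : V => (x : F)) hr
    simpa using this
  have h1 : (a - b) ^ q ^ l ∈ V.nonunits := by
    have e : (a - b) ^ q ^ l =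
        (a ^ q ^ l - b ^ q ^ l) - ((a - b) * b * (r : F)) * ((q : ℕ) : F) := by
      rw [hr']
      ring
    rw [e]
    exact sr83_sub_mem_nonunits h
      (sr83_mul_mem_nonunits (mul_mem (mul_mem (sub_mem ha hb) hb) r.2) hqV)
  exact wr83_pow_mem_nonunits h1

end Gen

/-! ## The concrete WILD row -/

section Concrete

variable {P : ValuationSubring A2.Qb} {E : IntermediateField ℚ A2.Qb} {N q : ℕ}
  [NeZero N] [NeZero q] [NeZero (N * q)] {n : ℕ} {w : A2.RE P E}
  {V' : ℕ → ValuationSubring (FE E N)} {V : ℕ → ValuationSubring (FE E (N * q))}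
  {W' : FE E N ≃ₐ[E] FE E N} {W : FE E (N * q) ≃ₐ[E] FE E (N * q)}

omit [NeZero (N * q)] in
/-- `w ∈ 𝔪_{V' j}` (lower `val.ram`, `mu ≥ 1`). -/
theorem wr83_w_mem (hS : StdE P E N q n w) (hL : LevelCtx P E N q n w V' W') {j : ℕ}
    (hj : j ≤ n) : algebraMap (A2.RE P E) (FE E N) w ∈ (V' j).nonunits := by
  obtain ⟨t, ht, hu⟩ := hL.val.ram j hj
  have hmu : 0 < mu q n j := Nat.totient_pos.mpr (pow_pos hS.q_prime.pos _)
  have e : algebraMap (A2.RE P E) (FE E N) w =
      (algebraMap (A2.RE P E) (FE E N) w * (t ^ mu q n j)⁻¹) * t ^ mu q n j := by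
    rw [mul_assoc, inv_mul_cancel₀ (pow_ne_zero _ ht.1), mul_one]
  rw [e]
  refine sr83_mul_mem_nonunits hu.2.1 ?_
  obtain ⟨k, hk⟩ : ∃ k, mu q n j = k + 1 := ⟨mu q n j - 1, by omega⟩
  rw [hk, pow_succ]
  exact sr83_mul_mem_nonunits (pow_mem (sr83_mem_of_mem_nonunits ht.2.1) k) ht.2.1

omit [NeZero (N * q)] in
/-- `q ∈ 𝔪_{V' j}`. -/
theorem wr83_q_mem (hS : StdE P E N q n w) (hL : LevelCtx P E N q n w V' W') {j : ℕ}
    (hj : j ≤ n) : ((q : ℕ) : FE E N) ∈ (V' j).nonunits := by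
  obtain ⟨u, hu⟩ := sr83_unram hS
  have hw := wr83_w_mem hS hL hj
  have e : ((q : ℕ) : FE E N) = algebraMap (A2.RE P E) (FE E N) (u : A2.RE P E) *
      algebraMap (A2.RE P E) (FE E N) w := by
    have h1 : ((q : ℕ) : FE E N) = algebraMap E (FE E N) ((q : ℕ) : E) :=
      (map_natCast _ q).symm
    rw [h1, hu, map_mul, mul_comm]
    rfl
  rw [e]
  exact sr83_mul_mem_nonunits (hL.sheet.base j hj _) hw

/-- **The WILD row** of `V (j + 1)` over `V' j` along `α`, `1 ≤ j`, `2 j + 1 ≤ n`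
(`l = n - 2 j - 1 = e - 2 i` with `i = j + 1`, `e = n + 1`). -/
theorem wildRow83 (hS : StdE P E N q n w) (hL : LevelCtx P E N q n w V' W')
    (hO : ObjsE P E N q n V' V W) {j l : ℕ} (hj1 : 1 ≤ j) (hl : l + 2 * j + 1 = n) :
    UnifAt (V' j) (jLev E N q n - jLev E N q (l + 1)) ∧
    UnifAt (V (j + 1)) (jLev E (N * q) q (n + 1) - jLev E (N * q) q l) ∧
    UnitAt (V (j + 1)) (αE E N q (jLev E N q n - jLev E N q (l + 1)) *
      ((jLev E (N * q) q (n + 1) - jLev E (N * q) q l) ^ q)⁻¹) ∧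
    (∀ f ∈ V (j + 1), ∃ g ∈ V' j, f - αE E N q g ∈ (V (j + 1)).nonunits) ∧
    (∀ U : ValuationSubring (FE E (N * q)),
      U.comap (αE E N q : FE E N →+* FE E (N * q)) = V' j → U = V (j + 1)) := by
  have hq : q.Prime := hS.q_prime
  have hn1 : 1 ≤ n := by omega
  have hjn : j ≤ n := by omega
  haveI : IsDiscreteValuationRing (V' j) := hL.val.dvr j hjn
  obtain ⟨M, hM0, hNM, hqM⟩ := sr83_level (N := N) hq hS.exp
  haveI : NeZero M := ⟨hM0⟩
  have hN' : N = q ^ (n - 1) * q * M := by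
    rw [hNM, ← pow_succ, Nat.sub_add_cancel hn1]
    ring
  have hlod : ∀ m, m ≤ n → q ^ m ∣ N := fun m hm => sr83_pow_dvd hS.exp hm
  have hupd : ∀ m, m ≤ n + 1 → q ^ m ∣ N * q := fun m hm => sr83_pow_dvd_up hS.exp hm
  have hlo : q ^ (n - 1) ∣ N := hlod _ (Nat.sub_le n 1)
  have hmid : q ^ (n - 1) * q ∣ N := ⟨M, hN'⟩
  have hhi : q ^ (n - 1) * (q * q) ∣ N * q := by
    rw [← mul_assoc]
    exact mul_dvd_mul_right hmid q
  have hd : q ^ l ∣ N := hlod l (by omega)
  have hdq : q ^ l * q ∣ N := by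
    rw [← pow_succ]
    exact hlod (l + 1) (by omega)
  have hd' : q ^ l ∣ N * q := hd.trans (dvd_mul_right N q)
  -- identifications
  have ez : jE E N (q ^ (n - 1)) hlo = jLev E N q (n - 1) := (sr83_jLev_eq (n - 1) hlo).symm
  have ex : jE E N (q ^ (n - 1) * q) hmid = jLev E N q n := by
    rw [sr83_jLev_eq n (hlod n le_rfl)]
    exact Fermat.Agent.S36.H816.jE_congr N (by rw [← pow_succ, Nat.sub_add_cancel hn1]) _ _
  have ex' : jE E N (q ^ l * q) hdq = jLev E N q (l + 1) := by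
    rw [sr83_jLev_eq (l + 1) (hlod (l + 1) (by omega))]
    exact Fermat.Agent.S36.H816.jE_congr N (pow_succ q l).symm _ _
  have edd : jE E N (q ^ l) hd = jLev E N q l := (sr83_jLev_eq l hd).symm
  have ey : jE E (N * q) (q ^ (n - 1) * (q * q)) hhi = jLev E (N * q) q (n + 1) := by
    rw [sr83_jLev_eq (n + 1) (hupd _ le_rfl)]
    refine Fermat.Agent.S36.H816.jE_congr (N * q) ?_ _ _
    rw [← pow_two, ← pow_add]
    congr 1
    omega
  have ed' : jE E (N * q) (q ^ l) hd' = jLev E (N * q) q l := (sr83_jLev_eq l hd').symm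
  -- lower data
  have hunif' : UnifAt (V' j) (jLev E N q n - jLev E N q (l + 1)) := by
    have h := hL.unif.unif j hj1 (by omega)
    have e : n - 2 * j = l + 1 := by omega
    rw [e] at h
    exact h
  have hunit' : ∀ m ≤ n, UnitAt (V' j) (jLev E N q m) := fun m hm => hL.kron.unit j hjn m hm
  have hqm := wr83_q_mem hS hL hjn
  have hver : jLev E N q (n - 1) - jLev E N q n ^ q ∈ (V' j).nonunits := by
    have h := hL.kron.ver j hjn (n - 1) (by omega) (by omega)
    rw [Nat.sub_add_cancel hn1] at h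
    exact h
  have hfrob : ∀ m, m < n - j → jLev E N q (m + 1) - jLev E N q m ^ q ∈ (V' j).nonunits :=
    fun m hm => hL.kron.frob j hjn m hm
  -- the unit `c ^ (q²) - c`
  have hchain : ∀ m, m ≤ n - j → jLev E N q m - jLev E N q 0 ^ q ^ m ∈ (V' j).nonunits := by
    intro m
    induction m with
    | zero =>
      intro _
      rw [pow_zero, pow_one, sub_self]
      exact (ValuationSubring.mem_nonunits_iff_or (V' j)).mpr (Or.inl rfl)
    | succ m ih =>
      intro hm
      have h1 := hfrob m (by omega)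
      have h2 := sr83_pow_sub_pow_mem (hunit' m (by omega)).2.1
        (pow_mem (hunit' 0 (Nat.zero_le n)).2.1 (q ^ m)) (ih (by omega)) q
      have e : jLev E N q (m + 1) - jLev E N q 0 ^ q ^ (m + 1) =
          (jLev E N q (m + 1) - jLev E N q m ^ q) +
            (jLev E N q m ^ q - (jLev E N q 0 ^ q ^ m) ^ q) := by
        rw [← pow_mul, ← pow_succ]
        ring
      rw [e]
      exact sr83_add_mem_nonunits h1 h2
  have hcV : jLev E N q l ∈ V' j := (hunit' l (by omega)).2.1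
  have hcunit : jLev E N q l ^ q ^ 2 - jLev E N q l ∉ (V' j).nonunits := by
    intro hc
    have haV : jLev E N q 0 ∈ V' j := (hunit' 0 (Nat.zero_le n)).2.1
    have h1 : jLev E N q l - jLev E N q 0 ^ q ^ l ∈ (V' j).nonunits := hchain l (by omega)
    have h2 := sr83_pow_sub_pow_mem hcV (pow_mem haV (q ^ l)) h1 (q ^ 2)
    have h3 : (jLev E N q 0 ^ q ^ 2) ^ q ^ l - jLev E N q 0 ^ q ^ l ∈ (V' j).nonunits := by
      have e : (jLev E N q 0 ^ q ^ 2) ^ q ^ l - jLev E N q 0 ^ q ^ l =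
          (jLev E N q l ^ q ^ 2 - jLev E N q l) -
            (jLev E N q l ^ q ^ 2 - (jLev E N q 0 ^ q ^ l) ^ q ^ 2) +
              (jLev E N q l - jLev E N q 0 ^ q ^ l) := by
        rw [← pow_mul, ← pow_mul, mul_comm (q ^ 2) (q ^ l)]
        ring
      rw [e]
      exact sr83_add_mem_nonunits (sr83_sub_mem_nonunits hc h2) h1
    have h4 := wr83_frob_pow_inj hq hqm (pow_mem haV (q ^ 2)) haV l h3
    have h5 : (jLev E N q 0 ^ q) ^ q - jLev E N q 0 ∈ (V' j).nonunits := by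
      rw [← pow_mul, ← pow_two]
      exact h4
    exact hL.wit.wit_lo j hjn (by omega) (jLev E N q 0 ^ q) (pow_mem haV q) h5
  have hcu : UnitAt (V' j) (jLev E N q l ^ q ^ 2 - jLev E N q l) :=
    wr83_unitAt_of_not_mem (sub_mem (pow_mem hcV _) hcV) hcunit
  -- helper972's wild step
  obtain ⟨V₀, hover, -, hunifV, ⟨u, hu, hui, hpow⟩, hres, huniq⟩ :=
    Fermat.Agent.S45.H972.wildE_alpha (E := E) (d₀ := q ^ (n - 1)) (d := q ^ l) hq hN' hqM
      hlo hmid hhi hd hdq hd' (V' j)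
      (by rw [ez]; exact (hunit' (n - 1) (Nat.sub_le n 1)).2.1)
      (by rw [ex]; exact (hunit' n le_rfl).2.1)
      (by rw [ex']; exact (hunit' (l + 1) (by omega)).2.1)
      (by rw [edd]; exact hcV)
      (by rw [ex, ex']; exact wr83_isUnif_of_unifAt hunif')
      (fun a => by rw [ex, ex']; exact wr83_arch_of_dvr (V' j) hunif' a)
      (by rw [ex, ex']; exact hunif'.2.2 _ hqm)
      (by rw [ez, ex, ex']; exact hunif'.2.2 _ hver)
      (by rw [ex', edd, ex]; exact hunif'.2.2 _ (hfrob l (by omega)))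
      (by rw [edd]; exact hcu.1)
      (by rw [edd]; exact hcu.2.2)
  rw [ey, ed'] at hunifV hpow hres
  rw [ex, ex'] at hpow
  -- `V (j + 1)` is that valuation ring
  have hlies : (V (j + 1)).comap (αE E N q : FE E N →+* FE E (N * q)) = V' j := by
    have h := hO.lies (j + 1) (by omega) (by omega)
    rw [Nat.add_sub_cancel] at h
    exact h
  have hm_of : ∀ U : ValuationSubring (FE E (N * q)),
      U.comap (αE E N q : FE E N →+* FE E (N * q)) = V' j →
        ∀ k : FE E N, αE E N q k ∈ U ↔ k ∈ V' j := fun U hU k => by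
    have h2 : k ∈ U.comap (αE E N q : FE E N →+* FE E (N * q)) ↔ k ∈ V' j := by
      rw [hU]
    rw [ValuationSubring.mem_comap] at h2
    exact h2
  have hVeq : V (j + 1) = V₀ := huniq _ (hm_of _ hlies)
  rw [hVeq]
  have hT0 : jLev E (N * q) q (n + 1) - jLev E (N * q) q l ≠ 0 := hunifV.ne_zero
  have hTn : jLev E (N * q) q (n + 1) - jLev E (N * q) q l ∈ V₀.nonunits :=
    sr83_isUnif_mem_nonunits hunifV
  refine ⟨hunif', sr83_unifAt_of_isUnif hunifV, ?_, ?_, ?_⟩
  · have hu0 : u ≠ 0 := by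
      intro h0
      rw [h0, mul_zero] at hpow
      exact pow_ne_zero _ hT0 hpow
    have hα0 : αE E N q (jLev E N q n - jLev E N q (l + 1)) ≠ 0 :=
      (map_ne_zero _).mpr hunif'.1
    have e : αE E N q (jLev E N q n - jLev E N q (l + 1)) *
        ((jLev E (N * q) q (n + 1) - jLev E (N * q) q l) ^ q)⁻¹ = u⁻¹ := by
      rw [hpow, mul_inv, ← mul_assoc, mul_inv_cancel₀ hα0, one_mul]
    rw [e]
    exact ⟨inv_ne_zero hu0, hui, by rw [inv_inv]; exact hu⟩
  · intro f hf
    obtain ⟨g, hg, hfg⟩ := hres f hf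
    exact ⟨g, hg, sr83_mem_nonunits_of_mul_inv hT0 hTn hfg⟩
  · intro U hU
    exact huniq U (hm_of U hU)

end Concrete

/-! ## The leaves -/

section Leaves

/-- **UNIF-E (leaf)**, UNCONDITIONAL: `T i = J e - J (e - 2 i)` is a uniformiser of `V i`,
`1 ≤ i`, `2 i ≤ e`  (`i = 1`: SPLIT, helper972 `splitE_alpha_pow`; `i ≥ 2`: WILD, helper972
`wildE_alpha`). -/
theorem leafUnifE83 : LeafUnifE := by
  intro P E N q _ _ _ n w hS hn V' V W' W hL hO
  refine ⟨fun i hi1 hi2 => ?_⟩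
  rcases Nat.lt_or_ge i 2 with h | h
  · have h1 : i = 1 := by omega
    subst h1
    exact (leafRows83 hS (by omega) hL hO).unif
  · obtain ⟨j, rfl⟩ : ∃ j, i = j + 1 := ⟨i - 1, by omega⟩
    exact (wildRow83 hS hL hO (j := j) (l := n + 1 - 2 * (j + 1)) (by omega) (by omega)).2.1

/-- **SPLIT relation** (input `LeafSplitRam835` of helper835, same body), UNCONDITIONAL. -/
theorem leafSplitRam83 :
    Leaf fun P E N q _ _ _ _ w _ V _ _ =>
      ∃ τ : A2.Mod.FE E (N * q),
        UnitAt (V 1) (algebraMap (A2.RE P E) (A2.Mod.FE E (N * q)) w * (τ ^ (q - 1))⁻¹) := by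
  intro P E N q _ _ _ n w hS hn V' V W' W hL hO
  exact ⟨_, (splitRows_of_ctx83 hS (by omega) hL hO).ram₁⟩

/-- **WILD relations** (input `LeafWildRam835` of helper835, same body), UNCONDITIONAL. -/
theorem leafWildRam83 :
    Leaf fun _ E N q _ _ _ n _ V' V _ _ =>
      ∀ i, 2 ≤ i → 2 * i ≤ n + 1 → ∃ (t' : A2.Mod.FE E N) (τ : A2.Mod.FE E (N * q)),
        UnifAt (V' (i - 1)) t' ∧ UnitAt (V i) (A2.Mod.αE E N q t' * (τ ^ q)⁻¹) := by
  intro P E N q _ _ _ n w hS hn V' V W' W hL hO i hi2 hi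
  obtain ⟨j, rfl⟩ : ∃ j, i = j + 1 := ⟨i - 1, by omega⟩
  have h := wildRow83 hS hL hO (j := j) (l := n + 1 - 2 * (j + 1)) (by omega) (by omega)
  rw [Nat.add_sub_cancel]
  exact ⟨_, _, h.1, h.2.2.1⟩

/-- The `α`-rows of type WILD in the shapes of `PartResE.res_α` and `PartOnlyE.only_α`. -/
theorem leafWildResOnly83 :
    Leaf fun _ E N q _ _ _ n _ V' V _ _ =>
      ∀ i, 2 ≤ i → 2 * i ≤ n + 1 →
        (∀ f ∈ V i, ∃ g ∈ V' (i - 1), f - A2.Mod.αE E N q g ∈ (V i).nonunits) ∧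
        (∀ U : ValuationSubring (A2.Mod.FE E (N * q)),
          U.comap (A2.Mod.αE E N q : A2.Mod.FE E N →+* A2.Mod.FE E (N * q)) = V' (i - 1) →
            U = V i) := by
  intro P E N q _ _ _ n w hS hn V' V W' W hL hO i hi2 hi
  obtain ⟨j, rfl⟩ : ∃ j, i = j + 1 := ⟨i - 1, by omega⟩
  have h := wildRow83 hS hL hO (j := j) (l := n + 1 - 2 * (j + 1)) (by omega) (by omega)
  rw [Nat.add_sub_cancel]
  exact ⟨h.2.2.2.1, h.2.2.2.2⟩

end Leaves

end Fermat.Agent.S45.ModE.H83

end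

end
-- ===== PACK-END S45/ModE/H83/WildRows.lean

-- ===== PACK-BEGIN S45/ModE/H835/Leaves.lean
section



/-!
# S45 / CAR3 / MOD-E — the leaves VAL-E and RES-E, conditional (helper835)

Against `S45/ModE/Spec.lean` (sub-architect helper928, @69c787c92, sha256 05d70ef1).

INPUTS (exactly the two Eisenstein relations of the `(e, f)` table, in leaf form):

* `LeafSplitRam835` : `∃ τ, w = τ ^ (q - 1) · unit` at `V 1`                     (type SPLIT);
* `LeafWildRam835`  : for `2 ≤ i`, `2 i ≤ n + 1`: `∃ t' τ`, `t'` a uniformiser of `V' (i - 1)` and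
  `α t' = τ ^ q · unit` at `V i`                                                 (type WILD);

(both are by-products of any proof of `LeafUnifE`: `τ = J e - J (e - 2 i)`, `t' = J' n - J' (n - 2 (i - 1))`
resp. `t' = w`), and the official leaves `LeafKronE` (Kronecker pattern of the upper level),
`LeafSymE` (only for the `β`-half of RES-E).

OUTPUTS:

* `leafValE_of835   : LeafKronE → LeafSplitRam835 → LeafWildRam835 → LeafValE`;
* `leafResE_of835   : LeafKronE → LeafSymE → LeafSplitRam835 → LeafWildRam835 → LeafResE`;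
* `leafOnlyAlpha835 : LeafKronE → LeafSplitRam835 → LeafWildRam835 → (α-half of ONLY-E)`;
* `leafOnlyE_of835  : LeafKronE → LeafSymE → LeafSplitRam835 → LeafWildRam835 → LeafOnlyE`.

The type INSEP rows (`2 ≤ i`, `n + 1 < 2 i`) need NO input beyond `LeafKronE`: the witness of
inseparability is `J (n + 1) ^ q ≡ α (J' n)` (upper `ver`) with the lower `wit_hi`.
-/

set_option autoImplicit false
set_option linter.style.haveILetI false
set_option linter.unusedSectionVars false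
set_option linter.unusedVariables false
set_option synthInstance.maxHeartbeats 400000
set_option maxHeartbeats 1600000

noncomputable section

namespace Fermat.Agent.S45.ModE.H835

open scoped BigOperators
open ModularCurve AlgebraicCurve
open Fermat.Agent.A2.Mod
open Fermat.Agent.S35.H253 Fermat.Agent.S36.H253
open Fermat.Agent.S36 Fermat.Agent.S36.Eng Fermat.Agent.S45.ModE
open Fermat.Agent.S45.VT.H835

/-! ## The two inputs -/

/-- **SPLIT relation (input).**  `w = τ ^ (q - 1) · unit` at `V 1`. -/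
def LeafSplitRam835 : Prop :=
  Leaf fun P E N q _ _ _ _ w _ V _ _ =>
    ∃ τ : A2.Mod.FE E (N * q),
      UnitAt (V 1) (algebraMap (A2.RE P E) (A2.Mod.FE E (N * q)) w * (τ ^ (q - 1))⁻¹)

/-- **WILD relations (input).**  For `2 ≤ i`, `2 i ≤ n + 1`: `α t' = τ ^ q · unit` at `V i`, `t'` a
uniformiser of `V' (i - 1)`. -/
def LeafWildRam835 : Prop :=
  Leaf fun _ E N q _ _ _ n _ V' V _ _ =>
    ∀ i, 2 ≤ i → 2 * i ≤ n + 1 → ∃ (t' : A2.Mod.FE E N) (τ : A2.Mod.FE E (N * q)),
      UnifAt (V' (i - 1)) t' ∧ UnitAt (V i) (A2.Mod.αE E N q t' * (τ ^ q)⁻¹)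

/-- The `α`-half of ONLY-E. -/
def PartOnlyAlpha835 {E F F' : Type*} [Field E] [Field F] [Algebra E F] [Field F'] [Algebra E F']
    (n : ℕ) (α : F' →ₐ[E] F) (V : ℕ → ValuationSubring F) (V' : ℕ → ValuationSubring F') : Prop :=
  (∀ U : ValuationSubring F, U.comap (α : F' →+* F) = V' 0 → U = V 0 ∨ U = V 1) ∧
    ∀ j, 1 ≤ j → j ≤ n → ∀ U : ValuationSubring F,
      U.comap (α : F' →+* F) = V' j → U = V (j + 1)

/-! ## Fricke transport -/

section Transport

variable {E F F' : Type*} [Field E] [Field F] [Algebra E F] [Field F'] [Algebra E F']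

theorem mem_comap_equiv835 (U : ValuationSubring F) (W : F ≃ₐ[E] F) (f : F) :
    f ∈ U.comap (W : F →+* F) ↔ W f ∈ U := Iff.rfl

theorem mem_nonunits_comap_equiv835 (U : ValuationSubring F) (W : F ≃ₐ[E] F) (f : F) :
    f ∈ (U.comap (W : F →+* F)).nonunits ↔ W f ∈ U.nonunits := by
  rw [ValuationSubring.mem_nonunits_iff_or, ValuationSubring.mem_nonunits_iff_or,
    mem_comap_equiv835, map_inv₀, map_eq_zero]

/-- **Fricke transport of a residue row**: a row `f ^ k ≡ α g` of `Va` over `Va'` gives the row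
`f ^ k ≡ β g` of `Vb = Va ∘ W⁻¹` over `Vb' = Va' ∘ W'⁻¹`. -/
theorem row_transport835 (α β : F' →ₐ[E] F) (W' : F' ≃ₐ[E] F') (W : F ≃ₐ[E] F)
    (hWW : ∀ f, W (W f) = f)
    (hcompat : ∀ f : F', W (α f) = β (W' f))
    {Va Vb : ValuationSubring F} {Va' Vb' : ValuationSubring F'}
    (hV : Va = Vb.comap (W : F →+* F)) (hV' : Va' = Vb'.comap (W' : F' →+* F')) (k : ℕ)
    (h : ∀ f ∈ Va, ∃ g ∈ Va', f ^ k - α g ∈ Va.nonunits) :
    ∀ f ∈ Vb, ∃ g ∈ Vb', f ^ k - β g ∈ Vb.nonunits := by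
  intro f hf
  have hWf : W f ∈ Va := by
    rw [hV, mem_comap_equiv835, hWW]
    exact hf
  obtain ⟨g, hg, hfg⟩ := h (W f) hWf
  refine ⟨W' g, ?_, ?_⟩
  · rw [hV'] at hg
    exact hg
  · rw [hV, mem_nonunits_comap_equiv835, map_sub, map_pow, hWW, hcompat] at hfg
    exact hfg

end Transport

/-! ## The parts at concrete objects (core form) -/

section Core

variable {P : ValuationSubring Qb} {E : IntermediateField ℚ Qb} {N q : ℕ}
  [NeZero N] [NeZero q] [NeZero (N * q)]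
  {n : ℕ} {w : RE P E} {V' : ℕ → ValuationSubring (FE E N)}
  {V : ℕ → ValuationSubring (FE E (N * q))} {W' : FE E N ≃ₐ[E] FE E N}
  {W : FE E (N * q) ≃ₐ[E] FE E (N * q)}

/-- The inputs of the rows at concrete objects: the SPLIT relation, the WILD relations, the
witnesses of inseparability. -/
structure RowInputs835 (P : ValuationSubring Qb) (E : IntermediateField ℚ Qb) (N q : ℕ)
    [NeZero N] [NeZero q] [NeZero (N * q)] (n : ℕ) (w : RE P E)
    (V' : ℕ → ValuationSubring (FE E N)) (V : ℕ → ValuationSubring (FE E (N * q))) : Prop where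
  split : ∃ τ : FE E (N * q),
    UnitAt (V 1) (algebraMap (RE P E) (FE E (N * q)) w * (τ ^ (q - 1))⁻¹)
  wild : ∀ i, 2 ≤ i → 2 * i ≤ n + 1 → ∃ (t' : FE E N) (τ : FE E (N * q)),
    UnifAt (V' (i - 1)) t' ∧ UnitAt (V i) (αE E N q t' * (τ ^ q)⁻¹)
  insep : ∀ i, 2 ≤ i → i ≤ n + 1 → n + 1 < 2 * i →
    jLev E (N * q) q (n + 1) ∈ V i ∧
      jLev E (N * q) q (n + 1) ^ q - αE E N q (jLev E N q n) ∈ (V i).nonunits

/-- The `α`-half of ONLY-E (core). -/
theorem onlyAlpha_core835 (hS : StdE P E N q n w) (hn : 2 ≤ n)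
    (hL : LevelCtx P E N q n w V' W') (hO : ObjsE P E N q n V' V W)
    (hI : RowInputs835 P E N q n w V' V) : PartOnlyAlpha835 n (αE E N q) V V' := by
  obtain ⟨τ₁, hτ₁⟩ := hI.split
  refine ⟨(splitRow835 hS hn hL hO hτ₁).1, ?_⟩
  intro j hj1 hjn U hU
  rcases Nat.lt_or_ge (n + 1) (2 * (j + 1)) with h | h
  · have hw := hI.insep (j + 1) (by omega) (by omega) h
    exact (insepRow_core835 hS hn hL hO (i := j + 1) (by omega) (by omega) h hw.1 hw.2).1 U hU
  · obtain ⟨t', τ, ht', hr⟩ := hI.wild (j + 1) (by omega) h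
    exact (wildRow835 hS hn hL hO (i := j + 1) (by omega) h ht' hr).1 U hU

/-- VAL-E (core), `x_unit` as a hypothesis. -/
theorem partValE_core835 (hS : StdE P E N q n w) (hn : 2 ≤ n)
    (hL : LevelCtx P E N q n w V' W') (hO : ObjsE P E N q n V' V W)
    (hI : RowInputs835 P E N q n w V' V)
    (hX : ∀ i ≤ n + 1, UnitAt (V i) (xLev E (N * q) q (n + 1))) :
    PartValE (R := RE P E) w q (n + 1) (xLev E (N * q) q (n + 1)) V := by
  obtain ⟨τ₁, hτ₁⟩ := hI.split
  have hq := hS.q_prime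
  refine ⟨fun i hi => dvr835 hS hn hL hO i hi, ne835 hS hL hO, ?_, hX⟩
  intro i hi
  rcases Nat.lt_or_ge i 2 with h | h
  · rcases Nat.eq_zero_or_pos i with h0 | hpos
    · subst h0
      have hu := vinfRow835 hS hO
      refine ⟨_, hu, ?_⟩
      rw [mu_zero835, pow_one, mul_inv_cancel₀ hu.1]
      exact unitAt_one835 _
    · have h1 : i = 1 := by omega
      subst h1
      refine ⟨τ₁, (splitRow835 hS hn hL hO hτ₁).2.2.2, ?_⟩
      rw [mu_one835 hq (by omega)]
      exact hτ₁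
  · rcases Nat.lt_or_ge (n + 1) (2 * i) with h' | h'
    · have hw := hI.insep i h hi h'
      exact (insepRow_core835 hS hn hL hO h hi h' hw.1 hw.2).2.2
    · obtain ⟨t', τ, ht', hr⟩ := hI.wild i h h'
      have R := wildRow835 hS hn hL hO h h' ht' hr
      exact ⟨τ, R.2.2.1, R.2.2.2⟩

/-- The `α`-half of RES-E (core). -/
theorem resAlpha_core835 (hS : StdE P E N q n w) (hn : 2 ≤ n)
    (hL : LevelCtx P E N q n w V' W') (hO : ObjsE P E N q n V' V W)
    (hI : RowInputs835 P E N q n w V' V) :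
    (∀ i ≤ n + 1, i ≤ 1 ∨ 2 * i ≤ n + 1 → ∀ f ∈ V i, ∃ g ∈ V' (i - 1),
        f - αE E N q g ∈ (V i).nonunits) ∧
      (∀ i ≤ n + 1, 2 ≤ i → n + 1 < 2 * i → ∀ f ∈ V i, ∃ g ∈ V' (i - 1),
        f ^ q - αE E N q g ∈ (V i).nonunits) := by
  obtain ⟨τ₁, hτ₁⟩ := hI.split
  have Sp := splitRow835 hS hn hL hO hτ₁
  refine ⟨?_, ?_⟩
  · intro i hi hcase
    rcases Nat.lt_or_ge i 2 with h | h
    · rcases Nat.eq_zero_or_pos i with h0 | hpos
      · subst h0
        exact Sp.2.1
      · have h1 : i = 1 := by omega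
        subst h1
        exact Sp.2.2.1
    · have h' : 2 * i ≤ n + 1 := by omega
      obtain ⟨t', τ, ht', hr⟩ := hI.wild i h h'
      exact (wildRow835 hS hn hL hO h h' ht' hr).2.1
  · intro i hi h2 h2i
    have hw := hI.insep i h2 hi h2i
    exact (insepRow_core835 hS hn hL hO h2 hi h2i hw.1 hw.2).2.1

/-- RES-E (core): the `α`-half and the symmetry of the upper level. -/
theorem partResE_core835 (hS : StdE P E N q n w) (hn : 2 ≤ n)
    (hL : LevelCtx P E N q n w V' W') (hO : ObjsE P E N q n V' V W)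
    (hI : RowInputs835 P E N q n w V' V)
    (Sym : ∀ i ≤ n + 1, V (n + 1 - i) = (V i).comap (W : FE E (N * q) →+* FE E (N * q))) :
    PartResE q n (αE E N q) (βE E N q) V V' := by
  obtain ⟨hresα, hinsα⟩ := resAlpha_core835 hS hn hL hO hI
  have hc := A2.Mod.H553.frickeCompat E N q W' W hL.fricke hO.fricke
  have hcompat : ∀ f, W (αE E N q f) = βE E N q (W' f) := fun f => (hc f).1
  refine ⟨hresα, hinsα, ?_, ?_⟩
  · -- res_β at `i` = res_α at `n + 1 - i`
    intro i hi hcase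
    have hrow := hresα (n + 1 - i) (by omega) (by omega)
    have hV : V (n + 1 - i) = (V i).comap (W : FE E (N * q) →+* FE E (N * q)) := Sym i hi
    have hV' : V' (n + 1 - i - 1) = (V' (min i n)).comap (W' : FE E N →+* FE E N) := by
      have := hL.sym (min i n) (by omega)
      have e : n - min i n = n + 1 - i - 1 := by omega
      rw [e] at this
      exact this
    have key := row_transport835 (αE E N q) (βE E N q) W' W hO.fricke.2 hcompat hV hV' 1
      (fun f hf => by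
        obtain ⟨g, hg, hfg⟩ := hrow f hf
        exact ⟨g, hg, by rw [pow_one]; exact hfg⟩)
    intro f hf
    obtain ⟨g, hg, hfg⟩ := key f hf
    exact ⟨g, hg, by rw [pow_one] at hfg; exact hfg⟩
  · -- insep_β at `i` = insep_α at `n + 1 - i`
    intro i hi h2i
    have hrow := hinsα (n + 1 - i) (by omega) (by omega) (by omega)
    have hV : V (n + 1 - i) = (V i).comap (W : FE E (N * q) →+* FE E (N * q)) :=
      Sym i (by omega)
    have hV' : V' (n + 1 - i - 1) = (V' i).comap (W' : FE E N →+* FE E N) := by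
      have := hL.sym i (by omega)
      have e : n - i = n + 1 - i - 1 := by omega
      rw [e] at this
      exact this
    exact row_transport835 (αE E N q) (βE E N q) W' W hO.fricke.2 hcompat hV hV' q hrow

/-- The inputs from the Kronecker pattern of the upper level and the two Eisenstein relations. -/
theorem rowInputs_of_kron835 (hS : StdE P E N q n w)
    (hK : PartKronE q (n + 1) (jLev E (N * q) q) V)
    (hSp : ∃ τ : FE E (N * q),
      UnitAt (V 1) (algebraMap (RE P E) (FE E (N * q)) w * (τ ^ (q - 1))⁻¹))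
    (hWi : ∀ i, 2 ≤ i → 2 * i ≤ n + 1 → ∃ (t' : FE E N) (τ : FE E (N * q)),
      UnifAt (V' (i - 1)) t' ∧ UnitAt (V i) (αE E N q t' * (τ ^ q)⁻¹)) :
    RowInputs835 P E N q n w V' V :=
  ⟨hSp, hWi, fun i h2 hi _ => insepWit_of_kron835 hS hK (by omega) hi⟩

end Core

/-! ## The leaves -/

section Leaves

/-- **The `α`-half of ONLY-E.** -/
theorem leafOnlyAlpha835 (hK : LeafKronE) (hSp : LeafSplitRam835) (hWi : LeafWildRam835) :
    Leaf fun _ E N q _ _ _ n _ V' V _ _ => PartOnlyAlpha835 n (A2.Mod.αE E N q) V V' := by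
  intro P E N q _ _ _ n w hS hn V' V W' W hL hO
  exact onlyAlpha_core835 hS hn hL hO
    (rowInputs_of_kron835 hS (hK P E N q n w hS hn V' V W' W hL hO)
      (hSp P E N q n w hS hn V' V W' W hL hO) (hWi P E N q n w hS hn V' V W' W hL hO))

/-- **VAL-E** from the Kronecker pattern and the two Eisenstein relations. -/
theorem leafValE_of835 (hK : LeafKronE) (hSp : LeafSplitRam835) (hWi : LeafWildRam835) :
    LeafValE := by
  intro P E N q _ _ _ n w hS hn V' V W' W hL hO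
  have K := hK P E N q n w hS hn V' V W' W hL hO
  refine partValE_core835 hS hn hL hO
    (rowInputs_of_kron835 hS K (hSp P E N q n w hS hn V' V W' W hL hO)
      (hWi P E N q n w hS hn V' V W' W hL hO)) ?_
  intro i hi
  unfold xLev
  refine unitAt_prod835 _ _ (fun l hl => K.unit i hi l ?_)
  have := Finset.mem_range.1 hl
  omega

/-- The `α`-half of RES-E. -/
theorem resAlpha835 (hK : LeafKronE) (hSp : LeafSplitRam835) (hWi : LeafWildRam835) :
    Leaf fun _ E N q _ _ _ n _ V' V _ _ =>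
      (∀ i ≤ n + 1, i ≤ 1 ∨ 2 * i ≤ n + 1 → ∀ f ∈ V i, ∃ g ∈ V' (i - 1),
        f - A2.Mod.αE E N q g ∈ (V i).nonunits) ∧
      (∀ i ≤ n + 1, 2 ≤ i → n + 1 < 2 * i → ∀ f ∈ V i, ∃ g ∈ V' (i - 1),
        f ^ q - A2.Mod.αE E N q g ∈ (V i).nonunits) := by
  intro P E N q _ _ _ n w hS hn V' V W' W hL hO
  exact resAlpha_core835 hS hn hL hO
    (rowInputs_of_kron835 hS (hK P E N q n w hS hn V' V W' W hL hO)
      (hSp P E N q n w hS hn V' V W' W hL hO) (hWi P E N q n w hS hn V' V W' W hL hO))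

/-- **RES-E** from the Kronecker pattern, the symmetry and the two Eisenstein relations. -/
theorem leafResE_of835 (hK : LeafKronE) (hSym : LeafSymE) (hSp : LeafSplitRam835)
    (hWi : LeafWildRam835) : LeafResE := by
  intro P E N q _ _ _ n w hS hn V' V W' W hL hO
  exact partResE_core835 hS hn hL hO
    (rowInputs_of_kron835 hS (hK P E N q n w hS hn V' V W' W hL hO)
      (hSp P E N q n w hS hn V' V W' W hL hO) (hWi P E N q n w hS hn V' V W' W hL hO))
    (hSym P E N q n w hS hn V' V W' W hL hO)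

end Leaves

end Fermat.Agent.S45.ModE.H835

end

end
-- ===== PACK-END S45/ModE/H835/Leaves.lean

-- ===== PACK-BEGIN S45/ModE/H860/SheetE.lean
section




/-!
# S45 / CAR3 / MOD-E — leaf SHEET-E (helper860): `ModE.LeafSheetE`, UNCONDITIONAL

`LeafSheetE`: at the upper level `N q` (exponent `n + 1`) every `V i`, `i ≤ n + 1`, contains
`R_E` and induces the Gauss valuation on `R_E[x]`, `x = xLev E (N q) q (n + 1)`.

Route (`S45/H860/SheetE.lean`, `SheetEAbs.lean`, `SheetEConv.lean`):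

1. LOWER level: `V' j` is a sheet of `x' = xLev E N q n` (`LevelCtx.sheet`) which contains
   `j = J 0` (`LevelCtx.kron.unit`), lies over `R_E` (`sheet.base`, `val.ram`); by the CONVERSE
   Kronecker-chain theorem (`isSheetJ_of_gauss_xGE`) it is a sheet of `j`;
2. `V i`, `i ≥ 1`, lies over `V' (i - 1)` along `α` (`ObjsE.lies`), `α j = j`: `V i` is a sheet
   of `j` (`isSheetJ_comap_α`); `V 0 = V∞` is a sheet of `j` (`isSheetJ_vinf`);
3. a sheet of `j` is a sheet of `∏_{l ≤ n + 1} j_{q^l}` (`IsSheetJ.gauss`, Kronecker chain, any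
   Frobenius / Verschiebung pattern).

Used from the hypotheses: `StdE.{q_prime, exp, lies_over, unram, unif}`, `LevelCtx.{sheet, val.ram,
val.x_unit, kron.unit}`, `ObjsE.{vinf, lies}`.  NOT used: `2 ≤ n`, Fricke, tables, `only`.
-/

set_option autoImplicit false
set_option linter.style.haveILetI false
set_option linter.unusedSectionVars false
set_option linter.unusedVariables false
set_option synthInstance.maxHeartbeats 400000
set_option maxHeartbeats 1600000

noncomputable section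

namespace Fermat.Agent.S45.ModE.H860

open ModularCurve AlgebraicCurve Polynomial
open Fermat.Agent.S36 Fermat.Agent.S36.Eng
open Fermat.Agent.A2.Mod
open Fermat.Agent.S45.H860

/-! ## `jLev`, `xLev` and `jPow`, `xGE` -/

section Names

variable (E : IntermediateField ℚ Qb) (N q : ℕ) [NeZero N] [NeZero q]

theorem jLev_eq_jPow {l : ℕ} (h : q ^ l ∣ N) : jLev E N q l = jPow E N q l := by
  rw [jLev, dif_pos h, jPow_of_dvd E N q h]

theorem xLev_eq_xGE {n : ℕ} (h : q ^ n ∣ N) : xLev E N q n = xGE E N q n := by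
  rw [xLev, xGE]
  refine Finset.prod_congr rfl (fun l hl => jLev_eq_jPow E N q ?_)
  have hl' : l ≤ n := by
    have := Finset.mem_range.mp hl
    omega
  exact (pow_dvd_pow q hl').trans h

theorem jLev_zero : jLev E N q 0 = jE E N 1 (one_dvd N) := by
  rw [jLev_eq_jPow E N q (l := 0) (by rw [pow_zero]; exact one_dvd N), jPow_zero]

end Names

/-! ## Valuation rings over `R_E` -/

section Over

variable {P : ValuationSubring Qb} {E : IntermediateField ℚ Qb}

/-- `q` is a non-unit of `R_E` -/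
theorem natCast_mem_maximalIdeal {q : ℕ} (hP : P.LiesOverPrime q) :
    ((q : ℕ) : RE P E) ∈ IsLocalRing.maximalIdeal (RE P E) := by
  rw [IsLocalRing.mem_maximalIdeal, mem_nonunits_iff]
  intro hu
  obtain ⟨u, hu'⟩ := hu.exists_right_inv
  have h1 : ((q : ℕ) : Qb) * algebraMap E Qb (u : E) = 1 := by
    have h2 := congrArg (fun z : RE P E => algebraMap E Qb (z : E)) hu'
    simpa using h2
  have hu_mem : algebraMap E Qb (u : E) ∈ P := u.2
  have hq_non : ((q : ℕ) : Qb) ∈ P.nonunits := hP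
  have hv1 : P.valuation ((q : ℕ) : Qb) < 1 := (P.mem_nonunits_iff).mp hq_non
  have hv2 : P.valuation (algebraMap E Qb (u : E)) ≤ 1 := (P.valuation_le_one_iff _).mpr hu_mem
  have hv3 : P.valuation (((q : ℕ) : Qb) * algebraMap E Qb (u : E)) < 1 := by
    rw [map_mul]
    calc P.valuation ((q : ℕ) : Qb) * P.valuation (algebraMap E Qb (u : E))
        ≤ P.valuation ((q : ℕ) : Qb) * 1 := mul_le_mul' le_rfl hv2
      _ = P.valuation ((q : ℕ) : Qb) := mul_one _
      _ < 1 := hv1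
  rw [h1, map_one] at hv3
  exact lt_irrefl _ hv3

/-- a valuation ring containing `R_E` in which the uniformiser `w` is a non-unit lies over
`R_E` -/
theorem isOver_of_base [IsDiscreteValuationRing (RE P E)] {w : RE P E} (hw : Irreducible w)
    {N : ℕ} {V : ValuationSubring (FE E N)}
    (hbase : ∀ r : RE P E, algebraMap (RE P E) (FE E N) r ∈ V)
    (hwV : algebraMap (RE P E) (FE E N) w ∈ V.nonunits) : A2.H489.IsOver (RE P E) V where
  mem := hbase
  nonunit := fun r hr => by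
    rw [hw.maximalIdeal_eq, Ideal.mem_span_singleton] at hr
    obtain ⟨c, rfl⟩ := hr
    rw [map_mul, V.mem_nonunits_iff, map_mul]
    calc V.valuation (algebraMap (RE P E) (FE E N) w) *
          V.valuation (algebraMap (RE P E) (FE E N) c)
        ≤ V.valuation (algebraMap (RE P E) (FE E N) w) * 1 :=
          mul_le_mul' le_rfl ((V.valuation_le_one_iff _).mpr (hbase c))
      _ = V.valuation (algebraMap (RE P E) (FE E N) w) := mul_one _
      _ < 1 := (V.mem_nonunits_iff).mp hwV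

/-- `w` is a non-unit of a valuation ring in which it is a unit times a positive power of a
uniformiser -/
theorem w_mem_nonunits_of_ram {R F : Type*} [CommRing R] [Field F] [Algebra R F]
    {V : ValuationSubring F} {w : R} {m : ℕ} (hm : 0 < m)
    (h : ∃ t : F, UnifAt V t ∧ UnitAt V (algebraMap R F w * (t ^ m)⁻¹)) :
    algebraMap R F w ∈ V.nonunits := by
  obtain ⟨t, ht, hu⟩ := h
  have ht0 : t ≠ 0 := ht.1
  have e : algebraMap R F w = (algebraMap R F w * (t ^ m)⁻¹) * t ^ m := by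
    field_simp
  rw [e, V.mem_nonunits_iff, map_mul]
  have h1 : V.valuation (algebraMap R F w * (t ^ m)⁻¹) ≤ 1 :=
    (V.valuation_le_one_iff _).mpr hu.2.1
  have h2 : V.valuation t < 1 := (V.mem_nonunits_iff).mp ht.2.1
  have h3 : V.valuation (t ^ m) < 1 := by
    rw [map_pow]
    exact pow_lt_one₀ zero_le h2 hm.ne'
  calc V.valuation (algebraMap R F w * (t ^ m)⁻¹) * V.valuation (t ^ m)
      ≤ 1 * V.valuation (t ^ m) := mul_le_mul' h1 le_rfl
    _ = V.valuation (t ^ m) := one_mul _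
    _ < 1 := h3

theorem mu_pos {q : ℕ} (hq : q.Prime) (e i : ℕ) : 0 < mu q e i := by
  rw [mu]
  exact Nat.totient_pos.mpr (pow_pos hq.pos _)

end Over

/-! ## The sheets of the lower level are sheets of `j` -/

section Lower

variable {P : ValuationSubring Qb} {E : IntermediateField ℚ Qb}

/-- **The components of a level context are sheets of `j`.** -/
theorem isSheetJ_of_levelCtx {N q : ℕ} [NeZero N] [NeZero q] {n : ℕ} {w : RE P E}
    (hStd : StdE P E N q n w) {V' : ℕ → ValuationSubring (FE E N)}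
    {W' : FE E N ≃ₐ[E] FE E N} (hL : LevelCtx P E N q n w V' W') (j : ℕ) (hj : j ≤ n) :
    IsSheetJ P E N w q (V' j) := by
  haveI : IsDiscreteValuationRing (RE P E) := hStd.unram.1.dvr
  have hq := hStd.q_prime
  have hw := hStd.unif
  have hdvd : q ^ n ∣ N := by
    rw [← hStd.exp]
    exact Nat.ordProj_dvd N q
  have hwV : algebraMap (RE P E) (FE E N) w ∈ (V' j).nonunits :=
    w_mem_nonunits_of_ram (mu_pos hq n j) (hL.val.ram j hj)
  have hover : A2.H489.IsOver (RE P E) (V' j) := isOver_of_base hw (hL.sheet.base j hj) hwV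
  have hqV : ((q : ℕ) : FE E N) ∈ (V' j).nonunits := by
    have h := hover.nonunit _ (natCast_mem_maximalIdeal (E := E) hStd.lies_over)
    rwa [map_natCast] at h
  have hJ0 : jE E N 1 (one_dvd N) ∈ V' j := by
    have h := (hL.kron.unit j hj 0 (Nat.zero_le n)).2.1
    rwa [jLev_zero] at h
  have hw0 : algebraMap (RE P E) (FE E N) w ≠ 0 := by
    intro h0
    have h1 := (hL.val.ram j hj)
    obtain ⟨t, ht, hu⟩ := h1
    apply hu.1
    rw [h0, zero_mul]
  have hx : xGE E N q n ∈ V' j := by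
    have h := (hL.val.x_unit j hj).2.1
    rwa [xLev_eq_xGE E N q hdvd] at h
  have hg : GaussAt (V' j) w (xGE E N q n) := by
    refine gaussAt_of_weak (V' j) hover.mem hwV hw0 hx ?_
    intro p hp
    have h := hL.sheet.gauss j hj p hp
    rwa [xLev_eq_xGE E N q hdvd] at h
  exact isSheetJ_of_gauss_xGE hw hq hover hqV hJ0 n hdvd hg

end Lower

/-! ## The leaf -/

/-- **The components of the upper level are sheets of `j`.** -/
theorem isSheetJ_upper {P : ValuationSubring Qb} {E : IntermediateField ℚ Qb}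
    {N q : ℕ} [NeZero N] [NeZero q] [NeZero (N * q)] {n : ℕ} {w : RE P E}
    (hStd : StdE P E N q n w) {V' : ℕ → ValuationSubring (FE E N)}
    {V : ℕ → ValuationSubring (FE E (N * q))}
    {W' : FE E N ≃ₐ[E] FE E N} {W : FE E (N * q) ≃ₐ[E] FE E (N * q)}
    (hL : LevelCtx P E N q n w V' W') (hO : ObjsE P E N q n V' V W) (i : ℕ) (hi : i ≤ n + 1) :
    IsSheetJ P E (N * q) w q (V i) := by
  haveI : IsDiscreteValuationRing (RE P E) := hStd.unram.1.dvr
  rcases Nat.eq_zero_or_pos i with h0 | hpos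
  · subst h0
    exact isSheetJ_vinf hStd.unif hStd.lies_over (NeZero.ne _) hO.vinf
  · exact isSheetJ_comap_α N q (hO.lies i hpos hi)
      (isSheetJ_of_levelCtx hStd hL (i - 1) (by omega))

/-- **MOD-E leaf SHEET-E** (`ModE.LeafSheetE`, verbatim). -/
theorem leafSheetE : LeafSheetE := by
  intro P E N q _ _ _ n w hStd hn V' V W' W hL hO
  haveI : IsDiscreteValuationRing (RE P E) := hStd.unram.1.dvr
  have hdvd : q ^ n ∣ N := by
    rw [← hStd.exp]
    exact Nat.ordProj_dvd N q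
  have hdvd' : q ^ (n + 1) ∣ N * q := by
    rw [pow_succ]
    exact mul_dvd_mul_right hdvd q
  refine ⟨fun i hi => (isSheetJ_upper hStd hL hO i hi).base, fun i hi p hp => ?_⟩
  rw [xLev_eq_xGE E (N * q) q hdvd']
  exact (isSheetJ_upper hStd hL hO i hi).gauss hStd.unif hStd.q_prime (n + 1) hdvd' p hp

/-- by-product: the `x_unit` field of `PartValE` at the upper level -/
theorem x_unit_upper {P : ValuationSubring Qb} {E : IntermediateField ℚ Qb}
    {N q : ℕ} [NeZero N] [NeZero q] [NeZero (N * q)] {n : ℕ} {w : RE P E}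
    (hStd : StdE P E N q n w) {V' : ℕ → ValuationSubring (FE E N)}
    {V : ℕ → ValuationSubring (FE E (N * q))}
    {W' : FE E N ≃ₐ[E] FE E N} {W : FE E (N * q) ≃ₐ[E] FE E (N * q)}
    (hL : LevelCtx P E N q n w V' W') (hO : ObjsE P E N q n V' V W) (i : ℕ) (hi : i ≤ n + 1) :
    UnitAt (V i) (xLev E (N * q) q (n + 1)) := by
  haveI : IsDiscreteValuationRing (RE P E) := hStd.unram.1.dvr
  have hdvd : q ^ n ∣ N := by
    rw [← hStd.exp]
    exact Nat.ordProj_dvd N q
  have hdvd' : q ^ (n + 1) ∣ N * q := by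
    rw [pow_succ]
    exact mul_dvd_mul_right hdvd q
  rw [xLev_eq_xGE E (N * q) q hdvd']
  exact (isSheetJ_upper hStd hL hO i hi).x_unit hStd.unif hStd.q_prime (n + 1) hdvd'

/-- by-product: the `unit` field of `PartKronE` at the upper level -/
theorem kron_unit_upper {P : ValuationSubring Qb} {E : IntermediateField ℚ Qb}
    {N q : ℕ} [NeZero N] [NeZero q] [NeZero (N * q)] {n : ℕ} {w : RE P E}
    (hStd : StdE P E N q n w) {V' : ℕ → ValuationSubring (FE E N)}
    {V : ℕ → ValuationSubring (FE E (N * q))}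
    {W' : FE E N ≃ₐ[E] FE E N} {W : FE E (N * q) ≃ₐ[E] FE E (N * q)}
    (hL : LevelCtx P E N q n w V' W') (hO : ObjsE P E N q n V' V W) (i : ℕ) (hi : i ≤ n + 1)
    (l : ℕ) (hl : l ≤ n + 1) : UnitAt (V i) (jLev E (N * q) q l) := by
  haveI : IsDiscreteValuationRing (RE P E) := hStd.unram.1.dvr
  have hdvd : q ^ n ∣ N := by
    rw [← hStd.exp]
    exact Nat.ordProj_dvd N q
  have hdvd' : q ^ (n + 1) ∣ N * q := by
    rw [pow_succ]
    exact mul_dvd_mul_right hdvd q
  rw [jLev_eq_jPow E (N * q) q ((pow_dvd_pow q hl).trans hdvd')]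
  exact (isSheetJ_upper hStd hL hO i hi).jPow_unit hStd.unif hStd.q_prime (n + 1) hdvd' l hl

end Fermat.Agent.S45.ModE.H860

end

end
-- ===== PACK-END S45/ModE/H860/SheetE.lean

-- ===== PACK-BEGIN S45/ModE/H835/Close.lean
section






/-!
# S45 / CAR3 / MOD-E — VAL-E and RES-E from the WILD relations only (helper835)

`Leaves.lean` proves VAL-E / RES-E from `LeafKronE`, `LeafSplitRam835`, `LeafWildRam835`.  Here the
first two inputs are DISCHARGED with the concrete suppliers (off-main, taken verbatim):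

* helper83  `S45/ModE/H83/SplitRows.lean`, `leafRows83` : the SPLIT relation at `V 1`;
* helper972 `S45/H972/WildE.lean`, `insepE_witness`     : the witness of inseparability
  `J (n + 1) ∈ V i`, `J (n + 1) ^ q ≡ α (J' n)` for EVERY `V i` over `V' (i - 1)`, `i ≥ 2` (from the
  lower Verschiebung step `J' (n - 1) ≡ J' n ^ q`);
* helper860 `S45/ModE/H860/SheetE.lean`, `x_unit_upper`  : `x` is a unit of every `V i`.

RESULT: the only input left is the family of WILD relations `LeafWildRam835`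
(`α t' = τ ^ q · unit` at `V i`, `2 ≤ i`, `2 i ≤ n + 1`):

* `leafValE_of_wild835       : LeafWildRam835 → LeafValE`;
* `leafOnlyAlpha_of_wild835  : LeafWildRam835 → (α-half of ONLY-E)`;
* `leafResAlpha_of_wild835   : LeafWildRam835 → (α-half of RES-E)`;
* `leafResE_of_wild835       : LeafSymE → LeafWildRam835 → LeafResE`.

For `n = 2` (upper exponent `3`) there is NO wild row: `2 ≤ i`, `2 i ≤ 3` is empty.
-/

set_option autoImplicit false
set_option linter.style.haveILetI false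
set_option linter.unusedSectionVars false
set_option linter.unusedVariables false
set_option synthInstance.maxHeartbeats 400000
set_option maxHeartbeats 1600000

noncomputable section

namespace Fermat.Agent.S45.ModE.H835

open scoped BigOperators
open ModularCurve AlgebraicCurve
open Fermat.Agent.A2.Mod
open Fermat.Agent.S35.H253 Fermat.Agent.S36.H253
open Fermat.Agent.S36 Fermat.Agent.S36.Eng Fermat.Agent.S45.ModE
open Fermat.Agent.S45.VT.H835

section Close

variable {P : ValuationSubring Qb} {E : IntermediateField ℚ Qb} {N q : ℕ}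
  [NeZero N] [NeZero q] [NeZero (N * q)]
  {n : ℕ} {w : RE P E} {V' : ℕ → ValuationSubring (FE E N)}
  {V : ℕ → ValuationSubring (FE E (N * q))} {W' : FE E N ≃ₐ[E] FE E N}
  {W : FE E (N * q) ≃ₐ[E] FE E (N * q)}

omit [NeZero (N * q)] in
theorem jLev_eq835 (l : ℕ) (h : q ^ l ∣ N) : jLev E N q l = jE E N (q ^ l) h :=
  dif_pos h

/-- **The witness of inseparability, unconditional** (helper972 `insepE_witness`): for `i ≥ 2` the
last step of the chain on `V' (i - 1)` is a Verschiebung, hence `J (n + 1) ^ q ≡ α (J' n)` on every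
valuation ring over `V' (i - 1)`. -/
theorem insepWit835 (hS : StdE P E N q n w) (hn : 2 ≤ n) (hL : LevelCtx P E N q n w V' W')
    (hO : ObjsE P E N q n V' V W) {i : ℕ} (h2 : 2 ≤ i) (hi : i ≤ n + 1) :
    jLev E (N * q) q (n + 1) ∈ V i ∧
      jLev E (N * q) q (n + 1) ^ q - αE E N q (jLev E N q n) ∈ (V i).nonunits := by
  have hq := hS.q_prime
  -- the level
  obtain ⟨M', hM0, hNM, hqM⟩ : ∃ M : ℕ, M ≠ 0 ∧ N = M * q ^ n ∧ ¬ q ∣ M := by
    have hN : N ≠ 0 := NeZero.ne N
    have hexp := hS.exp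
    subst hexp
    refine ⟨N / q ^ N.factorization q, (Nat.ordCompl_pos q hN).ne', ?_,
      Nat.not_dvd_ordCompl hq hN⟩
    rw [mul_comm]
    exact (Nat.ordProj_mul_ordCompl_eq_self N q).symm
  haveI : NeZero M' := ⟨hM0⟩
  have hpow : q ^ (n - 1) * q = q ^ n := by
    rw [← pow_succ]
    congr 1
    omega
  have hpow' : q ^ (n - 1) * (q * q) = q ^ (n + 1) := by
    rw [← mul_assoc, hpow, ← pow_succ]
  have hN : N = q ^ (n - 1) * q * M' := by
    rw [hpow, hNM, mul_comm]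
  have hlo : q ^ (n - 1) ∣ N := pow_dvd_of_stdE835 hS (by omega)
  have hn' : q ^ n ∣ N := pow_dvd_of_stdE835 hS le_rfl
  have hmid : q ^ (n - 1) * q ∣ N := by rw [hpow]; exact hn'
  have hn1 : q ^ (n + 1) ∣ N * q := by
    rw [pow_succ]
    exact mul_dvd_mul_right hn' q
  have hhi : q ^ (n - 1) * (q * q) ∣ N * q := by rw [hpow']; exact hn1
  -- the lower sheet
  have hi' : i - 1 ≤ n := by omega
  have hc := hO.lies i (by omega) hi
  have hV : ∀ k : FE E N, αE E N q k ∈ V i ↔ k ∈ V' (i - 1) := fun k => by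
    rw [← hc, ValuationSubring.mem_comap]
    rfl
  have hz : jE E N (q ^ (n - 1)) hlo ∈ V' (i - 1) := by
    rw [← jLev_eq835 (n - 1) hlo]
    exact (hL.kron.unit (i - 1) hi' (n - 1) (by omega)).2.1
  have hxe : jE E N (q ^ (n - 1) * q) hmid = jLev E N q n := by
    rw [jLev_eq835 n hn']
    exact S45.H972.jE_congr hpow hmid hn'
  have hx : jE E N (q ^ (n - 1) * q) hmid ∈ V' (i - 1) := by
    rw [hxe]
    exact (hL.kron.unit (i - 1) hi' n le_rfl).2.1
  obtain ⟨t', ht', hu'⟩ := hL.val.ram (i - 1) hi'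
  have hw' : algebraMap (RE P E) (FE E N) w ∈ (V' (i - 1)).nonunits :=
    mem_nonunits_of_ram835 (mu_pos835 hq n (i - 1)) ht' hu'
  have hpO : ((q : ℕ) : FE E N) ∈ (V' (i - 1)).nonunits :=
    natCast_nonunits835 hS (hL.sheet.base (i - 1) hi') hw'
  have hcz : jE E N (q ^ (n - 1)) hlo - jE E N (q ^ (n - 1) * q) hmid ^ q ∈
      (V' (i - 1)).nonunits := by
    have h := hL.kron.ver (i - 1) hi' (n - 1) (by omega) (by omega)
    have e1 : n - 1 + 1 = n := by omega
    rw [e1] at h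
    rw [hxe, ← jLev_eq835 (n - 1) hlo]
    exact h
  have key := S45.H972.insepE_witness (E := E) (d₀ := q ^ (n - 1)) hq hN hqM hlo hmid hhi
    (V' (i - 1)) hz hx hpO hcz (V i) hV
  have hye : jE E (N * q) (q ^ (n - 1) * (q * q)) hhi = jLev E (N * q) q (n + 1) := by
    rw [jLev_eq835 (n + 1) hn1]
    exact S45.H972.jE_congr hpow' hhi hn1
  rw [hye, hxe] at key
  exact key

/-- **The inputs of the rows from the WILD relations only.** -/
theorem rowInputs_of_wild835 (hS : StdE P E N q n w) (hn : 2 ≤ n)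
    (hL : LevelCtx P E N q n w V' W') (hO : ObjsE P E N q n V' V W)
    (hWi : ∀ i, 2 ≤ i → 2 * i ≤ n + 1 → ∃ (t' : FE E N) (τ : FE E (N * q)),
      UnifAt (V' (i - 1)) t' ∧ UnitAt (V i) (αE E N q t' * (τ ^ q)⁻¹)) :
    RowInputs835 P E N q n w V' V := by
  refine ⟨?_, hWi, fun i h2 hi _ => insepWit835 hS hn hL hO h2 hi⟩
  obtain ⟨t, -, hu⟩ := (S45.ModE.H83.leafRows83 hS (by omega) hL hO).ram 1 le_rfl
  rw [mu_one835 hS.q_prime (by omega)] at hu
  exact ⟨t, hu⟩

end Close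

/-! ## The leaves -/

section Leaves

/-- **VAL-E from the WILD relations.** -/
theorem leafValE_of_wild835 (hWi : LeafWildRam835) : LeafValE := by
  intro P E N q _ _ _ n w hS hn V' V W' W hL hO
  exact partValE_core835 hS hn hL hO
    (rowInputs_of_wild835 hS hn hL hO (hWi P E N q n w hS hn V' V W' W hL hO))
    (fun i hi => S45.ModE.H860.x_unit_upper hS hL hO i hi)

/-- **The `α`-half of ONLY-E from the WILD relations.** -/
theorem leafOnlyAlpha_of_wild835 (hWi : LeafWildRam835) :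
    Leaf fun _ E N q _ _ _ n _ V' V _ _ => PartOnlyAlpha835 n (A2.Mod.αE E N q) V V' := by
  intro P E N q _ _ _ n w hS hn V' V W' W hL hO
  exact onlyAlpha_core835 hS hn hL hO
    (rowInputs_of_wild835 hS hn hL hO (hWi P E N q n w hS hn V' V W' W hL hO))

/-- **The `α`-half of RES-E from the WILD relations.** -/
theorem leafResAlpha_of_wild835 (hWi : LeafWildRam835) :
    Leaf fun _ E N q _ _ _ n _ V' V _ _ =>
      (∀ i ≤ n + 1, i ≤ 1 ∨ 2 * i ≤ n + 1 → ∀ f ∈ V i, ∃ g ∈ V' (i - 1),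
        f - A2.Mod.αE E N q g ∈ (V i).nonunits) ∧
      (∀ i ≤ n + 1, 2 ≤ i → n + 1 < 2 * i → ∀ f ∈ V i, ∃ g ∈ V' (i - 1),
        f ^ q - A2.Mod.αE E N q g ∈ (V i).nonunits) := by
  intro P E N q _ _ _ n w hS hn V' V W' W hL hO
  exact resAlpha_core835 hS hn hL hO
    (rowInputs_of_wild835 hS hn hL hO (hWi P E N q n w hS hn V' V W' W hL hO))

/-- **RES-E from the symmetry and the WILD relations.** -/
theorem leafResE_of_wild835 (hSym : LeafSymE) (hWi : LeafWildRam835) : LeafResE := by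
  intro P E N q _ _ _ n w hS hn V' V W' W hL hO
  exact partResE_core835 hS hn hL hO
    (rowInputs_of_wild835 hS hn hL hO (hWi P E N q n w hS hn V' V W' W hL hO))
    (hSym P E N q n w hS hn V' V W' W hL hO)

end Leaves

end Fermat.Agent.S45.ModE.H835

end

end
-- ===== PACK-END S45/ModE/H835/Close.lean

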