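import Fermat.Agent.Pack.S45.E1L0
import Fermat.Agent.Pack.S43MC.G0E25L0
import Fermat.Agent.Pack.S43MC.G0E26L3
import Fermat.Agent.Pack.S59C.E13L3
import Fermat.Agent.Pack.S45.E2L3
import Fermat.Agent.Pack.S45.E2L0
import Fermat.Agent.Pack.S45.E0L3
import Fermat.Agent.Pack.S43MC.G0E25L2
import Fermat.Agent.Pack.S45.E0L0
import Fermat.Agent.Pack.S43MC.G0E26L1
import Fermat.Agent.Pack.S45.E1L2
import Fermat.Agent.Pack.S45.E2L1
import Fermat.Agent.Pack.S45.E2L2
import Fermat.Agent.Pack.Fast891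

set_option linter.all false

-- ===== PACK-BEGIN S45/ModE/H455/FFFin.lean
section





/-!
# S45 / CAR3 / MOD-E — leaves **FF-E** and **FIN-E** (helper455)

* `leafFFE455  : ModE.LeafFFE`  — `xLev E N q n = J 0 ⋯ J n` has a pole of order
  `1 + q + ⋯ + q ^ n` at `∞`, hence is transcendental; `F_{N,E}` is finite over `E(x)`; `E` is
  algebraically closed in `F_{N,E}`.
* `leafFinE455 : ModE.LeafFinE` — the two degeneracy maps are finite.

Both are corollaries of landed, level-generic modules (`S36/Mod3/H439/{FF,Fin}.lean`,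
`A2/Mod/H816`).  Exact frozen types of `ModE/Spec.lean` (origin/helper928 @69c787c92).
-/

set_option autoImplicit false
set_option linter.style.haveILetI false
set_option linter.unusedSectionVars false
set_option synthInstance.maxHeartbeats 400000
set_option maxHeartbeats 1600000

noncomputable section

namespace Fermat.Agent.S45.ModE.H455

open ModularCurve IntermediateField
open Fermat.Agent.S36
open Fermat.Agent.A2.Mod Fermat.Agent.A2.Mod.H816

variable (E : IntermediateField ℚ A2.Qb) (N q : ℕ) [NeZero N] [NeZero q]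

/-- `ord_∞ (J l) = - q ^ l` if `q ^ l ∣ N`. -/
theorem vInf_jLev455 (l : ℕ) (h : q ^ l ∣ N) :
    vInf E N (jLev E N q l) = ((-((q ^ l : ℕ) : ℤ) : ℤ) : WithTop ℤ) := by
  unfold jLev
  rw [dif_pos h]
  exact vInf_jE E N (q ^ l) h

/-- `ord_∞ (J 0 ⋯ J m) = - (1 + q + ⋯ + q ^ m)` if `q ^ m ∣ N`. -/
theorem vInf_prod_jLev455 (m : ℕ) (hm : ∀ l ≤ m, q ^ l ∣ N) :
    vInf E N (∏ l ∈ Finset.range (m + 1), jLev E N q l) =
      ((-((∑ l ∈ Finset.range (m + 1), q ^ l : ℕ) : ℤ) : ℤ) : WithTop ℤ) := by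
  induction m with
  | zero =>
    rw [Finset.prod_range_one, Finset.sum_range_one]
    exact vInf_jLev455 E N q 0 (hm 0 le_rfl)
  | succ m ih =>
    rw [Finset.prod_range_succ, Finset.sum_range_succ,
      addVal_mul_coe _ (ih fun l hl => hm l (Nat.le_succ_of_le hl))
        (vInf_jLev455 E N q (m + 1) (hm (m + 1) le_rfl))]
    congr 1
    push_cast
    ring

/-- **FF at a level of exponent `n`** for the coordinate `xLev E N q n`. -/
theorem partFF_xLev455 (n : ℕ) (hn : ∀ l ≤ n, q ^ l ∣ N) : Mod3.PartFF E (xLev E N q n) := by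
  have hv := vInf_prod_jLev455 E N q n hn
  have hneg : (-((∑ l ∈ Finset.range (n + 1), q ^ l : ℕ) : ℤ) : ℤ) < 0 := by
    have h1 : 0 < ∑ l ∈ Finset.range (n + 1), q ^ l := by
      rw [Finset.sum_range_succ']
      simp
    have : (0 : ℤ) < ((∑ l ∈ Finset.range (n + 1), q ^ l : ℕ) : ℤ) := by exact_mod_cast h1
    omega
  have htr : Transcendental E (xLev E N q n) :=
    transcendental_of_addVal_neg (vInf E N) (fun c hc => vInf_algebraMap E N hc) hneg hv
  exact ⟨htr, Mod3.H439.finiteDimensional_of_transcendental_h439 E N (NeZero.ne N) htr,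
    fun f hf => mem_range_of_isAlgebraic E N f hf⟩

omit [NeZero N] [NeZero q] in
/-- `q ^ l ∣ N` for `l ≤ v_q(N)`. -/
theorem pow_dvd_of_le_factorization455 (hq : q.Prime) (hN : N ≠ 0) {n : ℕ}
    (hexp : N.factorization q = n) {l : ℕ} (hl : l ≤ n) : q ^ l ∣ N :=
  (hq.pow_dvd_iff_le_factorization hN).2 (hexp ▸ hl)

end Fermat.Agent.S45.ModE.H455

namespace Fermat.Agent.S45.ModE.H455

open Fermat.Agent.S36

/-- **Leaf FF-E** (exact frozen type of `ModE/Spec.lean`). -/
theorem leafFFE455 : LeafFFE := by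
  intro E N q _ _ n hq hexp _
  exact partFF_xLev455 E N q n fun l hl =>
    pow_dvd_of_le_factorization455 N q hq (NeZero.ne N) hexp hl

/-- **Leaf FIN-E** (exact frozen type of `ModE/Spec.lean`). -/
theorem leafFinE455 : LeafFinE := by
  intro E N q _ _ _ _ _
  exact ⟨Mod3.H439.finiteAlong_level_h439 E N (N * q) (NeZero.ne (N * q)) _,
    Mod3.H439.finiteAlong_level_h439 E N (N * q) (NeZero.ne (N * q)) _⟩

example : Fermat.Agent.S45.ModE.LeafFFE := leafFFE455
example : Fermat.Agent.S45.ModE.LeafFinE := leafFinE455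

end Fermat.Agent.S45.ModE.H455

end

end
-- ===== PACK-END S45/ModE/H455/FFFin.lean

-- ===== PACK-BEGIN S45/ModE/H593/BaseAbs.lean
section




/-!
# S45 / CAR3 / MOD-E — leaf BASE, part 1 (helper593): generic lemmas

* `fam593 V₁ V₂ V₃` : the family `ℕ → ValuationSubring F` with values `V₁, V₂, V₃, V₃, …`;
* `principalAt_single593` : a component with uniformiser `w` (multiplicity one) is locally
  principal at every closed point through which no other component passes (from `QepE`);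
* small facts on non-units.
-/

set_option autoImplicit false
set_option linter.style.haveILetI false
set_option linter.unusedSectionVars false
set_option linter.unusedVariables false
set_option synthInstance.maxHeartbeats 400000
set_option maxHeartbeats 1600000

noncomputable section

namespace Fermat.Agent.S45.ModE.H593

open Fermat.Agent.S18.H138 (chart)
open Fermat.Agent.S36 Fermat.Agent.S36.Eng

section Fam

variable {F : Type*} [Field F]

/-- The family `(V₁, V₂, V₃, V₃, …)`. -/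
def fam593 (V₁ V₂ V₃ : ValuationSubring F) : ℕ → ValuationSubring F :=
  fun i => if i = 0 then V₁ else if i = 1 then V₂ else V₃

theorem fam593_zero (V₁ V₂ V₃ : ValuationSubring F) : fam593 V₁ V₂ V₃ 0 = V₁ := rfl

theorem fam593_one (V₁ V₂ V₃ : ValuationSubring F) : fam593 V₁ V₂ V₃ 1 = V₂ := rfl

theorem fam593_two (V₁ V₂ V₃ : ValuationSubring F) : fam593 V₁ V₂ V₃ 2 = V₃ := rfl

theorem le_two593 {i : ℕ} (h : i ≤ 2) : i = 0 ∨ i = 1 ∨ i = 2 := by omega

/-- A statement about the three rings gives the statement about the family. -/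
theorem forall_fam593 {V₁ V₂ V₃ : ValuationSubring F} {p : ValuationSubring F → Prop}
    (h₁ : p V₁) (h₂ : p V₂) (h₃ : p V₃) : ∀ i ≤ 2, p (fam593 V₁ V₂ V₃ i) := by
  intro i hi
  rcases le_two593 hi with rfl | rfl | rfl
  · exact h₁
  · exact h₂
  · exact h₃

end Fam

section Principal

variable {R F : Type*} [CommRing R] [Field F] [Algebra R F]

/-- **A reduced component is locally principal where it is alone.**  `V i₀` has uniformiser `w`,
every `V k`, `k ≤ e`, contains the chart `B` and is `w`-adically "discrete from below"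
(`b ∈ 𝔪 ⟹ b ^ n ∈ w V` for some `n` independent of `b`), `QepE`; `𝔪` a prime of `B` such that no
`V k`, `k ≠ i₀`, passes through `𝔪`.  Then `w` generates `B ∩ 𝔪_{V i₀}` at `𝔪`. -/
theorem principalAt_single593 (w : R) (B : Subalgebra R F) (e : ℕ)
    (V : ℕ → ValuationSubring F) (hB : ∀ k ≤ e, ∀ b : B, (b : F) ∈ V k)
    (hqep : QepE w B e V)
    (hdisc : ∀ k ≤ e, ∃ n : ℕ, ∀ b : F, b ∈ (V k).nonunits →
      b ^ n * (algebraMap R F w)⁻¹ ∈ V k)
    (𝔪 : Ideal B) (h𝔪 : 𝔪.IsPrime) (i₀ : ℕ) (hi₀ : i₀ ≤ e)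
    (hw : algebraMap R F w ∈ (V i₀).nonunits)
    (hunif : ∀ f ∈ (V i₀).nonunits, f * (algebraMap R F w)⁻¹ ∈ V i₀)
    (hsingle : ∀ k ≤ e, k ≠ i₀ → ¬ Through B 𝔪 (V k)) :
    PrincipalAt B 𝔪 (V i₀) := by
  classical
  refine ⟨algebraMap R B w, hw, fun a ha => ?_⟩
  -- for every `k ≤ e`, `k ≠ i₀`: an element of `B \ 𝔪` which lies in `w V k`
  have hk : ∀ k : ℕ, ∃ g : B, g ∉ 𝔪 ∧ (k ≤ e → k ≠ i₀ →
      (g : F) * (algebraMap R F w)⁻¹ ∈ V k) := by
    intro k
    by_cases hke : k ≤ e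
    · by_cases hki : k = i₀
      · exact ⟨1, fun h => h𝔪.ne_top ((Ideal.eq_top_iff_one _).2 h), fun _ h => absurd hki h⟩
      · have hnot := hsingle k hke hki
        unfold Through at hnot
        push Not at hnot
        obtain ⟨b, hbV, hb𝔪⟩ := hnot
        obtain ⟨n, hn⟩ := hdisc k hke
        refine ⟨b ^ n, fun h => hb𝔪 (h𝔪.mem_of_pow_mem n h), fun _ _ => ?_⟩
        have := hn (b : F) hbV
        simpa using this
    · exact ⟨1, fun h => h𝔪.ne_top ((Ideal.eq_top_iff_one _).2 h), fun h => absurd h hke⟩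
  choose g hg𝔪 hgV using hk
  -- the product
  set G : B := ∏ k ∈ Finset.range (e + 1), g k with hG
  have hG𝔪 : G ∉ 𝔪 := by
    intro h
    rw [hG] at h
    obtain ⟨k, -, hk⟩ := (h𝔪.prod_mem_iff).1 h
    exact hg𝔪 k hk
  have hGV : ∀ k ≤ e, k ≠ i₀ → (G : F) * (algebraMap R F w)⁻¹ ∈ V k := by
    intro k hke hki
    have hmem : k ∈ Finset.range (e + 1) := Finset.mem_range.2 (Nat.lt_succ_of_le hke)
    have hsplit : G = g k * ∏ l ∈ (Finset.range (e + 1)).erase k, g l := by
      rw [hG, Finset.mul_prod_erase _ _ hmem]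
    have h1 := hgV k hke hki
    have h2 : ((∏ l ∈ (Finset.range (e + 1)).erase k, g l : B) : F) ∈ V k := hB k hke _
    have : (G : F) * (algebraMap R F w)⁻¹ =
        ((g k : F) * (algebraMap R F w)⁻¹) *
          ((∏ l ∈ (Finset.range (e + 1)).erase k, g l : B) : F) := by
      rw [hsplit]
      push_cast
      ring
    rw [this]
    exact (V k).mul_mem _ _ h1 h2
  -- `G a / w` lies in every `V k`
  have hall : ∀ k ≤ e, ((G * a : B) : F) * (algebraMap R F w)⁻¹ ∈ V k := by
    intro k hke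
    by_cases hki : k = i₀
    · subst hki
      have h1 := hunif (a : F) ha
      have : ((G * a : B) : F) * (algebraMap R F w)⁻¹ =
          (G : F) * ((a : F) * (algebraMap R F w)⁻¹) := by
        push_cast
        ring
      rw [this]
      exact (V k).mul_mem _ _ (hB k hke G) h1
    · have h1 := hGV k hke hki
      have : ((G * a : B) : F) * (algebraMap R F w)⁻¹ =
          ((G : F) * (algebraMap R F w)⁻¹) * (a : F) := by
        push_cast
        ring
      rw [this]
      exact (V k).mul_mem _ _ h1 (hB k hke a)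
  obtain ⟨c, hc⟩ := hqep (G * a) hall
  exact ⟨G, c, hG𝔪, hc⟩

end Principal

end Fermat.Agent.S45.ModE.H593

end

end
-- ===== PACK-END S45/ModE/H593/BaseAbs.lean

-- ===== PACK-BEGIN S45/ModE/H593/Base.lean
section



/-!
# S45 / CAR3 / MOD-E — leaf BASE, part 2 (helper593): the level `M q q` from row S36

For every system of objects `Mod3.Objs P E M q V₁' V₂' V₁ V₂ V₃ W' W` over a standard setting
`Mod3.Std P E M q w` the family `V = fam593 V₁ V₂ V₃` (`V 0 = V₁ = V∞`, `V 1 = V₂ = mid`,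
`V 2 = V₃ = V∞ ∘ W`) carries the fields of `ModE.LevelCtx P E (M q q) q 2 w V W`.
Everything is taken from the MOD3 leaves of row S36 on main.
-/

set_option autoImplicit false
set_option linter.style.haveILetI false
set_option linter.unusedSectionVars false
set_option linter.unusedVariables false
set_option synthInstance.maxHeartbeats 400000
set_option maxHeartbeats 1600000

noncomputable section

namespace Fermat.Agent.S45.ModE.H593

open ModularCurve AlgebraicCurve
open Fermat.Agent.S18.H138 (chart)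
open Fermat.Agent.S36 Fermat.Agent.S36.Eng
open Fermat.Agent.A2.Mod

/-! ## The MOD3 leaves of row S36 (all on main) -/

theorem hVT593 : Mod3.LeafVT := Mod3.H370.leafVT
theorem hTab593 : Mod3.LeafTable := Mod3.H370.leafTable
theorem hVal593 : Mod3.LeafVal := Mod3.H370.leafVal
theorem hSh593 : Mod3.LeafSheet := Mod3.H985.leafSheet
theorem hQep593 : Mod3.LeafQep := Mod3.H27.leafQep_of_vt hVT593
theorem hNor593 : Mod3.LeafNormal := Mod3.H756.leafNormal_of hVT593 hVal593 hSh593 hTab593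
theorem hNR593 : Mod3.LeafNR := Mod3.H657.leafNR_of hVal593 hTab593
theorem hCh593 : Mod3.LeafChart := Mod3.H189.leafChart_of hVT593 hTab593 hVal593
theorem hInc593 : Mod3.LeafInc :=
  Mod3.H153.leafInc hTab593 hCh593 hQep593 hVal593 hSh593 hNR593
theorem hReg593 : Mod3.LeafReg :=
  Mod3.H928.leafReg_of_regIOdd (fun P E M q _ _ _ w hStd V₁' V₂' V₁ V₂ V₃ W' W hO _ =>
    Mod3.H276.leafRegI_of hVal593 hSh593 hQep593 hInc593 hVT593 Mod3.H96.leafCuspCong96
      P E M q w hStd V₁' V₂' V₁ V₂ V₃ W' W hO)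

/-! ## The coordinate and the generators -/

section Coord

variable (E : IntermediateField ℚ Qb) (M q : ℕ) [NeZero M] [NeZero q] [NeZero (M * q)]
  [NeZero (M * q * q)]

theorem jLev_zero593 : jLev E (M * q * q) q 0 = Mod3.j1 E M q := by
  have h0 : q ^ 0 ∣ M * q * q := by rw [pow_zero]; exact one_dvd _
  unfold jLev Mod3.j1
  rw [dif_pos h0]
  exact S36.H816.jE_congr (M * q * q) (pow_zero q) h0 (one_dvd _)

theorem jLev_one593 : jLev E (M * q * q) q 1 = Mod3.jq E M q := by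
  have h1 : q ^ 1 ∣ M * q * q := by rw [pow_one]; exact Dvd.intro_left (M * q) rfl
  unfold jLev Mod3.jq
  rw [dif_pos h1]
  exact S36.H816.jE_congr (M * q * q) (pow_one q) h1 _

theorem jLev_two593 : jLev E (M * q * q) q 2 = Mod3.jqq E M q := by
  have h2 : q ^ 2 ∣ M * q * q := ⟨M, by ring⟩
  unfold jLev Mod3.jqq
  rw [dif_pos h2]
  exact S36.H816.jE_congr (M * q * q) (sq q) h2 _

theorem xLev_two593 : xLev E (M * q * q) q 2 = Mod3.x3E E M q := by
  unfold xLev
  rw [Finset.prod_range_succ, Finset.prod_range_succ, Finset.prod_range_one,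
    jLev_zero593, jLev_one593, jLev_two593]
  rfl

end Coord

/-! ## The absolute context of the level `M q q` -/

section Main

variable {P : ValuationSubring Qb} {E : IntermediateField ℚ Qb} {M q : ℕ} [NeZero M] [NeZero q]
  [NeZero (M * q)] [NeZero (M * q * q)] {w : RE P E}
  {V₁' V₂' : ValuationSubring (FE E (M * q))} {V₁ V₂ V₃ : ValuationSubring (FE E (M * q * q))}
  {W' : FE E (M * q) ≃ₐ[E] FE E (M * q)} {W : FE E (M * q * q) ≃ₐ[E] FE E (M * q * q)}

/-- `comap` along the Fricke involution is an involution. -/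
theorem comap_comap593 (hO : Mod3.Objs P E M q V₁' V₂' V₁ V₂ V₃ W' W)
    (U : ValuationSubring (FE E (M * q * q))) :
    (U.comap (W : FE E (M * q * q) →+* FE E (M * q * q))).comap
      (W : FE E (M * q * q) →+* FE E (M * q * q)) = U := by
  ext f
  rw [ValuationSubring.mem_comap, ValuationSubring.mem_comap]
  show W (W f) ∈ U ↔ f ∈ U
  rw [hO.fricke.2]

/-- **The middle component is stable under the Fricke involution.** -/
theorem mid_sym593 (hS : Mod3.Std P E M q w) (hO : Mod3.Objs P E M q V₁' V₂' V₁ V₂ V₃ W' W) :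
    V₂.comap (W : FE E (M * q * q) →+* FE E (M * q * q)) = V₂ := by
  have vt := hVT593 P E M q w hS V₁' V₂' V₁ V₂ V₃ W' W hO
  have tab := hTab593 P E M q w hS V₁' V₂' V₁ V₂ V₃ W' W hO
  have val := hVal593 P E M q w hS V₁' V₂' V₁ V₂ V₃ W' W hO
  have hcomp : ∀ f : FE E (M * q), W (αE E (M * q) q f) = βE E (M * q) q (W' f) :=
    fun f => (H751.frickeCompat E (M * q) q W' W hO.fricke' hO.fricke f).1
  have h1 : (V₂.comap (W : FE E (M * q * q) →+* FE E (M * q * q))).comap
      (αE E (M * q) q : FE E (M * q) →+* FE E (M * q * q)) = V₁' := by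
    ext g
    rw [ValuationSubring.mem_comap, ValuationSubring.mem_comap]
    show W (αE E (M * q) q g) ∈ V₂ ↔ g ∈ V₁'
    rw [hcomp]
    have hb : βE E (M * q) q (W' g) ∈ V₂ ↔ W' g ∈ V₂' := by
      rw [← tab.comap_β₂, ValuationSubring.mem_comap]
      rfl
    rw [hb, hO.vzero', ValuationSubring.mem_comap]
    show W' (W' g) ∈ V₁' ↔ g ∈ V₁'
    rw [hO.fricke'.2]
  rcases vt.only_α₁ _ h1 with h | h
  · exfalso
    have h23 : V₂ = V₃ := by
      rw [hO.vzero, ← h, comap_comap593 hO]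
    exact val.ne₂₃ h23
  · exact h

/-- **SYM** at the level `M q q`. -/
theorem sym_base593 (hS : Mod3.Std P E M q w) (hO : Mod3.Objs P E M q V₁' V₂' V₁ V₂ V₃ W' W) :
    ∀ i ≤ 2, fam593 V₁ V₂ V₃ (2 - i) =
      (fam593 V₁ V₂ V₃ i).comap (W : FE E (M * q * q) →+* FE E (M * q * q)) := by
  intro i hi
  rcases le_two593 hi with rfl | rfl | rfl
  · exact hO.vzero
  · exact (mid_sym593 hS hO).symm
  · show V₁ = V₃.comap (W : FE E (M * q * q) →+* FE E (M * q * q))
    rw [hO.vzero, comap_comap593 hO]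

/-- **FF** at the level `M q q`. -/
theorem ff_base593 (hS : Mod3.Std P E M q w) :
    Mod3.PartFF E (xLev E (M * q * q) q 2) := by
  rw [xLev_two593]
  exact Mod3.H439.leafFF E M q hS.q_prime hS.q_not_dvd

theorem mu_two_zero593 (q : ℕ) : mu q 2 0 = 1 := by
  simp [mu]

theorem mu_two_one593 {q : ℕ} (hq : q.Prime) : mu q 2 1 = q - 1 := by
  simp [mu, Nat.totient_prime hq]

theorem mu_two_two593 (q : ℕ) : mu q 2 2 = 1 := by
  simp [mu]

theorem unitAt_self593 {F : Type*} [Field F] (V : ValuationSubring F) {t : F} (ht : t ≠ 0) :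
    UnitAt V (t * (t ^ 1)⁻¹) := by
  rw [pow_one, mul_inv_cancel₀ ht]
  exact ⟨one_ne_zero, V.one_mem, by rw [inv_one]; exact V.one_mem⟩

/-- **VAL** at the level `M q q`. -/
theorem val_base593 (hS : Mod3.Std P E M q w) (hO : Mod3.Objs P E M q V₁' V₂' V₁ V₂ V₃ W' W) :
    PartValE (R := RE P E) w q 2 (xLev E (M * q * q) q 2) (fam593 V₁ V₂ V₃) := by
  have val := hVal593 P E M q w hS V₁' V₂' V₁ V₂ V₃ W' W hO
  rw [xLev_two593]
  refine ⟨?_, ?_, ?_, ?_⟩
  · exact forall_fam593 (p := fun V => IsDiscreteValuationRing V) val.dvr₁ val.dvr₂ val.dvr₃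
  · intro i hi k hk hik
    rcases le_two593 hi with rfl | rfl | rfl <;> rcases le_two593 hk with rfl | rfl | rfl
    · exact absurd rfl hik
    · exact val.ne₁₂
    · exact val.ne₁₃
    · exact val.ne₁₂.symm
    · exact absurd rfl hik
    · exact val.ne₂₃
    · exact val.ne₁₃.symm
    · exact val.ne₂₃.symm
    · exact absurd rfl hik
  · intro i hi
    rcases le_two593 hi with rfl | rfl | rfl
    · refine ⟨_, val.unif₁, ?_⟩
      rw [mu_two_zero593]
      exact unitAt_self593 _ val.unif₁.1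
    · obtain ⟨t, ht, hu⟩ := val.ram₂
      refine ⟨t, ht, ?_⟩
      rw [mu_two_one593 hS.q_prime]
      exact hu
    · refine ⟨_, val.unif₃, ?_⟩
      rw [mu_two_two593]
      exact unitAt_self593 _ val.unif₃.1
  · exact forall_fam593 (p := fun V => UnitAt V (Mod3.x3E E M q))
      val.x_unit₁ val.x_unit₂ val.x_unit₃

/-- **SHEET** at the level `M q q`. -/
theorem sheet_base593 (hS : Mod3.Std P E M q w)
    (hO : Mod3.Objs P E M q V₁' V₂' V₁ V₂ V₃ W' W) :
    PartSheetE (R := RE P E) w 2 (xLev E (M * q * q) q 2) (fam593 V₁ V₂ V₃) := by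
  have sh := hSh593 P E M q w hS V₁' V₂' V₁ V₂ V₃ W' W hO
  rw [xLev_two593]
  refine ⟨?_, ?_⟩
  · exact forall_fam593
      (p := fun V => ∀ r : RE P E, algebraMap (RE P E) (FE E (M * q * q)) r ∈ V)
      sh.base₁ sh.base₂ sh.base₃
  · exact forall_fam593
      (p := fun V => ∀ Q : Polynomial (RE P E), (∃ k, ¬ w ∣ Q.coeff k) →
        (Polynomial.aeval (Mod3.x3E E M q) Q)⁻¹ ∈ V)
      sh.gauss₁ sh.gauss₂ sh.gauss₃

/-- **QEP** at the level `M q q`. -/
theorem qep_base593 (hS : Mod3.Std P E M q w) (hO : Mod3.Objs P E M q V₁' V₂' V₁ V₂ V₃ W' W) :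
    PartQepE (R := RE P E) w 2 (xLev E (M * q * q) q 2) (fam593 V₁ V₂ V₃) := by
  have qep := hQep593 P E M q w hS V₁' V₂' V₁ V₂ V₃ W' W hO
  rw [xLev_two593]
  refine ⟨fun b hb => ?_, fun b hb => ?_⟩
  · exact qep.qep_f b (hb 0 (by omega)) (hb 1 (by omega)) (hb 2 (by omega))
  · exact qep.qep_i b (hb 0 (by omega)) (hb 1 (by omega)) (hb 2 (by omega))

/-- **NORMAL** at the level `M q q`. -/
theorem normal_base593 (hS : Mod3.Std P E M q w)
    (hO : Mod3.Objs P E M q V₁' V₂' V₁ V₂ V₃ W' W) :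
    PartNormalE (RE P E) 2 (xLev E (M * q * q) q 2) (fam593 V₁ V₂ V₃) := by
  have nor := hNor593 P E M q w hS V₁' V₂' V₁ V₂ V₃ W' W hO
  rw [xLev_two593]
  refine ⟨?_, ?_⟩
  · exact forall_fam593 (p := fun V => NormalAlong _ V) nor.normal_f₁ nor.normal_f₂ nor.normal_f₃
  · exact forall_fam593 (p := fun V => NormalAlong _ V) nor.normal_i₁ nor.normal_i₂ nor.normal_i₃

/-- **INC** at the level `M q q`. -/
theorem inc_base593 (hS : Mod3.Std P E M q w) (hO : Mod3.Objs P E M q V₁' V₂' V₁ V₂ V₃ W' W) :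
    PartIncE (R := RE P E) w 2 (xLev E (M * q * q) q 2) (fam593 V₁ V₂ V₃) := by
  have inc := hInc593 P E M q w hS V₁' V₂' V₁ V₂ V₃ W' W hO
  rw [xLev_two593]
  refine ⟨?_, ?_⟩
  · intro 𝔪 h𝔪 i hi k hk hik hti htk
    have key : IsTriple _ 𝔪 V₁ V₂ V₃ := by
      rcases le_two593 hi with rfl | rfl | rfl <;> rcases le_two593 hk with rfl | rfl | rfl
      · exact absurd rfl hik
      · exact inc.incidence 𝔪 h𝔪 (Or.inl ⟨hti, htk⟩)
      · exact inc.incidence 𝔪 h𝔪 (Or.inr (Or.inl ⟨hti, htk⟩))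
      · exact inc.incidence 𝔪 h𝔪 (Or.inl ⟨htk, hti⟩)
      · exact absurd rfl hik
      · exact inc.incidence 𝔪 h𝔪 (Or.inr (Or.inr ⟨hti, htk⟩))
      · exact inc.incidence 𝔪 h𝔪 (Or.inr (Or.inl ⟨htk, hti⟩))
      · exact inc.incidence 𝔪 h𝔪 (Or.inr (Or.inr ⟨htk, hti⟩))
      · exact absurd rfl hik
    exact forall_fam593 (p := fun V => Through _ 𝔪 V) key.1 key.2.1 key.2.2
  · intro 𝔪 h𝔪 hw hx i hi k hk hik
    obtain ⟨h12, h13, h23⟩ := inc.cusp_single 𝔪 h𝔪 hw hx
    rcases le_two593 hi with rfl | rfl | rfl <;> rcases le_two593 hk with rfl | rfl | rfl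
    · exact absurd rfl hik
    · exact h12
    · exact h13
    · exact fun h => h12 ⟨h.2, h.1⟩
    · exact absurd rfl hik
    · exact h23
    · exact fun h => h13 ⟨h.2, h.1⟩
    · exact fun h => h23 ⟨h.2, h.1⟩
    · exact absurd rfl hik

/-- **COMPLETE** at the level `M q q`: every sheet is `V₁`, `V₂` or `V₃`
(`Mod3.H27.complete_of_tower`, as in `Mod3.H27.leafQep_of_only`). -/
theorem complete_base593 (hS : Mod3.Std P E M q w)
    (hO : Mod3.Objs P E M q V₁' V₂' V₁ V₂ V₃ W' W) :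
    PartCompleteE (R := RE P E) w 2 (xLev E (M * q * q) q 2) (fam593 V₁ V₂ V₃) := by
  have vt := hVT593 P E M q w hS V₁' V₂' V₁ V₂ V₃ W' W hO
  rw [xLev_two593]
  haveI : IsDiscreteValuationRing (RE P E) := hS.unram.1.dvr
  have hSet : Setting P E M q w :=
    ⟨hS.q_prime, hS.q_not_dvd, NeZero.ne M, hS.lies_over, hS.unram.1.dvr, hS.unif⟩
  obtain ⟨htr, -, -⟩ := H31.deg E M q hS.q_prime hS.q_not_dvd
  have hx'E : Transcendental E (αE E (M * q) q (xE E M q)) := by
    intro halg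
    exact htr ((isAlgebraic_algHom_iff (αE E (M * q) q) (αE E (M * q) q).injective).1 halg)
  have hx' : Transcendental (RE P E) (αE E (M * q) q (xE E M q)) :=
    H13.transcendental_RE hx'E
  have hα : ∀ r : RE P E, (αE E (M * q) q : FE E (M * q) →+* FE E (M * q * q))
      (algebraMap (RE P E) (FE E (M * q)) r) = algebraMap (RE P E) (FE E (M * q * q)) r :=
    fun r => (αE E (M * q) q).commutes (r : E)
  have hc₂ : αE E (M * q) q (xE E M q) ∈
      _root_.Fermat.Agent.S18.H138.chart (RE P E) ({Mod3.x3E E M q} : Set (FE E (M * q * q))) :=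
    Mod3.H189.chart_α_x3E P E M q hS.q_prime _ (Fermat.Agent.S18.H138.mem_chart_of_mem rfl)
  have hc₁ : Mod3.x3E E M q ∈
      _root_.Fermat.Agent.S18.H138.chart (RE P E) ({αE E (M * q) q (xE E M q)} : Set (FE E (M * q * q))) :=
    Fermat.Agent.S36.H747.mem_chart_of_isIntegralOver
      (αE E (M * q) q : FE E (M * q) →+* FE E (M * q * q)) {xE E M q}
      {αE E (M * q) q (xE E M q)}
      (Mod3.H189.chart_map (R := RE P E) (α := αE E (M * q) q)
        (Fermat.Agent.S18.H138.mem_chart_of_mem rfl))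
      (Mod3.x3E E M q)
      (Mod3.H189.int_α_x3E P E M q hS.q_prime _ (Fermat.Agent.S18.H138.mem_chart_of_mem rfl))
  have hS' : ∀ V' : ValuationSubring (FE E (M * q)),
      Fermat.Agent.A2.H12.IsSheet w (xE E M q) V' → V' = V₁' ∨ V' = V₂' := by
    intro V' hV'
    rw [hO.vzero']
    exact Mod3.H27.sheets_low hSet hO.vinf' hO.fricke' V' hV'
  have hcomp := Mod3.H27.complete_of_tower hS.unif.prime
    (αE E (M * q) q : FE E (M * q) →+* FE E (M * q * q)) hα hx' hc₁ hc₂
    V₁ V₂ V₃ V₁' V₂' hS' (fun V _ hV => vt.only_α₁ V hV) (fun V _ hV => vt.only_α₃ V hV)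
  refine ⟨fun U h1 h2 h3 h4 => ?_⟩
  rcases hcomp U ⟨h1, h2, h3, h4⟩ with h | h | h
  · exact ⟨0, by omega, h⟩
  · exact ⟨1, by omega, h⟩
  · exact ⟨2, by omega, h⟩

/-! ### units -/

theorem jE_ne_zero593 (N d : ℕ) [NeZero d] (hd : d ∣ N) : jE E N d hd ≠ 0 := by
  intro h
  have htr := S36.H816.transcendental_jE (E := E) N d hd
  rw [h] at htr
  exact htr (isAlgebraic_zero)

/-- The generators are units of `V∞`. -/
theorem unitAt_vinf593 (hdvr : IsDiscreteValuationRing (RE P E)) (hw : Irreducible w)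
    {N : ℕ} (hN : N ≠ 0) {V : ValuationSubring (FE E N)} (hV : IsVinf P E N V)
    (d : ℕ) [NeZero d] (hd : d ∣ N) : UnitAt V (jE E N d hd) := by
  obtain ⟨-, -, hj⟩ := H708.vinfBasic P E w N hN hdvr hw V hV
  exact ⟨jE_ne_zero593 N d hd, (hj d hd).1, (hj d hd).2⟩

/-- Units of `V ∘ W`. -/
theorem unitAt_comap593 {F : Type*} [Field F] (V : ValuationSubring F) (φ : F →+* F) {y : F}
    (h : UnitAt V (φ y)) : UnitAt (V.comap φ) y := by
  refine ⟨fun h0 => h.1 (by rw [h0, map_zero]), ?_, ?_⟩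
  · rw [ValuationSubring.mem_comap]
    exact h.2.1
  · rw [ValuationSubring.mem_comap, map_inv₀]
    exact h.2.2

theorem unitAt_of_sub593 {F : Type*} [Field F] (V : ValuationSubring F) {y z : F}
    (hz : UnitAt V z) (hyz : y - z ∈ V.nonunits) : UnitAt V y := by
  have hy : y ∈ V := by
    have : y = (y - z) + z := by ring
    rw [this]
    exact V.add_mem _ _ (S36.H816.mem_of_mem_nonunits V hyz) hz.2.1
  have hzn : z ∉ V.nonunits := by
    rw [ValuationSubring.mem_nonunits_iff_or]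
    push Not
    exact ⟨hz.1, hz.2.2⟩
  have hyn : y ∉ V.nonunits := S36.H816.not_mem_nonunits_of_sub V hyz hzn
  rw [ValuationSubring.mem_nonunits_iff_or] at hyn
  push Not at hyn
  exact ⟨hyn.1, hy, hyn.2⟩

/-- The three generators are units of the three components. -/
theorem units_base593 (hS : Mod3.Std P E M q w) (hO : Mod3.Objs P E M q V₁' V₂' V₁ V₂ V₃ W' W) :
    (UnitAt V₁ (Mod3.j1 E M q) ∧ UnitAt V₁ (Mod3.jq E M q) ∧ UnitAt V₁ (Mod3.jqq E M q)) ∧
    (UnitAt V₂ (Mod3.j1 E M q) ∧ UnitAt V₂ (Mod3.jq E M q) ∧ UnitAt V₂ (Mod3.jqq E M q)) ∧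
    (UnitAt V₃ (Mod3.j1 E M q) ∧ UnitAt V₃ (Mod3.jq E M q) ∧ UnitAt V₃ (Mod3.jqq E M q)) := by
  have vt := hVT593 P E M q w hS V₁' V₂' V₁ V₂ V₃ W' W hO
  have tab := hTab593 P E M q w hS V₁' V₂' V₁ V₂ V₃ W' W hO
  have hdvr : IsDiscreteValuationRing (RE P E) := hS.unram.1.dvr
  have hw : Irreducible w := hS.unif
  have hN : M * q * q ≠ 0 := NeZero.ne _
  have hN' : M * q ≠ 0 := NeZero.ne _
  have hu1 : ∀ (d : ℕ) [NeZero d] (hd : d ∣ M * q * q), UnitAt V₁ (jE E (M * q * q) d hd) :=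
    fun d _ hd => unitAt_vinf593 hdvr hw hN hO.vinf d hd
  have hu1' : ∀ (d : ℕ) [NeZero d] (hd : d ∣ M * q), UnitAt V₁' (jE E (M * q) d hd) :=
    fun d _ hd => unitAt_vinf593 hdvr hw hN' hO.vinf' d hd
  refine ⟨⟨hu1 _ _, hu1 _ _, hu1 _ _⟩, ?_, ?_⟩
  · -- the middle component
    have hmap : ∀ f : FE E (M * q),
        (αE E (M * q) q : FE E (M * q) →+* FE E (M * q * q)) f ∈ V₂ ↔ f ∈ V₁' := by
      intro f
      rw [← tab.comap_α₂, ValuationSubring.mem_comap]
    have h1 : UnitAt V₂ (Mod3.j1 E M q) := by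
      have h := Mod3.H370.unitAt_of_map370
        (αE E (M * q) q : FE E (M * q) →+* FE E (M * q * q)) hmap
        (hu1' 1 (one_dvd _)).1 (hu1' 1 (one_dvd _)).2.1 (hu1' 1 (one_dvd _)).2.2
      have e : (αE E (M * q) q : FE E (M * q) →+* FE E (M * q * q))
          (jE E (M * q) 1 (one_dvd _)) = Mod3.j1 E M q :=
        H751.alpha_jE (E := E) (M := M * q) (q := q) 1 (one_dvd _)
      rwa [e] at h
    have h2 : UnitAt V₂ (Mod3.jq E M q) := by
      have h := Mod3.H370.unitAt_of_map370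
        (αE E (M * q) q : FE E (M * q) →+* FE E (M * q * q)) hmap
        (hu1' q (dvd_mul_left q M)).1 (hu1' q (dvd_mul_left q M)).2.1
        (hu1' q (dvd_mul_left q M)).2.2
      have e : (αE E (M * q) q : FE E (M * q) →+* FE E (M * q * q))
          (jE E (M * q) q (dvd_mul_left q M)) = Mod3.jq E M q :=
        H751.alpha_jE (E := E) (M := M * q) (q := q) q (dvd_mul_left q M)
      rwa [e] at h
    exact ⟨h1, h2, unitAt_of_sub593 V₂ h1 vt.kron₂.2⟩
  · -- `V₃ = V₁ ∘ W`
    have hW : ∀ (d d' : ℕ) [NeZero d] [NeZero d'] (hd : d ∣ M * q * q) (hd' : d' ∣ M * q * q),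
        d * d' = M * q * q → UnitAt V₃ (jE E (M * q * q) d hd) := by
      intro d d' _ _ hd hd' hdd
      rw [hO.vzero]
      apply unitAt_comap593
      show UnitAt V₁ (W (jE E (M * q * q) d hd))
      rw [hO.fricke.1 d d' hd hd' hdd]
      exact hu1 d' hd'
    refine ⟨hW 1 (M * q * q) _ dvd_rfl (one_mul _), ?_, ?_⟩
    · exact hW q (M * q) _ (Dvd.intro _ rfl) (by ring)
    · exact hW (q * q) M _ (Dvd.intro (q * q) (by ring)) (by ring)

/-- **KRON** at the level `M q q`. -/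
theorem kron_base593 (hS : Mod3.Std P E M q w) (hO : Mod3.Objs P E M q V₁' V₂' V₁ V₂ V₃ W' W) :
    PartKronE q 2 (jLev E (M * q * q) q) (fam593 V₁ V₂ V₃) := by
  have vt := hVT593 P E M q w hS V₁' V₂' V₁ V₂ V₃ W' W hO
  obtain ⟨⟨u10, u11, u12⟩, ⟨u20, u21, u22⟩, ⟨u30, u31, u32⟩⟩ := units_base593 hS hO
  -- the Verschiebung congruence on the middle component
  have hmid : Mod3.jq E M q - Mod3.jqq E M q ^ q ∈ V₂.nonunits := by
    have h1 : Mod3.jqq E M q ^ q - Mod3.j1 E M q ^ q ∈ V₂.nonunits :=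
      S36.H816.pow_sub_pow_mem_nonunits V₂ u22.2.1 u20.2.1 vt.kron₂.2 q
    have e : Mod3.jq E M q - Mod3.jqq E M q ^ q =
        (Mod3.jq E M q - Mod3.j1 E M q ^ q) - (Mod3.jqq E M q ^ q - Mod3.j1 E M q ^ q) := by
      ring
    rw [e]
    exact S36.H816.sub_mem_nonunits V₂ vt.kron₂.1 h1
  refine ⟨?_, ?_, ?_⟩
  · intro i hi l hl
    rcases le_two593 hi with rfl | rfl | rfl
    · have hl' : l = 0 ∨ l = 1 := by omega
      rcases hl' with rfl | rfl
      · show jLev E (M * q * q) q 1 - jLev E (M * q * q) q 0 ^ q ∈ V₁.nonunits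
        rw [jLev_zero593, jLev_one593]
        exact vt.kron₁.1
      · show jLev E (M * q * q) q 2 - jLev E (M * q * q) q 1 ^ q ∈ V₁.nonunits
        rw [jLev_one593, jLev_two593]
        exact vt.kron₁.2
    · have hl' : l = 0 := by omega
      subst hl'
      show jLev E (M * q * q) q 1 - jLev E (M * q * q) q 0 ^ q ∈ V₂.nonunits
      rw [jLev_zero593, jLev_one593]
      exact vt.kron₂.1
    · exact absurd hl (by omega)
  · intro i hi l hl hl2
    rcases le_two593 hi with rfl | rfl | rfl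
    · exact absurd hl2 (by omega)
    · have hl' : l = 1 := by omega
      subst hl'
      show jLev E (M * q * q) q 1 - jLev E (M * q * q) q 2 ^ q ∈ V₂.nonunits
      rw [jLev_one593, jLev_two593]
      exact hmid
    · have hl' : l = 0 ∨ l = 1 := by omega
      rcases hl' with rfl | rfl
      · show jLev E (M * q * q) q 0 - jLev E (M * q * q) q 1 ^ q ∈ V₃.nonunits
        rw [jLev_zero593, jLev_one593]
        exact vt.kron₃.1
      · show jLev E (M * q * q) q 1 - jLev E (M * q * q) q 2 ^ q ∈ V₃.nonunits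
        rw [jLev_one593, jLev_two593]
        exact vt.kron₃.2
  · intro i hi l hl
    rcases le_two593 hi with rfl | rfl | rfl <;> rcases le_two593 hl with rfl | rfl | rfl
    · show UnitAt V₁ (jLev E (M * q * q) q 0)
      rw [jLev_zero593]; exact u10
    · show UnitAt V₁ (jLev E (M * q * q) q 1)
      rw [jLev_one593]; exact u11
    · show UnitAt V₁ (jLev E (M * q * q) q 2)
      rw [jLev_two593]; exact u12
    · show UnitAt V₂ (jLev E (M * q * q) q 0)
      rw [jLev_zero593]; exact u20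
    · show UnitAt V₂ (jLev E (M * q * q) q 1)
      rw [jLev_one593]; exact u21
    · show UnitAt V₂ (jLev E (M * q * q) q 2)
      rw [jLev_two593]; exact u22
    · show UnitAt V₃ (jLev E (M * q * q) q 0)
      rw [jLev_zero593]; exact u30
    · show UnitAt V₃ (jLev E (M * q * q) q 1)
      rw [jLev_one593]; exact u31
    · show UnitAt V₃ (jLev E (M * q * q) q 2)
      rw [jLev_two593]; exact u32

/-- **UNIF** at the level `M q q`: `T 1 = j_{q²} - j` is a uniformiser of the middle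
component. -/
theorem unif_base593 (hS : Mod3.Std P E M q w) (hO : Mod3.Objs P E M q V₁' V₂' V₁ V₂ V₃ W' W) :
    PartUnifE 2 (jLev E (M * q * q) q) (fam593 V₁ V₂ V₃) := by
  have vt := hVT593 P E M q w hS V₁' V₂' V₁ V₂ V₃ W' W hO
  refine ⟨fun i h1 h2 => ?_⟩
  have hi : i = 1 := by omega
  subst hi
  show UnifAt V₂ (jLev E (M * q * q) q 2 - jLev E (M * q * q) q (2 - 2 * 1))
  have e : 2 - 2 * 1 = 0 := rfl
  rw [e, jLev_zero593, jLev_two593]
  exact vt.pi_unif

/-- **REG** (Spec v0.2) at the level `M q q`: everything is `Mod3.LeafReg` of row S36. -/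
theorem reg_base593 (hS : Mod3.Std P E M q w) (hO : Mod3.Objs P E M q V₁' V₂' V₁ V₂ V₃ W' W) :
    PartRegE (RE P E) 2 (xLev E (M * q * q) q 2) (fam593 V₁ V₂ V₃) := by
  have reg := hReg593 P E M q w hS V₁' V₂' V₁ V₂ V₃ W' W hO
  rw [xLev_two593]
  refine ⟨?_, ?_, ?_⟩
  · intro 𝔪 h𝔪 hm
    have h2 : Through _ 𝔪 V₂ := hm 1 (by omega)
    rcases reg.regular_f 𝔪 h𝔪 h2 with h | h | h
    · exact ⟨0, by omega, h.2⟩
    · exact ⟨1, by omega, h⟩
    · exact ⟨2, by omega, h.2⟩
  · intro 𝔪 h𝔪 i h1 h2 ht hn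
    have hi : i = 1 := by omega
    subst hi
    have n0 : ¬ Through _ 𝔪 V₁ := hn 0 (by omega) (by omega)
    have n2 : ¬ Through _ 𝔪 V₃ := hn 2 (by omega) (by omega)
    rcases reg.regular_f 𝔪 h𝔪 ht with h | h | h
    · exact absurd h.1 n0
    · exact h
    · exact absurd h.1 n2
  · intro 𝔪 h𝔪 hx i h1 h2 ht
    have hi : i = 1 := by omega
    subst hi
    exact reg.regular_i 𝔪 h𝔪 hx ht

/-- **The absolute context of the level `M q q`**, given the invariant `wit`. -/
theorem levelCtx_base_of_wit593 (hS : Mod3.Std P E M q w)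
    (hO : Mod3.Objs P E M q V₁' V₂' V₁ V₂ V₃ W' W)
    (hwit : PartWitE q 2 (jLev E (M * q * q) q) (fam593 V₁ V₂ V₃)) :
    LevelCtx P E (M * q * q) q 2 w (fam593 V₁ V₂ V₃) W where
  vinf := hO.vinf
  fricke := hO.fricke
  sym := sym_base593 hS hO
  ff := ff_base593 hS
  val := val_base593 hS hO
  sheet := sheet_base593 hS hO
  complete := complete_base593 hS hO
  qep := qep_base593 hS hO
  normal := normal_base593 hS hO
  inc := inc_base593 hS hO
  reg := reg_base593 hS hO
  kron := kron_base593 hS hO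
  unif := unif_base593 hS hO
  wit := hwit

end Main

end Fermat.Agent.S45.ModE.H593

end

end
-- ===== PACK-END S45/ModE/H593/Base.lean

-- ===== PACK-BEGIN S45/ModE/H492/WitBase.lean
section




/-!
# S45 / MOD-E — the invariant `wit` at the BASE level `M q q` (helper492)

For the leaf BASE (`ModE.LeafBaseX`): the field `wit : PartWitE q 2 (jLev E (M q q) q) V` of
`ModE.LevelCtx` at the level `M q q`, `q ∤ M`, for ANY family `V` with `V 0 = V₁` (`V∞`),
`V 1 = V₂` (`mid`), `V 2 = V₃` (`V∞ ∘ W`), from the S36 objects `Fermat.Agent.S36.Mod3.Objs` and four valuation-level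
facts on main (`Fermat.Agent.S36.Mod3.PartTable.comap_α₂`, `comap_β₂`, `Fermat.Agent.S36.Mod3.PartVT.res_α₂`, `res_β₂`).

* `witFricke492` : WIT at `V∞ ∘ W` (any level `N`): for `d d' = N`, `q ∤ d'`,
                   `∀ y ∈ V∞ ∘ W, y ^ q - j_d ∉ 𝔪`   (`W j_d = j_{d'}` and `witInf492`);
* `partWitE_base492` : the field `wit` at the base level.
-/

set_option autoImplicit false
set_option linter.style.haveILetI false
set_option linter.unusedSectionVars false
set_option synthInstance.maxHeartbeats 400000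
set_option maxHeartbeats 1600000

noncomputable section

namespace Fermat.Agent.S45.ModE.H492

open ModularCurve
open Fermat.Agent.A2.Mod (FE RE jE αE βE IsVinf IsFricke)

variable {P : ValuationSubring Fermat.Agent.A2.Qb} {E : IntermediateField ℚ Fermat.Agent.A2.Qb}

/-- **WIT at `V∞ ∘ W`**: for `d · d' = N` with `q ∤ d'` the generator `j_d` is not a `q`-th power
modulo the maximal ideal of `V∞ ∘ W`. -/
theorem witFricke492 {q : ℕ} [NeZero q] (hq : q.Prime) (hP : P.LiesOverPrime q) {N : ℕ}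
    {V : ValuationSubring (FE E N)} (hV : IsVinf P E N V) {W : FE E N ≃ₐ[E] FE E N}
    (hW : IsFricke E N W) (d d' : ℕ) [NeZero d] [NeZero d'] (hd : d ∣ N) (hd' : d' ∣ N)
    (hdd : d * d' = N) (hqd : ¬ q ∣ d') (y : FE E N)
    (hy : y ∈ V.comap (W : FE E N →+* FE E N)) :
    y ^ q - jE E N d hd ∉ (V.comap (W : FE E N →+* FE E N)).nonunits := by
  intro hbad
  have h1 : (W : FE E N →+* FE E N) (y ^ q - jE E N d hd) ∈ V.nonunits :=
    (mem_nonunits_comap492 V (W : FE E N →+* FE E N) _).mp hbad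
  have h2 : (W : FE E N →+* FE E N) (y ^ q - jE E N d hd) = (W y) ^ q - jE E N d' hd' := by
    rw [map_sub, map_pow]
    show (W y) ^ q - W (jE E N d hd) = _
    rw [hW.1 d d' hd hd' hdd]
  rw [h2] at h1
  exact witInf492 hq hP hV d' hd' hqd (W y) hy h1

section Base

variable {M q : ℕ} [NeZero M] [NeZero q] [NeZero (M * q)] [NeZero (M * q * q)]

/-- **The invariant `wit` at the base level `M q q`.** -/
theorem partWitE_base492 {w : RE P E} (hS : Fermat.Agent.S36.Mod3.Std P E M q w)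
    {V₁' V₂' : ValuationSubring (FE E (M * q))}
    {V₁ V₂ V₃ : ValuationSubring (FE E (M * q * q))}
    {W' : FE E (M * q) ≃ₐ[E] FE E (M * q)} {W : FE E (M * q * q) ≃ₐ[E] FE E (M * q * q)}
    (hO : Fermat.Agent.S36.Mod3.Objs P E M q V₁' V₂' V₁ V₂ V₃ W' W)
    (hcα₂ : V₂.comap (αE E (M * q) q : FE E (M * q) →+* FE E (M * q * q)) = V₁')
    (hcβ₂ : V₂.comap (βE E (M * q) q : FE E (M * q) →+* FE E (M * q * q)) = V₂')
    (hres_α₂ : ∀ f ∈ V₂, ∃ g ∈ V₁', f - αE E (M * q) q g ∈ V₂.nonunits)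
    (hres_β₂ : ∀ f ∈ V₂, ∃ g ∈ V₂', f - βE E (M * q) q g ∈ V₂.nonunits)
    (V : ℕ → ValuationSubring (FE E (M * q * q)))
    (h0 : V 0 = V₁) (h1 : V 1 = V₂) (h2 : V 2 = V₃) :
    PartWitE q 2 (jLev E (M * q * q) q) V := by
  have hq := hS.q_prime
  have hP := hS.lies_over
  have hq1 : ¬ q ∣ q ^ 0 := by
    rw [pow_zero]
    exact hq.not_dvd_one
  -- divisibilities
  have d0' : q ^ 0 ∣ M * q := by rw [pow_zero]; exact one_dvd _
  have d1' : q ^ 1 ∣ M * q := by rw [pow_one]; exact dvd_mul_left q M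
  have d0 : q ^ 0 ∣ M * q * q := by rw [pow_zero]; exact one_dvd _
  have d2 : q ^ 2 ∣ M * q * q := ⟨M, by ring⟩
  have dM' : M ∣ M * q := dvd_mul_right M q
  have dM : M ∣ M * q * q := ⟨q * q, by ring⟩
  -- the four facts
  have A0 : ∀ y ∈ V₁, y ^ q - jLev E (M * q * q) q 0 ∉ V₁.nonunits := by
    intro y hy
    rw [jLev_of_dvd492 E (M * q * q) q d0]
    exact witInf492 hq hP hO.vinf (q ^ 0) d0 hq1 y hy
  have A0' : ∀ g ∈ V₁', g ^ q - jLev E (M * q) q 0 ∉ V₁'.nonunits := by
    intro y hy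
    rw [jLev_of_dvd492 E (M * q) q d0']
    exact witInf492 hq hP hO.vinf' (q ^ 0) d0' hq1 y hy
  have A1' : ∀ g ∈ V₂', g ^ q - jLev E (M * q) q 1 ∉ V₂'.nonunits := by
    intro y hy
    rw [jLev_of_dvd492 E (M * q) q d1']
    rw [hO.vzero'] at hy ⊢
    exact witFricke492 hq hP hO.vinf' hO.fricke' (q ^ 1) M d1' dM' (by ring) hS.q_not_dvd y hy
  have A2 : ∀ y ∈ V₃, y ^ q - jLev E (M * q * q) q 2 ∉ V₃.nonunits := by
    intro y hy
    rw [jLev_of_dvd492 E (M * q * q) q d2]
    rw [hO.vzero] at hy ⊢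
    exact witFricke492 hq hP hO.vinf hO.fricke (q ^ 2) M d2 dM (by ring) hS.q_not_dvd y hy
  have Bα : ∀ y ∈ V₂, y ^ q - jLev E (M * q * q) q 0 ∉ V₂.nonunits := by
    have h := wit_up492 q (αE E (M * q) q : FE E (M * q) →+* FE E (M * q * q)) V₂ V₁' hcα₂
      hres_α₂ (jLev E (M * q) q 0) A0'
    have e : (αE E (M * q) q : FE E (M * q) →+* FE E (M * q * q)) (jLev E (M * q) q 0)
        = jLev E (M * q * q) q 0 := alpha_jLev492 E (M * q) q d0'
    rw [e] at h
    exact h
  have Bβ : ∀ y ∈ V₂, y ^ q - jLev E (M * q * q) q 2 ∉ V₂.nonunits := by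
    have h := wit_up492 q (βE E (M * q) q : FE E (M * q) →+* FE E (M * q * q)) V₂ V₂' hcβ₂
      hres_β₂ (jLev E (M * q) q 1) A1'
    have e : (βE E (M * q) q : FE E (M * q) →+* FE E (M * q * q)) (jLev E (M * q) q 1)
        = jLev E (M * q * q) q 2 := beta_jLev492 E (M * q) q d1'
    rw [e] at h
    exact h
  refine ⟨?_, ?_⟩
  · intro i hi h2i y hy
    have hi' : i = 0 ∨ i = 1 := by omega
    rcases hi' with rfl | rfl
    · rw [h0] at hy ⊢
      exact A0 y hy
    · rw [h1] at hy ⊢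
      exact Bα y hy
  · intro i hi h2i y hy
    have hi' : i = 1 ∨ i = 2 := by omega
    rcases hi' with rfl | rfl
    · rw [h1] at hy ⊢
      exact Bβ y hy
    · rw [h2] at hy ⊢
      exact A2 y hy

/-- The same from the S36 parts `Fermat.Agent.S36.Mod3.PartTable` and `Fermat.Agent.S36.Mod3.PartVT`. -/
theorem partWitE_base_of_parts492 {w : RE P E} (hS : Fermat.Agent.S36.Mod3.Std P E M q w)
    {V₁' V₂' : ValuationSubring (FE E (M * q))}
    {V₁ V₂ V₃ : ValuationSubring (FE E (M * q * q))}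
    {W' : FE E (M * q) ≃ₐ[E] FE E (M * q)} {W : FE E (M * q * q) ≃ₐ[E] FE E (M * q * q)}
    (hO : Fermat.Agent.S36.Mod3.Objs P E M q V₁' V₂' V₁ V₂ V₃ W' W)
    (hT : Fermat.Agent.S36.Mod3.PartTable (αE E (M * q) q) (βE E (M * q) q) V₁ V₂ V₃ V₁' V₂')
    (hVT : Fermat.Agent.S36.Mod3.PartVT (R := RE P E) w q (αE E (M * q) q) (βE E (M * q) q)
      (Fermat.Agent.S36.Mod3.j1 E M q) (Fermat.Agent.S36.Mod3.jq E M q) (Fermat.Agent.S36.Mod3.jqq E M q) V₁ V₂ V₃ V₁' V₂')
    (V : ℕ → ValuationSubring (FE E (M * q * q)))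
    (h0 : V 0 = V₁) (h1 : V 1 = V₂) (h2 : V 2 = V₃) :
    PartWitE q 2 (jLev E (M * q * q) q) V :=
  partWitE_base492 hS hO hT.comap_α₂ hT.comap_β₂ hVT.res_α₂ hVT.res_β₂ V h0 h1 h2

end Base

end Fermat.Agent.S45.ModE.H492

end

end
-- ===== PACK-END S45/ModE/H492/WitBase.lean

-- ===== PACK-BEGIN S45/H193/AlgWire.lean
section





/-!
# S45 / CAR3 (helper193): block ALG-E/Wall — `AlgEStatement` from the leaves STEP-A and PURE

Wiring of the context-free core (`AlgCore.lean`) to the frozen context `Eng.CtxE`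
(`S45/Eng/Spec.lean`, helper48):

* `ctxE_isSheet`   : the components `V i`, `i ≤ e`, are sheets of `x`;
* `ctxE_sheets`    : SHEETS-E — every sheet of `x` is some `V i`, `i ≤ e` (from `qep_f`);
* `ctxE_unifAt_zero`, `ctxE_hdisc_zero` : `V 0` is unramified and `w`-adically discrete;
* `compSet e V`    : the set `{V i | i ≤ e}` of the components;
* `LeafStepAE c₁`  : STEP-A output, exponent `c₁ q e`:
                     `f ^ c₁ = w ^ s * G ^ m * u`, `u ≡ 1` on every `V i`, norms of `u` `m`-th powers;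
* `LeafPureE c₂`   : PURE output, exponent `c₂ q e`: a colouring `κ` with
                     `S36.H193.BasePureValuesAt (compSet e V)` for `u ^ c₂` at every closed point
                     of the special fibre of the two charts;
* `algE_of_leaves` : `LeafStepAE c₁ → LeafPureE c₂ → AlgEStatement`
                     (`C = c₁ q e * c₂ q e`; the wall is `S36.H193.exists_pow_eq_of_base_set`).
-/

set_option autoImplicit false
set_option linter.style.haveILetI false
set_option linter.unusedSectionVars false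
set_option linter.unusedVariables false
set_option synthInstance.maxHeartbeats 400000
set_option maxHeartbeats 1600000

noncomputable section

namespace Fermat.Agent.S45.H193

open Polynomial
open Fermat.Agent.A2.H12 (IsSheet)
open Fermat.Agent.S18.H138 (chart)
open Fermat.Agent.S36.Eng (UnitAt UnifAt)
open Fermat.Agent.S45.Eng (CtxE mult QepE)
open Fermat.Agent.S36.H193 (BasePureValuesAt)

universe u

/-- The set of the components `V 0, …, V e`. -/
def compSet {F : Type*} [Field F] (e : ℕ) (V : ℕ → ValuationSubring F) :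
    Set (ValuationSubring F) :=
  {W | ∃ i ≤ e, W = V i}

theorem mult_pos_of_pos {q : ℕ} (hq : 0 < q) (e i : ℕ) : 0 < mult q e i :=
  Nat.totient_pos.2 (pow_pos hq _)

theorem mult_zero_eq_one (q e : ℕ) : mult q e 0 = 1 := by
  simp [mult]

section Val

variable {F : Type*} [Field F]

/-- `t ∈ 𝔪_V`, `n ≥ 1`, `c ∈ V` ⟹ `t ^ n * c ∈ 𝔪_V`. -/
theorem pow_mul_mem_nonunits (V : ValuationSubring F) {t c : F} (ht : t ∈ V.nonunits)
    (hc : c ∈ V) {n : ℕ} (hn : 0 < n) : t ^ n * c ∈ V.nonunits := by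
  obtain ⟨k, rfl⟩ : ∃ k, n = k + 1 := ⟨n - 1, by omega⟩
  have h1 : t ^ (k + 1) * c = t * (t ^ k * c) := by ring
  rw [h1]
  exact Fermat.Agent.S36.H919.h919_mem_nonunits_mul V ht
    (V.mul_mem _ _ (V.pow_mem (V.nonunits_subset ht) k) hc)

end Val

section Ctx

variable {R : Type u} [CommRing R] [IsDomain R] [IsDiscreteValuationRing R]
  [HenselianLocalRing R] [IsAlgClosed (IsLocalRing.ResidueField R)]
variable {E : Type u} [Field E] [CharZero E] [Algebra R E] [IsFractionRing R E]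
variable {F : Type u} [Field F] [Algebra E F] [Algebra R F] [IsScalarTower R E F]
variable {F' : Type u} [Field F'] [Algebra E F'] [Algebra R F'] [IsScalarTower R E F']
variable {w : R} {q e : ℕ} {α β : F' →ₐ[E] F} {x : F} {x' : F'}
  {V : ℕ → ValuationSubring F} {V' : ℕ → ValuationSubring F'}

/-- `w ∈ 𝔪_{V i}`. -/
theorem ctxE_w_mem_nonunits (hq : 0 < q) (ctx : CtxE w q e α β x x' V V') {i : ℕ}
    (hi : i ≤ e) : algebraMap R F w ∈ (V i).nonunits := by
  obtain ⟨t, ⟨ht0, htn, -⟩, ⟨-, hu, -⟩⟩ := ctx.ram i hi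
  have h1 : algebraMap R F w =
      t ^ mult q e i * (algebraMap R F w * (t ^ mult q e i)⁻¹) := by
    rw [mul_comm (algebraMap R F w), ← mul_assoc, mul_inv_cancel₀ (pow_ne_zero _ ht0), one_mul]
  rw [h1]
  exact pow_mul_mem_nonunits (V i) htn hu (mult_pos_of_pos hq e i)

/-- The components are sheets of `x`. -/
theorem ctxE_isSheet (hq : 0 < q) (ctx : CtxE w q e α β x x' V V') {i : ℕ} (hi : i ≤ e) :
    IsSheet w x (V i) :=
  ⟨ctx.base i hi, (ctx.x_unit i hi).2.1, ctxE_w_mem_nonunits hq ctx hi, ctx.gauss i hi⟩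

/-- `w` is a uniformiser of `V 0` (multiplicity one). -/
theorem ctxE_unifAt_zero (ctx : CtxE w q e α β x x' V V') :
    UnifAt (V 0) (algebraMap R F w) := by
  obtain ⟨t, ⟨ht0, htn, htg⟩, ⟨hu0, hu, hui⟩⟩ := ctx.ram 0 (Nat.zero_le e)
  rw [mult_zero_eq_one, pow_one] at hu0 hu hui
  have hw0 : algebraMap R F w ≠ 0 := by
    intro h0
    rw [h0, zero_mul] at hu0
    exact hu0 rfl
  refine ⟨hw0, ?_, ?_⟩
  · have h1 : algebraMap R F w = t * (algebraMap R F w * t⁻¹) := by
      rw [mul_comm (algebraMap R F w), ← mul_assoc, mul_inv_cancel₀ ht0, one_mul]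
    rw [h1]
    exact Fermat.Agent.S36.H919.h919_mem_nonunits_mul (V 0) htn hu
  · intro f hf
    have h1 : f * (algebraMap R F w)⁻¹ = (f * t⁻¹) * (algebraMap R F w * t⁻¹)⁻¹ := by
      rw [mul_inv, inv_inv]
      field_simp
    rw [h1]
    exact (V 0).mul_mem _ _ (htg f hf) hui

/-- `V 0` is `w`-adically discrete. -/
theorem ctxE_hdisc_zero (ctx : CtxE w q e α β x x' V V') :
    ∀ g : F, ∃ k : ℕ, g * algebraMap R F w ^ k ∈ V 0 :=
  haveI := ctx.dvr 0 (Nat.zero_le e)
  Fermat.Agent.S36.H919.h919_disc_of_dvr (V 0) (ctxE_unifAt_zero ctx).2.1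

/-- **SHEETS-E**: every sheet of `x` is one of the components `V i`, `i ≤ e`. -/
theorem ctxE_sheets (hw : Irreducible w) (hq : 0 < q) (ctx : CtxE w q e α β x x' V V') :
    ∀ W : ValuationSubring F, IsSheet w x W → ∃ i ≤ e, V i = W := by
  intro W hW
  haveI : CharZero F := charZero_of_injective_algebraMap (algebraMap E F).injective
  haveI : FiniteDimensional (Fermat.Agent.S18.H138.baseField R x) F :=
    Fermat.Agent.S36.H919.h919_finiteDimensional E ctx.hfin
  obtain ⟨i, hi⟩ := sheet_eq_of_qepFamily (Fermat.Agent.S36.H919.h919_injective E) hw.prime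
    (Fermat.Agent.S36.H919.h919_transcendental E ctx.hx)
    (fun i : Fin (e + 1) => V i)
    (fun i => ctx.dvr i (Nat.lt_succ_iff.1 i.2))
    (fun i => Fermat.Agent.S36.H193.sheet_chart_le
      (ctxE_isSheet hq ctx (Nat.lt_succ_iff.1 i.2)))
    (fun i => ctxE_w_mem_nonunits hq ctx (Nat.lt_succ_iff.1 i.2))
    (fun b hb => ctx.qep_f b (fun i hi => hb ⟨i, Nat.lt_succ_iff.2 hi⟩)) hW
  exact ⟨i, Nat.lt_succ_iff.1 i.2, hi⟩

end Ctx

/-! ## The leaves -/

/-- **Leaf STEP-A of ALG-E**, with exponent `c₁ q e`. -/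
def LeafStepAE (c₁ : ℕ → ℕ → ℕ) : Prop :=
  ∀ {R E F F' : Type} [CommRing R] [IsDomain R] [IsDiscreteValuationRing R]
    [HenselianLocalRing R] [IsAlgClosed (IsLocalRing.ResidueField R)]
    [Field E] [CharZero E] [Algebra R E] [IsFractionRing R E]
    [Field F] [Algebra E F] [Algebra R F] [IsScalarTower R E F]
    [Field F'] [Algebra E F'] [Algebra R F'] [IsScalarTower R E F']
    (w : R) (_ : Irreducible w) (q : ℕ) (_ : q.Prime)
    (_ : (q : R) ∈ IsLocalRing.maximalIdeal R) (e : ℕ) (_ : 3 ≤ e)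
    (α β : F' →ₐ[E] F) (x : F) (x' : F')
    (V : ℕ → ValuationSubring F) (V' : ℕ → ValuationSubring F')
    (_ : CtxE w q e α β x x' V V'),
    ∀ m : ℕ, 0 < m → ¬ q ∣ m →
      ∀ f : F, f ≠ 0 → S35.G.NormPow α m f → S35.G.NormPow β m f →
        ∃ (s : ℤ) (G u : F) (k₁ k₂ : F'), G ≠ 0 ∧
          f ^ c₁ q e = algebraMap R F w ^ s * G ^ m * u ∧
          (∀ i ≤ e, u - 1 ∈ (V i).nonunits) ∧
          S29.H395.normAlong α u = k₁ ^ m ∧ S29.H395.normAlong β u = k₂ ^ m

/-- **Leaf PURE of ALG-E**, with exponent `c₂ q e`. -/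
def LeafPureE (c₂ : ℕ → ℕ → ℕ) : Prop :=
  ∀ {R E F F' : Type} [CommRing R] [IsDomain R] [IsDiscreteValuationRing R]
    [HenselianLocalRing R] [IsAlgClosed (IsLocalRing.ResidueField R)]
    [Field E] [CharZero E] [Algebra R E] [IsFractionRing R E]
    [Field F] [Algebra E F] [Algebra R F] [IsScalarTower R E F]
    [Field F'] [Algebra E F'] [Algebra R F'] [IsScalarTower R E F']
    (w : R) (_ : Irreducible w) (q : ℕ) (_ : q.Prime)
    (_ : (q : R) ∈ IsLocalRing.maximalIdeal R) (e : ℕ) (_ : 3 ≤ e)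
    (α β : F' →ₐ[E] F) (x : F) (x' : F')
    (V : ℕ → ValuationSubring F) (V' : ℕ → ValuationSubring F')
    (_ : CtxE w q e α β x x' V V'),
    ∀ m : ℕ, 0 < m → ¬ q ∣ m → ∀ ζ : R, IsPrimitiveRoot ζ m →
      ∀ u : F, u ≠ 0 → A2.DivisibleDiv E m u →
        (∀ i ≤ e, u - 1 ∈ (V i).nonunits) →
        ∀ k₁ k₂ : F', S29.H395.normAlong α u = k₁ ^ m → S29.H395.normAlong β u = k₂ ^ m →
          ∃ κ : ValuationSubring F → ℕ,
            (∀ 𝔫 : Ideal (chart R ({x} : Set F)), 𝔫.IsMaximal →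
              algebraMap R (chart R ({x} : Set F)) w ∈ 𝔫 →
              BasePureValuesAt (compSet e V) (chart R ({x} : Set F)) 𝔫 m
                (u ^ c₂ q e) ζ κ) ∧
            (∀ 𝔫 : Ideal (chart R ({x⁻¹} : Set F)), 𝔫.IsMaximal →
              algebraMap R (chart R ({x⁻¹} : Set F)) w ∈ 𝔫 →
              BasePureValuesAt (compSet e V) (chart R ({x⁻¹} : Set F)) 𝔫 m
                (u ^ c₂ q e) ζ κ)

/-! ## The assembly -/

/-- **ALG-E from its leaves.**  `C = c₁ q e * c₂ q e`. -/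
theorem algE_of_leaves {c₁ c₂ : ℕ → ℕ → ℕ} (hc₁ : ∀ q e, 0 < c₁ q e) (hc₂ : ∀ q e, 0 < c₂ q e)
    (hA : LeafStepAE c₁) (hP : LeafPureE c₂) : Fermat.Agent.S45.Eng.AlgEStatement := by
  intro R E F F' _ _ _ _ _ _ _ _ _ _ _ _ _ _ _ _ _ w hw q hq hqR e he α β x x' V V' ctx
  refine ⟨c₁ q e * c₂ q e, Nat.mul_pos (hc₁ q e) (hc₂ q e), ?_⟩
  intro m hm hqm f hf hdiv hNα hNβ
  obtain ⟨s, G, u, k₁, k₂, hG, hfu, hu, hk₁, hk₂⟩ :=
    hA w hw q hq hqR e he α β x x' V V' ctx m hm hqm f hf hNα hNβ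
  have hu0 : u ≠ 0 := ne_zero_of_sub_one_mem (hu 0 (Nat.zero_le e))
  -- the uniformiser in `E` and `F`
  have hinjRE : Function.Injective (algebraMap R E) := IsFractionRing.injective R E
  have hinjRF : Function.Injective (algebraMap R F) := by
    rw [IsScalarTower.algebraMap_eq R E F]
    exact (algebraMap E F).injective.comp hinjRE
  have hwE : algebraMap R E w ≠ 0 := fun h => hw.ne_zero (hinjRE (by rw [h, map_zero]))
  have hwF0 : algebraMap R F w ≠ 0 := fun h => hw.ne_zero (hinjRF (by rw [h, map_zero]))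
  have hwF : algebraMap R F w = algebraMap E F (algebraMap R E w) :=
    IsScalarTower.algebraMap_apply R E F w
  have hfu' : f ^ c₁ q e = algebraMap E F (algebraMap R E w ^ s) * G ^ m * u := by
    rw [hfu, hwF, map_zpow₀]
  have hdivu : A2.DivisibleDiv E m u :=
    Fermat.Agent.S36.Alg3.divisibleDiv_of_eq (zpow_ne_zero _ hwE) hG hdiv hfu'
  -- roots of unity and the purity data
  obtain ⟨ζ, hζ⟩ := Fermat.Agent.A2.Alg.H348.exists_primitiveRoot (R := R) q m hq hqR hm hqm
  obtain ⟨κ, hfin, hinf⟩ := hP w hw q hq hqR e he α β x x' V V' ctx m hm hqm ζ hζ u hu0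
    hdivu hu k₁ k₂ hk₁ hk₂
  -- the wall
  have hxR : Transcendental R x := Fermat.Agent.S36.H919.h919_transcendental E ctx.hx
  haveI : FiniteDimensional (Fermat.Agent.S18.H138.baseField R x) F :=
    Fermat.Agent.S36.H919.h919_finiteDimensional E ctx.hfin
  obtain ⟨mi, hmi⟩ := exists_natCast_mul_eq_one (R := R) E q hq hqR hqm
  have hunif0 := ctxE_unifAt_zero ctx
  obtain ⟨g, hg⟩ := Fermat.Agent.S36.H193.exists_pow_eq_of_base_set E w hw hxR hm hmi hζ
    (f := u ^ c₂ q e) (pow_ne_zero _ hu0) (compSet e V)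
    (fun W hW => by
      obtain ⟨i, hi, hiW⟩ := ctxE_sheets hw hq.pos ctx W hW
      exact ⟨i, hi, hiW.symm⟩)
    (fun W hW => by
      obtain ⟨i, hi, rfl⟩ := hW
      exact sub_one_pow_mem_nonunits (hu i hi) _)
    (V 0) (ctx.base 0 (Nat.zero_le e)) hunif0.2.1
    (sub_one_pow_mem_nonunits (hu 0 (Nat.zero_le e)) _)
    (Fermat.Agent.S36.H919.h919_unif_of_unifAt (V 0) hwF0 hunif0.2.2)
    (ctxE_hdisc_zero ctx) κ hfin hinf
  have hg0 : g ≠ 0 := by
    rintro rfl
    rw [zero_pow hm.ne'] at hg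
    exact pow_ne_zero _ hu0 hg.symm
  refine ⟨(algebraMap R E w ^ s) ^ c₂ q e, G ^ c₂ q e * g,
    mul_ne_zero (pow_ne_zero _ hG) hg0, ?_⟩
  rw [pow_mul, hfu', mul_pow, mul_pow, ← hg, map_pow, mul_pow, ← pow_mul, ← pow_mul,
    mul_comm m (c₂ q e), mul_assoc]

end Fermat.Agent.S45.H193

end

end
-- ===== PACK-END S45/H193/AlgWire.lean

-- ===== PACK-BEGIN S45/H403/StepLightAlong.lean
section



/-!
# S45 / CAR3 — ALG-E, STEP A light form, in the vocabulary of the engine (helper403)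

`stepA_normAlong403` : `stepA_light403` (`StepLight.lean`) for two degeneracy maps
`α β : F' →ₐ[E] F` of degree `q`, the norms `S29.H395.normAlong`, the uniformiser `w` of `R`, and
the hypotheses `S35.G.NormPow α m f`, `S35.G.NormPow β m f` of the engine
(`Eng.LevelInertiaAt`).  Conclusion in the shape of `S36.Alg3.LeafStepA`, with `C = q ^ 2`,
for an ARBITRARY set `𝒮` of valuation rings, and with `N_β u = 1` exactly.

The hypotheses on the sheets are those of `stepA_light403`: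
* `(G)`  every `V ∈ 𝒮` is `β`-good, or `α`-good with the principal-unit norm property along `β`
         (suppliers: `goodAlong_of_table403`, `goodAlong_of_insep403`, `puNorm_of_split403`);
* `(O₀)` a discrete valuation ring `O₀` of `F'` with uniformiser `w` such that the norm along `α`
         of an element `≡ 1` on all of `𝒮` is a unit of `O₀` (supplier: `unitNorm_of_split403`).
-/

set_option autoImplicit false
set_option linter.style.haveILetI false
set_option linter.unusedSectionVars false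
set_option linter.unusedVariables false

noncomputable section

namespace Fermat.Agent.S45.H403

open Fermat.Agent.S36.H586
open Fermat.Agent.S36.Eng
open AlgebraicCurve

section Along

variable {E F F' : Type*} [Field E] [Field F] [Field F'] [Algebra E F] [Algebra E F']

/-- `N_φ (φ a) = a ^ q` for a map of degree `q`. -/
theorem normAlong_map_of_deg403 (φ : F' →ₐ[E] F) {q : ℕ} (hdeg : finrankAlong E φ = q)
    (a : F') : S29.H395.normAlong φ ((φ : F' →+* F) a) = a ^ q := by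
  have h := normAlong_map φ a
  unfold finrankAlong at hdeg
  rw [hdeg] at h
  exact h

end Along

/-- **STEP A, light form, for the engine.** -/
theorem stepA_normAlong403 {R E F F' : Type*} [CommRing R] [IsDomain R]
    [IsDiscreteValuationRing R] [HenselianLocalRing R] [IsAlgClosed (IsLocalRing.ResidueField R)]
    [Field E] [Algebra R E] [IsFractionRing R E]
    [Field F] [Algebra E F] [Algebra R F] [IsScalarTower R E F]
    [Field F'] [Algebra E F'] [Algebra R F'] [IsScalarTower R E F']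
    (w : R) (hw : Irreducible w) (q m : ℕ) (hq : q.Prime)
    (hqR : (q : R) ∈ IsLocalRing.maximalIdeal R) (hm : 0 < m) (hqm : ¬ q ∣ m)
    (α β : F' →ₐ[E] F) (hfinα : FiniteAlong E α) (hfinβ : FiniteAlong E β)
    (hdegα : finrankAlong E α = q) (hdegβ : finrankAlong E β = q)
    (𝒮 : Set (ValuationSubring F))
    (hgood : ∀ V ∈ 𝒮, GoodAlong403 (β : F' →+* F) (S29.H395.normAlong β) q V ∨
      (GoodAlong403 (α : F' →+* F) (S29.H395.normAlong α) q V ∧ ∀ y : F, y ≠ 0 →
        (∀ V' ∈ 𝒮, GoodAlong403 (α : F' →+* F) (S29.H395.normAlong α) q V' → PU V' y) →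
          PU V ((β : F' →+* F) (S29.H395.normAlong β y))))
    (O₀ : ValuationSubring F') [IsDiscreteValuationRing O₀]
    (hunif₀ : UnifAt O₀ (algebraMap R F' w))
    (hunit₀ : ∀ y : F, y ≠ 0 → (∀ V ∈ 𝒮, PU V y) →
      O₀.valuation (S29.H395.normAlong α y) = 1)
    (f : F) (hf : f ≠ 0) (hNα : S35.G.NormPow α m f) (hNβ : S35.G.NormPow β m f) :
    ∃ (s : ℤ) (G u : F) (k₁ : F'), G ≠ 0 ∧
      f ^ (q ^ 2) = algebraMap R F w ^ s * G ^ m * u ∧
      (∀ V ∈ 𝒮, u - 1 ∈ V.nonunits) ∧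
      S29.H395.normAlong α u = k₁ ^ m ∧ S29.H395.normAlong β u = 1 := by
  have hαw : (α : F' →+* F) (algebraMap R F' w) = algebraMap R F w := by
    show α (algebraMap R F' w) = algebraMap R F w
    rw [IsScalarTower.algebraMap_apply R E F', α.commutes,
      ← IsScalarTower.algebraMap_apply R E F]
  have hβw : (β : F' →+* F) (algebraMap R F' w) = algebraMap R F w := by
    show β (algebraMap R F' w) = algebraMap R F w
    rw [IsScalarTower.algebraMap_apply R E F', β.commutes,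
      ← IsScalarTower.algebraMap_apply R E F]
  have hNα' := exists_zpow_of_normPow (E := E) w hw q m hq hqR hm hqm
    (S29.H395.normAlong_ne_zero α hfinα hf) hNα
  have hNβ' := exists_zpow_of_normPow (E := E) w hw q m hq hqR hm hqm
    (S29.H395.normAlong_ne_zero β hfinβ hf) hNβ
  obtain ⟨s, G, u, k₁, hG, hfu, hpu, hk₁, hk₂⟩ :=
    stepA_light403 (α : F' →+* F) (β : F' →+* F) (S29.H395.normAlong α)
      (S29.H395.normAlong β) q m
      (S29.H395.normAlong_one α) (S29.H395.normAlong_mul α) (normAlong_map_of_deg403 α hdegα)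
      (S29.H395.normAlong_one β) (S29.H395.normAlong_mul β) (normAlong_map_of_deg403 β hdegβ)
      (algebraMap R F' w) (algebraMap R F w) hαw hβw 𝒮 hgood O₀ hunif₀.1
      (UnifAt.val_lt_one hunif₀) (exists_isOrd_of_unifAt O₀ hunif₀) hunit₀ f hf hNα' hNβ'
  exact ⟨s, G, u, k₁, hG, hfu, fun V hV => pu_iff.1 (hpu V hV), hk₁, hk₂⟩

end Fermat.Agent.S45.H403

end

end
-- ===== PACK-END S45/H403/StepLightAlong.lean

-- ===== PACK-BEGIN S45/H403/StepACtxE.lean
section




/-!
# S45 / CAR3 — ALG-E, leaf STEP-A from the context `S45.Eng.CtxE` (helper403)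

`stepA_of_ctxE403` : in an `(e + 1)`-component context `CtxE w q e α β x x' V V'` with `3 ≤ e`,
if the norms of `f ≠ 0` along `α` and `β` are constants times `m`-th powers (`q ∤ m`), then

    f ^ (q ^ 2) = w ^ s * G ^ m * u,    u ≡ 1 on V 0, …, V e,   N_α u = k₁ ^ m,   N_β u = 1.

Proof: `stepA_normAlong403` (light STEP A) with
* `V i` is `β`-good for `i + 2 ≤ e` and `α`-good for `2 ≤ i` (`goodAlong_of_nr403`, from the fields
  `nr_β` / `nr_α`, `ram`, `ram'`, `comap_β` / `comap_α` and the multiplicities `mult`);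
* the principal-unit norm property along `β` at `V (e - 1)`, `V e` (`nr_β₀`), the unit norm
  property along `α` at `V' 0` (`nr_α₀`);
* the degrees `[F : α F'] = [F : β F'] = q` (from `nv_α₀`, `nv_β₀`).
The fields `nv_α`, `nv_β`, `res_α`, `res_β` of `CtxE` are NOT used.
Written against `S45/Eng/Spec.lean` v0 (origin/helper48 @b0337aca3, sha256 4b43abdc…).
-/

set_option autoImplicit false
set_option linter.style.haveILetI false
set_option linter.unusedSectionVars false
set_option linter.unusedVariables false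
set_option synthInstance.maxHeartbeats 400000
set_option maxHeartbeats 1600000

noncomputable section

namespace Fermat.Agent.S45.H403

open Fermat.Agent.S36.H586
open Fermat.Agent.S36.Eng (UnitAt UnifAt)
open Fermat.Agent.S45.Eng (mult CtxE)
open AlgebraicCurve

/-! ## The multiplicities -/

section Mult

theorem mult_pos403 {q : ℕ} (hq : q.Prime) (e i : ℕ) : 0 < mult q e i := by
  unfold mult
  exact Nat.totient_pos.2 (pow_pos hq.pos _)

theorem mult_zero403 (q e : ℕ) : mult q e 0 = 1 := by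
  unfold mult
  simp

theorem mult_top403 (q e : ℕ) : mult q e e = 1 := by
  unfold mult
  simp

theorem mult_one403 {q e : ℕ} (hq : q.Prime) (he : 2 ≤ e) : mult q e 1 = q - 1 := by
  unfold mult
  have h : min 1 (e - 1) = 1 := by omega
  rw [h, pow_one, Nat.totient_prime hq]

theorem mult_pred403 {q e : ℕ} (hq : q.Prime) (he : 2 ≤ e) : mult q e (e - 1) = q - 1 := by
  unfold mult
  have h : min (e - 1) (e - (e - 1)) = 1 := by omega
  rw [h, pow_one, Nat.totient_prime hq]

/-- Along `α`: `μ(V i) = n · μ(V' (i - 1))`, `n = q` (wild) if `2 i ≤ e`, `n = 1` otherwise. -/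
theorem mult_alpha403 {q : ℕ} (hq : q.Prime) {e i : ℕ} (hi2 : 2 ≤ i) (hie : i ≤ e) :
    mult q e i = (if 2 * i ≤ e then q else 1) * mult q (e - 1) (i - 1) := by
  unfold mult
  split_ifs with h
  · have h1 : min i (e - i) = (i - 2) + 1 + 1 := by omega
    have h2 : min (i - 1) (e - 1 - (i - 1)) = (i - 2) + 1 := by omega
    rw [h1, h2, Nat.totient_prime_pow_succ hq, Nat.totient_prime_pow_succ hq, pow_succ]
    ring
  · have h1 : min i (e - i) = e - i := by omega
    have h2 : min (i - 1) (e - 1 - (i - 1)) = e - i := by omega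
    rw [h1, h2, one_mul]

/-- Along `β`: `μ(V i) = n · μ(V' i)`, `n = q` (wild) if `e ≤ 2 i`, `n = 1` otherwise. -/
theorem mult_beta403 {q : ℕ} (hq : q.Prime) {e i : ℕ} (hie : i + 2 ≤ e) :
    mult q e i = (if e ≤ 2 * i then q else 1) * mult q (e - 1) i := by
  unfold mult
  split_ifs with h
  · have h1 : min i (e - i) = (e - i - 2) + 1 + 1 := by omega
    have h2 : min i (e - 1 - i) = (e - i - 2) + 1 := by omega
    rw [h1, h2, Nat.totient_prime_pow_succ hq, Nat.totient_prime_pow_succ hq, pow_succ]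
    ring
  · have h1 : min i (e - i) = i := by omega
    have h2 : min i (e - 1 - i) = i := by omega
    rw [h1, h2, one_mul]

end Mult

/-! ## Valuation lemmas -/

section Val

variable {F' F : Type*} [Field F'] [Field F] {φ : F' →+* F} {V : ValuationSubring F}
  {O : ValuationSubring F'}

theorem val_eq_pow_of_unitAt403 {w t : F} {μ : ℕ} (ht0 : t ≠ 0)
    (h : UnitAt V (w * (t ^ μ)⁻¹)) : V.valuation w = V.valuation t ^ μ := by
  have h1 := unitAt_iff.1 h
  rw [map_mul, map_inv₀, map_pow] at h1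
  have h0 : V.valuation t ^ μ ≠ 0 := pow_ne_zero _ (val_ne_zero_of_ne_zero ht0)
  calc V.valuation w = V.valuation w * (V.valuation t ^ μ)⁻¹ * V.valuation t ^ μ := by
        rw [inv_mul_cancel_right₀ h0]
    _ = V.valuation t ^ μ := by rw [h1, one_mul]

theorem val_lt_one_of_ram403 {w t : F} {μ : ℕ} (hμ : 0 < μ) (ht : UnifAt V t)
    (h : UnitAt V (w * (t ^ μ)⁻¹)) : V.valuation w < 1 := by
  rw [val_eq_pow_of_unitAt403 ht.1 h]
  exact pow_lt_one₀ zero_le (UnifAt.val_lt_one ht) hμ.ne'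

theorem unifAt_of_ram_one403 {w t : F} (ht : UnifAt V t) (h : UnitAt V (w * (t ^ 1)⁻¹)) :
    UnifAt V w := by
  have hv : V.valuation w = V.valuation t := by
    rw [val_eq_pow_of_unitAt403 ht.1 h, pow_one]
  have hw0 : w ≠ 0 := by
    intro h0
    rw [h0, map_zero] at hv
    exact val_ne_zero_of_ne_zero ht.1 hv.symm
  refine ⟨hw0, ?_, ?_⟩
  · rw [ValuationSubring.mem_nonunits_iff, hv]
    exact UnifAt.val_lt_one ht
  · intro f hf
    have h1 := ht.2.2 f hf
    rw [← ValuationSubring.valuation_le_one_iff] at h1 ⊢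
    rw [map_mul, map_inv₀] at h1 ⊢
    rwa [hv]

/-- The relation between the uniformisers above and below from the multiplicities. -/
theorem isOrd_of_ram403 (hover : ∀ a : F', φ a ∈ V ↔ a ∈ O) {w' : F'} {t : F} {t' : F'}
    (ht : UnifAt V t) (hord : ∀ y : F, y ≠ 0 → ∃ a : ℤ, IsOrd V t y a) (ht' : t' ≠ 0)
    {μ μ' n : ℕ} (hμ' : 0 < μ') (hμ : μ = n * μ')
    (hram : UnitAt V (φ w' * (t ^ μ)⁻¹)) (hram' : UnitAt O (w' * (t' ^ μ')⁻¹)) :
    IsOrd V t (φ t') n := by
  have hφt' : φ t' ≠ 0 := (map_ne_zero φ).2 ht'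
  obtain ⟨a, ha⟩ := hord (φ t') hφt'
  have h1 : V.valuation (φ w') = V.valuation t ^ μ := val_eq_pow_of_unitAt403 ht.1 hram
  have h2 : V.valuation (φ w') = V.valuation (φ t') ^ μ' := by
    have h3 : V.valuation (φ (w' * (t' ^ μ')⁻¹)) = 1 :=
      (over_val_eq_one hover _).2 (unitAt_iff.1 hram')
    rw [map_mul, map_inv₀, map_pow, map_mul, map_inv₀, map_pow] at h3
    have h0 : V.valuation (φ t') ^ μ' ≠ 0 := pow_ne_zero _ (val_ne_zero_of_ne_zero hφt')
    calc V.valuation (φ w')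
        = V.valuation (φ w') * (V.valuation (φ t') ^ μ')⁻¹ * V.valuation (φ t') ^ μ' := by
          rw [inv_mul_cancel_right₀ h0]
      _ = V.valuation (φ t') ^ μ' := by rw [h3, one_mul]
  unfold IsOrd at ha
  have h4 : V.valuation t ^ ((μ : ℕ) : ℤ) = V.valuation t ^ (a * (μ' : ℤ)) := by
    rw [zpow_natCast, ← h1, h2, ha, zpow_mul, zpow_natCast]
  have hv0 : 0 < V.valuation t := zero_lt_iff.2 (val_ne_zero_of_ne_zero ht.1)
  have h5 : ((μ : ℕ) : ℤ) = a * (μ' : ℤ) :=
    zpow_right_injective₀ hv0 (UnifAt.val_lt_one ht).ne h4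
  have h6 : a = (n : ℤ) := by
    have h7 : (n : ℤ) * (μ' : ℤ) = a * (μ' : ℤ) := by
      rw [← h5, hμ]
      push_cast
      ring
    have hμ'0 : (μ' : ℤ) ≠ 0 := by exact_mod_cast hμ'.ne'
    exact (mul_right_cancel₀ hμ'0 h7).symm
  unfold IsOrd
  rw [ha, h6]

end Val

/-! ## STEP A from the context -/

section Ctx

variable {R E F F' : Type*} [CommRing R] [IsDomain R] [IsDiscreteValuationRing R]
  [HenselianLocalRing R] [IsAlgClosed (IsLocalRing.ResidueField R)]
  [Field E] [Algebra R E] [IsFractionRing R E]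
  [Field F] [Algebra E F] [Algebra R F] [IsScalarTower R E F]
  [Field F'] [Algebra E F'] [Algebra R F'] [IsScalarTower R E F']
  {w : R} {q e : ℕ} {α β : F' →ₐ[E] F} {x : F} {x' : F'}
  {V : ℕ → ValuationSubring F} {V' : ℕ → ValuationSubring F'}

theorem ctxE_alpha_w403 (α : F' →ₐ[E] F) (w : R) :
    (α : F' →+* F) (algebraMap R F' w) = algebraMap R F w := by
  show α (algebraMap R F' w) = algebraMap R F w
  rw [IsScalarTower.algebraMap_apply R E F', α.commutes, ← IsScalarTower.algebraMap_apply R E F]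

/-- `w ∈ 𝔪_{V i}`. -/
theorem ctxE_w_lt403 (hq : q.Prime) (T : CtxE w q e α β x x' V V') {i : ℕ} (hi : i ≤ e) :
    (V i).valuation (algebraMap R F w) < 1 := by
  obtain ⟨t, ht, hr⟩ := T.ram i hi
  exact val_lt_one_of_ram403 (mult_pos403 hq e i) ht hr

/-- `w ∈ 𝔪_{V' j}`. -/
theorem ctxE_w_lt'403 (hq : q.Prime) (T : CtxE w q e α β x x' V V') {j : ℕ} (hj : j ≤ e - 1) :
    (V' j).valuation (algebraMap R F' w) < 1 := by
  obtain ⟨t, ht, hr⟩ := T.ram' j hj
  exact val_lt_one_of_ram403 (mult_pos403 hq (e - 1) j) ht hr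

/-- `q ∈ 𝔪_{V i}`. -/
theorem ctxE_q_lt403 (hw : Irreducible w) (hq : q.Prime)
    (hqR : (q : R) ∈ IsLocalRing.maximalIdeal R) (T : CtxE w q e α β x x' V V') {i : ℕ}
    (hi : i ≤ e) : (V i).valuation (q : F) < 1 := by
  have hdvd : w ∣ (q : R) := by
    rw [(IsDiscreteValuationRing.irreducible_iff_uniformizer w).1 hw] at hqR
    exact Ideal.mem_span_singleton.1 hqR
  obtain ⟨r, hr⟩ := hdvd
  have h1 : (q : F) = algebraMap R F w * algebraMap R F r := by
    rw [← map_mul, ← hr, map_natCast]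
  rw [h1, map_mul]
  have h2 : (V i).valuation (algebraMap R F r) ≤ 1 :=
    ((V i).valuation_le_one_iff _).2 (T.base i hi r)
  calc (V i).valuation (algebraMap R F w) * (V i).valuation (algebraMap R F r)
      ≤ (V i).valuation (algebraMap R F w) * 1 := by gcongr
    _ = (V i).valuation (algebraMap R F w) := mul_one _
    _ < 1 := ctxE_w_lt403 hq T hi

/-- `w` is a uniformiser of `V' 0`. -/
theorem ctxE_unif'_zero403 (T : CtxE w q e α β x x' V V') :
    UnifAt (V' 0) (algebraMap R F' w) := by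
  obtain ⟨t, ht, hr⟩ := T.ram' 0 (Nat.zero_le _)
  rw [mult_zero403] at hr
  exact unifAt_of_ram_one403 ht hr

/-- `w` is a uniformiser of `V' (e - 1)`. -/
theorem ctxE_unif'_top403 (T : CtxE w q e α β x x' V V') :
    UnifAt (V' (e - 1)) (algebraMap R F' w) := by
  obtain ⟨t, ht, hr⟩ := T.ram' (e - 1) le_rfl
  rw [mult_top403] at hr
  exact unifAt_of_ram_one403 ht hr

/-- `w` is a uniformiser of `V 0`. -/
theorem ctxE_unif_zero403 (T : CtxE w q e α β x x' V V') :
    UnifAt (V 0) (algebraMap R F w) := by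
  obtain ⟨t, ht, hr⟩ := T.ram 0 (Nat.zero_le _)
  rw [mult_zero403] at hr
  exact unifAt_of_ram_one403 ht hr

/-- `w` is a uniformiser of `V e`. -/
theorem ctxE_unif_top403 (T : CtxE w q e α β x x' V V') :
    UnifAt (V e) (algebraMap R F w) := by
  obtain ⟨t, ht, hr⟩ := T.ram e le_rfl
  rw [mult_top403] at hr
  exact unifAt_of_ram_one403 ht hr

/-- The degree of `α` is `q`. -/
theorem ctxE_deg_alpha403 (hq : q.Prime) (T : CtxE w q e α β x x' V V') :
    finrankAlong E α = q := by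
  have he := T.he
  obtain ⟨t₁, ht₁, hr₁⟩ := T.ram 1 (by omega)
  rw [mult_one403 hq he] at hr₁
  have hu0 := ctxE_unif_zero403 T
  have hu'0 := ctxE_unif'_zero403 T
  have hw0 : algebraMap R F w ≠ 0 := hu0.1
  have hw'0 : algebraMap R F' w ≠ 0 := hu'0.1
  have h0 : UnitAt (V 0) (algebraMap R F w * (algebraMap R F w ^ (1 : ℤ))⁻¹) := by
    rw [zpow_one, mul_inv_cancel₀ hw0]
    exact unitAt_iff.2 (map_one _)
  have h1 : UnitAt (V 1) (algebraMap R F w * (t₁ ^ (((q - 1 : ℕ) : ℤ)))⁻¹) := by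
    rw [zpow_natCast]
    exact hr₁
  have h2 := T.nv_α₀ t₁ ht₁ (algebraMap R F w) 1 ((q - 1 : ℕ) : ℤ) hw0 h0 h1
  have h3 : IsOrd (V' 0) (algebraMap R F' w) (S29.H395.normAlong α (algebraMap R F w))
      (1 + ((q - 1 : ℕ) : ℤ)) := (isOrd_iff_unitAt hw'0 _ _).2 h2
  have h4 : IsOrd (V' 0) (algebraMap R F' w) (S29.H395.normAlong α (algebraMap R F w))
      (((letI := algebraAlong α; Module.finrank F' F : ℕ) : ℤ) * 1) := by
    rw [← ctxE_alpha_w403 α w]
    show IsOrd (V' 0) (algebraMap R F' w) (S29.H395.normAlong α (α (algebraMap R F' w))) _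
    rw [normAlong_map]
    exact IsOrd.self.pow _
  have h5 := IsOrd.unique hw'0 (UnifAt.val_lt_one hu'0) h3 h4
  have h6 : ((q - 1 : ℕ) : ℤ) = (q : ℤ) - 1 := by
    rw [Nat.cast_sub hq.pos]
    simp
  rw [h6] at h5
  unfold finrankAlong
  have h7 : ((letI := algebraAlong α; Module.finrank F' F : ℕ) : ℤ) = (q : ℤ) := by linarith
  exact_mod_cast h7

/-- The degree of `β` is `q`. -/
theorem ctxE_deg_beta403 (hq : q.Prime) (T : CtxE w q e α β x x' V V') :
    finrankAlong E β = q := by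
  have he := T.he
  obtain ⟨t₁, ht₁, hr₁⟩ := T.ram (e - 1) (by omega)
  rw [mult_pred403 hq he] at hr₁
  have hu0 := ctxE_unif_top403 T
  have hu'0 := ctxE_unif'_top403 T
  have hw0 : algebraMap R F w ≠ 0 := hu0.1
  have hw'0 : algebraMap R F' w ≠ 0 := hu'0.1
  have h0 : UnitAt (V e) (algebraMap R F w * (algebraMap R F w ^ (1 : ℤ))⁻¹) := by
    rw [zpow_one, mul_inv_cancel₀ hw0]
    exact unitAt_iff.2 (map_one _)
  have h1 : UnitAt (V (e - 1)) (algebraMap R F w * (t₁ ^ (((q - 1 : ℕ) : ℤ)))⁻¹) := by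
    rw [zpow_natCast]
    exact hr₁
  have h2 := T.nv_β₀ t₁ ht₁ (algebraMap R F w) 1 ((q - 1 : ℕ) : ℤ) hw0 h0 h1
  have h3 : IsOrd (V' (e - 1)) (algebraMap R F' w) (S29.H395.normAlong β (algebraMap R F w))
      (1 + ((q - 1 : ℕ) : ℤ)) := (isOrd_iff_unitAt hw'0 _ _).2 h2
  have h4 : IsOrd (V' (e - 1)) (algebraMap R F' w)
      (S29.H395.normAlong β (algebraMap R F w))
      (((letI := algebraAlong β; Module.finrank F' F : ℕ) : ℤ) * 1) := by
    rw [← ctxE_alpha_w403 β w]
    show IsOrd (V' (e - 1)) (algebraMap R F' w)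
      (S29.H395.normAlong β (β (algebraMap R F' w))) _
    rw [normAlong_map]
    exact IsOrd.self.pow _
  have h5 := IsOrd.unique hw'0 (UnifAt.val_lt_one hu'0) h3 h4
  have h6 : ((q - 1 : ℕ) : ℤ) = (q : ℤ) - 1 := by
    rw [Nat.cast_sub hq.pos]
    simp
  rw [h6] at h5
  unfold finrankAlong
  have h7 : ((letI := algebraAlong β; Module.finrank F' F : ℕ) : ℤ) = (q : ℤ) := by linarith
  exact_mod_cast h7

/-- **`V i` is `α`-good for `2 ≤ i ≤ e`.** -/
theorem ctxE_good_alpha403 (hw : Irreducible w) (hq : q.Prime)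
    (hqR : (q : R) ∈ IsLocalRing.maximalIdeal R) (T : CtxE w q e α β x x' V V') {i : ℕ}
    (hi2 : 2 ≤ i) (hie : i ≤ e) :
    GoodAlong403 (α : F' →+* F) (S29.H395.normAlong α) q (V i) := by
  haveI := T.dvr i hie
  obtain ⟨t, ht, hr⟩ := T.ram i hie
  obtain ⟨t', ht', hr'⟩ := T.ram' (i - 1) (by omega)
  have hover : ∀ a : F', (α : F' →+* F) a ∈ V i ↔ a ∈ V' (i - 1) :=
    over_of_comap (T.comap_α i hie)
  have hord : ∀ y : F, y ≠ 0 → ∃ a : ℤ, IsOrd (V i) t y a := exists_isOrd_of_unifAt (V i) ht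
  have hn : (if 2 * i ≤ e then q else 1) = 1 ∨ (if 2 * i ≤ e then q else 1) = q := by
    split_ifs
    · exact Or.inr rfl
    · exact Or.inl rfl
  have hr2 : UnitAt (V i) ((α : F' →+* F) (algebraMap R F' w) * (t ^ mult q e i)⁻¹) := by
    rw [ctxE_alpha_w403 α w]
    exact hr
  have hrel : IsOrd (V i) t ((α : F' →+* F) t') ((if 2 * i ≤ e then q else 1 : ℕ) : ℤ) :=
    isOrd_of_ram403 hover ht hord ht'.1 (mult_pos403 hq (e - 1) (i - 1))
      (mult_alpha403 hq hi2 hie) hr2 hr'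
  refine goodAlong_of_nr403 (S29.H395.normAlong_one α) (S29.H395.normAlong_mul α)
    (normAlong_map_of_deg403 α (ctxE_deg_alpha403 hq T)) hq (ctxE_q_lt403 hw hq hqR T hie)
    ?_ ht.1 hord ht'.1 hn hrel
  intro y hy
  exact (ValuationSubring.mem_nonunits_iff (V i)).1 (T.nr_α i hi2 hie y (unitAt_iff.2 hy))

/-- **`V i` is `β`-good for `i + 2 ≤ e`.** -/
theorem ctxE_good_beta403 (hw : Irreducible w) (hq : q.Prime)
    (hqR : (q : R) ∈ IsLocalRing.maximalIdeal R) (T : CtxE w q e α β x x' V V') {i : ℕ}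
    (hie : i + 2 ≤ e) :
    GoodAlong403 (β : F' →+* F) (S29.H395.normAlong β) q (V i) := by
  have hie' : i ≤ e := by omega
  haveI := T.dvr i hie'
  obtain ⟨t, ht, hr⟩ := T.ram i hie'
  obtain ⟨t', ht', hr'⟩ := T.ram' i (by omega)
  have hmin : min i (e - 1) = i := by omega
  have hover : ∀ a : F', (β : F' →+* F) a ∈ V i ↔ a ∈ V' i := by
    have h := over_of_comap (T.comap_β i hie')
    rwa [hmin] at h
  have hord : ∀ y : F, y ≠ 0 → ∃ a : ℤ, IsOrd (V i) t y a := exists_isOrd_of_unifAt (V i) ht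
  have hn : (if e ≤ 2 * i then q else 1) = 1 ∨ (if e ≤ 2 * i then q else 1) = q := by
    split_ifs
    · exact Or.inr rfl
    · exact Or.inl rfl
  have hr2 : UnitAt (V i) ((β : F' →+* F) (algebraMap R F' w) * (t ^ mult q e i)⁻¹) := by
    rw [ctxE_alpha_w403 β w]
    exact hr
  have hrel : IsOrd (V i) t ((β : F' →+* F) t') ((if e ≤ 2 * i then q else 1 : ℕ) : ℤ) :=
    isOrd_of_ram403 hover ht hord ht'.1 (mult_pos403 hq (e - 1) i)
      (mult_beta403 hq hie) hr2 hr'
  refine goodAlong_of_nr403 (S29.H395.normAlong_one β) (S29.H395.normAlong_mul β)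
    (normAlong_map_of_deg403 β (ctxE_deg_beta403 hq T)) hq (ctxE_q_lt403 hw hq hqR T hie')
    ?_ ht.1 hord ht'.1 hn hrel
  intro y hy
  exact (ValuationSubring.mem_nonunits_iff (V i)).1 (T.nr_β i hie y (unitAt_iff.2 hy))

/-- The split norm–residue formula along `β` at the end `V' (e - 1)`, in valuation form. -/
theorem ctxE_split_beta403 (T : CtxE w q e α β x x' V V') :
    ∀ (y : F) (a b : F'), (V e).valuation y = 1 → (V (e - 1)).valuation y = 1 →
      (V e).valuation (y - (β : F' →+* F) a) < 1 →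
      (V (e - 1)).valuation (y - (β : F' →+* F) b) < 1 →
      (V' (e - 1)).valuation (S29.H395.normAlong β y - a * b ^ (q - 1)) < 1 := by
  intro y a b hyu hyr ha hb
  refine (ValuationSubring.mem_nonunits_iff (V' (e - 1))).1
    (T.nr_β₀ y (unitAt_iff.2 hyu) (unitAt_iff.2 hyr) a b ?_ ?_)
  · rw [ValuationSubring.mem_nonunits_iff, ← Valuation.map_neg, neg_sub]
    exact ha
  · rw [ValuationSubring.mem_nonunits_iff, ← Valuation.map_neg, neg_sub]
    exact hb

/-- The split norm–residue formula along `α` at the end `V' 0`, in valuation form. -/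
theorem ctxE_split_alpha403 (T : CtxE w q e α β x x' V V') :
    ∀ (y : F) (a b : F'), (V 0).valuation y = 1 → (V 1).valuation y = 1 →
      (V 0).valuation (y - (α : F' →+* F) a) < 1 →
      (V 1).valuation (y - (α : F' →+* F) b) < 1 →
      (V' 0).valuation (S29.H395.normAlong α y - a * b ^ (q - 1)) < 1 := by
  intro y a b hyu hyr ha hb
  refine (ValuationSubring.mem_nonunits_iff (V' 0)).1
    (T.nr_α₀ y (unitAt_iff.2 hyu) (unitAt_iff.2 hyr) a b ?_ ?_)
  · rw [ValuationSubring.mem_nonunits_iff, ← Valuation.map_neg, neg_sub]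
    exact ha
  · rw [ValuationSubring.mem_nonunits_iff, ← Valuation.map_neg, neg_sub]
    exact hb

/-- **Leaf STEP-A of ALG-E from the context.** -/
theorem stepA_of_ctxE403 (hw : Irreducible w) (hq : q.Prime)
    (hqR : (q : R) ∈ IsLocalRing.maximalIdeal R) (he3 : 3 ≤ e)
    (T : CtxE w q e α β x x' V V') (m : ℕ) (hm : 0 < m) (hqm : ¬ q ∣ m)
    (f : F) (hf : f ≠ 0) (hNα : S35.G.NormPow α m f) (hNβ : S35.G.NormPow β m f) :
    ∃ (s : ℤ) (G u : F) (k₁ : F'), G ≠ 0 ∧
      f ^ (q ^ 2) = algebraMap R F w ^ s * G ^ m * u ∧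
      (∀ i ≤ e, u - 1 ∈ (V i).nonunits) ∧
      S29.H395.normAlong α u = k₁ ^ m ∧ S29.H395.normAlong β u = 1 := by
  set 𝒮 : Set (ValuationSubring F) := {W | ∃ i ≤ e, W = V i} with h𝒮
  haveI := T.dvr' 0 (Nat.zero_le _)
  have hmem : ∀ i ≤ e, V i ∈ 𝒮 := fun i hi => ⟨i, hi, rfl⟩
  -- the sheets `V (e - 1)`, `V e` over `V' (e - 1)` along `β`
  have hover_e : ∀ a : F', (β : F' →+* F) a ∈ V e ↔ a ∈ V' (e - 1) := by
    have h := over_of_comap (T.comap_β e le_rfl)
    have hmin : min e (e - 1) = e - 1 := by omega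
    rwa [hmin] at h
  have hover_e1 : ∀ a : F', (β : F' →+* F) a ∈ V (e - 1) ↔ a ∈ V' (e - 1) := by
    have h := over_of_comap (T.comap_β (e - 1) (by omega))
    rwa [min_self] at h
  have hgα_e : GoodAlong403 (α : F' →+* F) (S29.H395.normAlong α) q (V e) :=
    ctxE_good_alpha403 hw hq hqR T (by omega) le_rfl
  have hgα_e1 : GoodAlong403 (α : F' →+* F) (S29.H395.normAlong α) q (V (e - 1)) :=
    ctxE_good_alpha403 hw hq hqR T (by omega) (by omega)
  have hgood : ∀ W ∈ 𝒮, GoodAlong403 (β : F' →+* F) (S29.H395.normAlong β) q W ∨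
      (GoodAlong403 (α : F' →+* F) (S29.H395.normAlong α) q W ∧ ∀ y : F, y ≠ 0 →
        (∀ W' ∈ 𝒮, GoodAlong403 (α : F' →+* F) (S29.H395.normAlong α) q W' → PU W' y) →
          PU W ((β : F' →+* F) (S29.H395.normAlong β y))) := by
    rintro W ⟨i, hi, rfl⟩
    by_cases hi2 : i + 2 ≤ e
    · exact Or.inl (ctxE_good_beta403 hw hq hqR T hi2)
    · right
      have hpu : ∀ y : F, y ≠ 0 →
          (∀ W' ∈ 𝒮, GoodAlong403 (α : F' →+* F) (S29.H395.normAlong α) q W' → PU W' y) →
          PU (V e) ((β : F' →+* F) (S29.H395.normAlong β y)) ∧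
            PU (V (e - 1)) ((β : F' →+* F) (S29.H395.normAlong β y)) := by
        intro y _ hy
        exact puNorm_of_split403 hover_e hover_e1 (ctxE_split_beta403 T)
          (hy _ (hmem e le_rfl) hgα_e) (hy _ (hmem (e - 1) (by omega)) hgα_e1)
      rcases (by omega : i = e ∨ i = e - 1) with rfl | rfl
      · exact ⟨hgα_e, fun y hy0 hy => (hpu y hy0 hy).1⟩
      · exact ⟨hgα_e1, fun y hy0 hy => (hpu y hy0 hy).2⟩
  have hunit₀ : ∀ y : F, y ≠ 0 → (∀ W ∈ 𝒮, PU W y) →
      (V' 0).valuation (S29.H395.normAlong α y) = 1 := by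
    intro y _ hy
    exact unitNorm_of_split403 (ctxE_split_alpha403 T) (hy _ (hmem 0 (Nat.zero_le _)))
      (hy _ (hmem 1 (by omega)))
  obtain ⟨s, G, u, k₁, hG, hfu, hpu, hk₁, hk₂⟩ :=
    stepA_normAlong403 w hw q m hq hqR hm hqm α β T.fin_α T.fin_β (ctxE_deg_alpha403 hq T)
      (ctxE_deg_beta403 hq T) 𝒮 hgood (V' 0) (ctxE_unif'_zero403 T) hunit₀ f hf hNα hNβ
  exact ⟨s, G, u, k₁, hG, hfu, fun i hi => hpu _ (hmem i hi), hk₁, hk₂⟩

end Ctx

end Fermat.Agent.S45.H403

end

end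
-- ===== PACK-END S45/H403/StepACtxE.lean

-- ===== PACK-BEGIN S45/H403/LeafStepAE.lean
section



/-!
# S45 / CAR3 (helper403): leaf ALG-E/StepA CLOSED in helper193's shape

* `leafStepAE403 : S45.H193.LeafStepAE (fun q _ => q ^ 2)` — the STEP-A leaf of
  `S45.H193.algE_of_leaves` (helper193, `S45/H193/AlgWire.lean`), with exponent `c₁ q e = q ^ 2`,
  directly from `stepA_of_ctxE403` (`N_β u = 1 = 1 ^ m`).
* `leafStepAE_max403 : S45.H193.LeafStepAE stepExp403`, `stepExp403 q e = (max q 1) ^ 2`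
  (`= q ^ 2` for a prime `q`, and positive for EVERY `q`, as `algE_of_leaves` asks).
* `algE_of_leafPure403 : LeafPureE c₂ → AlgEStatement` — ALG-E (Spec v0) from the leaf PURE alone.
-/

set_option autoImplicit false

namespace Fermat.Agent.S45.H403

/-- **Leaf STEP-A of ALG-E** (shape of helper193), exponent `q ^ 2`. -/
theorem leafStepAE403 : Fermat.Agent.S45.H193.LeafStepAE (fun q _ => q ^ 2) := by
  intro R E F F' _ _ _ _ _ _ _ _ _ _ _ _ _ _ _ _ _ w hw q hq hqR e he α β x x' V V' ctx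
    m hm hqm f hf hNα hNβ
  obtain ⟨s, G, u, k₁, hG, hfu, hu, hk₁, hk₂⟩ :=
    stepA_of_ctxE403 hw hq hqR he ctx m hm hqm f hf hNα hNβ
  exact ⟨s, G, u, k₁, 1, hG, hfu, hu, hk₁, by rw [hk₂, one_pow]⟩

/-- The exponent of STEP-A: `q ^ 2` for `q ≥ 1` (and `1` for the junk value `q = 0`). -/
def stepExp403 (q _e : ℕ) : ℕ := (max q 1) ^ 2

theorem stepExp_pos403 (q e : ℕ) : 0 < stepExp403 q e :=
  pow_pos (lt_of_lt_of_le Nat.one_pos (le_max_right q 1)) 2

theorem stepExp_prime403 {q : ℕ} (hq : q.Prime) (e : ℕ) : stepExp403 q e = q ^ 2 := by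
  unfold stepExp403
  rw [max_eq_left hq.one_lt.le]

/-- **Leaf STEP-A of ALG-E** (shape of helper193), with an exponent which is positive for all
`q`, `e`. -/
theorem leafStepAE_max403 : Fermat.Agent.S45.H193.LeafStepAE stepExp403 := by
  intro R E F F' _ _ _ _ _ _ _ _ _ _ _ _ _ _ _ _ _ w hw q hq hqR e he α β x x' V V' ctx
    m hm hqm f hf hNα hNβ
  obtain ⟨s, G, u, k₁, hG, hfu, hu, hk₁, hk₂⟩ :=
    stepA_of_ctxE403 hw hq hqR he ctx m hm hqm f hf hNα hNβ
  refine ⟨s, G, u, k₁, 1, hG, ?_, hu, hk₁, by rw [hk₂, one_pow]⟩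
  rw [stepExp_prime403 hq e]
  exact hfu

/-- **ALG-E (Spec v0) from the leaf PURE alone**: STEP-A is `leafStepAE_max403`, SHEETS-E and
the wall are in `S45.H193.algE_of_leaves`. -/
theorem algE_of_leafPure403 {c₂ : ℕ → ℕ → ℕ} (hc₂ : ∀ q e, 0 < c₂ q e)
    (hP : Fermat.Agent.S45.H193.LeafPureE c₂) : Fermat.Agent.S45.Eng.AlgEStatement :=
  Fermat.Agent.S45.H193.algE_of_leaves stepExp_pos403 hc₂ leafStepAE_max403 hP

end Fermat.Agent.S45.H403

end
-- ===== PACK-END S45/H403/LeafStepAE.lean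

-- ===== PACK-BEGIN S45/H630/PureE.lean
section





/-!
# S45 / CAR3, block ALG-E/Pure (helper630), part 3: the label data from `Eng.CtxE`, `e ≥ 3`

`R` a discrete valuation ring with algebraically closed residue field, uniformiser `w`;
`ctx : S45.Eng.CtxE w q e α β x x' V V'` (Spec v1-rc, sha256 9ae48d6a…), `3 ≤ e`.
Let `u ∈ F` be split on all sheets (`u ≡ 1` on `V i`, `i ≤ e`) with `N_α u = k₁ ^ m`,
`N_β u = k₂ ^ m`, `q ∤ m`, and let `ζ ∈ R` be a primitive `m`-th root of unity.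

**Theorem** (`exists_kappa_basePureE630`).  There is ONE colouring `κ` such that at EVERY closed
point `n` of the special fibre of the two charts `chart R {x}`, `chart R {x⁻¹}`:  a purity datum
`u d ^ m s₀ = a₀` (`a₀, s₀ ∉ n`) at `n` gives
`H193.BasePureValuesAt (compSet e V) B n m (u ^ 1) ζ κ`  (`C = 1`).

`leafPureE_of_purity630 : PurityE630 → S45.H193.LeafPureE (fun _ _ => 1)`, where `PurityE630` is
the purity leaf (P1, helper987).

Fields of `CtxE` used: `inj`, `base`, `base'`, `x_unit`, `normal_f`, `normal_i`, `incidence`,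
`cusp_single`, `comap_α` (all `i`), `comap_β` (`i = 0, 1`), `nr_α₀`, `good_α` (`2 ≤ i ≤ e`),
`good_β` (`i = 0, 1`), `chart_α`, `chart_β`, `int_α`, `int_β`, `res_α` (`i = 0, 1`), `unique_α`,
`unique_β`.
NOT used: `he`, `hx`, `hfin`, `hconst`, `dvr`, `ram`, `dvr'`, `ram'`, `gauss`, `qep_*`,
`regular_*`, `fin_*`, `nv_*`, `nr_α`, `nr_β`, `nr_β₀`, `res_β`.
-/

set_option autoImplicit false
set_option linter.unusedSectionVars false
set_option linter.style.haveILetI false
set_option linter.unusedVariables false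
set_option synthInstance.maxHeartbeats 400000
set_option maxHeartbeats 1600000

namespace Fermat.Agent.S45.H630

open Fermat.Agent.S18.H138 (chart mem_chart)
open Fermat.Agent.S36.H193 (BasePureValuesAt)
open Fermat.Agent.S36.H630
open Fermat.Agent.S45.Eng (CtxE IsMulti)
open Fermat.Agent.S45.H193 (compSet)
open AlgebraicCurve

section Generic

variable {R : Type*} [CommRing R] {F : Type*} [Field F] [Algebra R F]

/-- **The `m`-th power of the value of a purity datum** is the value of `a₀ / s₀`. -/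
theorem valAt_pow_of_pure630 {B : Subalgebra R F} {n : Ideal B} [hn : n.IsMaximal]
    {V : ValuationSubring F} (hBV : ChartLe B V) (hth : PassThrough B n V)
    {m : ℕ} {u d : F} (hu : u - 1 ∈ V.nonunits) {a₀ s₀ : B} (hs₀ : s₀ ∉ n)
    (hpure : u * d ^ m * (s₀ : F) = a₀) {ρ : R} (hρ : a₀ - algebraMap R B ρ * s₀ ∈ n)
    {η : R} (hv : ValAt B n V d η) : algebraMap R B (η ^ m - ρ) ∈ n := by
  have hnp : n.IsPrime := hn.isPrime
  have huV : u ∈ V ∧ u ∉ V.nonunits := vnu_unit_of_sub V hu V.one_mem (vnu_one_not V)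
  have hu0 : u ≠ 0 := by
    rintro rfl
    exact huV.2 (vnu_zero V)
  have hdV : d ∈ V := hv.mem hBV hth
  have h1 : ValAt B n V (d ^ m) ρ := by
    refine ⟨a₀, s₀, hs₀, ?_, hρ⟩
    have : (s₀ : F) * d ^ m - (a₀ : F) = -((s₀ : F) * d ^ m * (u - 1)) := by
      rw [← hpure]
      ring
    rw [this]
    exact vnu_neg V (vnu_mul_left V hu (V.mul_mem _ _ (hBV s₀) (V.pow_mem hdV m)))
  exact ValAt.unique hBV hth (hv.pow hBV hth m) h1

/-- An element of `R` whose image lies in a closed point of the special fibre lies in the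
maximal ideal. -/
theorem mem_maximalIdeal_of_algebraMap_mem630 [IsLocalRing R] {B : Subalgebra R F}
    {n : Ideal B} (hn : n ≠ ⊤) {r : R} (h : algebraMap R B r ∈ n) :
    r ∈ IsLocalRing.maximalIdeal R := by
  by_contra hcon
  have hu : IsUnit r := by
    by_contra hnu
    exact hcon ((IsLocalRing.mem_maximalIdeal _).2 hnu)
  exact hn (Ideal.eq_top_of_isUnit_mem _ h (hu.map _))

/-- `q` prime to `m` has an inverse modulo `m`, in the form `q q̄ = 1 + m N`. -/
theorem exists_inv_mod630 {q m : ℕ} (hq : 0 < q) (hm : 0 < m) (hqm : Nat.Coprime q m) :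
    ∃ qb N : ℕ, q * qb = 1 + m * N := by
  rcases Nat.lt_or_ge 1 m with h1 | h1
  · obtain ⟨qb, -, hqb⟩ := Nat.exists_mul_mod_eq_one_of_coprime hqm h1
    refine ⟨qb, q * qb / m, ?_⟩
    have := Nat.div_add_mod (q * qb) m
    omega
  · obtain rfl : m = 1 := by omega
    exact ⟨1, q - 1, by omega⟩

section Good

variable {F' : Type*} [Field F'] [Algebra F' F]

/-- **`GoodAlong` gives the units-only norm–residue formula** of a one-extension side. -/
theorem normResInsepU_of_good630 {V : ValuationSubring F} {q : ℕ}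
    (hgood : ∀ y : F, y ≠ 0 →
      y ^ q * (algebraMap F' F (Algebra.norm F' y))⁻¹ - 1 ∈ V.nonunits) :
    NormResInsepU (F' := F') V q := by
  rintro y ⟨hy0, hyV, -⟩
  have hg := hgood y hy0
  set Ny : F := algebraMap F' F (Algebra.norm F' y) with hNy
  set g : F := y ^ q * Ny⁻¹ with hgdef
  have hgu : g ∈ V ∧ g ∉ V.nonunits := vnu_unit_of_sub V hg V.one_mem (vnu_one_not V)
  have hg0 : g ≠ 0 := by
    intro h0
    exact hgu.2 (h0 ▸ vnu_zero V)
  have hN0 : Ny ≠ 0 := by
    intro h0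
    apply hg0
    rw [hgdef, h0, inv_zero, mul_zero]
  have hNV : Ny ∈ V := by
    have : Ny = y ^ q * g⁻¹ := by
      rw [hgdef]
      field_simp
    rw [this]
    exact V.mul_mem _ _ (V.pow_mem hyV q) (vnu_inv_mem V hgu.1 hgu.2)
  have : Ny - y ^ q = -(Ny * (g - 1)) := by
    rw [hgdef]
    field_simp
    ring
  rw [this]
  exact vnu_neg V (vnu_mul_left V hg hNV)

end Good

end Generic

section Ctx

variable {R E F F' : Type*} [CommRing R] [IsDomain R] [IsDiscreteValuationRing R]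
  [IsAlgClosed (IsLocalRing.ResidueField R)]
  [Field E] [Algebra R E] [Field F] [Algebra E F] [Algebra R F] [IsScalarTower R E F]
  [Field F'] [Algebra E F'] [Algebra R F'] [IsScalarTower R E F']
  {w : R} {q e : ℕ} {α β : F' →ₐ[E] F} {x : F} {x' : F'}
  {V : ℕ → ValuationSubring F} {V' : ℕ → ValuationSubring F'}

omit [IsDomain R] [IsDiscreteValuationRing R] [IsAlgClosed (IsLocalRing.ResidueField R)]
  [IsScalarTower R E F] [IsScalarTower R E F'] in
theorem chartLe_fin630 (ctx : CtxE w q e α β x x' V V') {i : ℕ} (hi : i ≤ e) :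
    ChartLe (chart R ({x} : Set F)) (V i) :=
  chartLe_chart (ctx.base i hi)
    (fun s hs => by rw [Set.mem_singleton_iff.1 hs]; exact (ctx.x_unit i hi).2.1)

omit [IsDomain R] [IsDiscreteValuationRing R] [IsAlgClosed (IsLocalRing.ResidueField R)]
  [IsScalarTower R E F] [IsScalarTower R E F'] in
theorem chartLe_inf630 (ctx : CtxE w q e α β x x' V V') {i : ℕ} (hi : i ≤ e) :
    ChartLe (chart R ({x⁻¹} : Set F)) (V i) :=
  chartLe_chart (ctx.base i hi)
    (fun s hs => by rw [Set.mem_singleton_iff.1 hs]; exact (ctx.x_unit i hi).2.2)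

omit [IsDiscreteValuationRing R] [IsAlgClosed (IsLocalRing.ResidueField R)] in
/-- **The labels of `k₁` on the sheets below** (`k₁ ^ m = N_α u`). -/
theorem exists_labels_α630 (ctx : CtxE w q e α β x x' V V') (he : 2 ≤ e)
    (hinj : Function.Injective (algebraMap R F'))
    {m : ℕ} (hm : 0 < m) {ζ : R} (hζ : IsPrimitiveRoot ζ m)
    {u : F} (hu : ∀ i ≤ e, u - 1 ∈ (V i).nonunits)
    {k₁ : F'} (hk₁ : S29.H395.normAlong α u = k₁ ^ m) :
    ∃ a : ℕ → ℕ, ∀ j ≤ e - 1, k₁ - algebraMap R F' (ζ ^ a j) ∈ (V' j).nonunits := by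
  letI := algebraAlong α
  haveI : IsScalarTower R F' F := isScalarTower_alongR α
  have hk : Algebra.norm F' u = k₁ ^ m := hk₁
  have key : ∀ j : ℕ, ∃ a : ℕ, j ≤ e - 1 →
      k₁ - algebraMap R F' (ζ ^ a) ∈ (V' j).nonunits := by
    intro j
    by_cases hj : j ≤ e - 1
    · have hN : k₁ ^ m - 1 ∈ (V' j).nonunits := by
        rcases Nat.eq_zero_or_pos j with h0 | h0
        · subst h0
          have h1a : algebraMap F' F 1 - u ∈ (V 0).nonunits := by
            rw [map_one]
            have := vnu_neg (V 0) (hu 0 (Nat.zero_le e))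
            rwa [neg_sub] at this
          have h1b : algebraMap F' F 1 - u ∈ (V 1).nonunits := by
            rw [map_one]
            have := vnu_neg (V 1) (hu 1 (by omega))
            rwa [neg_sub] at this
          have := ctx.nr_α₀ u (unit_of_split (hu 0 (Nat.zero_le e)))
            (unit_of_split (hu 1 (by omega))) 1 1 h1a h1b
          rw [one_pow, mul_one] at this
          rw [← hk]
          exact this
        · have hi : j + 1 ≤ e := by omega
          have hcomap : (V (j + 1)).comap (algebraMap F' F) = V' j := by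
            have := ctx.comap_α (j + 1) hi
            rwa [Nat.add_sub_cancel] at this
          have huc := hu (j + 1) hi
          have h2 := normResInsepU_of_good630 (F' := F') (ctx.good_α (j + 1) (by omega) hi) u
            (unit_of_split huc)
          have huV := (unit_of_split huc).2.1
          have h3 : u ^ q - 1 ∈ (V (j + 1)).nonunits := by
            have := pow_sub_pow_mem_nonunits (V (j + 1)) huV (V (j + 1)).one_mem huc q
            rwa [one_pow] at this
          rw [← hk, ← hcomap, mem_nonunits_comap_iff, map_sub, map_one]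
          have : algebraMap F' F (Algebra.norm F' u) - 1
              = (algebraMap F' F (Algebra.norm F' u) - u ^ q) + (u ^ q - 1) := by ring
          rw [this]
          exact vnu_add (V (j + 1)) h2 h3
      obtain ⟨a, ha⟩ := _root_.Fermat.Agent.S36.H630.exists_label (ctx.base' j hj) hinj hm hζ hN
      exact ⟨a, fun _ => ha⟩
    · exact ⟨0, fun h => absurd h hj⟩
  choose a ha using key
  exact ⟨a, fun j hj => ha j hj⟩

omit [IsDiscreteValuationRing R] [IsAlgClosed (IsLocalRing.ResidueField R)] in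
/-- **The labels of `k₂` on the sheets `V' j`, `j ≤ e - 2`, below** (`k₂ ^ m = N_β u`). -/
theorem exists_labels_β630 (ctx : CtxE w q e α β x x' V V') (he : 2 ≤ e)
    (hinj : Function.Injective (algebraMap R F'))
    {m : ℕ} (hm : 0 < m) {ζ : R} (hζ : IsPrimitiveRoot ζ m)
    {u : F} (hu : ∀ i ≤ e, u - 1 ∈ (V i).nonunits)
    {k₂ : F'} (hk₂ : S29.H395.normAlong β u = k₂ ^ m) :
    ∃ b : ℕ → ℕ, ∀ j, j + 2 ≤ e → k₂ - algebraMap R F' (ζ ^ b j) ∈ (V' j).nonunits := by
  letI := algebraAlong β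
  haveI : IsScalarTower R F' F := isScalarTower_alongR β
  have hk : Algebra.norm F' u = k₂ ^ m := hk₂
  have key : ∀ j : ℕ, ∃ b : ℕ, j + 2 ≤ e →
      k₂ - algebraMap R F' (ζ ^ b) ∈ (V' j).nonunits := by
    intro j
    by_cases hj : j + 2 ≤ e
    · have hi : j ≤ e := by omega
      have hcomap : (V j).comap (algebraMap F' F) = V' j := by
        have := ctx.comap_β j hi
        rwa [Nat.min_eq_left (by omega)] at this
      have huc := hu j hi
      have h2 := normResInsepU_of_good630 (F' := F') (ctx.good_β j hj) u (unit_of_split huc)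
      have huV := (unit_of_split huc).2.1
      have h3 : u ^ q - 1 ∈ (V j).nonunits := by
        have := pow_sub_pow_mem_nonunits (V j) huV (V j).one_mem huc q
        rwa [one_pow] at this
      have hN : k₂ ^ m - 1 ∈ (V' j).nonunits := by
        rw [← hk, ← hcomap, mem_nonunits_comap_iff, map_sub, map_one]
        have : algebraMap F' F (Algebra.norm F' u) - 1
            = (algebraMap F' F (Algebra.norm F' u) - u ^ q) + (u ^ q - 1) := by ring
        rw [this]
        exact vnu_add (V j) h2 h3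
      obtain ⟨b, hb⟩ := _root_.Fermat.Agent.S36.H630.exists_label (ctx.base' j (by omega)) hinj hm hζ hN
      exact ⟨b, fun _ => hb⟩
    · exact ⟨0, fun h => absurd h hj⟩
  choose b hb using key
  exact ⟨b, fun j hj => hb j hj⟩

/-- **The label datum at a multiple point of the finite chart**, `e ≥ 3`, `C = 1`. -/
theorem labelAt_multi_ctxE630 (ctx : CtxE w q e α β x x' V V') (he : 3 ≤ e)
    (hq : 0 < q) {m : ℕ} (hm : 0 < m) {ζ : R} (hζ : ζ ^ m = 1) {qb N : ℕ}
    (hqq : q * qb = 1 + m * N)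
    (n : Ideal (chart R ({x} : Set F))) [hn : n.IsMaximal]
    (h𝔪n : ∀ r ∈ IsLocalRing.maximalIdeal R, algebraMap R (chart R ({x} : Set F)) r ∈ n)
    (hmulti : IsMulti e (chart R ({x} : Set F)) n V)
    {u : F} (hu : ∀ i ≤ e, u - 1 ∈ (V i).nonunits)
    {k₁ k₂ : F'} (hk₁ : S29.H395.normAlong α u = k₁ ^ m)
    (hk₂ : S29.H395.normAlong β u = k₂ ^ m)
    {a b : ℕ → ℕ}
    (ha : ∀ j ≤ e - 1, k₁ - algebraMap R F' (ζ ^ a j) ∈ (V' j).nonunits)
    (hb : ∀ j, j + 2 ≤ e → k₂ - algebraMap R F' (ζ ^ b j) ∈ (V' j).nonunits)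
    {d : F} {a₀ s₀ : chart R ({x} : Set F)} (ha₀ : a₀ ∉ n) (hs₀ : s₀ ∉ n)
    (hpure : u * d ^ m * (s₀ : F) = a₀) :
    LabelAt (chart R ({x} : Set F)) n (compSet e V) m u ζ
      (kappaE630 e V (fun i => (m - 1) * cE630 m qb a b i)) := by
  classical
  have hnp : n.IsPrime := hn.isPrime
  have hB : ∀ i ≤ e, ChartLe (chart R ({x} : Set F)) (V i) := fun i hi => chartLe_fin630 ctx hi
  have hth : ∀ i ≤ e, PassThrough (chart R ({x} : Set F)) n (V i) := fun i hi => hmulti i hi
  have hrat := rat_chart x n hn h𝔪n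
  -- the values of the purity datum
  have hval : ∀ i : ℕ, ∃ η : R, i ≤ e →
      algebraMap R (chart R ({x} : Set F)) η ∉ n ∧ ValAt (chart R ({x} : Set F)) n (V i) d η := by
    intro i
    by_cases hi : i ≤ e
    · obtain ⟨η, h1, h2⟩ := exists_valAt_of_pure hrat (hB i hi) (hth i hi) hm
        (normalAlong_of_monic (ctx.normal_f i hi) hm) (hu i hi) ha₀ hs₀ hpure
      exact ⟨η, fun _ => ⟨h1, h2⟩⟩
    · exact ⟨0, fun h => absurd h hi⟩
  choose η hη using hval
  have hηn : ∀ i ≤ e, algebraMap R (chart R ({x} : Set F)) (η i) ∉ n := fun i hi => (hη i hi).1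
  have hv : ∀ i ≤ e, ValAt (chart R ({x} : Set F)) n (V i) d (η i) := fun i hi => (hη i hi).2
  have hη𝔪 : ∀ i ≤ e, η i ∉ IsLocalRing.maximalIdeal R := fun i hi h => hηn i hi (h𝔪n _ h)
  -- the common `m`-th power
  obtain ⟨s', j', hj', hsj⟩ := hn.exists_inv hs₀
  obtain ⟨ρ, hρ'⟩ := hrat (a₀ * s')
  have hρ : a₀ - algebraMap R (chart R ({x} : Set F)) ρ * s₀ ∈ n := by
    have : a₀ - algebraMap R (chart R ({x} : Set F)) ρ * s₀
        = (a₀ * s' - algebraMap R (chart R ({x} : Set F)) ρ) * s₀ + a₀ * j' := by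
      rw [← sub_eq_zero]
      have h6 : s' * s₀ + j' - 1 = 0 := by rw [hsj, sub_self]
      linear_combination (-a₀) * h6
    rw [this]
    exact n.add_mem (n.mul_mem_right _ hρ') (n.mul_mem_left _ hj')
  have hηm : ∀ i ≤ e, η i ^ m - ρ ∈ IsLocalRing.maximalIdeal R := fun i hi =>
    mem_maximalIdeal_of_algebraMap_mem630 hnp.ne_top
      (valAt_pow_of_pure630 (hB i hi) (hth i hi) (hu i hi) hs₀ hpure hρ (hv i hi))
  have h2e : 2 ≤ e := by omega
  -- the label equations along `α`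
  have hα : ∀ i, 2 ≤ i → i ≤ e →
      ζ ^ a 1 * η 2 ^ q - ζ ^ a (i - 1) * η i ^ q ∈ IsLocalRing.maximalIdeal R := by
    intro i h2 hi
    letI := algebraAlong α
    haveI : IsScalarTower R F' F := isScalarTower_alongR α
    have hc2 : (V 2).comap (algebraMap F' F) = V' 1 := ctx.comap_α 2 h2e
    have hci : (V i).comap (algebraMap F' F) = V' (i - 1) := ctx.comap_α i hi
    exact label_eq_chart630 ctx.chart_α ctx.int_α n
      (fun Q hQ h => ctx.unique_α n Q hn hQ hmulti h)
      (chartLe_comap630 ctx.chart_α hc2 (hB 2 h2e))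
      (passThrough_comap_chartIncl630 ctx.chart_α n hc2 (hth 2 h2e))
      (chartLe_comap630 ctx.chart_α hci (hB i hi))
      (passThrough_comap_chartIncl630 ctx.chart_α n hci (hth i hi))
      hm hs₀ hpure hk₁ (ha 1 (by omega)) (ha (i - 1) (by omega))
      (valAt_norm_insep_chart630 ctx.chart_α ctx.int_α n (hB 2 h2e) (hth 2 h2e) hc2 hq.ne'
        (normResInsepU_of_good630 (ctx.good_α 2 le_rfl h2e)) (hηn 2 h2e) (hv 2 h2e))
      (valAt_norm_insep_chart630 ctx.chart_α ctx.int_α n (hB i hi) (hth i hi) hci hq.ne'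
        (normResInsepU_of_good630 (ctx.good_α i h2 hi)) (hηn i hi) (hv i hi))
  have hαs : ζ ^ a 0 * (η 0 * η 1 ^ (q - 1)) - ζ ^ a 1 * η 2 ^ q
      ∈ IsLocalRing.maximalIdeal R := by
    letI := algebraAlong α
    haveI : IsScalarTower R F' F := isScalarTower_alongR α
    have hc0 : (V 0).comap (algebraMap F' F) = V' 0 := ctx.comap_α 0 (Nat.zero_le e)
    have hc2 : (V 2).comap (algebraMap F' F) = V' 1 := ctx.comap_α 2 h2e
    have h0e : 0 ≤ e := Nat.zero_le e
    have h1e : 1 ≤ e := by omega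
    exact label_eq_chart630 ctx.chart_α ctx.int_α n
      (fun Q hQ h => ctx.unique_α n Q hn hQ hmulti h)
      (chartLe_comap630 ctx.chart_α hc0 (hB 0 h0e))
      (passThrough_comap_chartIncl630 ctx.chart_α n hc0 (hth 0 h0e))
      (chartLe_comap630 ctx.chart_α hc2 (hB 2 h2e))
      (passThrough_comap_chartIncl630 ctx.chart_α n hc2 (hth 2 h2e))
      hm hs₀ hpure hk₁ (ha 0 (by omega)) (ha 1 (by omega))
      (valAt_norm_split_chart630 ctx.chart_α n (hB 0 h0e) (hth 0 h0e) (hB 1 h1e) (hth 1 h1e)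
        hc0 (ctx.res_α 0 h0e (Or.inl (by omega))) (ctx.res_α 1 h1e (Or.inl le_rfl))
        ctx.nr_α₀ (hηn 0 h0e) (hηn 1 h1e) (hv 0 h0e) (hv 1 h1e))
      (valAt_norm_insep_chart630 ctx.chart_α ctx.int_α n (hB 2 h2e) (hth 2 h2e) hc2 hq.ne'
        (normResInsepU_of_good630 (ctx.good_α 2 le_rfl h2e)) (hηn 2 h2e) (hv 2 h2e))
  -- the label equation along `β`
  have hβ : ζ ^ b 0 * η 0 ^ q - ζ ^ b 1 * η 1 ^ q ∈ IsLocalRing.maximalIdeal R := by
    letI := algebraAlong β
    haveI : IsScalarTower R F' F := isScalarTower_alongR β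
    have h0e : 0 ≤ e := Nat.zero_le e
    have h1e : 1 ≤ e := by omega
    have hc0 : (V 0).comap (algebraMap F' F) = V' 0 := by
      have := ctx.comap_β 0 h0e
      rwa [Nat.min_eq_left (Nat.zero_le _)] at this
    have hc1 : (V 1).comap (algebraMap F' F) = V' 1 := by
      have := ctx.comap_β 1 h1e
      rwa [Nat.min_eq_left (by omega)] at this
    exact label_eq_chart630 ctx.chart_β ctx.int_β n
      (fun Q hQ h => ctx.unique_β n Q hn hQ hmulti h)
      (chartLe_comap630 ctx.chart_β hc0 (hB 0 h0e))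
      (passThrough_comap_chartIncl630 ctx.chart_β n hc0 (hth 0 h0e))
      (chartLe_comap630 ctx.chart_β hc1 (hB 1 h1e))
      (passThrough_comap_chartIncl630 ctx.chart_β n hc1 (hth 1 h1e))
      hm hs₀ hpure hk₂ (hb 0 (by omega)) (hb 1 (by omega))
      (valAt_norm_insep_chart630 ctx.chart_β ctx.int_β n (hB 0 h0e) (hth 0 h0e) hc0 hq.ne'
        (normResInsepU_of_good630 (ctx.good_β 0 (by omega))) (hηn 0 h0e) (hv 0 h0e))
      (valAt_norm_insep_chart630 ctx.chart_β ctx.int_β n (hB 1 h1e) (hth 1 h1e) hc1 hq.ne'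
        (normResInsepU_of_good630 (ctx.good_β 1 (by omega))) (hηn 1 h1e) (hv 1 h1e))
  -- the algebra
  have hrel := label_algebraE630 (IsLocalRing.maximalIdeal R) hm hζ hq hqq he hη𝔪 hηm hα hαs hβ
  exact labelAt_of_rel630 (IsLocalRing.maximalIdeal R) h𝔪n h2e ctx.inj hB hth
    (fun W hW => hW) hm hζ hs₀ hpure (hηn 2 h2e) hv _ hrel

end Ctx

end Fermat.Agent.S45.H630

end
-- ===== PACK-END S45/H630/PureE.lean

-- ===== PACK-BEGIN S45/H630/FinalE.lean
section



/-!
# S45 / CAR3, block ALG-E/Pure (helper630), part 4: `BasePureValuesAt` at EVERY closed point of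
both charts, from `Eng.CtxE` (Spec v0, FROZEN), `e ≥ 3`, `C = 1`

* `labelAt_le_oneE630`         : the label datum at a point through which at most one sheet
  passes (any colouring);
* `labelAt_fin_ctxE630`        : the label datum at a closed point of `chart R {x}`
  (multiple point: `labelAt_multi_ctxE630`; otherwise at most one sheet, by `ctx.incidence`);
* `labelAt_inf_ctxE630`        : the label datum at a closed point of `chart R {x⁻¹}` (cusps: at
  most one sheet, by `ctx.cusp_single`; off the cusps: change of chart);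
* `exists_kappa_basePureE630`  : **the theorem for the assembler**: ONE colouring `κ` and, at
  every closed point of the special fibre of both charts, purity datum ⟹
  `H193.BasePureValuesAt (compSet e V)` for `u ^ 1`;
* `PurityE630`                 : the purity leaf (P1): a purity datum at every closed point of the
  special fibre of the finite chart and at the cusps;
* `leafPureE_of_purity630`     : `PurityE630 → S45.H193.LeafPureE (fun _ _ => 1)`.
-/

set_option autoImplicit false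
set_option linter.unusedSectionVars false
set_option linter.style.haveILetI false
set_option linter.unusedVariables false
set_option synthInstance.maxHeartbeats 400000
set_option maxHeartbeats 1600000

namespace Fermat.Agent.S45.H630

open Fermat.Agent.S18.H138 (chart mem_chart)
open Fermat.Agent.S36.H193 (BasePureValuesAt)
open Fermat.Agent.S36.H630
open Fermat.Agent.S45.Eng (CtxE IsMulti)
open Fermat.Agent.S45.H193 (compSet)
open AlgebraicCurve

section Generic

variable {R : Type*} [CommRing R] {F : Type*} [Field F] [Algebra R F]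

/-- **The label datum at a point through which at most one sheet of the family passes.** -/
theorem labelAt_le_oneE630 {B : Subalgebra R F} {n : Ideal B} [hn : n.IsMaximal]
    (hrat : ∀ c : B, ∃ r : R, c - algebraMap R B r ∈ n)
    {e : ℕ} {V : ℕ → ValuationSubring F}
    (hB : ∀ i ≤ e, ChartLe B (V i)) {m : ℕ} (hm : 0 < m)
    (hnormal : ∀ i ≤ e, NormalAlong B (V i) m) {ζ : R} (hζ : ζ ^ m = 1)
    (κ : ValuationSubring F → ℕ)
    (hone : ∀ i ≤ e, ∀ j ≤ e, PassThrough B n (V i) → PassThrough B n (V j) → i = j)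
    {u d : F} (hu : ∀ i ≤ e, u - 1 ∈ (V i).nonunits)
    {a₀ s₀ : B} (ha₀ : a₀ ∉ n) (hs₀ : s₀ ∉ n) (hpure : u * d ^ m * (s₀ : F) = a₀) :
    LabelAt B n (compSet e V) m u ζ κ := by
  have hnp : n.IsPrime := hn.isPrime
  by_cases h : ∃ i, i ≤ e ∧ PassThrough B n (V i)
  · obtain ⟨i₀, hi₀, hth₀⟩ := h
    have := labelAt_single hrat (𝒱 := compSet e V) (V₀ := V i₀) (fun W hW hth => by
        obtain ⟨j, hj, rfl⟩ := hW
        rw [hone j hj i₀ hi₀ hth hth₀]) (hB i₀ hi₀) hth₀ hm (hnormal i₀ hi₀) hζ κ (hu i₀ hi₀)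
      ha₀ hs₀ hpure 1
    rwa [pow_one] at this
  · refine labelAt_of_none ?_ hm ha₀ hs₀ hpure ζ κ
    rintro W ⟨j, hj, rfl⟩ hth
    exact h ⟨j, hj, hth⟩

end Generic

section Ctx

variable {R E F F' : Type*} [CommRing R] [IsDomain R] [IsDiscreteValuationRing R]
  [IsAlgClosed (IsLocalRing.ResidueField R)]
  [Field E] [Algebra R E] [Field F] [Algebra E F] [Algebra R F] [IsScalarTower R E F]
  [Field F'] [Algebra E F'] [Algebra R F'] [IsScalarTower R E F']
  {w : R} {q e : ℕ} {α β : F' →ₐ[E] F} {x : F} {x' : F'}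
  {V : ℕ → ValuationSubring F} {V' : ℕ → ValuationSubring F'}

/-- **The label datum at a closed point of the finite chart.** -/
theorem labelAt_fin_ctxE630 (ctx : CtxE w q e α β x x' V V') (he : 3 ≤ e)
    (hw : Irreducible w) (hq : 0 < q) {m : ℕ} (hm : 0 < m) {ζ : R} (hζ : ζ ^ m = 1)
    {qb N : ℕ} (hqq : q * qb = 1 + m * N)
    {u : F} (hu : ∀ i ≤ e, u - 1 ∈ (V i).nonunits)
    {k₁ k₂ : F'} (hk₁ : S29.H395.normAlong α u = k₁ ^ m)
    (hk₂ : S29.H395.normAlong β u = k₂ ^ m)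
    {a b : ℕ → ℕ}
    (ha : ∀ j ≤ e - 1, k₁ - algebraMap R F' (ζ ^ a j) ∈ (V' j).nonunits)
    (hb : ∀ j, j + 2 ≤ e → k₂ - algebraMap R F' (ζ ^ b j) ∈ (V' j).nonunits)
    (n : Ideal (chart R ({x} : Set F))) (hn : n.IsMaximal)
    (hwn : algebraMap R (chart R ({x} : Set F)) w ∈ n)
    (hpur : ∃ (d : F) (a₀ s₀ : chart R ({x} : Set F)), a₀ ∉ n ∧ s₀ ∉ n ∧
      u * d ^ m * (s₀ : F) = a₀) :
    LabelAt (chart R ({x} : Set F)) n (compSet e V) m u ζ
      (kappaE630 e V (fun i => (m - 1) * cE630 m qb a b i)) := by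
  haveI := hn
  obtain ⟨d, a₀, s₀, ha₀, hs₀, hpure⟩ := hpur
  have h𝔪n := maximalIdeal_map_mem hw hwn
  by_cases htr : ∃ i ≤ e, ∃ j ≤ e, i ≠ j ∧
      Fermat.Agent.S36.Eng.Through (chart R ({x} : Set F)) n (V i) ∧
      Fermat.Agent.S36.Eng.Through (chart R ({x} : Set F)) n (V j)
  · exact labelAt_multi_ctxE630 ctx he hq hm hζ hqq n h𝔪n (ctx.incidence n hn htr) hu hk₁ hk₂
      ha hb ha₀ hs₀ hpure
  · refine labelAt_le_oneE630 (rat_chart x n hn h𝔪n) (fun i hi => chartLe_fin630 ctx hi) hm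
      (fun i hi => normalAlong_of_monic (ctx.normal_f i hi) hm) hζ _ ?_ hu ha₀ hs₀ hpure
    intro i hi j hj hthi hthj
    by_contra hij
    exact htr ⟨i, hi, j, hj, hij, hthi, hthj⟩

/-- **The label datum at a closed point of the chart at infinity.** -/
theorem labelAt_inf_ctxE630 (ctx : CtxE w q e α β x x' V V') (he : 3 ≤ e)
    (hw : Irreducible w) (hq : 0 < q) {m : ℕ} (hm : 0 < m) {ζ : R} (hζ : ζ ^ m = 1)
    {qb N : ℕ} (hqq : q * qb = 1 + m * N)
    {u : F} (hu : ∀ i ≤ e, u - 1 ∈ (V i).nonunits)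
    {k₁ k₂ : F'} (hk₁ : S29.H395.normAlong α u = k₁ ^ m)
    (hk₂ : S29.H395.normAlong β u = k₂ ^ m)
    {a b : ℕ → ℕ}
    (ha : ∀ j ≤ e - 1, k₁ - algebraMap R F' (ζ ^ a j) ∈ (V' j).nonunits)
    (hb : ∀ j, j + 2 ≤ e → k₂ - algebraMap R F' (ζ ^ b j) ∈ (V' j).nonunits)
    (n' : Ideal (chart R ({x⁻¹} : Set F))) (hn' : n'.IsMaximal)
    (hwn' : algebraMap R (chart R ({x⁻¹} : Set F)) w ∈ n')
    (hpur : ∃ (d : F) (a₀ s₀ : chart R ({x⁻¹} : Set F)), a₀ ∉ n' ∧ s₀ ∉ n' ∧
      u * d ^ m * (s₀ : F) = a₀) :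
    LabelAt (chart R ({x⁻¹} : Set F)) n' (compSet e V) m u ζ
      (kappaE630 e V (fun i => (m - 1) * cE630 m qb a b i)) := by
  haveI := hn'
  have hn'p : n'.IsPrime := hn'.isPrime
  have h𝔪n' := maximalIdeal_map_mem hw hwn'
  have hrat' := rat_chart x⁻¹ n' hn' h𝔪n'
  have hx0 : x ≠ 0 := (ctx.x_unit 0 (Nat.zero_le e)).1
  have hyB' : x⁻¹ ∈ chart R ({x⁻¹} : Set F) := Fermat.Agent.S18.H138.mem_chart_of_mem rfl
  by_cases hy : (⟨x⁻¹, hyB'⟩ : chart R ({x⁻¹} : Set F)) ∈ n'
  · -- a cusp: at most one sheet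
    obtain ⟨d, a₀, s₀, ha₀, hs₀, hpure⟩ := hpur
    exact labelAt_le_oneE630 hrat' (fun i hi => chartLe_inf630 ctx hi) hm
      (fun i hi => normalAlong_of_monic (ctx.normal_i i hi) hm) hζ _
      (fun i hi j hj hthi hthj => ctx.cusp_single n' hn' hwn' hy i hi j hj hthi hthj)
      hu ha₀ hs₀ hpure
  · -- off the cusps: change of chart
    have hclear : ∀ b : chart R ({x} : Set F),
        ∃ k : ℕ, x⁻¹ ^ k * (b : F) ∈ chart R ({x⁻¹} : Set F) :=
      fun b => Fermat.Agent.S18.H138.exists_inv_pow_mul_mem_chart hx0 b.2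
    have hclear' : ∀ c : chart R ({x⁻¹} : Set F),
        ∃ k : ℕ, x⁻¹⁻¹ ^ k * (c : F) ∈ chart R ({x} : Set F) := by
      intro c
      have hc : (c : F) ∈ chart R ({x, x⁻¹} : Set F) :=
        Fermat.Agent.S18.H138.chart_mono (by simp) c.2
      obtain ⟨K, hK⟩ := Fermat.Agent.S18.H138.exists_pow_mul_mem_chart hx0 hc
      exact ⟨K, by rw [inv_inv]; exact hK⟩
    have hyinv : x⁻¹⁻¹ ∈ chart R ({x} : Set F) := by
      rw [inv_inv]
      exact Fermat.Agent.S18.H138.mem_chart_of_mem rfl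
    have hnmax : (backIdeal (chart R ({x} : Set F)) n' x⁻¹ hyB' hclear).IsMaximal :=
      backIdeal_isMaximal hyB' hclear hy h𝔪n' hrat'
    have hwn : algebraMap R (chart R ({x} : Set F)) w
        ∈ backIdeal (chart R ({x} : Set F)) n' x⁻¹ hyB' hclear :=
      (algebraMap_mem_backIdeal_iff hyB' hclear hy w).2 hwn'
    have hpurB := pure_back hyB' hclear hy hyinv hclear' hpur
    have hlab := labelAt_fin_ctxE630 ctx he hw hq hm hζ hqq hu hk₁ hk₂ ha hb _ hnmax hwn hpurB
    refine LabelAt.of_back hyB' hclear hy ?_ hlab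
    rintro W ⟨i, hi, rfl⟩
    exact (ctx.x_unit i hi).2.2

/-- **P2 + P3 (the theorem for the assembler).**  One colouring `κ`; at every closed point of
the special fibre of both charts a purity datum for `u` gives `BasePureValuesAt` for `u ^ 1`. -/
theorem exists_kappa_basePureE630 (ctx : CtxE w q e α β x x' V V') (he : 3 ≤ e)
    (hw : Irreducible w) (hq : q.Prime) (hinjE : Function.Injective (algebraMap R E))
    {m : ℕ} (hm : 0 < m) (hqm : ¬ q ∣ m) {ζ : R} (hζ : IsPrimitiveRoot ζ m)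
    {u : F} (hu : ∀ i ≤ e, u - 1 ∈ (V i).nonunits)
    {k₁ k₂ : F'} (hk₁ : S29.H395.normAlong α u = k₁ ^ m)
    (hk₂ : S29.H395.normAlong β u = k₂ ^ m) :
    ∃ κ : ValuationSubring F → ℕ,
      (∀ n : Ideal (chart R ({x} : Set F)), n.IsMaximal →
        algebraMap R (chart R ({x} : Set F)) w ∈ n →
        (∃ (d : F) (a₀ s₀ : chart R ({x} : Set F)), a₀ ∉ n ∧ s₀ ∉ n ∧
          u * d ^ m * (s₀ : F) = a₀) →
        BasePureValuesAt (compSet e V) (chart R ({x} : Set F)) n m (u ^ 1) ζ κ) ∧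
      (∀ n : Ideal (chart R ({x⁻¹} : Set F)), n.IsMaximal →
        algebraMap R (chart R ({x⁻¹} : Set F)) w ∈ n →
        (∃ (d : F) (a₀ s₀ : chart R ({x⁻¹} : Set F)), a₀ ∉ n ∧ s₀ ∉ n ∧
          u * d ^ m * (s₀ : F) = a₀) →
        BasePureValuesAt (compSet e V) (chart R ({x⁻¹} : Set F)) n m (u ^ 1) ζ κ) := by
  have hζ1 : ζ ^ m = 1 := hζ.pow_eq_one
  have h2e : 2 ≤ e := by omega
  have hinj : Function.Injective (algebraMap R F') := by
    rw [IsScalarTower.algebraMap_eq R E F']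
    exact (algebraMap E F').injective.comp hinjE
  obtain ⟨qb, N, hqq⟩ := exists_inv_mod630 hq.pos hm ((Nat.Prime.coprime_iff_not_dvd hq).2 hqm)
  obtain ⟨a, ha⟩ := exists_labels_α630 ctx h2e hinj hm hζ hu hk₁
  obtain ⟨b, hb⟩ := exists_labels_β630 ctx h2e hinj hm hζ hu hk₂
  refine ⟨kappaE630 e V (fun i => (m - 1) * cE630 m qb a b i), ?_, ?_⟩
  · intro n hn hwn hpur
    haveI := hn
    rw [pow_one]
    refine basePureValuesAt_of_labelAt ?_ hm hζ1
      (labelAt_fin_ctxE630 ctx he hw hq.pos hm hζ1 hqq hu hk₁ hk₂ ha hb n hn hwn hpur)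
    rintro W ⟨i, hi, rfl⟩
    exact chartLe_fin630 ctx hi
  · intro n hn hwn hpur
    haveI := hn
    rw [pow_one]
    refine basePureValuesAt_of_labelAt ?_ hm hζ1
      (labelAt_inf_ctxE630 ctx he hw hq.pos hm hζ1 hqq hu hk₁ hk₂ ha hb n hn hwn hpur)
    rintro W ⟨i, hi, rfl⟩
    exact chartLe_inf630 ctx hi

end Ctx

/-! ## The purity leaf (P1) and the leaf PURE of ALG-E -/

/-- **Leaf PURITY of ALG-E** (P1; G3 of S36): for `u` a unit on every sheet with `m ∣ div u`
there is a purity datum `u d ^ m s₀ = a₀`, `a₀, s₀ ∉ n`, at every closed point `n` of the special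
fibre of the finite chart and at every cusp (closed point of the special fibre of the chart at
infinity with `x⁻¹ ∈ n`). -/
def PurityE630 : Prop :=
  ∀ {R E F F' : Type} [CommRing R] [IsDomain R] [IsDiscreteValuationRing R]
    [HenselianLocalRing R] [IsAlgClosed (IsLocalRing.ResidueField R)]
    [Field E] [CharZero E] [Algebra R E] [IsFractionRing R E]
    [Field F] [Algebra E F] [Algebra R F] [IsScalarTower R E F]
    [Field F'] [Algebra E F'] [Algebra R F'] [IsScalarTower R E F']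
    (w : R) (_ : Irreducible w) (q : ℕ) (_ : q.Prime)
    (_ : (q : R) ∈ IsLocalRing.maximalIdeal R) (e : ℕ) (_ : 3 ≤ e)
    (α β : F' →ₐ[E] F) (x : F) (x' : F')
    (V : ℕ → ValuationSubring F) (V' : ℕ → ValuationSubring F')
    (_ : CtxE w q e α β x x' V V'),
    ∀ m : ℕ, 0 < m → ¬ q ∣ m →
      ∀ u : F, A2.DivisibleDiv E m u → (∀ i ≤ e, Fermat.Agent.S36.Eng.UnitAt (V i) u) →
        (∀ n : Ideal (chart R ({x} : Set F)), n.IsMaximal →
          algebraMap R (chart R ({x} : Set F)) w ∈ n →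
          ∃ (d : F) (a₀ s₀ : chart R ({x} : Set F)), a₀ ∉ n ∧ s₀ ∉ n ∧
            u * d ^ m * (s₀ : F) = a₀) ∧
        (∀ n : Ideal (chart R ({x⁻¹} : Set F)), n.IsMaximal →
          algebraMap R (chart R ({x⁻¹} : Set F)) w ∈ n →
          (⟨x⁻¹, Fermat.Agent.S18.H138.mem_chart_of_mem rfl⟩ : chart R ({x⁻¹} : Set F)) ∈ n →
          ∃ (d : F) (a₀ s₀ : chart R ({x⁻¹} : Set F)), a₀ ∉ n ∧ s₀ ∉ n ∧
            u * d ^ m * (s₀ : F) = a₀)

/-- **Leaf PURE of ALG-E** (`S45/H193/AlgWire.lean`, `c₂ = 1`) from the purity leaf. -/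
theorem leafPureE_of_purity630 (hP : PurityE630) :
    Fermat.Agent.S45.H193.LeafPureE (fun _ _ => 1) := by
  intro R E F F' _ _ _ _ _ _ _ _ _ _ _ _ _ _ _ _ _ w hw q hq hqR e he α β x x' V V' ctx
    m hm hqm ζ hζ u hu0 hdiv hu k₁ k₂ hk₁ hk₂
  have hU : ∀ i ≤ e, Fermat.Agent.S36.Eng.UnitAt (V i) u := fun i hi => unit_of_split (hu i hi)
  obtain ⟨hpf, hpc⟩ := hP w hw q hq hqR e he α β x x' V V' ctx m hm hqm u hdiv hU
  obtain ⟨κ, hfin, hinf⟩ := exists_kappa_basePureE630 ctx he hw hq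
    (IsFractionRing.injective R E) hm hqm hζ hu hk₁ hk₂
  refine ⟨κ, fun n hn hwn => hfin n hn hwn (hpf n hn hwn), fun n' hn' hwn' => ?_⟩
  refine hinf n' hn' hwn' ?_
  haveI := hn'
  have hn'p : n'.IsPrime := hn'.isPrime
  have hyB' : x⁻¹ ∈ chart R ({x⁻¹} : Set F) := Fermat.Agent.S18.H138.mem_chart_of_mem rfl
  by_cases hy : (⟨x⁻¹, hyB'⟩ : chart R ({x⁻¹} : Set F)) ∈ n'
  · exact hpc n' hn' hwn' hy
  · have hx0 : x ≠ 0 := (ctx.x_unit 0 (Nat.zero_le e)).1
    have h𝔪n' := maximalIdeal_map_mem hw hwn'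
    have hrat' := rat_chart x⁻¹ n' hn' h𝔪n'
    have hclear : ∀ b : chart R ({x} : Set F),
        ∃ k : ℕ, x⁻¹ ^ k * (b : F) ∈ chart R ({x⁻¹} : Set F) :=
      fun b => Fermat.Agent.S18.H138.exists_inv_pow_mul_mem_chart hx0 b.2
    have hnmax : (backIdeal (chart R ({x} : Set F)) n' x⁻¹ hyB' hclear).IsMaximal :=
      backIdeal_isMaximal hyB' hclear hy h𝔪n' hrat'
    have hwn : algebraMap R (chart R ({x} : Set F)) w
        ∈ backIdeal (chart R ({x} : Set F)) n' x⁻¹ hyB' hclear :=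
      (algebraMap_mem_backIdeal_iff hyB' hclear hy w).2 hwn'
    exact pure_fwd hyB' hclear hy (hpf _ hnmax hwn)

end Fermat.Agent.S45.H630

end
-- ===== PACK-END S45/H630/FinalE.lean

-- ===== PACK-BEGIN S45/AlgE/Final.lean
section




/-!
# S45 / CAR3 — block ALG-E CLOSED (sub-architect helper586)

    algE : S45.Eng.AlgEStatement

`Eng.AlgEStatement` (the abstract half of the Carayol engine at `q ^ e`, `e ≥ 3`), unconditionally,
with `C = q ^ 2`, from the leaves:

* STEP-A  `H403.leafStepAE_max403`            (helper403; light form of helper247 / helper778),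
* SHEETS + WALL  `H193.algE_of_leaves`        (helper193; wall `S36.H193.exists_pow_eq_of_base_set`),
* PURE, labels  `H630.leafPureE_of_purity630` (helper630),
* PURE, purity  `H987.ctxE_pure987`           (helper987).
-/

set_option autoImplicit false

namespace Fermat.Agent.S45.AlgE

/-- **Leaf PURITY of ALG-E** (P1), from `H987.ctxE_pure987`. -/
theorem purityE : Fermat.Agent.S45.H630.PurityE630 := by
  intro R E F F' _ _ _ _ _ _ _ _ _ _ _ _ _ _ _ _ _ w hw q hq hqR e he α β x x' V V' ctx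
    m hm hqm u hdiv hu
  obtain ⟨h1, h2⟩ := Fermat.Agent.S45.H987.ctxE_pure987 hw hq ctx hm hdiv hu
  exact ⟨h1, fun n hn hwn _ => h2 n hn hwn⟩

/-- **Leaf PURE of ALG-E**, `c₂ = 1`. -/
theorem leafPureE : Fermat.Agent.S45.H193.LeafPureE (fun _ _ => 1) :=
  Fermat.Agent.S45.H630.leafPureE_of_purity630 purityE

/-- **ALG-E.**  `Eng.AlgEStatement`, unconditionally. -/
theorem algE : Fermat.Agent.S45.Eng.AlgEStatement :=
  Fermat.Agent.S45.H403.algE_of_leafPure403 (fun _ _ => Nat.one_pos) leafPureE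

end Fermat.Agent.S45.AlgE

end
-- ===== PACK-END S45/AlgE/Final.lean

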