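import Fermat.Agent.Pack.S43MC.G0E27L0
import Fermat.Agent.Pack.S45.E0L1
import Fermat.Agent.Pack.S45.E1L0
import Fermat.Agent.Pack.S43MC.G0E24L0
import Fermat.Agent.Pack.S43MC.G0E28L3
import Fermat.Agent.Pack.S45.E2L0
import Fermat.Agent.Pack.S43MC.G0E25L3
import Fermat.Agent.Pack.S44C.G0E19L3
import Fermat.Agent.Pack.S44C.G0E0L0
import Fermat.Agent.Pack.S43MC.G0E23L0
import Fermat.Agent.Pack.S43MC.G0E25L2
import Fermat.Agent.Pack.S45.E2L3
import Fermat.Agent.Pack.Fast891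

set_option linter.all false

-- ===== PACK-BEGIN S45/H859/Chain.lean
section


/-!
# S45 / CAR3 (helper859): the EXACT modular relations along the chain `j_d`, `j_{dq}` at any level

For every level `N`, every prime `q` and every `d` with `d q ∣ N`:

* `Φ_q(j_d ; j_{dq}) = 0`   (`modPoly_chain_up859`),
* `Φ_q(j_{dq} ; j_d) = 0`   (`modPoly_chain_down859`),

in `F_E(N)` (`Φ.Φ.eval₂ (aeval inner) outer`, the convention of `S36.H816.modPoly_eval_jqq`, which
is the case `d = q` of the first relation).  With `s_i = j_{q^i}` these are the relations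
`Φ(s_i ; s_{i+1}) = 0 = Φ(s_{i+1} ; s_i)` of memo helper441 sec. 2 (used EXACTLY in the Taylor
argument of the wild step, `S45.H859.exists_eis_decomp859`).
-/

set_option autoImplicit false
set_option linter.style.haveILetI false
set_option linter.unusedSectionVars false
set_option synthInstance.maxHeartbeats 400000
set_option maxHeartbeats 1600000

noncomputable section

namespace Fermat.Agent.S45.H859

open ModularCurve HahnSeries Polynomial IntermediateField
open Fermat.Agent Fermat.Agent.A2.Mod Fermat.Agent.A2.H708 Fermat.Agent.S28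

variable {E : IntermediateField ℚ A2.Qb} {q : ℕ} [NeZero q]

/-- `Φ_q(j_d ; j_{dq}) = 0` as Laurent series. -/
theorem modPoly_series_up859 (Φ : ModPolyData q) (d : ℕ) [NeZero d] :
    Φ.Φ.eval₂ (evalAt (qExpand E d (jqModC E))) (qExpand E (d * q) (jqModC E)) = 0 := by
  have h := congrArg (qExpand E d) (h88_modPoly_eval_jp E q Φ)
  rw [Polynomial.hom_eval₂, map_zero, h88_comp_evalAt, qExpand_qExpand] at h
  exact h

/-- `Φ_q(j_{dq} ; j_d) = 0` as Laurent series. -/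
theorem modPoly_series_down859 (Φ : ModPolyData q) (d : ℕ) [NeZero d] :
    Φ.Φ.eval₂ (evalAt (qExpand E (d * q) (jqModC E))) (qExpand E d (jqModC E)) = 0 := by
  have h := congrArg (qExpand E d) (h88_modPoly_eval_j E q Φ)
  rw [Polynomial.hom_eval₂, map_zero, h88_comp_evalAt, qExpand_qExpand] at h
  exact h

/-- **`Φ_q(j_d ; j_{dq}) = 0`** in `F_E(N)`. -/
theorem modPoly_chain_up859 (Φ : ModPolyData q) (N d : ℕ) [NeZero d] (hd : d ∣ N)
    (hdq : d * q ∣ N) :
    Φ.Φ.eval₂ (Polynomial.aeval (R := ℤ) (jE E N d hd)).toRingHom (jE E N (d * q) hdq) = 0 := by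
  apply Subtype.ext
  have h := Polynomial.hom_eval₂ Φ.Φ (Polynomial.aeval (R := ℤ) (jE E N d hd)).toRingHom
    (algebraMap (FE E N) (LaurentSeries E)) (jE E N (d * q) hdq)
  have h2 : ((Polynomial.eval₂ (Polynomial.aeval (R := ℤ) (jE E N d hd)).toRingHom
      (jE E N (d * q) hdq) Φ.Φ : FE E N) : LaurentSeries E)
      = Polynomial.eval₂ ((algebraMap (FE E N) (LaurentSeries E)).comp
          (Polynomial.aeval (R := ℤ) (jE E N d hd)).toRingHom)
          ((jE E N (d * q) hdq : FE E N) : LaurentSeries E) Φ.Φ := h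
  rw [h2, S36.H83.h83_coe_comp_aeval, S36.H83.h83_coe_jE, S36.H83.h83_coe_jE]
  exact modPoly_series_up859 Φ d

/-- **`Φ_q(j_{dq} ; j_d) = 0`** in `F_E(N)`. -/
theorem modPoly_chain_down859 (Φ : ModPolyData q) (N d : ℕ) [NeZero d] (hd : d ∣ N)
    (hdq : d * q ∣ N) :
    Φ.Φ.eval₂ (Polynomial.aeval (R := ℤ) (jE E N (d * q) hdq)).toRingHom (jE E N d hd) = 0 := by
  apply Subtype.ext
  have h := Polynomial.hom_eval₂ Φ.Φ (Polynomial.aeval (R := ℤ) (jE E N (d * q) hdq)).toRingHom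
    (algebraMap (FE E N) (LaurentSeries E)) (jE E N d hd)
  have h2 : ((Polynomial.eval₂ (Polynomial.aeval (R := ℤ) (jE E N (d * q) hdq)).toRingHom
      (jE E N d hd) Φ.Φ : FE E N) : LaurentSeries E)
      = Polynomial.eval₂ ((algebraMap (FE E N) (LaurentSeries E)).comp
          (Polynomial.aeval (R := ℤ) (jE E N (d * q) hdq)).toRingHom)
          ((jE E N d hd : FE E N) : LaurentSeries E) Φ.Φ := h
  rw [h2, S36.H83.h83_coe_comp_aeval, S36.H83.h83_coe_jE, S36.H83.h83_coe_jE]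
  exact modPoly_series_down859 Φ d

end Fermat.Agent.S45.H859

end

end
-- ===== PACK-END S45/H859/Chain.lean

-- ===== PACK-BEGIN S45/H818/CuspChart.lean
section






/-!
# S45 / CAR3 / MOD-E / REG (leaf C6, spare): the cusp element in the chart at infinity
(helper818, concrete part)

Level `N` with `q ^ n ∣ N`, chain `J l = jLev E N q l = j_{q^l}`, coordinate
`x = xLev E N q n = J 0 ⋯ J n`, window `a, …, a + 2 i ≤ n`:

* `jLev_chain818`      : `Φ_q(J l ; J (l + 1)) = 0` (`S45.H859.modPoly_chain_up859`);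
* `jLev_inv_mem818`    : a valuation subring containing `x⁻¹` contains all `(J l)⁻¹`, `l ≤ n`;
* `xC_mem_chart818`    : `cuspElem818 q J a i ∈ chart R {x⁻¹}`                    (**C6, membership**);
* `xC_unifAt818`       : on a sheet `V` on which `J (a + 2 i) - J a` is a uniformiser and the `J l`
                         are units, `cuspElem818 q J a i` is a uniformiser          (**C6, UnifAt**);
* `xC_factor_one818`   : on a sheet on which the step `l → l + 1` is Frobenius the factor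
                         `J (l + 1) / J l ^ q` is a `1`-unit.

Sorry-free.  `S45/H859/Chain.lean` is taken VERBATIM from origin/helper859 @706863954.
-/

set_option autoImplicit false
set_option linter.style.haveILetI false
set_option linter.unusedSectionVars false
set_option linter.unusedVariables false
set_option synthInstance.maxHeartbeats 400000
set_option maxHeartbeats 1600000

noncomputable section

namespace Fermat.Agent.S45.H818

open ModularCurve Polynomial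
open Fermat.Agent.S18.H138 (chart)
open Fermat.Agent.S36.Eng (UnitAt UnifAt)
open Fermat.Agent.S15.H962 (IsModularShape eval2)
open Fermat.Agent.S36.Mod3.H276 (val_pair mem_of_eval2 one_lt_val_iff eval2_eq_aeval)
open Fermat.Agent.S45.ModE (jLev xLev)

/-! ## Abstract: inverses -/

section Abs

variable {K : Type*} [Field K] {q : ℕ} {Φ : ℤ[X][X]}

/-- A valuation subring containing the inverse of the product of a chain contains the inverses
of all its members. -/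
theorem inv_mem_of_prod_inv_mem818 (hq : 0 < q) (hΦ : IsModularShape q Φ) (J : ℕ → K) (n : ℕ)
    (hchain : ∀ l, l < n → eval2 Φ (J l) (J (l + 1)) = 0) (hne : ∀ l, l ≤ n → J l ≠ 0)
    (V : ValuationSubring K) (hx : (∏ l ∈ Finset.range (n + 1), J l)⁻¹ ∈ V) :
    ∀ l, l ≤ n → (J l)⁻¹ ∈ V := by
  by_cases h0 : J 0 ∈ V
  · have hall : ∀ l, l ≤ n → J l ∈ V := by
      intro l
      induction l with
      | zero => intro _; exact h0
      | succ l ih =>
        intro hl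
        exact mem_of_eval2 hΦ.monic (hchain l (by omega)) V (ih (by omega))
    intro l hl
    have hmem : l ∈ Finset.range (n + 1) := Finset.mem_range.2 (by omega)
    have hprod := Finset.mul_prod_erase (Finset.range (n + 1)) J hmem
    have he : (J l)⁻¹ = (∏ k ∈ (Finset.range (n + 1)).erase l, J k)
        * (∏ k ∈ Finset.range (n + 1), J k)⁻¹ := by
      rw [← hprod, mul_inv, mul_comm (J l)⁻¹, ← mul_assoc]
      have hP : (∏ k ∈ (Finset.range (n + 1)).erase l, J k) ≠ 0 := by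
        refine Finset.prod_ne_zero_iff.2 fun k hk => hne k ?_
        have := Finset.mem_range.1 (Finset.mem_of_mem_erase hk)
        omega
      rw [mul_inv_cancel₀ hP, one_mul]
    rw [he]
    refine V.mul_mem _ _ (Subring.prod_mem V.toSubring fun k hk => hall k ?_) hx
    have := Finset.mem_range.1 (Finset.mem_of_mem_erase hk)
    omega
  · have hB : ∀ l, l ≤ n → 1 < V.valuation (J l) := by
      intro l
      induction l with
      | zero => intro _; exact (one_lt_val_iff V).mpr h0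
      | succ l ih =>
        intro hl
        exact (val_pair V.valuation hq hΦ (ih (by omega)) (hchain l (by omega))).1
    intro l hl
    have hnot : J l ∉ V := (one_lt_val_iff V).mp (hB l hl)
    rcases V.mem_or_inv_mem (J l) with h | h
    · exact absurd h hnot
    · exact h

/-- uniformiser times unit -/
theorem unifAt_mul_unit818 {V : ValuationSubring K} {t u : K} (ht : UnifAt V t)
    (hu : UnitAt V u) : UnifAt V (t * u) := by
  refine ⟨mul_ne_zero ht.1 hu.1, ?_, ?_⟩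
  · rw [ValuationSubring.mem_nonunits_iff, map_mul]
    exact mul_lt_one_of_lt_of_le ((V.mem_nonunits_iff).1 ht.2.1)
      ((V.valuation_le_one_iff u).2 hu.2.1)
  · intro f hf
    have e : f * (t * u)⁻¹ = f * t⁻¹ * u⁻¹ := by
      rw [mul_inv, mul_assoc]
    rw [e]
    exact V.mul_mem _ _ (ht.2.2 f hf) hu.2.2

theorem unitAt_mul818 {V : ValuationSubring K} {u w : K} (hu : UnitAt V u) (hw : UnitAt V w) :
    UnitAt V (u * w) := by
  refine ⟨mul_ne_zero hu.1 hw.1, V.mul_mem _ _ hu.2.1 hw.2.1, ?_⟩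
  rw [mul_inv]
  exact V.mul_mem _ _ hu.2.2 hw.2.2

theorem unitAt_inv818 {V : ValuationSubring K} {u : K} (hu : UnitAt V u) : UnitAt V u⁻¹ :=
  ⟨inv_ne_zero hu.1, hu.2.2, by rw [inv_inv]; exact hu.2.1⟩

theorem unitAt_pow818 {V : ValuationSubring K} {u : K} (hu : UnitAt V u) (k : ℕ) :
    UnitAt V (u ^ k) := by
  refine ⟨pow_ne_zero k hu.1, V.pow_mem hu.2.1 k, ?_⟩
  rw [← inv_pow]
  exact V.pow_mem hu.2.2 k

theorem unitAt_one818 {V : ValuationSubring K} : UnitAt V (1 : K) :=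
  ⟨one_ne_zero, V.one_mem, by rw [inv_one]; exact V.one_mem⟩

/-- **C6, `UnifAt`**: the cusp element is a uniformiser of a sheet on which `J (a + 2 i) - J a`
is one and the members of the window are units. -/
theorem xC_unifAt818 (q : ℕ) (J : ℕ → K) (a i : ℕ) {V : ValuationSubring K}
    (hT : UnifAt V (J (a + 2 * i) - J a)) (hunit : ∀ l, l ≤ 2 * i → UnitAt V (J (a + l))) :
    UnifAt V (cuspElem818 q J a i) := by
  have he := hunit (2 * i) le_rfl
  have hP : ∀ k, k ≤ i →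
      UnitAt V (∏ l ∈ Finset.range k, J (a + l + 1) * (J (a + l) ^ q)⁻¹) := by
    intro k
    induction k with
    | zero => intro _; simpa using unitAt_one818
    | succ k ih =>
      intro hk
      rw [Finset.prod_range_succ]
      refine unitAt_mul818 (ih (by omega)) (unitAt_mul818 ?_ (unitAt_inv818 (unitAt_pow818 ?_ q)))
      · simpa [add_assoc] using hunit (k + 1) (by omega)
      · exact hunit k (by omega)
  have e : cuspElem818 q J a i = (J (a + 2 * i) - J a) *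
      ((J (a + 2 * i))⁻¹ * ∏ l ∈ Finset.range i, J (a + l + 1) * (J (a + l) ^ q)⁻¹) := by
    unfold cuspElem818
    rw [← mul_assoc]
    congr 1
    rw [sub_mul, mul_inv_cancel₀ he.1]
  rw [e]
  exact unifAt_mul_unit818 hT (unitAt_mul818 (unitAt_inv818 he) (hP i le_rfl))

/-- On a sheet on which the step `l → l + 1` is Frobenius, `J (l + 1) / J l ^ q` is a
`1`-unit. -/
theorem xC_factor_one818 (q : ℕ) (J : ℕ → K) (l : ℕ) {V : ValuationSubring K}
    (hu : UnitAt V (J l)) (hfrob : J (l + 1) - J l ^ q ∈ V.nonunits) :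
    J (l + 1) * (J l ^ q)⁻¹ - 1 ∈ V.nonunits := by
  have hq0 : J l ^ q ≠ 0 := pow_ne_zero q hu.1
  have e : J (l + 1) * (J l ^ q)⁻¹ - 1 = (J (l + 1) - J l ^ q) * (J l ^ q)⁻¹ := by
    rw [sub_mul, mul_inv_cancel₀ hq0]
  rw [e, ValuationSubring.mem_nonunits_iff, map_mul]
  refine mul_lt_one_of_lt_of_le ((V.mem_nonunits_iff).1 hfrob) ?_
  rw [V.valuation_le_one_iff]
  exact (unitAt_inv818 (unitAt_pow818 hu q)).2.1

end Abs

/-! ## Concrete: the chain `J l = j_{q^l}` of a level -/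

section Concrete

variable (P : ValuationSubring A2.Qb) (E : IntermediateField ℚ A2.Qb) (N q : ℕ)
  [NeZero N] [NeZero q]

theorem jLev_eq818 {l : ℕ} (h : q ^ l ∣ N) : jLev E N q l = A2.Mod.jE E N (q ^ l) h := by
  unfold jLev
  rw [dif_pos h]

theorem jLev_ne_zero818 (l : ℕ) : jLev E N q l ≠ 0 := by
  unfold jLev
  split_ifs with h
  · exact A2.Mod.H873.jE_ne_zero E N (q ^ l) h
  · exact one_ne_zero

/-- `Φ_q(J l ; J (l + 1)) = 0`. -/
theorem jLev_chain818 (D : S28.ModPolyData q) {l : ℕ} (h : q ^ (l + 1) ∣ N) :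
    eval2 D.Φ (jLev E N q l) (jLev E N q (l + 1)) = 0 := by
  have hl : q ^ l ∣ N := Dvd.dvd.trans (pow_dvd_pow q (Nat.le_succ l)) h
  have hlq : q ^ l * q ∣ N := by rwa [← pow_succ]
  rw [jLev_eq818 E N q hl, jLev_eq818 E N q h, eval2_eq_aeval,
    A2.Mod.H751.jE_congr E N (pow_succ q l) h hlq]
  exact S45.H859.modPoly_chain_up859 D N (q ^ l) hl hlq

variable (hq : q.Prime)
include hq

/-- A valuation subring containing `x⁻¹` contains the inverses of the `J l`, `l ≤ n`. -/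
theorem jLev_inv_mem818 (n : ℕ) (hN : q ^ n ∣ N) (V : ValuationSubring (A2.Mod.FE E N))
    (hx : (xLev E N q n)⁻¹ ∈ V) : ∀ l, l ≤ n → (jLev E N q l)⁻¹ ∈ V := by
  obtain ⟨D⟩ := S28.H807.nonempty_modPolyData q hq
  have hΦ := S15.H386.isModularShape_of_modPolyData D hq.one_lt
  refine inv_mem_of_prod_inv_mem818 hq.pos hΦ (jLev E N q) n (fun l hl => ?_)
    (fun l _ => jLev_ne_zero818 E N q l) V hx
  exact jLev_chain818 E N q D (Dvd.dvd.trans (pow_dvd_pow q (by omega)) hN)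

/-- **C6, membership**: the cusp element of a window `a, …, a + 2 i ≤ n` lies in the chart at
infinity of the level. -/
theorem xC_mem_chart818 (n : ℕ) (hN : q ^ n ∣ N) (a i : ℕ) (hai : a + 2 * i ≤ n) :
    cuspElem818 q (jLev E N q) a i ∈
      chart (A2.RE P E) ({(xLev E N q n)⁻¹} : Set (A2.Mod.FE E N)) := by
  obtain ⟨D⟩ := S28.H807.nonempty_modPolyData q hq
  have hΦ := S15.H386.isModularShape_of_modPolyData D hq.one_lt
  refine S36.Mod3.H189.mem_chart_of_forall_valuationSubring fun V hV => ?_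
  have hinv := jLev_inv_mem818 E N q hq n hN V hV
  refine cuspElem_mem818 hq.two_le hΦ (jLev E N q) a i (fun l hl => ?_) V
    (fun l hl => hinv (a + l) (by omega))
  exact jLev_chain818 E N q D (Dvd.dvd.trans (pow_dvd_pow q (by omega)) hN)

end Concrete

end Fermat.Agent.S45.H818

end

end
-- ===== PACK-END S45/H818/CuspChart.lean

-- ===== PACK-BEGIN S45/Reg/H818/CuspLeaves.lean
section




/-!
# S45 / CAR3 / MOD-E / REG — the leaves `LeafChartJ` and `LeafCuspPoles` (helper818, spare)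

VERBATIM against `S45/Reg/Spec.lean` of helper878 (sha256 `2d17d07d…`):

* `leafChartJ818    : Reg.LeafChartJ`    — `J l ∈ chart R {x}`, `(J l)⁻¹ ∈ chart R {x⁻¹}`, `l ≤ n`;
* `leafCuspPoles818 : Reg.LeafCuspPoles` — at a closed point of the chart at infinity with
  `x⁻¹ ∈ 𝔪` all the `(J l)⁻¹`, `l ≤ n`, lie in `𝔪`.

Both are the valuation criterion + pole propagation along the chain
(`S36.Mod3.H276.val_pair`, `exists_dominating`), with the chain relations of
`S45.H859.modPoly_chain_up859` (`S45.H818.jLev_chain818`).  Sorry-free, UNCONDITIONAL.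
-/

set_option autoImplicit false
set_option linter.style.haveILetI false
set_option linter.unusedSectionVars false
set_option linter.unusedVariables false
set_option synthInstance.maxHeartbeats 400000
set_option maxHeartbeats 1600000

noncomputable section

namespace Fermat.Agent.S45.Reg.H818

open ModularCurve Polynomial
open Fermat.Agent.S18.H138 (chart)
open Fermat.Agent.S15.H962 (IsModularShape eval2)
open Fermat.Agent.S36.Mod3.H276 (val_pair mem_of_eval2 one_lt_val_iff exists_dominating)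
open Fermat.Agent.S45.ModE (jLev xLev)
open Fermat.Agent.S45.H818

/-! ## Abstract -/

section Abs

variable {K : Type*} [Field K] {q : ℕ} {Φ : ℤ[X][X]}

/-- If the first member of a chain has a pole, so has the product. -/
theorem one_lt_val_prod818 (hq : 0 < q) (hΦ : IsModularShape q Φ) (J : ℕ → K) (n : ℕ)
    (hchain : ∀ l, l < n → eval2 Φ (J l) (J (l + 1)) = 0) (V : ValuationSubring K)
    (h0 : J 0 ∉ V) :
    (∀ l, l ≤ n → 1 < V.valuation (J l)) ∧
      1 < V.valuation (∏ l ∈ Finset.range (n + 1), J l) := by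
  have hB : ∀ l, l ≤ n → 1 < V.valuation (J l) := by
    intro l
    induction l with
    | zero => intro _; exact (one_lt_val_iff V).mpr h0
    | succ l ih =>
      intro hl
      exact (val_pair V.valuation hq hΦ (ih (by omega)) (hchain l (by omega))).1
  refine ⟨hB, ?_⟩
  have hP : ∀ k, k ≤ n → 1 < V.valuation (∏ l ∈ Finset.range (k + 1), J l) := by
    intro k
    induction k with
    | zero => intro _; simpa using hB 0 (by omega)
    | succ k ih =>
      intro hk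
      rw [Finset.prod_range_succ, map_mul]
      have h1 := ih (by omega)
      have h2 := hB (k + 1) hk
      calc (1 : V.ValueGroup) < V.valuation (∏ l ∈ Finset.range (k + 1), J l) := h1
        _ = V.valuation (∏ l ∈ Finset.range (k + 1), J l) * 1 := (mul_one _).symm
        _ < V.valuation (∏ l ∈ Finset.range (k + 1), J l) * V.valuation (J (k + 1)) :=
            mul_lt_mul_of_pos_left h2 (lt_trans zero_lt_one h1)
  exact hP n le_rfl

/-- A valuation subring containing the product of a chain contains its members. -/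
theorem mem_of_prod_mem818 (hq : 0 < q) (hΦ : IsModularShape q Φ) (J : ℕ → K) (n : ℕ)
    (hchain : ∀ l, l < n → eval2 Φ (J l) (J (l + 1)) = 0) (V : ValuationSubring K)
    (hx : (∏ l ∈ Finset.range (n + 1), J l) ∈ V) : ∀ l, l ≤ n → J l ∈ V := by
  have h0 : J 0 ∈ V := by
    by_contra h0
    have := (one_lt_val_prod818 hq hΦ J n hchain V h0).2
    exact absurd ((V.valuation_le_one_iff _).2 hx) (not_le.2 this)
  intro l
  induction l with
  | zero => intro _; exact h0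
  | succ l ih =>
    intro hl
    exact mem_of_eval2 hΦ.monic (hchain l (by omega)) V (ih (by omega))

/-- At a cusp (the inverse of the product is a non-unit) the inverses of all the members of the
chain are non-units. -/
theorem inv_mem_nonunits_of_prod818 (hq : 0 < q) (hΦ : IsModularShape q Φ) (J : ℕ → K) (n : ℕ)
    (hchain : ∀ l, l < n → eval2 Φ (J l) (J (l + 1)) = 0)
    (hne : (∏ l ∈ Finset.range (n + 1), J l) ≠ 0) (V : ValuationSubring K)
    (hx : (∏ l ∈ Finset.range (n + 1), J l)⁻¹ ∈ V.nonunits) :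
    ∀ l, l ≤ n → (J l)⁻¹ ∈ V.nonunits := by
  have h0 : J 0 ∉ V := by
    intro h0
    have hall : ∀ l, l ≤ n → J l ∈ V := by
      intro l
      induction l with
      | zero => intro _; exact h0
      | succ l ih =>
        intro hl
        exact mem_of_eval2 hΦ.monic (hchain l (by omega)) V (ih (by omega))
    have hxV : (∏ l ∈ Finset.range (n + 1), J l) ∈ V :=
      Subring.prod_mem V.toSubring fun k hk => hall k (by
        have := Finset.mem_range.1 hk
        omega)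
    have h1 : V.valuation (∏ l ∈ Finset.range (n + 1), J l) ≤ 1 :=
      (V.valuation_le_one_iff _).mpr hxV
    rw [V.mem_nonunits_iff, map_inv₀] at hx
    have h00 : V.valuation (∏ l ∈ Finset.range (n + 1), J l) ≠ 0 :=
      (Valuation.ne_zero_iff _).mpr hne
    have h2 : 1 ≤ (V.valuation (∏ l ∈ Finset.range (n + 1), J l))⁻¹ :=
      (one_le_inv₀ (zero_lt_iff.mpr h00)).mpr h1
    exact absurd hx (not_lt.mpr h2)
  intro l hl
  have hB := (one_lt_val_prod818 hq hΦ J n hchain V h0).1 l hl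
  rw [V.mem_nonunits_iff, map_inv₀]
  exact inv_lt_one_of_one_lt₀ hB

end Abs

/-! ## The leaves -/

section Leaves

theorem xLev_ne_zero818 (E : IntermediateField ℚ A2.Qb) (N q : ℕ) [NeZero N] [NeZero q]
    (n : ℕ) : xLev E N q n ≠ 0 := by
  unfold xLev
  exact Finset.prod_ne_zero_iff.2 fun l _ => jLev_ne_zero818 E N q l

/-- **CHART-J (leaf), unconditional.** -/
theorem leafChartJ818 : Reg.LeafChartJ := by
  intro P E N q _ _ n hq hexp l hl
  have hN : q ^ n ∣ N := by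
    rw [← hexp]
    exact Nat.ordProj_dvd N q
  obtain ⟨D⟩ := S28.H807.nonempty_modPolyData q hq
  have hΦ := S15.H386.isModularShape_of_modPolyData D hq.one_lt
  have hchain : ∀ k, k < n → eval2 D.Φ (jLev E N q k) (jLev E N q (k + 1)) = 0 := fun k hk =>
    jLev_chain818 E N q D (Dvd.dvd.trans (pow_dvd_pow q (by omega)) hN)
  refine ⟨?_, ?_⟩
  · refine S36.Mod3.H189.mem_chart_of_forall_valuationSubring fun V hV => ?_
    exact mem_of_prod_mem818 hq.pos hΦ (jLev E N q) n hchain V hV l hl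
  · refine S36.Mod3.H189.mem_chart_of_forall_valuationSubring fun V hV => ?_
    exact jLev_inv_mem818 E N q hq n hN V hV l hl

/-- **CUSP-POLES (leaf C6'), unconditional.** -/
theorem leafCuspPoles818 : Reg.LeafCuspPoles := by
  intro P E N q _ _ n hq hexp 𝔪 h𝔪 hx l hl y hy
  have hN : q ^ n ∣ N := by
    rw [← hexp]
    exact Nat.ordProj_dvd N q
  obtain ⟨D⟩ := S28.H807.nonempty_modPolyData q hq
  have hΦ := S15.H386.isModularShape_of_modPolyData D hq.one_lt
  have hchain : ∀ k, k < n → eval2 D.Φ (jLev E N q k) (jLev E N q (k + 1)) = 0 := fun k hk =>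
    jLev_chain818 E N q D (Dvd.dvd.trans (pow_dvd_pow q (by omega)) hN)
  obtain ⟨V, -, hV⟩ := exists_dominating _ 𝔪 h𝔪
  have hxV : (∏ k ∈ Finset.range (n + 1), jLev E N q k)⁻¹ ∈ V.nonunits := (hV _).mp hx
  have h := inv_mem_nonunits_of_prod818 hq.pos hΦ (jLev E N q) n hchain
    (xLev_ne_zero818 E N q n) V hxV l hl
  rw [hV y, hy]
  exact h

end Leaves

end Fermat.Agent.S45.Reg.H818

end

end
-- ===== PACK-END S45/Reg/H818/CuspLeaves.lean

-- ===== PACK-BEGIN S45/H867/CuspBase.lean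
section


/-!
# S45 / CAR3, MOD-E/Reg at the CUSPS: the BASE at level `M q q` (helper867, OFF-MAIN)

Split of helper820 (`origin/helper820:coord/S45-CUSP-helper820.md`, sec. 5): the cusp invariant
at exponent `2` from row S36.  Everything is stated for the S36 objects (`Mod3.Objs`, sheets
`V₁ = V 0`, `V₂ = V 1` (mid), `V₃ = V 2`) AND bridged to the vocabulary of `ModE/Spec.lean`
(`jLev`, `xLev`).

* `tc2`                 : the diagonal generator of helper820 at `e = 2`, `c = 1`: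
                          `Tc = (J 2 - J 0) · (J 0)⁻¹ · J 1 / (J 2) ^ q`
                          (the Fricke mirror of `S36.Mod3.H276.tcusp`, up to sign);
* `tc2_mem_chart`       : `Tc ∈ chart R {x⁻¹}`;
* `tc2_unifAt`          : `Tc` is a uniformiser of the middle sheet;
* `tc2_eq_tcusp_mul`    : `Tc = tcusp · (J 0 / J 2) ^ (q - 1)`, and the factor is `≡ 1` on the
                          middle sheet (`eps2_sub_one_mem`);
* `cuspCong_tc2`        : the cusp congruence `Tc ^ N g₂ ≡ w ^ k g₁ mod w ^ k 𝔪_{V₂}` with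
                          `g₁ ∉ 𝔪` at EVERY cusp `𝔪` (from `H276.CuspCong`);
* `leafCuspBase867`     : all of it at the concrete objects, UNCONDITIONAL
                          (`H96.leafCuspCong96`, `H27.leafVT`, `H370.leafVal`, `H860.leafSheet`);
* the bridge to `ModE.jLev`, `ModE.xLev` at the level `M q q` is in `S45/H867/CuspBridge.lean`
  (`jLev_zero867`, `jLev_one867`, `jLev_two867`, `xLev_two867`, `tc2_eq_jLev867`).

Imports: files ON MAIN only.
-/

set_option autoImplicit false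
set_option linter.style.haveILetI false
set_option linter.unusedSectionVars false
set_option synthInstance.maxHeartbeats 400000
set_option maxHeartbeats 1600000

noncomputable section

namespace Fermat.Agent.S45.H867

open ModularCurve Polynomial
open Fermat.Agent.S18.H138 (chart mem_chart_of_mem)
open Fermat.Agent Fermat.Agent.S36 Fermat.Agent.S36.Eng Fermat.Agent.S36.Mod3
open Fermat.Agent.S15.H962 (IsModularShape eval2)

/-! ## Generic valuation lemmas -/

section Generic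

variable {F : Type*} [Field F]

theorem add_mem_nonunits867 (V : ValuationSubring F) {a b : F} (ha : a ∈ V.nonunits)
    (hb : b ∈ V.nonunits) : a + b ∈ V.nonunits := by
  rw [ValuationSubring.mem_nonunits_iff] at ha hb ⊢
  exact lt_of_le_of_lt (V.valuation.map_add a b) (max_lt ha hb)

theorem mul_mem_nonunits867 (V : ValuationSubring F) {a b : F} (ha : a ∈ V.nonunits)
    (hb : b ∈ V) : a * b ∈ V.nonunits := by
  rw [ValuationSubring.mem_nonunits_iff, map_mul]
  exact mul_lt_one_of_lt_of_le ((V.mem_nonunits_iff).1 ha) ((V.valuation_le_one_iff b).2 hb)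

theorem mem_of_mem_nonunits867 (V : ValuationSubring F) {a : F} (ha : a ∈ V.nonunits) : a ∈ V :=
  (V.valuation_le_one_iff a).1 ((V.mem_nonunits_iff).1 ha).le

/-- `ε ≡ 1` ⟹ `ε ^ n ≡ 1`. -/
theorem pow_sub_one_mem_nonunits867 (V : ValuationSubring F) {ε : F}
    (hε : ε - 1 ∈ V.nonunits) (n : ℕ) : ε ^ n - 1 ∈ V.nonunits := by
  have hεV : ε ∈ V := by
    have : ε = (ε - 1) + 1 := by ring
    rw [this]
    exact V.add_mem _ _ (mem_of_mem_nonunits867 V hε) V.one_mem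
  induction n with
  | zero =>
    simp only [pow_zero, sub_self]
    rw [ValuationSubring.mem_nonunits_iff]
    simp
  | succ n ih =>
    have e : ε ^ (n + 1) - 1 = (ε ^ n - 1) * ε + (ε - 1) := by ring
    rw [e]
    exact add_mem_nonunits867 V (mul_mem_nonunits867 V ih hεV) hε

/-- **Change of generator.**  If `T = x · ε` with `ε ≡ 1` modulo `𝔪_V`, a congruence
`x ^ N g₂ ≡ c g₁` modulo `c 𝔪_V` (`g₁ ∈ V`) holds for `T` as well. -/
theorem cong_of_mul_unit867 (V : ValuationSubring F) (T x ε g₁ g₂ c : F) (N : ℕ)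
    (hc0 : c ≠ 0) (hT : T = x * ε) (hε : ε - 1 ∈ V.nonunits) (hg₁ : g₁ ∈ V)
    (hcong : (x ^ N * g₂ - c * g₁) * c⁻¹ ∈ V.nonunits) :
    (T ^ N * g₂ - c * g₁) * c⁻¹ ∈ V.nonunits := by
  have hεN := pow_sub_one_mem_nonunits867 V hε N
  have hεNV : ε ^ N ∈ V := by
    have : ε ^ N = (ε ^ N - 1) + 1 := by ring
    rw [this]
    exact V.add_mem _ _ (mem_of_mem_nonunits867 V hεN) V.one_mem
  have e : (T ^ N * g₂ - c * g₁) * c⁻¹
      = (x ^ N * g₂ - c * g₁) * c⁻¹ * ε ^ N + (ε ^ N - 1) * g₁ := by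
    rw [hT, mul_pow]
    field_simp
    ring
  rw [e]
  exact add_mem_nonunits867 V (mul_mem_nonunits867 V hcong hεNV)
    (mul_mem_nonunits867 V hεN hg₁)

end Generic

/-! ## The diagonal generator at level `M q q` -/

section Tc

variable (P : ValuationSubring A2.Qb) (E : IntermediateField ℚ A2.Qb) (M q : ℕ)
  [NeZero M] [NeZero q] [NeZero (M * q)]

/-- **The diagonal cusp generator** of helper820 at `e = 2`:
`Tc = (J 2 - J 0) · (J 0)⁻¹ · (J 1 / (J 2) ^ q)`. -/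
def tc2 : A2.Mod.FE E (M * q * q) :=
  (jqq E M q - j1 E M q) * (j1 E M q)⁻¹ * (jq E M q * (jqq E M q ^ q)⁻¹)

/-- The factor `ε = (J 0 / J 2) ^ (q - 1)` with `Tc = tcusp · ε`. -/
def eps2 : A2.Mod.FE E (M * q * q) := (j1 E M q * (jqq E M q)⁻¹) ^ (q - 1)

theorem tc2_eq_neg :
    tc2 E M q = -((j1 E M q - jqq E M q) * jq E M q * (jqq E M q ^ q * j1 E M q)⁻¹) := by
  unfold tc2
  have h1 := H276.j1_ne_zero E M q
  have h3 := H276.jqq_ne_zero E M q
  field_simp
  ring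

theorem tc2_eq_tcusp_mul (hq : 0 < q) : tc2 E M q = H276.tcusp E M q * eps2 E M q := by
  have h1 := H276.j1_ne_zero E M q
  have h3 := H276.jqq_ne_zero E M q
  have hqq : ∀ z : A2.Mod.FE E (M * q * q), z ^ q = z ^ (q - 1) * z := by
    intro z
    rw [← pow_succ]
    congr 1
    omega
  unfold tc2 H276.tcusp eps2
  rw [mul_pow, inv_pow, hqq (j1 E M q), hqq (jqq E M q)]
  have h1r : j1 E M q ^ (q - 1) ≠ 0 := pow_ne_zero _ h1
  have h3r : jqq E M q ^ (q - 1) ≠ 0 := pow_ne_zero _ h3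
  field_simp

/-- **`Tc ∈ chart R {x⁻¹}`.** -/
theorem tc2_mem_chart (hq : q.Prime) :
    tc2 E M q ∈ chart (A2.RE P E) ({(x3E E M q)⁻¹} : Set (A2.Mod.FE E (M * q * q))) := by
  obtain ⟨D⟩ := S28.H807.nonempty_modPolyData q hq
  have hΦ := S15.H386.isModularShape_of_modPolyData D hq.one_lt
  refine H189.mem_chart_of_forall_valuationSubring fun V hV => ?_
  obtain ⟨hu, -, hr⟩ := H276.inv_mem_of_inv_mem E M q hq V hV
  have h := H276.tcusp_mem hq.two_le hΦ (H276.eval2_jqq_jq E M q D) (H276.eval2_jq_j1 E M q D)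
    V hr hu
  rw [tc2_eq_neg]
  exact neg_mem h

/-- `ε ≡ 1` on the middle sheet. -/
theorem eps2_sub_one_mem (hq : q.Prime) (V₂ : ValuationSubring (A2.Mod.FE E (M * q * q)))
    (hxV : UnitAt V₂ (x3E E M q)) (hk : jqq E M q - j1 E M q ∈ V₂.nonunits) :
    eps2 E M q - 1 ∈ V₂.nonunits := by
  obtain ⟨-, -, ⟨c0, c1, c2⟩⟩ := H276.unitAt_of_x_unit E M q hq V₂ hxV
  unfold eps2
  apply pow_sub_one_mem_nonunits867
  have e : j1 E M q * (jqq E M q)⁻¹ - 1 = -(jqq E M q - j1 E M q) * (jqq E M q)⁻¹ := by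
    field_simp
    ring
  rw [e]
  refine mul_mem_nonunits867 V₂ ?_ c2
  rw [ValuationSubring.mem_nonunits_iff, Valuation.map_neg]
  exact (V₂.mem_nonunits_iff).1 hk

/-- **`Tc` is a uniformiser of the middle sheet.** -/
theorem tc2_unifAt (hq : q.Prime) (V₂ : ValuationSubring (A2.Mod.FE E (M * q * q)))
    (hxV : UnitAt V₂ (x3E E M q)) (hπ : UnifAt V₂ (jqq E M q - j1 E M q)) :
    UnifAt V₂ (tc2 E M q) := by
  obtain ⟨⟨a0, a1, a2⟩, ⟨b0, b1, b2⟩, ⟨c0, c1, c2⟩⟩ := H276.unitAt_of_x_unit E M q hq V₂ hxV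
  have e : tc2 E M q = (jqq E M q - j1 E M q)
      * ((j1 E M q)⁻¹ * (jq E M q * (jqq E M q ^ q)⁻¹)) := by
    unfold tc2
    ring
  rw [e]
  refine H276.unifAt_mul_unit hπ ⟨?_, ?_, ?_⟩
  · exact mul_ne_zero (inv_ne_zero a0) (mul_ne_zero b0 (inv_ne_zero (pow_ne_zero q c0)))
  · rw [← inv_pow]
    exact V₂.mul_mem _ _ a2 (V₂.mul_mem _ _ b1 (V₂.pow_mem c2 q))
  · rw [mul_inv, mul_inv, inv_inv, inv_inv]
    exact V₂.mul_mem _ _ a1 (V₂.mul_mem _ _ b2 (V₂.pow_mem c1 q))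

/-- **The cusp congruence for `Tc`** from the S36 cusp congruence: `g₁ ∉ 𝔪` at EVERY cusp. -/
theorem cuspCong_tc2 (hq : q.Prime) (w : A2.RE P E)
    (V₂ : ValuationSubring (A2.Mod.FE E (M * q * q)))
    (hbase : ∀ r : A2.RE P E, algebraMap (A2.RE P E) (A2.Mod.FE E (M * q * q)) r ∈ V₂)
    (hw0 : algebraMap (A2.RE P E) (A2.Mod.FE E (M * q * q)) w ≠ 0)
    (hxV : UnitAt V₂ (x3E E M q)) (hk : jqq E M q - j1 E M q ∈ V₂.nonunits)
    (hcong : H276.CuspCong P E M q w V₂) :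
    ∃ (g₁ g₂ : chart (A2.RE P E) ({(x3E E M q)⁻¹} : Set (A2.Mod.FE E (M * q * q))))
      (k N : ℕ), 0 < N ∧
      (∀ 𝔪 : Ideal (chart (A2.RE P E) ({(x3E E M q)⁻¹} : Set (A2.Mod.FE E (M * q * q)))),
        𝔪.IsMaximal →
        (⟨(x3E E M q)⁻¹, mem_chart_of_mem rfl⟩ :
          chart (A2.RE P E) ({(x3E E M q)⁻¹} : Set (A2.Mod.FE E (M * q * q)))) ∈ 𝔪 →
        g₁ ∉ 𝔪) ∧
      (tc2 E M q ^ N * (g₂ : A2.Mod.FE E (M * q * q))
          - algebraMap (A2.RE P E) (A2.Mod.FE E (M * q * q)) w ^ k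
            * (g₁ : A2.Mod.FE E (M * q * q)))
        * (algebraMap (A2.RE P E) (A2.Mod.FE E (M * q * q)) w ^ k)⁻¹ ∈ V₂.nonunits := by
  obtain ⟨h, c, g₂, n, k, N, hN, hh, hc⟩ := hcong
  refine ⟨h ^ n, g₂, k, N, hN, ?_, ?_⟩
  · intro 𝔪 h𝔪 hx hmem
    exact H276.one_add_not_mem_of_cusp P E M q hq 𝔪 h𝔪 hx h c hh
      (h𝔪.isPrime.mem_of_pow_mem n hmem)
  · have hB₂ := H276.chart_le_h276 (R := A2.RE P E) V₂ hbase hxV.2.2
    have hg₁ : (((h ^ n : chart (A2.RE P E)
        ({(x3E E M q)⁻¹} : Set (A2.Mod.FE E (M * q * q)))) : A2.Mod.FE E (M * q * q))) ∈ V₂ :=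
      hB₂ (h ^ n)
    have hc' : (H276.tcusp E M q ^ N * (g₂ : A2.Mod.FE E (M * q * q))
        - algebraMap (A2.RE P E) (A2.Mod.FE E (M * q * q)) w ^ k
          * (((h ^ n : chart (A2.RE P E)
            ({(x3E E M q)⁻¹} : Set (A2.Mod.FE E (M * q * q)))) : A2.Mod.FE E (M * q * q))))
        * (algebraMap (A2.RE P E) (A2.Mod.FE E (M * q * q)) w ^ k)⁻¹ ∈ V₂.nonunits := by
      simpa using hc
    exact cong_of_mul_unit867 V₂ (tc2 E M q) (H276.tcusp E M q) (eps2 E M q) _ _ _ N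
      (pow_ne_zero k hw0) (tc2_eq_tcusp_mul E M q hq.pos)
      (eps2_sub_one_mem E M q hq V₂ hxV hk) hg₁ hc'

end Tc

/-! ## The leaf -/

section Leaf

/-- **BASE of the cusp invariant** (exponent `2`), at the concrete objects of row S36:
the diagonal generator `Tc` lies in the chart at infinity, is a uniformiser of the middle sheet,
and satisfies a cusp congruence with `g₁ ∉ 𝔪` at every cusp. -/
def LeafCuspBase867 : Prop :=
  Mod3.Leaf fun P E M q _ _ _ w _ _ _ V₂ _ =>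
    tc2 E M q ∈ chart (A2.RE P E) ({(x3E E M q)⁻¹} : Set (A2.Mod.FE E (M * q * q))) ∧
    UnifAt V₂ (tc2 E M q) ∧
    ∃ (g₁ g₂ : chart (A2.RE P E) ({(x3E E M q)⁻¹} : Set (A2.Mod.FE E (M * q * q))))
      (k N : ℕ), 0 < N ∧
      (∀ 𝔪 : Ideal (chart (A2.RE P E) ({(x3E E M q)⁻¹} : Set (A2.Mod.FE E (M * q * q)))),
        𝔪.IsMaximal →
        (⟨(x3E E M q)⁻¹, mem_chart_of_mem rfl⟩ :
          chart (A2.RE P E) ({(x3E E M q)⁻¹} : Set (A2.Mod.FE E (M * q * q)))) ∈ 𝔪 →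
        g₁ ∉ 𝔪) ∧
      (tc2 E M q ^ N * (g₂ : A2.Mod.FE E (M * q * q))
          - algebraMap (A2.RE P E) (A2.Mod.FE E (M * q * q)) w ^ k
            * (g₁ : A2.Mod.FE E (M * q * q)))
        * (algebraMap (A2.RE P E) (A2.Mod.FE E (M * q * q)) w ^ k)⁻¹ ∈ V₂.nonunits

/-- **BASE of the cusp invariant**, from the S36 leaves. -/
theorem leafCuspBase_of867 (hVT : Mod3.LeafVT) (hVal : Mod3.LeafVal) (hSheet : Mod3.LeafSheet)
    (hC : H276.LeafCuspCong) : LeafCuspBase867 := by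
  intro P E M q _ _ _ w hstd V₁' V₂' V₁ V₂ V₃ W' W hobj
  have hvt := hVT P E M q w hstd V₁' V₂' V₁ V₂ V₃ W' W hobj
  have hval := hVal P E M q w hstd V₁' V₂' V₁ V₂ V₃ W' W hobj
  have hsh := hSheet P E M q w hstd V₁' V₂' V₁ V₂ V₃ W' W hobj
  have hc := hC P E M q w hstd V₁' V₂' V₁ V₂ V₃ W' W hobj
  refine ⟨tc2_mem_chart P E M q hstd.q_prime,
    tc2_unifAt E M q hstd.q_prime V₂ hval.x_unit₂ hvt.pi_unif, ?_⟩
  exact cuspCong_tc2 P E M q hstd.q_prime w V₂ hsh.base₂ hval.unif₁.1 hval.x_unit₂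
    hvt.kron₂.2 hc

/-- **BASE of the cusp invariant, UNCONDITIONAL** (all inputs on main). -/
theorem leafCuspBase867 : LeafCuspBase867 :=
  leafCuspBase_of867 Mod3.H27.leafVT Mod3.H370.leafVal Mod3.H860.leafSheet
    Mod3.H96.leafCuspCong96

end Leaf

end Fermat.Agent.S45.H867

end

end
-- ===== PACK-END S45/H867/CuspBase.lean

-- ===== PACK-BEGIN S45/H867/CuspBridge.lean
section



/-!
# S45 / CAR3, MOD-E/Reg at the CUSPS: bridge of the BASE to `ModE/Spec.lean` (helper867)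

At the level `M q q` (exponent `2`): `ModE.jLev _ _ q 0 = j1`, `jLev 1 = jq`, `jLev 2 = jqq`,
`ModE.xLev _ _ q 2 = x3E`, and the diagonal generator `tc2` in terms of `jLev`.
`ModE/Spec.lean` = the file of helper928 (origin/helper928), copied byte-identical.
-/

set_option autoImplicit false
set_option linter.style.haveILetI false
set_option linter.unusedSectionVars false
set_option synthInstance.maxHeartbeats 400000
set_option maxHeartbeats 1600000

noncomputable section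

namespace Fermat.Agent.S45.H867

open ModularCurve Polynomial
open Fermat.Agent Fermat.Agent.S36 Fermat.Agent.S36.Eng Fermat.Agent.S36.Mod3

/-! ## Bridge to `ModE.jLev`, `ModE.xLev` -/

section Bridge

variable (E : IntermediateField ℚ A2.Qb) (M q : ℕ) [NeZero M] [NeZero q] [NeZero (M * q)]

theorem jE_congr867 (N : ℕ) [NeZero N] {d d' : ℕ} [NeZero d] [NeZero d'] (hd : d = d')
    (h : d ∣ N) (h' : d' ∣ N) : A2.Mod.jE E N d h = A2.Mod.jE E N d' h' := by
  subst hd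
  rfl

theorem jLev_zero867 : ModE.jLev E (M * q * q) q 0 = j1 E M q := by
  unfold ModE.jLev j1
  rw [dif_pos (by simp)]
  exact jE_congr867 E (M * q * q) (pow_zero q) _ _

theorem jLev_one867 : ModE.jLev E (M * q * q) q 1 = jq E M q := by
  unfold ModE.jLev Mod3.jq
  rw [dif_pos (by rw [pow_one]; exact Dvd.intro_left (M * q) rfl)]
  exact jE_congr867 E (M * q * q) (pow_one q) _ _

theorem jLev_two867 : ModE.jLev E (M * q * q) q 2 = jqq E M q := by
  unfold ModE.jLev jqq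
  rw [dif_pos (by rw [pow_two]; exact ⟨M, by ring⟩)]
  exact jE_congr867 E (M * q * q) (pow_two q) _ _

theorem xLev_two867 : ModE.xLev E (M * q * q) q 2 = x3E E M q := by
  unfold ModE.xLev x3E
  rw [Finset.prod_range_succ, Finset.prod_range_succ, Finset.prod_range_one, jLev_zero867,
    jLev_one867, jLev_two867]

/-- `Tc` in the vocabulary of `ModE/Spec.lean`. -/
theorem tc2_eq_jLev867 : tc2 E M q =
    (ModE.jLev E (M * q * q) q 2 - ModE.jLev E (M * q * q) q 0)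
      * (ModE.jLev E (M * q * q) q 0)⁻¹
      * (ModE.jLev E (M * q * q) q 1 * (ModE.jLev E (M * q * q) q 2 ^ q)⁻¹) := by
  rw [jLev_zero867, jLev_one867, jLev_two867]
  rfl

end Bridge

end Fermat.Agent.S45.H867

end

end
-- ===== PACK-END S45/H867/CuspBridge.lean

-- ===== PACK-BEGIN S45/H867/BaseI.lean
section



/-!
# S45 / CAR3 / MOD-E / REG: the leaf `Reg.LeafBaseI` (1st owner helper867, OFF-MAIN)

`Reg.LeafBaseI` (`origin/helper878:Fermat/Agent/S45/Reg/Spec.lean`, sha256 `2d17d07d…`): the part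
at infinity `InvI` of the invariant `RegInv` at the level `M q q` (exponent `2`), for the objects
of row S36.

* `Prec` of the chain `J = jLev` modulo `w` on the three sheets:
  - on `V 0 = V∞` and `V 2 = V∞ ∘ W` the element `w` is a uniformiser, so the congruences
    modulo `𝔪_V` of `Mod3.LeafVT` (`kron₁`, `kron₃`) ARE congruences modulo `w`;
  - on the middle sheet `V 1` (`v(w) = q - 1`): the Kronecker decomposition
    `Φ_q = (Y ^ q - X)(Y - X ^ q) + q Θ` (`S28.h88_kronecker_int`), the modular equations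
    `Φ_q(j_q, j) = 0 = Φ_q(j_q, j_{q²})` and the KRONECKER UNIT `j_q ^ q - j` (a unit of `V∞` at
    level `M q`, `S36.H816.kron_unit_jE`, pulled back along `α`).
* the lite package of the middle sheet with `x = tc2` (`S45/H867/CuspBase.lean`): the cusp
  congruence of row S36 (`H96.leafCuspCong96`), `g₁ = h ^ n`, `h = 1 + j⁻¹ c ∉ 𝔪` at every prime
  `𝔪 ∋ j⁻¹`; `tc2 / dC = (j_{q²} / j) (j_q / j_{q²} ^ q) ≡ 1` on the middle sheet.

Result: `leafBaseI867 : Reg.LeafBaseI` (UNCONDITIONAL).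
-/

set_option autoImplicit false
set_option linter.style.haveILetI false
set_option linter.unusedSectionVars false
set_option synthInstance.maxHeartbeats 400000
set_option maxHeartbeats 1600000

noncomputable section

namespace Fermat.Agent.S45.H867

open ModularCurve Polynomial
open Fermat.Agent.S18.H138 (chart mem_chart_of_mem)
open Fermat.Agent Fermat.Agent.S36 Fermat.Agent.S36.Eng Fermat.Agent.S36.Mod3
open Fermat.Agent.S15.H962 (IsModularShape eval2)

/-! ## Generic lemmas -/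

section GenericI

variable {F : Type*} [Field F]

/-- `eval2 Θ a b ∈ V` for `a, b ∈ V`. -/
theorem eval2_mem867 (V : ValuationSubring F) (Θ : ℤ[X][X]) {a b : F} (ha : a ∈ V)
    (hb : b ∈ V) : eval2 Θ a b ∈ V := by
  unfold eval2
  refine A2.Mod.H378.eval₂_mem_subring _ b V.toSubring (fun r => ?_) hb Θ
  show Polynomial.eval₂ (Int.castRingHom F) a r ∈ V.toSubring
  refine A2.Mod.H378.eval₂_mem_subring _ a V.toSubring (fun n => ?_) ha r
  rw [eq_intCast]
  exact intCast_mem V.toSubring n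

/-- The Kronecker decomposition, evaluated. -/
theorem eval2_kron867 (q : ℕ) (Θ : ℤ[X][X]) (a b : F) :
    eval2 ((X ^ q - C X) * (X - C (X ^ q)) + C (C (q : ℤ)) * Θ) a b
      = (b ^ q - a) * (b - a ^ q) + (q : F) * eval2 Θ a b := by
  simp [eval2, eval₂_add, eval₂_mul, eval₂_sub, eval₂_pow]

/-- unit minus nonunit is a unit. -/
theorem unitAt_sub_nonunit867 (V : ValuationSubring F) {u m : F} (hu : UnitAt V u)
    (hm : m ∈ V.nonunits) : UnitAt V (u - m) := by
  obtain ⟨u0, u1, u2⟩ := hu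
  have hle : V.valuation u ≤ 1 := (V.valuation_le_one_iff u).2 u1
  have hle' : V.valuation u⁻¹ ≤ 1 := (V.valuation_le_one_iff _).2 u2
  have hmul : V.valuation u * V.valuation u⁻¹ = 1 := by
    rw [← map_mul, mul_inv_cancel₀ u0, map_one]
  have hv1 : V.valuation u = 1 := by
    apply le_antisymm hle
    calc (1 : _) = V.valuation u * V.valuation u⁻¹ := hmul.symm
      _ ≤ V.valuation u * 1 := by gcongr
      _ = V.valuation u := mul_one _
  have hvm : V.valuation m < 1 := (V.mem_nonunits_iff).1 hm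
  have hv : V.valuation (u - m) = 1 := by
    rw [Valuation.map_sub_eq_of_lt_left _ (by rw [hv1]; exact hvm), hv1]
  have h0 : u - m ≠ 0 := by
    intro h
    rw [h, map_zero] at hv
    exact zero_ne_one hv
  refine ⟨h0, (V.valuation_le_one_iff _).1 hv.le, (V.valuation_le_one_iff _).1 ?_⟩
  rw [map_inv₀, hv, inv_one]

end GenericI

/-! ## The Kronecker congruences modulo `w` on the middle sheet -/

section KronW

variable (P : ValuationSubring A2.Qb) (E : IntermediateField ℚ A2.Qb) (M q : ℕ)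
  [NeZero M] [NeZero q] [NeZero (M * q)]

/-- **The Kronecker unit on the middle sheet**: `j_q ^ q - j` is a unit of `V₂`
(it is `α` of the Kronecker unit of `V∞` at level `M q`). -/
theorem kronUnit_mid867 (w : A2.RE P E) (hStd : Mod3.Std P E M q w)
    {V₁' : ValuationSubring (A2.Mod.FE E (M * q))}
    {V₂ : ValuationSubring (A2.Mod.FE E (M * q * q))}
    (hvinf' : A2.Mod.IsVinf P E (M * q) V₁')
    (hmid : V₂.comap (A2.Mod.αE E (M * q) q : A2.Mod.FE E (M * q) →+* A2.Mod.FE E (M * q * q))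
      = V₁') :
    UnitAt V₂ (jq E M q ^ q - j1 E M q) := by
  have hS : A2.Mod.Setting P E M q w := Mod3.H816.setting_of_std hStd
  haveI : IsDiscreteValuationRing (A2.RE P E) := hS.dvr
  have hq : q.Prime := hS.q_prime
  have hd1 : (1 : ℕ) ∣ M * q := one_dvd _
  have hdq : 1 * q ∣ M * q := mul_dvd_mul_right (one_dvd M) q
  obtain ⟨hne, hinv⟩ := S36.H816.kron_unit_jE hq hvinf' 1 hd1 hdq
  have hmem : (A2.Mod.jE E (M * q) (1 * q) hdq) ^ q - A2.Mod.jE E (M * q) 1 hd1 ∈ V₁' :=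
    sub_mem (pow_mem (S36.H816.jE_mem hvinf' (1 * q) hdq) q)
      (S36.H816.jE_mem hvinf' 1 hd1)
  have hcα : ∀ g : A2.Mod.FE E (M * q), A2.Mod.αE E (M * q) q g ∈ V₂ ↔ g ∈ V₁' := fun g => by
    have h2 : g ∈ V₂.comap (A2.Mod.αE E (M * q) q :
        A2.Mod.FE E (M * q) →+* A2.Mod.FE E (M * q * q)) ↔ g ∈ V₁' := by
      rw [hmid]
    rw [ValuationSubring.mem_comap] at h2
    exact h2
  have e : jq E M q ^ q - j1 E M q
      = A2.Mod.αE E (M * q) q
          ((A2.Mod.jE E (M * q) (1 * q) hdq) ^ q - A2.Mod.jE E (M * q) 1 hd1) := by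
    rw [map_sub, map_pow, A2.Mod.H553.αE_jE E (M * q) q (1 * q) hdq,
      A2.Mod.H553.αE_jE E (M * q) q 1 hd1]
    congr 1
    congr 1
    exact jE_congr867 E (M * q * q) (one_mul q).symm _ _
  rw [e]
  refine ⟨(_root_.map_ne_zero _).2 hne, (hcα _).2 hmem, ?_⟩
  rw [← map_inv₀]
  exact (hcα _).2 hinv

variable {P E M q}

/-- **Frobenius modulo `w`, abstract form.**  If `Φ(a, b) = 0` for the Kronecker decomposition
`Φ = (Y ^ q - X)(Y - X ^ q) + q Θ`, `q = w u` and `d` is a unit of `V` with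
`d · (b - a ^ q) = ± (b ^ q - a) (b - a ^ q)`, then `(b - a ^ q) / w ∈ V`. -/
theorem kron_div867 {F : Type*} [Field F] (V : ValuationSubring F) (Θ : ℤ[X][X]) {a b W U : F}
    (ha : a ∈ V) (hb : b ∈ V) (hU : U ∈ V) (hW0 : W ≠ 0) (hqW : ((q : ℕ) : F) = W * U)
    (h0 : (b ^ q - a) * (b - a ^ q) + (q : F) * eval2 Θ a b = 0)
    (hunit : UnitAt V (b ^ q - a)) : (b - a ^ q) * W⁻¹ ∈ V := by
  obtain ⟨d0, -, d2⟩ := hunit
  have hθ := eval2_mem867 V Θ ha hb
  have e : (b - a ^ q) * W⁻¹ = -(U * eval2 Θ a b * (b ^ q - a)⁻¹) := by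
    have h1 : (b ^ q - a) * (b - a ^ q) = -(W * U * eval2 Θ a b) := by
      rw [← hqW]
      exact eq_neg_of_add_eq_zero_left h0
    have h2 : b - a ^ q = -(W * U * eval2 Θ a b) * (b ^ q - a)⁻¹ := by
      rw [← h1]
      field_simp
    rw [h2]
    field_simp
  rw [e]
  exact neg_mem (V.mul_mem _ _ (V.mul_mem _ _ hU hθ) d2)

end KronW

/-! ## The base case at the concrete objects -/

section Base

variable (P : ValuationSubring A2.Qb) (E : IntermediateField ℚ A2.Qb) (M q : ℕ)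
  [NeZero M] [NeZero q] [NeZero (M * q)]

/-- **Frobenius and Verschiebung modulo `w` on the middle sheet.** -/
theorem kronW_mid867 (w : A2.RE P E) (hStd : Mod3.Std P E M q w)
    (V₁' V₂' : ValuationSubring (A2.Mod.FE E (M * q)))
    (V₁ V₂ V₃ : ValuationSubring (A2.Mod.FE E (M * q * q)))
    (hvinf' : A2.Mod.IsVinf P E (M * q) V₁')
    (hmid : V₂.comap (A2.Mod.αE E (M * q) q : A2.Mod.FE E (M * q) →+* A2.Mod.FE E (M * q * q))
      = V₁')
    (hval : PartVal (R := A2.RE P E) w q (x3E E M q) V₁ V₂ V₃)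
    (hsheet : PartSheet (R := A2.RE P E) w (x3E E M q) V₁ V₂ V₃)
    (hvt : PartVT (R := A2.RE P E) w q (A2.Mod.αE E (M * q) q) (A2.Mod.βE E (M * q) q)
      (j1 E M q) (jq E M q) (jqq E M q) V₁ V₂ V₃ V₁' V₂') :
    (jq E M q - j1 E M q ^ q) * (algebraMap (A2.RE P E) (A2.Mod.FE E (M * q * q)) w)⁻¹ ∈ V₂ ∧
    (jq E M q - jqq E M q ^ q) * (algebraMap (A2.RE P E) (A2.Mod.FE E (M * q * q)) w)⁻¹
      ∈ V₂ := by
  have hq : q.Prime := hStd.q_prime
  haveI : Fact q.Prime := ⟨hq⟩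
  obtain ⟨D⟩ := S28.H807.nonempty_modPolyData q hq
  obtain ⟨Θ, hK⟩ := S28.h88_kronecker_int q D
  obtain ⟨⟨a0, a1, a2⟩, ⟨b0, b1, b2⟩, ⟨c0, c1, c2⟩⟩ :=
    H276.unitAt_of_x_unit E M q hq V₂ hval.x_unit₂
  obtain ⟨u, hu⟩ := H27.vt27_unram hStd
  have hW0 : algebraMap (A2.RE P E) (A2.Mod.FE E (M * q * q)) w ≠ 0 := hval.unif₁.1
  have hqW : ((q : ℕ) : A2.Mod.FE E (M * q * q))
      = algebraMap (A2.RE P E) (A2.Mod.FE E (M * q * q)) w
        * algebraMap (A2.RE P E) (A2.Mod.FE E (M * q * q)) (u : A2.RE P E) := by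
    have h1 : algebraMap (A2.RE P E) (A2.Mod.FE E (M * q * q)) w
        = algebraMap E (A2.Mod.FE E (M * q * q)) (w : E) := rfl
    have h2 : algebraMap (A2.RE P E) (A2.Mod.FE E (M * q * q)) (u : A2.RE P E)
        = algebraMap E (A2.Mod.FE E (M * q * q)) ((u : A2.RE P E) : E) := rfl
    rw [h1, h2, ← map_mul, ← hu, map_natCast]
  have hunit := kronUnit_mid867 P E M q w hStd hvinf' hmid
  have hunit' : UnitAt V₂ (jq E M q ^ q - jqq E M q) := by
    have e : jq E M q ^ q - jqq E M q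
        = (jq E M q ^ q - j1 E M q) - (jqq E M q - j1 E M q) := by ring
    rw [e]
    exact unitAt_sub_nonunit867 V₂ hunit hvt.kron₂.2
  have hΦ1 : eval2 D.Φ (j1 E M q) (jq E M q) = 0 := H276.eval2_j1_jq E M q D
  have hΦ2 : eval2 D.Φ (jqq E M q) (jq E M q) = 0 := H276.eval2_jqq_jq E M q D
  rw [hK, eval2_kron867] at hΦ1 hΦ2
  exact ⟨kron_div867 V₂ Θ a1 b1 (hsheet.base₂ _) hW0 hqW hΦ1 hunit,
    kron_div867 V₂ Θ c1 b1 (hsheet.base₂ _) hW0 hqW hΦ2 hunit'⟩

/-- The cusp congruence of row S36 for `tc2`, with the shape of `g₁` exposed. -/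
theorem cuspCong_tc2_raw867 (hq : q.Prime) (w : A2.RE P E)
    (V₂ : ValuationSubring (A2.Mod.FE E (M * q * q)))
    (hbase : ∀ r : A2.RE P E, algebraMap (A2.RE P E) (A2.Mod.FE E (M * q * q)) r ∈ V₂)
    (hw0 : algebraMap (A2.RE P E) (A2.Mod.FE E (M * q * q)) w ≠ 0)
    (hxV : UnitAt V₂ (x3E E M q)) (hk : jqq E M q - j1 E M q ∈ V₂.nonunits)
    (hcong : H276.CuspCong P E M q w V₂) :
    ∃ (h c g₂ : chart (A2.RE P E) ({(x3E E M q)⁻¹} : Set (A2.Mod.FE E (M * q * q))))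
      (n k N : ℕ), 0 < N ∧
      (h : A2.Mod.FE E (M * q * q)) = 1 + (j1 E M q)⁻¹ * c ∧
      (tc2 E M q ^ N * (g₂ : A2.Mod.FE E (M * q * q))
          - algebraMap (A2.RE P E) (A2.Mod.FE E (M * q * q)) w ^ k
            * ((h ^ n : chart (A2.RE P E)
                ({(x3E E M q)⁻¹} : Set (A2.Mod.FE E (M * q * q)))) : A2.Mod.FE E (M * q * q)))
        * (algebraMap (A2.RE P E) (A2.Mod.FE E (M * q * q)) w ^ k)⁻¹ ∈ V₂.nonunits := by
  obtain ⟨h, c, g₂, n, k, N, hN, hh, hc⟩ := hcong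
  refine ⟨h, c, g₂, n, k, N, hN, hh, ?_⟩
  have hB₂ := H276.chart_le_h276 (R := A2.RE P E) V₂ hbase hxV.2.2
  have hg₁ : (((h ^ n : chart (A2.RE P E)
      ({(x3E E M q)⁻¹} : Set (A2.Mod.FE E (M * q * q)))) : A2.Mod.FE E (M * q * q))) ∈ V₂ :=
    hB₂ (h ^ n)
  have hc' : (H276.tcusp E M q ^ N * (g₂ : A2.Mod.FE E (M * q * q))
      - algebraMap (A2.RE P E) (A2.Mod.FE E (M * q * q)) w ^ k
        * (((h ^ n : chart (A2.RE P E)
          ({(x3E E M q)⁻¹} : Set (A2.Mod.FE E (M * q * q)))) : A2.Mod.FE E (M * q * q))))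
      * (algebraMap (A2.RE P E) (A2.Mod.FE E (M * q * q)) w ^ k)⁻¹ ∈ V₂.nonunits := by
    simpa using hc
  exact cong_of_mul_unit867 V₂ (tc2 E M q) (H276.tcusp E M q) (eps2 E M q) _ _ _ N
    (pow_ne_zero k hw0) (tc2_eq_tcusp_mul E M q hq.pos)
    (eps2_sub_one_mem E M q hq V₂ hxV hk) hg₁ hc'

/-- `tc2 / dC ≡ 1` on the middle sheet, `dC = 1 - j / j_{q²}` the normal form. -/
theorem tc2_div_dC867 (hq : q.Prime) (V₂ : ValuationSubring (A2.Mod.FE E (M * q * q)))
    (hxV : UnitAt V₂ (x3E E M q)) (hπ : UnifAt V₂ (jqq E M q - j1 E M q))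
    (hver : jq E M q - jqq E M q ^ q ∈ V₂.nonunits) :
    tc2 E M q * (1 - j1 E M q * (jqq E M q)⁻¹)⁻¹ - 1 ∈ V₂.nonunits := by
  obtain ⟨⟨a0, a1, a2⟩, ⟨b0, b1, b2⟩, ⟨c0, c1, c2⟩⟩ := H276.unitAt_of_x_unit E M q hq V₂ hxV
  have hπ0 : jqq E M q - j1 E M q ≠ 0 := hπ.1
  have hd0 : 1 - j1 E M q * (jqq E M q)⁻¹ ≠ 0 := by
    intro h
    apply hπ0
    have : jqq E M q - j1 E M q = (1 - j1 E M q * (jqq E M q)⁻¹) * jqq E M q := by
      field_simp
    rw [this, h, zero_mul]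
  have e : tc2 E M q * (1 - j1 E M q * (jqq E M q)⁻¹)⁻¹ - 1
      = (jqq E M q * (jq E M q - jqq E M q ^ q)
          + jqq E M q ^ q * (jqq E M q - j1 E M q))
        * ((j1 E M q)⁻¹ * ((jqq E M q)⁻¹) ^ q) := by
    have hc0q : jqq E M q ^ q ≠ 0 := pow_ne_zero q c0
    have h1 : (1 - j1 E M q * (jqq E M q)⁻¹)⁻¹ = jqq E M q * (jqq E M q - j1 E M q)⁻¹ := by
      rw [eq_comm, ← mul_inv_eq_one₀ (inv_ne_zero hd0), inv_inv]
      field_simp
    rw [h1]
    unfold tc2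
    rw [inv_pow]
    field_simp
    ring
  rw [e]
  refine mul_mem_nonunits867 V₂ (add_mem_nonunits867 V₂ ?_ ?_) (V₂.mul_mem _ _ a2 (pow_mem c2 q))
  · rw [mul_comm (jqq E M q) (jq E M q - jqq E M q ^ q)]
    exact mul_mem_nonunits867 V₂ hver c1
  · rw [mul_comm (jqq E M q ^ q) (jqq E M q - j1 E M q)]
    exact mul_mem_nonunits867 V₂ hπ.2.1 (pow_mem c1 q)

end Base

/-! ## The leaf -/

section LeafI

/-- **`Reg.LeafBaseI` from the S36 leaves** (`LeafVT`, `LeafVal`, `LeafSheet`, the cusp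
congruence). -/
theorem leafBaseI_of867 (hVT : Mod3.LeafVT) (hVal : Mod3.LeafVal) (hSheet : Mod3.LeafSheet)
    (hC : H276.LeafCuspCong) : Reg.LeafBaseI := by
  intro P E M q _ _ _ _ w hstd V₁' V₂' V₁ V₂ V₃ W' W hobj V h0 h1 h2
  subst h0 h1 h2
  have hq : q.Prime := hstd.q_prime
  have hvt := hVT P E M q w hstd V₁' V₂' (V 0) (V 1) (V 2) W' W hobj
  have hval := hVal P E M q w hstd V₁' V₂' (V 0) (V 1) (V 2) W' W hobj
  have hsh := hSheet P E M q w hstd V₁' V₂' (V 0) (V 1) (V 2) W' W hobj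
  have hc := hC P E M q w hstd V₁' V₂' (V 0) (V 1) (V 2) W' W hobj
  obtain ⟨hfrob₂, hver₂⟩ := kronW_mid867 P E M q w hstd V₁' V₂' (V 0) (V 1) (V 2) hobj.vinf' hobj.mid
    hval hsh hvt
  have hW0 : algebraMap (A2.RE P E) (A2.Mod.FE E (M * q * q)) w ≠ 0 := hval.unif₁.1
  have hWm₂ : algebraMap (A2.RE P E) (A2.Mod.FE E (M * q * q)) w ∈ (V 1).nonunits :=
    H276.w_mem_nonunits_of_ram hq.two_le hval.ram₂
  have hJ0 : ModE.jLev E (M * q * q) q 0 = j1 E M q := jLev_zero867 E M q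
  have hJ1 : ModE.jLev E (M * q * q) q 1 = jq E M q := jLev_one867 E M q
  have hJ2 : ModE.jLev E (M * q * q) q 2 = jqq E M q := jLev_two867 E M q
  have hX2 : ModE.xLev E (M * q * q) q 2 = x3E E M q := xLev_two867 E M q
  have hJmem : ∀ l ≤ 2, ∀ V' : ValuationSubring (A2.Mod.FE E (M * q * q)),
      UnitAt V' (x3E E M q) → ModE.jLev E (M * q * q) q l ∈ V' := by
    intro l hl V' hx
    obtain ⟨⟨-, a1, -⟩, ⟨-, b1, -⟩, ⟨-, c1, -⟩⟩ := H276.unitAt_of_x_unit E M q hq V' hx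
    interval_cases l
    · rw [hJ0]; exact a1
    · rw [hJ1]; exact b1
    · rw [hJ2]; exact c1
  have hVx : ∀ i ≤ 2, UnitAt (V i) (x3E E M q) := by
    intro i hi
    interval_cases i
    · exact hval.x_unit₁
    · exact hval.x_unit₂
    · exact hval.x_unit₃
  refine ⟨⟨fun i hi l hl => hJmem l hl (V i) (hVx i hi), ?_, ?_⟩, ?_⟩
  · -- Frobenius modulo `w` on `V 0`, `V 1`
    intro i hi
    rw [hJ1, hJ0]
    have hi' : i = 0 ∨ i = 1 := by omega
    rcases hi' with rfl | rfl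
    · exact hval.unif₁.2.2 _ hvt.kron₁.1
    · exact hfrob₂
  · -- Verschiebung modulo `w` on `V 1`, `V 2`
    intro i hi1 hi2
    show (ModE.jLev E (M * q * q) q 1 - ModE.jLev E (M * q * q) q 2 ^ q)
      * (algebraMap (A2.RE P E) (A2.Mod.FE E (M * q * q)) w)⁻¹ ∈ V i
    rw [hJ1, hJ2]
    have hi' : i = 1 ∨ i = 2 := by omega
    rcases hi' with rfl | rfl
    · exact hver₂
    · exact hval.unif₃.2.2 _ hvt.kron₃.2
  · -- the lite package of the middle sheet
    intro i hi1 hi2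
    have hi : i = 1 := by omega
    subst hi
    have hverm : jq E M q - jqq E M q ^ q ∈ (V 1).nonunits :=
      H27.vt27_mem_nonunits_of_mul_inv hW0 hWm₂ hver₂
    refine ⟨tc2 E M q, ?_, ?_⟩
    · have hdC : Reg.dC (ModE.jLev E (M * q * q) q) 2 1
          = 1 - j1 E M q * (jqq E M q)⁻¹ := by
        unfold Reg.dC
        rw [if_pos (by norm_num)]
        show 1 - ModE.jLev E (M * q * q) q 0 * (ModE.jLev E (M * q * q) q 2)⁻¹ = _
        rw [hJ0, hJ2]
      rw [hdC]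
      exact tc2_div_dC867 E M q hq (V 1) hval.x_unit₂ hvt.pi_unif hverm
    · rw [hX2]
      obtain ⟨h, c, g₂, n, k, N, hN, hh, hcg⟩ := cuspCong_tc2_raw867 P E M q hq w (V 1) hsh.base₂
        hW0 hval.x_unit₂ hvt.kron₂.2 hc
      refine ⟨tc2_mem_chart P E M q hq, tc2_unifAt E M q hq (V 1) hval.x_unit₂ hvt.pi_unif,
        h ^ n, g₂, k, N, hN, hcg, ?_⟩
      intro 𝔪 h𝔪 hcusp hmem
      have hh𝔪 : h ∈ 𝔪 := h𝔪.mem_of_pow_mem n hmem
      have hJel : (⟨(j1 E M q)⁻¹, H189.j1_inv_mem_chart P E M q hq⟩ :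
          chart (A2.RE P E) ({(x3E E M q)⁻¹} : Set (A2.Mod.FE E (M * q * q)))) ∈ 𝔪 := by
        refine hcusp 0 (by norm_num) _ ?_
        rw [hJ0]
      have e : h = 1 + (⟨(j1 E M q)⁻¹, H189.j1_inv_mem_chart P E M q hq⟩ :
          chart (A2.RE P E) ({(x3E E M q)⁻¹} : Set (A2.Mod.FE E (M * q * q)))) * c :=
        Subtype.ext (by rw [hh]; rfl)
      have h1𝔪 : (1 : chart (A2.RE P E)
          ({(x3E E M q)⁻¹} : Set (A2.Mod.FE E (M * q * q)))) ∈ 𝔪 := by
        have e1 : (1 : chart (A2.RE P E)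
            ({(x3E E M q)⁻¹} : Set (A2.Mod.FE E (M * q * q))))
            = h - (⟨(j1 E M q)⁻¹, H189.j1_inv_mem_chart P E M q hq⟩ :
              chart (A2.RE P E) ({(x3E E M q)⁻¹} : Set (A2.Mod.FE E (M * q * q)))) * c := by
          rw [e]
          ring
        rw [e1]
        exact 𝔪.sub_mem hh𝔪 (𝔪.mul_mem_right _ hJel)
      exact h𝔪.ne_top ((Ideal.eq_top_iff_one 𝔪).2 h1𝔪)

/-- **`Reg.LeafBaseI`, UNCONDITIONAL** (all inputs on main). -/
theorem leafBaseI867 : Reg.LeafBaseI :=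
  leafBaseI_of867 Mod3.H27.leafVT Mod3.H370.leafVal Mod3.H860.leafSheet
    Mod3.H96.leafCuspCong96

end LeafI

end Fermat.Agent.S45.H867

end

end
-- ===== PACK-END S45/H867/BaseI.lean

-- ===== PACK-BEGIN S45/Reg/H890/Diag2.lean
section





/-!
# S45 / CAR3 / MOD-E / REG, leaf C7 in BYTES (helper890): `Reg.LeafDiag2`

Against `S45/Reg/Spec.lean` v1.3 (helper878, sha256 `1c69ece8…`) on `ModE/Spec` v0.2.

`q = 2`, step `3 → 4`, the diagonal sheet `V 2` of the level `N · 2` (`μ = q`): the chain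
congruence of the `t₉`-chain

    (τ 4 - τ 0) ^ 2 ≡ τ 3 - τ 1   mod (τ 3 - τ 1) 𝔪_{V 2}.

Proof: `S45.H890.chain_cong_t9_two890` (Kronecker for the `j`-chain + transfer `j → t₉`), with

* the `j`-pattern on `V 2` from `UpperCtx.kron` (and Frobenius injectivity of the residue field),
* the unit `J 4 - (J 3) ^ 2` from `UpperCtx.wit.wit_hi`,
* `2 / (J 3 - J 1) ∈ V 2` from the LOWER uniformiser `J' 3 - J' 1` of `V' 1` (`LevelCtx.unif`),
  `V 2 ∘ α = V' 1` (`StepCtx.table`) and `2 = w u` (`Unramified`),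
* the `τ`-pattern on `V 2`: first / last step from `Prec` above, the two middle steps from the
  LOWER `Prec` (`InvF.prec`) along `β` (`V 2 ∘ β = V' 2`) resp. `α` (`V 2 ∘ α = V' 1`).
-/

set_option autoImplicit false
set_option linter.style.haveILetI false
set_option linter.unusedSectionVars false
set_option linter.unusedVariables false
set_option synthInstance.maxHeartbeats 400000
set_option maxHeartbeats 1600000

noncomputable section

namespace Fermat.Agent.S45.Reg.H890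

open ModularCurve
open Fermat.Agent Fermat.Agent.A2.Mod Fermat.Agent.S36 Fermat.Agent.S36.Eng
open Fermat.Agent.S18.H138 (chart)
open Fermat.Agent.S45.ModE (xLev jLev)

theorem jLev_eq890' (E : IntermediateField ℚ A2.Qb) (N : ℕ) [NeZero N] (l : ℕ) (h : 2 ^ l ∣ N) :
    jLev E N 2 l = jE E N (2 ^ l) h := dif_pos h

/-! ## Abstract: residue characteristic two -/

section Abs

variable {F : Type*} [Field F] (V : ValuationSubring F)

theorem nonunits_of_sq890 {x : F} (h : x ^ 2 ∈ V.nonunits) : x ∈ V.nonunits := by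
  rw [ValuationSubring.mem_nonunits_iff] at h ⊢
  rw [map_pow] at h
  by_contra hx
  rw [not_lt] at hx
  exact absurd h (not_lt.mpr (one_le_pow₀ hx))

/-- Frobenius is injective on the residue field (`2 ∈ 𝔪_V`). -/
theorem sub_of_sq_sub890 (h2 : (2 : F) ∈ V.nonunits) {a b : F} (ha : a ∈ V) (hb : b ∈ V)
    (h : a ^ 2 - b ^ 2 ∈ V.nonunits) : a - b ∈ V.nonunits := by
  apply nonunits_of_sq890 V
  have e : (a - b) ^ 2 = (a ^ 2 - b ^ 2) + 2 * (b * (b - a)) := by ring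
  rw [e]
  exact S45.H890.add_nonunits890 V h
    (S45.H890.mul_nonunits890 V h2 (V.mul_mem _ _ hb (sub_mem hb ha)))

theorem nonunits_sub890 {x y : F} (hx : x ∈ V.nonunits) (hy : y ∈ V.nonunits) :
    x - y ∈ V.nonunits := by
  rw [ValuationSubring.mem_nonunits_iff] at hx hy ⊢
  exact lt_of_le_of_lt (V.valuation.map_sub x y) (max_lt hx hy)

theorem nonunits_neg890 {x : F} (hx : x ∈ V.nonunits) : -x ∈ V.nonunits := by
  rw [ValuationSubring.mem_nonunits_iff] at hx ⊢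
  rw [Valuation.map_neg]
  exact hx

/-- `a ≡ b ⟹ a² ≡ b²`. -/
theorem sq_sub_sq890 {a b : F} (ha : a ∈ V) (hb : b ∈ V) (h : a - b ∈ V.nonunits) :
    a ^ 2 - b ^ 2 ∈ V.nonunits := by
  have e : a ^ 2 - b ^ 2 = (a - b) * (a + b) := by ring
  rw [e]
  exact S45.H890.mul_nonunits890 V h (V.add_mem _ _ ha hb)

/-- `x / w ∈ V`, `w ∈ 𝔪_V` ⟹ `x ∈ 𝔪_V`. -/
theorem nonunits_of_div890 {x w : F} (hw : w ∈ V.nonunits) (hw0 : w ≠ 0)
    (h : x * w⁻¹ ∈ V) : x ∈ V.nonunits := by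
  have e : x = w * (x * w⁻¹) := by field_simp
  rw [e]
  exact S45.H890.mul_nonunits890 V hw h

theorem valuation_eq_one_of_unit890 {u : F} (hu : u ∈ V) (hui : u⁻¹ ∈ V) (hu0 : u ≠ 0) :
    V.valuation u = 1 := by
  have h1 : V.valuation u ≤ 1 := (V.valuation_le_one_iff u).2 hu
  have h2 : V.valuation u⁻¹ ≤ 1 := (V.valuation_le_one_iff _).2 hui
  rw [map_inv₀] at h2
  have h0 : V.valuation u ≠ 0 := (map_ne_zero _).2 hu0
  have h3 : 1 ≤ V.valuation u := by
    rwa [inv_le_one₀ (zero_lt_iff.mpr h0)] at h2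
  exact le_antisymm h1 h3

/-- The pattern `F F V V` of a chain of five elements gives `a₄ ≡ a₀` and `a₃ ≡ a₁`. -/
theorem pattern_two890 (h2 : (2 : F) ∈ V.nonunits) {a0 a1 a2 a3 a4 : F}
    (m0 : a0 ∈ V) (m1 : a1 ∈ V) (m2 : a2 ∈ V) (m3 : a3 ∈ V) (m4 : a4 ∈ V)
    (f0 : a1 - a0 ^ 2 ∈ V.nonunits) (f1 : a2 - a1 ^ 2 ∈ V.nonunits)
    (v2 : a2 - a3 ^ 2 ∈ V.nonunits) (v3 : a3 - a4 ^ 2 ∈ V.nonunits) :
    a4 - a0 ∈ V.nonunits ∧ a3 - a1 ∈ V.nonunits := by
  have h31 : a3 - a1 ∈ V.nonunits := by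
    apply sub_of_sq_sub890 V h2 m3 m1
    have e : a3 ^ 2 - a1 ^ 2 = (a2 - a1 ^ 2) - (a2 - a3 ^ 2) := by ring
    rw [e]
    exact nonunits_sub890 V f1 v2
  refine ⟨?_, h31⟩
  apply sub_of_sq_sub890 V h2 m4 m0
  have e : a4 ^ 2 - a0 ^ 2 = (a3 - a1) - (a3 - a4 ^ 2) + (a1 - a0 ^ 2) := by ring
  rw [e]
  exact S45.H890.add_nonunits890 V (nonunits_sub890 V h31 v3) f0

end Abs

/-! ## Abstract: the plumbing of the diagonal step -/

section Plumb

variable {R E F F' : Type*} [CommRing R] [Field E] [Algebra R E]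
  [Field F] [Algebra E F] [Algebra R F] [Field F'] [Algebra E F'] [Algebra R F']

/-- `w = unit · t ^ μ`, `μ ≠ 0`, `t` a uniformiser ⟹ `w ∈ 𝔪_V`. -/
theorem w_mem_nonunits890 (V : ValuationSubring F) {w t : F} {μ : ℕ} (hμ : μ ≠ 0)
    (ht : UnifAt V t) (hu : UnitAt V (w * (t ^ μ)⁻¹)) : w ∈ V.nonunits := by
  have htm : t ^ μ ∈ V.nonunits := by
    obtain ⟨k, hk⟩ := Nat.exists_eq_succ_of_ne_zero hμ
    rw [hk, pow_succ, mul_comm]
    exact S45.H890.mul_nonunits890 V ht.2.1 (pow_mem (ValuationSubring.nonunits_subset ht.2.1) k)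
  have ht0 : t ^ μ ≠ 0 := pow_ne_zero _ ht.1
  have e : w = t ^ μ * (w * (t ^ μ)⁻¹) := by field_simp
  rw [e]
  exact S45.H890.mul_nonunits890 V htm hu.2.1

theorem mu_ne_zero890 (q e i : ℕ) (hq : 0 < q) : ModE.mu q e i ≠ 0 := by
  unfold ModE.mu
  exact (Nat.totient_pos.mpr (pow_pos hq _)).ne'

/-- The valuation-level inputs of `S45.H890.chain_cong_t9_two890` on the diagonal sheet `V 2` of
exponent `4` over the sheets `V' 1` (along `α`) and `V' 2` (along `β`) of exponent `3`. -/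
theorem diag2_plumb890 (w u : R) (α β : F' →ₐ[E] F)
    (V : ℕ → ValuationSubring F) (V' : ℕ → ValuationSubring F')
    (J τ : ℕ → F) (J' τ' : ℕ → F')
    (hα : (V 2).comap (α : F' →+* F) = V' 1) (hβ : (V 2).comap (β : F' →+* F) = V' 2)
    (hαw : α (algebraMap R F' w) = algebraMap R F w)
    (hβw : β (algebraMap R F' w) = algebraMap R F w)
    (hw0 : algebraMap R F w ≠ 0)
    (h2w : (2 : F) = algebraMap R F w * algebraMap R F u)
    (hbase : ∀ r : R, algebraMap R F r ∈ V 2)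
    (hram : ∃ t : F, UnifAt (V 2) t ∧ UnitAt (V 2) (algebraMap R F w * (t ^ ModE.mu 2 4 2)⁻¹))
    (hram' : ∃ t : F', UnifAt (V' 1) t ∧
      UnitAt (V' 1) (algebraMap R F' w * (t ^ ModE.mu 2 3 1)⁻¹))
    (hkron : ModE.PartKronE 2 4 J V) (hwit : ModE.PartWitE 2 4 J V)
    (hunif' : ModE.PartUnifE 3 J' V')
    (hαJ3 : α (J' 3) = J 3) (hαJ1 : α (J' 1) = J 1)
    (hατ : ∀ l ≤ 3, α (τ' l) = τ l) (hβτ : ∀ l ≤ 3, β (τ' l) = τ (l + 1))
    (hprec : Prec (R := R) w 2 4 τ V) (hprec' : Prec (R := R) w 2 3 τ' V') :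
    (2 : F) ∈ (V 2).nonunits ∧
    (J 4 ∈ V 2 ∧ J 3 ∈ V 2 ∧ J 1 ∈ V 2 ∧ (V 2).valuation (J 0) = 1) ∧
    (J 4 - J 0 ∈ (V 2).nonunits ∧ J 3 - J 1 ∈ (V 2).nonunits) ∧
    J 4 - J 3 ^ 2 ∉ (V 2).nonunits ∧
    J 3 - J 1 ≠ 0 ∧ (2 : F) * (J 3 - J 1)⁻¹ ∈ V 2 ∧
    τ 4 - τ 0 ∈ (V 2).nonunits ∧ τ 3 - τ 4 ^ 2 ∈ (V 2).nonunits ∧
    τ 1 - τ 0 ^ 2 ∈ (V 2).nonunits := by
  have hwF'0 : algebraMap R F' w ≠ 0 := by
    intro h0
    apply hw0
    rw [← hαw, h0, map_zero]
  obtain ⟨t, ht, hu⟩ := hram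
  have hwm : algebraMap R F w ∈ (V 2).nonunits :=
    w_mem_nonunits890 (V 2) (mu_ne_zero890 2 4 2 (by norm_num)) ht hu
  obtain ⟨t', ht', hu'⟩ := hram'
  have hwm' : algebraMap R F' w ∈ (V' 1).nonunits :=
    w_mem_nonunits890 (V' 1) (mu_ne_zero890 2 3 1 (by norm_num)) ht' hu'
  have h2V : (2 : F) ∈ (V 2).nonunits := by
    rw [h2w]
    exact S45.H890.mul_nonunits890 (V 2) hwm (hbase u)
  have hα' : ∀ x : F', x ∈ V' 1 → α x ∈ V 2 := by
    intro x hx
    rw [← hα] at hx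
    exact hx
  have hβ' : ∀ x : F', x ∈ V' 2 → β x ∈ V 2 := by
    intro x hx
    rw [← hβ] at hx
    exact hx
  -- the `j`-chain
  have hJ : ∀ l ≤ 4, UnitAt (V 2) (J l) := fun l hl => hkron.unit 2 (by norm_num) l hl
  have hJm : ∀ l ≤ 4, J l ∈ V 2 := fun l hl => (hJ l hl).2.1
  have hJpat := pattern_two890 (V 2) h2V (hJm 0 (by norm_num)) (hJm 1 (by norm_num))
    (hJm 2 (by norm_num)) (hJm 3 (by norm_num)) (hJm 4 (by norm_num))
    (hkron.frob 2 (by norm_num) 0 (by norm_num))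
    (hkron.frob 2 (by norm_num) 1 (by norm_num))
    (hkron.ver 2 (by norm_num) 2 (by norm_num) (by norm_num))
    (hkron.ver 2 (by norm_num) 3 (by norm_num) (by norm_num))
  have hJ0 : (V 2).valuation (J 0) = 1 :=
    valuation_eq_one_of_unit890 (V 2) (hJ 0 (by norm_num)).2.1 (hJ 0 (by norm_num)).2.2
      (hJ 0 (by norm_num)).1
  have hJunit : J 4 - J 3 ^ 2 ∉ (V 2).nonunits := by
    intro h
    apply hwit.wit_hi 2 (by norm_num) (by norm_num) (J 3) (hJm 3 (by norm_num))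
    have e : J 3 ^ 2 - J 4 = -(J 4 - J 3 ^ 2) := by ring
    rw [e]
    exact nonunits_neg890 (V 2) h
  -- the lower uniformiser
  have hT' : UnifAt (V' 1) (J' 3 - J' 1) := hunif'.unif 1 (le_refl 1) (by norm_num)
  have hαT : α (J' 3 - J' 1) = J 3 - J 1 := by rw [map_sub, hαJ3, hαJ1]
  have hJne : J 3 - J 1 ≠ 0 := by
    rw [← hαT]
    intro h0
    exact hT'.1 ((map_eq_zero α).mp h0)
  have hq1 : (2 : F) * (J 3 - J 1)⁻¹ ∈ V 2 := by
    have h1 : algebraMap R F' w * (J' 3 - J' 1)⁻¹ ∈ V' 1 := hT'.2.2 _ hwm'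
    have h2 : algebraMap R F w * (J 3 - J 1)⁻¹ ∈ V 2 := by
      rw [← hαT, ← hαw, ← map_inv₀, ← map_mul]
      exact hα' _ h1
    have e : (2 : F) * (J 3 - J 1)⁻¹
        = algebraMap R F u * (algebraMap R F w * (J 3 - J 1)⁻¹) := by
      rw [h2w]; ring
    rw [e]
    exact (V 2).mul_mem _ _ (hbase u) h2
  -- the `τ`-chain
  have hτm : ∀ l ≤ 4, τ l ∈ V 2 := fun l hl => hprec.mem 2 (by norm_num) l hl
  have hτ01 : τ 1 - τ 0 ^ 2 ∈ (V 2).nonunits :=
    nonunits_of_div890 (V 2) hwm hw0 (hprec.frob 2 (by norm_num))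
  have hτ34 : τ 3 - τ 4 ^ 2 ∈ (V 2).nonunits :=
    nonunits_of_div890 (V 2) hwm hw0 (hprec.ver 2 (by norm_num) (by norm_num))
  have hτ12 : τ 2 - τ 1 ^ 2 ∈ (V 2).nonunits := by
    apply nonunits_of_div890 (V 2) hwm hw0
    have h := hβ' _ (hprec'.frob 2 (by norm_num))
    rw [map_mul, map_inv₀, map_sub, map_pow, hβτ 1 (by norm_num), hβτ 0 (by norm_num), hβw] at h
    exact h
  have hτ23 : τ 2 - τ 3 ^ 2 ∈ (V 2).nonunits := by
    apply nonunits_of_div890 (V 2) hwm hw0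
    have h := hα' _ (hprec'.ver 1 (le_refl 1) (by norm_num))
    rw [map_mul, map_inv₀, map_sub, map_pow, hατ 2 (by norm_num), hατ 3 (by norm_num), hαw] at h
    exact h
  have hτpat := pattern_two890 (V 2) h2V (hτm 0 (by norm_num)) (hτm 1 (by norm_num))
    (hτm 2 (by norm_num)) (hτm 3 (by norm_num)) (hτm 4 (by norm_num)) hτ01 hτ12 hτ23 hτ34
  exact ⟨h2V, ⟨hJm 4 (by norm_num), hJm 3 (by norm_num), hJm 1 (by norm_num), hJ0⟩, hJpat,
    hJunit, hJne, hq1, hτpat.1, hτ34, hτ01⟩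

/-- The final form of the chain congruence. -/
theorem final_form890 (V : ValuationSubring F) {x y : F} (h : x * y⁻¹ - 1 ∈ V.nonunits) :
    (x - y) * y⁻¹ ∈ V.nonunits := by
  have hy : y ≠ 0 := by
    intro h0
    rw [h0, inv_zero, mul_zero, zero_sub] at h
    have h1 : (1 : F) ∈ V.nonunits := by
      have := nonunits_neg890 V h
      rwa [neg_neg] at this
    rw [ValuationSubring.mem_nonunits_iff, map_one] at h1
    exact lt_irrefl _ h1
  have e : (x - y) * y⁻¹ = x * y⁻¹ - 1 := by field_simp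
  rw [e]
  exact h

end Plumb

/-! ## The chains -/

section Chains

variable (E : IntermediateField ℚ A2.Qb)

/-- `(t ↦ t^q)^l = (t ↦ t^(q^l))`. -/
theorem iterate_qExpand890 (q : ℕ) [NeZero q] (f : LaurentSeries E) :
    ∀ (l d : ℕ) [NeZero d], d = q ^ l → (qExpand E q)^[l] f = qExpand E d f := by
  intro l
  induction l with
  | zero =>
    intro d _ hd
    rw [pow_zero] at hd
    rw [Function.iterate_zero, id, qExpand_congr hd, qExpand_one_apply]
  | succ l ih =>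
    intro d _ hd
    haveI : NeZero (q ^ l) := ⟨pow_ne_zero _ (NeZero.ne q)⟩
    rw [Function.iterate_succ_apply', ih (q ^ l) rfl, qExpand_qExpand]
    exact qExpand_congr (by rw [hd, pow_succ, mul_comm]) f

variable (N : ℕ) [NeZero N] [NeZero (N * 2)]

theorem alpha_chain890 {f : LaurentSeries E} {τ' : ℕ → FE E N} {τ : ℕ → FE E (N * 2)}
    (h' : IsChain E N 2 f 3 τ') (h : IsChain E (N * 2) 2 f 4 τ) (l : ℕ) (hl : l ≤ 3) :
    αE E N 2 (τ' l) = τ l := by
  apply Subtype.ext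
  rw [coe_heckeAlphaBar, h' l hl, h l (by omega)]

theorem beta_chain890 {f : LaurentSeries E} {τ' : ℕ → FE E N} {τ : ℕ → FE E (N * 2)}
    (h' : IsChain E N 2 f 3 τ') (h : IsChain E (N * 2) 2 f 4 τ) (l : ℕ) (hl : l ≤ 3) :
    βE E N 2 (τ' l) = τ (l + 1) := by
  apply Subtype.ext
  rw [coe_heckeBetaBar, h' l hl, h (l + 1) (by omega), Function.iterate_succ_apply']

theorem alpha_jLev890 (l : ℕ) (hl : 2 ^ l ∣ N) :
    αE E N 2 (jLev E N 2 l) = jLev E (N * 2) 2 l := by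
  rw [jLev_eq890' E N l hl, jLev_eq890' E (N * 2) l (hl.trans (dvd_mul_right N 2))]
  exact H890.αE_jE E N 2 (2 ^ l) hl

end Chains

/-! ## The leaf -/

section Leaf

variable {P : ValuationSubring A2.Qb} {E : IntermediateField ℚ A2.Qb}

/-- `2 = w u` in `F_{N,E}`. -/
theorem two_eq_mul890 (N : ℕ) {w u : A2.RE P E} (hq : ((2 : ℕ) : E) = (w : E) * (u : E)) :
    (2 : FE E N) = algebraMap (A2.RE P E) (FE E N) w * algebraMap (A2.RE P E) (FE E N) u := by
  have h := congrArg (algebraMap E (FE E N)) hq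
  rw [map_mul, map_natCast] at h
  rw [← Nat.cast_ofNat (R := FE E N)]
  exact h

theorem algebraMap_ne_zero890 (N : ℕ) {w : A2.RE P E} (hw : Irreducible w) :
    algebraMap (A2.RE P E) (FE E N) w ≠ 0 := by
  intro h0
  have hw0 : (w : E) ≠ 0 := fun h => hw.ne_zero (Subtype.ext h)
  exact hw0 ((map_eq_zero (algebraMap E (FE E N))).mp h0)

theorem jLev_eq_jE890 (N : ℕ) [NeZero N] (l d : ℕ) [NeZero d] (hd : d ∣ N) (h : d = 2 ^ l) :
    jLev E N 2 l = jE E N d hd := by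
  subst h
  exact dif_pos hd

theorem hauptF_two890' : hauptF E 2 = H890.t9 E := if_pos rfl

theorem coe_chain_two890 (N : ℕ) [NeZero N] {n : ℕ} {τ : ℕ → FE E N}
    (hc : IsChain E N 2 (hauptF E 2) n τ) (l : ℕ) (hl : l ≤ n) (d : ℕ) [NeZero d]
    (hd : d = 2 ^ l) : ((τ l : FE E N) : LaurentSeries E) = qExpand E d (H890.t9 E) := by
  rw [hc l hl, hauptF_two890', iterate_qExpand890 E 2 _ l d hd]

/-- **C7 in bytes: `Reg.LeafDiag2`.** -/
theorem leafDiag2_890 : LeafDiag2 := by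
  intro P E N _ _ w hStd V' V W' W hL hO hU hS τ' hc' hI τ hc hprec
  -- the level
  have h8 : 2 ^ 3 ∣ N := by
    have h := Nat.ordProj_dvd N 2
    rw [hStd.exp] at h
    exact h
  -- `2 = w u`
  obtain ⟨u, v, huv, hq⟩ :=
    Mod3.H356.exists_unit_q_eq_h356 P E hStd.lies_over hStd.unram hStd.unif
  have hplumb := diag2_plumb890 (R := A2.RE P E) (E := E) w u (αE E N 2) (βE E N 2) V V'
    (jLev E (N * 2) 2) τ (jLev E N 2) τ'
    (hS.table.comap_α 2 (by norm_num) (by norm_num)) (hS.table.comap_β 2 (by norm_num))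
    ((αE E N 2).commutes (w : E)) ((βE E N 2).commutes (w : E))
    (algebraMap_ne_zero890 (N * 2) hStd.unif) (two_eq_mul890 (N * 2) hq)
    (hU.sheet.base 2 (by norm_num)) (hU.val.ram 2 (by norm_num)) (hL.val.ram 1 (by norm_num))
    hU.kron hU.wit hL.unif
    (alpha_jLev890 E N 3 h8) (alpha_jLev890 E N 1 ((pow_dvd_pow 2 (by norm_num)).trans h8))
    (alpha_chain890 E N hc' hc) (beta_chain890 E N hc' hc) hprec hI.prec
  obtain ⟨h2V, ⟨hJ4, hJ3, hJ1, hJ0⟩, ⟨hab, hab1⟩, hunit, hne, hq1, hτ, hFA, hFB⟩ := hplumb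
  have hdA : 2 ^ 3 ∣ N * 2 := h8.trans (dvd_mul_right N 2)
  have hdAq : 2 ^ 3 * 2 ∣ N * 2 := mul_dvd_mul_right h8 2
  have hdB : 1 ∣ N * 2 := one_dvd _
  have hdBq : 1 * 2 ∣ N * 2 := by
    rw [one_mul]
    exact dvd_mul_left 2 N
  have e4 : jLev E (N * 2) 2 4 = jE E (N * 2) (2 ^ 3 * 2) hdAq :=
    jLev_eq_jE890 (N * 2) 4 (2 ^ 3 * 2) hdAq (by norm_num)
  have e3 : jLev E (N * 2) 2 3 = jE E (N * 2) (2 ^ 3) hdA :=
    jLev_eq_jE890 (N * 2) 3 (2 ^ 3) hdA rfl
  have e1 : jLev E (N * 2) 2 1 = jE E (N * 2) (1 * 2) hdBq :=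
    jLev_eq_jE890 (N * 2) 1 (1 * 2) hdBq (by norm_num)
  have e0 : jLev E (N * 2) 2 0 = jE E (N * 2) 1 hdB :=
    jLev_eq_jE890 (N * 2) 0 1 hdB (by norm_num)
  rw [e4] at hJ4
  rw [e3] at hJ3
  rw [e1] at hJ1
  rw [e0] at hJ0
  rw [e4, e0] at hab
  rw [e3, e1] at hab1
  rw [e4, e3] at hunit
  rw [e3, e1] at hne
  rw [e3, e1] at hq1
  exact final_form890 (V 2) (S45.H890.chain_cong_t9_two890 E (N * 2) (V 2) h2V (2 ^ 3) 1
    hdA hdAq hdB hdBq (τ 4) (τ 3) (τ 0) (τ 1)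
    (coe_chain_two890 (N * 2) hc 4 (le_refl 4) (2 ^ 3 * 2) (by norm_num))
    (coe_chain_two890 (N * 2) hc 3 (by norm_num) (2 ^ 3) rfl)
    (coe_chain_two890 (N * 2) hc 0 (by norm_num) 1 (by norm_num))
    (coe_chain_two890 (N * 2) hc 1 (by norm_num) (1 * 2) (by norm_num))
    hJ4 hJ3 hJ1 hJ0 hab hab1 hunit hne hq1 hτ hFA hFB)

end Leaf

end Fermat.Agent.S45.Reg.H890

end

end
-- ===== PACK-END S45/Reg/H890/Diag2.lean

-- ===== PACK-BEGIN S45/Reg/H27/BaseUnit4.lean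
section


/-!
# S45 / CAR3 / MOD-E / REG, leaf C2 (helper27, 1st owner): BASE, finite chart, `q` odd

REG leaf list v1 of helper878 (`origin/helper878:coord/S45-REG.md`), leaf C2: the UNIT PACKAGE of
the middle sheet at the level `M q q` (exponent `2`), `q` odd, `4 ∣ M`, with the NAMED element

    x = γ₄ t₄ - φ₄ t₄        (`t₄` the Hauptmodul of `Γ₀(4)`, `γ₄ = β ∘ β`, `φ₄ = α ∘ α`),

`N = 12 (q - 1)`, `k = 12`, `U = U_m` (helper356), `g = (t₄² (t₄ + 16)⁵) ^ (2 (q - 1))` (a unit of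
the finite chart).  These are exactly the inputs which `S36.Mod3.H27.principalAt_mid_t4` feeds to
`S36.H878.principalAt_of_unit_self'`; here the proof stops BEFORE that last step and returns the
package, so that it can be transported to higher levels.

* `unitData_mid_t4_27`   : the package from (R-U) and (R-RES) in the shapes of
                           `principalAt_mid_t4` (hypotheses);
* `baseUnitPkg4_27`      : the package, UNCONDITIONAL (suppliers on main: `H356.leafRegU_of`,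
                           `H775.Res.hresJ`, `H994.Plug4`, `H370` hub), unbundled existential;
                           the family form (`V 0, V 1, V 2 = V₁, V₂, V₃`) is `baseUnitPkg4_fam27`.

The bundled `UnitPkg` of `S45/Reg/Spec.lean` (helper878) is a thin wrapper of `baseUnitPkg4_fam27`.
-/

set_option autoImplicit false
set_option linter.style.haveILetI false
set_option linter.unusedSectionVars false
set_option synthInstance.maxHeartbeats 400000
set_option maxHeartbeats 1600000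

noncomputable section

namespace Fermat.Agent.S45.Reg.H27

open ModularCurve
open Fermat.Agent Fermat.Agent.A2.Mod Fermat.Agent.S36 Fermat.Agent.S36.Eng
open Fermat.Agent.S18.H138 (chart)
open Fermat.Agent.S36.H816
open Fermat.Agent.S36.Mod3.H27 (frob_mid27 two_inv_mem_chart27 γ4_jE27)

section Main

variable {P : ValuationSubring A2.Qb} {E : IntermediateField ℚ A2.Qb} {M q : ℕ}
  [NeZero M] [NeZero q] [NeZero (M * q)] {w : A2.RE P E}
  {V₁' V₂' : ValuationSubring (FE E (M * q))}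
  {V₁ V₂ V₃ : ValuationSubring (FE E (M * q * q))}
  {W' : FE E (M * q) ≃ₐ[E] FE E (M * q)}
  {W : FE E (M * q * q) ≃ₐ[E] FE E (M * q * q)}

/-- **The unit data of the middle sheet, `t₄`-form** (the inputs of
`S36.H878.principalAt_of_unit_self'` in `S36.Mod3.H27.principalAt_mid_t4`): the named element
`x = γ₄ t₄ - φ₄ t₄` and the unit `g = (t₄² (t₄ + 16)⁵) ^ kk` of the finite chart, with the
transferred residue identity. -/
theorem unitData_mid_t4_27 (hStd : Mod3.Std P E M q w)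
    (hO : Mod3.Objs P E M q V₁' V₂' V₁ V₂ V₃ W' W) (h4 : 4 ∣ M) (hq2 : q ≠ 2)
    (U : FE E (M * q * q)) (kk : ℕ)
    (hres : ((Mod3.jqq E M q - Mod3.j1 E M q) ^ (6 * kk)
        - (Mod3.j1 E M q ^ 4 * (Mod3.j1 E M q - 1728) ^ 3) ^ kk * U) * U⁻¹ ∈ V₂.nonunits) :
    ∃ x g g' : _root_.Fermat.Agent.S18.H138.chart (A2.RE P E) ({Mod3.x3E E M q} : Set (FE E (M * q * q))),
      (x : FE E (M * q * q)) = Fermat.Agent.S36.H994.γ4 E M q (Fermat.Agent.S36.H994.t4E E M h4)
          - Fermat.Agent.S36.H994.φ4 E M q (Fermat.Agent.S36.H994.t4E E M h4) ∧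
      g * g' = 1 ∧
      ((x : FE E (M * q * q)) ^ (6 * kk) - (g : FE E (M * q * q)) * U) * U⁻¹ ∈ V₂.nonunits := by
  have hS : Setting P E M q w := Mod3.H816.setting_of_std hStd
  haveI := hS.dvr
  have h2 : 2 ∣ M := Dvd.dvd.trans (by norm_num) h4
  haveI : NeZero (1 * q * q) := ⟨mul_ne_zero (mul_ne_zero one_ne_zero (NeZero.ne q)) (NeZero.ne q)⟩
  haveI : NeZero (q * q) := ⟨mul_ne_zero (NeZero.ne q) (NeZero.ne q)⟩
  -- FROB
  have c1 := frob_mid27 hStd hO 1 (one_dvd M)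
  have c2 := frob_mid27 hStd hO 2 h2
  have c4 := frob_mid27 hStd hO 4 h4
  -- the two `j`s
  have eφ : Fermat.Agent.S36.H994.φ4 E M q (jE E M 1 (one_dvd M)) = Mod3.j1 E M q := by
    rw [Fermat.Agent.S36.H994.φ4_jE]
    rfl
  have eγ : Fermat.Agent.S36.H994.γ4 E M q (jE E M 1 (one_dvd M)) = Mod3.jqq E M q := by
    rw [γ4_jE27,
      jE_congr (M * q * q) (show 1 * q * q = q * q by rw [one_mul]) _
        (Dvd.intro_left M (mul_assoc M q q).symm)]
    rfl
  -- transfer of the residue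
  have hres4 := Fermat.Agent.S36.H994.reg4_hres hO.vinf' hO.mid h4 c1 c2 c4
    U kk (by rw [eγ, eφ]; exact hres)
  -- chart membership
  have hj₁B := Mod3.H189.j1_mem_chart P E M q hStd.q_prime
  have hj₂B := Mod3.H189.jqq_mem_chart' P E M q hStd.q_prime
  have h2B := two_inv_mem_chart27 hStd hq2 ({Mod3.x3E E M q} : Set (FE E (M * q * q)))
  have hJ₁ : Mod3.j1 E M q
        * (Fermat.Agent.S36.H994.φ4 E M q (Fermat.Agent.S36.H994.t4E E M h4) ^ 4
          * (Fermat.Agent.S36.H994.φ4 E M q (Fermat.Agent.S36.H994.t4E E M h4) + 16))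
      = (Fermat.Agent.S36.H994.φ4 E M q (Fermat.Agent.S36.H994.t4E E M h4) ^ 2
          + 256 * Fermat.Agent.S36.H994.φ4 E M q (Fermat.Agent.S36.H994.t4E E M h4)
          + 4096) ^ 3 := by
    have h := congrArg (Fermat.Agent.S36.H994.φ4 E M q) (Fermat.Agent.S36.H994.jE_mul_t4E E M h4)
    simp only [map_mul, map_pow, map_add, map_ofNat] at h
    rw [eφ] at h
    exact h
  have hJ₂ : Mod3.jqq E M q
        * (Fermat.Agent.S36.H994.γ4 E M q (Fermat.Agent.S36.H994.t4E E M h4) ^ 4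
          * (Fermat.Agent.S36.H994.γ4 E M q (Fermat.Agent.S36.H994.t4E E M h4) + 16))
      = (Fermat.Agent.S36.H994.γ4 E M q (Fermat.Agent.S36.H994.t4E E M h4) ^ 2
          + 256 * Fermat.Agent.S36.H994.γ4 E M q (Fermat.Agent.S36.H994.t4E E M h4)
          + 4096) ^ 3 := by
    have h := congrArg (Fermat.Agent.S36.H994.γ4 E M q) (Fermat.Agent.S36.H994.jE_mul_t4E E M h4)
    simp only [map_mul, map_pow, map_add, map_ofNat] at h
    rw [eγ] at h
    exact h
  have hh₁B := Fermat.Agent.S36.H994.mem_chart_of_rel4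
    ({Mod3.x3E E M q} : Set (FE E (M * q * q))) hj₁B hJ₁
  have hh₂B := Fermat.Agent.S36.H994.mem_chart_of_rel4
    ({Mod3.x3E E M q} : Set (FE E (M * q * q))) hj₂B hJ₂
  -- the unit `g₄ ^ kk` of the chart
  have hgB : (Fermat.Agent.S36.H994.φ4 E M q (Fermat.Agent.S36.H994.t4E E M h4) ^ 2
      * (Fermat.Agent.S36.H994.φ4 E M q (Fermat.Agent.S36.H994.t4E E M h4) + 16) ^ 5) ^ kk
      ∈ _root_.Fermat.Agent.S18.H138.chart (A2.RE P E) ({Mod3.x3E E M q} : Set (FE E (M * q * q))) :=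
    pow_mem (Fermat.Agent.S36.H994.g4_mem_of_mem _ hh₁B) kk
  have hgB' : ((Fermat.Agent.S36.H994.φ4 E M q (Fermat.Agent.S36.H994.t4E E M h4) ^ 2
      * (Fermat.Agent.S36.H994.φ4 E M q (Fermat.Agent.S36.H994.t4E E M h4) + 16) ^ 5) ^ kk)⁻¹
      ∈ _root_.Fermat.Agent.S18.H138.chart (A2.RE P E) ({Mod3.x3E E M q} : Set (FE E (M * q * q))) :=
    Fermat.Agent.S36.H994.g4_pow_inv_mem_of_rel4 _ hj₁B hh₁B h2B hJ₁ kk
  have hg0 : (Fermat.Agent.S36.H994.φ4 E M q (Fermat.Agent.S36.H994.t4E E M h4) ^ 2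
      * (Fermat.Agent.S36.H994.φ4 E M q (Fermat.Agent.S36.H994.t4E E M h4) + 16) ^ 5) ^ kk ≠ 0 :=
    pow_ne_zero kk (Fermat.Agent.S36.H994.g4_ne_zero_of_rel4 hJ₁)
  have hgg' : (⟨_, hgB⟩ : _root_.Fermat.Agent.S18.H138.chart (A2.RE P E) ({Mod3.x3E E M q} : Set (FE E (M * q * q))))
      * ⟨_, hgB'⟩ = 1 := Subtype.ext (mul_inv_cancel₀ hg0)
  have ex : (((⟨_, hh₂B⟩ : _root_.Fermat.Agent.S18.H138.chart (A2.RE P E) ({Mod3.x3E E M q} : Set (FE E (M * q * q))))
      - ⟨_, hh₁B⟩ : _root_.Fermat.Agent.S18.H138.chart (A2.RE P E) ({Mod3.x3E E M q} : Set (FE E (M * q * q)))) :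
        FE E (M * q * q))
      = Fermat.Agent.S36.H994.γ4 E M q (Fermat.Agent.S36.H994.t4E E M h4)
          - Fermat.Agent.S36.H994.φ4 E M q (Fermat.Agent.S36.H994.t4E E M h4) :=
    Subalgebra.coe_sub _ _
  refine ⟨(⟨_, hh₂B⟩ : _root_.Fermat.Agent.S18.H138.chart (A2.RE P E) ({Mod3.x3E E M q} : Set (FE E (M * q * q))))
      - ⟨_, hh₁B⟩, ⟨_, hgB⟩, ⟨_, hgB'⟩, ex, hgg', ?_⟩
  rw [ex]
  exact hres4

/-- **C2: the unit package of the middle sheet at the level `M q q`, `q` odd, `4 ∣ M`,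
UNCONDITIONAL**, unbundled: `x = γ₄ t₄ - φ₄ t₄`, `N = 12 (q - 1)`, `k = 12`. -/
theorem baseUnitPkg4_27 (hStd : Mod3.Std P E M q w)
    (hO : Mod3.Objs P E M q V₁' V₂' V₁ V₂ V₃ W' W) (h4 : 4 ∣ M) (hq2 : q ≠ 2) :
    ∃ x U d g g' : _root_.Fermat.Agent.S18.H138.chart (A2.RE P E) ({Mod3.x3E E M q} : Set (FE E (M * q * q))),
      (x : FE E (M * q * q)) = Fermat.Agent.S36.H994.γ4 E M q (Fermat.Agent.S36.H994.t4E E M h4)
          - Fermat.Agent.S36.H994.φ4 E M q (Fermat.Agent.S36.H994.t4E E M h4) ∧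
      0 < 12 * (q - 1) ∧
      U * d = algebraMap (A2.RE P E) _ w ^ 12 ∧ g * g' = 1 ∧
      (U : FE E (M * q * q))⁻¹ ∈ V₁ ∧ (U : FE E (M * q * q))⁻¹ ∈ V₃ ∧
      (∀ t : FE E (M * q * q), UnifAt V₂ t →
        UnitAt V₂ ((U : FE E (M * q * q)) * (t ^ (12 * (q - 1)))⁻¹)) ∧
      ((x : FE E (M * q * q)) ^ (12 * (q - 1)) - (g : FE E (M * q * q)) * (U : FE E (M * q * q)))
        * (U : FE E (M * q * q))⁻¹ ∈ V₂.nonunits := by
  have hVT : Mod3.LeafVT := Mod3.H370.leafVT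
  have hTab : Mod3.LeafTable := Mod3.H370.leafTable
  have hVal : Mod3.LeafVal := Mod3.H370.leafVal
  have hQep : Mod3.LeafQep := Mod3.H27.leafQep_of_vt hVT
  have hCh : Mod3.LeafChart := Mod3.H189.leafChart_of hVT hTab hVal
  have hRU := Mod3.H356.leafRegU_of hTab hQep hCh hVal P E M q w hStd V₁' V₂' V₁ V₂ V₃ W' W hO
  obtain ⟨U, d, hUeq, hUd⟩ := hRU.exists_pair
  have hq1 : 0 < 12 * (q - 1) := by
    have := hStd.q_prime.two_le
    omega
  have e6 : 6 * (2 * (q - 1)) = 12 * (q - 1) := by ring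
  haveI : NeZero (q * q) := ⟨mul_ne_zero (NeZero.ne q) (NeZero.ne q)⟩
  have hqM : q ∣ M * q := dvd_mul_left q M
  have ejqq : βE E (M * q) q (jE E (M * q) q hqM) = Mod3.jqq E M q := by
    rw [H553.βE_jE E (M * q) q q hqM]
    rfl
  have ej1 : αE E (M * q) q (jE E (M * q) 1 (one_dvd _)) = Mod3.j1 E M q := by
    rw [H553.αE_jE E (M * q) q 1 (one_dvd _)]
    rfl
  have hres : ((βE E (M * q) q (jE E (M * q) q hqM)
          - αE E (M * q) q (jE E (M * q) 1 (one_dvd _))) ^ (12 * (q - 1))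
        - αE E (M * q) q ((jE E (M * q) 1 (one_dvd _) ^ 4
            * (jE E (M * q) 1 (one_dvd _) - 1728) ^ 3) ^ (2 * (q - 1))) * Mod3.H356.Um E M q)
          * (Mod3.H356.Um E M q)⁻¹ ∈ V₂.nonunits := Mod3.H775.Res.hresJ hStd hO
  rw [ejqq, map_pow, map_mul, map_pow, map_pow, map_sub, map_ofNat, ej1, ← e6] at hres
  obtain ⟨x, g, g', hx, hgg', hres4⟩ :=
    unitData_mid_t4_27 hStd hO h4 hq2 (Mod3.H356.Um E M q) (2 * (q - 1)) hres
  rw [e6] at hres4
  refine ⟨x, U, d, g, g', hx, hq1, hUd, hgg', ?_, ?_, ?_, ?_⟩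
  · rw [hUeq]; exact hRU.unit₁
  · rw [hUeq]; exact hRU.unit₃
  · intro t ht
    rw [hUeq]; exact hRU.val₂' t ht
  · rw [hUeq]; exact hres4

end Main

end Fermat.Agent.S45.Reg.H27

end

end
-- ===== PACK-END S45/Reg/H27/BaseUnit4.lean

-- ===== PACK-BEGIN S45/Reg/H27/BaseFam4.lean
section




/-!
# S45 / CAR3 / MOD-E / REG, leaf C2 (helper27): BASE, finite chart, `q` odd — FAMILY form

* `xLev_two_eq_x3E27` : `ModE.xLev E (M q q) q 2 = S36.Mod3.x3E E M q` (the coordinate of the base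
  level is the coordinate of row S36).
* `UnitPkg27` : the unit package of the sheet `V i` of a family `V : ℕ → ValuationSubring F`
  (content of `UnitPkg` of the REG leaf list v1 of helper878, sec. 1; hypotheses of
  `S36.H878.principalAt_of_unit_self'`).
* `baseUnitPkg4_fam27` : the package of the middle sheet `V 1` at the level `M q q` for ANY family
  with `V 0 = V₁`, `V 1 = V₂`, `V 2 = V₃`, in the chart of `xLev E (M q q) q 2`, with
  `x = γ₄ t₄ - φ₄ t₄`, `N = 12 (q - 1)`, `k = 12`.  UNCONDITIONAL.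
-/

set_option autoImplicit false
set_option linter.style.haveILetI false
set_option linter.unusedSectionVars false
set_option synthInstance.maxHeartbeats 400000
set_option maxHeartbeats 1600000

noncomputable section

namespace Fermat.Agent.S45.Reg.H27

open ModularCurve
open Fermat.Agent Fermat.Agent.A2.Mod Fermat.Agent.S36 Fermat.Agent.S36.Eng
open Fermat.Agent.S18.H138 (chart)
open Fermat.Agent.S45.ModE (xLev jLev)

/-! ## The coordinate of the base level -/

section Coord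

variable (E : IntermediateField ℚ A2.Qb) (N q : ℕ) [NeZero N] [NeZero q]

theorem jLev_eq27 (l : ℕ) (h : q ^ l ∣ N) : jLev E N q l = jE E N (q ^ l) h := dif_pos h

end Coord

section Coord2

variable (E : IntermediateField ℚ A2.Qb) (M q : ℕ) [NeZero M] [NeZero q] [NeZero (M * q)]
  [NeZero (M * q * q)]

theorem xLev_two_eq_x3E27 : xLev E (M * q * q) q 2 = Mod3.x3E E M q := by
  have h0 : q ^ 0 ∣ M * q * q := by rw [pow_zero]; exact one_dvd _
  have h1 : q ^ 1 ∣ M * q * q := by rw [pow_one]; exact Dvd.intro_left (M * q) rfl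
  have h2 : q ^ 2 ∣ M * q * q := ⟨M, by ring⟩
  haveI : NeZero (q * q) := ⟨mul_ne_zero (NeZero.ne q) (NeZero.ne q)⟩
  unfold xLev
  rw [Finset.prod_range_succ, Finset.prod_range_succ, Finset.prod_range_succ,
    Finset.prod_range_zero, one_mul, jLev_eq27 E _ q 0 h0, jLev_eq27 E _ q 1 h1,
    jLev_eq27 E _ q 2 h2]
  unfold Mod3.x3E Mod3.j1 Mod3.jq Mod3.jqq
  rw [H372.jE_congr (E := E) (pow_zero q) h0 (one_dvd _),
    H372.jE_congr (E := E) (pow_one q) h1 (Dvd.intro_left (M * q) rfl),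
    H372.jE_congr (E := E) (sq q) h2 ⟨M, by ring⟩]

end Coord2

/-! ## The package -/

section Pkg

variable {R F : Type*} [CommRing R] [Field F] [Algebra R F]

/-- **The unit package** of the sheet `V i` in the chart `B` (family form; the hypotheses of
`S36.H878.principalAt_of_unit_self'` with the element `x`). -/
def UnitPkg27 (w : R) (B : Subalgebra R F) (e : ℕ) (V : ℕ → ValuationSubring F) (i : ℕ)
    (x : B) : Prop :=
  ∃ (U d g g' : B) (k N : ℕ), 0 < N ∧ U * d = algebraMap R B w ^ k ∧ g * g' = 1 ∧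
    (∀ j ≤ e, j ≠ i → (U : F)⁻¹ ∈ V j) ∧
    (∀ t : F, UnifAt (V i) t → UnitAt (V i) ((U : F) * (t ^ N)⁻¹)) ∧
    ((x : F) ^ N - (g : F) * (U : F)) * (U : F)⁻¹ ∈ (V i).nonunits

end Pkg

section Main

variable {P : ValuationSubring A2.Qb} {E : IntermediateField ℚ A2.Qb} {M q : ℕ}
  [NeZero M] [NeZero q] [NeZero (M * q)] [NeZero (M * q * q)] {w : A2.RE P E}
  {V₁' V₂' : ValuationSubring (FE E (M * q))}
  {V₁ V₂ V₃ : ValuationSubring (FE E (M * q * q))}
  {W' : FE E (M * q) ≃ₐ[E] FE E (M * q)}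
  {W : FE E (M * q * q) ≃ₐ[E] FE E (M * q * q)}

/-- **C2, family form**: the unit package of the middle sheet at the base level, `q` odd,
`4 ∣ M`, in the chart of `x3E`. -/
theorem baseUnitPkg4_x3E27 (hStd : Mod3.Std P E M q w)
    (hO : Mod3.Objs P E M q V₁' V₂' V₁ V₂ V₃ W' W) (h4 : 4 ∣ M) (hq2 : q ≠ 2)
    (V : ℕ → ValuationSubring (FE E (M * q * q))) (h0 : V 0 = V₁) (h1 : V 1 = V₂)
    (h2 : V 2 = V₃) :
    ∃ x : _root_.Fermat.Agent.S18.H138.chart (A2.RE P E) ({Mod3.x3E E M q} : Set (FE E (M * q * q))),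
      (x : FE E (M * q * q)) = Fermat.Agent.S36.H994.γ4 E M q (Fermat.Agent.S36.H994.t4E E M h4)
          - Fermat.Agent.S36.H994.φ4 E M q (Fermat.Agent.S36.H994.t4E E M h4) ∧
      UnitPkg27 w (_root_.Fermat.Agent.S18.H138.chart (A2.RE P E) ({Mod3.x3E E M q} : Set (FE E (M * q * q)))) 2 V 1 x := by
  obtain ⟨x, U, d, g, g', hx, hN, hUd, hgg', hU₁, hU₃, hU₂, hres⟩ :=
    baseUnitPkg4_27 hStd hO h4 hq2
  refine ⟨x, hx, U, d, g, g', 12, 12 * (q - 1), hN, hUd, hgg', ?_, ?_, ?_⟩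
  · intro j hj hj1
    have hj' : j = 0 ∨ j = 2 := by omega
    rcases hj' with rfl | rfl
    · rw [h0]; exact hU₁
    · rw [h2]; exact hU₃
  · intro t ht
    rw [h1] at ht ⊢
    exact hU₂ t ht
  · rw [h1]
    exact hres

end Main

end Fermat.Agent.S45.Reg.H27

end

end
-- ===== PACK-END S45/Reg/H27/BaseFam4.lean

-- ===== PACK-BEGIN S45/Reg/H27/BaseF4.lean
section



/-!
# S45 / CAR3 / MOD-E / REG, leaf C2 (helper27, 1st owner) in the BYTES of `S45/Reg/Spec.lean`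

Spec of the block: `origin/helper878:Fermat/Agent/S45/Reg/Spec.lean` (v1.3, sha256 `1c69ece8…`).
Base level `M q q` (exponent `2`), `q` odd, `4 ∣ M`.

* `tau4_27`               : the chain of `t₄`:  `τ 0 = φ₄ t₄ = t₄`, `τ 1 = α (β t₄)`,
                            `τ l = γ₄ t₄` (`l ≥ 2`);
* `isChain_tau4_27`       : `Reg.IsChain E (M q q) q (t₄) 2 τ`;
* `xT_tau4_27`            : `Reg.xT τ 2 1 = γ₄ t₄ - φ₄ t₄`;
* `tau4_mem_chart27`      : `τ l ∈ chart R {xLev E (M q q) q 2}`;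
* `unitPkg_base4_27`      : **C2** `Reg.UnitPkg w (chart R {xLev E (M q q) q 2}) 2 V 1 (xT τ 2 1)`,
                            UNCONDITIONAL (for every family with `V 0, V 1, V 2 = V₁, V₂, V₃`);
* `invF_base4_of_prec27`  : `Reg.Prec w q 2 τ V → Reg.InvF P E (M q q) q 2 w V τ` (C5 supplies
                            the precision);
* `leafBaseFOdd_of_prec27`: `LeafPrecB4_27 → LeafBaseFOdd27` (the body of `Reg.LeafBaseF` for
                            `q ≠ 2` from the precision of `τ`);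
* `leafBaseF_of27`        : `LeafPrecB4_27 → LeafBaseFTwo27 → Reg.LeafBaseF`.
-/

set_option autoImplicit false
set_option linter.style.haveILetI false
set_option linter.unusedSectionVars false
set_option synthInstance.maxHeartbeats 400000
set_option maxHeartbeats 1600000

noncomputable section

namespace Fermat.Agent.S45.Reg.H27

open ModularCurve
open Fermat.Agent Fermat.Agent.A2.Mod Fermat.Agent.S36 Fermat.Agent.S36.Eng
open Fermat.Agent.S18.H138 (chart)
open Fermat.Agent.S45.ModE (xLev jLev)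

/-! ## The chain of `t₄` at the base level -/

section Chain

variable (E : IntermediateField ℚ A2.Qb) (M q : ℕ) [NeZero M] [NeZero q] [NeZero (M * q)]
  [NeZero (M * q * q)]

/-- The chain of `t₄` at the level `M q q`: `t₄(t)`, `t₄(t^q)`, `t₄(t^{q²})`. -/
def tau4_27 (h4 : 4 ∣ M) : ℕ → FE E (M * q * q)
  | 0 => Fermat.Agent.S36.H994.φ4 E M q (Fermat.Agent.S36.H994.t4E E M h4)
  | 1 => αE E (M * q) q (βE E M q (Fermat.Agent.S36.H994.t4E E M h4))
  | _ + 2 => Fermat.Agent.S36.H994.γ4 E M q (Fermat.Agent.S36.H994.t4E E M h4)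

theorem tau4_zero27 (h4 : 4 ∣ M) :
    tau4_27 E M q h4 0 = Fermat.Agent.S36.H994.φ4 E M q (Fermat.Agent.S36.H994.t4E E M h4) := rfl

theorem tau4_one27 (h4 : 4 ∣ M) :
    tau4_27 E M q h4 1 = αE E (M * q) q (βE E M q (Fermat.Agent.S36.H994.t4E E M h4)) := rfl

theorem tau4_two27 (h4 : 4 ∣ M) :
    tau4_27 E M q h4 2 = Fermat.Agent.S36.H994.γ4 E M q (Fermat.Agent.S36.H994.t4E E M h4) := rfl

theorem coe_tau4_one27 (h4 : 4 ∣ M) :
    ((tau4_27 E M q h4 1 : FE E (M * q * q)) : LaurentSeries E)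
      = qExpand E q (Fermat.Agent.S36.H878.t4 E) := by
  rw [tau4_one27]
  show ((heckeAlphaBar E (M * q) q (βE E M q (Fermat.Agent.S36.H994.t4E E M h4)) : _) :
    LaurentSeries E) = _
  rw [coe_heckeAlphaBar]
  rfl

/-- **The chain of `t₄`** is a chain of the Laurent series `t₄` up to `2`. -/
theorem isChain_tau4_27 (h4 : 4 ∣ M) :
    IsChain E (M * q * q) q (Fermat.Agent.S36.H878.t4 E) 2 (tau4_27 E M q h4) := by
  intro l hl
  have hl' : l = 0 ∨ l = 1 ∨ l = 2 := by omega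
  rcases hl' with rfl | rfl | rfl
  · rw [tau4_zero27, Fermat.Agent.S36.H994.coe_φ4, Fermat.Agent.S36.H994.coe_t4E]
    rfl
  · rw [coe_tau4_one27]
    rfl
  · rw [tau4_two27, Fermat.Agent.S36.H994.coe_γ4, Fermat.Agent.S36.H994.coe_t4E]
    rfl

/-- The named element of the middle sheet at exponent `2`. -/
theorem xT_two_one27 {F : Type*} [Field F] (τ : ℕ → F) : xT τ 2 1 = τ 2 - τ 0 := by
  unfold xT
  rw [if_pos (le_refl _)]

theorem xT_tau4_27 (h4 : 4 ∣ M) :
    xT (tau4_27 E M q h4) 2 1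
      = Fermat.Agent.S36.H994.γ4 E M q (Fermat.Agent.S36.H994.t4E E M h4)
        - Fermat.Agent.S36.H994.φ4 E M q (Fermat.Agent.S36.H994.t4E E M h4) := by
  rw [xT_two_one27, tau4_two27, tau4_zero27]

end Chain

/-! ## Chart membership of the chain -/

section Mem

variable {P : ValuationSubring A2.Qb} {E : IntermediateField ℚ A2.Qb} {M q : ℕ}
  [NeZero M] [NeZero q] [NeZero (M * q)] [NeZero (M * q * q)] {w : A2.RE P E}

/-- A ring homomorphism `ψ` out of `F_E(M)` maps `t₄` into the chart of `S` as soon as `ψ j` lies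
in it (the relation `j t₄⁴ (t₄ + 16) = (t₄² + 256 t₄ + 4096)³`). -/
theorem hom_t4E_mem_chart27 (h4 : 4 ∣ M) (S : Set (FE E (M * q * q)))
    (ψ : FE E M →+* FE E (M * q * q))
    (hj : ψ (jE E M 1 (one_dvd M)) ∈ _root_.Fermat.Agent.S18.H138.chart (A2.RE P E) S) :
    ψ (Fermat.Agent.S36.H994.t4E E M h4) ∈ _root_.Fermat.Agent.S18.H138.chart (A2.RE P E) S := by
  have h := congrArg ψ (Fermat.Agent.S36.H994.jE_mul_t4E E M h4)
  simp only [map_mul, map_pow, map_add, map_ofNat] at h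
  exact Fermat.Agent.S36.H994.mem_chart_of_rel4 S hj h

/-- **The chain of `t₄` lies in the finite chart** of the base level. -/
theorem tau4_mem_chart27 (hStd : Mod3.Std P E M q w) (h4 : 4 ∣ M) (l : ℕ) :
    tau4_27 E M q h4 l
      ∈ _root_.Fermat.Agent.S18.H138.chart (A2.RE P E) ({xLev E (M * q * q) q 2} : Set (FE E (M * q * q))) := by
  rw [xLev_two_eq_x3E27]
  haveI : NeZero (1 * q * q) := ⟨mul_ne_zero (mul_ne_zero one_ne_zero (NeZero.ne q)) (NeZero.ne q)⟩
  haveI : NeZero (q * q) := ⟨mul_ne_zero (NeZero.ne q) (NeZero.ne q)⟩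
  haveI : NeZero (1 * q) := ⟨mul_ne_zero one_ne_zero (NeZero.ne q)⟩
  match l with
  | 0 =>
    refine hom_t4E_mem_chart27 h4 _ (Fermat.Agent.S36.H994.φ4 E M q) ?_
    rw [Fermat.Agent.S36.H994.φ4_jE]
    exact Mod3.H189.j1_mem_chart P E M q hStd.q_prime
  | 1 =>
    have e : ((αE E (M * q) q : FE E (M * q) →+* FE E (M * q * q)).comp
        (βE E M q : FE E M →+* FE E (M * q))) (jE E M 1 (one_dvd M)) = Mod3.jq E M q := by
      show αE E (M * q) q (βE E M q (jE E M 1 (one_dvd M))) = _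
      rw [H553.βE_jE E M q 1 (one_dvd M), H553.αE_jE E (M * q) q (1 * q)]
      exact H372.jE_congr (E := E) (one_mul q) _ _
    have h := hom_t4E_mem_chart27 (P := P) h4 ({Mod3.x3E E M q} : Set (FE E (M * q * q)))
      ((αE E (M * q) q : FE E (M * q) →+* FE E (M * q * q)).comp
        (βE E M q : FE E M →+* FE E (M * q)))
      (by rw [e]; exact Mod3.H189.jq_mem_chart' P E M q hStd.q_prime)
    exact h
  | _ + 2 =>
    refine hom_t4E_mem_chart27 h4 _ (Fermat.Agent.S36.H994.γ4 E M q) ?_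
    rw [Fermat.Agent.S36.Mod3.H27.γ4_jE27,
      H372.jE_congr (E := E) (show 1 * q * q = q * q by rw [one_mul]) _
        (Dvd.intro_left M (mul_assoc M q q).symm)]
    exact Mod3.H189.jqq_mem_chart' P E M q hStd.q_prime

end Mem

/-! ## C2 in the bytes of the spec -/

section Main

variable {P : ValuationSubring A2.Qb} {E : IntermediateField ℚ A2.Qb} {M q : ℕ}
  [NeZero M] [NeZero q] [NeZero (M * q)] [NeZero (M * q * q)] {w : A2.RE P E}
  {V₁' V₂' : ValuationSubring (FE E (M * q))}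
  {V₁ V₂ V₃ : ValuationSubring (FE E (M * q * q))}
  {W' : FE E (M * q) ≃ₐ[E] FE E (M * q)}
  {W : FE E (M * q * q) ≃ₐ[E] FE E (M * q * q)}

/-- **C2 (REG leaf list v1), bytes of `Reg.UnitPkg`**: the unit package of the middle sheet `V 1`
at the base level `M q q`, `q` odd, `4 ∣ M`, with the named element `xT τ 2 1 = τ 2 - τ 0` of the
chain of `t₄`.  UNCONDITIONAL. -/
theorem unitPkg_base4_27 (hStd : Mod3.Std P E M q w)
    (hO : Mod3.Objs P E M q V₁' V₂' V₁ V₂ V₃ W' W) (h4 : 4 ∣ M) (hq2 : q ≠ 2)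
    (V : ℕ → ValuationSubring (FE E (M * q * q))) (h0 : V 0 = V₁) (h1 : V 1 = V₂)
    (h2 : V 2 = V₃) :
    UnitPkg (R := A2.RE P E) w
      (_root_.Fermat.Agent.S18.H138.chart (A2.RE P E) ({xLev E (M * q * q) q 2} : Set (FE E (M * q * q)))) 2 V 1
      (xT (tau4_27 E M q h4) 2 1) := by
  rw [xLev_two_eq_x3E27, xT_tau4_27]
  obtain ⟨x, U, d, g, g', hx, hN, hUd, hgg', hU₁, hU₃, hU₂, hres⟩ :=
    baseUnitPkg4_27 hStd hO h4 hq2
  have hVal := Mod3.H370.leafVal P E M q w hStd V₁' V₂' V₁ V₂ V₃ W' W hO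
  obtain ⟨t, ht, -⟩ := hVal.ram₂
  rw [← hx]
  refine ⟨x.2, U, d, g, g', 12, 12 * (q - 1), hN, hUd, hgg', ?_, ⟨t, ?_, ?_⟩, ?_⟩
  · intro j hj hj1
    have hj' : j = 0 ∨ j = 2 := by omega
    rcases hj' with rfl | rfl
    · rw [h0]; exact hU₁
    · rw [h2]; exact hU₃
  · rw [h1]; exact ht
  · rw [h1]; exact hU₂ t ht
  · rw [h1]; exact hres

/-- `Prec.mem` of the chain of `t₄` at the base level. -/
theorem tau4_mem_sheet27 (hStd : Mod3.Std P E M q w)
    (hO : Mod3.Objs P E M q V₁' V₂' V₁ V₂ V₃ W' W) (h4 : 4 ∣ M)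
    (V : ℕ → ValuationSubring (FE E (M * q * q))) (h0 : V 0 = V₁) (h1 : V 1 = V₂)
    (h2 : V 2 = V₃) : ∀ i ≤ 2, ∀ l ≤ 2, tau4_27 E M q h4 l ∈ V i := by
  have hval := Mod3.H370.leafVal P E M q w hStd V₁' V₂' V₁ V₂ V₃ W' W hO
  have hsheet := Mod3.H985.leafSheet P E M q w hStd V₁' V₂' V₁ V₂ V₃ W' W hO
  have hB₁ := Mod3.H189.chart_le_valuationSubring (R := A2.RE P E) V₁ hsheet.base₁
    hval.x_unit₁.2.1
  have hB₂ := Mod3.H189.chart_le_valuationSubring (R := A2.RE P E) V₂ hsheet.base₂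
    hval.x_unit₂.2.1
  have hB₃ := Mod3.H189.chart_le_valuationSubring (R := A2.RE P E) V₃ hsheet.base₃
    hval.x_unit₃.2.1
  intro i hi l _
  have hm := tau4_mem_chart27 (P := P) (w := w) hStd h4 l
  rw [xLev_two_eq_x3E27] at hm
  have hi' : i = 0 ∨ i = 1 ∨ i = 2 := by omega
  rcases hi' with rfl | rfl | rfl
  · rw [h0]; exact hB₁ _ hm
  · rw [h1]; exact hB₂ _ hm
  · rw [h2]; exact hB₃ _ hm

/-- **The finite invariant at the base level from the precision** (FrobW at `V 0, V 1`, VerW at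
`V 1, V 2`: leaf C5). -/
theorem invF_base4_of_prec27 (hStd : Mod3.Std P E M q w)
    (hO : Mod3.Objs P E M q V₁' V₂' V₁ V₂ V₃ W' W) (h4 : 4 ∣ M) (hq2 : q ≠ 2)
    (V : ℕ → ValuationSubring (FE E (M * q * q))) (h0 : V 0 = V₁) (h1 : V 1 = V₂)
    (h2 : V 2 = V₃)
    (hfrob : ∀ i, i + 1 ≤ 2 → (tau4_27 E M q h4 1 - tau4_27 E M q h4 0 ^ q)
      * (algebraMap (A2.RE P E) (FE E (M * q * q)) w)⁻¹ ∈ V i)
    (hver : ∀ i, 1 ≤ i → i ≤ 2 → (tau4_27 E M q h4 (2 - 1) - tau4_27 E M q h4 2 ^ q)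
      * (algebraMap (A2.RE P E) (FE E (M * q * q)) w)⁻¹ ∈ V i) :
    InvF P E (M * q * q) q 2 w V (tau4_27 E M q h4) where
  mem := fun l _ => tau4_mem_chart27 hStd h4 l
  prec :=
    { mem := tau4_mem_sheet27 hStd hO h4 V h0 h1 h2
      frob := hfrob
      ver := hver }
  pkg := by
    intro i hi hi'
    have e : i = 1 := by omega
    subst e
    exact unitPkg_base4_27 hStd hO h4 hq2 V h0 h1 h2

/-- The Hauptmodul of the neat structure is `t₄` for `q` odd. -/
theorem hauptF_odd27 (E : Type*) [Field E] {q : ℕ} (hq2 : q ≠ 2) :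
    hauptF E q = Fermat.Agent.S36.H878.t4 E := if_neg hq2

/-- **REG-BASE-F for `q` odd** (the body of `Reg.LeafBaseF`, spec v1.3) from the precision of the
chain of `t₄`. -/
theorem invFP_base4_of_prec27 (hStd : Mod3.Std P E M q w)
    (hO : Mod3.Objs P E M q V₁' V₂' V₁ V₂ V₃ W' W) (hq2 : q ≠ 2)
    (V : ℕ → ValuationSubring (FE E (M * q * q))) (h0 : V 0 = V₁) (h1 : V 1 = V₂)
    (h2 : V 2 = V₃)
    (hfrob : ∀ h4 : 4 ∣ M, ∀ i, i + 1 ≤ 2 → (tau4_27 E M q h4 1 - tau4_27 E M q h4 0 ^ q)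
      * (algebraMap (A2.RE P E) (FE E (M * q * q)) w)⁻¹ ∈ V i)
    (hver : ∀ h4 : 4 ∣ M, ∀ i, 1 ≤ i → i ≤ 2 →
      (tau4_27 E M q h4 (2 - 1) - tau4_27 E M q h4 2 ^ q)
        * (algebraMap (A2.RE P E) (FE E (M * q * q)) w)⁻¹ ∈ V i) :
    ∃ τ : ℕ → FE E (M * q * q),
      IsChain E (M * q * q) q (hauptF E q) 2 τ ∧ InvF P E (M * q * q) q 2 w V τ := by
  have h4 : 4 ∣ M := hStd.neat.2.1 hq2
  refine ⟨tau4_27 E M q h4, ?_,
    invF_base4_of_prec27 hStd hO h4 hq2 V h0 h1 h2 (hfrob h4) (hver h4)⟩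
  rw [hauptF_odd27 E hq2]
  exact isChain_tau4_27 E M q h4

end Main

/-! ## The leaf `Reg.LeafBaseF` -/

section Leaf

/-- **C5 at the base level, `q` odd** (open input): FrobW on `V₁, V₂` and VerW on `V₂, V₃` for the
chain of `t₄`. -/
def LeafPrecB4_27 : Prop :=
  ∀ (P : ValuationSubring A2.Qb) (E : IntermediateField ℚ A2.Qb) (M q : ℕ)
    [NeZero M] [NeZero q] [NeZero (M * q)] [NeZero (M * q * q)] (w : A2.RE P E),
    Mod3.Std P E M q w → q ≠ 2 → ∀ h4 : 4 ∣ M,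
    ∀ (V₁' V₂' : ValuationSubring (A2.Mod.FE E (M * q)))
      (V₁ V₂ V₃ : ValuationSubring (A2.Mod.FE E (M * q * q)))
      (W' : A2.Mod.FE E (M * q) ≃ₐ[E] A2.Mod.FE E (M * q))
      (W : A2.Mod.FE E (M * q * q) ≃ₐ[E] A2.Mod.FE E (M * q * q)),
      Mod3.Objs P E M q V₁' V₂' V₁ V₂ V₃ W' W →
      ((tau4_27 E M q h4 1 - tau4_27 E M q h4 0 ^ q)
          * (algebraMap (A2.RE P E) (FE E (M * q * q)) w)⁻¹ ∈ V₁ ∧
        (tau4_27 E M q h4 1 - tau4_27 E M q h4 0 ^ q)
          * (algebraMap (A2.RE P E) (FE E (M * q * q)) w)⁻¹ ∈ V₂) ∧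
      ((tau4_27 E M q h4 1 - tau4_27 E M q h4 2 ^ q)
          * (algebraMap (A2.RE P E) (FE E (M * q * q)) w)⁻¹ ∈ V₂ ∧
        (tau4_27 E M q h4 1 - tau4_27 E M q h4 2 ^ q)
          * (algebraMap (A2.RE P E) (FE E (M * q * q)) w)⁻¹ ∈ V₃)

/-- REG-BASE-F for `q` odd (the body of `Reg.LeafBaseF` under `q ≠ 2`). -/
def LeafBaseFOdd27 : Prop :=
  ∀ (P : ValuationSubring A2.Qb) (E : IntermediateField ℚ A2.Qb) (M q : ℕ)
    [NeZero M] [NeZero q] [NeZero (M * q)] [NeZero (M * q * q)] (w : A2.RE P E),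
    Mod3.Std P E M q w → q ≠ 2 →
    ∀ (V₁' V₂' : ValuationSubring (A2.Mod.FE E (M * q)))
      (V₁ V₂ V₃ : ValuationSubring (A2.Mod.FE E (M * q * q)))
      (W' : A2.Mod.FE E (M * q) ≃ₐ[E] A2.Mod.FE E (M * q))
      (W : A2.Mod.FE E (M * q * q) ≃ₐ[E] A2.Mod.FE E (M * q * q)),
      Mod3.Objs P E M q V₁' V₂' V₁ V₂ V₃ W' W →
      ∀ V : ℕ → ValuationSubring (A2.Mod.FE E (M * q * q)), V 0 = V₁ → V 1 = V₂ → V 2 = V₃ →
        ∃ τ : ℕ → A2.Mod.FE E (M * q * q),
          IsChain E (M * q * q) q (hauptF E q) 2 τ ∧ InvF P E (M * q * q) q 2 w V τ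

/-- REG-BASE-F for `q = 2` (the body of `Reg.LeafBaseF` under `q = 2`; leaf C3, helper890). -/
def LeafBaseFTwo27 : Prop :=
  ∀ (P : ValuationSubring A2.Qb) (E : IntermediateField ℚ A2.Qb) (M q : ℕ)
    [NeZero M] [NeZero q] [NeZero (M * q)] [NeZero (M * q * q)] (w : A2.RE P E),
    Mod3.Std P E M q w → q = 2 →
    ∀ (V₁' V₂' : ValuationSubring (A2.Mod.FE E (M * q)))
      (V₁ V₂ V₃ : ValuationSubring (A2.Mod.FE E (M * q * q)))
      (W' : A2.Mod.FE E (M * q) ≃ₐ[E] A2.Mod.FE E (M * q))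
      (W : A2.Mod.FE E (M * q * q) ≃ₐ[E] A2.Mod.FE E (M * q * q)),
      Mod3.Objs P E M q V₁' V₂' V₁ V₂ V₃ W' W →
      ∀ V : ℕ → ValuationSubring (A2.Mod.FE E (M * q * q)), V 0 = V₁ → V 1 = V₂ → V 2 = V₃ →
        ∃ τ : ℕ → A2.Mod.FE E (M * q * q),
          IsChain E (M * q * q) q (hauptF E q) 2 τ ∧ InvF P E (M * q * q) q 2 w V τ

/-- **REG-BASE-F, `q` odd**, from the precision of the chain of `t₄` (C2 is plugged). -/
theorem leafBaseFOdd_of_prec27 (hprec : LeafPrecB4_27) : LeafBaseFOdd27 := by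
  intro P E M q _ _ _ _ w hStd hq2 V₁' V₂' V₁ V₂ V₃ W' W hO V h0 h1 h2
  refine invFP_base4_of_prec27 hStd hO hq2 V h0 h1 h2 ?_ ?_
  · intro h4 i hi
    obtain ⟨⟨hf₁, hf₂⟩, -⟩ := hprec P E M q w hStd hq2 h4 V₁' V₂' V₁ V₂ V₃ W' W hO
    have hi' : i = 0 ∨ i = 1 := by omega
    rcases hi' with rfl | rfl
    · rw [h0]; exact hf₁
    · rw [h1]; exact hf₂
  · intro h4 i hi hi2
    obtain ⟨-, hv₂, hv₃⟩ := hprec P E M q w hStd hq2 h4 V₁' V₂' V₁ V₂ V₃ W' W hO
    have hi' : i = 1 ∨ i = 2 := by omega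
    rcases hi' with rfl | rfl
    · rw [h1]; exact hv₂
    · rw [h2]; exact hv₃

/-- **REG-BASE-F** (`Reg.LeafBaseF`, spec v1.3) from its two halves. -/
theorem leafBaseF_of_halves27 (hodd : LeafBaseFOdd27) (htwo : LeafBaseFTwo27) : LeafBaseF := by
  intro P E M q _ _ _ _ w hStd V₁' V₂' V₁ V₂ V₃ W' W hO V h0 h1 h2
  by_cases hq : q = 2
  · exact htwo P E M q w hStd hq V₁' V₂' V₁ V₂ V₃ W' W hO V h0 h1 h2
  · exact hodd P E M q w hStd hq V₁' V₂' V₁ V₂ V₃ W' W hO V h0 h1 h2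

/-- **REG-BASE-F** from the precision of the chain of `t₄` (C5, `q` odd) and the half `q = 2`
(C3 + C5, helper890). -/
theorem leafBaseF_of27 (hprec : LeafPrecB4_27) (htwo : LeafBaseFTwo27) : LeafBaseF :=
  leafBaseF_of_halves27 (leafBaseFOdd_of_prec27 hprec) htwo

end Leaf

end Fermat.Agent.S45.Reg.H27

end

end
-- ===== PACK-END S45/Reg/H27/BaseF4.lean

-- ===== PACK-BEGIN S45/Reg/H27/PrecB4.lean
section







/-!
# S45 / CAR3 / MOD-E / REG: the PRECISION of the chain of `t₄` at the base level (helper27)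

Leaf C5 at the base level `M q q`, `q` odd (`LeafPrecB4_27` of `BaseF4.lean`), and with it the
`q`-odd half of `Reg.LeafBaseF`, UNCONDITIONAL.

No transfer modulo `w`, no Fricke involution on `t₄`, no unit at `V₀`:

* FrobW (`V₁`, `V₂`): `τ 1 - τ 0 ^ q = α (F)`, `F = β t₄ - (α t₄) ^ q` at level `M q`, whose
  expansion is `t₄(t^q) - t₄(t)^q ∈ q ℤ((t))` (`H528.exists_frobCong`), so `F / w ∈ V∞(M q)`
  (`H142.inW_of_coe_eq`); `V₁`, `V₂` both lie over `V∞(M q)` along `α`.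
* VerW (`V₂`, `V₃`): `τ 1 - τ 2 ^ q = β (G)`, `G = α t₄ - (β t₄) ^ q` at level `M q`.  On `V₂`:
  `β G = (τ 1 - τ 0 ^ q) - (τ 2 ^ q - τ 0 ^ q) ∈ 𝔪` by FrobW and the congruence
  `γ t₄ ≡ φ t₄ mod 𝔪_{V₂}` of row S36 (`H994.reg4_congr`).  `V₂` and `V₃` lie over the SAME
  `V₂' = V₀(M q)` along `β`, so `G ∈ 𝔪_{V₂'}`, `β G ∈ 𝔪_{V₃} = w V₃`, hence `β (G / w) ∈ V₃`,
  `G / w ∈ V₂'`, `β (G / w) ∈ V₂`.
-/

set_option autoImplicit false
set_option linter.style.haveILetI false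
set_option linter.unusedSectionVars false
set_option synthInstance.maxHeartbeats 400000
set_option maxHeartbeats 1600000

noncomputable section

namespace Fermat.Agent.S45.Reg.H27

open ModularCurve
open Fermat.Agent Fermat.Agent.A2.Mod Fermat.Agent.S36 Fermat.Agent.S36.Eng
open Fermat.Agent.S18.H138 (chart)
open Fermat.Agent.S45.ModE (xLev jLev)

/-! ## Generic: the Frobenius congruence modulo `w` on `V∞` -/

section FrobGen

variable {P : ValuationSubring A2.Qb} {E : IntermediateField ℚ A2.Qb}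

/-- An element of `F_E(N)` with expansion `x(t^q) - x(t)^q`, `x ∈ ℤ((t))`, lies in `w V∞`. -/
theorem frobW_vinf27 {w : A2.RE P E} {q : ℕ} [NeZero q] (hq : q.Prime)
    (hdvr : IsDiscreteValuationRing (A2.RE P E)) (hw : Irreducible w)
    (hP : P.LiesOverPrime q) {N : ℕ} (hN : N ≠ 0) {V : ValuationSubring (FE E N)}
    (hV : IsVinf P E N V) (x : LaurentSeries ℤ) (D : FE E N)
    (hD : (D : LaurentSeries E)
      = Fermat.Agent.S36.H994.castE4 E (qExpand ℤ q x - x ^ q)) :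
    D * (algebraMap (A2.RE P E) (FE E N) w)⁻¹ ∈ V := by
  haveI : Fact q.Prime := ⟨hq⟩
  obtain ⟨g, hg⟩ := Fermat.Agent.A2.H528.exists_frobCong q x
  have h := Fermat.Agent.A2.Mod.H142.inW_of_coe_eq hq.ne_zero hdvr hw hP hN hV D g
    (by rw [hD, hg]; rfl)
  exact h

end FrobGen

/-! ## The two elements of level `M q` -/

section LevelOne

variable (E : IntermediateField ℚ A2.Qb) (M q : ℕ) [NeZero M] [NeZero q] [NeZero (M * q)]

/-- `β ∘ α = α ∘ β : F_E(M) → F_E(M q q)`. -/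
theorem βE_αE_comm27 (f : FE E M) :
    βE E (M * q) q (αE E M q f) = αE E (M * q) q (βE E M q f) := by
  apply Subtype.ext
  show qExpand E q ((heckeAlphaBar E M q f : _) : LaurentSeries E)
    = ((heckeAlphaBar E (M * q) q (βE E M q f) : _) : LaurentSeries E)
  rw [coe_heckeAlphaBar, coe_heckeAlphaBar]
  rfl

/-- The expansion of `F = β t₄ - (α t₄) ^ q`. -/
theorem coe_frobElt4_27 (h4 : 4 ∣ M) :
    ((βE E M q (Fermat.Agent.S36.H994.t4E E M h4)
        - αE E M q (Fermat.Agent.S36.H994.t4E E M h4) ^ q : FE E (M * q)) : LaurentSeries E)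
      = Fermat.Agent.S36.H994.castE4 E
          (qExpand ℤ q (Fermat.Agent.S36.H878.t4 ℤ) - Fermat.Agent.S36.H878.t4 ℤ ^ q) := by
  rw [map_sub, map_pow, Fermat.Agent.S36.H994.castE4_qExpand, Fermat.Agent.S36.H994.castE4_t4]
  show qExpand E q ((Fermat.Agent.S36.H994.t4E E M h4 : FE E M) : LaurentSeries E)
    - ((heckeAlphaBar E M q (Fermat.Agent.S36.H994.t4E E M h4) : _) : LaurentSeries E) ^ q = _
  rw [coe_heckeAlphaBar, Fermat.Agent.S36.H994.coe_t4E]

end LevelOne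

/-! ## The precision at the base level -/

section Main

variable {P : ValuationSubring A2.Qb} {E : IntermediateField ℚ A2.Qb} {M q : ℕ}
  [NeZero M] [NeZero q] [NeZero (M * q)] [NeZero (M * q * q)] {w : A2.RE P E}
  {V₁' V₂' : ValuationSubring (FE E (M * q))}
  {V₁ V₂ V₃ : ValuationSubring (FE E (M * q * q))}
  {W' : FE E (M * q) ≃ₐ[E] FE E (M * q)}
  {W : FE E (M * q * q) ≃ₐ[E] FE E (M * q * q)}

/-- `τ 1 - τ 0 ^ q = α F`. -/
theorem tau4_frob_eq27 (h4 : 4 ∣ M) :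
    tau4_27 E M q h4 1 - tau4_27 E M q h4 0 ^ q
      = αE E (M * q) q (βE E M q (Fermat.Agent.S36.H994.t4E E M h4)
          - αE E M q (Fermat.Agent.S36.H994.t4E E M h4) ^ q) := by
  rw [map_sub, map_pow]
  rfl

/-- `τ 1 - τ 2 ^ q = β G`. -/
theorem tau4_ver_eq27 (h4 : 4 ∣ M) :
    tau4_27 E M q h4 1 - tau4_27 E M q h4 2 ^ q
      = βE E (M * q) q (αE E M q (Fermat.Agent.S36.H994.t4E E M h4)
          - βE E M q (Fermat.Agent.S36.H994.t4E E M h4) ^ q) := by
  rw [map_sub, map_pow, βE_αE_comm27]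
  rfl

/-- `(φ x) / w = φ (x / w)` for the `E`-algebra homomorphisms `α`, `β`. -/
theorem map_div_w27 (φ : FE E (M * q) →ₐ[E] FE E (M * q * q)) (x : FE E (M * q)) :
    φ x * (algebraMap (A2.RE P E) (FE E (M * q * q)) w)⁻¹
      = φ (x * (algebraMap (A2.RE P E) (FE E (M * q)) w)⁻¹) := by
  rw [map_mul, map_inv₀]
  congr 2
  show algebraMap E (FE E (M * q * q)) (w : E) = φ (algebraMap E (FE E (M * q)) (w : E))
  rw [AlgHom.commutes]

/-- **FrobW at the base level**: `(τ 1 - τ 0 ^ q) / w ∈ V₁, V₂`. -/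
theorem frobW_base4_27 (hStd : Mod3.Std P E M q w)
    (hO : Mod3.Objs P E M q V₁' V₂' V₁ V₂ V₃ W' W) (h4 : 4 ∣ M) :
    (tau4_27 E M q h4 1 - tau4_27 E M q h4 0 ^ q)
        * (algebraMap (A2.RE P E) (FE E (M * q * q)) w)⁻¹ ∈ V₁ ∧
      (tau4_27 E M q h4 1 - tau4_27 E M q h4 0 ^ q)
        * (algebraMap (A2.RE P E) (FE E (M * q * q)) w)⁻¹ ∈ V₂ := by
  have hS : Setting P E M q w := Mod3.H816.setting_of_std hStd
  have hTab := Mod3.H370.leafTable P E M q w hStd V₁' V₂' V₁ V₂ V₃ W' W hO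
  have hF := frobW_vinf27 hStd.q_prime hS.dvr hStd.unif hStd.lies_over (NeZero.ne (M * q))
    hO.vinf' (Fermat.Agent.S36.H878.t4 ℤ) _ (coe_frobElt4_27 E M q h4)
  rw [tau4_frob_eq27, map_div_w27]
  constructor
  · have h1 := hF
    rw [← hTab.comap_α₁, ValuationSubring.mem_comap] at h1
    exact h1
  · have h1 := hF
    rw [← hTab.comap_α₂, ValuationSubring.mem_comap] at h1
    exact h1

/-- `x ^ n - y ^ n ∈ 𝔪_V` for `x, y ∈ V`, `x - y ∈ 𝔪_V`. -/
theorem pow_sub_pow_mem_nonunits27 {F : Type*} [Field F] (V : ValuationSubring F) {x y : F}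
    (hx : x ∈ V) (hy : y ∈ V) (hxy : x - y ∈ V.nonunits) (n : ℕ) :
    x ^ n - y ^ n ∈ V.nonunits := by
  rw [← (Commute.all x y).geom_sum₂_mul n]
  refine Fermat.Agent.S36.H878.mul_mem_nonunits_of_mem V ?_ hxy
  exact sum_mem fun i _ => mul_mem (pow_mem hx i) (pow_mem hy _)

/-- **The mid congruence of row S36**: `τ 0, τ 2 ∈ V₂` and `τ 2 - τ 0 ∈ 𝔪_{V₂}`. -/
theorem tau4_mid_congr27 (hStd : Mod3.Std P E M q w)
    (hO : Mod3.Objs P E M q V₁' V₂' V₁ V₂ V₃ W' W) (h4 : 4 ∣ M) :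
    tau4_27 E M q h4 0 ∈ V₂ ∧ tau4_27 E M q h4 2 ∈ V₂ ∧
      tau4_27 E M q h4 2 - tau4_27 E M q h4 0 ∈ V₂.nonunits := by
  have hS : Setting P E M q w := Mod3.H816.setting_of_std hStd
  haveI := hS.dvr
  have h2 : 2 ∣ M := Dvd.dvd.trans (by norm_num) h4
  have c1 := Fermat.Agent.S36.Mod3.H27.frob_mid27 hStd hO 1 (one_dvd M)
  have c2 := Fermat.Agent.S36.Mod3.H27.frob_mid27 hStd hO 2 h2
  have c4 := Fermat.Agent.S36.Mod3.H27.frob_mid27 hStd hO 4 h4
  exact Fermat.Agent.S36.H994.reg4_congr hO.vinf' hO.mid h4 c1 c2 c4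

/-- **VerW at the base level**: `(τ 1 - τ 2 ^ q) / w ∈ V₂, V₃`. -/
theorem verW_base4_27 (hStd : Mod3.Std P E M q w)
    (hO : Mod3.Objs P E M q V₁' V₂' V₁ V₂ V₃ W' W) (h4 : 4 ∣ M) :
    (tau4_27 E M q h4 1 - tau4_27 E M q h4 2 ^ q)
        * (algebraMap (A2.RE P E) (FE E (M * q * q)) w)⁻¹ ∈ V₂ ∧
      (tau4_27 E M q h4 1 - tau4_27 E M q h4 2 ^ q)
        * (algebraMap (A2.RE P E) (FE E (M * q * q)) w)⁻¹ ∈ V₃ := by
  have hS : Setting P E M q w := Mod3.H816.setting_of_std hStd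
  haveI := hS.dvr
  haveI : Fact q.Prime := ⟨hStd.q_prime⟩
  have hTab := Mod3.H370.leafTable P E M q w hStd V₁' V₂' V₁ V₂ V₃ W' W hO
  have hVal := Mod3.H370.leafVal P E M q w hStd V₁' V₂' V₁ V₂ V₃ W' W hO
  obtain ⟨h0V, h2V, hmid⟩ := tau4_mid_congr27 hStd hO h4
  -- Frobenius modulo `𝔪_{V₂}`
  have hw₂ : algebraMap (A2.RE P E) (FE E (M * q * q)) w ∈ V₂.nonunits := by
    have e : algebraMap (A2.RE P E) (FE E (M * q * q)) w
        = αE E (M * q) q (algebraMap (A2.RE P E) (FE E (M * q)) w) := by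
      show algebraMap E (FE E (M * q * q)) (w : E)
        = αE E (M * q) q (algebraMap E (FE E (M * q)) (w : E))
      rw [AlgHom.commutes]
    have h1 : algebraMap (A2.RE P E) (FE E (M * q * q)) w ∈ V₁.nonunits := hVal.unif₁.2.1
    rw [e] at h1 ⊢
    have h2 := (Fermat.Agent.S36.H816.mem_nonunits_comap_iff
      (αE E (M * q) q : FE E (M * q) →+* FE E (M * q * q)) V₁ _).mpr h1
    rw [hTab.comap_α₁, ← hTab.comap_α₂] at h2
    exact (Fermat.Agent.S36.H816.mem_nonunits_comap_iff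
      (αE E (M * q) q : FE E (M * q) →+* FE E (M * q * q)) V₂ _).mp h2
  have hw0 : algebraMap (A2.RE P E) (FE E (M * q * q)) w ≠ 0 := hVal.unif₁.1
  have hF₂ : tau4_27 E M q h4 1 - tau4_27 E M q h4 0 ^ q ∈ V₂.nonunits := by
    have h := (frobW_base4_27 hStd hO h4).2
    have e : tau4_27 E M q h4 1 - tau4_27 E M q h4 0 ^ q
        = (tau4_27 E M q h4 1 - tau4_27 E M q h4 0 ^ q)
            * (algebraMap (A2.RE P E) (FE E (M * q * q)) w)⁻¹
          * algebraMap (A2.RE P E) (FE E (M * q * q)) w :=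
      (inv_mul_cancel_right₀ hw0 _).symm
    rw [e]
    exact Fermat.Agent.S36.H878.mul_mem_nonunits_of_mem V₂ h hw₂
  -- `β G ∈ 𝔪_{V₂}`
  have hG₂ : tau4_27 E M q h4 1 - tau4_27 E M q h4 2 ^ q ∈ V₂.nonunits := by
    have e : tau4_27 E M q h4 1 - tau4_27 E M q h4 2 ^ q
        = (tau4_27 E M q h4 1 - tau4_27 E M q h4 0 ^ q)
          - (tau4_27 E M q h4 2 ^ q - tau4_27 E M q h4 0 ^ q) := by ring
    rw [e]
    exact Fermat.Agent.S36.H816.sub_mem_nonunits V₂ hF₂
      (pow_sub_pow_mem_nonunits27 V₂ h2V h0V hmid q)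
  -- `G ∈ 𝔪_{V₂'}`, `β G ∈ 𝔪_{V₃}`
  have hG' : αE E M q (Fermat.Agent.S36.H994.t4E E M h4)
      - βE E M q (Fermat.Agent.S36.H994.t4E E M h4) ^ q ∈ V₂'.nonunits := by
    rw [← hTab.comap_β₂]
    refine (Fermat.Agent.S36.H816.mem_nonunits_comap_iff
      (βE E (M * q) q : FE E (M * q) →+* FE E (M * q * q)) V₂ _).mpr ?_
    have h := hG₂
    rw [tau4_ver_eq27] at h
    exact h
  have hG₃ : tau4_27 E M q h4 1 - tau4_27 E M q h4 2 ^ q ∈ V₃.nonunits := by
    rw [tau4_ver_eq27]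
    have h := hG'
    rw [← hTab.comap_β₃] at h
    exact (Fermat.Agent.S36.H816.mem_nonunits_comap_iff
      (βE E (M * q) q : FE E (M * q) →+* FE E (M * q * q)) V₃ _).mp h
  -- `w` is a uniformiser of `V₃`
  have h₃ := hVal.unif₃.2.2 _ hG₃
  refine ⟨?_, h₃⟩
  rw [tau4_ver_eq27, map_div_w27] at h₃ ⊢
  have h₃' : (αE E M q (Fermat.Agent.S36.H994.t4E E M h4)
      - βE E M q (Fermat.Agent.S36.H994.t4E E M h4) ^ q)
        * (algebraMap (A2.RE P E) (FE E (M * q)) w)⁻¹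
      ∈ V₃.comap (βE E (M * q) q : FE E (M * q) →+* FE E (M * q * q)) :=
    ValuationSubring.mem_comap.mpr h₃
  rw [hTab.comap_β₃, ← hTab.comap_β₂, ValuationSubring.mem_comap] at h₃'
  exact h₃'

/-- **C5 at the base level, `q` odd**: `LeafPrecB4_27`, UNCONDITIONAL. -/
theorem leafPrecB4_27 : LeafPrecB4_27 := by
  intro P E M q _ _ _ _ w hStd _ h4 V₁' V₂' V₁ V₂ V₃ W' W hO
  exact ⟨frobW_base4_27 hStd hO h4, verW_base4_27 hStd hO h4⟩

/-- **REG-BASE-F, `q` odd, UNCONDITIONAL.** -/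
theorem leafBaseFOdd27 : LeafBaseFOdd27 := leafBaseFOdd_of_prec27 leafPrecB4_27

/-- **REG-BASE-F** (`Reg.LeafBaseF`, spec v1.3) from its half `q = 2`. -/
theorem leafBaseF_of_two27 (htwo : LeafBaseFTwo27) : LeafBaseF :=
  leafBaseF_of_halves27 leafBaseFOdd27 htwo

end Main

end Fermat.Agent.S45.Reg.H27

end

end
-- ===== PACK-END S45/Reg/H27/PrecB4.lean

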