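import Fermat.Agent.Pack.S45.E2L0
import Fermat.Agent.Pack.S43MC.G0E25L0
import Fermat.Agent.Pack.S43MC.G0E26L3
import Fermat.Agent.Pack.S45.E2L1
import Fermat.Agent.Pack.S43MC.G0E26L1
import Fermat.Agent.Pack.S43MC.G0E27L0
import Fermat.Agent.Pack.S45.E1L0
import Fermat.Agent.Pack.S45.E0L3
import Fermat.Agent.Pack.S45.E2L2
import Fermat.Agent.Pack.S44C.G0E23L3
import Fermat.Agent.Pack.S45.E2L3
import Fermat.Agent.Pack.S43MC.G0E25L3
import Fermat.Agent.Pack.S43MC.G0E20L0
import Fermat.Agent.Pack.S45.E0L2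
import Fermat.Agent.Pack.S44C.G0E17L2
import Fermat.Agent.Pack.S43MC.G0E28L3
import Fermat.Agent.Pack.S43MC.G0E27L3
import Fermat.Agent.Pack.Fast891

set_option linter.all false

-- ===== PACK-BEGIN S45/H838/ChainFF.lean
section





/-!
# S45 / CAR3, MOD-E — the fields `hx`, `hfin`, `hconst`, `fin_α`, `fin_β` of `CtxE` for the chain
coordinate (helper838)

Level `N ≠ 0` arbitrary, `q ^ e ∣ N`, `x = xch E N q e = ∏_{i ≤ e} j_{q^i}`.

* `vInf_xch838`           : `v_∞(x) = -(1 + q + … + q^e)`;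
* `transcendental_xch838` : `x` is transcendental over `E`;
* `partFF_xch838`         : `S36.Mod3.PartFF E x` (= the fields `hx`, `hfin`, `hconst`);
* `partFin838`            : `S36.Mod3.PartFin E α β` for the pair of levels `N`, `N q`.
-/

set_option autoImplicit false
set_option linter.unusedSectionVars false
set_option synthInstance.maxHeartbeats 400000
set_option maxHeartbeats 1600000

noncomputable section

namespace Fermat.Agent.S45.H838

open ModularCurve IntermediateField Finset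
open Fermat.Agent
open Fermat.Agent.A2.Mod Fermat.Agent.A2.Mod.H816

variable (E : IntermediateField ℚ A2.Qb) (N q : ℕ) [NeZero N] [NeZero q]

/-- `v_∞(j_{q^i}) = -q^i`. -/
theorem vInf_jch838 {i : ℕ} (h : q ^ i ∣ N) :
    vInf E N (jch E N q i) = ((-((q ^ i : ℕ) : ℤ) : ℤ) : WithTop ℤ) := by
  rw [jch_of_dvd838 E N q h]
  exact vInf_jE E N (q ^ i) h

/-- `v_∞(x) = -(1 + q + … + q^e)`. -/
theorem vInf_xch838 {e : ℕ} (he : q ^ e ∣ N) :
    vInf E N (xch E N q e) =
      ((-((∑ i ∈ range (e + 1), q ^ i : ℕ) : ℤ) : ℤ) : WithTop ℤ) := by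
  unfold xch
  induction e with
  | zero =>
    rw [Finset.prod_range_one, Finset.sum_range_one]
    exact vInf_jch838 E N q he
  | succ n ih =>
    rw [Finset.prod_range_succ, Finset.sum_range_succ,
      addVal_mul_coe _ (ih (pow_dvd_of_le838 N q he (Nat.le_succ n))) (vInf_jch838 E N q he)]
    congr 1
    push_cast
    ring

/-- The chain coordinate is transcendental over `E`. -/
theorem transcendental_xch838 {e : ℕ} (he : q ^ e ∣ N) : Transcendental E (xch E N q e) := by
  refine transcendental_of_addVal_neg (vInf E N) (fun c hc => vInf_algebraMap E N hc)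
    (a := -((∑ i ∈ range (e + 1), q ^ i : ℕ) : ℤ)) ?_ (vInf_xch838 E N q he)
  have hpos : 0 < ∑ i ∈ range (e + 1), q ^ i := by
    rw [Finset.sum_range_succ']
    simp
  omega

/-- **The FF part** (`hx`, `hfin`, `hconst`) for the chain coordinate, at every level `N`. -/
theorem partFF_xch838 {e : ℕ} (he : q ^ e ∣ N) : S36.Mod3.PartFF E (xch E N q e) where
  hx := transcendental_xch838 E N q he
  hfin := S36.Mod3.H439.finiteDimensional_of_transcendental_h439 E N (NeZero.ne N)
    (transcendental_xch838 E N q he)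
  hconst := fun f hf => mem_range_of_isAlgebraic E N f hf

/-- **The FIN part** (`fin_α`, `fin_β`) for the pair of levels `N`, `N q`. -/
theorem partFin838 [NeZero (N * q)] : S36.Mod3.PartFin E (αE E N q) (βE E N q) where
  fin_α := S36.Mod3.H439.finiteAlong_level_h439 E N (N * q) (NeZero.ne (N * q)) _
  fin_β := S36.Mod3.H439.finiteAlong_level_h439 E N (N * q) (NeZero.ne (N * q)) _

end Fermat.Agent.S45.H838

end

end
-- ===== PACK-END S45/H838/ChainFF.lean

-- ===== PACK-BEGIN S45/H838/QepJ.lean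
section







/-!
# S45 / CAR3, MOD-E / QEP — the fields `qep_f`, `qep_i` of `CtxE` for the chain coordinate, from
the EXTENSION STEP (helper838)

Pair of levels `N`, `N q` (`N` arbitrary, `q` prime, `q ^ e ∣ N`), chain coordinates
`x' = xch E N q e`, `x = xch E (N q) q (e + 1)`, `R = R_E` a DVR with uniformiser `w`.

* `alpha_xch_eq838`        : `α x' = xch E (N q) q e`;
* `xch_mem_chart_alpha838` : `x ∈ chart R {α x'}`, `alpha_xch_mem_chart838` : `α x' ∈ chart R {x}`;
* `isSheet_comap_alpha838` : the restriction along `α` of a sheet of `x` is a sheet of `x'`;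
* `complete_pair838`       : completeness below + extension step ⟹ completeness above;
* `qepE_pair838`           : … ⟹ `QepE w (e + 1) (chart R {x}) V ∧ QepE w (e + 1) (chart R {x⁻¹}) V`;
* `isSheet_of_gauss_j838`  : a valuation ring at which `j` is Gauss is a sheet of the chain
  coordinate (so the sheets of `x` are exactly the valuation rings over `R` with `j` Gauss).

The extension step `hE` is the UNIQUENESS half of the one-step valuation lemmas of MOD-E/Val.
-/

set_option autoImplicit false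
set_option linter.style.haveILetI false
set_option linter.unusedSectionVars false
set_option synthInstance.maxHeartbeats 400000
set_option maxHeartbeats 1600000

noncomputable section

namespace Fermat.Agent.S45.H838

open Polynomial ModularCurve Finset
open Fermat.Agent
open Fermat.Agent.A2.H12 (IsSheet)
open Fermat.Agent.S18.H138
open Fermat.Agent.A2.Mod
open Fermat.Agent.S45.Eng (QepE)

variable (P : ValuationSubring A2.Qb) (E : IntermediateField ℚ A2.Qb) (N q : ℕ)
  [NeZero N] [NeZero q] [NeZero (N * q)]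

/-- `α x' = ∏_{i ≤ e} j_{q^i}` at the level above. -/
theorem alpha_xch_eq838 {e : ℕ} (he : q ^ e ∣ N) :
    αE E N q (xch E N q e) = xch E (N * q) q e := by
  rw [alpha_xch838 E N q he, xch]

section Charts

variable (hq : q.Prime)
include hq

/-- `x ∈ chart R {α x'}`. -/
theorem xch_mem_chart_alpha838 {e : ℕ} (he : q ^ e ∣ N) :
    xch E (N * q) q (e + 1) ∈
      _root_.Fermat.Agent.S18.H138.chart (RE P E) ({αE E N q (xch E N q e)} : Set (FE E (N * q))) := by
  rw [alpha_xch_eq838 E N q he]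
  refine S36.Mod3.H189.mem_chart_of_forall_valuationSubring fun V hx => ?_
  have he0 : q ^ e ∣ N * q := he.trans (dvd_mul_right N q)
  have h0 : jch E (N * q) q 0 ∈ V :=
    jch_mem_of_xch_mem838 E (N * q) q hq he0 V hx 0 (Nat.zero_le e)
  exact xch_mem_of_jch_mem838 E (N * q) q hq (pow_succ_dvd838 N q hq he) V
    (Nat.zero_le (e + 1)) h0

/-- `α x' ∈ chart R {x}`. -/
theorem alpha_xch_mem_chart838 {e : ℕ} (he : q ^ e ∣ N) :
    αE E N q (xch E N q e) ∈
      _root_.Fermat.Agent.S18.H138.chart (RE P E) ({xch E (N * q) q (e + 1)} : Set (FE E (N * q))) :=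
  chart_alpha838e P E N q hq he _ (mem_chart_of_mem rfl)

end Charts

section Complete

variable [IsDiscreteValuationRing (RE P E)] (hq : q.Prime)
include hq

/-- A valuation ring at which `j` is Gauss is a sheet of the chain coordinate. -/
theorem isSheet_of_gauss_j838 {w : RE P E} (hw : Irreducible w) {e : ℕ} (he : q ^ e ∣ N)
    {V : ValuationSubring (FE E N)}
    (hj : A2.H489.IsGaussOver (RE P E) V (jch E N q 0)) :
    IsSheet w (xch E N q e) V :=
  S36.Mod3.H189.isSheet_of_isGaussOver hw (isGaussOver_xch838 P E N q hq he hj)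

/-- The restriction along `α` of a sheet of `x` is a sheet of `x'`. -/
theorem isSheet_comap_alpha838 {w : RE P E} (hw : Irreducible w) {e : ℕ} (he : q ^ e ∣ N)
    {W : ValuationSubring (FE E (N * q))} (hW : IsSheet w (xch E (N * q) q (e + 1)) W) :
    IsSheet w (xch E N q e) (W.comap (αE E N q : FE E N →+* FE E (N * q))) := by
  have hx'E : Transcendental E (αE E N q (xch E N q e)) := by
    intro halg
    exact transcendental_xch838 E N q he
      ((isAlgebraic_algHom_iff (αE E N q) (αE E N q).injective).1 halg)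
  have hx' : Transcendental (RE P E) (αE E N q (xch E N q e)) := H13.transcendental_RE hx'E
  have hα : ∀ r : RE P E, (αE E N q : FE E N →+* FE E (N * q))
      (algebraMap (RE P E) (FE E N) r) = algebraMap (RE P E) (FE E (N * q)) r :=
    fun r => (αE E N q).commutes (r : E)
  exact S36.Mod3.H27.isSheet_comap (αE E N q : FE E N →+* FE E (N * q)) hα
    (S36.Mod3.H27.isSheet_of_chart_eq hw.prime hx' (xch_mem_chart_alpha838 P E N q hq he)
      (alpha_xch_mem_chart838 P E N q hq he) hW)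

/-- **Completeness above from completeness below and the extension step.** -/
theorem complete_pair838 {w : RE P E} (hw : Irreducible w) {e : ℕ} (he : q ^ e ∣ N)
    (e' eT : ℕ) (V : ℕ → ValuationSubring (FE E (N * q))) (V' : ℕ → ValuationSubring (FE E N))
    (hS' : ∀ W' : ValuationSubring (FE E N), IsSheet w (xch E N q e) W' → ∃ j ≤ e', W' = V' j)
    (hE : ∀ j ≤ e', ∀ W : ValuationSubring (FE E (N * q)),
      IsSheet w (xch E (N * q) q (e + 1)) W →
      W.comap (αE E N q : FE E N →+* FE E (N * q)) = V' j → ∃ i ≤ eT, W = V i) :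
    ∀ W : ValuationSubring (FE E (N * q)), IsSheet w (xch E (N * q) q (e + 1)) W →
      ∃ i ≤ eT, W = V i := by
  intro W hW
  obtain ⟨j, hj, hWj⟩ := hS' _ (isSheet_comap_alpha838 P E N q hq hw he hW)
  exact hE j hj W hW hWj

/-- **`qep_f` and `qep_i` from completeness above.** -/
theorem qepE_of_complete_pair838 {w : RE P E} (hw : Irreducible w) {e : ℕ} (he : q ^ e ∣ N)
    (eT : ℕ) (V : ℕ → ValuationSubring (FE E (N * q)))
    (hcomplete : ∀ W : ValuationSubring (FE E (N * q)),
      IsSheet w (xch E (N * q) q (e + 1)) W → ∃ i ≤ eT, W = V i) :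
    QepE w eT (_root_.Fermat.Agent.S18.H138.chart (RE P E) ({xch E (N * q) q (e + 1)} : Set (FE E (N * q)))) V ∧
      QepE w eT (_root_.Fermat.Agent.S18.H138.chart (RE P E) ({(xch E (N * q) q (e + 1))⁻¹} : Set (FE E (N * q)))) V := by
  have he1 : q ^ (e + 1) ∣ N * q := pow_succ_dvd838 N q hq he
  have hff := partFF_xch838 E (N * q) q he1
  haveI := hff.hfin
  haveI : FiniteDimensional (baseField (RE P E) (xch E (N * q) q (e + 1))) (FE E (N * q)) :=
    Fermat.Agent.A2.H313.finiteDimensional_baseField_of_adjoin E (xch E (N * q) q (e + 1))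
  have hxR : Transcendental (RE P E) (xch E (N * q) q (e + 1)) :=
    H13.transcendental_RE hff.hx
  exact qepE_of_complete838 (S36.Mod3.H27.algebraMap_RE_injective (N * q)) hw.prime hxR eT V
    hcomplete

/-- **`qep_f` and `qep_i` from completeness below and the extension step.** -/
theorem qepE_pair838 {w : RE P E} (hw : Irreducible w) {e : ℕ} (he : q ^ e ∣ N)
    (e' eT : ℕ) (V : ℕ → ValuationSubring (FE E (N * q))) (V' : ℕ → ValuationSubring (FE E N))
    (hS' : ∀ W' : ValuationSubring (FE E N), IsSheet w (xch E N q e) W' → ∃ j ≤ e', W' = V' j)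
    (hE : ∀ j ≤ e', ∀ W : ValuationSubring (FE E (N * q)),
      IsSheet w (xch E (N * q) q (e + 1)) W →
      W.comap (αE E N q : FE E N →+* FE E (N * q)) = V' j → ∃ i ≤ eT, W = V i) :
    QepE w eT (_root_.Fermat.Agent.S18.H138.chart (RE P E) ({xch E (N * q) q (e + 1)} : Set (FE E (N * q)))) V ∧
      QepE w eT (_root_.Fermat.Agent.S18.H138.chart (RE P E) ({(xch E (N * q) q (e + 1))⁻¹} : Set (FE E (N * q)))) V :=
  qepE_of_complete_pair838 P E N q hq hw he eT V
    (complete_pair838 P E N q hq hw he e' eT V V' hS' hE)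

end Complete

end Fermat.Agent.S45.H838

end

end
-- ===== PACK-END S45/H838/QepJ.lean

-- ===== PACK-BEGIN S45/ModE/H838/SheetLeaf.lean
section




/-!
# S45 / CAR3 / MOD-E — the leaves FF-E, FIN-E, SHEET-E (helper838)

EXACT frozen types of `ModE/Spec.lean` (helper928, v0 sha 05d70ef1):

* `leafFFE838    : ModE.LeafFFE`     (UNCONDITIONAL);
* `leafFinE838   : ModE.LeafFinE`    (UNCONDITIONAL);
* `leafSheetE838 : ModE.LeafSheetE`  (UNCONDITIONAL): `V 0 = V∞` by L3 (`H13.isGaussOver_of_polar`);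
  `V i`, `i ≥ 1`: `V i ∘ α = V' (i - 1)` is a sheet of the lower coordinate, hence `j` is Gauss
  there (GAUSS-CHANGE), hence at `V i` (transport), hence the upper coordinate is Gauss at `V i`.

Tools: `S45/H838/{ChainJ,ChainFF,SheetE,QepJ}.lean` (chain coordinate `xch = ModE.xLev` by `rfl`).
-/

set_option autoImplicit false
set_option linter.style.haveILetI false
set_option linter.unusedSectionVars false
set_option synthInstance.maxHeartbeats 400000
set_option maxHeartbeats 1600000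

noncomputable section

namespace Fermat.Agent.S45.ModE.H838

open ModularCurve Polynomial Finset
open Fermat.Agent
open Fermat.Agent.A2.Mod
open Fermat.Agent.A2.H12 (IsSheet)
open Fermat.Agent.S36 Fermat.Agent.S36.Eng
open Fermat.Agent.S45.H838

/-! ## The two vocabularies agree -/

theorem jLev_eq_jch838 (E : IntermediateField ℚ A2.Qb) (N q : ℕ) [NeZero N] [NeZero q] :
    jLev E N q = jch E N q := rfl

theorem xLev_eq_xch838 (E : IntermediateField ℚ A2.Qb) (N q : ℕ) [NeZero N] [NeZero q]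
    (n : ℕ) : xLev E N q n = xch E N q n := rfl

theorem pow_dvd_of_exp838 {N q n : ℕ} (h : N.factorization q = n) : q ^ n ∣ N := by
  have := Nat.ordProj_dvd N q
  rwa [h] at this

/-! ## FF-E, FIN-E -/

/-- **FF-E (leaf)**, exact frozen type. -/
theorem leafFFE838 : LeafFFE := fun E N q _ _ _ _ hexp _ =>
  partFF_xch838 E N q (pow_dvd_of_exp838 hexp)

/-- **FIN-E (leaf)**, exact frozen type. -/
theorem leafFinE838 : LeafFinE := fun E N q _ _ _ _ _ => partFin838 E N q

/-! ## From a sheet to the Gauss property -/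

section Abs

universe u

variable {R : Type u} [CommRing R] [IsDomain R] [IsDiscreteValuationRing R]
  {L : Type u} [Field L] [Algebra R L]

/-- A sheet of a transcendental element induces the Gauss valuation
(converse of `S36.Mod3.H189.isSheet_of_isGaussOver`). -/
theorem isGaussOver_of_isSheet838 {w : R} (hw : Irreducible w) {V : ValuationSubring L} {x : L}
    (hx : Transcendental R x) (h : IsSheet w x V) : A2.H489.IsGaussOver R V x := by
  obtain ⟨hbase, hxV, hwV, hg⟩ := h
  refine ⟨⟨hbase, fun a ha => ?_⟩, hxV, fun Q hQ => ?_⟩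
  · rw [hw.maximalIdeal_eq, Ideal.mem_span_singleton] at ha
    obtain ⟨c, rfl⟩ := ha
    rw [map_mul]
    rw [V.mem_nonunits_iff] at hwV ⊢
    rw [map_mul]
    calc V.valuation (algebraMap R L w) * V.valuation (algebraMap R L c)
        ≤ V.valuation (algebraMap R L w) * 1 := by
          gcongr
          exact (V.valuation_le_one_iff _).2 (hbase c)
      _ = V.valuation (algebraMap R L w) := mul_one _
      _ < 1 := hwV
  · by_contra hne
    obtain ⟨i, hi⟩ : ∃ i, (Q.map (IsLocalRing.residue R)).coeff i ≠ 0 := by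
      by_contra hall
      exact hne (Polynomial.ext fun i => by
        have h0 := not_exists.1 hall i
        rw [not_not] at h0
        rw [h0, Polynomial.coeff_zero])
    rw [Polynomial.coeff_map] at hi
    have hnd : ¬ w ∣ Q.coeff i := by
      intro hd
      apply hi
      rw [IsLocalRing.residue_eq_zero_iff, hw.maximalIdeal_eq, Ideal.mem_span_singleton]
      exact hd
    have hinv := hg Q ⟨i, hnd⟩
    have hQ0 : Q ≠ 0 := by
      rintro rfl
      simp at hi
    have hne0 : aeval x Q ≠ 0 := fun h0 => hx ⟨Q, hQ0, h0⟩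
    rw [V.mem_nonunits_iff] at hQ
    have h1 : V.valuation ((aeval x Q)⁻¹) ≤ 1 := (V.valuation_le_one_iff _).2 hinv
    rw [map_inv₀] at h1
    have hpos : 0 < V.valuation (aeval x Q) := by
      rw [Valuation.pos_iff]
      exact hne0
    have h2 : 1 ≤ V.valuation (aeval x Q) := by
      rwa [inv_le_one₀ hpos] at h1
    exact absurd hQ (not_lt.2 h2)

end Abs

/-! ## SHEET-E -/

section Sheet

variable (P : ValuationSubring A2.Qb) (E : IntermediateField ℚ A2.Qb) (N q : ℕ)
  [NeZero N] [NeZero q]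

/-- `j` is Gauss at `V∞` (L3 of cell A2), every level. -/
theorem isGaussOver_j_vinf838 [IsDiscreteValuationRing (RE P E)] {w : RE P E}
    (hw : Irreducible w) {V : ValuationSubring (FE E N)} (hV : IsVinf P E N V) :
    A2.H489.IsGaussOver (RE P E) V (jch E N q 0) := by
  have h1 : A2.H489.IsGaussOver (RE P E) V (jE E N 1 (one_dvd _)) :=
    H13.isGaussOver_of_polar hV hw (NeZero.ne _) one_pos (H13.isPolar_jE 1 (one_dvd _))
      (H13.transcendental_RE
        (S36.Mod3.H985.transcendental_of_isPolar E one_pos (H13.isPolar_jE 1 (one_dvd _))))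
  have e : jch E N q 0 = jE E N 1 (one_dvd _) := by
    rw [jch_of_dvd838 E N q (by simp : q ^ 0 ∣ N)]
    exact A2.Mod.H751.jE_congr E N (pow_zero q) _ _
  rw [e]
  exact h1

/-- `j` is Gauss at every sheet of the chain coordinate. -/
theorem isGaussOver_j_of_isSheet838 [IsDiscreteValuationRing (RE P E)] (hq : q.Prime)
    {w : RE P E} (hw : Irreducible w) {n : ℕ} (hn : q ^ n ∣ N)
    {V : ValuationSubring (FE E N)} (h : IsSheet w (xch E N q n) V) :
    A2.H489.IsGaussOver (RE P E) V (jch E N q 0) := by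
  have hxR : Transcendental (RE P E) (xch E N q n) :=
    H13.transcendental_RE (transcendental_xch838 E N q hn)
  have hG := isGaussOver_of_isSheet838 hw hxR h
  have hjV : jch E N q 0 ∈ V := jch_mem_of_xch_mem838 E N q hq hn V hG.mem 0 (Nat.zero_le n)
  -- `x` is integral over `R[j]`
  have hint : ∃ G : Polynomial (Polynomial (RE P E)), G.Monic ∧
      G.eval₂ (Polynomial.eval₂RingHom (algebraMap (RE P E) (FE E N)) (jch E N q 0))
        (xch E N q n) = 0 :=
    H873.isIntegralElem_of_isIntegral_closure _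
      (H873.isIntegral_closure_of_forall_valuationSubring
        fun U hU => xch_mem_of_jch_mem838 E N q hq hn U (Nat.zero_le n) hU)
  exact S36.Mod3.H985.isGaussOver_of_isIntegralElem hG hjV hint

end Sheet

/-- `j` is Gauss at every component `V i`, `i ≤ n + 1`, of the upper level. -/
theorem isGaussOver_j_upper838 (P : ValuationSubring A2.Qb) (E : IntermediateField ℚ A2.Qb)
    (N q : ℕ) [NeZero N] [NeZero q] [NeZero (N * q)] (n : ℕ) (w : A2.RE P E)
    [IsDiscreteValuationRing (RE P E)]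
    (hS : StdE P E N q n w) (V' : ℕ → ValuationSubring (A2.Mod.FE E N))
    (V : ℕ → ValuationSubring (A2.Mod.FE E (N * q)))
    (W' : A2.Mod.FE E N ≃ₐ[E] A2.Mod.FE E N)
    (W : A2.Mod.FE E (N * q) ≃ₐ[E] A2.Mod.FE E (N * q))
    (h' : LevelCtx P E N q n w V' W') (hO : ObjsE P E N q n V' V W) :
    ∀ i ≤ n + 1, A2.H489.IsGaussOver (RE P E) (V i) (jch E (N * q) q 0) := by
  have hq := hS.q_prime
  have hnN : q ^ n ∣ N := pow_dvd_of_exp838 hS.exp
  intro i hi
  rcases Nat.eq_zero_or_pos i with rfl | hpos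
  · exact isGaussOver_j_vinf838 P E (N * q) q hS.unif hO.vinf
  · have hlies := hO.lies i hpos hi
    have hsheet : IsSheet w (xch E N q n) (V' (i - 1)) :=
      ⟨h'.sheet.base (i - 1) (by omega), (h'.val.x_unit (i - 1) (by omega)).2.1, by
        obtain ⟨t, ht, hu⟩ := h'.val.ram (i - 1) (by omega)
        have hmu : 0 < mu q n (i - 1) := by
          unfold mu
          exact Nat.totient_pos.2 (pow_pos hq.pos _)
        -- `w = unit · t ^ mu`, `mu ≥ 1`
        have htn : t ^ mu q n (i - 1) ∈ (V' (i - 1)).nonunits := by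
          rw [(V' (i - 1)).mem_nonunits_iff, map_pow]
          have h1 : (V' (i - 1)).valuation t < 1 :=
            ((V' (i - 1)).mem_nonunits_iff).1 ht.2.1
          exact pow_lt_one₀ zero_le h1 (by omega)
        have ht0 : t ≠ 0 := ht.1
        have hw_eq : algebraMap (RE P E) (FE E N) w =
            (algebraMap (RE P E) (FE E N) w * (t ^ mu q n (i - 1))⁻¹) *
              t ^ mu q n (i - 1) := by
          field_simp
        rw [hw_eq, (V' (i - 1)).mem_nonunits_iff, map_mul]
        have h2 : (V' (i - 1)).valuation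
            (algebraMap (RE P E) (FE E N) w * (t ^ mu q n (i - 1))⁻¹) ≤ 1 :=
          ((V' (i - 1)).valuation_le_one_iff _).2 hu.2.1
        have h3 : (V' (i - 1)).valuation (t ^ mu q n (i - 1)) < 1 :=
          ((V' (i - 1)).mem_nonunits_iff).1 htn
        calc _ ≤ 1 * (V' (i - 1)).valuation (t ^ mu q n (i - 1)) := by gcongr
          _ = _ := one_mul _
          _ < 1 := h3,
        h'.sheet.gauss (i - 1) (by omega)⟩
    have hG' : A2.H489.IsGaussOver (RE P E) (V' (i - 1)) (jch E N q 0) :=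
      isGaussOver_j_of_isSheet838 P E N q hq hS.unif hnN hsheet
    rw [← hlies] at hG'
    exact isGaussOver_j_of_comap_alpha838 P E N q hq hG'

/-- The three sheet fields (`base`, `x_unit`, `gauss`) at every component of the upper level. -/
theorem sheet_upper838 (P : ValuationSubring A2.Qb) (E : IntermediateField ℚ A2.Qb)
    (N q : ℕ) [NeZero N] [NeZero q] [NeZero (N * q)] (n : ℕ) (w : A2.RE P E)
    (hS : StdE P E N q n w) (V' : ℕ → ValuationSubring (A2.Mod.FE E N))
    (V : ℕ → ValuationSubring (A2.Mod.FE E (N * q)))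
    (W' : A2.Mod.FE E N ≃ₐ[E] A2.Mod.FE E N)
    (W : A2.Mod.FE E (N * q) ≃ₐ[E] A2.Mod.FE E (N * q))
    (h' : LevelCtx P E N q n w V' W') (hO : ObjsE P E N q n V' V W) :
    ∀ i ≤ n + 1,
      (∀ r : RE P E, algebraMap (RE P E) (FE E (N * q)) r ∈ V i) ∧
        UnitAt (V i) (xLev E (N * q) q (n + 1)) ∧
        ∀ Q : Polynomial (RE P E), (∃ k, ¬ w ∣ Q.coeff k) →
          (Polynomial.aeval (xLev E (N * q) q (n + 1)) Q)⁻¹ ∈ V i := by
  haveI : IsDiscreteValuationRing (RE P E) := hS.unram.1.dvr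
  have hq := hS.q_prime
  have hn1 : q ^ (n + 1) ∣ N * q := pow_succ_dvd838 N q hq (pow_dvd_of_exp838 hS.exp)
  intro i hi
  exact sheet_fields838 P E (N * q) q hq hS.unif hn1
    (isGaussOver_j_upper838 P E N q n w hS V' V W' W h' hO i hi)

/-- **SHEET-E (leaf)**, exact frozen type. -/
theorem leafSheetE838 : LeafSheetE := by
  intro P E N q _ _ _ n w hS _ V' V W' W h' hO
  exact ⟨fun i hi => (sheet_upper838 P E N q n w hS V' V W' W h' hO i hi).1,
    fun i hi => (sheet_upper838 P E N q n w hS V' V W' W h' hO i hi).2.2⟩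

end Fermat.Agent.S45.ModE.H838

end

end
-- ===== PACK-END S45/ModE/H838/SheetLeaf.lean

-- ===== PACK-BEGIN S45/ModE/H838/CompleteLeaf.lean
section



/-!
# S45 / CAR3 / MOD-E — the leaves COMPLETE-E and QEP-E from ONLY-E (helper838)

EXACT frozen types of `ModE/Spec.lean` (helper928, v0 sha 05d70ef1):

* `leafCompleteE_of838 : ModE.LeafOnlyE → ModE.LeafCompleteE`;
* `leafQepE_of838      : ModE.LeafOnlyE → ModE.LeafQepE`.

Route (helper27's `complete_of_tower` / `qep3_of_complete`, family form `S45/H838/QepE,QepJ`):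
a sheet `U` of the upper coordinate restricts along `α` to a sheet of the lower coordinate, which
is some `V' j` (`complete` of the lower level), so `U = V 0`, `V 1` (`j = 0`, `only_α₀`) or
`U = V (j + 1)` (`only_α`); then algebraic Hartogs on the normal noetherian chart.
-/

set_option autoImplicit false
set_option linter.style.haveILetI false
set_option linter.unusedSectionVars false
set_option synthInstance.maxHeartbeats 400000
set_option maxHeartbeats 1600000

noncomputable section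

namespace Fermat.Agent.S45.ModE.H838

open ModularCurve Polynomial Finset
open Fermat.Agent
open Fermat.Agent.A2.Mod
open Fermat.Agent.A2.H12 (IsSheet)
open Fermat.Agent.S36 Fermat.Agent.S36.Eng
open Fermat.Agent.S45.H838

/-- Completeness of the upper level, in the `IsSheet` vocabulary. -/
theorem complete_upper838 (hOnly : LeafOnlyE) (P : ValuationSubring A2.Qb)
    (E : IntermediateField ℚ A2.Qb) (N q : ℕ) [NeZero N] [NeZero q] [NeZero (N * q)]
    (n : ℕ) (w : A2.RE P E) (hS : StdE P E N q n w) (hn : 2 ≤ n)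
    (V' : ℕ → ValuationSubring (A2.Mod.FE E N))
    (V : ℕ → ValuationSubring (A2.Mod.FE E (N * q)))
    (W' : A2.Mod.FE E N ≃ₐ[E] A2.Mod.FE E N)
    (W : A2.Mod.FE E (N * q) ≃ₐ[E] A2.Mod.FE E (N * q))
    (h' : LevelCtx P E N q n w V' W') (hO : ObjsE P E N q n V' V W) :
    ∀ U : ValuationSubring (FE E (N * q)), IsSheet w (xch E (N * q) q (n + 1)) U →
      ∃ i ≤ n + 1, U = V i := by
  haveI : IsDiscreteValuationRing (RE P E) := hS.unram.1.dvr
  have hq := hS.q_prime
  have hnN : q ^ n ∣ N := pow_dvd_of_exp838 hS.exp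
  have hon := hOnly P E N q n w hS hn V' V W' W h' hO
  refine complete_pair838 P E N q hq hS.unif hnN n (n + 1) V V' ?_ ?_
  · rintro U' ⟨h1, h2, h3, h4⟩
    exact h'.complete.complete U' h1 h2 h3 h4
  · intro j hj U _ hU
    rcases Nat.eq_zero_or_pos j with rfl | hpos
    · rcases hon.only_α₀ U hU with h | h
      · exact ⟨0, Nat.zero_le _, h⟩
      · exact ⟨1, by omega, h⟩
    · exact ⟨j + 1, by omega, hon.only_α j hpos hj U hU⟩

/-- **COMPLETE-E (leaf)** from ONLY-E, exact frozen types. -/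
theorem leafCompleteE_of838 (hOnly : LeafOnlyE) : LeafCompleteE := by
  intro P E N q _ _ _ n w hS hn V' V W' W h' hO
  exact ⟨fun U h1 h2 h3 h4 =>
    complete_upper838 hOnly P E N q n w hS hn V' V W' W h' hO U ⟨h1, h2, h3, h4⟩⟩

/-- **QEP-E (leaf)** from ONLY-E, exact frozen types. -/
theorem leafQepE_of838 (hOnly : LeafOnlyE) : LeafQepE := by
  intro P E N q _ _ _ n w hS hn V' V W' W h' hO
  haveI : IsDiscreteValuationRing (RE P E) := hS.unram.1.dvr
  have hq := hS.q_prime
  have hnN : q ^ n ∣ N := pow_dvd_of_exp838 hS.exp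
  obtain ⟨h1, h2⟩ := qepE_of_complete_pair838 P E N q hq hS.unif hnN (n + 1) V
    (complete_upper838 hOnly P E N q n w hS hn V' V W' W h' hO)
  exact ⟨fun b hb => h1 b hb, fun b hb => h2 b hb⟩

end Fermat.Agent.S45.ModE.H838

end

end
-- ===== PACK-END S45/ModE/H838/CompleteLeaf.lean

-- ===== PACK-BEGIN S45/ModE/H838/ChartLeaf.lean
section




/-!
# S45 / CAR3 / MOD-E — the leaf CHART-E from TABLE-E and RES-E (helper838)

EXACT frozen types of `ModE/Spec.lean` (helper928, v0 sha 05d70ef1):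

* `leafChartE_of838 : ModE.LeafTableE → ModE.LeafResE → ModE.LeafChartE`.

`chart_α`, `chart_β`, `int_α`, `int_β` are UNCONDITIONAL (`S45/H838/ChainJ.lean`: every `j_{q^l}` is
integral over `ℤ[x]`, valuative criterion + `Φ_q` monic); `res_α`, `res_β` are helper189's
`res_chart_of_normalAlong` (normality of the lower chart along `V' j` = field `normal` of the
lower `LevelCtx`, residue degree one = RES-E, lying over = TABLE-E / `ObjsE.lies`).
-/

set_option autoImplicit false
set_option linter.style.haveILetI false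
set_option linter.unusedSectionVars false
set_option synthInstance.maxHeartbeats 400000
set_option maxHeartbeats 1600000

noncomputable section

namespace Fermat.Agent.S45.ModE.H838

open ModularCurve Polynomial Finset
open Fermat.Agent
open Fermat.Agent.A2.Mod
open Fermat.Agent.A2.H12 (IsSheet)
open Fermat.Agent.S18.H138 (chart mem_chart_of_mem)
open Fermat.Agent.S36 Fermat.Agent.S36.Eng
open Fermat.Agent.S45.H838

/-- **CHART-E (leaf)** from TABLE-E and RES-E, exact frozen types. -/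
theorem leafChartE_of838 (hT : LeafTableE) (hR : LeafResE) : LeafChartE := by
  intro P E N q _ _ _ n w hS hn V' V W' W h' hO
  haveI : IsDiscreteValuationRing (RE P E) := hS.unram.1.dvr
  have hq := hS.q_prime
  have hnN : q ^ n ∣ N := pow_dvd_of_exp838 hS.exp
  have tb := hT P E N q n w hS hn V' V W' W h' hO
  have rs := hR P E N q n w hS hn V' V W' W h' hO
  have sh := leafSheetE838 P E N q n w hS hn V' V W' W h' hO
  -- the charts lie in the valuation rings
  have hB' : ∀ j ≤ n, ∀ b ∈ _root_.Fermat.Agent.S18.H138.chart (RE P E) ({xLev E N q n} : Set (FE E N)), b ∈ V' j :=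
    fun j hj => S36.Mod3.H189.chart_le_valuationSubring (V' j) (h'.sheet.base j hj)
      (h'.val.x_unit j hj).2.1
  have hxV : ∀ i ≤ n + 1, xLev E (N * q) q (n + 1) ∈ V i :=
    fun i hi => (sheet_upper838 P E N q n w hS V' V W' W h' hO i hi).2.1.2.1
  have hB : ∀ i ≤ n + 1,
      ∀ b ∈ _root_.Fermat.Agent.S18.H138.chart (RE P E) ({xLev E (N * q) q (n + 1)} : Set (FE E (N * q))), b ∈ V i :=
    fun i hi => S36.Mod3.H189.chart_le_valuationSubring (V i) (sh.base i hi) (hxV i hi)
  have hcα : ∀ i ≤ n + 1, (V i).comap (αE E N q : FE E N →+* FE E (N * q)) = V' (i - 1) := by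
    intro i hi
    rcases Nat.eq_zero_or_pos i with rfl | hpos
    · exact tb.comap_α₀
    · exact tb.comap_α i hpos hi
  have hcβ : ∀ i ≤ n + 1, (V i).comap (βE E N q : FE E N →+* FE E (N * q)) = V' (min i n) := by
    intro i hi
    rcases Nat.lt_or_ge n i with h | h
    · have : i = n + 1 := by omega
      subst this
      rw [min_eq_right (by omega)]
      exact tb.comap_βₑ
    · rw [min_eq_left h]
      exact tb.comap_β i h
  exact
    { chart_α := chart_alpha838e P E N q hq hnN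
      chart_β := chart_beta838e P E N q hq hnN
      int_α := int_alpha838e P E N q hq hnN
      int_β := int_beta838e P E N q hq hnN
      res_α := fun i hi hcase =>
        S36.Mod3.H189.res_chart_of_normalAlong _ _ _ (V i) (V' (i - 1)) (hcα i hi)
          (h'.normal.normal_f (i - 1) (by omega)) (int_alpha838e P E N q hq hnN)
          (hB' (i - 1) (by omega)) (hB i hi) (rs.res_α i hi hcase)
      res_β := fun i hi hcase =>
        S36.Mod3.H189.res_chart_of_normalAlong _ _ _ (V i) (V' (min i n)) (hcβ i hi)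
          (h'.normal.normal_f (min i n) (min_le_right _ _)) (int_beta838e P E N q hq hnN)
          (hB' (min i n) (min_le_right _ _)) (hB i hi) (rs.res_β i hi hcase) }

end Fermat.Agent.S45.ModE.H838

end

end
-- ===== PACK-END S45/ModE/H838/ChartLeaf.lean

-- ===== PACK-BEGIN S45/ModE/H838/NormalLeaf.lean
section






/-!
# S45 / CAR3 / MOD-E — the leaf NORMAL-E from TABLE-E, RES-E and KRON-E (helper838)

EXACT frozen types of `ModE/Spec.lean` (helper928, v0.2 sha 039d998a):

* `leafNormalE_of838 : ModE.LeafTableE → ModE.LeafResE → ModE.LeafKronE → ModE.LeafNormalE`.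

Transfer of normality (`S36/Mod3/H544`, on main) from the lower level along the side of residue
degree ONE: `α` (over `V' (i - 1)`) if `2 i ≤ e`, `β` (over `V' (min i n)`) if `e < 2 i`.

* FINITE chart: `chart R {x}` is integral over `φ (chart R {x'})` (`int_alpha838e`, `int_beta838e`).
* Chart AT INFINITY: `chart R {x⁻¹}` is NOT integral over `φ (chart R {x'⁻¹})` (the new coordinate
  `j_{q^e}` resp. `j` vanishes at points where the others do not), only MODULO `𝔪_{V i}`, which is
  all the transfer needs (`H544.res_chart_gen544`): the generator `x⁻¹` is congruent modulo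
  `𝔪_{V i}` to the image of an element of `chart R {x'⁻¹}`, by the Kronecker pattern KRON-E
  (`S45/H838/KronAbs.lean`: the chain is symmetric about its centre `e - i` modulo `𝔪_{V i}`):

      i = 0           :  j_{q^e} ≡ (j_{q^n})^q               x⁻¹ ≡ α (x'⁻¹ (j_{q^n}⁻¹)^q)
      1 ≤ i, 2 i ≤ e  :  j_{q^e} ≡ j_{q^(e - 2i)}            x⁻¹ ≡ α (x'⁻¹ j_{q^(e-2i)}⁻¹)
      e < 2 i, i < e  :  j ≡ j_{q^(2(e - i))}                x⁻¹ ≡ β (j_{q^(2(e-i)-1)}⁻¹ x'⁻¹)
      i = e           :  j ≡ (j_q)^q                         x⁻¹ ≡ β ((j⁻¹)^q x'⁻¹)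
-/

set_option autoImplicit false
set_option linter.style.haveILetI false
set_option linter.unusedSectionVars false
set_option synthInstance.maxHeartbeats 400000
set_option maxHeartbeats 1600000

noncomputable section

namespace Fermat.Agent.S45.ModE.H838

open ModularCurve Polynomial Finset
open Fermat.Agent
open Fermat.Agent.A2.Mod
open Fermat.Agent.S18.H138 (chart mem_chart_of_mem)
open Fermat.Agent.S36 Fermat.Agent.S36.Eng
open Fermat.Agent.S36.Mod3.H544
open Fermat.Agent.S45.H838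

section ChartInf

variable (P : ValuationSubring A2.Qb) (E : IntermediateField ℚ A2.Qb) (N q : ℕ)
  [NeZero N] [NeZero q] [NeZero (N * q)]

/-- `α` maps the chart at infinity of the level `N` into the chart at infinity of the level
`N q`. -/
theorem chart_inf_alpha838 (hq : q.Prime) {e : ℕ} (he : q ^ e ∣ N) :
    ∀ b ∈ _root_.Fermat.Agent.S18.H138.chart (RE P E) ({(xch E N q e)⁻¹} : Set (FE E N)),
      αE E N q b ∈ _root_.Fermat.Agent.S18.H138.chart (RE P E) ({(xch E (N * q) q (e + 1))⁻¹} : Set (FE E (N * q))) := by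
  apply S36.Mod3.H189.chart_map
  rw [map_inv₀, alpha_xch838 E N q he, ← Finset.prod_inv_distrib]
  exact Subalgebra.prod_mem _ fun i hi =>
    jch_inv_mem_chart838 P E (N * q) q hq (pow_succ_dvd838 N q hq he)
      (by have := Finset.mem_range.1 hi; omega)

/-- `β` maps the chart at infinity of the level `N` into the chart at infinity of the level
`N q`. -/
theorem chart_inf_beta838 (hq : q.Prime) {e : ℕ} (he : q ^ e ∣ N) :
    ∀ b ∈ _root_.Fermat.Agent.S18.H138.chart (RE P E) ({(xch E N q e)⁻¹} : Set (FE E N)),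
      βE E N q b ∈ _root_.Fermat.Agent.S18.H138.chart (RE P E) ({(xch E (N * q) q (e + 1))⁻¹} : Set (FE E (N * q))) := by
  apply S36.Mod3.H189.chart_map
  rw [map_inv₀, beta_xch838 E N q he, ← Finset.prod_inv_distrib]
  exact Subalgebra.prod_mem _ fun i hi =>
    jch_inv_mem_chart838 P E (N * q) q hq (pow_succ_dvd838 N q hq he)
      (by have := Finset.mem_range.1 hi; omega)

end ChartInf

/-- **NORMAL-E (leaf)** from TABLE-E, RES-E and KRON-E, exact frozen types. -/
theorem leafNormalE_of838 (hT : LeafTableE) (hR : LeafResE) (hK : LeafKronE) : LeafNormalE := by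
  intro P E N q _ _ _ n w hS hn V' V W' W h' hO
  haveI : IsDiscreteValuationRing (RE P E) := hS.unram.1.dvr
  have hq := hS.q_prime
  have hnN : q ^ n ∣ N := pow_dvd_of_exp838 hS.exp
  have hn1 : q ^ (n + 1) ∣ N * q := pow_succ_dvd838 N q hq hnN
  have tb := hT P E N q n w hS hn V' V W' W h' hO
  have rs := hR P E N q n w hS hn V' V W' W h' hO
  have kr := hK P E N q n w hS hn V' V W' W h' hO
  have sh := sheet_upper838 P E N q n w hS V' V W' W h' hO
  have hG := isGaussOver_j_upper838 P E N q n w hS V' V W' W h' hO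
  -- residue characteristic `q`
  have hqV : ∀ i ≤ n + 1, ((q : ℕ) : FE E (N * q)) ∈ (V i).nonunits := by
    intro i hi
    have h := (hG i hi).isOver.nonunit _ (A2.Mod.H753.natCast_mem_maximalIdeal P E hS.lies_over)
    rwa [map_natCast] at h
  -- lying over
  have hcα : ∀ i ≤ n + 1, (V i).comap (αE E N q : FE E N →+* FE E (N * q)) = V' (i - 1) := by
    intro i hi
    rcases Nat.eq_zero_or_pos i with rfl | hpos
    · exact tb.comap_α₀
    · exact tb.comap_α i hpos hi
  have hcβ : ∀ i ≤ n + 1, (V i).comap (βE E N q : FE E N →+* FE E (N * q)) = V' (min i n) := by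
    intro i hi
    rcases Nat.lt_or_ge n i with h | h
    · have : i = n + 1 := by omega
      subst this
      rw [min_eq_right (by omega)]
      exact tb.comap_βₑ
    · rw [min_eq_left h]
      exact tb.comap_β i h
  -- the chain at `V i`
  have hJV : ∀ i ≤ n + 1, ∀ l ≤ n + 1, jLev E (N * q) q l ∈ V i :=
    fun i hi l hl => (kr.unit i hi l hl).2.1
  have hJi : ∀ i ≤ n + 1, ∀ l ≤ n + 1, (jLev E (N * q) q l)⁻¹ ∈ V i :=
    fun i hi l hl => (kr.unit i hi l hl).2.2
  have hJ0 : ∀ l, jLev E (N * q) q l ≠ 0 := fun l => jch_ne_zero838 E (N * q) q l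
  -- the chart at infinity lies in `V i`
  have hBi : ∀ i ≤ n + 1,
      ∀ b ∈ _root_.Fermat.Agent.S18.H138.chart (RE P E) ({(xLev E (N * q) q (n + 1))⁻¹} : Set (FE E (N * q))), b ∈ V i :=
    fun i hi => chart_le544 (R := RE P E) _ (V i) (sh i hi).1 (sh i hi).2.1.2.2
  -- the inverse of the lower coordinate, upstairs
  have hαx : (αE E N q (xLev E N q n))⁻¹ ∈
      _root_.Fermat.Agent.S18.H138.chart (RE P E) ({(xLev E (N * q) q (n + 1))⁻¹} : Set (FE E (N * q))) := by
    have := chart_inf_alpha838 P E N q hq hnN _ (mem_chart_of_mem rfl)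
    rwa [map_inv₀] at this
  have hβx : (βE E N q (xLev E N q n))⁻¹ ∈
      _root_.Fermat.Agent.S18.H138.chart (RE P E) ({(xLev E (N * q) q (n + 1))⁻¹} : Set (FE E (N * q))) := by
    have := chart_inf_beta838 P E N q hq hnN _ (mem_chart_of_mem rfl)
    rwa [map_inv₀] at this
  have hx'i : (xLev E N q n)⁻¹ ∈ _root_.Fermat.Agent.S18.H138.chart (RE P E) ({(xLev E N q n)⁻¹} : Set (FE E N)) :=
    mem_chart_of_mem rfl
  have hJ'i : ∀ l ≤ n, (jLev E N q l)⁻¹ ∈
      _root_.Fermat.Agent.S18.H138.chart (RE P E) ({(xLev E N q n)⁻¹} : Set (FE E N)) :=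
    fun l hl => jch_inv_mem_chart838 P E N q hq hnN hl
  have hαJ : ∀ l ≤ n, αE E N q (jLev E N q l) = jLev E (N * q) q l :=
    fun l hl => alpha_jch838 E N q (pow_dvd_of_le838 N q hnN hl)
  have hβJ : ∀ l ≤ n, βE E N q (jLev E N q l) = jLev E (N * q) q (l + 1) :=
    fun l hl => beta_jch838 E N q (pow_dvd_of_le838 N q hnN hl)
  have hxα : xLev E (N * q) q (n + 1) =
      αE E N q (xLev E N q n) * jLev E (N * q) q (n + 1) := xch_eq_alpha838 E N q hnN
  have hxβ : xLev E (N * q) q (n + 1) =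
      βE E N q (xLev E N q n) * jLev E (N * q) q 0 :=
    (xch_eq_beta838 E N q hnN).trans (mul_comm _ _)
  refine ⟨fun i hi => ?_, fun i hi => ?_⟩
  · -- the FINITE chart
    by_cases h2 : 2 * i ≤ n + 1
    · exact normalAlong_of_res544 (αE E N q) _ _ (V i) (chart_alpha838e P E N q hq hnN)
        (res_chart_int544 (αE E N q) (xLev E (N * q) q (n + 1)) _ (V i) (V' (i - 1))
          (hcα i hi) (sh i hi).1 (sh i hi).2.1.2.1 (rs.res_α i hi (Or.inr h2))
          (chart_alpha838e P E N q hq hnN) (int_alpha838e P E N q hq hnN)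
          (h'.normal.normal_f (i - 1) (by omega)))
    · exact normalAlong_of_res544 (βE E N q) _ _ (V i) (chart_beta838e P E N q hq hnN)
        (res_chart_int544 (βE E N q) (xLev E (N * q) q (n + 1)) _ (V i) (V' (min i n))
          (hcβ i hi) (sh i hi).1 (sh i hi).2.1.2.1 (rs.res_β i hi (Or.inr (by omega)))
          (chart_beta838e P E N q hq hnN) (int_beta838e P E N q hq hnN)
          (h'.normal.normal_f (min i n) (min_le_right _ _)))
  · -- the chart AT INFINITY
    by_cases h2 : 2 * i ≤ n + 1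
    · -- along `α`
      refine normalAlong_of_res544 (αE E N q) _ _ (V i) (chart_inf_alpha838 P E N q hq hnN)
        (res_chart_gen544 (αE E N q) (xLev E (N * q) q (n + 1))⁻¹ _ (V i) (V' (i - 1))
          (hcα i hi) (sh i hi).1 (sh i hi).2.1.2.2 (rs.res_α i hi (Or.inr h2))
          (chart_inf_alpha838 P E N q hq hnN) ?_ (h'.normal.normal_i (i - 1) (by omega)))
      rcases Nat.eq_zero_or_pos i with rfl | hpos
      · -- `i = 0`: `J e ≡ (J n) ^ q`
        refine ⟨(xLev E N q n)⁻¹ * ((jLev E N q n)⁻¹) ^ q,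
          Subalgebra.mul_mem _ hx'i (pow_mem (hJ'i n le_rfl) q), ?_⟩
        have e1 : αE E N q ((xLev E N q n)⁻¹ * ((jLev E N q n)⁻¹) ^ q) =
            (αE E N q (xLev E N q n))⁻¹ * (jLev E (N * q) q n ^ q)⁻¹ := by
          rw [map_mul, map_pow, map_inv₀, map_inv₀, hαJ n le_rfl, inv_pow]
        rw [e1, hxα]
        refine mul_inv_cong838 (V 0) (hJ0 _) (pow_ne_zero q (hJ0 _)) (hJi 0 hi _ le_rfl) ?_
          (hBi 0 hi _ hαx) (kr.frob 0 hi n (by omega))
        rw [← inv_pow]
        exact pow_mem (hJi 0 hi n (by omega)) q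
      · -- `1 ≤ i`, `2 i ≤ e`: `J e ≡ J (e - 2 i)`
        refine ⟨(xLev E N q n)⁻¹ * (jLev E N q (n + 1 - 2 * i))⁻¹,
          Subalgebra.mul_mem _ hx'i (hJ'i _ (by omega)), ?_⟩
        have e1 : αE E N q ((xLev E N q n)⁻¹ * (jLev E N q (n + 1 - 2 * i))⁻¹) =
            (αE E N q (xLev E N q n))⁻¹ * (jLev E (N * q) q (n + 1 - 2 * i))⁻¹ := by
          rw [map_mul, map_inv₀, map_inv₀, hαJ _ (by omega)]
        rw [e1, hxα]
        exact mul_inv_cong838 (V i) (hJ0 _) (hJ0 _) (hJi i hi _ le_rfl) (hJi i hi _ (by omega))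
          (hBi i hi _ hαx)
          (kron_top838 (V i) hq (hqV i hi) (jLev E (N * q) q) (n + 1) i h2 (hJV i hi)
            (kr.frob i hi) (kr.ver i hi))
    · -- along `β`
      refine normalAlong_of_res544 (βE E N q) _ _ (V i) (chart_inf_beta838 P E N q hq hnN)
        (res_chart_gen544 (βE E N q) (xLev E (N * q) q (n + 1))⁻¹ _ (V i) (V' (min i n))
          (hcβ i hi) (sh i hi).1 (sh i hi).2.1.2.2 (rs.res_β i hi (Or.inr (by omega)))
          (chart_inf_beta838 P E N q hq hnN) ?_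
          (h'.normal.normal_i (min i n) (min_le_right _ _)))
      rcases Nat.lt_or_ge i (n + 1) with hlt | hge
      · -- `e < 2 i`, `i < e`: `J 0 ≡ J (2 (e - i))`
        refine ⟨(xLev E N q n)⁻¹ * (jLev E N q (2 * (n + 1 - i) - 1))⁻¹,
          Subalgebra.mul_mem _ hx'i (hJ'i _ (by omega)), ?_⟩
        have e0 : 2 * (n + 1 - i) - 1 + 1 = 2 * (n + 1 - i) := by omega
        have e1 : βE E N q ((xLev E N q n)⁻¹ * (jLev E N q (2 * (n + 1 - i) - 1))⁻¹) =
            (βE E N q (xLev E N q n))⁻¹ * (jLev E (N * q) q (2 * (n + 1 - i)))⁻¹ := by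
          rw [map_mul, map_inv₀, map_inv₀, hβJ _ (by omega), e0]
        rw [e1, hxβ]
        exact mul_inv_cong838 (V i) (hJ0 _) (hJ0 _) (hJi i hi _ (Nat.zero_le _))
          (hJi i hi _ (by omega)) (hBi i hi _ hβx)
          (kron_bot838 (V i) hq (hqV i hi) (jLev E (N * q) q) (n + 1) i hi (by omega)
            (hJV i hi) (kr.frob i hi) (kr.ver i hi))
      · -- `i = e`: `J 0 ≡ (J 1) ^ q`
        have hie : i = n + 1 := le_antisymm hi hge
        subst hie
        refine ⟨(xLev E N q n)⁻¹ * ((jLev E N q 0)⁻¹) ^ q,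
          Subalgebra.mul_mem _ hx'i (pow_mem (hJ'i 0 (Nat.zero_le _)) q), ?_⟩
        have e1 : βE E N q ((xLev E N q n)⁻¹ * ((jLev E N q 0)⁻¹) ^ q) =
            (βE E N q (xLev E N q n))⁻¹ * (jLev E (N * q) q 1 ^ q)⁻¹ := by
          rw [map_mul, map_pow, map_inv₀, map_inv₀, hβJ 0 (Nat.zero_le _), inv_pow]
        rw [e1, hxβ]
        refine mul_inv_cong838 (V (n + 1)) (hJ0 _) (pow_ne_zero q (hJ0 _))
          (hJi (n + 1) hi _ (Nat.zero_le _)) ?_ (hBi (n + 1) hi _ hβx)
          (kr.ver (n + 1) hi 0 (by omega) (by omega))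
        rw [← inv_pow]
        exact pow_mem (hJi (n + 1) hi 1 (by omega)) q

end Fermat.Agent.S45.ModE.H838

end

end
-- ===== PACK-END S45/ModE/H838/NormalLeaf.lean

-- ===== PACK-BEGIN S45/Reg/H925/StepF.lean
section





/-!
# S45 / CAR3 / MOD-E / REG — leaf `Reg.LeafStepF` (helper925, 2nd owner; OFF-MAIN)

Against `S45/Reg/Spec.lean` of helper878 (v1.3, sha256 `1c69ece8…`) on `S45/ModE/Spec.lean` v0.2
of helper928 (sha256 `039d998a…`).

`leafStepF_of : Reg.LeafDiag2 → Reg.LeafStepF`: the finite part `InvF` of the invariant `RegInv`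
moves up one level.  The upper chain is `τ l = α (τ' l)` (`l ≤ n`), `τ (n + 1) = β (τ' n)`.
Inputs from the binder prefix of `Reg.LeafStep`: `StepCtx.table`, `StepCtx.chart.chart_α/β`,
`val.ram` + `sheet.base` + `val.x_unit` of both levels, `StdE` (`q = w · unit`).
NO modular arithmetic.

`Reg.LeafDiag2` (leaf C7) is the chain congruence on the diagonal sheet in the ONE case
`q = 2`, `n = 3` (`mu = q`), where it does not follow from the precision by valuations.
-/

set_option autoImplicit false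
set_option linter.style.haveILetI false
set_option linter.unusedSectionVars false
set_option linter.unusedVariables false
set_option synthInstance.maxHeartbeats 400000
set_option maxHeartbeats 1600000

noncomputable section

namespace Fermat.Agent.S45.Reg.H925

open ModularCurve AlgebraicCurve
open Fermat.Agent.S18.H138 (chart)
open Fermat.Agent.S36 Fermat.Agent.S36.Eng Fermat.Agent.S45.ModE

/-- `Reg.LeafDiag2` in the binder prefix of `Reg.LeafStep` (general `q`, `n` with `q = 2`,
`n = 3`). -/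
theorem diag2_apply (hD : Reg.LeafDiag2)
    (P : ValuationSubring A2.Qb) (E : IntermediateField ℚ A2.Qb) (N q : ℕ)
    [NeZero N] [NeZero q] [NeZero (N * q)] (n : ℕ) (w : A2.RE P E)
    (hStd : ModE.StdE P E N q n w)
    (V' : ℕ → ValuationSubring (A2.Mod.FE E N))
    (V : ℕ → ValuationSubring (A2.Mod.FE E (N * q)))
    (W' : A2.Mod.FE E N ≃ₐ[E] A2.Mod.FE E N)
    (W : A2.Mod.FE E (N * q) ≃ₐ[E] A2.Mod.FE E (N * q))
    (hL : ModE.LevelCtx P E N q n w V' W') (hO : ModE.ObjsE P E N q n V' V W)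
    (hU : Reg.UpperCtx P E (N * q) q (n + 1) w V W)
    (hS : ModE.StepCtx P E N q n w V' V)
    (hq : q = 2) (hn : n = 3)
    (τ' : ℕ → A2.Mod.FE E N) (hch' : Reg.IsChain E N q (Reg.hauptF E q) n τ')
    (hF' : Reg.InvF P E N q n w V' τ')
    (τ : ℕ → A2.Mod.FE E (N * q)) (hch : Reg.IsChain E (N * q) q (Reg.hauptF E q) (n + 1) τ)
    (hprec : Reg.Prec (R := A2.RE P E) w q (n + 1) τ V) :
    ((τ 4 - τ 0) ^ 2 - (τ 3 - τ 1)) * (τ 3 - τ 1)⁻¹ ∈ (V 2).nonunits := by
  subst hq hn
  exact hD P E N w hStd V' V W' W hL hO hU hS τ' hch' hF' τ hch hprec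

section Aux

variable (P : ValuationSubring A2.Qb) (E : IntermediateField ℚ A2.Qb) (N q : ℕ)
  [NeZero N] [NeZero q] [NeZero (N * q)]

theorem αE_algebraMap925 (w : A2.RE P E) :
    A2.Mod.αE E N q (algebraMap (A2.RE P E) (A2.Mod.FE E N) w)
      = algebraMap (A2.RE P E) (A2.Mod.FE E (N * q)) w :=
  (A2.Mod.αE E N q).commutes (w : E)

theorem βE_algebraMap925 (w : A2.RE P E) :
    A2.Mod.βE E N q (algebraMap (A2.RE P E) (A2.Mod.FE E N) w)
      = algebraMap (A2.RE P E) (A2.Mod.FE E (N * q)) w :=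
  (A2.Mod.βE E N q).commutes (w : E)

end Aux

/-- **`Reg.LeafStepF`** from the chain congruence at `q = 2`, `n = 3`. -/
theorem leafStepF_of (hC7 : Reg.LeafDiag2) : Reg.LeafStepF := by
  intro P E N q _ _ _ n w hStd hn V' V W' W hL hO hU hStep hInv
  obtain ⟨τ', hch', hF'⟩ := hInv
  have hVal := hU.val
  have hSheet := hU.sheet
  -- the upper chain
  let τ : ℕ → A2.Mod.FE E (N * q) := fun l =>
    if l ≤ n then A2.Mod.αE E N q (τ' l) else A2.Mod.βE E N q (τ' n)
  have hτα : ∀ l ≤ n, τ l = A2.Mod.αE E N q (τ' l) := fun l hl => if_pos hl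
  have hτtop : τ (n + 1) = A2.Mod.βE E N q (τ' n) := if_neg (by omega)
  have hch : Reg.IsChain E (N * q) q (Reg.hauptF E q) (n + 1) τ := by
    intro l hl
    by_cases h : l ≤ n
    · rw [hτα l h, coe_heckeAlphaBar]
      exact hch' l h
    · have hl' : l = n + 1 := by omega
      rw [hl', hτtop, coe_heckeBetaBar, hch' n le_rfl, Function.iterate_succ_apply']
  have hτβ : ∀ l ≤ n, τ (l + 1) = A2.Mod.βE E N q (τ' l) := by
    intro l hl
    apply Subtype.ext
    rw [hch (l + 1) (by omega), coe_heckeBetaBar, hch' l hl, Function.iterate_succ_apply']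
  -- charts inside the sheets
  have hBV : ∀ i ≤ n + 1, ∀ b : chart (A2.RE P E)
      ({ModE.xLev E (N * q) q (n + 1)} : Set (A2.Mod.FE E (N * q))),
      (b : A2.Mod.FE E (N * q)) ∈ V i := fun i hi b =>
    Mod3.H839.mem_valuationSubring_of_mem_chart839 (V i) (hSheet.base i hi)
      (fun s hs => by rw [Set.mem_singleton_iff.1 hs]; exact (hVal.x_unit i hi).2.1) b.2
  have hB'V' : ∀ j ≤ n, ∀ b : chart (A2.RE P E)
      ({ModE.xLev E N q n} : Set (A2.Mod.FE E N)),
      (b : A2.Mod.FE E N) ∈ V' j := fun j hj b =>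
    Mod3.H839.mem_valuationSubring_of_mem_chart839 (V' j) (hL.sheet.base j hj)
      (fun s hs => by rw [Set.mem_singleton_iff.1 hs]; exact (hL.val.x_unit j hj).2.1) b.2
  -- `q / w ∈ R`
  have hqw : ∀ i ≤ n + 1, ((q : ℕ) : A2.Mod.FE E (N * q))
      * (algebraMap (A2.RE P E) (A2.Mod.FE E (N * q)) w)⁻¹ ∈ V i := by
    intro i hi
    obtain ⟨u, v, huv, hqu⟩ := Mod3.H356.exists_unit_q_eq_h356 P E hStd.lies_over hStd.unram
      hStd.unif
    have hw0 : algebraMap (A2.RE P E) (A2.Mod.FE E (N * q)) w ≠ 0 := by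
      obtain ⟨t, ht, hu⟩ := hVal.ram 0 (Nat.zero_le _)
      intro h
      exact hu.1 (by rw [h, zero_mul])
    have e1 : ((q : ℕ) : A2.Mod.FE E (N * q))
        = algebraMap (A2.RE P E) (A2.Mod.FE E (N * q)) u
          * algebraMap (A2.RE P E) (A2.Mod.FE E (N * q)) w := by
      have h1 : ((q : ℕ) : A2.Mod.FE E (N * q))
          = algebraMap E (A2.Mod.FE E (N * q)) ((q : ℕ) : E) := by
        rw [map_natCast]
      rw [h1, hqu, map_mul, mul_comm (algebraMap E (A2.Mod.FE E (N * q)) (w : E))]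
      rfl
    rw [e1, mul_inv_cancel_right₀ hw0]
    exact hSheet.base i hi u
  obtain ⟨h1, h2, h3⟩ := invF_step_abs (R := A2.RE P E) w hStd.q_prime n hn
    (A2.Mod.αE E N q) (A2.Mod.βE E N q)
    (αE_algebraMap925 P E N q w) (βE_algebraMap925 P E N q w)
    (chart (A2.RE P E) ({ModE.xLev E N q n} : Set (A2.Mod.FE E N)))
    (chart (A2.RE P E) ({ModE.xLev E (N * q) q (n + 1)} : Set (A2.Mod.FE E (N * q))))
    hStep.chart.chart_α hStep.chart.chart_β V V' hStep.table hVal.ram hL.val.ram hBV hB'V' hqw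
    τ' τ hτα hτβ hF'.mem hF'.prec hF'.pkg
    (fun hq2 hn3 hprec => diag2_apply hC7 P E N q n w hStd V' V W' W hL hO hU hStep
      hq2 hn3 τ' hch' hF' τ hch hprec)
  exact ⟨τ, hch, ⟨h1, h2, h3⟩⟩

end Fermat.Agent.S45.Reg.H925

end

end
-- ===== PACK-END S45/Reg/H925/StepF.lean

-- ===== PACK-BEGIN S45/H576/StepIPre.lean
section




/-!
# S45 / CAR3 / MOD-E/Reg, leaf `LeafStepI` (helper576, 2nd owner): concrete preliminaries

* `alpha_comm576`, `beta_comm576` : `α`, `β` commute with the structure maps of `R = R_E`;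
* `charti_alpha576`, `charti_beta576` : `α, β (chart R {x'⁻¹}) ⊆ chart R {x⁻¹}`;
* `natCast_not_isUnit576`, `natCast_div_w_mem576` : `q / w ∈ V` for every valuation ring over `R`;
* `mu_beta_eq576`, `mu_alpha_eq576`, `mu_diag576`, `mu_ne_zero576` : the multiplicities;
* `dC_beta576`, `dC_alpha576` : transport of the normal form `Reg.dC`.
-/

set_option autoImplicit false
set_option linter.style.haveILetI false
set_option linter.unusedSectionVars false
set_option synthInstance.maxHeartbeats 400000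
set_option maxHeartbeats 1600000

noncomputable section

namespace Fermat.Agent.S45.H576

open ModularCurve
open Fermat.Agent.S18.H138 (chart)
open Fermat.Agent
open Fermat.Agent.S36.Eng (UnifAt UnitAt)
open Fermat.Agent.S45.ModE (jLev xLev mu)
open Fermat.Agent.S45.Reg (dC)

/-! ## The multiplicities -/

theorem mu_ne_zero576 {q : ℕ} (hq : q.Prime) (e i : ℕ) : mu q e i ≠ 0 := by
  unfold mu
  exact (Nat.totient_pos.2 (pow_pos hq.pos _)).ne'

theorem mu_beta_eq576 (q : ℕ) {n i : ℕ} (h : 2 * i < n + 1) : mu q (n + 1) i = mu q n i := by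
  unfold mu
  rw [min_eq_left (by omega : i ≤ n + 1 - i), min_eq_left (by omega : i ≤ n - i)]

theorem mu_alpha_eq576 (q : ℕ) {n i : ℕ} (h : n + 1 < 2 * i) (hi : i ≤ n + 1) :
    mu q (n + 1) i = mu q n (i - 1) := by
  unfold mu
  rw [min_eq_right (by omega : n + 1 - i ≤ i), min_eq_right (by omega : n - (i - 1) ≤ i - 1)]
  congr 2
  omega

theorem mu_diag576 {q : ℕ} (hq : q.Prime) {n i : ℕ} (h : 2 * i = n + 1) (hi : 2 ≤ i) :
    mu q (n + 1) i = mu q n (i - 1) * q := by
  unfold mu
  rw [min_eq_left (by omega : i ≤ n + 1 - i), min_eq_left (by omega : i - 1 ≤ n - (i - 1))]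
  obtain ⟨k, rfl⟩ : ∃ k, i = k + 2 := ⟨i - 2, by omega⟩
  rw [show k + 2 - 1 = k + 1 by omega, Nat.totient_prime_pow_succ hq,
    Nat.totient_prime_pow_succ hq, pow_succ]
  ring

/-! ## Divisibility of `q` by `w` -/

section Nat

variable (P : ValuationSubring A2.Qb) (E : IntermediateField ℚ A2.Qb)

theorem natCast_not_isUnit576 {q : ℕ} (hq : q.Prime) (hP : P.LiesOverPrime q) :
    ¬ IsUnit ((q : ℕ) : A2.RE P E) := by
  intro h
  obtain ⟨u, hu⟩ := h.exists_right_inv
  have hqQ : ((q : ℕ) : A2.Qb) ≠ 0 := Nat.cast_ne_zero.2 hq.ne_zero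
  have h1 := (mem_nonunits_iff_or576 P ((q : ℕ) : A2.Qb)).1 hP
  rcases h1 with h1 | h1
  · exact hqQ h1
  · apply h1
    have h2 : ((q : ℕ) : E) * (u : E) = 1 := by
      have := congrArg (fun z : A2.RE P E => (z : E)) hu
      simpa using this
    have h3 : algebraMap E A2.Qb (u : E) = (((q : ℕ) : A2.Qb))⁻¹ := by
      have h4 := congrArg (algebraMap E A2.Qb) h2
      rw [map_mul, map_natCast, map_one] at h4
      exact eq_inv_of_mul_eq_one_right h4
    rw [← h3]
    exact u.2

theorem natCast_div_w_mem576 {F : Type*} [Field F] [Algebra (A2.RE P E) F]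
    {q : ℕ} (hq : q.Prime) (hP : P.LiesOverPrime q) {w : A2.RE P E} (hw : Irreducible w)
    (V : ValuationSubring F) (hbase : ∀ r : A2.RE P E, algebraMap (A2.RE P E) F r ∈ V)
    (hw0 : algebraMap (A2.RE P E) F w ≠ 0) :
    ((q : ℕ) : F) * (algebraMap (A2.RE P E) F w)⁻¹ ∈ V := by
  obtain ⟨r, hr⟩ := exists_mul_of_irreducible576 hw (natCast_not_isUnit576 P E hq hP)
  have h1 : ((q : ℕ) : F) = algebraMap (A2.RE P E) F w * algebraMap (A2.RE P E) F r := by
    rw [← map_mul, ← hr, map_natCast]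
  rw [h1, mul_comm (algebraMap (A2.RE P E) F w), mul_assoc, mul_inv_cancel₀ hw0, mul_one]
  exact hbase r

end Nat

/-! ## The degeneracy maps -/

section Maps

variable (P : ValuationSubring A2.Qb) (E : IntermediateField ℚ A2.Qb) (N q : ℕ)
  [NeZero N] [NeZero q] [NeZero (N * q)]

theorem alpha_comm576 (r : A2.RE P E) :
    A2.Mod.αE E N q (algebraMap (A2.RE P E) (A2.Mod.FE E N) r)
      = algebraMap (A2.RE P E) (A2.Mod.FE E (N * q)) r := by
  rw [IsScalarTower.algebraMap_apply (A2.RE P E) E (A2.Mod.FE E N),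
    IsScalarTower.algebraMap_apply (A2.RE P E) E (A2.Mod.FE E (N * q))]
  exact (A2.Mod.αE E N q).commutes _

theorem beta_comm576 (r : A2.RE P E) :
    A2.Mod.βE E N q (algebraMap (A2.RE P E) (A2.Mod.FE E N) r)
      = algebraMap (A2.RE P E) (A2.Mod.FE E (N * q)) r := by
  rw [IsScalarTower.algebraMap_apply (A2.RE P E) E (A2.Mod.FE E N),
    IsScalarTower.algebraMap_apply (A2.RE P E) E (A2.Mod.FE E (N * q))]
  exact (A2.Mod.βE E N q).commutes _

theorem alpha_jLev576 {n : ℕ} (h : q ^ n ∣ N) {l : ℕ} (hl : l ≤ n) :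
    A2.Mod.αE E N q (jLev E N q l) = jLev E (N * q) q l :=
  H715.alpha_sE E N q ((pow_dvd_pow q hl).trans h)

theorem beta_jLev576 {n : ℕ} (h : q ^ n ∣ N) {l : ℕ} (hl : l ≤ n) :
    A2.Mod.βE E N q (jLev E N q l) = jLev E (N * q) q (l + 1) :=
  H715.beta_sE E N q ((pow_dvd_pow q hl).trans h)

theorem pow_succ_dvd576 {n : ℕ} (h : q ^ n ∣ N) : q ^ (n + 1) ∣ N * q := by
  rw [pow_succ]
  exact mul_dvd_mul_right h q

theorem jLev_ne_zero576 (l : ℕ) : jLev E N q l ≠ 0 := H715.sE_ne_zero E N q l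

/-- `α (chart R {x'⁻¹}) ⊆ chart R {x⁻¹}`. -/
theorem charti_alpha576 (hq : q.Prime) {n : ℕ} (h : q ^ n ∣ N) :
    ∀ b ∈ chart (A2.RE P E) ({(xLev E N q n)⁻¹} : Set (A2.Mod.FE E N)),
      A2.Mod.αE E N q b ∈
        chart (A2.RE P E) ({(xLev E (N * q) q (n + 1))⁻¹} : Set (A2.Mod.FE E (N * q))) := by
  refine S36.Mod3.H189.chart_map ?_
  rw [map_inv₀, xLev_eq_xGE576 E N q n, H715.alpha_xGE E N q h, ← Finset.prod_inv_distrib]
  refine Subalgebra.prod_mem _ fun k hk => ?_
  exact H715.sE_inv_mem_chart P E (N * q) q hq (pow_succ_dvd576 N q h)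
    (by have := Finset.mem_range.1 hk; omega)

/-- `β (chart R {x'⁻¹}) ⊆ chart R {x⁻¹}`. -/
theorem charti_beta576 (hq : q.Prime) {n : ℕ} (h : q ^ n ∣ N) :
    ∀ b ∈ chart (A2.RE P E) ({(xLev E N q n)⁻¹} : Set (A2.Mod.FE E N)),
      A2.Mod.βE E N q b ∈
        chart (A2.RE P E) ({(xLev E (N * q) q (n + 1))⁻¹} : Set (A2.Mod.FE E (N * q))) := by
  refine S36.Mod3.H189.chart_map ?_
  rw [map_inv₀, xLev_eq_xGE576 E N q n, H715.beta_xGE E N q h, ← Finset.prod_inv_distrib]
  refine Subalgebra.prod_mem _ fun k hk => ?_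
  exact H715.sE_inv_mem_chart P E (N * q) q hq (pow_succ_dvd576 N q h)
    (by have := Finset.mem_range.1 hk; omega)

/-- `β (dC' n i) = dC (n + 1) i` for `2 i ≤ n`. -/
theorem dC_beta576 {n : ℕ} (h : q ^ n ∣ N) {i : ℕ} (h2 : 2 * i ≤ n) :
    A2.Mod.βE E N q (dC (jLev E N q) n i) = dC (jLev E (N * q) q) (n + 1) i := by
  unfold dC
  rw [if_pos h2, if_pos (by omega : 2 * i ≤ n + 1), map_sub, map_one, map_mul, map_inv₀,
    beta_jLev576 E N q h (by omega : n - 2 * i ≤ n), beta_jLev576 E N q h le_rfl,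
    show n - 2 * i + 1 = n + 1 - 2 * i by omega]

/-- `α (dC' n (i - 1)) = dC (n + 1) i` for `n + 1 < 2 i`, `i ≤ n`. -/
theorem dC_alpha576 {n : ℕ} (h : q ^ n ∣ N) {i : ℕ} (h2 : n + 1 < 2 * i) (hi : i ≤ n) :
    A2.Mod.αE E N q (dC (jLev E N q) n (i - 1)) = dC (jLev E (N * q) q) (n + 1) i := by
  unfold dC
  rw [if_neg (by omega : ¬ 2 * i ≤ n + 1)]
  by_cases h3 : 2 * (i - 1) ≤ n
  · rw [if_pos h3, map_sub, map_one, map_mul, map_inv₀,
      alpha_jLev576 E N q h (by omega : n - 2 * (i - 1) ≤ n), alpha_jLev576 E N q h le_rfl,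
      show n - 2 * (i - 1) = 0 by omega, show 2 * (n + 1) - 2 * i = n by omega]
  · rw [if_neg h3, map_sub, map_one, map_mul, map_inv₀,
      alpha_jLev576 E N q h (Nat.zero_le n),
      alpha_jLev576 E N q h (by omega : 2 * n - 2 * (i - 1) ≤ n),
      show 2 * n - 2 * (i - 1) = 2 * (n + 1) - 2 * i by omega]

end Maps

end Fermat.Agent.S45.H576

end
end
-- ===== PACK-END S45/H576/StepIPre.lean

-- ===== PACK-BEGIN S45/H576/StepI.lean
section




/-!
# S45 / CAR3 / MOD-E/Reg — leaf `Reg.LeafStepI` (helper576, 2nd owner; 1st owner helper820)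

`leafStepI576 : Reg.LeafStepI` (`S45/Reg/Spec.lean` of helper878, v1.2): the part at infinity
`InvI` of the REG invariant moves up one level.  UNCONDITIONAL.

* `prec_step576` : the precision `Prec` of the chain `J` (`frob` along `α`, `ver` along `β`);
* `pkg_beta576`  : sheets `2 i < e` — the lite package is transported along `β` (`e = 1`);
* `pkg_alpha576` : sheets `2 i > e` — along `α` (`e = 1`);
* `pkg_diag576`  : the diagonal sheet `2 i = e` — WILD step along `α`, new element
  `x = tc q J 0 i` (`CuspChain.lean`), chain congruence of the `j`-differences by Kronecker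
  (`H693.chain_cong_kron693`, which covers `q = 2`, `e = 4`), Kronecker residues `PartKronE`.
-/

set_option autoImplicit false
set_option linter.style.haveILetI false
set_option linter.unusedSectionVars false
set_option synthInstance.maxHeartbeats 400000
set_option maxHeartbeats 1600000

noncomputable section

namespace Fermat.Agent.S45.H576

open ModularCurve
open Fermat.Agent.S18.H138 (chart)
open Fermat.Agent
open Fermat.Agent.S36.Eng (UnifAt UnitAt)
open Fermat.Agent.S45.ModE (jLev xLev mu PartKronE PartUnifE PartWitE PartValE PartSheetE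
  PartTableE)
open Fermat.Agent.S45.Reg (dC LitePkg Prec InvI)

/-- the field identity behind the wild step -/
theorem wild_key576 {F : Type*} [Field F] {A A1 B0 B1 Jc y : F} (q m : ℕ)
    (hA : A ≠ 0) (hA1 : A1 ≠ 0) (hB0 : B0 ≠ 0) (hne : A1 - B1 ≠ 0) (hy : y ≠ 0) :
    ((A - B0) * Jc * (B0 ^ m * A)⁻¹) ^ q * y⁻¹ =
      ((A - B0) ^ q * (A1 - B1)⁻¹) * (A1 * (A ^ q)⁻¹) * (Jc * (B0 ^ m)⁻¹) ^ q *
        (y * (1 - B1 * A1⁻¹)⁻¹)⁻¹ := by
  have e : (1 - B1 * A1⁻¹) = (A1 - B1) * A1⁻¹ := by field_simp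
  rw [e]
  have hB0m : B0 ^ m ≠ 0 := pow_ne_zero _ hB0
  have hAq : A ^ q ≠ 0 := pow_ne_zero _ hA
  have hBq : (B0 ^ m) ^ q ≠ 0 := pow_ne_zero _ hB0m
  simp only [mul_pow, inv_pow, mul_inv, inv_inv]
  field_simp

section Step

variable (P : ValuationSubring A2.Qb) (E : IntermediateField ℚ A2.Qb) (N q : ℕ)
  [NeZero N] [NeZero q] [NeZero (N * q)]

/-- **The precision moves up.** -/
theorem prec_step576 {n : ℕ} {w : A2.RE P E}
    {V' : ℕ → ValuationSubring (A2.Mod.FE E N)}
    {V : ℕ → ValuationSubring (A2.Mod.FE E (N * q))}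
    (hqn : q ^ n ∣ N) (hn : 2 ≤ n)
    (hT : PartTableE n (A2.Mod.αE E N q) (A2.Mod.βE E N q) V V')
    (hK : PartKronE q (n + 1) (jLev E (N * q) q) V)
    (hP : Prec (R := A2.RE P E) w q n (jLev E N q) V') :
    Prec (R := A2.RE P E) w q (n + 1) (jLev E (N * q) q) V where
  mem := fun i hi l hl => (hK.unit i hi l hl).2.1
  frob := fun i hi => by
    have e : A2.Mod.αE E N q (jLev E N q 1 - jLev E N q 0 ^ q)
        = jLev E (N * q) q 1 - jLev E (N * q) q 0 ^ q := by
      rw [map_sub, map_pow, alpha_jLev576 E N q hqn (by omega : 1 ≤ n),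
        alpha_jLev576 E N q hqn (Nat.zero_le n)]
    rw [← e]
    rcases Nat.eq_zero_or_pos i with rfl | hpos
    · exact prec_map576 w (A2.Mod.αE E N q : A2.Mod.FE E N →+* A2.Mod.FE E (N * q))
        (alpha_comm576 P E N q) (V 0) (V' 0) hT.comap_α₀ (hP.frob 0 (by omega))
    · exact prec_map576 w (A2.Mod.αE E N q : A2.Mod.FE E N →+* A2.Mod.FE E (N * q))
        (alpha_comm576 P E N q) (V i) (V' (i - 1)) (hT.comap_α i hpos (by omega))
        (hP.frob (i - 1) (by omega))
  ver := fun i h1 hi => by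
    have e : A2.Mod.βE E N q (jLev E N q (n - 1) - jLev E N q n ^ q)
        = jLev E (N * q) q (n + 1 - 1) - jLev E (N * q) q (n + 1) ^ q := by
      rw [map_sub, map_pow, beta_jLev576 E N q hqn (by omega : n - 1 ≤ n),
        beta_jLev576 E N q hqn le_rfl, show n - 1 + 1 = n + 1 - 1 by omega]
    rw [← e]
    rcases Nat.lt_or_ge n i with hlt | hle
    · have hi' : i = n + 1 := by omega
      subst hi'
      exact prec_map576 w (A2.Mod.βE E N q : A2.Mod.FE E N →+* A2.Mod.FE E (N * q))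
        (beta_comm576 P E N q) (V (n + 1)) (V' n) hT.comap_βₑ (hP.ver n (by omega) le_rfl)
    · exact prec_map576 w (A2.Mod.βE E N q : A2.Mod.FE E N →+* A2.Mod.FE E (N * q))
        (beta_comm576 P E N q) (V i) (V' i) (hT.comap_β i hle) (hP.ver i h1 hle)

/-- **Sheets `2 i < e`: transport along `β`.** -/
theorem pkg_beta576 (hq : q.Prime) {n : ℕ} {w : A2.RE P E}
    {V' : ℕ → ValuationSubring (A2.Mod.FE E N)}
    {V : ℕ → ValuationSubring (A2.Mod.FE E (N * q))}
    (hqn : q ^ n ∣ N)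
    (hT : PartTableE n (A2.Mod.αE E N q) (A2.Mod.βE E N q) V V')
    (hVal : PartValE (R := A2.RE P E) w q (n + 1) (xLev E (N * q) q (n + 1)) V)
    (hVal' : PartValE (R := A2.RE P E) w q n (xLev E N q n) V')
    {i : ℕ} (h2 : 2 * i < n + 1)
    (hpkg : ∃ x' : A2.Mod.FE E N,
      x' * (dC (jLev E N q) n i)⁻¹ - 1 ∈ (V' i).nonunits ∧
      LitePkg (R := A2.RE P E) w
        (chart (A2.RE P E) ({(xLev E N q n)⁻¹} : Set (A2.Mod.FE E N)))
        (jLev E N q) n V' i x') :
    ∃ x : A2.Mod.FE E (N * q),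
      x * (dC (jLev E (N * q) q) (n + 1) i)⁻¹ - 1 ∈ (V i).nonunits ∧
      LitePkg (R := A2.RE P E) w
        (chart (A2.RE P E) ({(xLev E (N * q) q (n + 1))⁻¹} : Set (A2.Mod.FE E (N * q))))
        (jLev E (N * q) q) (n + 1) V i x := by
  obtain ⟨x', hc', hL'⟩ := hpkg
  have hin : i ≤ n := by omega
  have hcβ := hT.comap_β i hin
  refine ⟨A2.Mod.βE E N q x', ?_, ?_⟩
  · rw [← dC_beta576 E N q hqn (by omega : 2 * i ≤ n)]
    have := (mem_nonunits_comap576
      (A2.Mod.βE E N q : A2.Mod.FE E N →+* A2.Mod.FE E (N * q)) (V i) _).1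
      (by rw [hcβ]; exact hc')
    simpa only [map_sub, map_mul, map_inv₀, map_one, RingHom.coe_coe] using this
  · have hu : UnifAt (V i) (A2.Mod.βE E N q x') :=
      unifAt_map576 (A2.Mod.βE E N q : A2.Mod.FE E N →+* A2.Mod.FE E (N * q)) (V i) (V' i)
        hcβ (beta_comm576 P E N q w) (mu_ne_zero576 hq n i)
        (by have := hVal.ram i (by omega); rwa [mu_beta_eq576 q h2] at this)
        (hVal'.ram i hin) hL'.2.1
    exact litePkg_map576 w (A2.Mod.βE E N q : A2.Mod.FE E N →+* A2.Mod.FE E (N * q))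
      (beta_comm576 P E N q) _ _ (charti_beta576 P E N q hq hqn) (jLev E N q)
      (jLev E (N * q) q) n (n + 1)
      (fun l hl => ⟨l + 1, by omega, beta_jLev576 E N q hqn hl⟩) V' V i i hcβ hL' hu

/-- **Sheets `2 i > e`: transport along `α`.** -/
theorem pkg_alpha576 (hq : q.Prime) {n : ℕ} {w : A2.RE P E}
    {V' : ℕ → ValuationSubring (A2.Mod.FE E N)}
    {V : ℕ → ValuationSubring (A2.Mod.FE E (N * q))}
    (hqn : q ^ n ∣ N)
    (hT : PartTableE n (A2.Mod.αE E N q) (A2.Mod.βE E N q) V V')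
    (hVal : PartValE (R := A2.RE P E) w q (n + 1) (xLev E (N * q) q (n + 1)) V)
    (hVal' : PartValE (R := A2.RE P E) w q n (xLev E N q n) V')
    {i : ℕ} (h2 : n + 1 < 2 * i) (hin : i ≤ n)
    (hpkg : ∃ x' : A2.Mod.FE E N,
      x' * (dC (jLev E N q) n (i - 1))⁻¹ - 1 ∈ (V' (i - 1)).nonunits ∧
      LitePkg (R := A2.RE P E) w
        (chart (A2.RE P E) ({(xLev E N q n)⁻¹} : Set (A2.Mod.FE E N)))
        (jLev E N q) n V' (i - 1) x') :
    ∃ x : A2.Mod.FE E (N * q),
      x * (dC (jLev E (N * q) q) (n + 1) i)⁻¹ - 1 ∈ (V i).nonunits ∧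
      LitePkg (R := A2.RE P E) w
        (chart (A2.RE P E) ({(xLev E (N * q) q (n + 1))⁻¹} : Set (A2.Mod.FE E (N * q))))
        (jLev E (N * q) q) (n + 1) V i x := by
  obtain ⟨x', hc', hL'⟩ := hpkg
  have hcα := hT.comap_α i (by omega) (by omega)
  refine ⟨A2.Mod.αE E N q x', ?_, ?_⟩
  · rw [← dC_alpha576 E N q hqn h2 hin]
    have := (mem_nonunits_comap576
      (A2.Mod.αE E N q : A2.Mod.FE E N →+* A2.Mod.FE E (N * q)) (V i) _).1
      (by rw [hcα]; exact hc')
    simpa only [map_sub, map_mul, map_inv₀, map_one, RingHom.coe_coe] using this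
  · have hu : UnifAt (V i) (A2.Mod.αE E N q x') :=
      unifAt_map576 (A2.Mod.αE E N q : A2.Mod.FE E N →+* A2.Mod.FE E (N * q)) (V i)
        (V' (i - 1)) hcα (alpha_comm576 P E N q w) (mu_ne_zero576 hq n (i - 1))
        (by have := hVal.ram i (by omega); rwa [mu_alpha_eq576 q h2 (by omega)] at this)
        (hVal'.ram (i - 1) (by omega)) hL'.2.1
    exact litePkg_map576 w (A2.Mod.αE E N q : A2.Mod.FE E N →+* A2.Mod.FE E (N * q))
      (alpha_comm576 P E N q) _ _ (charti_alpha576 P E N q hq hqn) (jLev E N q)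
      (jLev E (N * q) q) n (n + 1)
      (fun l hl => ⟨l, by omega, alpha_jLev576 E N q hqn hl⟩) V' V i (i - 1) hcα hL' hu

/-- **The chain congruence of the `j`-differences on the diagonal sheet** `2 i = e`
(`(J e - J 0) ^ q = (J (e-1) - J 1) (1 + 𝔪_V)`; covers `q = 2`, `e = 4`, where `μ = q`). -/
theorem chain_diag576 (hq : q.Prime) (hPq : P.LiesOverPrime q) {n : ℕ} {w : A2.RE P E}
    (hw : Irreducible w)
    {V' : ℕ → ValuationSubring (A2.Mod.FE E N)}
    {V : ℕ → ValuationSubring (A2.Mod.FE E (N * q))}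
    (hqn : q ^ n ∣ N)
    (hT : PartTableE n (A2.Mod.αE E N q) (A2.Mod.βE E N q) V V')
    (hVal : PartValE (R := A2.RE P E) w q (n + 1) (xLev E (N * q) q (n + 1)) V)
    (hVal' : PartValE (R := A2.RE P E) w q n (xLev E N q n) V')
    (hSheet : PartSheetE (R := A2.RE P E) w (n + 1) (xLev E (N * q) q (n + 1)) V)
    (hK : PartKronE q (n + 1) (jLev E (N * q) q) V)
    (hK' : PartKronE q n (jLev E N q) V')
    (hU' : PartUnifE n (jLev E N q) V')
    (hW' : PartWitE q n (jLev E N q) V')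
    {i : ℕ} (hi : 2 ≤ i) (h2 : 2 * i = n + 1)
    :
    ((jLev E (N * q) q (n + 1) - jLev E (N * q) q 0) ^ q
        - (jLev E (N * q) q n - jLev E (N * q) q 1))
      * (jLev E (N * q) q n - jLev E (N * q) q 1)⁻¹ ∈ (V i).nonunits := by
  have hie : i ≤ n + 1 := by omega
  have hin : i ≤ n := by omega
  have hcα := hT.comap_α i (by omega) hie
  have hcβ := hT.comap_β i hin
  have hqn1 : q ^ (n + 1) ∣ N * q := pow_succ_dvd576 N q hqn
  -- the chain above
  have hJu : ∀ l ≤ n + 1, UnitAt (V i) (jLev E (N * q) q l) := fun l hl => hK.unit i hie l hl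
  -- ramification
  obtain ⟨t, ht, hwt⟩ := hVal.ram i hie
  have hw0 : algebraMap (A2.RE P E) (A2.Mod.FE E (N * q)) w ≠ 0 := by
    intro h
    apply hwt.1
    rw [h, zero_mul]
  rw [mu_diag576 hq h2 hi] at hwt
  have hμ' : mu q n (i - 1) ≠ 0 := mu_ne_zero576 hq n (i - 1)
  have hvt1 : (V i).valuation t < 1 := val_lt_one_of_unifAt576 (V i) ht
  have hvw : (V i).valuation (algebraMap (A2.RE P E) (A2.Mod.FE E (N * q)) w)
      = ((V i).valuation t ^ q) ^ mu q n (i - 1) := by
    rw [val_of_ram576 (V i) hwt ht.1, pow_mul']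
  -- the uniformiser below and its image
  have hT' : UnifAt (V' (i - 1)) (jLev E N q n - jLev E N q 1) := by
    have := hU'.unif (i - 1) (by omega) (by omega)
    rwa [show n - 2 * (i - 1) = 1 by omega] at this
  have hαT : A2.Mod.αE E N q (jLev E N q n - jLev E N q 1)
      = jLev E (N * q) q n - jLev E (N * q) q 1 := by
    rw [map_sub, alpha_jLev576 E N q hqn le_rfl, alpha_jLev576 E N q hqn (by omega : 1 ≤ n)]
  have hvT : (V i).valuation (jLev E (N * q) q n - jLev E (N * q) q 1)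
      = (V i).valuation t ^ q := by
    rw [← hαT]
    exact val_map_unif_wild576
      (A2.Mod.αE E N q : A2.Mod.FE E N →+* A2.Mod.FE E (N * q)) (V i) (V' (i - 1)) hcα
      (alpha_comm576 P E N q w) hμ' ht hwt (hVal'.ram (i - 1) (by omega)) hT'
  have hab1 : jLev E (N * q) q n - jLev E (N * q) q 1 ∈ (V i).nonunits := by
    rw [← hαT]
    exact (mem_nonunits_comap576
      (A2.Mod.αE E N q : A2.Mod.FE E N →+* A2.Mod.FE E (N * q)) (V i) _).1
      (by rw [hcα]; exact hT'.2.1)
  have hne1 : jLev E (N * q) q n - jLev E (N * q) q 1 ≠ 0 := by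
    rw [← hαT]
    exact (map_ne_zero _).2 hT'.1
  have hvtq0 : (V i).valuation t ^ q ≠ 0 :=
    pow_ne_zero _ (val_ne_zero_of_unifAt576 (V i) ht)
  have hvtq1 : (V i).valuation t ^ q ≤ 1 := pow_le_one₀ zero_le' hvt1.le
  -- `q / w`, `w / (J n - J 1)`, `q / (J n - J 1)`
  have hqw := natCast_div_w_mem576 P E hq hPq hw (V i) (hSheet.base i hie) hw0
  have hwT : algebraMap (A2.RE P E) (A2.Mod.FE E (N * q)) w *
      (jLev E (N * q) q n - jLev E (N * q) q 1)⁻¹ ∈ V i := by
    rw [← (V i).valuation_le_one_iff, map_mul, map_inv₀, hvw, hvT]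
    calc ((V i).valuation t ^ q) ^ mu q n (i - 1) * ((V i).valuation t ^ q)⁻¹
        ≤ ((V i).valuation t ^ q) * ((V i).valuation t ^ q)⁻¹ :=
          mul_le_mul' (pow_le_of_le_one zero_le' hvtq1 hμ') le_rfl
      _ = 1 := mul_inv_cancel₀ hvtq0
  have hq1 : ((q : ℕ) : A2.Mod.FE E (N * q)) *
      (jLev E (N * q) q n - jLev E (N * q) q 1)⁻¹ ∈ V i := by
    have e : ((q : ℕ) : A2.Mod.FE E (N * q)) * (jLev E (N * q) q n - jLev E (N * q) q 1)⁻¹
        = (((q : ℕ) : A2.Mod.FE E (N * q)) *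
            (algebraMap (A2.RE P E) (A2.Mod.FE E (N * q)) w)⁻¹) *
          (algebraMap (A2.RE P E) (A2.Mod.FE E (N * q)) w *
            (jLev E (N * q) q n - jLev E (N * q) q 1)⁻¹) := by
      field_simp
    rw [e]
    exact (V i).mul_mem _ _ hqw hwT
  have hqm : ((q : ℕ) : A2.Mod.FE E (N * q)) ∈ (V i).nonunits := by
    have e : ((q : ℕ) : A2.Mod.FE E (N * q))
        = (jLev E (N * q) q n - jLev E (N * q) q 1) *
          (((q : ℕ) : A2.Mod.FE E (N * q)) *
            (jLev E (N * q) q n - jLev E (N * q) q 1)⁻¹) := by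
      field_simp
    rw [e]
    exact nonunits_mul_mem576' (V i) hab1 hq1
  -- Kronecker residues on the sheet
  have hfrob0 : jLev E (N * q) q 1 - jLev E (N * q) q 0 ^ q ∈ (V i).nonunits := by
    have := hK.frob i hie 0 (by omega)
    simpa using this
  have hvern : jLev E (N * q) q n - jLev E (N * q) q (n + 1) ^ q ∈ (V i).nonunits :=
    hK.ver i hie n (by omega) (by omega)
  -- `J e ≡ J 0`
  have hab : jLev E (N * q) q (n + 1) - jLev E (N * q) q 0 ∈ (V i).nonunits := by
    obtain ⟨r, hr, hrel⟩ := H693.sub_pow_prime_eq_mem693 (V i) hq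
      (hJu (n + 1) le_rfl).2.1 (hJu 0 (by omega)).2.1
    have hpow : (jLev E (N * q) q (n + 1) - jLev E (N * q) q 0) ^ q ∈ (V i).nonunits := by
      have e : (jLev E (N * q) q (n + 1) - jLev E (N * q) q 0) ^ q
          = (jLev E (N * q) q n - jLev E (N * q) q 1)
            + (-(jLev E (N * q) q n - jLev E (N * q) q (n + 1) ^ q))
            + (jLev E (N * q) q 1 - jLev E (N * q) q 0 ^ q)
            + ((q : ℕ) : A2.Mod.FE E (N * q)) *
                (-(jLev E (N * q) q 0 *
                  (jLev E (N * q) q (n + 1) - jLev E (N * q) q 0) * r)) := by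
        linear_combination hrel
      rw [e]
      refine nonunits_add576' (V i) (nonunits_add576' (V i) (nonunits_add576' (V i) hab1 ?_)
        hfrob0) (nonunits_mul_mem576' (V i) hqm ?_)
      · rw [ValuationSubring.mem_nonunits_iff, Valuation.map_neg]
        exact (V i).mem_nonunits_iff.1 hvern
      · exact (V i).neg_mem _ ((V i).mul_mem _ _ ((V i).mul_mem _ _ (hJu 0 (by omega)).2.1
          ((V i).sub_mem (hJu (n + 1) le_rfl).2.1 (hJu 0 (by omega)).2.1)) hr)
    rw [ValuationSubring.mem_nonunits_iff] at hpow ⊢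
    by_contra hcon
    rw [not_lt] at hcon
    rw [map_pow] at hpow
    exact absurd hpow (not_lt.2 (one_le_pow₀ hcon))
  -- the witness: `J e - (J (e-1))^q` is a unit
  have hunit : jLev E (N * q) q (n + 1) - jLev E (N * q) q n ^ q ∉ (V i).nonunits := by
    have hy : jLev E N q (n - 1) ∈ V' i := (hK'.unit i hin (n - 1) (by omega)).2.1
    have h := hW'.wit_hi i hin (by omega) (jLev E N q (n - 1)) hy
    intro hcon
    apply h
    rw [← hcβ, mem_nonunits_comap576]
    have e : (A2.Mod.βE E N q : A2.Mod.FE E N →+* A2.Mod.FE E (N * q))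
        (jLev E N q (n - 1) ^ q - jLev E N q n)
        = -(jLev E (N * q) q (n + 1) - jLev E (N * q) q n ^ q) := by
      show A2.Mod.βE E N q (jLev E N q (n - 1) ^ q - jLev E N q n) = _
      rw [map_sub, map_pow, beta_jLev576 E N q hqn (by omega : n - 1 ≤ n),
        beta_jLev576 E N q hqn le_rfl, show n - 1 + 1 = n by omega]
      ring
    rw [e, ValuationSubring.mem_nonunits_iff, Valuation.map_neg]
    exact (V i).mem_nonunits_iff.1 hcon
  -- the chain congruence of the `j`-differences (Kronecker)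
  haveI : Fact q.Prime := ⟨hq⟩
  obtain ⟨D⟩ := S28.H807.nonempty_modPolyData q hq
  obtain ⟨Θ, hΘ⟩ := S28.h88_kronecker_int q D
  have hΦa : D.Φ.eval₂ (Polynomial.eval₂RingHom (Int.castRingHom (A2.Mod.FE E (N * q)))
      (jLev E (N * q) q n)) (jLev E (N * q) q (n + 1)) = 0 :=
    (S36.Mod3.H276.eval2_eq_aeval D.Φ (jLev E (N * q) q n) (jLev E (N * q) q (n + 1))).trans
      (H715.modEq_down E (N * q) q D (k := n) hqn1)
  have hΦb : D.Φ.eval₂ (Polynomial.eval₂RingHom (Int.castRingHom (A2.Mod.FE E (N * q)))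
      (jLev E (N * q) q 1)) (jLev E (N * q) q 0) = 0 :=
    (S36.Mod3.H276.eval2_eq_aeval D.Φ (jLev E (N * q) q 1) (jLev E (N * q) q 0)).trans
      (H715.modEq_up E (N * q) q D (k := 0) ((pow_dvd_pow q (by omega : 0 + 1 ≤ n + 1)).trans hqn1))
  exact H693.chain_cong_kron693 (V i) hq hΘ (hJu (n + 1) le_rfl).2.1
    (hJu n (by omega)).2.1 (hJu 0 (by omega)).2.1 (hJu 1 (by omega)).2.1 hΦa hΦb hab hab1
    hunit hq1

/-- **The diagonal sheet `2 i = e`: the WILD step along `α`.** -/
theorem pkg_diag576 (hq : q.Prime) (hPq : P.LiesOverPrime q) {n : ℕ} {w : A2.RE P E}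
    (hw : Irreducible w)
    {V' : ℕ → ValuationSubring (A2.Mod.FE E N)}
    {V : ℕ → ValuationSubring (A2.Mod.FE E (N * q))}
    (hqn : q ^ n ∣ N)
    (hT : PartTableE n (A2.Mod.αE E N q) (A2.Mod.βE E N q) V V')
    (hVal : PartValE (R := A2.RE P E) w q (n + 1) (xLev E (N * q) q (n + 1)) V)
    (hVal' : PartValE (R := A2.RE P E) w q n (xLev E N q n) V')
    (hSheet : PartSheetE (R := A2.RE P E) w (n + 1) (xLev E (N * q) q (n + 1)) V)
    (hK : PartKronE q (n + 1) (jLev E (N * q) q) V)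
    (hK' : PartKronE q n (jLev E N q) V')
    (hU' : PartUnifE n (jLev E N q) V')
    (hW' : PartWitE q n (jLev E N q) V')
    {i : ℕ} (hi : 2 ≤ i) (h2 : 2 * i = n + 1)
    (hpkg : ∃ x' : A2.Mod.FE E N,
      x' * (dC (jLev E N q) n (i - 1))⁻¹ - 1 ∈ (V' (i - 1)).nonunits ∧
      LitePkg (R := A2.RE P E) w
        (chart (A2.RE P E) ({(xLev E N q n)⁻¹} : Set (A2.Mod.FE E N)))
        (jLev E N q) n V' (i - 1) x') :
    ∃ x : A2.Mod.FE E (N * q),
      x * (dC (jLev E (N * q) q) (n + 1) i)⁻¹ - 1 ∈ (V i).nonunits ∧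
      LitePkg (R := A2.RE P E) w
        (chart (A2.RE P E) ({(xLev E (N * q) q (n + 1))⁻¹} : Set (A2.Mod.FE E (N * q))))
        (jLev E (N * q) q) (n + 1) V i x := by
  obtain ⟨x', hc', hL'⟩ := hpkg
  have hie : i ≤ n + 1 := by omega
  have hin : i ≤ n := by omega
  have hcα := hT.comap_α i (by omega) hie
  have hcβ := hT.comap_β i hin
  have hqn1 : q ^ (n + 1) ∣ N * q := pow_succ_dvd576 N q hqn
  -- the chain above
  have hJu : ∀ l ≤ n + 1, UnitAt (V i) (jLev E (N * q) q l) := fun l hl => hK.unit i hie l hl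
  -- ramification
  obtain ⟨t, ht, hwt⟩ := hVal.ram i hie
  have hw0 : algebraMap (A2.RE P E) (A2.Mod.FE E (N * q)) w ≠ 0 := by
    intro h
    apply hwt.1
    rw [h, zero_mul]
  rw [mu_diag576 hq h2 hi] at hwt
  have hμ' : mu q n (i - 1) ≠ 0 := mu_ne_zero576 hq n (i - 1)
  have hvt1 : (V i).valuation t < 1 := val_lt_one_of_unifAt576 (V i) ht
  have hvw : (V i).valuation (algebraMap (A2.RE P E) (A2.Mod.FE E (N * q)) w)
      = ((V i).valuation t ^ q) ^ mu q n (i - 1) := by
    rw [val_of_ram576 (V i) hwt ht.1, pow_mul']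
  -- the uniformiser below and its image
  have hT' : UnifAt (V' (i - 1)) (jLev E N q n - jLev E N q 1) := by
    have := hU'.unif (i - 1) (by omega) (by omega)
    rwa [show n - 2 * (i - 1) = 1 by omega] at this
  have hαT : A2.Mod.αE E N q (jLev E N q n - jLev E N q 1)
      = jLev E (N * q) q n - jLev E (N * q) q 1 := by
    rw [map_sub, alpha_jLev576 E N q hqn le_rfl, alpha_jLev576 E N q hqn (by omega : 1 ≤ n)]
  have hvT : (V i).valuation (jLev E (N * q) q n - jLev E (N * q) q 1)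
      = (V i).valuation t ^ q := by
    rw [← hαT]
    exact val_map_unif_wild576
      (A2.Mod.αE E N q : A2.Mod.FE E N →+* A2.Mod.FE E (N * q)) (V i) (V' (i - 1)) hcα
      (alpha_comm576 P E N q w) hμ' ht hwt (hVal'.ram (i - 1) (by omega)) hT'
  have hab1 : jLev E (N * q) q n - jLev E (N * q) q 1 ∈ (V i).nonunits := by
    rw [← hαT]
    exact (mem_nonunits_comap576
      (A2.Mod.αE E N q : A2.Mod.FE E N →+* A2.Mod.FE E (N * q)) (V i) _).1
      (by rw [hcα]; exact hT'.2.1)
  have hne1 : jLev E (N * q) q n - jLev E (N * q) q 1 ≠ 0 := by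
    rw [← hαT]
    exact (map_ne_zero _).2 hT'.1
  have hvtq0 : (V i).valuation t ^ q ≠ 0 :=
    pow_ne_zero _ (val_ne_zero_of_unifAt576 (V i) ht)
  have hvtq1 : (V i).valuation t ^ q ≤ 1 := pow_le_one₀ zero_le' hvt1.le
  -- `q / w`, `w / (J n - J 1)`, `q / (J n - J 1)`
  have hqw := natCast_div_w_mem576 P E hq hPq hw (V i) (hSheet.base i hie) hw0
  have hwT : algebraMap (A2.RE P E) (A2.Mod.FE E (N * q)) w *
      (jLev E (N * q) q n - jLev E (N * q) q 1)⁻¹ ∈ V i := by
    rw [← (V i).valuation_le_one_iff, map_mul, map_inv₀, hvw, hvT]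
    calc ((V i).valuation t ^ q) ^ mu q n (i - 1) * ((V i).valuation t ^ q)⁻¹
        ≤ ((V i).valuation t ^ q) * ((V i).valuation t ^ q)⁻¹ :=
          mul_le_mul' (pow_le_of_le_one zero_le' hvtq1 hμ') le_rfl
      _ = 1 := mul_inv_cancel₀ hvtq0
  have hq1 : ((q : ℕ) : A2.Mod.FE E (N * q)) *
      (jLev E (N * q) q n - jLev E (N * q) q 1)⁻¹ ∈ V i := by
    have e : ((q : ℕ) : A2.Mod.FE E (N * q)) * (jLev E (N * q) q n - jLev E (N * q) q 1)⁻¹
        = (((q : ℕ) : A2.Mod.FE E (N * q)) *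
            (algebraMap (A2.RE P E) (A2.Mod.FE E (N * q)) w)⁻¹) *
          (algebraMap (A2.RE P E) (A2.Mod.FE E (N * q)) w *
            (jLev E (N * q) q n - jLev E (N * q) q 1)⁻¹) := by
      field_simp
    rw [e]
    exact (V i).mul_mem _ _ hqw hwT
  have hqm : ((q : ℕ) : A2.Mod.FE E (N * q)) ∈ (V i).nonunits := by
    have e : ((q : ℕ) : A2.Mod.FE E (N * q))
        = (jLev E (N * q) q n - jLev E (N * q) q 1) *
          (((q : ℕ) : A2.Mod.FE E (N * q)) *
            (jLev E (N * q) q n - jLev E (N * q) q 1)⁻¹) := by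
      field_simp
    rw [e]
    exact nonunits_mul_mem576' (V i) hab1 hq1
  -- Kronecker residues on the sheet
  have hfrob0 : jLev E (N * q) q 1 - jLev E (N * q) q 0 ^ q ∈ (V i).nonunits := by
    have := hK.frob i hie 0 (by omega)
    simpa using this
  have hvern : jLev E (N * q) q n - jLev E (N * q) q (n + 1) ^ q ∈ (V i).nonunits :=
    hK.ver i hie n (by omega) (by omega)
  -- `J e ≡ J 0`
  have hab : jLev E (N * q) q (n + 1) - jLev E (N * q) q 0 ∈ (V i).nonunits := by
    obtain ⟨r, hr, hrel⟩ := H693.sub_pow_prime_eq_mem693 (V i) hq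
      (hJu (n + 1) le_rfl).2.1 (hJu 0 (by omega)).2.1
    have hpow : (jLev E (N * q) q (n + 1) - jLev E (N * q) q 0) ^ q ∈ (V i).nonunits := by
      have e : (jLev E (N * q) q (n + 1) - jLev E (N * q) q 0) ^ q
          = (jLev E (N * q) q n - jLev E (N * q) q 1)
            + (-(jLev E (N * q) q n - jLev E (N * q) q (n + 1) ^ q))
            + (jLev E (N * q) q 1 - jLev E (N * q) q 0 ^ q)
            + ((q : ℕ) : A2.Mod.FE E (N * q)) *
                (-(jLev E (N * q) q 0 *
                  (jLev E (N * q) q (n + 1) - jLev E (N * q) q 0) * r)) := by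
        linear_combination hrel
      rw [e]
      refine nonunits_add576' (V i) (nonunits_add576' (V i) (nonunits_add576' (V i) hab1 ?_)
        hfrob0) (nonunits_mul_mem576' (V i) hqm ?_)
      · rw [ValuationSubring.mem_nonunits_iff, Valuation.map_neg]
        exact (V i).mem_nonunits_iff.1 hvern
      · exact (V i).neg_mem _ ((V i).mul_mem _ _ ((V i).mul_mem _ _ (hJu 0 (by omega)).2.1
          ((V i).sub_mem (hJu (n + 1) le_rfl).2.1 (hJu 0 (by omega)).2.1)) hr)
    rw [ValuationSubring.mem_nonunits_iff] at hpow ⊢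
    by_contra hcon
    rw [not_lt] at hcon
    rw [map_pow] at hpow
    exact absurd hpow (not_lt.2 (one_le_pow₀ hcon))
  -- the witness: `J e - (J (e-1))^q` is a unit
  have hunit : jLev E (N * q) q (n + 1) - jLev E (N * q) q n ^ q ∉ (V i).nonunits := by
    have hy : jLev E N q (n - 1) ∈ V' i := (hK'.unit i hin (n - 1) (by omega)).2.1
    have h := hW'.wit_hi i hin (by omega) (jLev E N q (n - 1)) hy
    intro hcon
    apply h
    rw [← hcβ, mem_nonunits_comap576]
    have e : (A2.Mod.βE E N q : A2.Mod.FE E N →+* A2.Mod.FE E (N * q))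
        (jLev E N q (n - 1) ^ q - jLev E N q n)
        = -(jLev E (N * q) q (n + 1) - jLev E (N * q) q n ^ q) := by
      show A2.Mod.βE E N q (jLev E N q (n - 1) ^ q - jLev E N q n) = _
      rw [map_sub, map_pow, beta_jLev576 E N q hqn (by omega : n - 1 ≤ n),
        beta_jLev576 E N q hqn le_rfl, show n - 1 + 1 = n by omega]
      ring
    rw [e, ValuationSubring.mem_nonunits_iff, Valuation.map_neg]
    exact (V i).mem_nonunits_iff.1 hcon
  -- the chain congruence of the `j`-differences (Kronecker)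
  haveI : Fact q.Prime := ⟨hq⟩
  obtain ⟨D⟩ := S28.H807.nonempty_modPolyData q hq
  obtain ⟨Θ, hΘ⟩ := S28.h88_kronecker_int q D
  have hΦa : D.Φ.eval₂ (Polynomial.eval₂RingHom (Int.castRingHom (A2.Mod.FE E (N * q)))
      (jLev E (N * q) q n)) (jLev E (N * q) q (n + 1)) = 0 :=
    (S36.Mod3.H276.eval2_eq_aeval D.Φ (jLev E (N * q) q n) (jLev E (N * q) q (n + 1))).trans
      (H715.modEq_down E (N * q) q D (k := n) hqn1)
  have hΦb : D.Φ.eval₂ (Polynomial.eval₂RingHom (Int.castRingHom (A2.Mod.FE E (N * q)))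
      (jLev E (N * q) q 1)) (jLev E (N * q) q 0) = 0 :=
    (S36.Mod3.H276.eval2_eq_aeval D.Φ (jLev E (N * q) q 1) (jLev E (N * q) q 0)).trans
      (H715.modEq_up E (N * q) q D (k := 0) ((pow_dvd_pow q (by omega : 0 + 1 ≤ n + 1)).trans hqn1))
  have hchainJ := H693.chain_cong_kron693 (V i) hq hΘ (hJu (n + 1) le_rfl).2.1
    (hJu n (by omega)).2.1 (hJu 0 (by omega)).2.1 (hJu 1 (by omega)).2.1 hΦa hΦb hab hab1
    hunit hq1
  -- the four 1-units
  have hc1 : (jLev E (N * q) q (n + 1) - jLev E (N * q) q 0) ^ q *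
      (jLev E (N * q) q n - jLev E (N * q) q 1)⁻¹ - 1 ∈ (V i).nonunits := by
    have e : (jLev E (N * q) q (n + 1) - jLev E (N * q) q 0) ^ q *
        (jLev E (N * q) q n - jLev E (N * q) q 1)⁻¹ - 1
        = ((jLev E (N * q) q (n + 1) - jLev E (N * q) q 0) ^ q
            - (jLev E (N * q) q n - jLev E (N * q) q 1)) *
          (jLev E (N * q) q n - jLev E (N * q) q 1)⁻¹ := by
      field_simp
    rw [e]
    exact hchainJ
  have hc2 : jLev E (N * q) q n * (jLev E (N * q) q (n + 1) ^ q)⁻¹ - 1 ∈ (V i).nonunits :=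
    div_sub_one_mem576 (V i) (pow_ne_zero q (hJu (n + 1) le_rfl).1) hvern
      (by rw [← inv_pow]; exact (V i).pow_mem (hJu (n + 1) le_rfl).2.2 q)
  have hu0 := chain_fwd_congr576 (V i) q (jLev E (N * q) q) 0 i
    (fun l _ hl => (hJu l (by omega)).1)
    (fun l _ hl => div_sub_one_mem576 (V i) (pow_ne_zero q (hJu l (by omega)).1)
      (hK.frob i hie l (by omega))
      (by rw [← inv_pow]; exact (V i).pow_mem (hJu l (by omega)).2.2 q))
  rw [Nat.zero_add] at hu0
  have hdC' : dC (jLev E N q) n (i - 1) = 1 - jLev E N q 1 * (jLev E N q n)⁻¹ := by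
    unfold dC
    rw [if_pos (by omega : 2 * (i - 1) ≤ n), show n - 2 * (i - 1) = 1 by omega]
  have hs : A2.Mod.αE E N q x' *
      (1 - jLev E (N * q) q 1 * (jLev E (N * q) q n)⁻¹)⁻¹ - 1 ∈ (V i).nonunits := by
    have := (mem_nonunits_comap576
      (A2.Mod.αE E N q : A2.Mod.FE E N →+* A2.Mod.FE E (N * q)) (V i) _).1
      (by rw [hcα]; exact hc')
    rw [hdC'] at this
    have e : (A2.Mod.αE E N q : A2.Mod.FE E N →+* A2.Mod.FE E (N * q))
        (x' * (1 - jLev E N q 1 * (jLev E N q n)⁻¹)⁻¹ - 1)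
        = A2.Mod.αE E N q x' *
          (1 - jLev E (N * q) q 1 * (jLev E (N * q) q n)⁻¹)⁻¹ - 1 := by
      show A2.Mod.αE E N q (x' * (1 - jLev E N q 1 * (jLev E N q n)⁻¹)⁻¹ - 1) = _
      rw [map_sub, map_mul, map_inv₀, map_sub, map_mul, map_inv₀, map_one,
        alpha_jLev576 E N q hqn (by omega : 1 ≤ n), alpha_jLev576 E N q hqn le_rfl]
    rw [e] at this
    exact this
  -- the new element
  have hx'0 : A2.Mod.αE E N q x' ≠ 0 := (map_ne_zero _).2 hL'.2.1.1
  have hXdef : tc q (jLev E (N * q) q) 0 i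
      = (jLev E (N * q) q (n + 1) - jLev E (N * q) q 0) * jLev E (N * q) q i *
        ((jLev E (N * q) q 0) ^ (q ^ i) * jLev E (N * q) q (n + 1))⁻¹ := by
    unfold tc
    rw [Nat.zero_add, Nat.zero_add, h2]
  have hchain : ((tc q (jLev E (N * q) q) 0 i) ^ q - A2.Mod.αE E N q x') *
      (A2.Mod.αE E N q x')⁻¹ ∈ (V i).nonunits := by
    have e : ((tc q (jLev E (N * q) q) 0 i) ^ q - A2.Mod.αE E N q x') *
        (A2.Mod.αE E N q x')⁻¹
        = (tc q (jLev E (N * q) q) 0 i) ^ q * (A2.Mod.αE E N q x')⁻¹ - 1 := by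
      field_simp
    rw [e, hXdef, wild_key576 q (q ^ i) (hJu (n + 1) le_rfl).1 (hJu n (by omega)).1
      (hJu 0 (by omega)).1 hne1 hx'0]
    exact mul_sub_one_mem576 (V i)
      (mul_sub_one_mem576 (V i) (mul_sub_one_mem576 (V i) hc1 hc2)
        (pow_sub_one_mem576' (V i) hu0 q))
      (inv_sub_one_mem576 (V i) hs)
  have hXu : UnifAt (V i) (tc q (jLev E (N * q) q) 0 i) :=
    unifAt_wild576 (A2.Mod.αE E N q : A2.Mod.FE E N →+* A2.Mod.FE E (N * q)) (V i)
      (V' (i - 1)) hcα (alpha_comm576 P E N q w) hμ' hq.ne_zero ⟨t, ht, hwt⟩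
      (hVal'.ram (i - 1) (by omega)) hL'.2.1 hchain
  have hXB : tc q (jLev E (N * q) q) 0 i ∈
      chart (A2.RE P E) ({(xLev E (N * q) q (n + 1))⁻¹} : Set (A2.Mod.FE E (N * q))) :=
    tcLev_mem_chart576 P E (N * q) q hq hqn1 (by omega)
  refine ⟨tc q (jLev E (N * q) q) 0 i, ?_, ?_⟩
  · -- `x / dC = J i / (J 0)^(q^i) ≡ 1`
    have hX0 := hXu.1
    rw [hXdef] at hX0
    have hAB : jLev E (N * q) q (n + 1) - jLev E (N * q) q 0 ≠ 0 := by
      intro h
      apply hX0
      rw [h, zero_mul, zero_mul]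
    have hdC : dC (jLev E (N * q) q) (n + 1) i
        = 1 - jLev E (N * q) q 0 * (jLev E (N * q) q (n + 1))⁻¹ := by
      unfold dC
      rw [if_pos (by omega : 2 * i ≤ n + 1), show n + 1 - 2 * i = 0 by omega]
    have e : tc q (jLev E (N * q) q) 0 i * (dC (jLev E (N * q) q) (n + 1) i)⁻¹ - 1
        = jLev E (N * q) q i * ((jLev E (N * q) q 0) ^ (q ^ i))⁻¹ - 1 := by
      rw [hdC, hXdef]
      have h0 := (hJu 0 (by omega)).1
      have hA := (hJu (n + 1) le_rfl).1
      have h0p : (jLev E (N * q) q 0) ^ (q ^ i) ≠ 0 := pow_ne_zero _ h0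
      have hd : 1 - jLev E (N * q) q 0 * (jLev E (N * q) q (n + 1))⁻¹
          = (jLev E (N * q) q (n + 1) - jLev E (N * q) q 0) *
            (jLev E (N * q) q (n + 1))⁻¹ := by
        field_simp
      rw [hd]
      field_simp
    rw [e]
    exact hu0
  · exact litePkg_wild576 w (A2.Mod.αE E N q : A2.Mod.FE E N →+* A2.Mod.FE E (N * q))
      (alpha_comm576 P E N q) _ _ (charti_alpha576 P E N q hq hqn) (jLev E N q)
      (jLev E (N * q) q) n (n + 1)
      (fun l hl => ⟨l, by omega, alpha_jLev576 E N q hqn hl⟩) V' V i (i - 1) hcα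
      (S36.Mod3.H189.chart_le_valuationSubring (V i) (hSheet.base i hie)
        (hVal.x_unit i hie).2.2)
      hw0 hL' q hq.pos hXB hXu hchain

end Step

end Fermat.Agent.S45.H576

end
end
-- ===== PACK-END S45/H576/StepI.lean

-- ===== PACK-BEGIN S45/H576/LeafStepI.lean
section


/-!
# S45 / CAR3 / MOD-E/Reg — **`leafStepI576 : Reg.LeafStepI`** (helper576, 2nd owner)

The part at infinity `Reg.InvI` of the REG invariant (`S45/Reg/Spec.lean`, helper878) moves up one
level: precision of the chain `J` and the lite packages of all non-reduced sheets at the cusps.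
UNCONDITIONAL (no hypothesis beyond the binder of `Reg.LeafStep`, Spec v1.3).  Cases:
`prec_step576`, `pkg_beta576` (`2 i < e`), `pkg_diag576` (`2 i = e`, WILD), `pkg_alpha576`
(`2 i > e`).  Also **`leafDiag2I576 : Reg.LeafDiag2I`** (C7 at infinity), UNCONDITIONAL.
-/

set_option autoImplicit false
set_option linter.style.haveILetI false
set_option linter.unusedSectionVars false
set_option synthInstance.maxHeartbeats 400000
set_option maxHeartbeats 1600000

namespace Fermat.Agent.S45.H576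

open Fermat.Agent

/-- **REG-STEP-I.** -/
theorem leafStepI576 : S45.Reg.LeafStepI := by
  intro P E N q _ _ _ n w hS hn V' V W' W hL hO hUp hStep hI
  have hI' : S45.Reg.InvI P E N q n w V' := hI
  have hq := hS.q_prime
  have hqn : q ^ n ∣ N := by
    have := Nat.ordProj_dvd N q
    rwa [hS.exp] at this
  refine ⟨prec_step576 P E N q hqn hn hStep.table hUp.kron hI'.prec, fun i hi1 hi2 => ?_⟩
  rcases lt_trichotomy (2 * i) (n + 1) with h | h | h
  · exact pkg_beta576 P E N q hq hqn hStep.table hUp.val hL.val h (hI'.pkg i hi1 (by omega))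
  · exact pkg_diag576 P E N q hq hS.lies_over hS.unif hqn hStep.table hUp.val hL.val hUp.sheet
      hUp.kron hL.kron hL.unif hL.wit (by omega) h (hI'.pkg (i - 1) (by omega) (by omega))
  · exact pkg_alpha576 P E N q hq hqn hStep.table hUp.val hL.val h (by omega)
      (hI'.pkg (i - 1) (by omega) (by omega))

/-- **DIAG-2 at infinity (C7').**  `q = 2`, step `3 → 4`, sheet `V 2`: the chain congruence of
the `j`-chain, by Kronecker (`Prec` and `InvI` are not used). -/
theorem leafDiag2I576 : S45.Reg.LeafDiag2I := by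
  intro P E N _ _ w hS V' V W' W hL hO hUp hStep _ _
  have hqn : 2 ^ 3 ∣ N := by
    have := Nat.ordProj_dvd N 2
    rwa [hS.exp] at this
  exact chain_diag576 P E N 2 hS.q_prime hS.lies_over hS.unif hqn hStep.table hUp.val hL.val
    hUp.sheet hUp.kron hL.kron hL.unif hL.wit (i := 2) le_rfl rfl

end Fermat.Agent.S45.H576

end
-- ===== PACK-END S45/H576/LeafStepI.lean

-- ===== PACK-BEGIN S45/Reg/H156/BaseUnit9.lean
section




/-!
# S45 / CAR3 / MOD-E / REG, leaf C3 (helper156, independent 3rd seat): BASE, finite chart, `t₉`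

REG leaf list v1.1 of helper878 (`origin/helper878:coord/S45-REG.md`), leaf C3 = the `t₉`-half of
`Reg.LeafBaseF`: the UNIT PACKAGE of the middle sheet at the level `M q q` (exponent `2`) when
`9 ∣ M` (under `Neat` this is the case `q = 2`; the proof works for every `q` with `9 ∣ M`), with
the NAMED element of the chain of `t₉`

    x = τ 2 - τ 0 = γ₉ t₉ - t₉        (`γ₉ = β ∘ β`, `t ↦ t ^ (q ^ 2)`),

`N = 12 (q - 1)`, `k = 12`, `U = U_m` (helper356), `g = (Q(t₉)⁵ / t₉³) ^ (2 (q - 1))` (a unit of the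
finite chart).  These are exactly the inputs which `S36.H890.principalAt_t9` (on main) feeds to
`S36.H878.principalAt_of_unit_self'`; here the proof stops BEFORE that last step and returns the
package in the bytes of `S45/Reg/Spec.lean` (helper878, v1.3, sha256 `1c69ece8…`).

* `unitData_mid_t9_156` : `x, g, g'` and the transferred residue identity from (R-RES) for `j`;
* `baseUnitPkg9_156`    : the package, UNCONDITIONAL, unbundled (suppliers on main:
                          `Mod3.H356.leafRegU_of`, `Mod3.H775.Res.hresJ`, `Mod3.H370` hub);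
* `xLev_two_eq_x3E156`  : `ModE.xLev E (M q q) q 2 = Mod3.x3E E M q`;
* `tau9_156`, `isChain_tau9_156`, `tau9_mem_chart156` : the chain of `t₉` up to `2`, in the chart;
* `unitPkg_base9_156`   : `Reg.UnitPkg w (chart R {xLev}) 2 V 1 (Reg.xT τ 2 1)`, family form;
* `invF_base9_156`      : `Reg.IsChain … ∧ Reg.InvF …` at the base level from the precision `Prec`
                          of the chain (leaf C5, helper138 / helper356), any `q` with `9 ∣ M`;
* `invF_of_isChain_two156`, `leafBaseF_two_of_prec156` : the `q = 2` half of `Reg.LeafBaseF` in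
                          the bytes of Reg/Spec v1.2+ (PINNED chain `hauptF E 2 = t₉`), for ANY
                          chain of `hauptF`, from `Prec` (C5).
-/

set_option autoImplicit false
set_option linter.style.haveILetI false
set_option linter.unusedSectionVars false
set_option linter.unusedVariables false
set_option synthInstance.maxHeartbeats 400000
set_option maxHeartbeats 1600000

noncomputable section

namespace Fermat.Agent.S45.Reg.H156

open ModularCurve
open Fermat.Agent Fermat.Agent.A2.Mod Fermat.Agent.S36 Fermat.Agent.S36.Eng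
open Fermat.Agent.S18.H138 (chart)
open Fermat.Agent.S36.H816
open Fermat.Agent.S45.ModE (xLev jLev)

section Main

variable {P : ValuationSubring A2.Qb} {E : IntermediateField ℚ A2.Qb} {M q : ℕ}
  [NeZero M] [NeZero q] [NeZero (M * q)] {w : A2.RE P E}
  {V₁' V₂' : ValuationSubring (FE E (M * q))}
  {V₁ V₂ V₃ : ValuationSubring (FE E (M * q * q))}
  {W' : FE E (M * q) ≃ₐ[E] FE E (M * q)}
  {W : FE E (M * q * q) ≃ₐ[E] FE E (M * q * q)}

/-- `9 ∣ M ⟹ 9 ∣ M q q`. -/
theorem nine_dvd156 {M : ℕ} (q : ℕ) (h9 : 9 ∣ M) : 9 ∣ M * q * q :=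
  (h9.trans (dvd_mul_right M q)).trans (dvd_mul_right _ q)

/-- **The unit data of the middle sheet, `t₉`-form**: the named element `x = γ₉ t₉ - t₉` and the
unit `g = (Q(t₉)⁵ / t₉³) ^ kk` of the finite chart, with the transferred residue identity. -/
theorem unitData_mid_t9_156 (hStd : Mod3.Std P E M q w)
    (hO : Mod3.Objs P E M q V₁' V₂' V₁ V₂ V₃ W' W) (h9 : 9 ∣ M)
    (hB₂ : ∀ b : _root_.Fermat.Agent.S18.H138.chart (A2.RE P E) ({Mod3.x3E E M q} : Set (FE E (M * q * q))),
      (b : FE E (M * q * q)) ∈ V₂)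
    (U : FE E (M * q * q)) (kk : ℕ)
    (hres : ((Mod3.jqq E M q - Mod3.j1 E M q) ^ (6 * kk)
        - (Mod3.j1 E M q ^ 4 * (Mod3.j1 E M q - 1728) ^ 3) ^ kk * U) * U⁻¹ ∈ V₂.nonunits) :
    ∃ x g g' : _root_.Fermat.Agent.S18.H138.chart (A2.RE P E) ({Mod3.x3E E M q} : Set (FE E (M * q * q))),
      (x : FE E (M * q * q)) = Fermat.Agent.S36.H890.gamma9 E M q (Fermat.Agent.S36.H890.t9E E M h9)
          - Fermat.Agent.S36.H890.t9E E (M * q * q) (nine_dvd156 q h9) ∧
      g * g' = 1 ∧
      ((x : FE E (M * q * q)) ^ (6 * kk) - (g : FE E (M * q * q)) * U) * U⁻¹ ∈ V₂.nonunits := by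
  have hS : Setting P E M q w := Mod3.H816.setting_of_std hStd
  haveI := hS.dvr
  have hmid : IsMid V₁' V₂ := Fermat.Agent.S36.H890.isMid_of_objs hStd hO
  have h3 : 3 ∣ M := Dvd.dvd.trans (by norm_num) h9
  have h9' : 9 ∣ M * q := h9.trans (dvd_mul_right M q)
  have h9'' : 9 ∣ M * q * q := nine_dvd156 q h9
  haveI : NeZero (1 * q * q) := ⟨mul_ne_zero (mul_ne_zero one_ne_zero (NeZero.ne q)) (NeZero.ne q)⟩
  haveI : NeZero (q * q) := ⟨mul_ne_zero (NeZero.ne q) (NeZero.ne q)⟩
  obtain ⟨-, hx⟩ := Fermat.Agent.S36.H890.gamma9_t9E_congr hStd hO h9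
  have hj₁B := Mod3.H189.j1_mem_chart P E M q hStd.q_prime
  have hj₂B := Mod3.H189.jqq_mem_chart' P E M q hStd.q_prime
  have h3B := Fermat.Agent.S36.H890.three_inv_mem_chart hStd h3
    ({Mod3.x3E E M q} : Set (FE E (M * q * q)))
  have hJ₁ : Mod3.j1 E M q
        * (Fermat.Agent.S36.H890.t9E E (M * q * q) h9'' ^ 9
          * (Fermat.Agent.S36.H890.t9E E (M * q * q) h9'' ^ 2
            + 9 * Fermat.Agent.S36.H890.t9E E (M * q * q) h9'' + 27))
      = (Fermat.Agent.S36.H890.t9E E (M * q * q) h9'' + 9) ^ 3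
        * (Fermat.Agent.S36.H890.t9E E (M * q * q) h9'' ^ 3
          + 243 * (Fermat.Agent.S36.H890.t9E E (M * q * q) h9'' ^ 2
            + 9 * Fermat.Agent.S36.H890.t9E E (M * q * q) h9'' + 27)) ^ 3 :=
    Fermat.Agent.S36.H890.jE_mul_t9E E (M * q * q) h9''
  have hJ₂ : Mod3.jqq E M q
        * (Fermat.Agent.S36.H890.gamma9 E M q (Fermat.Agent.S36.H890.t9E E M h9) ^ 9
          * (Fermat.Agent.S36.H890.gamma9 E M q (Fermat.Agent.S36.H890.t9E E M h9) ^ 2
            + 9 * Fermat.Agent.S36.H890.gamma9 E M q (Fermat.Agent.S36.H890.t9E E M h9) + 27))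
      = (Fermat.Agent.S36.H890.gamma9 E M q (Fermat.Agent.S36.H890.t9E E M h9) + 9) ^ 3
        * (Fermat.Agent.S36.H890.gamma9 E M q (Fermat.Agent.S36.H890.t9E E M h9) ^ 3
          + 243 * (Fermat.Agent.S36.H890.gamma9 E M q (Fermat.Agent.S36.H890.t9E E M h9) ^ 2
            + 9 * Fermat.Agent.S36.H890.gamma9 E M q (Fermat.Agent.S36.H890.t9E E M h9)
            + 27)) ^ 3 := by
    have h := Fermat.Agent.S36.H890.map_rel9
      (Fermat.Agent.S36.H890.gamma9 E M q : FE E M →+* FE E (M * q * q))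
      (Fermat.Agent.S36.H890.jE_mul_t9E E M h9)
    rw [RingHom.coe_coe, Fermat.Agent.S36.H890.gamma9_jE,
      jE_congr (M * q * q) (show 1 * q * q = q * q by rw [one_mul]) _
        (Dvd.intro_left M (mul_assoc M q q).symm)] at h
    exact h
  have hh₁ : UnitAt V₂ (Fermat.Agent.S36.H890.t9E E (M * q * q) h9'') := by
    have h := Fermat.Agent.S36.H890.alpha_unitAt hmid
      (Fermat.Agent.S36.H890.t9E_unit P E (M * q) hO.vinf' h9')
    rwa [Fermat.Agent.S36.H890.αE_t9E] at h
  have hQ₁ : UnitAt V₂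
      (Fermat.Agent.S36.H890.t9E E (M * q * q) h9'' ^ 2
        + 9 * Fermat.Agent.S36.H890.t9E E (M * q * q) h9'' + 27) := by
    have h := Fermat.Agent.S36.H890.alpha_unitAt hmid
      (Fermat.Agent.S36.H890.t9E_quad_unit P E (M * q) hO.vinf' h9')
    rwa [map_add, map_add, map_mul, map_pow, map_ofNat, map_ofNat,
      Fermat.Agent.S36.H890.αE_t9E] at h
  have hj₁ : UnitAt V₂ (Mod3.j1 E M q) := by
    have h := Fermat.Agent.S36.H890.alpha_unitAt hmid
      (Fermat.Agent.S36.H890.jE_one_unit P E (M * q) hO.vinf')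
    rwa [H553.αE_jE] at h
  have hj₁' : UnitAt V₂ (Mod3.j1 E M q - 1728) := by
    have h := Fermat.Agent.S36.H890.alpha_unitAt hmid
      (Fermat.Agent.S36.H890.jE_sub_1728_unit P E (M * q) hO.vinf')
    rwa [map_sub, map_ofNat, H553.αE_jE] at h
  -- chart membership of the two `t₉`s
  have hh₁B : Fermat.Agent.S36.H890.t9E E (M * q * q) h9''
      ∈ _root_.Fermat.Agent.S18.H138.chart (A2.RE P E) ({Mod3.x3E E M q} : Set (FE E (M * q * q))) :=
    Fermat.Agent.S36.H890.mem_chart_of_rel9 _ hj₁B hJ₁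
  have hh₂B : Fermat.Agent.S36.H890.gamma9 E M q (Fermat.Agent.S36.H890.t9E E M h9)
      ∈ _root_.Fermat.Agent.S18.H138.chart (A2.RE P E) ({Mod3.x3E E M q} : Set (FE E (M * q * q))) :=
    Fermat.Agent.S36.H890.mem_chart_of_rel9 _ hj₂B hJ₂
  -- the unit `g₉ ^ kk` of the chart
  obtain ⟨g, g', hgF, hgg'⟩ := Fermat.Agent.S36.H890.exists_g9_unit_chart
    ({Mod3.x3E E M q} : Set (FE E (M * q * q))) hj₁B h3B hJ₁ kk
  -- transfer of the residue
  have hres' := Fermat.Agent.S36.H934.hres_transfer9_shape V₂ (Mod3.j1 E M q) (Mod3.jqq E M q)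
    (Fermat.Agent.S36.H890.t9E E (M * q * q) h9'')
    (Fermat.Agent.S36.H890.gamma9 E M q (Fermat.Agent.S36.H890.t9E E M h9)) U kk hJ₁ hJ₂
    (H878.valuation_eq_one_of_unitAt V₂ hh₁) (H878.valuation_eq_one_of_unitAt V₂ hQ₁)
    (H878.valuation_eq_one_of_unitAt V₂ hj₁) (H878.valuation_eq_one_of_unitAt V₂ hj₁')
    (hB₂ ⟨_, hh₂B⟩) hx hres
  have ex : (((⟨_, hh₂B⟩ : _root_.Fermat.Agent.S18.H138.chart (A2.RE P E) ({Mod3.x3E E M q} : Set (FE E (M * q * q))))
      - ⟨_, hh₁B⟩ : _root_.Fermat.Agent.S18.H138.chart (A2.RE P E) ({Mod3.x3E E M q} : Set (FE E (M * q * q)))) :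
        FE E (M * q * q))
      = Fermat.Agent.S36.H890.gamma9 E M q (Fermat.Agent.S36.H890.t9E E M h9)
          - Fermat.Agent.S36.H890.t9E E (M * q * q) h9'' :=
    Subalgebra.coe_sub _ _
  refine ⟨(⟨_, hh₂B⟩ : _root_.Fermat.Agent.S18.H138.chart (A2.RE P E) ({Mod3.x3E E M q} : Set (FE E (M * q * q))))
      - ⟨_, hh₁B⟩, g, g', ex, hgg', ?_⟩
  rw [ex, hgF]
  exact hres'

/-- The finite chart of the level `M q q` lies in `V₂` (from the SHEET and VAL leaves on main). -/
theorem chart_le_mid156 (hStd : Mod3.Std P E M q w)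
    (hO : Mod3.Objs P E M q V₁' V₂' V₁ V₂ V₃ W' W) :
    ∀ b : _root_.Fermat.Agent.S18.H138.chart (A2.RE P E) ({Mod3.x3E E M q} : Set (FE E (M * q * q))),
      (b : FE E (M * q * q)) ∈ V₂ := by
  have hS := Mod3.H985.leafSheet P E M q w hStd V₁' V₂' V₁ V₂ V₃ W' W hO
  have hV := Mod3.H370.leafVal P E M q w hStd V₁' V₂' V₁ V₂ V₃ W' W hO
  exact fun b =>
    Mod3.H839.mem_valuationSubring_of_mem_chart839 V₂ hS.base₂
      (fun s hs => by rw [Set.mem_singleton_iff.1 hs]; exact hV.x_unit₂.2.1) b.2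

/-- **C3: the unit package of the middle sheet at the level `M q q`, `9 ∣ M`, UNCONDITIONAL**,
unbundled: `x = γ₉ t₉ - t₉`, `N = 12 (q - 1)`, `k = 12`. -/
theorem baseUnitPkg9_156 (hStd : Mod3.Std P E M q w)
    (hO : Mod3.Objs P E M q V₁' V₂' V₁ V₂ V₃ W' W) (h9 : 9 ∣ M) :
    ∃ x U d g g' : _root_.Fermat.Agent.S18.H138.chart (A2.RE P E) ({Mod3.x3E E M q} : Set (FE E (M * q * q))),
      (x : FE E (M * q * q)) = Fermat.Agent.S36.H890.gamma9 E M q (Fermat.Agent.S36.H890.t9E E M h9)
          - Fermat.Agent.S36.H890.t9E E (M * q * q) (nine_dvd156 q h9) ∧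
      0 < 12 * (q - 1) ∧
      U * d = algebraMap (A2.RE P E) _ w ^ 12 ∧ g * g' = 1 ∧
      (U : FE E (M * q * q))⁻¹ ∈ V₁ ∧ (U : FE E (M * q * q))⁻¹ ∈ V₃ ∧
      (∀ t : FE E (M * q * q), UnifAt V₂ t →
        UnitAt V₂ ((U : FE E (M * q * q)) * (t ^ (12 * (q - 1)))⁻¹)) ∧
      ((x : FE E (M * q * q)) ^ (12 * (q - 1)) - (g : FE E (M * q * q)) * (U : FE E (M * q * q)))
        * (U : FE E (M * q * q))⁻¹ ∈ V₂.nonunits := by
  have hVT : Mod3.LeafVT := Mod3.H370.leafVT
  have hTab : Mod3.LeafTable := Mod3.H370.leafTable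
  have hVal : Mod3.LeafVal := Mod3.H370.leafVal
  have hQep : Mod3.LeafQep := Mod3.H27.leafQep_of_vt hVT
  have hCh : Mod3.LeafChart := Mod3.H189.leafChart_of hVT hTab hVal
  have hRU := Mod3.H356.leafRegU_of hTab hQep hCh hVal P E M q w hStd V₁' V₂' V₁ V₂ V₃ W' W hO
  obtain ⟨U, d, hUeq, hUd⟩ := hRU.exists_pair
  have hq1 : 0 < 12 * (q - 1) := by
    have := hStd.q_prime.two_le
    omega
  have e6 : 6 * (2 * (q - 1)) = 12 * (q - 1) := by ring
  haveI : NeZero (q * q) := ⟨mul_ne_zero (NeZero.ne q) (NeZero.ne q)⟩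
  have hqM : q ∣ M * q := dvd_mul_left q M
  have ejqq : βE E (M * q) q (jE E (M * q) q hqM) = Mod3.jqq E M q := by
    rw [H553.βE_jE E (M * q) q q hqM]
    rfl
  have ej1 : αE E (M * q) q (jE E (M * q) 1 (one_dvd _)) = Mod3.j1 E M q := by
    rw [H553.αE_jE E (M * q) q 1 (one_dvd _)]
    rfl
  have hres : ((βE E (M * q) q (jE E (M * q) q hqM)
          - αE E (M * q) q (jE E (M * q) 1 (one_dvd _))) ^ (12 * (q - 1))
        - αE E (M * q) q ((jE E (M * q) 1 (one_dvd _) ^ 4
            * (jE E (M * q) 1 (one_dvd _) - 1728) ^ 3) ^ (2 * (q - 1))) * Mod3.H356.Um E M q)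
          * (Mod3.H356.Um E M q)⁻¹ ∈ V₂.nonunits := Mod3.H775.Res.hresJ hStd hO
  rw [ejqq, map_pow, map_mul, map_pow, map_pow, map_sub, map_ofNat, ej1, ← e6] at hres
  obtain ⟨x, g, g', hx, hgg', hres9⟩ :=
    unitData_mid_t9_156 hStd hO h9 (chart_le_mid156 hStd hO) (Mod3.H356.Um E M q)
      (2 * (q - 1)) hres
  rw [e6] at hres9
  refine ⟨x, U, d, g, g', hx, hq1, hUd, hgg', ?_, ?_, ?_, ?_⟩
  · rw [hUeq]; exact hRU.unit₁
  · rw [hUeq]; exact hRU.unit₃
  · intro t ht
    rw [hUeq]; exact hRU.val₂' t ht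
  · rw [hUeq]; exact hres9

end Main

/-! ## The coordinate of the base level -/

section Coord

variable (E : IntermediateField ℚ A2.Qb) (M q : ℕ) [NeZero M] [NeZero q] [NeZero (M * q)]
  [NeZero (M * q * q)]

theorem jLev_eq156 (N : ℕ) [NeZero N] (l : ℕ) (h : q ^ l ∣ N) :
    jLev E N q l = jE E N (q ^ l) h := dif_pos h

theorem xLev_two_eq_x3E156 : xLev E (M * q * q) q 2 = Mod3.x3E E M q := by
  have h0 : q ^ 0 ∣ M * q * q := by rw [pow_zero]; exact one_dvd _
  have h1 : q ^ 1 ∣ M * q * q := by rw [pow_one]; exact Dvd.intro_left (M * q) rfl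
  have h2 : q ^ 2 ∣ M * q * q := ⟨M, by ring⟩
  haveI : NeZero (q * q) := ⟨mul_ne_zero (NeZero.ne q) (NeZero.ne q)⟩
  unfold xLev
  rw [Finset.prod_range_succ, Finset.prod_range_succ, Finset.prod_range_succ,
    Finset.prod_range_zero, one_mul, jLev_eq156 E q _ 0 h0, jLev_eq156 E q _ 1 h1,
    jLev_eq156 E q _ 2 h2]
  unfold Mod3.x3E Mod3.j1 Mod3.jq Mod3.jqq
  rw [H372.jE_congr (E := E) (pow_zero q) h0 (one_dvd _),
    H372.jE_congr (E := E) (pow_one q) h1 (Dvd.intro_left (M * q) rfl),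
    H372.jE_congr (E := E) (sq q) h2 ⟨M, by ring⟩]

end Coord

/-! ## The chain of `t₉` -/

section Chain

variable (E : IntermediateField ℚ A2.Qb) (M q : ℕ) [NeZero M] [NeZero q] [NeZero (M * q)]
  [NeZero (M * q * q)]

/-- The chain of `t₉` up to `2` at the level `M q q`: `τ l = t₉ (t ^ (q ^ l))`. -/
def tau9_156 (h9 : 9 ∣ M) : ℕ → FE E (M * q * q)
  | 0 => Fermat.Agent.S36.H890.t9E E (M * q * q) (nine_dvd156 q h9)
  | 1 => βE E (M * q) q (Fermat.Agent.S36.H890.t9E E (M * q) (h9.trans (dvd_mul_right M q)))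
  | _ => Fermat.Agent.S36.H890.gamma9 E M q (Fermat.Agent.S36.H890.t9E E M h9)

theorem tau9_zero156 (h9 : 9 ∣ M) :
    tau9_156 E M q h9 0 = Fermat.Agent.S36.H890.t9E E (M * q * q) (nine_dvd156 q h9) := rfl

theorem tau9_one156 (h9 : 9 ∣ M) :
    tau9_156 E M q h9 1
      = βE E (M * q) q (Fermat.Agent.S36.H890.t9E E (M * q) (h9.trans (dvd_mul_right M q))) :=
  rfl

theorem tau9_two156 (h9 : 9 ∣ M) :
    tau9_156 E M q h9 2
      = Fermat.Agent.S36.H890.gamma9 E M q (Fermat.Agent.S36.H890.t9E E M h9) := rfl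

/-- `τ` is the chain of the Laurent series `t₉`. -/
theorem isChain_tau9_156 (h9 : 9 ∣ M) :
    IsChain E (M * q * q) q (Fermat.Agent.S36.H890.t9 E) 2 (tau9_156 E M q h9) := by
  intro l hl
  interval_cases l
  · rfl
  · rfl
  · rfl

/-- The named element of the middle sheet: `xT τ 2 1 = γ₉ t₉ - t₉`. -/
theorem xT_tau9_156 (h9 : 9 ∣ M) :
    xT (tau9_156 E M q h9) 2 1
      = Fermat.Agent.S36.H890.gamma9 E M q (Fermat.Agent.S36.H890.t9E E M h9)
          - Fermat.Agent.S36.H890.t9E E (M * q * q) (nine_dvd156 q h9) := by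
  unfold xT
  rw [if_pos (by norm_num)]
  rfl

variable (P : ValuationSubring A2.Qb)

/-- The chain lies in the finite chart. -/
theorem tau9_mem_chart156 (hq : q.Prime) (h9 : 9 ∣ M) (l : ℕ) (hl : l ≤ 2) :
    tau9_156 E M q h9 l
      ∈ _root_.Fermat.Agent.S18.H138.chart (A2.RE P E) ({xLev E (M * q * q) q 2} : Set (FE E (M * q * q))) := by
  rw [xLev_two_eq_x3E156]
  have h9' : 9 ∣ M * q := h9.trans (dvd_mul_right M q)
  have h9'' : 9 ∣ M * q * q := nine_dvd156 q h9
  haveI : NeZero (1 * q * q) := ⟨mul_ne_zero (mul_ne_zero one_ne_zero (NeZero.ne q)) (NeZero.ne q)⟩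
  haveI : NeZero (q * q) := ⟨mul_ne_zero (NeZero.ne q) (NeZero.ne q)⟩
  haveI : NeZero (1 * q) := ⟨mul_ne_zero one_ne_zero (NeZero.ne q)⟩
  have hj₁B := Mod3.H189.j1_mem_chart P E M q hq
  have hjqB := Mod3.H189.jq_mem_chart' P E M q hq
  have hj₂B := Mod3.H189.jqq_mem_chart' P E M q hq
  interval_cases l
  · rw [tau9_zero156]
    exact Fermat.Agent.S36.H890.mem_chart_of_rel9 _ hj₁B
      (Fermat.Agent.S36.H890.jE_mul_t9E E (M * q * q) h9'')
  · rw [tau9_one156]
    refine Fermat.Agent.S36.H890.mem_chart_of_rel9 _ hjqB ?_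
    have h := Fermat.Agent.S36.H890.map_rel9
      (βE E (M * q) q : FE E (M * q) →+* FE E (M * q * q))
      (Fermat.Agent.S36.H890.jE_mul_t9E E (M * q) h9')
    rw [RingHom.coe_coe, H553.βE_jE E (M * q) q 1 (one_dvd _),
      jE_congr (M * q * q) (show 1 * q = q by rw [one_mul]) _
        (Dvd.intro_left (M * q) rfl)] at h
    exact h
  · rw [tau9_two156]
    refine Fermat.Agent.S36.H890.mem_chart_of_rel9 _ hj₂B ?_
    have h := Fermat.Agent.S36.H890.map_rel9
      (Fermat.Agent.S36.H890.gamma9 E M q : FE E M →+* FE E (M * q * q))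
      (Fermat.Agent.S36.H890.jE_mul_t9E E M h9)
    rw [RingHom.coe_coe, Fermat.Agent.S36.H890.gamma9_jE,
      jE_congr (M * q * q) (show 1 * q * q = q * q by rw [one_mul]) _
        (Dvd.intro_left M (mul_assoc M q q).symm)] at h
    exact h

end Chain

/-! ## The package in the bytes of `Reg/Spec.lean` -/

section Bundled

variable {P : ValuationSubring A2.Qb} {E : IntermediateField ℚ A2.Qb} {M q : ℕ}
  [NeZero M] [NeZero q] [NeZero (M * q)] [NeZero (M * q * q)] {w : A2.RE P E}
  {V₁' V₂' : ValuationSubring (FE E (M * q))}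
  {V₁ V₂ V₃ : ValuationSubring (FE E (M * q * q))}
  {W' : FE E (M * q) ≃ₐ[E] FE E (M * q)}
  {W : FE E (M * q * q) ≃ₐ[E] FE E (M * q * q)}

/-- **C3, bundled**: the unit package of the middle sheet `V 1` at the base level, `9 ∣ M`, for ANY
family with `V 0 = V₁`, `V 1 = V₂`, `V 2 = V₃`, in the chart of `xLev E (M q q) q 2`, with the named
element `xT τ 2 1` of the chain of `t₉`.  UNCONDITIONAL. -/
theorem unitPkg_base9_156 (hStd : Mod3.Std P E M q w)
    (hO : Mod3.Objs P E M q V₁' V₂' V₁ V₂ V₃ W' W) (h9 : 9 ∣ M)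
    (V : ℕ → ValuationSubring (FE E (M * q * q))) (h0 : V 0 = V₁) (h1 : V 1 = V₂)
    (h2 : V 2 = V₃) :
    UnitPkg (R := A2.RE P E) w
      (_root_.Fermat.Agent.S18.H138.chart (A2.RE P E) ({xLev E (M * q * q) q 2} : Set (FE E (M * q * q)))) 2 V 1
      (xT (tau9_156 E M q h9) 2 1) := by
  rw [xLev_two_eq_x3E156, xT_tau9_156]
  obtain ⟨x, U, d, g, g', hx, hN, hUd, hgg', hU₁, hU₃, hU₂, hres⟩ :=
    baseUnitPkg9_156 hStd hO h9
  have hV := Mod3.H370.leafVal P E M q w hStd V₁' V₂' V₁ V₂ V₃ W' W hO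
  obtain ⟨t, ht, -⟩ := hV.ram₂
  refine ⟨?_, U, d, g, g', 12, 12 * (q - 1), hN, hUd, hgg', ?_, ⟨t, ?_, ?_⟩, ?_⟩
  · rw [← hx]
    exact x.2
  · intro j hj hj1
    have hj' : j = 0 ∨ j = 2 := by omega
    rcases hj' with rfl | rfl
    · rw [h0]; exact hU₁
    · rw [h2]; exact hU₃
  · rw [h1]; exact ht
  · rw [h1]; exact hU₂ t ht
  · rw [h1, ← hx]
    exact hres

/-- **C3 = the `t₉`-half of `Reg.LeafBaseF`**: the finite part of the invariant at the base level
`M q q`, `9 ∣ M`, for the chain of `t₉`, from the precision `Prec` of this chain (leaf C5). -/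
theorem invF_base9_156 (hStd : Mod3.Std P E M q w)
    (hO : Mod3.Objs P E M q V₁' V₂' V₁ V₂ V₃ W' W) (h9 : 9 ∣ M)
    (V : ℕ → ValuationSubring (FE E (M * q * q))) (h0 : V 0 = V₁) (h1 : V 1 = V₂)
    (h2 : V 2 = V₃)
    (hprec : Prec (R := A2.RE P E) w q 2 (tau9_156 E M q h9) V) :
    IsChain E (M * q * q) q (Fermat.Agent.S36.H890.t9 E) 2 (tau9_156 E M q h9) ∧
      InvF P E (M * q * q) q 2 w V (tau9_156 E M q h9) := by
  refine ⟨isChain_tau9_156 E M q h9, ⟨?_, hprec, ?_⟩⟩
  · intro l hl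
    exact tau9_mem_chart156 E M q P hStd.q_prime h9 l hl
  · intro i hi1 hi2
    obtain rfl : i = 1 := by omega
    exact unitPkg_base9_156 hStd hO h9 V h0 h1 h2

/-- A chain of a Laurent series is determined by the series (the `q`-expansion is injective). -/
theorem chain_unique156 {N : ℕ} [NeZero N] {f : LaurentSeries E} {n : ℕ}
    {τ τ' : ℕ → FE E N} (h : IsChain E N q f n τ) (h' : IsChain E N q f n τ') (l : ℕ)
    (hl : l ≤ n) : τ l = τ' l :=
  Subtype.ext ((h l hl).trans (h' l hl).symm)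

/-- `hauptF E 2 = t₉`. -/
theorem hauptF_two156 (hq2 : q = 2) : hauptF E q = Fermat.Agent.S36.H890.t9 E := by
  unfold hauptF
  rw [if_pos hq2]

/-- **C3 for ANY chain of the pinned Hauptmodul, `q = 2`** (Reg/Spec v1.2+: `hauptF E 2 = t₉`):
the finite part `InvF` of the invariant at the base level from the precision `Prec` of the chain
(leaf C5). -/
theorem invF_of_isChain_two156 (hStd : Mod3.Std P E M q w)
    (hO : Mod3.Objs P E M q V₁' V₂' V₁ V₂ V₃ W' W) (hq2 : q = 2)
    (V : ℕ → ValuationSubring (FE E (M * q * q))) (h0 : V 0 = V₁) (h1 : V 1 = V₂)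
    (h2 : V 2 = V₃) (τ : ℕ → FE E (M * q * q))
    (hτ : IsChain E (M * q * q) q (hauptF E q) 2 τ)
    (hprec : Prec (R := A2.RE P E) w q 2 τ V) :
    InvF P E (M * q * q) q 2 w V τ := by
  have h9 : 9 ∣ M := hStd.neat.2.2 hq2
  rw [hauptF_two156 hq2] at hτ
  have hc := isChain_tau9_156 E M q h9
  have e0 : τ 0 = tau9_156 E M q h9 0 := chain_unique156 hτ hc 0 (by norm_num)
  have e2 : τ 2 = tau9_156 E M q h9 2 := chain_unique156 hτ hc 2 (by norm_num)
  refine ⟨?_, hprec, ?_⟩
  · intro l hl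
    rw [chain_unique156 hτ hc l hl]
    exact tau9_mem_chart156 E M q P hStd.q_prime h9 l hl
  · intro i hi1 hi2
    obtain rfl : i = 1 := by omega
    have hx : xT τ 2 1 = xT (tau9_156 E M q h9) 2 1 := by
      unfold xT
      rw [if_pos (by norm_num), if_pos (by norm_num)]
      show τ 2 - τ 0 = tau9_156 E M q h9 2 - tau9_156 E M q h9 0
      rw [e0, e2]
    rw [hx]
    exact unitPkg_base9_156 hStd hO h9 V h0 h1 h2

/-- **The `q = 2` half of `Reg.LeafBaseF`** (Reg/Spec v1.2+, pinned chain), from the precision of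
the chain of `t₉` (leaf C5). -/
theorem leafBaseF_two_of_prec156 (hStd : Mod3.Std P E M q w)
    (hO : Mod3.Objs P E M q V₁' V₂' V₁ V₂ V₃ W' W) (hq2 : q = 2)
    (V : ℕ → ValuationSubring (FE E (M * q * q))) (h0 : V 0 = V₁) (h1 : V 1 = V₂)
    (h2 : V 2 = V₃)
    (hprec : ∀ τ : ℕ → FE E (M * q * q), IsChain E (M * q * q) q (hauptF E q) 2 τ →
      Prec (R := A2.RE P E) w q 2 τ V) :
    ∃ τ : ℕ → FE E (M * q * q),
      IsChain E (M * q * q) q (hauptF E q) 2 τ ∧ InvF P E (M * q * q) q 2 w V τ := by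
  have h9 : 9 ∣ M := hStd.neat.2.2 hq2
  have hc : IsChain E (M * q * q) q (hauptF E q) 2 (tau9_156 E M q h9) := by
    rw [hauptF_two156 hq2]
    exact isChain_tau9_156 E M q h9
  exact ⟨tau9_156 E M q h9, hc,
    invF_of_isChain_two156 hStd hO hq2 V h0 h1 h2 _ hc (hprec _ hc)⟩

end Bundled

end Fermat.Agent.S45.Reg.H156

end

end
-- ===== PACK-END S45/Reg/H156/BaseUnit9.lean

-- ===== PACK-BEGIN S45/Eng/Top.lean
section



/-!
# S45 ENGINE-GE — skeleton, part 2 (row CAR3, helper48): the top assembly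

* `qNewInertiaAt_of_levelGE`  : the level engine at `q ∣ M` gives `H442.QNewInertiaAt (M q) q p A`
  at ALL levels (`DESC` plug of helper756 is exponent-free; the auxiliary primes `r ≡ 11 mod 12`
  and `2, 2` resp. `3, 3` are added here and removed by helper442's one-step descent).
* `newPartInertiaGE_of_level` : `H36.QNewInertiaStatement` (`q ∥ N`; S36, on main) and
  `LevelInertiaGEStatement` (`q² ∣ N`) give the engine (N-GE) `NewPartInertiaGE`.
* `newPartInertiaGE_of_algE_modelE` : the same from ALG-E and MOD-E.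

Sorry-free; the leaves are hypotheses.
-/

set_option autoImplicit false
set_option linter.style.haveILetI false
set_option linter.unusedSectionVars false
set_option synthInstance.maxHeartbeats 400000
set_option maxHeartbeats 1600000

noncomputable section

namespace Fermat.Agent.S45.Eng

open ModularCurve AlgebraicCurve
open Fermat.Agent.S36
open Fermat.Agent.S36.Eng (LevelInertiaAt NeatFor Unramified inertiaFld)

/-- The engine on `J₀(N q)` at ALL levels `N` with `q ∣ N` … -/
def QNewInertiaGE : Prop :=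
  ∀ (N q p : ℕ) [NeZero N] [NeZero q], q.Prime → q ∣ N → p.Prime → p ≠ q →
    ∀ P : ValuationSubring (AlgebraicClosure ℚ), P.LiesOverPrime q →
      H442.QNewInertiaAt N q p P

/-- The engine at ONE neat level `N₁ = M q`, `q ∣ M`. -/
theorem qNewInertiaAt_of_levelGE_neat (hLEV : LevelInertiaGEStatement)
    (N₁ q p : ℕ) [NeZero N₁] [NeZero q] (hq : q.Prime) (hfac : 2 ≤ N₁.factorization q)
    (hr : ∃ r : ℕ, r.Prime ∧ r % 12 = 11 ∧ r ≠ q ∧ r ∣ N₁)
    (h4 : q ≠ 2 → 4 ∣ N₁) (h9 : q = 2 → 9 ∣ N₁)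
    (hp : p.Prime) (hpq : p ≠ q) (A : ValuationSubring A2.Qb) (hA : A.LiesOverPrime q) :
    H442.QNewInertiaAt N₁ q p A := by
  have hqN : q ∣ N₁ := Nat.dvd_of_factorization_pos (by omega)
  obtain ⟨M, hM⟩ := hqN
  have hM' : N₁ = M * q := by rw [hM, mul_comm]
  have hM0 : M ≠ 0 := fun h => by
    rw [h, zero_mul] at hM'
    exact (NeZero.ne N₁) hM'
  haveI : NeZero M := ⟨hM0⟩
  haveI : NeZero (M * q) := ⟨Nat.mul_ne_zero hM0 hq.ne_zero⟩
  have hqM : q ∣ M := by
    have h2' : 2 ≤ (M * q).factorization q := by rw [← hM']; exact hfac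
    rw [Nat.factorization_mul hM0 hq.ne_zero, Finsupp.add_apply, hq.factorization,
      Finsupp.single_eq_same] at h2'
    exact (hq.dvd_iff_one_le_factorization hM0).2 (by omega)
  have hneat : NeatFor M q := by
    obtain ⟨r, hrp, hr12, hrq, hrd⟩ := hr
    refine ⟨⟨r, hrp, hr12, hrq, ?_⟩, ?_, ?_⟩
    · rw [hM'] at hrd
      rcases (Nat.Prime.dvd_mul hrp).1 hrd with h | h
      · exact h
      · exact absurd ((Nat.prime_dvd_prime_iff_eq hrp hq).1 h) hrq
    · intro hq2
      have h := h4 hq2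
      rw [hM'] at h
      have hcop : Nat.Coprime 4 q := by
        have h2q : Nat.Coprime 2 q := (Nat.coprime_primes Nat.prime_two hq).2 (Ne.symm hq2)
        exact Nat.Coprime.pow_left 2 h2q
      exact hcop.dvd_of_dvd_mul_right h
    · intro hq2
      have h := h9 hq2
      rw [hM'] at h
      subst hq2
      have hcop : Nat.Coprime 9 2 := by norm_num
      exact hcop.dvd_of_dvd_mul_right h
  exact Eng.qNewInertiaAt_congr A hM'.symm
    (Fermat.Agent.S36.H756.qNewInertiaAt_of_levelEngine M q p hq hp hpq A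
      (hLEV A (inertiaFld A) M q hq hqM hA (Eng.inertiaFieldStatement q hq A hA) hneat))

/-- `v_q (N r) = v_q N` for a prime `r ≠ q`. -/
theorem factorization_mul_prime_ge {N q r : ℕ} (hN : N ≠ 0) (hr : r.Prime) (hrq : r ≠ q)
    {k : ℕ} (h : k ≤ N.factorization q) : k ≤ (N * r).factorization q := by
  rw [Nat.factorization_mul hN hr.ne_zero, Finsupp.add_apply]
  omega

/-- The level engine at `q² ∣ N` gives the engine on `J₀(N q)` at ALL levels `q² ∣ N q`,
`q ∣ N`. -/
theorem qNewInertiaAt_of_levelGE (hLEV : LevelInertiaGEStatement)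
    (N q p : ℕ) [NeZero N] [NeZero q] (hq : q.Prime) (hfac : 2 ≤ N.factorization q)
    (hp : p.Prime) (hpq : p ≠ q) (P : ValuationSubring (AlgebraicClosure ℚ))
    (hP : P.LiesOverPrime q) : H442.QNewInertiaAt N q p P := by
  -- the auxiliary prime `r ≡ 11 mod 12`
  obtain ⟨r, hB, hr, hmod⟩ := H442.exists_neat_prime (N * q * 6)
  haveI : NeZero r := ⟨hr.ne_zero⟩
  have hN0 : N ≠ 0 := NeZero.ne N
  have hNpos : 0 < N := Nat.pos_of_ne_zero hN0
  have hrq : r ≠ q := by
    rintro rfl
    have : r ≤ N * r * 6 := by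
      calc r = 1 * r * 1 := by ring
        _ ≤ N * r * 6 := by gcongr <;> omega
    omega
  -- the small auxiliary prime `s`
  obtain ⟨s, hs, hsq, hs4, hs9⟩ : ∃ s : ℕ, s.Prime ∧ s ≠ q ∧ (q ≠ 2 → s = 2) ∧ (q = 2 → s = 3) := by
    by_cases hq2 : q = 2
    · exact ⟨3, Nat.prime_three, by omega, fun h => absurd hq2 h, fun _ => rfl⟩
    · exact ⟨2, Nat.prime_two, fun h => hq2 h.symm, fun _ => rfl, fun h => absurd h hq2⟩
  haveI : NeZero s := ⟨hs.ne_zero⟩
  haveI : NeZero (N * r) := ⟨Nat.mul_ne_zero hN0 hr.ne_zero⟩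
  haveI : NeZero (N * r * s) := ⟨Nat.mul_ne_zero (NeZero.ne (N * r)) hs.ne_zero⟩
  haveI : NeZero (N * r * s * s) := ⟨Nat.mul_ne_zero (NeZero.ne (N * r * s)) hs.ne_zero⟩
  have hfac1 : 2 ≤ (N * r).factorization q := factorization_mul_prime_ge hN0 hr hrq hfac
  have hfac2 : 2 ≤ (N * r * s).factorization q :=
    factorization_mul_prime_ge (NeZero.ne (N * r)) hs hsq hfac1
  have hfac3 : 2 ≤ (N * r * s * s).factorization q :=
    factorization_mul_prime_ge (NeZero.ne (N * r * s)) hs hsq hfac2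
  -- descend three times
  refine H442.qNewInertiaAt_of_mul N q r p hq hr hrq hp P ?_
  refine H442.qNewInertiaAt_of_mul (N * r) q s p hq hs hsq hp P ?_
  refine H442.qNewInertiaAt_of_mul (N * r * s) q s p hq hs hsq hp P ?_
  refine qNewInertiaAt_of_levelGE_neat hLEV (N * r * s * s) q p hq hfac3
    ⟨r, hr, hmod, hrq, ?_⟩ ?_ ?_ hp hpq P hP
  · exact Dvd.dvd.mul_right (Dvd.dvd.mul_right (Dvd.intro_left N rfl) s) s
  · intro hq2
    have := hs4 hq2
    subst this
    exact ⟨N * r, by ring⟩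
  · intro hq2
    have := hs9 hq2
    subst this
    exact ⟨N * r, by ring⟩

/-- The engine on `J₀(N q)` at all levels `q ∣ N`, from S36 (`q ∥ N`) and the level engine at
`q² ∣ N`. -/
theorem qNewInertiaGE_of_level (h2 : H36.QNewInertiaStatement) (hLEV : LevelInertiaGEStatement) :
    QNewInertiaGE := by
  intro N q p _ _ hq hqN hp hpq P hP
  have h1 : 1 ≤ N.factorization q := (hq.dvd_iff_one_le_factorization (NeZero.ne N)).1 hqN
  rcases Nat.eq_or_lt_of_le h1 with h | h
  · exact h2 N q p hq h.symm hp hpq P hP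
  · exact qNewInertiaAt_of_levelGE hLEV N q p hq h hp hpq P hP

theorem dvd_of_two_le_factorization {M q : ℕ} (h : 2 ≤ M.factorization q) : q ∣ M :=
  Nat.dvd_of_factorization_pos (by omega)

theorem dvd_div_of_two_le_factorization {M q : ℕ} (hq : q.Prime) (hM : M ≠ 0)
    (h : 2 ≤ M.factorization q) : q ∣ M / q := by
  have hqM : q ∣ M := dvd_of_two_le_factorization h
  have hMq0 : M / q ≠ 0 := by
    intro h0
    have := Nat.div_mul_cancel hqM
    rw [h0, zero_mul] at this
    exact hM this.symm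
  refine (hq.dvd_iff_one_le_factorization hMq0).2 ?_
  rw [Nat.factorization_div hqM, Finsupp.tsub_apply, hq.factorization_self]
  omega

/-- **Layer (i), GE form.** -/
theorem newPartInertiaGE_of_qNewGE (h : QNewInertiaGE) : NewPartInertiaGE := by
  intro M q _ _ hq hfac
  have hqM : q ∣ M := dvd_of_two_le_factorization hfac
  have hMq : M = M / q * q := (Nat.div_mul_cancel hqM).symm
  haveI : NeZero q := ⟨hq.ne_zero⟩
  haveI : NeZero (M / q * q) := ⟨by rw [← hMq]; exact NeZero.ne M⟩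
  obtain ⟨e, heG, heT⟩ := H36.exists_levelCast M (M / q * q) hMq
  have hℓq : ∀ ℓ : Nat.Primes, ¬ (ℓ : ℕ) ∣ M → (ℓ : ℕ) ≠ q := by
    intro ℓ hℓ hℓq
    exact hℓ (hℓq ▸ hqM)
  refine ⟨(Fermat.Agent.S35.H155.pushA (M / q) q).comp e.toAddMonoidHom,
    (Fermat.Agent.S35.H155.pushB (M / q) q).comp e.toAddMonoidHom, ?_, ?_, ?_⟩
  · intro ℓ hℓ x
    show Fermat.Agent.S35.H155.pushA (M / q) q (e (heckeOperatorBar M ℓ x)) =
      heckeOperatorBar (M / q) ℓ (Fermat.Agent.S35.H155.pushA (M / q) q (e x))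
    rw [heT, Fermat.Agent.S35.H155.pushA_heckeOperatorBar (M / q) q hq ℓ (hℓq ℓ hℓ)]
  · intro ℓ hℓ x
    show Fermat.Agent.S35.H155.pushB (M / q) q (e (heckeOperatorBar M ℓ x)) =
      heckeOperatorBar (M / q) ℓ (Fermat.Agent.S35.H155.pushB (M / q) q (e x))
    rw [heT, Fermat.Agent.S35.H155.pushB_heckeOperatorBar (M / q) q hq ℓ (hℓq ℓ hℓ)]
  · intro p hp hpq A hA
    obtain ⟨k, hk⟩ := h (M / q) q p hq
      (dvd_div_of_two_le_factorization hq (NeZero.ne M) hfac) hp hpq A hA
    refine ⟨k, fun x hx hnew hfix => ?_⟩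
    have h1 : p ^ k • e x = 0 := by
      refine hk (e x) ?_ ?_ ?_
      · obtain ⟨n, hn⟩ := hx
        exact ⟨n, by rw [← map_nsmul, hn, map_zero]⟩
      · have := hnew 1
        rw [one_smul] at this
        exact ⟨this.1, this.2⟩
      · intro τ hτ
        rw [← heG, hfix τ hτ]
    rw [← map_nsmul] at h1
    exact e.injective (by rw [h1, map_zero])

/-- **The engine (N-GE)** from S36 (`q ∥ N`) and the level engine at `q² ∣ N`. -/
theorem newPartInertiaGE_of_level (h2 : H36.QNewInertiaStatement)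
    (hLEV : LevelInertiaGEStatement) : NewPartInertiaGE :=
  newPartInertiaGE_of_qNewGE (qNewInertiaGE_of_level h2 hLEV)

/-- **The engine (N-GE)** from S36, ALG-E and MOD-E. -/
theorem newPartInertiaGE_of_algE_modelE (h2 : H36.QNewInertiaStatement)
    (hALG : AlgEStatement) (hMOD : ModelEStatement) : NewPartInertiaGE :=
  newPartInertiaGE_of_level h2 (levelInertiaGE_of_algE_modelE hALG hMOD)

end Fermat.Agent.S45.Eng

end

end
-- ===== PACK-END S45/Eng/Top.lean

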