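import Fermat.Prelude.Def_FreyPackage_IsConductorLevel
import Fermat.Prelude.Def_FLTPrelim_ModularRep
import Fermat.Prelude.Def_FLTPrelim_Ramification
import Fermat.Agent.Pack.S45.E3L1
import Fermat.Agent.Pack.S45.E1L0
import Fermat.Agent.Pack.S45.E3L2
import Fermat.Agent.Pack.S45.E3L3
import Fermat.Agent.Pack.S45.E2L2
import Fermat.Agent.Pack.S45.E3L0
import Fermat.Agent.Pack.S45.E2L1
import Fermat.Agent.Pack.S45.E2L3
import Fermat.Agent.Pack.S45.E2L0
import Fermat.Agent.Pack.S45.E0L3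
import Fermat.Agent.Pack.S43MC.G0E28L1
import Fermat.Agent.Pack.S59C.E14L0
import Fermat.Agent.Pack.S45.E1L2
import Fermat.Agent.Pack.S44C.G0E19L2
import Fermat.Agent.Pack.S43MC.G0E5L3
import Fermat.Agent.Pack.S43C.E2L3
import Fermat.Agent.Pack.S43MC.G0E29L0
import Fermat.Agent.Pack.S43C.E4L0
import Fermat.Agent.Pack.S43MC.G0E16L0
import Fermat.Agent.Pack.S43MC.G0E26L1
import Fermat.Agent.Pack.S43MC.G0E28L3
import Fermat.Agent.Pack.Fast891

set_option linter.all false

-- ===== PACK-BEGIN S45/ModE/H593/BaseTop.lean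
section




/-!
# S45 / CAR3 / MOD-E — leaf BASE, top (helper593)

The absolute context `ModE.LevelCtx` of the level `M q q`, `q ∤ M` (exponent `2`), UNCONDITIONALLY
from row S36 on main; the invariant `wit` is `H492.partWitE_base_of_parts492` (helper492, files
`S45/ModE/H492/{WitInf,WitE,WitBase}.lean` taken byte-identical from `origin/helper492`).

* `levelCtx_base593`   : `Mod3.Std → Mod3.Objs → LevelCtx P E (M q q) q 2 w (fam593 V₁ V₂ V₃) W`;
* `exists_levelCtx593` : the existence form (objects from `Mod3.H370.leafObj`);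
* `leafBaseX_of593`    : `LeafBaseX X` for every extra invariant `X` which holds for all systems of
                         objects `Mod3.Objs` at the base level;
* `leafBaseX_triv593`  : `LeafBaseX Extra.triv`.
-/

set_option autoImplicit false
set_option linter.style.haveILetI false
set_option linter.unusedSectionVars false
set_option linter.unusedVariables false
set_option synthInstance.maxHeartbeats 400000
set_option maxHeartbeats 1600000

noncomputable section

namespace Fermat.Agent.S45.ModE.H593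

open ModularCurve AlgebraicCurve
open Fermat.Agent.S18.H138 (chart)
open Fermat.Agent.S36 Fermat.Agent.S36.Eng
open Fermat.Agent.A2.Mod

section Top

variable {P : ValuationSubring Qb} {E : IntermediateField ℚ Qb} {M q : ℕ} [NeZero M] [NeZero q]
  [NeZero (M * q)] [NeZero (M * q * q)] {w : RE P E}
  {V₁' V₂' : ValuationSubring (FE E (M * q))} {V₁ V₂ V₃ : ValuationSubring (FE E (M * q * q))}
  {W' : FE E (M * q) ≃ₐ[E] FE E (M * q)} {W : FE E (M * q * q) ≃ₐ[E] FE E (M * q * q)}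

/-- **WIT** at the level `M q q` (helper492). -/
theorem wit_base593 (hS : Mod3.Std P E M q w) (hO : Mod3.Objs P E M q V₁' V₂' V₁ V₂ V₃ W' W) :
    PartWitE q 2 (jLev E (M * q * q) q) (fam593 V₁ V₂ V₃) :=
  H492.partWitE_base_of_parts492 hS hO (hTab593 P E M q w hS V₁' V₂' V₁ V₂ V₃ W' W hO)
    (hVT593 P E M q w hS V₁' V₂' V₁ V₂ V₃ W' W hO) (fam593 V₁ V₂ V₃) rfl rfl rfl

/-- **BASE: the absolute context of the level `M q q`**, unconditionally. -/
theorem levelCtx_base593 (hS : Mod3.Std P E M q w)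
    (hO : Mod3.Objs P E M q V₁' V₂' V₁ V₂ V₃ W' W) :
    LevelCtx P E (M * q * q) q 2 w (fam593 V₁ V₂ V₃) W :=
  levelCtx_base_of_wit593 hS hO (wit_base593 hS hO)

end Top

/-- Existence form. -/
theorem exists_levelCtx593 (P : ValuationSubring Qb) (E : IntermediateField ℚ Qb) (M q : ℕ)
    [NeZero M] [NeZero q] [NeZero (M * q)] [NeZero (M * q * q)] (w : RE P E)
    (hS : Mod3.Std P E M q w) :
    ∃ (V₁' V₂' : ValuationSubring (FE E (M * q)))
      (V₁ V₂ V₃ : ValuationSubring (FE E (M * q * q)))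
      (W' : FE E (M * q) ≃ₐ[E] FE E (M * q))
      (W : FE E (M * q * q) ≃ₐ[E] FE E (M * q * q)),
      Mod3.Objs P E M q V₁' V₂' V₁ V₂ V₃ W' W ∧
        LevelCtx P E (M * q * q) q 2 w (fam593 V₁ V₂ V₃) W := by
  obtain ⟨V₁', V₂', V₁, V₂, V₃, W', W, hO⟩ := Mod3.H370.leafObj P E M q w hS
  exact ⟨V₁', V₂', V₁, V₂, V₃, W', W, hO, levelCtx_base593 hS hO⟩

/-- **BASE (leaf)** for an extra invariant `X` which holds at the base level for every system of
objects. -/
theorem leafBaseX_of593 {X : Extra}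
    (hX : ∀ (P : ValuationSubring Qb) (E : IntermediateField ℚ Qb) (M q : ℕ)
      [NeZero M] [NeZero q] [NeZero (M * q)] [NeZero (M * q * q)] (w : RE P E),
      Mod3.Std P E M q w →
      ∀ (V₁' V₂' : ValuationSubring (FE E (M * q)))
        (V₁ V₂ V₃ : ValuationSubring (FE E (M * q * q)))
        (W' : FE E (M * q) ≃ₐ[E] FE E (M * q))
        (W : FE E (M * q * q) ≃ₐ[E] FE E (M * q * q)),
        Mod3.Objs P E M q V₁' V₂' V₁ V₂ V₃ W' W →
        LevelCtx P E (M * q * q) q 2 w (fam593 V₁ V₂ V₃) W →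
        X P E (M * q * q) q 2 w (fam593 V₁ V₂ V₃) W) :
    LeafBaseX X := by
  intro P E M q _ _ _ _ w hS
  obtain ⟨V₁', V₂', V₁, V₂, V₃, W', W, hO, hL⟩ := exists_levelCtx593 P E M q w hS
  exact ⟨fam593 V₁ V₂ V₃, W, hL, hX P E M q w hS V₁' V₂' V₁ V₂ V₃ W' W hO hL⟩

/-- **BASE (leaf)** for the trivial extra invariant. -/
theorem leafBaseX_triv593 : LeafBaseX Extra.triv :=
  leafBaseX_of593 (fun _ _ _ _ _ _ _ _ _ _ _ _ _ _ _ _ _ _ _ => trivial)

end Fermat.Agent.S45.ModE.H593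

end

end
-- ===== PACK-END S45/ModE/H593/BaseTop.lean

-- ===== PACK-BEGIN S45/ModE/H593/BaseReg.lean
section





/-!
# S45 / CAR3 / MOD-E — leaf BASE with the REG invariant (helper593)

`ModE.LeafBaseX Reg.RegInv` from the two base leaves of the block REG (`Reg.LeafBaseF`,
`Reg.LeafBaseI`, frame `S45/Reg/Spec.lean` of helper878, v1.2) and the absolute context
`levelCtx_base593` of the level `M q q`.
-/

set_option autoImplicit false
set_option linter.style.haveILetI false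
set_option linter.unusedSectionVars false
set_option linter.unusedVariables false
set_option synthInstance.maxHeartbeats 400000
set_option maxHeartbeats 1600000

noncomputable section

namespace Fermat.Agent.S45.ModE.H593

open ModularCurve AlgebraicCurve
open Fermat.Agent.S36 Fermat.Agent.S36.Eng
open Fermat.Agent.A2.Mod

/-- **BASE (leaf) for `X = Reg.RegInv`.** -/
theorem leafBaseX_regInv593 (hF : Reg.LeafBaseF) (hI : Reg.LeafBaseI) :
    LeafBaseX Reg.RegInv :=
  leafBaseX_of593 (X := Reg.RegInv)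
    (fun P E M q _ _ _ _ w hS V₁' V₂' V₁ V₂ V₃ W' W hO _ =>
      ⟨hF P E M q w hS V₁' V₂' V₁ V₂ V₃ W' W hO (fam593 V₁ V₂ V₃) rfl rfl rfl,
        hI P E M q w hS V₁' V₂' V₁ V₂ V₃ W' W hO (fam593 V₁ V₂ V₃) rfl rfl rfl⟩)

/-- **BASE in the interface form of helper878's glue** (`Reg.H878.LeafBaseObjs`): the absolute
context of the level `M q q` on the S36 objects, `V 0 = V₁`, `V 1 = V₂`, `V 2 = V₃`. -/
theorem leafBaseObjs593 : Reg.H878.LeafBaseObjs := by
  intro P E M q _ _ _ _ w hS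
  obtain ⟨V₁', V₂', V₁, V₂, V₃, W', W, hO, hL⟩ := exists_levelCtx593 P E M q w hS
  exact ⟨V₁', V₂', V₁, V₂, V₃, W', fam593 V₁ V₂ V₃, W, hO, rfl, rfl, rfl, hL⟩

end Fermat.Agent.S45.ModE.H593

end

end
-- ===== PACK-END S45/ModE/H593/BaseReg.lean

-- ===== PACK-BEGIN S45/Reg/H27/PrecGen.lean
section


/-!
# S45 / CAR3 / MOD-E / REG: precision at the base level, GENERIC form (helper27)

`f ∈ F_E(M)` with an INTEGRAL expansion `x ∈ ℤ((t))`; chain at the level `M q q`:

    τ₀ = α (α f),   τ₁ = α (β f) = β (α f),   τ₂ = β (β f).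

From the congruence `τ₂ ≡ τ₀ mod 𝔪_{V₂}` on the MIDDLE sheet (row S36) alone:

    (τ₁ - τ₀ ^ q) / w ∈ V₁, V₂        (FrobW),
    (τ₁ - τ₂ ^ q) / w ∈ V₂, V₃        (VerW).

Same proof as `PrecB4.lean` (`f = t₄`); used for `f = t₉` in `PrecB9.lean`.
-/

set_option autoImplicit false
set_option linter.style.haveILetI false
set_option linter.unusedSectionVars false
set_option synthInstance.maxHeartbeats 400000
set_option maxHeartbeats 1600000

noncomputable section

namespace Fermat.Agent.S45.Reg.H27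

open ModularCurve
open Fermat.Agent Fermat.Agent.A2.Mod Fermat.Agent.S36 Fermat.Agent.S36.Eng
open Fermat.Agent.S18.H138 (chart)

section Gen

variable {P : ValuationSubring A2.Qb} {E : IntermediateField ℚ A2.Qb} {M q : ℕ}
  [NeZero M] [NeZero q] [NeZero (M * q)] [NeZero (M * q * q)] {w : A2.RE P E}
  {V₁' V₂' : ValuationSubring (FE E (M * q))}
  {V₁ V₂ V₃ : ValuationSubring (FE E (M * q * q))}
  {W' : FE E (M * q) ≃ₐ[E] FE E (M * q)}
  {W : FE E (M * q * q) ≃ₐ[E] FE E (M * q * q)}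

/-- The expansion of `F = β f - (α f) ^ q`. -/
theorem coe_frobElt_gen27 (f : FE E M) (x : LaurentSeries ℤ)
    (hf : (f : LaurentSeries E) = Fermat.Agent.S36.H994.castE4 E x) :
    ((βE E M q f - αE E M q f ^ q : FE E (M * q)) : LaurentSeries E)
      = Fermat.Agent.S36.H994.castE4 E (qExpand ℤ q x - x ^ q) := by
  rw [map_sub, map_pow, Fermat.Agent.S36.H994.castE4_qExpand, ← hf]
  show qExpand E q ((f : FE E M) : LaurentSeries E)
    - ((heckeAlphaBar E M q f : _) : LaurentSeries E) ^ q = _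
  rw [coe_heckeAlphaBar]

/-- **FrobW, generic.** -/
theorem frobW_gen27 (hStd : Mod3.Std P E M q w)
    (hO : Mod3.Objs P E M q V₁' V₂' V₁ V₂ V₃ W' W) (f : FE E M) (x : LaurentSeries ℤ)
    (hf : (f : LaurentSeries E) = Fermat.Agent.S36.H994.castE4 E x) :
    (αE E (M * q) q (βE E M q f) - αE E (M * q) q (αE E M q f) ^ q)
        * (algebraMap (A2.RE P E) (FE E (M * q * q)) w)⁻¹ ∈ V₁ ∧
      (αE E (M * q) q (βE E M q f) - αE E (M * q) q (αE E M q f) ^ q)
        * (algebraMap (A2.RE P E) (FE E (M * q * q)) w)⁻¹ ∈ V₂ := by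
  have hS : Setting P E M q w := Mod3.H816.setting_of_std hStd
  have hTab := Mod3.H370.leafTable P E M q w hStd V₁' V₂' V₁ V₂ V₃ W' W hO
  have hF := frobW_vinf27 hStd.q_prime hS.dvr hStd.unif hStd.lies_over (NeZero.ne (M * q))
    hO.vinf' x _ (coe_frobElt_gen27 f x hf)
  have e : αE E (M * q) q (βE E M q f) - αE E (M * q) q (αE E M q f) ^ q
      = αE E (M * q) q (βE E M q f - αE E M q f ^ q) := by
    rw [map_sub, map_pow]
  rw [e, map_div_w27]
  constructor
  · have h1 := hF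
    rw [← hTab.comap_α₁, ValuationSubring.mem_comap] at h1
    exact h1
  · have h1 := hF
    rw [← hTab.comap_α₂, ValuationSubring.mem_comap] at h1
    exact h1

/-- **VerW, generic**: from the congruence `β (β f) ≡ α (α f)` on the middle sheet. -/
theorem verW_gen27 (hStd : Mod3.Std P E M q w)
    (hO : Mod3.Objs P E M q V₁' V₂' V₁ V₂ V₃ W' W) (f : FE E M) (x : LaurentSeries ℤ)
    (hf : (f : LaurentSeries E) = Fermat.Agent.S36.H994.castE4 E x)
    (h0V : αE E (M * q) q (αE E M q f) ∈ V₂) (h2V : βE E (M * q) q (βE E M q f) ∈ V₂)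
    (hmid : βE E (M * q) q (βE E M q f) - αE E (M * q) q (αE E M q f) ∈ V₂.nonunits) :
    (αE E (M * q) q (βE E M q f) - βE E (M * q) q (βE E M q f) ^ q)
        * (algebraMap (A2.RE P E) (FE E (M * q * q)) w)⁻¹ ∈ V₂ ∧
      (αE E (M * q) q (βE E M q f) - βE E (M * q) q (βE E M q f) ^ q)
        * (algebraMap (A2.RE P E) (FE E (M * q * q)) w)⁻¹ ∈ V₃ := by
  have hS : Setting P E M q w := Mod3.H816.setting_of_std hStd
  haveI := hS.dvr
  have hTab := Mod3.H370.leafTable P E M q w hStd V₁' V₂' V₁ V₂ V₃ W' W hO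
  have hVal := Mod3.H370.leafVal P E M q w hStd V₁' V₂' V₁ V₂ V₃ W' W hO
  have hw₂ : algebraMap (A2.RE P E) (FE E (M * q * q)) w ∈ V₂.nonunits := by
    have e : algebraMap (A2.RE P E) (FE E (M * q * q)) w
        = αE E (M * q) q (algebraMap (A2.RE P E) (FE E (M * q)) w) := by
      show algebraMap E (FE E (M * q * q)) (w : E)
        = αE E (M * q) q (algebraMap E (FE E (M * q)) (w : E))
      rw [AlgHom.commutes]
    have h1 : algebraMap (A2.RE P E) (FE E (M * q * q)) w ∈ V₁.nonunits := hVal.unif₁.2.1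
    rw [e] at h1 ⊢
    have h2 := (Fermat.Agent.S36.H816.mem_nonunits_comap_iff
      (αE E (M * q) q : FE E (M * q) →+* FE E (M * q * q)) V₁ _).mpr h1
    rw [hTab.comap_α₁, ← hTab.comap_α₂] at h2
    exact (Fermat.Agent.S36.H816.mem_nonunits_comap_iff
      (αE E (M * q) q : FE E (M * q) →+* FE E (M * q * q)) V₂ _).mp h2
  have hw0 : algebraMap (A2.RE P E) (FE E (M * q * q)) w ≠ 0 := hVal.unif₁.1
  have hF₂ : αE E (M * q) q (βE E M q f) - αE E (M * q) q (αE E M q f) ^ q ∈ V₂.nonunits := by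
    have h := (frobW_gen27 hStd hO f x hf).2
    have e : αE E (M * q) q (βE E M q f) - αE E (M * q) q (αE E M q f) ^ q
        = (αE E (M * q) q (βE E M q f) - αE E (M * q) q (αE E M q f) ^ q)
            * (algebraMap (A2.RE P E) (FE E (M * q * q)) w)⁻¹
          * algebraMap (A2.RE P E) (FE E (M * q * q)) w :=
      (inv_mul_cancel_right₀ hw0 _).symm
    rw [e]
    exact Fermat.Agent.S36.H878.mul_mem_nonunits_of_mem V₂ h hw₂
  have eG : αE E (M * q) q (βE E M q f) - βE E (M * q) q (βE E M q f) ^ q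
      = βE E (M * q) q (αE E M q f - βE E M q f ^ q) := by
    rw [map_sub, map_pow, βE_αE_comm27]
  have hG₂ : αE E (M * q) q (βE E M q f) - βE E (M * q) q (βE E M q f) ^ q ∈ V₂.nonunits := by
    have e : αE E (M * q) q (βE E M q f) - βE E (M * q) q (βE E M q f) ^ q
        = (αE E (M * q) q (βE E M q f) - αE E (M * q) q (αE E M q f) ^ q)
          - (βE E (M * q) q (βE E M q f) ^ q - αE E (M * q) q (αE E M q f) ^ q) := by ring
    rw [e]
    exact Fermat.Agent.S36.H816.sub_mem_nonunits V₂ hF₂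
      (pow_sub_pow_mem_nonunits27 V₂ h2V h0V hmid q)
  have hG' : αE E M q f - βE E M q f ^ q ∈ V₂'.nonunits := by
    rw [← hTab.comap_β₂]
    refine (Fermat.Agent.S36.H816.mem_nonunits_comap_iff
      (βE E (M * q) q : FE E (M * q) →+* FE E (M * q * q)) V₂ _).mpr ?_
    have h := hG₂
    rw [eG] at h
    exact h
  have hG₃ : αE E (M * q) q (βE E M q f) - βE E (M * q) q (βE E M q f) ^ q ∈ V₃.nonunits := by
    rw [eG]
    have h := hG'
    rw [← hTab.comap_β₃] at h
    exact (Fermat.Agent.S36.H816.mem_nonunits_comap_iff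
      (βE E (M * q) q : FE E (M * q) →+* FE E (M * q * q)) V₃ _).mp h
  have h₃ := hVal.unif₃.2.2 _ hG₃
  refine ⟨?_, h₃⟩
  rw [eG, map_div_w27] at h₃ ⊢
  have h₃' : (αE E M q f - βE E M q f ^ q) * (algebraMap (A2.RE P E) (FE E (M * q)) w)⁻¹
      ∈ V₃.comap (βE E (M * q) q : FE E (M * q) →+* FE E (M * q * q)) :=
    ValuationSubring.mem_comap.mpr h₃
  rw [hTab.comap_β₃, ← hTab.comap_β₂, ValuationSubring.mem_comap] at h₃'
  exact h₃'

end Gen

end Fermat.Agent.S45.Reg.H27

end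

end
-- ===== PACK-END S45/Reg/H27/PrecGen.lean

-- ===== PACK-BEGIN S45/Reg/H27/LeafBaseF.lean
section




/-!
# S45 / CAR3 / MOD-E / REG: the byte leaf `Reg.LeafBaseF`, UNCONDITIONAL (helper27, owner)

`Reg.LeafBaseF` of `S45/Reg/Spec.lean` (helper878, v1.3, sha256 `1c69ece8…`): the finite part of
the invariant `RegInv` at the base level `M q q` for the objects of row S36.

* `q` odd: `leafBaseFOdd27` (`PrecB4.lean`: chain of `t₄`, package C2 + precision C5);
* `q = 2`: `leafBaseFTwo27` below: chain + package of `t₉` = helper156 `S45/Reg/H156/BaseUnit9.lean`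
  (vendored verbatim, sha256 `1931ced1…`), precision `prec_base9_27` by `PrecGen.lean` from the
  congruence `γ₉ t₉ ≡ t₉ mod 𝔪_{V₂}` of row S36 (`S36.H890.gamma9_t9E_congr`, on main).

Result: `leafBaseF27 : Reg.LeafBaseF`.
-/

set_option autoImplicit false
set_option linter.style.haveILetI false
set_option linter.unusedSectionVars false
set_option synthInstance.maxHeartbeats 400000
set_option maxHeartbeats 1600000

noncomputable section

namespace Fermat.Agent.S45.Reg.H27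

open ModularCurve
open Fermat.Agent Fermat.Agent.A2.Mod Fermat.Agent.S36 Fermat.Agent.S36.Eng
open Fermat.Agent.S18.H138 (chart)
open Fermat.Agent.S45.ModE (xLev jLev)

section Nine

variable {P : ValuationSubring A2.Qb} {E : IntermediateField ℚ A2.Qb} {M q : ℕ}
  [NeZero M] [NeZero q] [NeZero (M * q)] [NeZero (M * q * q)] {w : A2.RE P E}
  {V₁' V₂' : ValuationSubring (FE E (M * q))}
  {V₁ V₂ V₃ : ValuationSubring (FE E (M * q * q))}
  {W' : FE E (M * q) ≃ₐ[E] FE E (M * q)}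
  {W : FE E (M * q * q) ≃ₐ[E] FE E (M * q * q)}

/-- `t₉` has an integral expansion. -/
theorem coe_t9E_int27 (h9 : 9 ∣ M) :
    ((Fermat.Agent.S36.H890.t9E E M h9 : FE E M) : LaurentSeries E)
      = Fermat.Agent.S36.H994.castE4 E (Fermat.Agent.S36.H890.t9 ℤ) := by
  rw [Fermat.Agent.S36.H890.coe_t9E, Fermat.Agent.S36.H994.castE4_eq,
    Fermat.Agent.S36.H890.coeffMap_t9]

theorem tau9_zero_eq27 (h9 : 9 ∣ M) :
    Fermat.Agent.S45.Reg.H156.tau9_156 E M q h9 0
      = αE E (M * q) q (αE E M q (Fermat.Agent.S36.H890.t9E E M h9)) := by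
  rw [Fermat.Agent.S36.H890.αE_t9E, Fermat.Agent.S36.H890.αE_t9E]
  rfl

theorem tau9_one_eq27 (h9 : 9 ∣ M) :
    Fermat.Agent.S45.Reg.H156.tau9_156 E M q h9 1
      = αE E (M * q) q (βE E M q (Fermat.Agent.S36.H890.t9E E M h9)) := by
  rw [← βE_αE_comm27, Fermat.Agent.S36.H890.αE_t9E]
  rfl

theorem tau9_two_eq27 (h9 : 9 ∣ M) :
    Fermat.Agent.S45.Reg.H156.tau9_156 E M q h9 2
      = βE E (M * q) q (βE E M q (Fermat.Agent.S36.H890.t9E E M h9)) := rfl

/-- **The precision of the chain of `t₉` at the base level**, `9 ∣ M`. -/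
theorem prec_base9_27 (hStd : Mod3.Std P E M q w)
    (hO : Mod3.Objs P E M q V₁' V₂' V₁ V₂ V₃ W' W) (h9 : 9 ∣ M)
    (V : ℕ → ValuationSubring (FE E (M * q * q))) (h0 : V 0 = V₁) (h1 : V 1 = V₂)
    (h2 : V 2 = V₃) :
    Prec (R := A2.RE P E) w q 2 (Fermat.Agent.S45.Reg.H156.tau9_156 E M q h9) V := by
  have hval := Mod3.H370.leafVal P E M q w hStd V₁' V₂' V₁ V₂ V₃ W' W hO
  have hsheet := Mod3.H985.leafSheet P E M q w hStd V₁' V₂' V₁ V₂ V₃ W' W hO
  have hB₁ := Mod3.H189.chart_le_valuationSubring (R := A2.RE P E) V₁ hsheet.base₁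
    hval.x_unit₁.2.1
  have hB₂ := Mod3.H189.chart_le_valuationSubring (R := A2.RE P E) V₂ hsheet.base₂
    hval.x_unit₂.2.1
  have hB₃ := Mod3.H189.chart_le_valuationSubring (R := A2.RE P E) V₃ hsheet.base₃
    hval.x_unit₃.2.1
  have hf := coe_t9E_int27 (E := E) (M := M) h9
  obtain ⟨hF₁, hF₂⟩ := frobW_gen27 hStd hO _ _ hf
  obtain ⟨h2V, hmid⟩ := Fermat.Agent.S36.H890.gamma9_t9E_congr hStd hO h9
  have e0 := tau9_zero_eq27 (E := E) (M := M) (q := q) h9
  have e1 := tau9_one_eq27 (E := E) (M := M) (q := q) h9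
  have e2 := tau9_two_eq27 (E := E) (M := M) (q := q) h9
  have h0V : αE E (M * q) q (αE E M q (Fermat.Agent.S36.H890.t9E E M h9)) ∈ V₂ := by
    rw [← e0]
    have hm := Fermat.Agent.S45.Reg.H156.tau9_mem_chart156 E M q P hStd.q_prime h9 0
      (by norm_num)
    rw [xLev_two_eq_x3E27] at hm
    exact hB₂ _ hm
  have hmid' : βE E (M * q) q (βE E M q (Fermat.Agent.S36.H890.t9E E M h9))
      - αE E (M * q) q (αE E M q (Fermat.Agent.S36.H890.t9E E M h9)) ∈ V₂.nonunits := by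
    rw [← e0]
    exact hmid
  obtain ⟨hV₂, hV₃⟩ := verW_gen27 hStd hO _ _ hf h0V h2V hmid'
  refine ⟨?_, ?_, ?_⟩
  · intro i hi l hl
    have hm := Fermat.Agent.S45.Reg.H156.tau9_mem_chart156 E M q P hStd.q_prime h9 l hl
    rw [xLev_two_eq_x3E27] at hm
    have hi' : i = 0 ∨ i = 1 ∨ i = 2 := by omega
    rcases hi' with rfl | rfl | rfl
    · rw [h0]; exact hB₁ _ hm
    · rw [h1]; exact hB₂ _ hm
    · rw [h2]; exact hB₃ _ hm
  · intro i hi
    rw [e1, e0]
    have hi' : i = 0 ∨ i = 1 := by omega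
    rcases hi' with rfl | rfl
    · rw [h0]; exact hF₁
    · rw [h1]; exact hF₂
  · intro i hi hi2
    show (Fermat.Agent.S45.Reg.H156.tau9_156 E M q h9 1
        - Fermat.Agent.S45.Reg.H156.tau9_156 E M q h9 2 ^ q)
      * (algebraMap (A2.RE P E) (FE E (M * q * q)) w)⁻¹ ∈ V i
    rw [e1, e2]
    have hi' : i = 1 ∨ i = 2 := by omega
    rcases hi' with rfl | rfl
    · rw [h1]; exact hV₂
    · rw [h2]; exact hV₃

end Nine

/-- **REG-BASE-F, `q = 2`, UNCONDITIONAL.** -/
theorem leafBaseFTwo27 : LeafBaseFTwo27 := by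
  intro P E M q _ _ _ _ w hStd hq2 V₁' V₂' V₁ V₂ V₃ W' W hO V h0 h1 h2
  have h9 : 9 ∣ M := hStd.neat.2.2 hq2
  obtain ⟨hc, hI⟩ := Fermat.Agent.S45.Reg.H156.invF_base9_156 hStd hO h9 V h0 h1 h2
    (prec_base9_27 hStd hO h9 V h0 h1 h2)
  refine ⟨_, ?_, hI⟩
  rw [Fermat.Agent.S45.Reg.H156.hauptF_two156 hq2]
  exact hc

/-- **The byte leaf `Reg.LeafBaseF` (REG-BASE-F), UNCONDITIONAL.** -/
theorem leafBaseF27 : LeafBaseF := leafBaseF_of_two27 leafBaseFTwo27

end Fermat.Agent.S45.Reg.H27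

end

end
-- ===== PACK-END S45/Reg/H27/LeafBaseF.lean

-- ===== PACK-BEGIN S45/ModE/H233/Open.lean
section



























/-!
# S45 / CAR3 / MOD-E — TRUNK: MOD-E closed (helper233, rulings helper996 #14995, #15455, #15566)

ONE chosen DONE per slot of `ModE.StepLeaves` and per leaf of the block REG.  Every plugged leaf is taken byte-identical from its owner's
branch (owner = seat in the module name).

    OBJ-E      H717.leafObjE717            (unconditional)
    TABLE-E    H816.leafTableE816          (unconditional)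
    ONLY-E     H816.leafOnlyE816           (unconditional)
    KRON-E     H816.leafKronE816           (unconditional)
    UNIF-E     H83.leafUnifE83             (unconditional)
    VAL-E      H835.leafValE_of_wild835    (input `LeafWildRam835` = H83.leafWildRam83)
    SYM-E      H590.leafSymE_of590         (TABLE, ONLY)
    RES-E      H835.leafResE_of_wild835    (SYM, wild input)
    WIT-E      H590.leafWitE_of590         (TABLE, RES)
    FF-E/FIN-E H455                        (unconditional)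
    SHEET-E    H838.leafSheetE838          (unconditional)
    COMPLETE-E H838.leafCompleteE_of838    (ONLY)
    QEP-E      H838.leafQepE_of838         (ONLY)
    CHART-E    H838.leafChartE_of838       (TABLE, RES)
    NORMAL-E   H838.leafNormalE_of838      (TABLE, RES, KRON)
    GOOD-E     H403.leafGoodE_of           (VAL, TABLE, KRON)
    NRS-E      H868.leafNRSE_of868         (TABLE, VAL)
    UNIQ-E     H250.leafUniqE_of250        (VAL, SHEET, QEP, CHART, GOOD)
    INC-E      H323.leafIncE               (VAL, SHEET, QEP, TABLE, CHART, GOOD, KRON)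
    REG-E      Reg.H878.leafRegE_of        (all of the above + `Reg.LeafStepF/I`, `Reg.LeafOut`;
                                           Reg/Spec v1.3: the step leaves see `UpperCtx`)
    EXTRA-E    Reg.H878.leafExtraE_of      (`Reg.LeafStepF/I`)
    BASE       H593.leafBaseX_regInv593    (`Reg.LeafBaseF/I`)
  block REG (leaves of `Reg/Spec.lean` v1.3):
    REG-OUT    Reg.H878.leafOut_of         (`Reg.LeafCuspPoles` := Reg.H818.leafCuspPoles818)
    BASE-I     H867.leafBaseI867           (unconditional)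
    DIAG-2     Reg.H890.leafDiag2_890      (unconditional)
    STEP-F     Reg.H925.leafStepF_of       (DIAG-2)
    STEP-I     H576.leafStepI576           (unconditional)
    BASE-F     Reg.H27.leafBaseF27         (unconditional)

NOTHING IS OPEN: `modelE_h233 : ModelEStatement`.

The graph is acyclic in this order (ONLY-E is NOT taken from a `SYM-E`-consuming file).
-/

set_option autoImplicit false

namespace Fermat.Agent.S45.ModE.H233


theorem leafObjE_h233 : Fermat.Agent.S45.ModE.LeafObjE := Fermat.Agent.S45.ModE.H717.leafObjE717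
theorem leafTableE_h233 : Fermat.Agent.S45.ModE.LeafTableE := Fermat.Agent.S45.ModE.H816.leafTableE816
theorem leafOnlyE_h233 : Fermat.Agent.S45.ModE.LeafOnlyE := Fermat.Agent.S45.ModE.H816.leafOnlyE816
theorem leafKronE_h233 : Fermat.Agent.S45.ModE.LeafKronE := Fermat.Agent.S45.ModE.H816.leafKronE816
theorem leafUnifE_h233 : Fermat.Agent.S45.ModE.LeafUnifE := Fermat.Agent.S45.ModE.H83.leafUnifE83
theorem leafValE_h233 : Fermat.Agent.S45.ModE.LeafValE := Fermat.Agent.S45.ModE.H835.leafValE_of_wild835 Fermat.Agent.S45.ModE.H83.leafWildRam83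
theorem leafSymE_h233 : Fermat.Agent.S45.ModE.LeafSymE := Fermat.Agent.S45.ModE.H590.leafSymE_of590 leafTableE_h233 leafOnlyE_h233
theorem leafResE_h233 : Fermat.Agent.S45.ModE.LeafResE := Fermat.Agent.S45.ModE.H835.leafResE_of_wild835 leafSymE_h233 Fermat.Agent.S45.ModE.H83.leafWildRam83
theorem leafWitE_h233 : Fermat.Agent.S45.ModE.LeafWitE := Fermat.Agent.S45.ModE.H590.leafWitE_of590 leafTableE_h233 leafResE_h233
theorem leafFFE_h233 : Fermat.Agent.S45.ModE.LeafFFE := Fermat.Agent.S45.ModE.H455.leafFFE455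
theorem leafFinE_h233 : Fermat.Agent.S45.ModE.LeafFinE := Fermat.Agent.S45.ModE.H455.leafFinE455
theorem leafSheetE_h233 : Fermat.Agent.S45.ModE.LeafSheetE := Fermat.Agent.S45.ModE.H838.leafSheetE838
theorem leafCompleteE_h233 : Fermat.Agent.S45.ModE.LeafCompleteE := Fermat.Agent.S45.ModE.H838.leafCompleteE_of838 leafOnlyE_h233
theorem leafQepE_h233 : Fermat.Agent.S45.ModE.LeafQepE := Fermat.Agent.S45.ModE.H838.leafQepE_of838 leafOnlyE_h233
theorem leafChartE_h233 : Fermat.Agent.S45.ModE.LeafChartE := Fermat.Agent.S45.ModE.H838.leafChartE_of838 leafTableE_h233 leafResE_h233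
theorem leafNormalE_h233 : Fermat.Agent.S45.ModE.LeafNormalE :=
  Fermat.Agent.S45.ModE.H838.leafNormalE_of838 leafTableE_h233 leafResE_h233 leafKronE_h233
theorem leafGoodE_h233 : Fermat.Agent.S45.ModE.LeafGoodE :=
  Fermat.Agent.S45.ModE.H403.leafGoodE_of leafValE_h233 leafTableE_h233 leafKronE_h233
theorem leafNRSE_h233 : Fermat.Agent.S45.ModE.LeafNRSE := Fermat.Agent.S45.ModE.H868.leafNRSE_of868 leafTableE_h233 leafValE_h233
theorem leafUniqE_h233 : Fermat.Agent.S45.ModE.LeafUniqE :=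
  Fermat.Agent.S45.ModE.H250.leafUniqE_of250 leafValE_h233 leafSheetE_h233 leafQepE_h233 leafChartE_h233 leafGoodE_h233
theorem leafIncE_h233 : Fermat.Agent.S45.ModE.LeafIncE :=
  Fermat.Agent.S45.ModE.H323.leafIncE leafValE_h233 leafSheetE_h233 leafQepE_h233 leafTableE_h233 leafChartE_h233
    leafGoodE_h233 leafKronE_h233

/-- The inputs of the REG step (block MOD-E/Reg of helper878, `Reg/H878/Glue.lean` v1.3:
`StepLeaves` without `reg`, `extra`, `obj`), all UNCONDITIONAL. -/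
theorem regInputs_h233 : Fermat.Agent.S45.Reg.H878.RegInputs where
  sym := leafSymE_h233
  ff := leafFFE_h233
  val := leafValE_h233
  sheet := leafSheetE_h233
  complete := leafCompleteE_h233
  qep := leafQepE_h233
  normal := leafNormalE_h233
  inc := leafIncE_h233
  kron := leafKronE_h233
  unif := leafUnifE_h233
  wit := leafWitE_h233
  fin := leafFinE_h233
  table := leafTableE_h233
  only := leafOnlyE_h233
  res := leafResE_h233
  good := leafGoodE_h233
  nrs := leafNRSE_h233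
  chart := leafChartE_h233
  uniq := leafUniqE_h233

/-- **All the leaves of one step from REG-E and EXTRA-E** (any extra invariant `X`):
every other slot of `StepLeaves` has a compiled unconditional proof. -/
theorem stepLeaves_of_reg {X : Fermat.Agent.S45.ModE.Extra} (hReg : Fermat.Agent.S45.ModE.LeafRegE X) (hExtra : Fermat.Agent.S45.ModE.LeafExtraE X) :
    Fermat.Agent.S45.ModE.StepLeaves X where
  obj := leafObjE_h233
  sym := leafSymE_h233
  ff := leafFFE_h233
  val := leafValE_h233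
  sheet := leafSheetE_h233
  complete := leafCompleteE_h233
  qep := leafQepE_h233
  normal := leafNormalE_h233
  inc := leafIncE_h233
  reg := hReg
  extra := hExtra
  kron := leafKronE_h233
  unif := leafUnifE_h233
  wit := leafWitE_h233
  fin := leafFinE_h233
  table := leafTableE_h233
  only := leafOnlyE_h233
  res := leafResE_h233
  good := leafGoodE_h233
  nrs := leafNRSE_h233
  chart := leafChartE_h233
  uniq := leafUniqE_h233

/-- **MOD-E from REG-E, EXTRA-E and BASE** (any `X`). -/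
theorem modelE_of_reg {X : Fermat.Agent.S45.ModE.Extra} (hBase : Fermat.Agent.S45.ModE.LeafBaseX X) (hReg : Fermat.Agent.S45.ModE.LeafRegE X)
    (hExtra : Fermat.Agent.S45.ModE.LeafExtraE X) : Fermat.Agent.S45.ModE.ModelEStatement :=
  Fermat.Agent.S45.ModE.modelE_of_leaves hBase (stepLeaves_of_reg hReg hExtra)

theorem leafOut_h233 : Fermat.Agent.S45.Reg.LeafOut := Fermat.Agent.S45.Reg.H878.leafOut_of Fermat.Agent.S45.Reg.H818.leafCuspPoles818
theorem leafBaseI_h233 : Fermat.Agent.S45.Reg.LeafBaseI := Fermat.Agent.S45.H867.leafBaseI867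

/-- The leaves of one step from the three REG leaves of the step (`X = Fermat.Agent.S45.Reg.RegInv`). -/
theorem stepLeaves_of_regLeaves (hSF : Fermat.Agent.S45.Reg.LeafStepF) (hSI : Fermat.Agent.S45.Reg.LeafStepI)
    (hOut : Fermat.Agent.S45.Reg.LeafOut) : Fermat.Agent.S45.ModE.StepLeaves Fermat.Agent.S45.Reg.RegInv :=
  stepLeaves_of_reg (Fermat.Agent.S45.Reg.H878.leafRegE_of regInputs_h233 hSF hSI hOut)
    (Fermat.Agent.S45.Reg.H878.leafExtraE_of hSF hSI)

/-- MOD-E from the five REG leaves (base: `LeafBaseF`, `LeafBaseI`; step: `LeafStepF`,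
`LeafStepI`; output: `LeafOut`). -/
theorem modelE_of_regLeaves (hBF : Fermat.Agent.S45.Reg.LeafBaseF) (hBI : Fermat.Agent.S45.Reg.LeafBaseI) (hSF : Fermat.Agent.S45.Reg.LeafStepF)
    (hSI : Fermat.Agent.S45.Reg.LeafStepI) (hOut : Fermat.Agent.S45.Reg.LeafOut) : Fermat.Agent.S45.ModE.ModelEStatement :=
  Fermat.Agent.S45.ModE.modelE_of_leaves (Fermat.Agent.S45.ModE.H593.leafBaseX_regInv593 hBF hBI) (stepLeaves_of_regLeaves hSF hSI hOut)

theorem leafDiag2_h233 : Fermat.Agent.S45.Reg.LeafDiag2 := Fermat.Agent.S45.Reg.H890.leafDiag2_890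
theorem leafStepF_h233 : Fermat.Agent.S45.Reg.LeafStepF := Fermat.Agent.S45.Reg.H925.leafStepF_of leafDiag2_h233
theorem leafStepI_h233 : Fermat.Agent.S45.Reg.LeafStepI := Fermat.Agent.S45.H576.leafStepI576

/-- **The leaves of one step, UNCONDITIONAL** (`X = Fermat.Agent.S45.Reg.RegInv`). -/
theorem stepLeaves_h233 : Fermat.Agent.S45.ModE.StepLeaves Fermat.Agent.S45.Reg.RegInv :=
  stepLeaves_of_regLeaves leafStepF_h233 leafStepI_h233 leafOut_h233

/-- The leaves of one step from the open leaves (none is left: kept for the interface). -/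
theorem stepLeaves_of_open : Fermat.Agent.S45.ModE.StepLeaves Fermat.Agent.S45.Reg.RegInv := stepLeaves_h233

/-- MOD-E from `Reg.LeafBaseF`. -/
theorem modelE_of_baseF (hBF : Fermat.Agent.S45.Reg.LeafBaseF) : Fermat.Agent.S45.ModE.ModelEStatement :=
  modelE_of_regLeaves hBF leafBaseI_h233 leafStepF_h233 leafStepI_h233 leafOut_h233

theorem leafBaseF_h233 : Fermat.Agent.S45.Reg.LeafBaseF := Fermat.Agent.S45.Reg.H27.leafBaseF27

/-- **BASE** for `X = Fermat.Agent.S45.Reg.RegInv`, UNCONDITIONAL. -/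
theorem leafBaseX_h233 : Fermat.Agent.S45.ModE.LeafBaseX Fermat.Agent.S45.Reg.RegInv :=
  Fermat.Agent.S45.ModE.H593.leafBaseX_regInv593 leafBaseF_h233 leafBaseI_h233

/-- **MOD-E, UNCONDITIONAL.** -/
theorem modelE_h233 : Fermat.Agent.S45.ModE.ModelEStatement := modelE_of_baseF leafBaseF_h233

end Fermat.Agent.S45.ModE.H233

end
-- ===== PACK-END S45/ModE/H233/Open.lean

-- ===== PACK-BEGIN S45/H128/GEMid.lean
section
/-
S45 top glue, part 2 (helper128): the GE form of helper36's S36 mid layer.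

* `NewPartInertiaStatementGE` = **ENGINE-GE**: `S36.H36.NewPartInertiaStatement` with the exponent
  condition `M.factorization q = 2` replaced by `2 ≤ M.factorization q`
  (Carayol's engine at `q ^ e ∥ M`, every `e ≥ 2`).
* `hasNewformEigenModulesNoInvGE_of_inputs`: verbatim copy of
  `S36.H36.hasNewformEigenModulesNoInv_of_inputs` (the proof uses the exponent only through `q ∣ M`).
* `result_of_newPartGE : NewPartInertiaStatementGE → <S36 with 2 ≤ M.factorization q>`, all other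
  inputs discharged from main as in `S36/H683/Top.lean`.
-/



set_option autoImplicit false

namespace Fermat.Agent.S45.H128

open TensorProduct IsLocalRing Polynomial Fermat.Agent.S30.H990 Fermat.Agent.S30.H529
  Fermat.Agent.S35.H991 Fermat.Agent.S36.H36

/-- **(N) The Carayol engine: bounded inertia invariants on the `q`-new torsion, `q² ∣ M` (GE form).** -/
def NewPartInertiaStatementGE : Prop :=
  ∀ (M q : ℕ) [NeZero M] [NeZero (M / q)], q.Prime → 2 ≤ M.factorization q →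
    ∃ a b : ModularCurve.JZero M →+ ModularCurve.JZero (M / q),
      (∀ ℓ : Nat.Primes, ¬ (ℓ : ℕ) ∣ M → ∀ x : ModularCurve.JZero M,
        a (ModularCurve.heckeOperatorBar M ℓ x) = ModularCurve.heckeOperatorBar (M / q) ℓ (a x)) ∧
      (∀ ℓ : Nat.Primes, ¬ (ℓ : ℕ) ∣ M → ∀ x : ModularCurve.JZero M,
        b (ModularCurve.heckeOperatorBar M ℓ x) = ModularCurve.heckeOperatorBar (M / q) ℓ (b x)) ∧
      ∀ p : ℕ, p.Prime → p ≠ q →
        ∀ A : ValuationSubring (AlgebraicClosure ℚ), A.LiesOverPrime q →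
          ∃ k : ℕ, ∀ x : ModularCurve.JZero M, (∃ n : ℕ, p ^ n • x = 0) →
            (∀ γ : GQ, a (γ • x) = 0 ∧ b (γ • x) = 0) →
            (∀ τ ∈ A.inertiaSubgroupIn ℚ, τ • x = x) → p ^ k • x = 0

theorem dvd_of_two_le_factorization {M q : ℕ} (h : 2 ≤ M.factorization q) : q ∣ M :=
  Nat.dvd_of_factorization_pos (by omega)

set_option maxHeartbeats 1600000 in
/-- **The newform eigenmodules without inertia invariants from the inputs of row S30, the
engine (N) and the exclusion (X).** -/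
theorem hasNewformEigenModulesNoInvGE_of_inputs
    (hfin : ∀ (N p : ℕ) [NeZero N], p.Prime →
      Finite {x : ModularCurve.JZero N // (p : ℤ) • x = 0})
    (hsm : ∀ (N p : ℕ) [NeZero N], ∀ x : ModularCurve.JZero N,
      (∃ n : ℕ, ((p : ℤ) ^ n) • x = 0) →
        ∃ L : IntermediateField ℚ (AlgebraicClosure ℚ), FiniteDimensional ℚ L ∧
          ∀ σ : GQ, (∀ y ∈ L, σ y = y) → σ • x = x)
    (hgeq : ∀ (N : ℕ) [NeZero N] (ℓ : Nat.Primes) (σ : GQ) (x : ModularCurve.JZero N),
      ModularCurve.heckeOperatorBar N ℓ (σ • x) = σ • ModularCurve.heckeOperatorBar N ℓ x)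
    (hunr : ∀ (N p : ℕ) [NeZero N], ∀ q : ℕ, q.Prime → ¬ q ∣ N * p →
      ∀ A : ValuationSubring (AlgebraicClosure ℚ), A.LiesOverPrime q →
        ∀ σ ∈ A.inertiaSubgroupIn ℚ, ∀ x : ModularCurve.JZero N,
          (∃ n : ℕ, ((p : ℤ) ^ n) • x = 0) → σ • x = x)
    (hes : ∀ (N p : ℕ) [NeZero N], ∀ (ℓ : ℕ) (hℓ : ℓ.Prime), ¬ ℓ ∣ N * p →
      ∀ A : ValuationSubring (AlgebraicClosure ℚ), A.LiesOverPrime ℓ →
        ∀ σ : GQ, A.IsFrobeniusAt σ ℓ → ∀ x : ModularCurve.JZero N,
          (∃ n : ℕ, ((p : ℤ) ^ n) • x = 0) →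
            σ • σ • x - ModularCurve.heckeOperatorBar N ⟨ℓ, hℓ⟩ (σ • x) + (ℓ : ℤ) • x = 0)
    (hlat : ∀ (N p : ℕ) [NeZero N], p.Prime →
      ∃ (Λ : Type) (_ : AddCommGroup Λ) (_ : Module.Free ℤ Λ) (_ : Module.Finite ℤ Λ)
        (TΛ : Nat.Primes → Λ →ₗ[ℤ] Λ) (κ : ℕ → Λ →ₗ[ℤ] ModularCurve.JZero N),
        (∀ (n : ℕ) (x : Λ), κ n x = 0 ↔ ∃ y : Λ, x = ((p : ℤ) ^ n) • y) ∧
        (∀ (n : ℕ) (x : Λ), (p : ℤ) • κ (n + 1) x = κ n x) ∧
        (∀ ℓ : Nat.Primes, ¬ (ℓ : ℕ) ∣ N * p → ∀ (n : ℕ) (x : Λ),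
          κ n (TΛ ℓ x) = ModularCurve.heckeOperatorBar N ℓ (κ n x)) ∧
        (∀ (S : Set ℕ) (R : Type) [CommRing R] [IsDomain R] [CharZero R]
          (χ : CuspForm.heckeAlgebra N 2 S →+* R),
          ∃ v : R ⊗[ℤ] Λ, v ≠ 0 ∧
            ∀ (ℓ : ℕ) (hℓ : ℓ.Prime) (hℓN : ¬ ℓ ∣ N) (hℓS : ℓ ∉ S),
              (TΛ ⟨ℓ, hℓ⟩).baseChange R v = χ (CuspForm.heckeAlgebra.T hℓ hℓN hℓS) • v))
    (hN : NewPartInertiaStatementGE) (hX : ExclTateStatement) :
    HasNewformEigenModulesNoInvGE := by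
  classical
  intro M _ g hg p _ S O' _ _ _ _ _ _ hpO' chig hchig iota hpS hMS
  have hp : p.Prime := Fact.out
  set χ : CuspForm.heckeAlgebra M 2 (↑S : Set ℕ) →+* O' := iota.comp chig.rangeRestrict with hχ
  obtain ⟨Λ, i1, i2, i3, TΛ, κ, hκ0, hκs, hκT, hocc⟩ := hlat M p hp
  obtain ⟨v, hv, hva⟩ := hocc (↑S : Set ℕ) O' χ
  -- good primes
  have hNp : ∀ ℓ : ℕ, ℓ.Prime → ¬ ℓ ∣ M → ℓ ≠ p → ¬ ℓ ∣ M * p := by
    intro ℓ hℓ hℓN hℓp h
    rcases (Nat.Prime.dvd_mul hℓ).1 h with h | h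
    · exact hℓN h
    · exact hℓp ((Nat.prime_dvd_prime_iff_eq hℓ hp).1 h)
  have hιp : ∀ i : {ℓ : Nat.Primes // ¬ (ℓ : ℕ) ∣ M ∧ (ℓ : ℕ) ∉ (↑S : Set ℕ)},
      ((i.1 : Nat.Primes) : ℕ) ≠ p := by
    intro i h
    exact i.2.2 (by rw [h]; exact hpS)
  -- conversions between `ℤ`- and `ℕ`-torsion
  have hpow : ∀ (N : ℕ) (n : ℕ) (x : ModularCurve.JZero N),
      ((p : ℤ) ^ n) • x = p ^ n • x := by
    intro N n x
    rw [← Nat.cast_pow, natCast_zsmul]
  -- the operators
  let T : {ℓ : Nat.Primes // ¬ (ℓ : ℕ) ∣ M ∧ (ℓ : ℕ) ∉ (↑S : Set ℕ)} →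
      ModularCurve.JZero M →+ ModularCurve.JZero M :=
    fun i => (ModularCurve.heckeOperatorBar M i.1).toAddMonoidHom
  let a : {ℓ : Nat.Primes // ¬ (ℓ : ℕ) ∣ M ∧ (ℓ : ℕ) ∉ (↑S : Set ℕ)} → O' :=
    fun i => χ (CuspForm.heckeAlgebra.T i.1.2 i.2.1 i.2.2)
  have hT' : ∀ i, (T i).toIntLinearMap = ModularCurve.heckeOperatorBar M i.1 :=
    fun i => LinearMap.ext fun _ => rfl
  have hfin' : {x : ModularCurve.JZero M | p • x = 0}.Finite := by
    have h1 : {x : ModularCurve.JZero M | (p : ℤ) • x = 0}.Finite :=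
      Set.finite_coe_iff.mp (hfin M p hp)
    refine h1.subset fun x hx => ?_
    show (p : ℤ) • x = 0
    rw [natCast_zsmul]
    exact hx
  -- the Kummer sequence (as in `S30.H649.exists_adicFrobModule_of_lattice`)
  have hκzero : ∀ w : O' ⊗[ℤ] Λ, (κ 0).baseChange O' w = 0 := by
    have h0 : κ 0 = 0 := by
      apply LinearMap.ext
      intro x
      rw [LinearMap.zero_apply, hκ0 0 x]
      exact ⟨x, by rw [pow_zero, one_smul]⟩
    intro w
    rw [h0, LinearMap.baseChange_zero, LinearMap.zero_apply]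
  have hκsucc : ∀ (n : ℕ) (w : O' ⊗[ℤ] Λ),
      (p : O') • (κ (n + 1)).baseChange O' w = (κ n).baseChange O' w := by
    intro n w
    have h1 : (p : ℤ) • κ (n + 1) = κ n := LinearMap.ext fun x => hκs n x
    have h2 : ((p : ℤ) : O') • (κ (n + 1)).baseChange O' w
        = (p : ℤ) • (κ (n + 1)).baseChange O' w := Fermat.Agent.S30.H649.intCast_smul_tensor _ _
    rw [Int.cast_natCast] at h2
    rw [h2, ← LinearMap.smul_apply, ← LinearMap.baseChange_smul, h1]
  obtain ⟨n₀, hn₀⟩ := Fermat.Agent.S30.H649.exists_baseChange_ne_zero (𝒪 := O') hpO' κ hκ0 v hv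
  obtain ⟨m₀, rfl⟩ : ∃ m₀, n₀ = m₀ + 1 := by
    cases n₀ with
    | zero => exact absurd (hκzero v) hn₀
    | succ m => exact ⟨m, rfl⟩
  let seq : ℕ → O' ⊗[ℤ] ModularCurve.JZero M := fun n => (κ (n + 1)).baseChange O' v
  have hseq0 : (p : O') • seq 0 = 0 := by
    show (p : O') • (κ (0 + 1)).baseChange O' v = 0
    rw [hκsucc 0 v, hκzero v]
  have hseqs : ∀ n, (p : O') • seq (n + 1) = seq n := fun n => hκsucc (n + 1) v
  have hseqne : seq ≠ 0 := fun h => hn₀ (congrFun h m₀)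
  have hseqeig : ∀ i n, tensorOp O' T i (seq n) = a i • seq n := by
    intro i n
    show ((T i).toIntLinearMap.baseChange O') ((κ (n + 1)).baseChange O' v)
      = a i • (κ (n + 1)).baseChange O' v
    have h1 : ModularCurve.heckeOperatorBar M i.1 ∘ₗ κ (n + 1) = κ (n + 1) ∘ₗ TΛ i.1 :=
      LinearMap.ext fun x => (hκT i.1 (hNp _ i.1.2 i.2.1 (hιp i)) (n + 1) x).symm
    have hva' : (TΛ i.1).baseChange O' v = a i • v := hva i.1 i.1.2 i.2.1 i.2.2
    rw [hT' i, ← LinearMap.comp_apply, ← LinearMap.baseChange_comp, h1,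
      LinearMap.baseChange_comp, LinearMap.comp_apply, hva', map_smul]
  -- the degeneracy maps at the primes `q² ∥ M`, `q ≠ p`
  let Q : Type := {q : ℕ // q.Prime ∧ q ≠ p ∧ 2 ≤ M.factorization q}
  have hQdvd : ∀ q : Q, q.1 ∣ M := fun q => dvd_of_two_le_factorization q.2.2.2
  have hne0 : ∀ q : Q, NeZero (M / q.1) := by
    intro q
    refine ⟨?_⟩
    have hM : M ≠ 0 := NeZero.ne M
    intro h0
    have h1 := Nat.div_mul_cancel (hQdvd q)
    rw [h0, zero_mul] at h1
    exact hM h1.symm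
  have hab : ∀ q : Q, ∃ a b : ModularCurve.JZero M →+ ModularCurve.JZero (M / q.1),
      (∀ ℓ : Nat.Primes, ¬ (ℓ : ℕ) ∣ M → ∀ x : ModularCurve.JZero M,
        a (ModularCurve.heckeOperatorBar M ℓ x)
          = @ModularCurve.heckeOperatorBar (M / q.1) (hne0 q) ℓ (a x)) ∧
      (∀ ℓ : Nat.Primes, ¬ (ℓ : ℕ) ∣ M → ∀ x : ModularCurve.JZero M,
        b (ModularCurve.heckeOperatorBar M ℓ x)
          = @ModularCurve.heckeOperatorBar (M / q.1) (hne0 q) ℓ (b x)) ∧
      ∀ p : ℕ, p.Prime → p ≠ q.1 →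
        ∀ A : ValuationSubring (AlgebraicClosure ℚ), A.LiesOverPrime q.1 →
          ∃ k : ℕ, ∀ x : ModularCurve.JZero M, (∃ n : ℕ, p ^ n • x = 0) →
            (∀ γ : GQ, a (γ • x) = 0 ∧ b (γ • x) = 0) →
            (∀ τ ∈ A.inertiaSubgroupIn ℚ, τ • x = x) → p ^ k • x = 0 :=
    fun q => @hN M q.1 _ (hne0 q) q.2.1 q.2.2.2
  choose da db hda hdb hinert using hab
  let J' : Q × Bool → Type := fun c => ModularCurve.JZero (M / c.1.1)
  let f : ∀ c : Q × Bool, ModularCurve.JZero M →+ J' c := fun c =>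
    match c with
    | (q, true) => da q
    | (q, false) => db q
  let T'' : ∀ c : Q × Bool, {ℓ : Nat.Primes // ¬ (ℓ : ℕ) ∣ M ∧ (ℓ : ℕ) ∉ (↑S : Set ℕ)} →
      J' c →+ J' c :=
    fun c i => (@ModularCurve.heckeOperatorBar (M / c.1.1) (hne0 c.1) i.1).toAddMonoidHom
  have hf : ∀ (c : Q × Bool) (i : {ℓ : Nat.Primes // ¬ (ℓ : ℕ) ∣ M ∧ (ℓ : ℕ) ∉ (↑S : Set ℕ)})
      (x : ModularCurve.JZero M), f c (T i x) = T'' c i (f c x) := by
    rintro ⟨q, b⟩ i x
    cases b with
    | true => exact hda q i.1 i.2.1 x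
    | false => exact hdb q i.1 i.2.1 x
  have hexcl : ∀ (c : Q × Bool) (z : ℕ → O' ⊗[ℤ] J' c), (p : O') • z 0 = 0 →
      (∀ n, (p : O') • z (n + 1) = z n) →
      (∀ i n, tensorOp O' (T'' c) i (z n) = a i • z n) → z = 0 := by
    intro c z hz0 hzs hzeig
    exact @hX M _ g hg c.1.1 (hne0 c.1) c.1.2.1 (hQdvd c.1) p _ S O' _ _ _ _ _ _ hpO' chig hchig
      iota hpS hMS z hz0 hzs (fun ℓ hℓ hℓM hℓS n => hzeig ⟨⟨ℓ, hℓ⟩, hℓM, hℓS⟩ n)
  -- the eigenmodule of the new part
  obtain ⟨E, j1, j2, j3, j4, ρ, hnt, hcont, hone, hquad, hinv⟩ :=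
    exists_adic_eigenmodule_new_inv (O := O') hpO' hp.ne_zero (J := ModularCurve.JZero M) T a
      (fun i γ x => hgeq M i.1 γ x) hfin'
      (fun x hx => hsm M p x (by
        obtain ⟨n, hn⟩ := hx
        exact ⟨n, by rw [hpow]; exact hn⟩))
      T'' f hf hexcl seq hseq0 hseqs hseqne hseqeig
  refine ⟨{ M := E
            ρ := ρ
            cont := hcont
            unram := fun q hq hqN hqp P hP σ hσ =>
              hone σ fun x hx _ => hunr M p q hq (hNp q hq hqN hqp) P hP σ hσ x (by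
                obtain ⟨n, hn⟩ := hx
                exact ⟨n, by rw [hpow]; exact hn⟩)
            frob := fun ℓ hℓ hℓN hℓS A hA σ hσ => by
              have hℓp : ℓ ≠ p := fun h => hℓS (Finset.mem_coe.mpr (h ▸ hpS))
              have h := hquad σ ⟨⟨ℓ, hℓ⟩, hℓN, hℓS⟩ ((ℓ : ℕ) : ℤ)
                (fun x hx _ => hes M p ℓ hℓ (hNp ℓ hℓ hℓN hℓp) A hA σ hσ x (by
                  obtain ⟨n, hn⟩ := hx
                  exact ⟨n, by rw [hpow]; exact hn⟩))
              simpa using h }, ?_⟩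
  -- no inertia invariants
  intro q hq hqp hfac A hA w hw
  obtain ⟨k, hk⟩ := hinert ⟨q, hq, hqp, hfac⟩ p hp (Ne.symm hqp) A hA
  refine hinv (A.inertiaSubgroupIn ℚ : Set GQ) k ?_ w hw
  intro x hx hnew hfix
  exact hk x hx
    (fun γ => ⟨hnew γ (⟨q, hq, hqp, hfac⟩, true), hnew γ (⟨q, hq, hqp, hfac⟩, false)⟩) hfix


/-- **S36 in GE form from the engine ENGINE-GE alone** (no residual hypothesis, any prime `lam`). -/
theorem result_of_newPartGE (hN : NewPartInertiaStatementGE)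
    {M : ℕ} [NeZero M] {g : CuspForm (CongruenceSubgroup.Gamma0 M) 2} (hg : g.IsNewform)
    (lam : ℕ) [Fact lam.Prime]
    (S : Finset ℕ)
    (O' : Type) [CommRing O'] [IsDomain O'] [IsDiscreteValuationRing O']
    [IsAdicComplete (IsLocalRing.maximalIdeal O') O'] [Finite (IsLocalRing.ResidueField O')]
    [CharZero O'] (hlamO' : (lam : O') ∈ IsLocalRing.maximalIdeal O')
    (chig : CuspForm.heckeAlgebra M 2 (↑S : Set ℕ) →+* ℂ)
    (hchig : ∀ (ℓ : ℕ) (hℓ : ℓ.Prime) (hℓM : ¬ ℓ ∣ M) (hℓS : ℓ ∉ (↑S : Set ℕ)),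
      chig (CuspForm.heckeAlgebra.T hℓ hℓM hℓS) = ModularFormClass.qCoeff g ℓ)
    (iota : chig.range →+* O')
    (hlamS : lam ∈ S) (hMS : ∀ q : ℕ, q.Prime → q ∣ M → q ∈ S) :
    ∃ (O'' : Type) (_ : CommRing O'') (_ : IsDomain O'') (_ : IsDiscreteValuationRing O'')
      (_ : IsAdicComplete (IsLocalRing.maximalIdeal O'') O'') (_ : Finite (IsLocalRing.ResidueField O''))
      (_ : CharZero O'') (_ : Algebra O' O'') (_ : Module.Finite O' O'') (_ : IsLocalHom (algebraMap O' O'')),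
      Function.Injective (algebraMap O' O'') ∧
      ∃ ρ : GaloisRepAdic O'',
        (∀ (ℓ : ℕ) (hℓ : ℓ.Prime) (hℓM : ¬ ℓ ∣ M) (hℓS : ℓ ∉ (↑S : Set ℕ)),
          ∀ A : ValuationSubring (AlgebraicClosure ℚ), A.LiesOverPrime ℓ →
            ∀ σ : AlgebraicClosure ℚ ≃ₐ[ℚ] AlgebraicClosure ℚ, A.IsFrobeniusAt σ ℓ →
              LinearMap.charpoly (ρ.ρ σ) =
                X ^ 2 - C (algebraMap O' O'' ((iota.comp chig.rangeRestrict) (CuspForm.heckeAlgebra.T hℓ hℓM hℓS))) * X
                  + C ((ℓ : O''))) ∧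
        (∀ q : ℕ, q.Prime → q ≠ lam → 2 ≤ M.factorization q → ¬ ρ.IsUnipotentOnInertiaAt q) :=
  result_ofGE (hasNewformEigenModulesNoInvGE_of_inputs
    Fermat.Agent.S30.H683.finInput Fermat.Agent.S30.H683.smoothInput
    Fermat.Agent.S30.H683.galHeckeInput Fermat.Agent.S30.H683.unramInput
    Fermat.Agent.S30.H683.esInput Fermat.Agent.S30.H42.tateLattice
    hN Fermat.Agent.S35.H252.exclTate)
    hg lam S O' hlamO' chig hchig iota hlamS hMS

end Fermat.Agent.S45.H128

end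
-- ===== PACK-END S45/H128/GEMid.lean

-- ===== PACK-BEGIN S45/H128/S58GE.lean
section
/-
S45 top glue, part 3 (helper128): conductor–level matching at ARBITRARY level.

GE form of helper94's relation-based S58 glue (`Fermat/Agent/S58/H94/Top.lean`): with ENGINE-GE
(`NewPartInertiaStatementGE`, every exponent `e ≥ 2`) in place of S36 the hypotheses
`hN3` (cube-free), `hp2N`, `hirr` of S58 are not needed:

`s58GE_of_newPartGE : NewPartInertiaStatementGE → S58GEStatement`, where `S58GEStatement` says: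
a semistable `W`, modular of ANY level `N ≠ 0` divisible by its bad primes, is modular of its
conductor level.
-/



set_option autoImplicit false

open Polynomial

namespace Fermat.Agent.S45.H128

open Fermat.Agent.S58 Fermat.Agent.S58.H94 CuspForm CongruenceSubgroup ModularFormClass

/-- **S58 in GE form**: no cube-freeness, no auxiliary prime `p`, no irreducibility. -/
def S58GEStatement : Prop :=
  ∀ (W : WeierstrassCurve ℤ) (_hss : W.IsSemistableModel) (N : ℕ) (_hN0 : N ≠ 0)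
    (_hN : W.IsModularModelOfLevel N) (_hbad : ∀ ℓ : ℕ, ℓ.Prime → (ℓ : ℤ) ∣ W.Δ → ℓ ∣ N),
    W.IsModularModelOfLevel W.conductorLevel

/-- **No prime `q ≠ p` with `q² ∣ M`, from ENGINE-GE** (`p` any auxiliary prime `≠ q`). -/
theorem no_sqGE (hN : NewPartInertiaStatementGE)
    (W : WeierstrassCurve ℤ) (hΔ : W.Δ ≠ 0) (hss : W.IsSemistableModel)
    {N M : ℕ} (hN0 : N ≠ 0) (hMN : M ∣ N) [NeZero M]
    (g : CuspForm (Gamma0 M) 2) (hg : g.IsNewform)
    (hgW : ∀ ℓ : ℕ, ℓ.Prime → ¬ ℓ ∣ N → qCoeff ⇑g ℓ = (W.apOfModel ℓ : ℂ))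
    (hbad : ∀ ℓ : ℕ, ℓ.Prime → (ℓ : ℤ) ∣ W.Δ → ℓ ∣ N)
    (p : ℕ) [Fact p.Prime]
    (q : ℕ) (hq : q.Prime) (hqp : q ≠ p) : ¬ 2 ≤ M.factorization q := by
  classical
  intro hfact
  have := finite_residueField_padicInt_h94 p
  have hM0 : M ≠ 0 := NeZero.ne M
  set S' : Finset ℕ := insert p N.primeFactors with hS'
  have hpS' : p ∈ S' := Finset.mem_insert_self _ _
  have hMS' : ∀ q : ℕ, q.Prime → q ∣ M → q ∈ S' := fun q hq hqM =>
    Finset.mem_insert_of_mem (Nat.mem_primeFactors.mpr ⟨hq, dvd_trans hqM hMN, hN0⟩)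
  have hT : ∀ ℓ : ℕ, ℓ.Prime → ℓ ∉ S' → ¬ ℓ ∣ N ∧ ¬ ℓ ∣ M ∧ ℓ ∉ (↑S' : Set ℕ) ∧ ℓ ≠ p := by
    intro ℓ hℓ hℓT
    have h1 : ℓ ≠ p := fun h => hℓT (h ▸ hpS')
    have hℓN : ¬ ℓ ∣ N := fun h =>
      hℓT (Finset.mem_insert_of_mem (Nat.mem_primeFactors.mpr ⟨hℓ, h, hN0⟩))
    exact ⟨hℓN, fun h => hℓN (dvd_trans h hMN), fun h => hℓT (Finset.mem_coe.mp h), h1⟩
  set chig : heckeAlgebra M 2 (↑S' : Set ℕ) →+* ℂ := chigOf hg.1 (↑S' : Set ℕ) with hchigdef
  have hchig : ∀ (ℓ : ℕ) (hℓ : ℓ.Prime) (hℓM : ¬ ℓ ∣ M) (hℓS : ℓ ∉ (↑S' : Set ℕ)),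
      chig (heckeAlgebra.T hℓ hℓM hℓS) = qCoeff ⇑g ℓ :=
    fun ℓ hℓ hℓM hℓS => chigOf_T hg.1 _ hℓ hℓM hℓS
  have hle : ∀ x ∈ chig.range, x ∈ (⊥ : Subalgebra ℤ ℂ) := by
    intro x hx
    refine chigOf_range_le hg.1 (↑S' : Set ℕ) (⊥ : Subalgebra ℤ ℂ).toSubring
      (fun ℓ hℓ hℓM hℓS => ?_)
      (fun q hq hqM => Finset.mem_coe.mpr (hMS' q hq hqM)) hx
    have hℓN : ¬ ℓ ∣ N := (hT ℓ hℓ (fun h => hℓS (Finset.mem_coe.mpr h))).1
    rw [hgW ℓ hℓ hℓN]
    exact intCast_mem_bot_h94 _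
  set iota : chig.range →+* ℤ_[p] := iotaOf ⊥ (phiInt ℤ_[p]) chig.range hle with hiotadef
  obtain ⟨O'', j1, j2, j3, j4, j5, j6, j7, j8, j9, hinj, ρ, hρ, hρnu⟩ :=
    result_of_newPartGE hN hg p S' ℤ_[p] (natCast_mem_maximalIdeal_padicInt_h94 p) chig hchig iota
      hpS' hMS'
  have hpO'' : (p : O'') ∈ IsLocalRing.maximalIdeal O'' :=
    natCast_mem_maximalIdeal_of_isLocalHom (natCast_mem_maximalIdeal_padicInt_h94 p)
  obtain ⟨-, cmpI⟩ := compare_h94 W hΔ hss p hpO'' S' hpS'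
    (fun ℓ hℓ hd => Finset.mem_insert_of_mem
      (Nat.mem_primeFactors.mpr ⟨hℓ, hbad ℓ hℓ hd, hN0⟩))
    ρ (by
      intro ℓ hℓ hℓT A' hA' σ hσ
      obtain ⟨hℓN, hℓM, hℓS, -⟩ := hT ℓ hℓ hℓT
      rw [hρ ℓ hℓ hℓM hℓS A' hA' σ hσ,
        iota_eq_intCast chig iota _ (W.apOfModel ℓ) ((hchig ℓ hℓ hℓM hℓS).trans (hgW ℓ hℓ hℓN)),
        map_intCast])
  exact hρnu q hq hqp hfact (cmpI q hq hqp)

/-- **S58 in GE form (ARBITRARY level `N ≠ 0`) from S35, ENGINE-GE and COEFF-HENSEL.** -/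
theorem s58GE_of (h35 : S35Statement) (hE : NewPartInertiaStatementGE)
    (hcoeff : CoeffHenselStatement) : S58GEStatement := by
  intro W hss N hN0 hN hbad
  classical
  have : NeZero N := ⟨hN0⟩
  have hΔ : W.Δ ≠ 0 := by
    intro h0
    obtain ⟨ℓ, hℓN, hℓ⟩ := Nat.exists_infinite_primes (N + 1)
    have h1 := hbad ℓ hℓ (by rw [h0]; exact dvd_zero _)
    have h2 := Nat.le_of_dvd (Nat.pos_of_ne_zero hN0) h1
    omega
  obtain ⟨f, hf, hfa⟩ := hN
  obtain ⟨M, hMN, g, hg, hga⟩ := Fermat.Agent.Lib.Newform.descent N f hf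
  have hM0 : M ≠ 0 := fun h => hN0 (by rw [h] at hMN; exact zero_dvd_iff.mp hMN)
  have : NeZero M := ⟨hM0⟩
  have hgW : ∀ ℓ : ℕ, ℓ.Prime → ¬ ℓ ∣ N → qCoeff ⇑g ℓ = (W.apOfModel ℓ : ℂ) :=
    fun ℓ hℓ hℓN => (hga ℓ hℓ hℓN).trans (hfa ℓ hℓ (fun hd => hℓN (hbad ℓ hℓ hd)) hℓN)
  -- `M` is squarefree
  have hsq : Squarefree M := by
    refine squarefree_of_forall_not_sq_dvd fun q hq hq2 => ?_
    obtain ⟨lam, hlam, hlamq⟩ : ∃ lam : ℕ, lam.Prime ∧ q ≠ lam := by
      by_cases h2 : q = 2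
      · exact ⟨3, by norm_num, by omega⟩
      · exact ⟨2, Nat.prime_two, h2⟩
    have : Fact lam.Prime := ⟨hlam⟩
    exact no_sqGE hE W hΔ hss hN0 hMN g hg hgW hbad lam q hq hlamq
      ((hq.pow_dvd_iff_le_factorization hM0).1 hq2)
  -- the primes of `M` are bad
  have hMbad : ∀ q : ℕ, q.Prime → q ∣ M → (q : ℤ) ∣ W.Δ := by
    intro q hq hqM
    have hq2 : ¬ q ^ 2 ∣ M := by
      intro h
      have := (Nat.squarefree_iff_prime_squarefree.mp hsq) q hq
      exact this (by rwa [← pow_two])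
    by_contra hgood
    -- an auxiliary prime `lam ≠ q`
    obtain ⟨lam, hlam, hlamq⟩ : ∃ lam : ℕ, lam.Prime ∧ q ≠ lam := by
      by_cases h2 : q = 2
      · exact ⟨3, by norm_num, by omega⟩
      · exact ⟨2, Nat.prime_two, h2⟩
    have : Fact lam.Prime := ⟨hlam⟩
    have hpk := package35_h94 h35 W hΔ hss hN0 hMN g hg hgW hbad lam
      (insert lam N.primeFactors) (Finset.mem_insert_self _ _)
      (fun q hq hqM => Finset.mem_insert_of_mem
        (Nat.mem_primeFactors.mpr ⟨hq, dvd_trans hqM hMN, hN0⟩))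
      ⊥ (phiInt ℤ_[lam]) (phiInt_injective ℤ_[lam])
      (by
        intro ℓ hℓ _ hℓS
        have hℓN : ¬ ℓ ∣ N := fun h => hℓS (Finset.mem_coe.mpr
          (Finset.mem_insert_of_mem (Nat.mem_primeFactors.mpr ⟨hℓ, h, hN0⟩)))
        rw [hgW ℓ hℓ hℓN]
        exact intCast_mem_bot_h94 _)
    exact hpk.2 q hq hlamq hqM hq2 hgood
  have hMD : M ∣ W.conductorLevel :=
    dvd_of_squarefree_of_prime_dvd hsq fun q hq hqM =>
      (W.prime_dvd_conductorLevel_iff hΔ hq).mpr (hMbad q hq hqM)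
  obtain ⟨g', hg', hg'a⟩ := Fermat.Agent.Lib.Newform.stab M W.conductorLevel hMD g hg.1
  refine ⟨g', hg', fun ℓ hℓ hgood hℓD => ?_⟩
  have hℓM : ¬ ℓ ∣ M := fun h => hℓD (dvd_trans h hMD)
  rw [hg'a ℓ hℓ hℓD]
  by_cases hℓN : ℓ ∣ N
  · -- the coefficient ring `ℤ[a_ℓ(g)]` and an auxiliary prime `lam ≠ ℓ`
    obtain ⟨lam, hlam, hlamℓ, ⟨φ⟩⟩ :=
      hcoeff (qCoeff ⇑g ℓ) (isIntegral_qCoeff_h94 hg.1 hℓ hℓM) {ℓ}
    have : Fact lam.Prime := hlam
    have hlamℓ' : lam ≠ ℓ := fun h => hlamℓ (Finset.mem_singleton.mpr h)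
    have hpk := package35_h94 h35 W hΔ hss hN0 hMN g hg hgW hbad lam
      ((insert lam N.primeFactors).erase ℓ)
      (Finset.mem_erase.mpr ⟨hlamℓ', Finset.mem_insert_self _ _⟩)
      (fun q hq hqM => Finset.mem_erase.mpr ⟨fun h => hℓM (h ▸ hqM),
        Finset.mem_insert_of_mem (Nat.mem_primeFactors.mpr ⟨hq, dvd_trans hqM hMN, hN0⟩)⟩)
      (Algebra.adjoin ℤ ({qCoeff ⇑g ℓ} : Set ℂ)) φ
      (injective_of_adjoin_h94 (isIntegral_qCoeff_h94 hg.1 hℓ hℓM) φ)
      (by
        intro ℓ' hℓ' _ hℓ'S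
        by_cases h : ℓ' = ℓ
        · rw [h]
          exact Algebra.subset_adjoin (Set.mem_singleton _)
        · have hℓ'N : ¬ ℓ' ∣ N := fun hd => hℓ'S (Finset.mem_coe.mpr
            (Finset.mem_erase.mpr ⟨h, Finset.mem_insert_of_mem
              (Nat.mem_primeFactors.mpr ⟨hℓ', hd, hN0⟩)⟩))
          rw [hgW ℓ' hℓ' hℓ'N]
          exact Subalgebra.intCast_mem _ _)
    exact hpk.1 ℓ hℓ hgood (Finset.notMem_erase _ _) hℓM
  · exact hgW ℓ hℓ hℓN


/-- **S58 in GE form from ENGINE-GE alone** (S35 = plain chain of main, COEFF-HENSEL = main). -/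
theorem s58GE_of_newPartGE (hE : NewPartInertiaStatementGE) : S58GEStatement :=
  s58GE_of s35Statement_h94 hE coeffHensel_h94

end Fermat.Agent.S45.H128

end
-- ===== PACK-END S45/H128/S58GE.lean

-- ===== PACK-BEGIN S45/H128/Top.lean
section
/-
S45 top glue, part 5 (helper128): the frozen statement S45 from ENGINE-GE alone.

`s45_of_engineGE : NewPartInertiaStatementGE → <frozen S45>`

* `relS06_of_engineGE` (the relative S06): if the Frey curve of `P` is modular (Prelude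
  `IsModular`: SOME integral model, ARBITRARY level), then its mod-`p` representation is modular
  of the conductor level of the semistable model `P.freyCurveInt`.
  Steps: change of model (`apOfModel_eq_of_models`), STAB to a level divisible by all bad primes
  of both models, conductor–level matching at arbitrary level (`s58GE_of_newPartGE`).
* then helper404's descent (`S45/H404/Glue.lean`, copied here with seat-tagged names so that the
  closure stays inside closure(S43 ∪ S59) + new S45 files) with the PLAIN chains of S43 / S44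
  (terms of the plain `S43.lean` / `S44.lean` of main@2ac4347f9, de4c2894f) and S05;
  level 1 is excluded by Mathlib (`CuspForm.rank_eq_zero_of_weight_lt_twelve`, proof of S08).
-/













set_option autoImplicit false

open WeierstrassCurve WeierstrassCurve.Affine WeierstrassCurve.Affine.Point
open CuspForm ModularFormClass UpperHalfPlane
open FreyPackage

namespace Fermat.Agent.S45.H128

/-- A prime number is not invertible in `ℤ̄`. -/
theorem natPrime_not_isUnit_h128 (p : ℕ) (hp : p.Prime) (b : integralClosure ℤ ℂ)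
    (hb : b * (p : integralClosure ℤ ℂ) = 1) : False := by
  have h1 : (b : ℂ) * (p : ℂ) = 1 := by
    have := congrArg (Subtype.val : integralClosure ℤ ℂ → ℂ) hb
    simpa using this
  have hp0 : (p : ℂ) ≠ 0 := Nat.cast_ne_zero.mpr hp.ne_zero
  have h2 : (b : ℂ) = algebraMap ℚ ℂ ((p : ℚ)⁻¹) := by
    rw [map_inv₀, map_natCast]
    exact eq_inv_of_mul_eq_one_left h1
  have h3 : IsIntegral ℤ ((p : ℚ)⁻¹) := by
    have := b.2
    rw [h2] at this
    exact (isIntegral_algebraMap_iff (algebraMap ℚ ℂ).injective).mp this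
  obtain ⟨y, hy⟩ := IsIntegrallyClosed.isIntegral_iff.mp h3
  have hpq : (p : ℚ) ≠ 0 := Nat.cast_ne_zero.mpr hp.ne_zero
  have h4 : (y : ℚ) * (p : ℚ) = 1 := by
    have : (algebraMap ℤ ℚ y) = (y : ℚ) := rfl
    rw [← this, hy, inv_mul_cancel₀ hpq]
  have h5 : y * (p : ℤ) = 1 := by exact_mod_cast h4
  have h6 : (p : ℤ) ∣ 1 := Dvd.intro_left y h5
  have h7 : (p : ℤ) = 1 ∨ (p : ℤ) = -1 := Int.isUnit_iff.mp (isUnit_of_dvd_one h6)
  have h8 := hp.one_lt
  omega

/-- A maximal ideal of `ℤ̄` over a prime `p`. -/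
theorem exists_maximal_over_natPrime (p : ℕ) (hp : p.Prime) :
    ∃ 𝔪 : Ideal (integralClosure ℤ ℂ), 𝔪.IsMaximal ∧ (p : integralClosure ℤ ℂ) ∈ 𝔪 := by
  have hne : Ideal.span {(p : integralClosure ℤ ℂ)} ≠ ⊤ := by
    intro htop
    rw [Ideal.span_singleton_eq_top] at htop
    obtain ⟨b, hb⟩ := htop.exists_left_inv
    exact natPrime_not_isUnit_h128 p hp b hb
  obtain ⟨𝔪, h𝔪, hle⟩ := Ideal.exists_le_maximal _ hne
  exact ⟨𝔪, h𝔪, hle (Ideal.subset_span rfl)⟩

/-- An integral model of an elliptic curve over `ℚ` has nonzero discriminant. -/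
theorem delta_ne_zero_of_model_h128 {E : WeierstrassCurve ℚ} (hE : E.Δ ≠ 0)
    {W : WeierstrassCurve ℤ} (hW : W.IsIntegralModelOf E) : W.Δ ≠ 0 := by
  obtain ⟨C, hC⟩ := hW
  intro h0
  have h1 : (W.map (Int.castRingHom ℚ)).Δ = 0 := by
    rw [WeierstrassCurve.map_Δ, h0, _root_.map_zero]
  rw [← hC, WeierstrassCurve.variableChange_Δ] at h1
  rcases mul_eq_zero.mp h1 with h | h
  · exact (pow_ne_zero 12 (Units.ne_zero (C.u⁻¹))) h
  · exact hE h

/-- **Relative S06 from ENGINE-GE.** -/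
theorem relS06_of_engineGE (hE : NewPartInertiaStatementGE) (P : FreyPackage)
    (hmod : P.freyCurve.IsModular) :
    ∃ N : ℕ, P.IsConductorLevel N ∧ P.ModularRepOfLevel N := by
  classical
  obtain ⟨W₀, hW₀, N₀, hN₀, f₀, hf₀, hfa⟩ := hmod
  have hell : P.freyCurve.IsElliptic := Fermat.Agent.Ribet.H52.freyCurve_isElliptic_h52 P
  have hW : P.freyCurveInt.IsIntegralModelOf P.freyCurve :=
    Fermat.Agent.Ribet.H104.isIntegralModelOf P
  have hss : P.freyCurveInt.IsSemistableModel := Fermat.Agent.Ribet.H104.isSemistableModel P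
  have hΔ : P.freyCurveInt.Δ ≠ 0 := Fermat.Agent.Ribet.H104.Δ_ne_zero P
  have hΔ₀ : W₀.Δ ≠ 0 :=
    delta_ne_zero_of_model_h128 (Fermat.Agent.S13.H891.freyCurve_Δ_ne_zero P) hW₀
  -- a level divisible by `N₀` and by the bad primes of both models
  set N : ℕ := N₀ * (W₀.Δ.natAbs * P.freyCurveInt.Δ.natAbs) with hNdef
  have hN0 : N ≠ 0 :=
    Nat.mul_ne_zero hN₀.ne' (Nat.mul_ne_zero (Int.natAbs_ne_zero.mpr hΔ₀)
      (Int.natAbs_ne_zero.mpr hΔ))
  have : NeZero N := ⟨hN0⟩
  obtain ⟨f, hf, hff⟩ := Fermat.Agent.Lib.Newform.stab N₀ N (Dvd.intro _ rfl) f₀ hf₀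
  have hgood₀ : ∀ ℓ : ℕ, ℓ.Prime → ¬ ℓ ∣ N → W₀.IsGoodPrimeFor ℓ := by
    intro ℓ hℓ hℓN hbad
    apply hℓN
    have h1 : ℓ ∣ W₀.Δ.natAbs := Int.natCast_dvd.mp hbad
    exact Dvd.dvd.mul_left (Dvd.dvd.mul_right h1 _) _
  have hWN : P.freyCurveInt.IsModularModelOfLevel N := by
    refine ⟨f, hf, fun ℓ hℓ hgood hℓN => ?_⟩
    have hℓN₀ : ¬ ℓ ∣ N₀ := fun h => hℓN (Dvd.dvd.mul_right h _)
    rw [hff ℓ hℓ hℓN, hfa ℓ hℓ (hgood₀ ℓ hℓ hℓN) hℓN₀,
      apOfModel_eq_of_models P.freyCurve W₀ P.freyCurveInt hW₀ hW ℓ hℓ (hgood₀ ℓ hℓ hℓN) hgood]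
  have hbad : ∀ ℓ : ℕ, ℓ.Prime → (ℓ : ℤ) ∣ P.freyCurveInt.Δ → ℓ ∣ N := by
    intro ℓ _ hd
    have h1 : ℓ ∣ P.freyCurveInt.Δ.natAbs := Int.natCast_dvd.mp hd
    exact Dvd.dvd.mul_left (Dvd.dvd.mul_left h1 _) _
  obtain ⟨g, hg, hga⟩ := s58GE_of_newPartGE hE P.freyCurveInt hss N hN0 hWN hbad
  refine ⟨P.freyCurveInt.conductorLevel,
    ⟨P.freyCurveInt.conductorLevel_pos, P.freyCurveInt.squarefree_conductorLevel, ?_⟩, ?_⟩
  · intro q hq hqN
    have h1 : (q : ℤ) ∣ P.freyCurveInt.Δ :=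
      (P.freyCurveInt.prime_dvd_conductorLevel_iff hΔ hq).mp hqN
    exact Fermat.Agent.Ribet.H104.dvd_abc_of_dvd_Δ P (Nat.prime_iff_prime_int.mp hq) h1
  · obtain ⟨𝔪, h𝔪, hp𝔪⟩ := exists_maximal_over_natPrime P.p P.pp
    refine ⟨g, P.freyCurveInt, 𝔪, hg, hW, h𝔪, hp𝔪, fun ℓ hℓ hgood hℓN _ =>
      ⟨((P.freyCurveInt.apOfModel ℓ : ℤ) : integralClosure ℤ ℂ), ?_, ?_⟩⟩
    · rw [hga ℓ hℓ hgood hℓN]
      simp
    · rw [sub_self]
      exact 𝔪.zero_mem

/-- The statement of `S43`. -/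
def S43Statement_h128 : Prop :=
  ∀ (P : FreyPackage) {N q : ℕ}, P.IsConductorLevel N → q.Prime → q ≠ 2 → q ≠ P.p → q ∣ N →
    GaloisRepIsIrreducible (K := AlgebraicClosure ℚ) ℚ P.freyCurve P.p →
    P.ModularRepOfLevel N → P.GaloisRepUnramifiedAt q →
    ∃ M : ℕ, M ∣ N ∧ ¬ q ∣ M ∧ P.ModularRepOfLevel M

/-- The statement of `S44`. -/
def S44Statement_h128 : Prop :=
  ∀ (P : FreyPackage) {N : ℕ}, P.IsConductorLevel N → P.p ∣ N →
    GaloisRepIsIrreducible (K := AlgebraicClosure ℚ) ℚ P.freyCurve P.p →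
    P.ModularRepOfLevel N →
    ∃ M : ℕ, M ∣ N ∧ ¬ P.p ∣ M ∧ P.ModularRepOfLevel M

/-- The frozen statement S43 from the plain chain of main. -/
theorem s43Statement_plain : S43Statement_h128 :=
  fun P _ _ hcond hq hq2 hqp hqN hirr hmod hunr =>
    Fermat.Agent.Ribet.H723.S43_of_hardMinScalar
      Fermat.Agent.Ribet.H943.S44Top.s44
      (fun P _ hq hq2 hqp => Fermat.Agent.S05.result P hq hq2 hqp)
      Fermat.Agent.Ribet.H158.WallQ.mazurPrincipleOddPlus
      Fermat.Agent.S38.IA.hardMinScalar_closed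
      P hcond hq hq2 hqp hqN hirr hmod hunr

/-- The frozen statement S44 from the plain chain of main. -/
theorem s44Statement_plain : S44Statement_h128 :=
  fun P _ hcond hpN hirr hmod => Fermat.Agent.Ribet.H943.S44Top.s44 P hcond hpN hirr hmod

/-- Descent of the level to a divisor of `2` (helper404's `S45.H404.exists_level_dvd_two`). -/
theorem exists_level_dvd_two_h128 (h43 : S43Statement_h128) (h44 : S44Statement_h128)
    (P : FreyPackage)
    (hirr : GaloisRepIsIrreducible (K := AlgebraicClosure ℚ) ℚ P.freyCurve P.p) :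
    ∀ N : ℕ, P.IsConductorLevel N → P.ModularRepOfLevel N →
      ∃ M : ℕ, M ∣ 2 ∧ P.ModularRepOfLevel M := by
  intro N
  induction N using Nat.strong_induction_on with
  | _ N ih =>
    intro hcond hmod
    by_cases hall : ∀ q : ℕ, q.Prime → q ∣ N → q = 2
    · -- `N` is squarefree with no odd prime factor
      refine ⟨N, ?_, hmod⟩
      have hN0 : N ≠ 0 := hcond.pos.ne'
      by_cases h2 : 2 ∣ N
      · obtain ⟨k, hk⟩ := h2
        have hk1 : k = 1 := by
          by_contra hk1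
          obtain ⟨q, hq, hqk⟩ := Nat.exists_prime_and_dvd hk1
          have hq2 : q = 2 := hall q hq (hk ▸ Dvd.dvd.mul_left hqk 2)
          subst hq2
          have h4 : 2 ^ 2 ∣ N := by
            obtain ⟨j, hj⟩ := hqk
            exact ⟨j, by rw [hk, hj]; ring⟩
          exact hcond.sq_not_dvd Nat.prime_two h4
        rw [hk, hk1]
      · have hN1 : N = 1 := by
          by_contra hN1
          obtain ⟨q, hq, hqN⟩ := Nat.exists_prime_and_dvd hN1
          exact h2 (hall q hq hqN ▸ hqN)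
        rw [hN1]
        exact one_dvd 2
    · push Not at hall
      obtain ⟨q, hq, hqN, hq2⟩ := hall
      have hstep : ∃ M : ℕ, M ∣ N ∧ ¬ q ∣ M ∧ P.ModularRepOfLevel M := by
        by_cases hqp : q = P.p
        · subst hqp
          exact h44 P hcond hqN hirr hmod
        · exact h43 P hcond hq hq2 hqp hqN hirr hmod (Fermat.Agent.S05.result P hq hq2 hqp)
      obtain ⟨M, hMN, hqM, hMmod⟩ := hstep
      have hMpos : 0 < M := Nat.pos_of_dvd_of_pos hMN hcond.pos
      have hMlt : M < N := by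
        refine lt_of_le_of_ne (Nat.le_of_dvd hcond.pos hMN) ?_
        rintro rfl
        exact hqM hqN
      exact ih M hMlt (hcond.of_dvd hMN hMpos) hMmod

/-- `Γ₀(1)` is all of `SL(2, ℤ)`. -/
theorem gamma0_one_eq_top_h128 : CongruenceSubgroup.Gamma0 1 = ⊤ := by
  ext g
  simp [CongruenceSubgroup.Gamma0_mem, Subsingleton.elim (_ : ZMod 1) 0]

/-- A weight `2` cusp form of level `1` vanishes (Mathlib; proof of the landed S08). -/
theorem cuspForm_level_one_eq_zero_h128 (f : CuspForm (CongruenceSubgroup.Gamma0 1) 2) :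
    f = 0 := by
  have key : ∀ (Γ : Subgroup (GL (Fin 2) ℝ)),
      Γ = (Matrix.SpecialLinearGroup.mapGL (n := Fin 2) (R := ℤ) ℝ).range →
      ∀ f : CuspForm Γ 2, f = 0 := by
    intro Γ h f
    subst h
    exact rank_zero_iff_forall_zero.mp
      (CuspForm.rank_eq_zero_of_weight_lt_twelve (k := 2) (by norm_num)) f
  refine key _ ?_ f
  rw [gamma0_one_eq_top_h128, MonoidHom.range_eq_map]

/-- **The frozen statement S45 from ENGINE-GE alone.** -/
theorem s45_of_engineGE (hE : NewPartInertiaStatementGE) (P : FreyPackage)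
    (hmod : P.freyCurve.IsModular)
    (hirr : GaloisRepIsIrreducible (K := AlgebraicClosure ℚ) ℚ P.freyCurve P.p) :
    ∃ f : CuspForm (CongruenceSubgroup.Gamma0 2) 2, f ≠ 0 := by
  obtain ⟨N, hcond, hmodN⟩ := relS06_of_engineGE hE P hmod
  obtain ⟨M, hM2, f, W, 𝔪, hf, -⟩ :=
    exists_level_dvd_two_h128 s43Statement_plain s44Statement_plain P hirr N hcond hmodN
  rcases (Nat.dvd_prime Nat.prime_two).mp hM2 with rfl | rfl
  · exact absurd (cuspForm_level_one_eq_zero_h128 f) hf.ne_zero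
  · exact ⟨f, hf.ne_zero⟩

end Fermat.Agent.S45.H128

end
-- ===== PACK-END S45/H128/Top.lean

-- ===== PACK-BEGIN S45/H128/OfEng.lean
section
/-
S45 top glue, adapter (helper128): the frozen statement S45 from the OFFICIAL engine Prop of row
CAR3, `Fermat.Agent.S45.Eng.NewPartInertiaGE` (`S45/Eng/Spec.lean`, architect helper48).

`s45_of_newPartInertiaGE : S45.Eng.NewPartInertiaGE → <frozen S45>`.
-/



set_option autoImplicit false

open WeierstrassCurve WeierstrassCurve.Affine WeierstrassCurve.Affine.Point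
open CuspForm ModularFormClass UpperHalfPlane
open FreyPackage

namespace Fermat.Agent.S45.H128

/-- The two forms of ENGINE-GE are the same `Prop`. -/
theorem newPartInertiaStatementGE_of_eng (h : Fermat.Agent.S45.Eng.NewPartInertiaGE) :
    NewPartInertiaStatementGE := h

/-- **The frozen statement S45 from the official engine Prop of row CAR3.** -/
theorem s45_of_newPartInertiaGE (hE : Fermat.Agent.S45.Eng.NewPartInertiaGE) (P : FreyPackage)
    (hmod : P.freyCurve.IsModular)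
    (hirr : GaloisRepIsIrreducible (K := AlgebraicClosure ℚ) ℚ P.freyCurve P.p) :
    ∃ f : CuspForm (CongruenceSubgroup.Gamma0 2) 2, f ≠ 0 :=
  s45_of_engineGE (newPartInertiaStatementGE_of_eng hE) P hmod hirr

end Fermat.Agent.S45.H128

end
-- ===== PACK-END S45/H128/OfEng.lean

-- ===== PACK-BEGIN S45/H128/Chain.lean
section
/-
S45, the conditional chain down to the TWO engine leaves of row CAR3 (helper128).

`s45_of_algE_modelE : S45.Eng.AlgEStatement → S45.Eng.ModelEStatement → <frozen S45>`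

= TOP (`S45/H128/OfEng.lean`) ∘ DESC-GE + SKEL-E (`S45/Eng/Top.lean`, helper48), with the engine at
`e = 2` taken from main (`S36.Eng.qNewInertia_of_alg3_model3` on ALG3 / MOD3 of the plain S36 chain).
-/






set_option autoImplicit false

open WeierstrassCurve WeierstrassCurve.Affine WeierstrassCurve.Affine.Point
open CuspForm ModularFormClass UpperHalfPlane
open FreyPackage

namespace Fermat.Agent.S45.H128

/-- The engine at `q² ∥ M` (S36), from the plain chain of main. -/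
theorem qNewInertia_main_h128 : Fermat.Agent.S36.H36.QNewInertiaStatement :=
  Fermat.Agent.S36.Eng.qNewInertia_of_alg3_model3 Fermat.Agent.S36.Alg3.alg3
    (Fermat.Agent.S36.Mod3.H928.model3_of_cuspCong Fermat.Agent.S36.Mod3.H96.leafCuspCong96)

/-- **The frozen statement S45 from the two engine leaves ALG-E and MOD-E.** -/
theorem s45_of_algE_modelE (hALG : Fermat.Agent.S45.Eng.AlgEStatement)
    (hMOD : Fermat.Agent.S45.Eng.ModelEStatement) (P : FreyPackage)
    (hmod : P.freyCurve.IsModular)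
    (hirr : GaloisRepIsIrreducible (K := AlgebraicClosure ℚ) ℚ P.freyCurve P.p) :
    ∃ f : CuspForm (CongruenceSubgroup.Gamma0 2) 2, f ≠ 0 :=
  s45_of_newPartInertiaGE
    (Fermat.Agent.S45.Eng.newPartInertiaGE_of_algE_modelE qNewInertia_main_h128 hALG hMOD)
    P hmod hirr

end Fermat.Agent.S45.H128

end
-- ===== PACK-END S45/H128/Chain.lean

-- ===== PACK-BEGIN S45/H128/OfModel.lean
section



/-!
# S45 (row CAR3) — TOP v3 (helper128): the frozen statement from MOD-E alone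

`Fermat.Agent.S45.AlgE.algE : S45.Eng.AlgEStatement` (block ALG-E, closed by helper586 from the
leaves of helper403, helper193, helper630, helper987) plugged into the compiled chain
`s45_of_algE_modelE`.  The only open hypothesis is `S45.Eng.ModelEStatement` (block MOD-E).
-/

set_option autoImplicit false

open WeierstrassCurve WeierstrassCurve.Affine WeierstrassCurve.Affine.Point
open CuspForm ModularFormClass UpperHalfPlane
open FreyPackage

namespace Fermat.Agent.S45.H128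

/-- **Frozen S45 from MOD-E.** -/
theorem s45_of_modelE (hM : Fermat.Agent.S45.Eng.ModelEStatement) (P : FreyPackage)
    (hmod : P.freyCurve.IsModular)
    (hirr : GaloisRepIsIrreducible (K := AlgebraicClosure ℚ) ℚ P.freyCurve P.p) :
    ∃ f : CuspForm (CongruenceSubgroup.Gamma0 2) 2, f ≠ 0 :=
  s45_of_algE_modelE Fermat.Agent.S45.AlgE.algE hM P hmod hirr

end Fermat.Agent.S45.H128

end
-- ===== PACK-END S45/H128/OfModel.lean

-- ===== PACK-BEGIN S45/ModE/H562/EndToEnd.lean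
section




/-!
# S45 (row CAR3) — end to end from MOD-E in the form of `ModE/Spec.lean` (helper562)

`s45_of_modE562 : ModE.ModelEStatement → <frozen S45>`:  the top of helper128
(`H128.s45_of_modelE`, ALG-E of helper586 plugged) composed with the adapter
`engModelE_of_modelE562`.  With `ModE.modelE_of_leaves` (helper928, `ModE/Skel.lean`):
frozen S45 from `LeafBaseX X` and `StepLeaves X`.
-/

set_option autoImplicit false

open WeierstrassCurve WeierstrassCurve.Affine WeierstrassCurve.Affine.Point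
open CuspForm ModularFormClass UpperHalfPlane
open FreyPackage

namespace Fermat.Agent.S45.ModE.H562

/-- **Frozen S45 from MOD-E** (`ModE.ModelEStatement`, helper928's form). -/
theorem s45_of_modE562 (hM : Fermat.Agent.S45.ModE.ModelEStatement) (P : FreyPackage)
    (hmod : P.freyCurve.IsModular)
    (hirr : GaloisRepIsIrreducible (K := AlgebraicClosure ℚ) ℚ P.freyCurve P.p) :
    ∃ f : CuspForm (CongruenceSubgroup.Gamma0 2) 2, f ≠ 0 :=
  Fermat.Agent.S45.H128.s45_of_modelE (engModelE_of_modelE562 hM) P hmod hirr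

/-- **Frozen S45 from the leaves of MOD-E.** -/
theorem s45_of_leaves562 (X : Fermat.Agent.S45.ModE.Extra)
    (hB : Fermat.Agent.S45.ModE.LeafBaseX X) (hS : Fermat.Agent.S45.ModE.StepLeaves X)
    (P : FreyPackage) (hmod : P.freyCurve.IsModular)
    (hirr : GaloisRepIsIrreducible (K := AlgebraicClosure ℚ) ℚ P.freyCurve P.p) :
    ∃ f : CuspForm (CongruenceSubgroup.Gamma0 2) 2, f ≠ 0 :=
  s45_of_modE562 (Fermat.Agent.S45.ModE.modelE_of_leaves hB hS) P hmod hirr

end Fermat.Agent.S45.ModE.H562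

end
-- ===== PACK-END S45/ModE/H562/EndToEnd.lean

-- ===== PACK-BEGIN S45/ModE/H233/S45Closed.lean
section



/-!
# S45 (row CAR3) — TRUNK: the frozen statement, UNCONDITIONAL (helper233)

`s45_closed_h233` has the type of the frozen statement S45 (`FreyPackage.level_lowering_to_two`):
TOP of helper128 + ALG-E of helper586 (inside `H128.s45_of_modelE`), adapter of helper562
(`ModE.H562.s45_of_modE562`), MOD-E closed in `Open.lean` (`modelE_h233`).
The plain top `Fermat/Agent/S45.lean` is the template with `exact s45_closed_h233 P hmod hirr`.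
-/

set_option autoImplicit false

open WeierstrassCurve WeierstrassCurve.Affine WeierstrassCurve.Affine.Point
open CuspForm ModularFormClass UpperHalfPlane
open FreyPackage

namespace Fermat.Agent.S45.ModE.H233

/-- Frozen S45 from REG-E, EXTRA-E and BASE (any extra invariant `X`). -/
theorem s45_of_reg {X : Fermat.Agent.S45.ModE.Extra} (hBase : Fermat.Agent.S45.ModE.LeafBaseX X)
    (hReg : Fermat.Agent.S45.ModE.LeafRegE X) (hExtra : Fermat.Agent.S45.ModE.LeafExtraE X)
    (P : FreyPackage) (hmod : P.freyCurve.IsModular)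
    (hirr : GaloisRepIsIrreducible (K := AlgebraicClosure ℚ) ℚ P.freyCurve P.p) :
    ∃ f : CuspForm (CongruenceSubgroup.Gamma0 2) 2, f ≠ 0 :=
  Fermat.Agent.S45.ModE.H562.s45_of_modE562 (modelE_of_reg hBase hReg hExtra) P hmod hirr

/-- **Frozen S45, UNCONDITIONAL.** -/
theorem s45_closed_h233 (P : FreyPackage) (hmod : P.freyCurve.IsModular)
    (hirr : GaloisRepIsIrreducible (K := AlgebraicClosure ℚ) ℚ P.freyCurve P.p) :
    ∃ f : CuspForm (CongruenceSubgroup.Gamma0 2) 2, f ≠ 0 :=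
  Fermat.Agent.S45.ModE.H562.s45_of_modE562 modelE_h233 P hmod hirr

end Fermat.Agent.S45.ModE.H233

end
-- ===== PACK-END S45/ModE/H233/S45Closed.lean

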